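import Mathlib
import Fermat.Prelude.Def_ModularCurve_LaurentCoeff

/-!
The Gauss valuation of Laurent series over a discrete valuation ring.
-/

set_option autoImplicit false
set_option linter.unusedSectionVars false

noncomputable section

namespace Fermat.Agent.LG

open IsLocalRing ModularCurve

variable (O : Type*) [CommRing O] [IsDomain O] [IsDiscreteValuationRing O]
variable (L : Type*) [Field L] [Algebra O L] [IsFractionRing O L]

/-- coefficients in the fraction field -/
def toL : LaurentSeries O →+* LaurentSeries L := coeffMap (algebraMap O L)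

/-- reduction of the coefficients -/
def toK : LaurentSeries O →+* LaurentSeries (ResidueField O) := coeffMap (residue O)

@[simp] lemma toL_coeff (x : LaurentSeries O) (n : ℤ) :
    (toL O L x).coeff n = algebraMap O L (x.coeff n) := rfl

@[simp] lemma toK_coeff (x : LaurentSeries O) (n : ℤ) :
    (toK O x).coeff n = residue O (x.coeff n) := rfl

lemma toL_injective : Function.Injective (toL O L) := by
  intro x y h
  ext n
  exact IsFractionRing.injective O L (congrArg (fun z : LaurentSeries L => z.coeff n) h)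

variable {O}

lemma exists_eq_mul_of_toK_eq_zero {ϖ : O} (hϖ : Irreducible ϖ) {x : LaurentSeries O}
    (hx : toK O x = 0) : ∃ y, x = HahnSeries.C ϖ * y := by
  have h1 : ∀ n, ∃ c, x.coeff n = ϖ * c := by
    intro n
    have h2 : residue O (x.coeff n) = 0 := congrArg (fun z : LaurentSeries _ => z.coeff n) hx
    rw [residue_eq_zero_iff, hϖ.maximalIdeal_eq, Ideal.mem_span_singleton] at h2
    exact h2
  choose c hc using h1
  have hc' : ∀ n, x.coeff n = 0 → c n = 0 := by
    intro n hn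
    rw [hc n] at hn
    exact (mul_eq_zero.mp hn).resolve_left hϖ.ne_zero
  refine ⟨⟨c, x.isPWO_support.mono fun n hn => ?_⟩, ?_⟩
  · rw [HahnSeries.mem_support]
    exact fun h => hn (hc' n h)
  · ext n
    rw [HahnSeries.C_mul_eq_smul, HahnSeries.coeff_smul, smul_eq_mul]
    exact hc n

lemma toK_C_of_irreducible {ϖ : O} (hϖ : Irreducible ϖ) : toK O (HahnSeries.C ϖ) = 0 := by
  have h : residue O ϖ = 0 := by
    rw [residue_eq_zero_iff, hϖ.maximalIdeal_eq]
    exact Ideal.mem_span_singleton_self ϖ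
  ext n
  rw [toK_coeff, HahnSeries.C_apply]
  rcases eq_or_ne n 0 with rfl | hn
  · rw [HahnSeries.coeff_single_same, h]; rfl
  · rw [HahnSeries.coeff_single_of_ne hn, map_zero]; rfl

/-- a nonzero Laurent series over `O` is a power of `ϖ` times a series with nonzero reduction -/
lemma exists_pow_mul {ϖ : O} (hϖ : Irreducible ϖ) {x : LaurentSeries O} (hx : x ≠ 0) :
    ∃ (n : ℕ) (y : LaurentSeries O), toK O y ≠ 0 ∧ x = HahnSeries.C ϖ ^ n * y := by
  classical
  obtain ⟨i, hi⟩ : ∃ i, x.coeff i ≠ 0 := by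
    by_contra h
    push Not at h
    exact hx (HahnSeries.ext (funext h))
  obtain ⟨m, hm⟩ := IsDiscreteValuationRing.associated_pow_irreducible hi hϖ
  -- strong induction on the valuation of the coefficient
  have key : ∀ (m : ℕ) (x : LaurentSeries O), Associated (x.coeff i) (ϖ ^ m) →
      ∃ (n : ℕ) (y : LaurentSeries O), toK O y ≠ 0 ∧ x = HahnSeries.C ϖ ^ n * y := by
    intro m
    induction m with
    | zero =>
      intro x hx
      refine ⟨0, x, fun h => ?_, by simp⟩
      have h1 : residue O (x.coeff i) = 0 := congrArg (fun z : LaurentSeries _ => z.coeff i) h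
      rw [pow_zero, associated_one_iff_isUnit] at hx
      exact (residue_ne_zero_iff_isUnit (x.coeff i)).mpr hx h1
    | succ m ih =>
      intro x hx
      by_cases h : toK O x = 0
      · obtain ⟨y, rfl⟩ := exists_eq_mul_of_toK_eq_zero hϖ h
        have h2 : Associated (y.coeff i) (ϖ ^ m) := by
          rw [HahnSeries.C_mul_eq_smul, HahnSeries.coeff_smul, smul_eq_mul, pow_succ'] at hx
          exact Associated.of_mul_left hx (Associated.refl ϖ) hϖ.ne_zero
        obtain ⟨n, z, hz, rfl⟩ := ih y h2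
        exact ⟨n + 1, z, hz, by rw [pow_succ]; ring⟩
      · exact ⟨0, x, h, by simp⟩
  exact key m x hm

variable (O)

/-- The Gauss valuation ring (of the fractions of bounded series). -/
def gV : Subring (LaurentSeries L) where
  carrier := {x | ∃ a b : LaurentSeries O, toK O b ≠ 0 ∧ toL O L b * x = toL O L a}
  mul_mem' := by
    rintro x y ⟨a, b, hb, h⟩ ⟨c, d, hd, h'⟩
    refine ⟨a * c, b * d, by rw [map_mul]; exact mul_ne_zero hb hd, ?_⟩
    rw [map_mul, map_mul, ← h, ← h']; ring
  one_mem' := ⟨1, 1, by simp, by simp⟩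
  add_mem' := by
    rintro x y ⟨a, b, hb, h⟩ ⟨c, d, hd, h'⟩
    refine ⟨a * d + b * c, b * d, by rw [map_mul]; exact mul_ne_zero hb hd, ?_⟩
    rw [map_mul, map_add, map_mul, map_mul, ← h, ← h']; ring
  zero_mem' := ⟨0, 1, by simp, by simp⟩
  neg_mem' := by
    rintro x ⟨a, b, hb, h⟩
    exact ⟨-a, b, hb, by rw [map_neg, ← h]; ring⟩

/-- The field of fractions of bounded series. -/
def gK : Subfield (LaurentSeries L) where
  carrier := {x | ∃ a b : LaurentSeries O, b ≠ 0 ∧ toL O L b * x = toL O L a}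
  mul_mem' := by
    rintro x y ⟨a, b, hb, h⟩ ⟨c, d, hd, h'⟩
    refine ⟨a * c, b * d, mul_ne_zero hb hd, ?_⟩
    rw [map_mul, map_mul, ← h, ← h']; ring
  one_mem' := ⟨1, 1, one_ne_zero, by simp⟩
  add_mem' := by
    rintro x y ⟨a, b, hb, h⟩ ⟨c, d, hd, h'⟩
    refine ⟨a * d + b * c, b * d, mul_ne_zero hb hd, ?_⟩
    rw [map_mul, map_add, map_mul, map_mul, ← h, ← h']; ring
  zero_mem' := ⟨0, 1, one_ne_zero, by simp⟩
  neg_mem' := by
    rintro x ⟨a, b, hb, h⟩
    exact ⟨-a, b, hb, by rw [map_neg, ← h]; ring⟩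
  inv_mem' := by
    rintro x ⟨a, b, hb, h⟩
    rcases eq_or_ne x 0 with rfl | hx
    · exact ⟨0, 1, one_ne_zero, by simp⟩
    · have hb' : toL O L b ≠ 0 := (map_ne_zero_iff _ (toL_injective O L)).mpr hb
      have ha : a ≠ 0 := by
        rintro rfl
        rw [map_zero] at h
        exact (mul_ne_zero hb' hx) h
      refine ⟨b, a, ha, ?_⟩
      rw [← h]
      field_simp

variable {O L}

lemma mem_gV {x : LaurentSeries L} : x ∈ gV O L ↔
    ∃ a b : LaurentSeries O, toK O b ≠ 0 ∧ toL O L b * x = toL O L a := Iff.rfl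

lemma mem_gK {x : LaurentSeries L} : x ∈ gK O L ↔
    ∃ a b : LaurentSeries O, b ≠ 0 ∧ toL O L b * x = toL O L a := Iff.rfl

lemma gV_le_gK {x : LaurentSeries L} (hx : x ∈ gV O L) : x ∈ gK O L := by
  obtain ⟨a, b, hb, h⟩ := hx
  exact ⟨a, b, fun h0 => hb (by rw [h0, map_zero]), h⟩

lemma toL_mem_gV (a : LaurentSeries O) : toL O L a ∈ gV O L := ⟨a, 1, by simp, by simp⟩

lemma exists_repr (x : gV O L) : ∃ ab : LaurentSeries O × LaurentSeries O, toK O ab.2 ≠ 0 ∧
    toL O L ab.2 * (x : LaurentSeries L) = toL O L ab.1 := by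
  obtain ⟨a, b, h, h'⟩ := x.2
  exact ⟨(a, b), h, h'⟩

/-- The reduction map. -/
def gRfun (x : gV O L) : LaurentSeries (ResidueField O) :=
  toK O (exists_repr x).choose.1 / toK O (exists_repr x).choose.2

lemma gRfun_eq {x : gV O L} {a b : LaurentSeries O} (hb : toK O b ≠ 0)
    (h : toL O L b * (x : LaurentSeries L) = toL O L a) : gRfun x = toK O a / toK O b := by
  have h1 := (exists_repr x).choose_spec
  change toK O (exists_repr x).choose.1 / toK O (exists_repr x).choose.2 = _
  generalize (exists_repr x).choose = ab at h1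
  obtain ⟨a1, b1⟩ := ab
  simp only at h1 ⊢
  rw [div_eq_div_iff h1.1 hb, ← map_mul, ← map_mul]
  congr 1
  apply toL_injective O L
  rw [map_mul, map_mul, ← h1.2, ← h]
  ring

/-- The reduction map. -/
def gR : gV O L →+* LaurentSeries (ResidueField O) where
  toFun := gRfun
  map_one' := by
    rw [gRfun_eq (a := 1) (b := 1) (by simp) (by simp)]
    simp
  map_zero' := by
    rw [gRfun_eq (a := 0) (b := 1) (by simp) (by simp)]
    simp
  map_mul' x y := by
    obtain ⟨⟨a, b⟩, hb, h⟩ := exists_repr x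
    obtain ⟨⟨c, d⟩, hd, h'⟩ := exists_repr y
    simp only at hb h hd h'
    rw [gRfun_eq hb h, gRfun_eq hd h', gRfun_eq (a := a * c) (b := b * d)
      (by rw [map_mul]; exact mul_ne_zero hb hd)
      (by rw [map_mul, map_mul, ← h, ← h', Subring.coe_mul]; ring), map_mul, map_mul,
      div_mul_div_comm]
  map_add' x y := by
    obtain ⟨⟨a, b⟩, hb, h⟩ := exists_repr x
    obtain ⟨⟨c, d⟩, hd, h'⟩ := exists_repr y
    simp only at hb h hd h'
    rw [gRfun_eq hb h, gRfun_eq hd h', gRfun_eq (a := a * d + b * c) (b := b * d)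
      (by rw [map_mul]; exact mul_ne_zero hb hd)
      (by rw [map_mul, map_add, map_mul, map_mul, ← h, ← h', Subring.coe_add]; ring), map_add,
      map_mul, map_mul, map_mul, div_add_div _ _ hb hd]

lemma gR_eq {x : gV O L} {a b : LaurentSeries O} (hb : toK O b ≠ 0)
    (h : toL O L b * (x : LaurentSeries L) = toL O L a) : gR x = toK O a / toK O b :=
  gRfun_eq hb h

lemma gR_toL (a : LaurentSeries O) : gR (⟨toL O L a, toL_mem_gV a⟩ : gV O L) = toK O a := by
  rw [gR_eq (a := a) (b := 1) (by simp) (by simp)]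
  simp

lemma toL_C (c : O) : toL O L (HahnSeries.C c) = HahnSeries.C (algebraMap O L c) := by
  rw [HahnSeries.C_apply, HahnSeries.C_apply]
  exact coeffMap_single _ _ _

lemma C_mem_gV (c : O) : HahnSeries.C (algebraMap O L c) ∈ gV O L := by
  rw [← toL_C]
  exact toL_mem_gV _

lemma C_mem_gK (c : L) : HahnSeries.C c ∈ gK O L := by
  obtain ⟨a, b, hb, rfl⟩ := IsFractionRing.div_surjective (A := O) c
  refine ⟨HahnSeries.C a, HahnSeries.C b, ?_, ?_⟩
  · have := nonZeroDivisors.ne_zero hb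
    simpa using this
  · rw [toL_C, toL_C, ← map_mul]
    congr 1
    have : algebraMap O L b ≠ 0 := by
      simpa using nonZeroDivisors.ne_zero hb
    field_simp

/-- kernel of the reduction -/
lemma gR_eq_zero_iff {ϖ : O} (hϖ : Irreducible ϖ) (x : gV O L) :
    gR x = 0 ↔ ∃ y ∈ gV O L, (x : LaurentSeries L) = HahnSeries.C (algebraMap O L ϖ) * y := by
  constructor
  · intro h
    obtain ⟨a, b, hb, hx⟩ := x.2
    rw [gR_eq hb hx, div_eq_zero_iff, or_iff_left hb] at h
    obtain ⟨c, rfl⟩ := exists_eq_mul_of_toK_eq_zero hϖ h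
    have hb' : toL O L b ≠ 0 := (map_ne_zero_iff _ (toL_injective O L)).mpr
      (fun h0 => hb (by rw [h0, map_zero]))
    refine ⟨toL O L c / toL O L b, ⟨c, b, hb, by field_simp⟩, ?_⟩
    rw [map_mul, toL_C] at hx
    rw [mul_div_assoc', ← hx]
    field_simp
  · rintro ⟨y, ⟨a, b, hb, hy⟩, hxy⟩
    have h : toL O L b * (x : LaurentSeries L) = toL O L (HahnSeries.C ϖ * a) := by
      rw [hxy, map_mul, toL_C, ← hy]; ring
    rw [gR_eq hb h, map_mul, toK_C_of_irreducible hϖ, zero_mul, zero_div]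

lemma gR_C (c : O) : gR (⟨HahnSeries.C (algebraMap O L c), C_mem_gV c⟩ : gV O L) =
    HahnSeries.C (residue O c) := by
  have h : toL O L 1 * (HahnSeries.C (algebraMap O L c) : LaurentSeries L) =
      toL O L (HahnSeries.C c) := by rw [toL_C, map_one, one_mul]
  have h1 : toK O (1 : LaurentSeries O) ≠ 0 := by rw [map_one]; exact one_ne_zero
  rw [gR_eq (x := ⟨HahnSeries.C (algebraMap O L c), C_mem_gV c⟩) h1 h, map_one, div_one]
  rw [HahnSeries.C_apply, HahnSeries.C_apply]
  exact coeffMap_single _ _ _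

lemma isUnit_of_gR_ne_zero {x : gV O L} (h : gR x ≠ 0) : ((x : LaurentSeries L))⁻¹ ∈ gV O L := by
  obtain ⟨a, b, hb, hx⟩ := x.2
  rw [gR_eq hb hx] at h
  have ha : toK O a ≠ 0 := fun h0 => h (by rw [h0, zero_div])
  have hb' : toL O L b ≠ 0 := (map_ne_zero_iff _ (toL_injective O L)).mpr
      (fun h0 => hb (by rw [h0, map_zero]))
  have ha' : toL O L a ≠ 0 := (map_ne_zero_iff _ (toL_injective O L)).mpr
      (fun h0 => ha (by rw [h0, map_zero]))
  have hx0 : (x : LaurentSeries L) ≠ 0 := by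
    rintro h0
    rw [h0, mul_zero] at hx
    exact ha' hx.symm
  refine ⟨b, a, ha, ?_⟩
  rw [← hx]
  field_simp

/-- every nonzero element of `gK` is a power of `ϖ` times a unit of `gV` -/
lemma exists_zpow_mul {ϖ : O} (hϖ : Irreducible ϖ) {x : LaurentSeries L} (hx : x ∈ gK O L)
    (hx0 : x ≠ 0) : ∃ (n : ℤ) (u : LaurentSeries L) (hu : u ∈ gV O L), gR ⟨u, hu⟩ ≠ 0 ∧
      x = (HahnSeries.C (algebraMap O L ϖ)) ^ n * u := by
  obtain ⟨a, b, hb, h⟩ := hx
  have hb' : toL O L b ≠ 0 := (map_ne_zero_iff _ (toL_injective O L)).mpr hb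
  have ha : a ≠ 0 := by
    rintro rfl
    rw [map_zero] at h
    exact (mul_ne_zero hb' hx0) h
  obtain ⟨n, a', ha', rfl⟩ := exists_pow_mul hϖ ha
  obtain ⟨m, b', hb1, rfl⟩ := exists_pow_mul hϖ hb
  have hb2 : toL O L b' ≠ 0 := (map_ne_zero_iff _ (toL_injective O L)).mpr
      (fun h0 => hb1 (by rw [h0, map_zero]))
  have hpi : (HahnSeries.C (algebraMap O L ϖ) : LaurentSeries L) ≠ 0 := by
    have : algebraMap O L ϖ ≠ 0 := by
      simpa using hϖ.ne_zero
    simpa using this
  have hu : toL O L a' / toL O L b' ∈ gV O L := ⟨a', b', hb1, by field_simp⟩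
  refine ⟨(n : ℤ) - m, toL O L a' / toL O L b', hu, ?_, ?_⟩
  · rw [gR_eq (x := ⟨_, hu⟩) (a := a') (b := b') hb1
      (show toL O L b' * (toL O L a' / toL O L b') = toL O L a' by field_simp)]
    exact div_ne_zero ha' hb1
  · rw [map_mul, map_mul, map_pow, map_pow, toL_C] at h
    rw [zpow_sub₀ hpi, zpow_natCast, zpow_natCast]
    have hpm : (HahnSeries.C (algebraMap O L ϖ) : LaurentSeries L) ^ m ≠ 0 := pow_ne_zero _ hpi
    field_simp
    linear_combination h

lemma mem_or_inv_mem {x : LaurentSeries L} (hx : x ∈ gK O L) : x ∈ gV O L ∨ x⁻¹ ∈ gV O L := by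
  obtain ⟨ϖ, hϖ⟩ := IsDiscreteValuationRing.exists_irreducible O
  rcases eq_or_ne x 0 with rfl | hx0
  · exact Or.inl (zero_mem _)
  obtain ⟨n, u, hu, hu1, rfl⟩ := exists_zpow_mul hϖ hx hx0
  have hp : (HahnSeries.C (algebraMap O L ϖ) : LaurentSeries L) ∈ gV O L := C_mem_gV ϖ
  rcases le_total 0 n with h | h
  · left
    obtain ⟨m, rfl⟩ := Int.eq_ofNat_of_zero_le h
    rw [zpow_natCast]
    exact mul_mem (pow_mem hp _) hu
  · right
    obtain ⟨m, hm⟩ := Int.eq_ofNat_of_zero_le (neg_nonneg.mpr h)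
    rw [mul_inv, ← zpow_neg, hm, zpow_natCast]
    exact mul_mem (pow_mem hp _) (isUnit_of_gR_ne_zero (x := ⟨u, hu⟩) hu1)

/-- `gV` is integrally closed in `gK` -/
lemma mem_gV_of_isIntegral {x : LaurentSeries L} (hx : x ∈ gK O L) (hint : IsIntegral (gV O L) x) :
    x ∈ gV O L := by
  rcases mem_or_inv_mem hx with h | h
  · exact h
  rcases eq_or_ne x 0 with rfl | hx0
  · exact zero_mem _
  by_contra hcon
  have hr : gR (⟨x⁻¹, h⟩ : gV O L) = 0 := by
    by_contra h1
    exact hcon (by simpa using isUnit_of_gR_ne_zero h1)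
  obtain ⟨p, hpm, hp⟩ := hint
  have hdeg : p.natDegree ≠ 0 := by
    intro h0
    have := hpm.natDegree_eq_zero.mp h0
    rw [this, Polynomial.eval₂_one] at hp
    exact one_ne_zero hp
  -- evaluate the reversed polynomial at `x⁻¹`
  have h2 : Polynomial.eval₂ (algebraMap (gV O L) (LaurentSeries L)) x⁻¹ p.reverse = 0 := by
    let := invertibleOfNonzero hx0
    have h3 := Polynomial.eval₂_reverse_eq_zero_iff (algebraMap (gV O L) (LaurentSeries L)) x p
    simpa using h3.mpr hp
  have h3 : Polynomial.eval (⟨x⁻¹, h⟩ : gV O L) p.reverse = 0 := by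
    apply Subtype.ext
    have h4 : (algebraMap (gV O L) (LaurentSeries L)) (Polynomial.eval (⟨x⁻¹, h⟩ : gV O L)
        p.reverse) = Polynomial.eval₂ (algebraMap (gV O L) (LaurentSeries L)) x⁻¹ p.reverse := by
      rw [← Polynomial.eval₂_at_apply]
      rfl
    exact h4.trans h2
  have h4 := congrArg gR h3
  rw [map_zero, ← Polynomial.eval₂_at_apply, hr, Polynomial.eval₂_at_zero,
    Polynomial.coeff_zero_reverse, hpm.leadingCoeff, map_one] at h4
  exact one_ne_zero h4

end Fermat.Agent.LG
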