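import Mathlib
import Fermat.Agent.Geo.ListUnr

/-!
In a complete list of extensions of a discrete valuation ring, the given elements generate the
residue fields.
-/

set_option autoImplicit false

open IsLocalRing

universe u

namespace Fermat.Agent.LG

open Fermat.Agent.Geo

variable {F E : Type*} [Field F] [Field E] [Algebra F E]
  {V : ValuationSubring F} [IsDiscreteValuationRing V]
  [FiniteDimensional F E] [Algebra.IsSeparable F E]

theorem list_span {ϖ : V} (hϖ : Irreducible ϖ) {ι : Type*} [Fintype ι]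
    (W : ι → ValuationSubring E) (hinj : Function.Injective W)
    (hW : ∀ i, ∀ x ∈ V, algebraMap F E x ∈ W i) (hϖW : ∀ i, algebraMap F E ϖ ∈ (W i).nonunits)
    (n : ι → ℕ) (b : ∀ i, Fin (n i) → E) (hb : ∀ i j, b i j ∈ W i)
    (hind : ∀ i, ∀ c : Fin (n i) → F, (∀ j, c j ∈ V) → ∑ j, c j • b i j ∈ (W i).nonunits →
      ∀ j, c j ∈ V.nonunits)
    (hsum : Module.finrank F E ≤ ∑ i, n i) (i₀ : ι) {x : E} (hx : x ∈ W i₀) :
    ∃ c : Fin (n i₀) → F, (∀ j, c j ∈ V) ∧ x - ∑ j, c j • b i₀ j ∈ (W i₀).nonunits := by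
  classical
  -- lift the bases
  have hlift : ∀ i j, ∃ b' : E, IntOver V.toSubring b' ∧ b' - b i j ∈ (W i).nonunits ∧
      ∀ i', i' ≠ i → b' ∈ (W i').nonunits := by
    intro i j
    obtain ⟨r, hr, hri⟩ := exists_separating hϖ W hinj hW hϖW
      (fun i' => if i' = i then b i j else 0) (fun i' => by
        split_ifs with h
        · subst h
          exact hb i' j
        · exact zero_mem _)
    refine ⟨r, hr, by simpa using hri i, fun i' hi' => ?_⟩
    have := hri i'
    rw [if_neg hi', sub_zero] at this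
    exact this
  obtain ⟨x', hx', hx'i⟩ := exists_separating hϖ W hinj hW hϖW
      (fun i' => if i' = i₀ then x else 0) (fun i' => by
        split_ifs with h
        · subst h
          exact hx
        · exact zero_mem _)
  choose b' hb' hb'1 hb'2 using hlift
  let J := Σ i, Fin (n i)
  let β : J → E := fun a => b' a.1 a.2
  have hcard : Fintype.card J = ∑ i, n i := by
    rw [Fintype.card_sigma]
    simp
  have hdecomp : ∀ (i : ι) (c : J → F), (∀ a, c a ∈ V) →
      ∑ a, c a • β a - ∑ j, c ⟨i, j⟩ • b i j ∈ (W i).nonunits := by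
    intro i c hc
    have h1 : ∑ a, c a • β a = ∑ i', ∑ j, c ⟨i', j⟩ • b' i' j := by
      rw [← Finset.univ_sigma_univ, Finset.sum_sigma]
    have h2 : ∑ i', ∑ j, c ⟨i', j⟩ • b' i' j = ∑ j, c ⟨i, j⟩ • b' i j +
        ∑ i' ∈ Finset.univ.erase i, ∑ j, c ⟨i', j⟩ • b' i' j :=
      (Finset.add_sum_erase _ _ (Finset.mem_univ i)).symm
    have h3 : ∑ i' ∈ Finset.univ.erase i, ∑ j, c ⟨i', j⟩ • b' i' j ∈ (W i).nonunits := by
      refine sum_mem fun i' hi' => sum_mem fun j _ => ?_
      exact sub_mem_nonunits_iff_quot (hW i) (hc _) (hb'2 i' j i (Finset.ne_of_mem_erase hi').symm)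
    have h4 : ∑ a, c a • β a - ∑ j, c ⟨i, j⟩ • b i j =
        ∑ i' ∈ Finset.univ.erase i, ∑ j, c ⟨i', j⟩ • b' i' j +
        ∑ j, c ⟨i, j⟩ • (b' i j - b i j) := by
      rw [h1, h2]
      simp only [smul_sub, Finset.sum_sub_distrib]
      ring
    rw [h4]
    refine add_mem h3 (sum_mem fun j _ => ?_)
    exact sub_mem_nonunits_iff_quot (hW i) (hc _) (hb'1 i j)
  -- the key independence
  have key : ∀ c : J → F, (∀ a, c a ∈ V) → (∀ i, ∑ a, c a • β a ∈ (W i).nonunits) →
      ∀ a, c a ∈ V.nonunits := by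
    rintro c hc hsumc ⟨i, j⟩
    refine hind i (fun j => c ⟨i, j⟩) (fun j => hc _) ?_ j
    have h4 : ∑ j, c ⟨i, j⟩ • b i j = ∑ a, c a • β a -
        (∑ a, c a • β a - ∑ j, c ⟨i, j⟩ • b i j) := by ring
    rw [h4]
    exact sub_mem (hsumc i) (hdecomp i c hc)
  have hone : (1 : F) ∉ V.nonunits := by
    rw [ValuationSubring.mem_nonunits_iff, map_one]
    exact lt_irrefl _
  have hli : LinearIndependent F β := by
    rw [Fintype.linearIndependent_iff]
    intro c hc
    by_contra hne
    push Not at hne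
    obtain ⟨a₀, ha₀, hmax⟩ := exists_max_coeff V c hne
    have h1 := key (fun a => (c a₀)⁻¹ * c a) hmax (fun i => by
      have h2 : ∑ a, ((c a₀)⁻¹ * c a) • β a = 0 := by
        simp only [mul_smul]
        rw [← Finset.smul_sum, hc, smul_zero]
      rw [h2]
      exact zero_mem_nonunits _) a₀
    rw [inv_mul_cancel₀ ha₀] at h1
    exact hone h1
  have hJcard : Fintype.card J = Module.finrank F E :=
    le_antisymm hli.fintype_card_le_finrank (by rw [hcard]; exact hsum)
  have hspan : Submodule.span F (Set.range β) = ⊤ := by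
    by_cases hJ : Nonempty J
    · exact hli.span_eq_top_of_card_eq_finrank hJcard
    · exfalso
      have : Fintype.card J = 0 := by
        rw [not_nonempty_iff] at hJ
        exact Fintype.card_eq_zero
      rw [this] at hJcard
      exact (Module.finrank_pos (R := F) (M := E)).ne hJcard
  have hx1 : x' ∈ Submodule.span F (Set.range β) := by rw [hspan]; trivial
  obtain ⟨c, hc⟩ := (Submodule.mem_span_range_iff_exists_fun F).mp hx1
  have hcV : ∀ a, c a ∈ V := by
    by_contra hne
    push Not at hne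
    obtain ⟨a₁, ha₁⟩ := hne
    have hc1 : c a₁ ≠ 0 := fun h0 => ha₁ (by rw [h0]; exact zero_mem V)
    obtain ⟨a₀, ha₀, hmax⟩ := exists_max_coeff V c ⟨a₁, hc1⟩
    have hinv : (c a₀)⁻¹ ∈ V.nonunits := by
      rw [ValuationSubring.mem_nonunits_iff_or, inv_inv]
      right
      intro h
      apply ha₁
      have h3 : c a₁ = (c a₀) * ((c a₀)⁻¹ * c a₁) := by field_simp
      rw [h3]
      exact mul_mem h (hmax a₁)
    have h1 := key (fun a => (c a₀)⁻¹ * c a) hmax (fun i => by
      have h2 : ∑ a, ((c a₀)⁻¹ * c a) • β a = x' * algebraMap F E (c a₀)⁻¹ := by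
        simp only [mul_smul]
        rw [← Finset.smul_sum, hc, Algebra.smul_def, mul_comm]
      rw [h2]
      refine mul_mem_nonunits (mem_of_intOver (hW i) hx') ?_
      obtain ⟨hmem, hmax⟩ := ValuationSubring.mem_nonunits_iff_exists_mem_maximalIdeal.mp hinv
      rw [hϖ.maximalIdeal_eq, Ideal.mem_span_singleton] at hmax
      obtain ⟨d, hd⟩ := hmax
      have h5 : (c a₀)⁻¹ = (d : F) * ϖ := by
        have := congrArg Subtype.val hd
        rw [mul_comm]
        exact this
      rw [h5, map_mul]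
      exact mul_mem_nonunits (hW i _ d.2) (hϖW i)) a₀
    rw [inv_mul_cancel₀ ha₀] at h1
    exact hone h1
  refine ⟨fun j => c ⟨i₀, j⟩, fun j => hcV _, ?_⟩
  have h1 := hdecomp i₀ c hcV
  rw [hc] at h1
  have h2 := hx'i i₀
  rw [if_pos rfl] at h2
  have h3 : x - ∑ j, c ⟨i₀, j⟩ • b i₀ j = (x' - ∑ j, c ⟨i₀, j⟩ • b i₀ j) - (x' - x) := by ring
  rw [h3]
  exact sub_mem h1 h2

end Fermat.Agent.LG
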