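import Mathlib
import Fermat.Agent.LG.Gauss
import Fermat.Agent.LG.ListSpan
import Fermat.Agent.Geo.ConnVal
import Fermat.Agent.Geo.ResSep

/-!
Valuation rings attached to embeddings into Laurent series fields.
-/

set_option autoImplicit false
set_option linter.unusedSectionVars false

open IsLocalRing Polynomial Fermat.Agent.Geo ModularCurve

noncomputable section

universe u

namespace Fermat.Agent.LG

section Deriv

variable {R : Type*} [CommRing R]

/-- `q d/dq` -/
def thFun (x : LaurentSeries R) : LaurentSeries R where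
  coeff n := n • x.coeff n
  isPWO_support' := x.isPWO_support'.mono (by
    intro n hn
    simp only [Function.mem_support, ne_eq] at hn ⊢
    intro h
    exact hn (by rw [h, smul_zero]))

@[simp] lemma thFun_coeff (x : LaurentSeries R) (n : ℤ) : (thFun x).coeff n = n • x.coeff n := rfl

lemma thFun_mul (x y : LaurentSeries R) : thFun (x * y) = x * thFun y + y * thFun x := by
  ext n
  have hx : (thFun x).support ⊆ x.support := by
    intro n hn
    simp only [HahnSeries.mem_support, thFun_coeff, ne_eq] at hn ⊢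
    intro h
    exact hn (by rw [h, smul_zero])
  have hy : (thFun y).support ⊆ y.support := by
    intro n hn
    simp only [HahnSeries.mem_support, thFun_coeff, ne_eq] at hn ⊢
    intro h
    exact hn (by rw [h, smul_zero])
  rw [HahnSeries.coeff_add, mul_comm y, HahnSeries.coeff_mul_right' y.isPWO_support hy,
    HahnSeries.coeff_mul_left' x.isPWO_support hx, thFun_coeff, HahnSeries.coeff_mul,
    Finset.smul_sum, ← Finset.sum_add_distrib]
  refine Finset.sum_congr rfl fun ij hij => ?_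
  rw [Finset.mem_antidiagonal] at hij
  rw [thFun_coeff, thFun_coeff, ← hij.2.2]
  simp only [zsmul_eq_mul]
  push_cast
  ring

/-- `q d/dq` as an additive map -/
def thAdd (R : Type*) [CommRing R] : LaurentSeries R →+ LaurentSeries R where
  toFun := thFun
  map_zero' := by
    ext n
    rw [thFun_coeff, HahnSeries.coeff_zero, smul_zero]
  map_add' x y := by
    ext n
    rw [thFun_coeff, HahnSeries.coeff_add, HahnSeries.coeff_add, thFun_coeff, thFun_coeff,
      smul_add]

/-- A derivation from an additive map. -/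
def derivOfAdd {L : Type*} [Field L] (f : L →+ L) (h : ∀ x y, f (x * y) = x * f y + y * f x) :
    Derivation ℤ L L :=
  Derivation.mk' f.toIntLinearMap h

/-- The derivation `q d/dq`. -/
def thD {k : Type*} [Field k] := derivOfAdd (thAdd k) thFun_mul

@[simp] lemma thD_coeff {k : Type*} [Field k] (x : LaurentSeries k) (n : ℤ) :
    (thD x).coeff n = n • x.coeff n := rfl

lemma thD_C {k : Type*} [Field k] (a : k) : thD (HahnSeries.C a : LaurentSeries k) = 0 := by
  ext n
  rw [thD_coeff, HahnSeries.C_apply, HahnSeries.coeff_single]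
  split_ifs with h
  · rw [h, zero_smul]; rfl
  · rw [smul_zero]; rfl

end Deriv

section Val

variable {O : Type u} [CommRing O] [IsDomain O] [IsDiscreteValuationRing O]
variable {L : Type u} [Field L] [Algebra O L] [IsFractionRing O L]
variable {E : Type u} [Field E] (θ : E →+* LaurentSeries L) (hθ : ∀ x, θ x ∈ gK O L)

/-- The valuation ring of `E` given by an embedding into Laurent series. -/
def gW : ValuationSubring E where
  toSubring := (gV O L).comap θ
  mem_or_inv_mem' x := by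
    rcases mem_or_inv_mem (hθ x) with h | h
    · exact Or.inl h
    · right
      change θ x⁻¹ ∈ gV O L
      rw [map_inv₀]
      exact h

variable {θ hθ}

lemma mem_gW {x : E} : x ∈ gW θ hθ ↔ θ x ∈ gV O L := Iff.rfl

variable (θ hθ) in
/-- The residue map. -/
def gρ : gW θ hθ →+* LaurentSeries (ResidueField O) :=
  gR.comp ((θ.comp (gW θ hθ).subtype).codRestrict (gV O L) fun x => x.2)

lemma gρ_apply (x : E) (hx : θ x ∈ gV O L) :
    gρ θ hθ ⟨x, hx⟩ = gR (⟨θ x, hx⟩ : gV O L) := rfl

lemma C_mul_mem_nonunits {ϖ : O} (hϖ : Irreducible ϖ) {x y : E} (hy : θ y ∈ gV O L)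
    (h : θ x = HahnSeries.C (algebraMap O L ϖ) * θ y) : x ∈ (gW θ hθ).nonunits := by
  rw [ValuationSubring.mem_nonunits_iff_or]
  by_contra hcon
  rw [not_or, not_not] at hcon
  obtain ⟨hx0, hx⟩ := hcon
  rw [mem_gW, map_inv₀] at hx
  have h1 : gR (⟨θ x, by rw [h]; exact mul_mem (C_mem_gV ϖ) hy⟩ : gV O L) = 0 :=
    (gR_eq_zero_iff hϖ _).mpr ⟨_, hy, h⟩
  have h2 : (⟨θ x, by rw [h]; exact mul_mem (C_mem_gV ϖ) hy⟩ : gV O L) * ⟨(θ x)⁻¹, hx⟩ = 1 := by
    apply Subtype.ext
    change θ x * (θ x)⁻¹ = 1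
    exact mul_inv_cancel₀ ((_root_.map_ne_zero _).mpr hx0)
  have h3 := congrArg gR h2
  rw [map_mul, h1, zero_mul, map_one] at h3
  exact zero_ne_one h3

lemma gρ_eq_zero_iff (x : gW θ hθ) : gρ θ hθ x = 0 ↔ (x : E) ∈ (gW θ hθ).nonunits := by
  obtain ⟨ϖ, hϖ⟩ := IsDiscreteValuationRing.exists_irreducible O
  obtain ⟨x, hx⟩ := x
  constructor
  · intro h
    rw [ValuationSubring.mem_nonunits_iff_or]
    by_cases hx0 : x = 0
    · exact Or.inl hx0
    · right
      intro hinv
      rw [mem_gW, map_inv₀] at hinv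
      have h2 : (⟨θ x, hx⟩ : gV O L) * ⟨(θ x)⁻¹, hinv⟩ = 1 := by
        apply Subtype.ext
        change θ x * (θ x)⁻¹ = 1
        exact mul_inv_cancel₀ ((_root_.map_ne_zero _).mpr hx0)
      have h3 := congrArg gR h2
      have h4 : gR (⟨θ x, hx⟩ : gV O L) = 0 := h
      rw [map_mul, h4, zero_mul, map_one] at h3
      exact zero_ne_one h3
  · intro h
    by_contra hne
    change gR (⟨θ x, hx⟩ : gV O L) ≠ 0 at hne
    have hu := isUnit_of_gR_ne_zero hne
    rw [ValuationSubring.mem_nonunits_iff_or] at h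
    rcases h with h | h
    · apply hne
      have h0 : x = 0 := h
      have : (⟨θ x, hx⟩ : gV O L) = 0 := Subtype.ext (by change θ x = 0; rw [h0, map_zero])
      rw [this, map_zero]
    · apply h
      rw [mem_gW, map_inv₀]
      exact hu

theorem mem_nonunits_iff_gR {x : E} (hx : θ x ∈ gV O L) :
    x ∈ (gW θ hθ).nonunits ↔ gR (⟨θ x, hx⟩ : gV O L) = 0 :=
  (gρ_eq_zero_iff (⟨x, hx⟩ : gW θ hθ)).symm

end Val

section Param

variable {O K E L : Type u} [CommRing O] [IsDomain O] [IsDiscreteValuationRing O]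
  [Field L] [Algebra O L] [IsFractionRing O L]
  [Field K] [Field E] [Algebra O K] [Algebra O E] [Algebra K E] [IsScalarTower O K E]
  {θ : E →+* LaurentSeries L} {hθ : ∀ x, θ x ∈ gK O L} {z : K} {π : O}

/-- The data of an embedding compatible with a parameter. -/
structure IsEmb (θ : E →+* LaurentSeries L) (z : K) (Z : LaurentSeries O) : Prop where
  map_C : ∀ a : O, θ (algebraMap O E a) = HahnSeries.C (algebraMap O L a)
  map_z : θ (algebraMap K E z) = toL O L Z
  trans : ∀ P : (ResidueField O)[X], P.eval₂ HahnSeries.C (toK O Z) = 0 → P = 0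

variable {Z : LaurentSeries O}

lemma IsEmb.map_aeval (h : IsEmb θ z Z) (P : O[X]) :
    θ (algebraMap K E (aeval z P)) = toL O L (P.eval₂ HahnSeries.C Z) := by
  rw [← aeval_algebraMap_apply, aeval_def, hom_eval₂, h.map_z, hom_eval₂]
  congr 1
  ext a : 1
  rw [RingHom.comp_apply, h.map_C, RingHom.comp_apply, toL_C]

lemma toK_eval₂ (P : O[X]) (Z : LaurentSeries O) :
    toK O (P.eval₂ HahnSeries.C Z) = (P.map (residue O)).eval₂ HahnSeries.C (toK O Z) := by
  rw [hom_eval₂, eval₂_map]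
  congr 1
  ext a : 1
  rw [RingHom.comp_apply, RingHom.comp_apply, HahnSeries.C_apply, HahnSeries.C_apply]
  exact coeffMap_single _ _ _

lemma map_residue_eq_zero_iff {O : Type*} [CommRing O] [IsDomain O] [IsDiscreteValuationRing O]
    {π : O} (hπ : Prime π) (P : O[X]) :
    P.map (residue O) = 0 ↔ C π ∣ P := by
  rw [C_dvd_iff_dvd_coeff]
  constructor
  · intro h i
    have h1 : (P.map (residue O)).coeff i = 0 := by rw [h, coeff_zero]
    rw [coeff_map, residue_eq_zero_iff, hπ.irreducible.maximalIdeal_eq,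
      Ideal.mem_span_singleton] at h1
    exact h1
  · intro h
    ext i
    rw [coeff_map, coeff_zero, residue_eq_zero_iff, hπ.irreducible.maximalIdeal_eq,
      Ideal.mem_span_singleton]
    exact h i

lemma IsEmb.toK_ne_zero (h : IsEmb θ z Z) (hπ : Prime π) {P : O[X]} (hP : ¬ C π ∣ P) :
    toK O (P.eval₂ HahnSeries.C Z) ≠ 0 := by
  rw [toK_eval₂]
  intro h0
  exact hP ((map_residue_eq_zero_iff hπ P).mp (h.trans _ h0))

/-- `gW θ` lies over the Gauss valuation. -/
lemma IsEmb.over (h : IsEmb θ z Z) (ht : IsParam O z) (hπ : Prime π) :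
    Over (gaussVal ht hπ) (algebraMap O K π) (gW θ hθ) := by
  refine ⟨fun x hx => ?_, ?_⟩
  · obtain ⟨s, a, hs, hsa⟩ := (mem_placeVal_iff ht _).mp hx
    refine ⟨a.eval₂ HahnSeries.C Z, s.eval₂ HahnSeries.C Z, h.toK_ne_zero hπ hs, ?_⟩
    rw [← h.map_aeval, ← h.map_aeval, ← hsa, map_mul, map_mul]
  · rw [← IsScalarTower.algebraMap_apply]
    refine C_mul_mem_nonunits hπ.irreducible (y := 1) ?_ ?_
    · rw [map_one]
      exact one_mem _
    · rw [h.map_C, map_one, mul_one]

lemma IsEmb.gρ_C (h : IsEmb θ z Z) (o : O) (ho : θ (algebraMap O E o) ∈ gV O L) :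
    gρ θ hθ ⟨algebraMap O E o, ho⟩ = HahnSeries.C (residue O o) := by
  rw [gρ_apply]
  have : (⟨θ (algebraMap O E o), ho⟩ : gV O L) = ⟨HahnSeries.C (algebraMap O L o), C_mem_gV o⟩ :=
    Subtype.ext (h.map_C o)
  rw [this, gR_C]

lemma gρ_of_toL {x : E} {X : LaurentSeries O} (h : θ x = toL O L X) (hx : θ x ∈ gV O L) :
    gρ θ hθ ⟨x, hx⟩ = toK O X := by
  rw [gρ_apply]
  have : (⟨θ x, hx⟩ : gV O L) = ⟨toL O L X, toL_mem_gV X⟩ := Subtype.ext h
  rw [this, gR_toL]

theorem mem_nonunits_iff_toL {x : E} {X : LaurentSeries O} (h : θ x = toL O L X) :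
    x ∈ (gW θ hθ).nonunits ↔ toK O X = 0 := by
  have hx : θ x ∈ gV O L := by rw [h]; exact toL_mem_gV X
  have h1 : gρ θ hθ ⟨x, hx⟩ = toK O X := gρ_of_toL h hx
  rw [← h1]
  exact (gρ_eq_zero_iff (⟨x, hx⟩ : gW θ hθ)).symm

/-- Separability of the residue extension. -/
lemma IsEmb.sep [Algebra.IsAlgebraic K E] [PerfectField (ResidueField O)]
    (h : IsEmb θ z Z) (ht : IsParam O z) (hπ : Prime π) (hD : thD (toK O Z) ≠ 0) :
    ∀ x ∈ gW θ hθ, ∃ g : Polynomial (gaussVal ht hπ),
      (g.map (residue (gaussVal ht hπ))).Separable ∧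
      g.eval₂ ((algebraMap K E).comp (gaussVal ht hπ).toSubring.subtype) x ∈
        (gW θ hθ).nonunits := by
  have ho := h.over (hθ := hθ) ht hπ
  refine sep_gauss ht hπ ho.1 ?_ (gρ θ hθ) gρ_eq_zero_iff thD ?_ ?_
  · rw [IsScalarTower.algebraMap_apply O K E]
    exact ho.2
  · intro o
    have h1 : (⟨algebraMap K E (algebraMap O K o), ho.1 _ (algebraMap_mem_gaussVal ht hπ o)⟩ :
        gW θ hθ) = ⟨algebraMap O E o, by
          rw [mem_gW, h.map_C]; exact C_mem_gV o⟩ :=
      Subtype.ext (IsScalarTower.algebraMap_apply O K E o).symm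
    refine (congrArg (fun w => thD (gρ θ hθ w)) h1).trans ?_
    refine (congrArg thD (h.gρ_C o _)).trans ?_
    exact thD_C _
  · intro h0
    apply hD
    rw [← h0]
    refine congrArg thD (gρ_of_toL h.map_z _).symm

/-- Independence over the residue field of the Gauss valuation. -/
lemma IsEmb.indep (h : IsEmb θ z Z) (ht : IsParam O z) (hπ : Prime π) {n : ℕ} (b : Fin n → E)
    (hb : ∀ j, θ (b j) ∈ gV O L)
    (hind : ∀ P : Fin n → (ResidueField O)[X],
      ∑ j, (P j).eval₂ HahnSeries.C (toK O Z) * gρ θ hθ ⟨b j, hb j⟩ = 0 → ∀ j, P j = 0)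
    (c : Fin n → K) (hc : ∀ j, c j ∈ gaussVal ht hπ)
    (hsum : ∑ j, c j • b j ∈ (gW θ hθ).nonunits) (j : Fin n) : c j ∈ (gaussVal ht hπ).nonunits := by
  classical
  choose s a hs hsa using fun j => (mem_placeVal_iff ht (prime_C_iff.mpr hπ)).mp (hc j)
  have hpr : Prime (C π : O[X]) := prime_C_iff.mpr hπ
  set S := ∏ j, s j with hS
  have hSn : ¬ C π ∣ S := by
    rw [hS, hpr.dvd_finsetProd_iff]
    rintro ⟨i, -, hi⟩
    exact hs i hi
  -- common denominator
  set a' : Fin n → O[X] := fun j => a j * ∏ i ∈ Finset.univ.erase j, s i with ha'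
  have hSa : ∀ j, aeval z S * c j = aeval z (a' j) := by
    intro j
    rw [hS, ha', ← Finset.mul_prod_erase Finset.univ s (Finset.mem_univ j), map_mul, map_mul,
      ← hsa j]
    ring
  have h1 : ∑ j, aeval z (a' j) • b j ∈ (gW θ hθ).nonunits := by
    have h2 : ∑ j, aeval z (a' j) • b j = aeval z S • ∑ j, c j • b j := by
      rw [Finset.smul_sum]
      refine Finset.sum_congr rfl fun j _ => ?_
      rw [← hSa, mul_smul]
    rw [h2]
    exact sub_mem_nonunits_iff_quot (h.over ht hπ).1 (aeval_mem_gaussVal ht hπ S) hsum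
  have hz : ∀ P : O[X], θ (algebraMap K E (aeval z P)) ∈ gV O L := by
    intro P
    rw [h.map_aeval]
    exact toL_mem_gV _
  have h3 : ∀ j, θ (aeval z (a' j) • b j) ∈ gV O L := by
    intro j
    rw [Algebra.smul_def, map_mul]
    exact mul_mem (hz _) (hb j)
  have h4 : ∑ j, ((a' j).map (residue O)).eval₂ HahnSeries.C (toK O Z) *
      gρ θ hθ ⟨b j, hb j⟩ = 0 := by
    have h5 : (∑ j, (⟨aeval z (a' j) • b j, h3 j⟩ : gW θ hθ)) =
        ⟨∑ j, aeval z (a' j) • b j, by
          rw [mem_gW, map_sum]; exact sum_mem fun j _ => h3 j⟩ := by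
      apply Subtype.ext
      change (gW θ hθ).subtype _ = _
      rw [map_sum]
      rfl
    have h6 := (gρ_eq_zero_iff (θ := θ) (hθ := hθ) ⟨∑ j, aeval z (a' j) • b j, by
          rw [mem_gW, map_sum]; exact sum_mem fun j _ => h3 j⟩).mpr h1
    rw [← h5, map_sum] at h6
    rw [← h6]
    refine Finset.sum_congr rfl fun j _ => ?_
    have h7 : (⟨aeval z (a' j) • b j, h3 j⟩ : gW θ hθ) =
        ⟨algebraMap K E (aeval z (a' j)), hz _⟩ * ⟨b j, hb j⟩ :=
      Subtype.ext (Algebra.smul_def _ _)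
    rw [h7, map_mul, gρ_of_toL (h.map_aeval _), toK_eval₂]
  have h8 := (map_residue_eq_zero_iff hπ (a' j)).mp (hind _ h4 j)
  have h9 : ¬ C π ∣ ∏ i ∈ Finset.univ.erase j, s i := by
    rw [hpr.dvd_finsetProd_iff]
    rintro ⟨i, -, hi⟩
    exact hs i hi
  have h10 : C π ∣ a j := (hpr.dvd_or_dvd h8).resolve_right h9
  obtain ⟨d, hd⟩ := h10
  have h11 : aeval z (s j) ≠ 0 := by
    intro h0
    apply hs j
    have : s j = 0 := ht.inj (by rw [h0, map_zero])
    rw [this]
    exact dvd_zero _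
  have h12 : c j = (aeval z d * (aeval z (s j))⁻¹) * algebraMap O K π := by
    have h13 := hsa j
    rw [hd, map_mul, aeval_C] at h13
    field_simp
    rw [mul_comm, h13]
    ring
  rw [h12]
  refine mul_mem_nonunits (mul_mem (aeval_mem_gaussVal ht hπ d) ?_) ?_
  · refine (mem_placeVal_iff ht _).mpr ⟨s j, 1, hs j, ?_⟩
    rw [map_one, mul_inv_cancel₀ h11]
  · have := isDiscreteValuationRing_gaussVal ht hπ
    obtain ⟨ϖ, hϖ, hϖπ⟩ := exists_gauss_unif ht hπ
    rw [← hϖπ, ValuationSubring.coe_mem_nonunits_iff, hϖ.maximalIdeal_eq]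
    exact Ideal.mem_span_singleton_self ϖ

end Param

end Fermat.Agent.LG
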