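import Mathlib
import Fermat.Agent.LG.GVal
import Fermat.Agent.Geo.UnrRel
import Fermat.Agent.Geo.Unique

/-!
Function fields embedded in Laurent series whose reduction has one component.
-/

set_option autoImplicit false
set_option linter.unusedSectionVars false

open IsLocalRing Polynomial Fermat.Agent.Geo ModularCurve

noncomputable section

universe u

namespace Fermat.Agent.LG

section Gauss

variable {O L Kj K₁ M : Type u} [CommRing O] [IsDomain O] [IsDiscreteValuationRing O]
  [Field L] [Algebra O L] [IsFractionRing O L] [Field Kj] [Field K₁] [Field M]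
  [Algebra O Kj] [Algebra O K₁] [Algebra O M] [Algebra Kj M] [Algebra K₁ M]
  [IsScalarTower O Kj M] [IsScalarTower O K₁ M]
  {θ : M →+* LaurentSeries L} {hθ : ∀ x, θ x ∈ gK O L} {π : O}

/-- the list criterion with one valuation -/
theorem gauss_eq_of_list {z : Kj} {Z : LaurentSeries O} [FiniteDimensional Kj M]
    [Algebra.IsSeparable Kj M] (hz : IsParam O z) (hπ : Prime π) (h : IsEmb θ z Z) {n : ℕ}
    (b : Fin n → M) (hb : ∀ j, θ (b j) ∈ gV O L)
    (hind : ∀ P : Fin n → (ResidueField O)[X],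
      ∑ j, (P j).eval₂ HahnSeries.C (toK O Z) * gρ θ hθ ⟨b j, hb j⟩ = 0 → ∀ j, P j = 0)
    (hn : Module.finrank Kj M ≤ n) (W : ValuationSubring M)
    (hW : Over (gaussVal hz hπ) (algebraMap O Kj π) W) : W = gW θ hθ := by
  have := isDiscreteValuationRing_gaussVal hz hπ
  obtain ⟨ϖ, hϖ, hϖπ⟩ := exists_gauss_unif hz hπ
  have ho := h.over (hθ := hθ) hz hπ
  obtain ⟨-, hi⟩ := list_complete hϖ (fun _ : Unit => gW θ hθ) (fun _ _ _ => rfl)
    (fun _ => ho.1) (fun _ => by rw [hϖπ]; exact ho.2) (fun _ => n) (fun _ => b) (fun _ => hb)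
    (fun _ c hc hsum j => h.indep (hθ := hθ) hz hπ b hb hind c hc hsum j)
    (by simpa using hn) W hW.1 (by rw [hϖπ]; exact hW.2)
  exact hi

/-- change of the parameter -/
theorem gauss_eq_of_param {z : Kj} {Z : LaurentSeries O} {t : K₁} {T : LaurentSeries O}
    (hz : IsParam O z) (ht : IsParam O t) (hπ : Prime π) (h : IsEmb θ z Z) (h' : IsEmb θ t T)
    (hjt : ∀ y : Kj, ∃ y' : K₁, algebraMap K₁ M y' = algebraMap Kj M y)
    (huniq : ∀ W : ValuationSubring M, Over (gaussVal hz hπ) (algebraMap O Kj π) W → W = gW θ hθ)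
    (W : ValuationSubring M) (hW : Over (gaussVal ht hπ) (algebraMap O K₁ π) W) :
    W = gW θ hθ := by
  have := isDiscreteValuationRing_gaussVal ht hπ
  obtain ⟨ϖ, hϖ, hϖπ⟩ := exists_gauss_unif ht hπ
  have ho := h.over (hθ := hθ) hz hπ
  have ho' := h'.over (hθ := hθ) ht hπ
  rw [← hϖπ] at ho'
  apply huniq
  refine ⟨fun x hx => ?_, ?_⟩
  · obtain ⟨y, hy⟩ := hjt x
    rw [← hy]
    apply hW.1
    rw [← ho'.mem_iff hϖ, hy]
    exact ho.1 x hx
  · rw [← IsScalarTower.algebraMap_apply, IsScalarTower.algebraMap_apply O K₁ M]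
    exact hW.2

variable {t : K₁} {T : LaurentSeries O}

theorem gW_unif (h : IsEmb θ t T) (hπ : Prime π) {x : M} (hx : x ∈ (gW θ hθ).nonunits) :
    ∃ y ∈ gW θ hθ, x = algebraMap O M π * y := by
  have hxV : θ x ∈ gV O L := ValuationSubring.nonunits_subset hx
  obtain ⟨y, hy, hxy⟩ := (gR_eq_zero_iff hπ.irreducible _).mp ((mem_nonunits_iff_gR hxV).mp hx)
  have hπ0 : algebraMap O M π ≠ 0 := by
    intro h0
    have h1 := h.map_C π
    rw [h0, map_zero] at h1
    have h2 : algebraMap O L π = 0 := by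
      have := congrArg (fun z : LaurentSeries L => z.coeff 0) h1
      simpa using this.symm
    exact hπ.ne_zero (IsFractionRing.injective O L (by rw [h2, map_zero]))
  refine ⟨(algebraMap O M π)⁻¹ * x, ?_, by rw [mul_inv_cancel_left₀ hπ0]⟩
  rw [mem_gW]
  have h1 : θ ((algebraMap O M π)⁻¹ * x) = y := by
    have h2 : θ (algebraMap O M π) ≠ 0 := (_root_.map_ne_zero _).mpr hπ0
    have h3 : θ x = θ (algebraMap O M π) * y := by rw [h.map_C]; exact hxy
    rw [map_mul, map_inv₀, h3, inv_mul_cancel_left₀ h2]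
  rw [h1]
  exact hy

theorem gauss_unr [FiniteDimensional K₁ M] [Algebra.IsSeparable K₁ M]
    [PerfectField (ResidueField O)] (ht : IsParam O t) (hπ : Prime π) (h : IsEmb θ t T)
    (hD : thD (toK O T) ≠ 0)
    (huniq : ∀ W : ValuationSubring M, Over (gaussVal ht hπ) (algebraMap O K₁ π) W →
      W = gW θ hθ) : Unr (gaussVal ht hπ).toSubring M := by
  have := isDiscreteValuationRing_gaussVal ht hπ
  obtain ⟨ϖ, hϖ, hϖπ⟩ := exists_gauss_unif ht hπ
  apply unr_of_forall_isUnrExt hϖ
  intro W hW hϖW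
  obtain rfl := huniq W ⟨hW, by rw [← hϖπ]; exact hϖW⟩
  refine ⟨hW, hϖW, fun x hx => ?_, h.sep ht hπ hD⟩
  obtain ⟨y, hy, hxy⟩ := gW_unif h hπ hx
  refine ⟨y, hy, ?_⟩
  rw [hϖπ, hxy, Algebra.smul_def, ← IsScalarTower.algebraMap_apply]

/-- A basis of the residue field. -/
theorem gauss_basis [FiniteDimensional K₁ M] [Algebra.IsSeparable K₁ M] (ht : IsParam O t)
    (hπ : Prime π) (h : IsEmb θ t T)
    (huniq : ∀ W : ValuationSubring M, Over (gaussVal ht hπ) (algebraMap O K₁ π) W →
      W = gW θ hθ) :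
    ∃ (e : Fin (Module.finrank K₁ M) → M) (he : ∀ i, θ (e i) ∈ gV O L),
    ∀ P : Fin (Module.finrank K₁ M) → (ResidueField O)[X],
      ∑ i, (P i).eval₂ HahnSeries.C (toK O T) * gR (⟨_, he i⟩ : gV O L) = 0 → ∀ i, P i = 0 := by
  classical
  set V := gaussVal ht hπ with hV
  have hdvr : IsDiscreteValuationRing V := isDiscreteValuationRing_gaussVal ht hπ
  obtain ⟨ϖ, hϖ, hϖπ⟩ : ∃ ϖ : V, Irreducible ϖ ∧ (ϖ : K₁) = algebraMap O K₁ π :=
    exists_gauss_unif ht hπ
  let _ : Algebra V M := ((algebraMap K₁ M).comp V.toSubring.subtype).toAlgebra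
  have _ : IsScalarTower V K₁ M := IsScalarTower.of_algebraMap_eq fun a => rfl
  have hfs : FaithfulSMul V M := faithfulSMul_of_tower K₁ M
  let B := integralClosure V M
  have _ : Module.Finite V B := IsIntegralClosure.finite V K₁ M B
  have _ : Module.IsTorsionFree V B := inferInstance
  have _ : Module.Free V B := IsIntegralClosure.module_free V K₁ M B
  have hrank : Module.finrank V B = Module.finrank K₁ M := IsIntegralClosure.rank V K₁ M B
  let b : Module.Basis (Fin (Module.finrank K₁ M)) V B :=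
    (Module.finBasisOfFinrankEq V B hrank)
  have hBW : ∀ x : M, x ∈ gW θ hθ ↔ IsIntegral V x := by
    intro x
    constructor
    · intro hx
      exact intOver_of_forall_over (V := V) hϖ fun W hW => by
        rw [huniq W ⟨hW.1, by rw [← hϖπ]; exact hW.2⟩]
        exact hx
    · intro hx
      exact mem_of_intOver (V := V) (h.over (hθ := hθ) ht hπ).1 hx
  have he : ∀ i, θ (b i : M) ∈ gV O L := fun i => (hBW _).mpr (b i).2
  refine ⟨fun i => (b i : M), he, fun P hP i => ?_⟩
  -- lift the polynomials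
  have hlift : ∀ i, ∃ Q : O[X], Q.map (residue O) = P i := fun i => by
    have := Polynomial.map_surjective (residue O) residue_surjective (P i)
    exact this
  choose Q hQ using hlift
  have hθQ : ∀ i, θ (algebraMap K₁ M (aeval t (Q i))) ∈ gV O L := fun i => by
    rw [h.map_aeval]
    exact toL_mem_gV _
  have h1 : ∑ i, algebraMap K₁ M (aeval t (Q i)) * (b i : M) ∈ (gW θ hθ).nonunits := by
    have hmem : ∀ i, θ (algebraMap K₁ M (aeval t (Q i)) * (b i : M)) ∈ gV O L := fun i => by
      rw [map_mul]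
      exact mul_mem (hθQ i) (he i)
    have hmems : θ (∑ i, algebraMap K₁ M (aeval t (Q i)) * (b i : M)) ∈ gV O L := by
      rw [map_sum]
      exact sum_mem fun i _ => hmem i
    rw [mem_nonunits_iff_gR hmems]
    have h2 : (⟨θ (∑ i, algebraMap K₁ M (aeval t (Q i)) * (b i : M)), hmems⟩ : gV O L) =
        ∑ i, (⟨toL O L ((Q i).eval₂ HahnSeries.C T), toL_mem_gV _⟩ : gV O L) *
          ⟨θ (b i : M), he i⟩ := by
      apply Subtype.ext
      have h3 : ((∑ i, (⟨toL O L ((Q i).eval₂ HahnSeries.C T), toL_mem_gV _⟩ : gV O L) *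
          ⟨θ (b i : M), he i⟩ : gV O L) : LaurentSeries L) =
          ∑ i, (toL O L ((Q i).eval₂ HahnSeries.C T)) * θ (b i : M) := by
        rw [AddSubmonoidClass.coe_finsetSum]
        rfl
      rw [h3]
      change θ (∑ i, algebraMap K₁ M (aeval t (Q i)) * (b i : M)) = _
      rw [map_sum]
      refine Finset.sum_congr rfl fun i _ => ?_
      rw [map_mul, h.map_aeval]
    rw [h2, map_sum, ← hP]
    refine Finset.sum_congr rfl fun i _ => ?_
    rw [map_mul, gR_toL, toK_eval₂, hQ]
  obtain ⟨y, hy, hxy⟩ := gW_unif h hπ h1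
  -- expand `y` in the basis
  have hyB : IsIntegral V y := (hBW y).mp hy
  let y' : B := ⟨y, hyB⟩
  let a : Fin (Module.finrank K₁ M) → V := fun i => ⟨aeval t (Q i), aeval_mem_gaussVal ht hπ _⟩
  have h3 : ∑ i, a i • b i = ϖ • y' := by
    apply Subtype.ext
    have e1 : ((∑ i, a i • b i : B) : M) = ∑ i, algebraMap K₁ M (aeval t (Q i)) * (b i : M) := by
      rw [AddSubmonoidClass.coe_finsetSum]
      refine Finset.sum_congr rfl fun i _ => ?_
      change a i • (b i : M) = _
      rw [Algebra.smul_def]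
      rfl
    have e2 : ((ϖ • y' : B) : M) = algebraMap O M π * y := by
      change ϖ • y = _
      rw [Algebra.smul_def]
      change algebraMap K₁ M ϖ * y = _
      rw [hϖπ, ← IsScalarTower.algebraMap_apply]
    rw [e1, e2]
    exact hxy
  have h4 : a i = ϖ * b.repr y' i := by
    have h5 := congrArg (fun w => b.repr w i) h3
    simp only [map_sum, map_smul, Finsupp.coe_smul, Pi.smul_apply, smul_eq_mul] at h5
    rw [← h5, Finsupp.coe_finsetSum, Finset.sum_apply]
    simp [Finsupp.single_apply]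
  -- conclude
  have h6 : C π ∣ Q i := by
    by_contra hne
    apply aeval_notMem_nonunits ht hπ hne
    have h7 : (aeval t (Q i) : K₁) = ((a i : V) : K₁) := rfl
    rw [h7, h4, ValuationSubring.coe_mem_nonunits_iff, hϖ.maximalIdeal_eq,
      Ideal.mem_span_singleton]
    exact dvd_mul_right _ _
  rw [← hQ, map_residue_eq_zero_iff hπ]
  exact h6

end Gauss

end Fermat.Agent.LG
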