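import Mathlib
import Fermat.Agent.ESCore.HauptSurj
import Fermat.Agent.ModFun.CharPoly

/-!
The Hauptmodul `t = 1 / H.t` with a pole at `∞`: holomorphic functions on `Γ₀(p)` which are
bounded at the cusp `0` are polynomials in `t`.
-/

set_option autoImplicit false
set_option linter.unusedSectionVars false

open Matrix.SpecialLinearGroup CongruenceSubgroup ModularGroup
open scoped MatrixGroups ModularForm Manifold
open UpperHalfPlane hiding I J
open Complex (I)
open Fermat.Agent.Eis16 Fermat.Agent.ModFun Fermat.Agent.ESCore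

noncomputable section

namespace Fermat.Agent.LG

local notation "𝕢" => Function.Periodic.qParam

variable {p : ℕ} [Fact p.Prime] {κ : ℤ} (H : HauptFn p κ)

/-- `t = 1 / H.t` -/
def tI (τ : ℍ) : ℂ := (H.t τ)⁻¹

lemma tI_ne_zero (τ : ℍ) : tI H τ ≠ 0 := inv_ne_zero (H.ne_zero τ)

lemma mdiff_tI : MDiff (tI H) := by
  have h := H.mdiff
  rw [UpperHalfPlane.mdifferentiable_iff] at h ⊢
  have : tI H ∘ ofComplex = fun z => ((H.t ∘ ofComplex) z)⁻¹ := rfl
  rw [this]
  exact h.inv fun z _ => H.ne_zero _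

lemma tI_smul (g : SL(2, ℤ)) (hg : g ∈ Gamma0 p) (τ : ℍ) : tI H (g • τ) = tI H τ := by
  rw [tI, H.smul g hg, tI]

lemma tI_S (τ : ℍ) : tI H (S • τ) = (κ : ℂ) ^ 2 * p ^ 4 * H.t (dn p τ) := by
  have := H.fricke τ
  have h1 := H.ne_zero (S • τ)
  rw [tI]
  field_simp
  linear_combination -this

/-- the expansion of `t` over `ℤ` -/
def tZ (p : ℕ) [NeZero p] (κ : ℤ) : LaurentSeries ℤ :=
  HahnSeries.single (-1) 1 * HahnSeries.ofPowerSeries ℤ ℤ (TWi p κ)

/-- the expansion of `t` over `R` -/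
def tS (R : Type*) [CommRing R] (p : ℕ) [NeZero p] (κ : ℤ) : LaurentSeries R :=
  ModularCurve.coeffMap (Int.castRingHom R) (tZ p κ)

lemma coeff_tZ_of_lt {n : ℤ} (hn : n < -1) : (tZ p κ).coeff n = 0 := by
  have h : n = (n + 1) + -1 := by ring
  rw [tZ, h, HahnSeries.coeff_single_mul_add,
    ModularCurve.ofPowerSeries_coeff_of_neg _ (by omega), mul_zero]

lemma coeff_tZ_neg_one : (tZ p κ).coeff (-1) = 1 := by
  have h := HahnSeries.coeff_single_mul_add (r := (1 : ℤ))
    (x := HahnSeries.ofPowerSeries ℤ ℤ (TWi p κ)) (a := ((0 : ℕ) : ℤ)) (b := (-1 : ℤ))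
  rw [HahnSeries.ofPowerSeries_apply_coeff, Nat.cast_zero, zero_add] at h
  rw [tZ, h]
  simp [constantCoeff_TWi]

variable {R : Type*} [CommRing R]

lemma coeff_tS_of_lt {n : ℤ} (hn : n < -1) : (tS R p κ).coeff n = 0 := by
  rw [tS, ModularCurve.coeffMap_coeff, coeff_tZ_of_lt hn, map_zero]

lemma coeff_tS_neg_one : (tS R p κ).coeff (-1) = 1 := by
  rw [tS, ModularCurve.coeffMap_coeff, coeff_tZ_neg_one, map_one]

lemma coeff_mul_of_lt {A B : LaurentSeries R} {a b : ℤ} (hA : ∀ m < a, A.coeff m = 0)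
    (hB : ∀ m < b, B.coeff m = 0) :
    (∀ m < a + b, (A * B).coeff m = 0) ∧ (A * B).coeff (a + b) = A.coeff a * B.coeff b := by
  constructor
  · intro m hm
    rw [HahnSeries.coeff_mul]
    refine Finset.sum_eq_zero fun ij hij => ?_
    rw [Finset.mem_antidiagonal] at hij
    rcases lt_or_ge ij.1 a with h1 | h1
    · rw [hA _ h1, zero_mul]
    · rw [hB _ (by have := hij.2.2; omega), mul_zero]
  · rw [HahnSeries.coeff_mul]
    by_cases h : A.coeff a = 0
    · rw [h, zero_mul]
      refine Finset.sum_eq_zero fun ij hij => ?_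
      rw [Finset.mem_antidiagonal] at hij
      rcases lt_trichotomy ij.1 a with h1 | h1 | h1
      · rw [hA _ h1, zero_mul]
      · rw [h1, h, zero_mul]
      · rw [hB _ (by have := hij.2.2; omega), mul_zero]
    by_cases h' : B.coeff b = 0
    · rw [h', mul_zero]
      refine Finset.sum_eq_zero fun ij hij => ?_
      rw [Finset.mem_antidiagonal] at hij
      rcases lt_trichotomy ij.2 b with h1 | h1 | h1
      · rw [hB _ h1, mul_zero]
      · rw [h1, h', mul_zero]
      · rw [hA _ (by have := hij.2.2; omega), zero_mul]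
    rw [Finset.sum_eq_single_of_mem (a, b) (by
      rw [Finset.mem_antidiagonal]
      exact ⟨h, h', rfl⟩)]
    intro ij hij hne
    rw [Finset.mem_antidiagonal] at hij
    rcases lt_trichotomy ij.1 a with h1 | h1 | h1
    · rw [hA _ h1, zero_mul]
    · exact absurd (Prod.ext h1 (by have := hij.2.2; simp only; omega)) hne
    · rw [hB _ (by have := hij.2.2; omega), mul_zero]

lemma coeff_tS_pow (n : ℕ) : (∀ m < -(n : ℤ), (tS R p κ ^ n).coeff m = 0) ∧
    (tS R p κ ^ n).coeff (-(n : ℤ)) = 1 := by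
  induction n with
  | zero =>
    constructor
    · intro m hm
      rw [pow_zero, HahnSeries.coeff_one, if_neg (by simp at hm; omega)]
    · simp
  | succ n ih =>
    have h := coeff_mul_of_lt (A := tS R p κ ^ n) (B := tS R p κ) (a := -(n : ℤ)) (b := -1)
      ih.1 (fun m hm => coeff_tS_of_lt hm)
    have h2 : -((n + 1 : ℕ) : ℤ) = -(n : ℤ) + -1 := by push_cast; ring
    rw [pow_succ, h2]
    refine ⟨h.1, ?_⟩
    rw [h.2, ih.2, coeff_tS_neg_one, one_mul]

lemma hasExp_tI (φ : R →+* ℂ) : HasExp φ (qN 1) (tI H) (tS R p κ) :=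
  H.hasExp_inv.coeffMap (ψ := φ) (Int.castRingHom R) (RingHom.ext_int _ _)

/-- `t` near the cusp `0` -/
lemma hasQ_tI_S : HasQ p (fun τ => tI H (S • τ))
    (((κ : ℂ) ^ 2 * p ^ 4) • toC (TS p κ)) := by
  have h1 : HasQ p (fun τ => H.t (dn p τ)) (toC (TS p κ)) := by
    intro τ
    have := H.hasQ (dn p τ)
    rwa [qParam_dn, one_mul] at this
  exact (h1.smul _).congr fun τ => by
    rw [tI_S]; rfl

lemma hasExp_one_congr {φ : R →+* ℂ} {f : ℍ → ℂ} {F : LaurentSeries R}
    (h : HasExp φ (qN 1) f F) (hF : ∀ m < 0, F.coeff m = 0) :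
    HasQ 1 f (PowerSeries.mk fun n => φ (F.coeff n)) := by
  intro τ
  have h1 := h.hasSum_shift (k := 0) hF τ (qN_ne_zero 1 τ)
  simp only [zero_add, neg_zero, zpow_zero, one_mul] at h1
  simp only [PowerSeries.coeff_mk]
  have h2 : qN 1 τ = 𝕢 1 τ := by rw [qN_apply, Nat.cast_one]
  rwa [h2] at h1

/-- Holomorphic functions on `Γ₀(p)` which are bounded at `0` are polynomials in `t`. -/
theorem exists_polynomial_t {φ : R →+* ℂ} (hφ : Function.Injective φ) {f : ℍ → ℂ}
    {F : LaurentSeries R} (hf : MDiff f) (hinv : ∀ g ∈ Gamma0 p, ∀ τ, f (g • τ) = f τ)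
    (h : HasExp φ (qN 1) f F) (hS : ∃ B, HasQ p (fun τ => f (S • τ)) B) :
    ∃ P : Polynomial R, (∀ τ, f τ = P.eval₂ φ (tI H τ)) ∧
      F = P.eval₂ HahnSeries.C (tS R p κ) := by
  have key : ∀ n : ℕ, ∀ (f : ℍ → ℂ) (F : LaurentSeries R), MDiff f →
      (∀ g ∈ Gamma0 p, ∀ τ, f (g • τ) = f τ) → HasExp φ (qN 1) f F →
      (∃ B, HasQ p (fun τ => f (S • τ)) B) →
      (∀ m ≤ -(n : ℤ), F.coeff m = 0) →
      ∃ P : Polynomial R, (∀ τ, f τ = P.eval₂ φ (tI H τ)) ∧
        F = P.eval₂ HahnSeries.C (tS R p κ) := by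
    intro n
    induction n with
    | zero =>
      intro f F hf hinv h hS hF
      obtain ⟨B, hB⟩ := hS
      have hF' : ∀ m < 0, F.coeff m = 0 := fun m hm => hF m (by simpa using hm.le)
      have h0 := eq_zero_of_bounded p f hinv _ B (hasExp_one_congr h hF') hB (by
        rw [PowerSeries.coeff_mk, Nat.cast_zero, hF 0 (by simp), map_zero])
      subst h0
      have h1 := h.eq_zero hφ (isParam_qN 1)
      subst h1
      exact ⟨0, by simp, by simp⟩
    | succ n ih =>
      intro f F hf hinv h hS hF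
      obtain ⟨B, hB⟩ := hS
      set c : R := F.coeff (-(n : ℤ)) with hc
      have hSn := (hasQ_tI_S H).pow n
      obtain ⟨P, hP1, hP2⟩ := ih (f - fun τ => φ c * (tI H ^ n) τ)
        (F - HahnSeries.C c * tS R p κ ^ n)
        (hf.sub (mdifferentiable_const.mul ((mdiff_tI H).pow n)))
        (fun g hg τ => by
          simp only [Pi.sub_apply, Pi.pow_apply, tI_smul H g hg, hinv g hg])
        (h.sub (((hasExp_tI H φ).pow n).smul c))
        ⟨_, (hB.sub (hSn.smul (φ c))).congr fun τ => by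
          simp [Pi.sub_apply, Pi.smul_apply, Pi.pow_apply]⟩
        (fun m hm => by
          rw [HahnSeries.coeff_sub, HahnSeries.C_mul_eq_smul, HahnSeries.coeff_smul, smul_eq_mul]
          rcases lt_or_eq_of_le hm with hlt | heq
          · rw [hF m (by push_cast; omega), (coeff_tS_pow n).1 m hlt, mul_zero, sub_zero]
          · subst heq
            rw [(coeff_tS_pow n).2, mul_one, hc, sub_self])
      refine ⟨P + Polynomial.C c * Polynomial.X ^ n, ?_, ?_⟩
      · intro τ
        rw [Polynomial.eval₂_add, ← hP1]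
        simp
      · rw [Polynomial.eval₂_add, ← hP2]
        simp
  refine key (Int.toNat (1 - F.order)) f F hf hinv h hS fun m hm => ?_
  exact HahnSeries.coeff_eq_zero_of_lt_order (by omega)

end Fermat.Agent.LG
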