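import Mathlib
import Fermat.Agent.LG.TFun
import Fermat.Agent.ESCore.HeckeQ

/-!
The modular equation of prime degree `l` for the Hauptmodul `t`.
-/

set_option autoImplicit false
set_option linter.unusedSectionVars false

open Matrix.SpecialLinearGroup CongruenceSubgroup ModularGroup
open scoped MatrixGroups ModularForm Manifold
open UpperHalfPlane hiding I J
open Complex (I)
open Fermat.Agent.Eis16 Fermat.Agent.ModFun Fermat.Agent.ESCore

noncomputable section

namespace Fermat.Agent.LG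

open P2MW.S_ModularForm_heckeT_slash_eq_self_of_mem_Gamma0.ModularForm.HeckeSlashInvariance

local notation "𝕢" => Function.Periodic.qParam

section Ser

open PowerSeries

variable {R : Type*} [CommRing R] {l : ℕ}

lemma constantCoeff_normSer (P : R⟦X⟧) :
    constantCoeff (normSer l P) = constantCoeff P ^ l := by
  rw [normSer, RingHom.map_det, Matrix.det_of_isLowerTriangular]
  · have : ∀ i : Fin l, (RingHom.mapMatrix constantCoeff (mulMat l P)) i i =
        constantCoeff P := by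
      intro i
      simp [mulMat, RingHom.mapMatrix_apply]
    simp only [this]
    simp
  · intro i j hij
    simp only [RingHom.mapMatrix_apply, Matrix.map_apply, mulMat, Matrix.of_apply]
    rw [← coeff_zero_eq_constantCoeff_apply, coeff_mk, if_neg]
    simp only [zero_mul, zero_add, not_le]
    exact hij

lemma constantCoeff_heckeSer (hl : l ≠ 0) (P : R⟦X⟧) :
    constantCoeff (heckeSer l hl P) = constantCoeff P ^ (l + 1) := by
  rw [heckeSer, map_mul, constantCoeff_normSer, constantCoeff_expand, pow_succ']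

/-- `heckeSer` of `X W` -/
lemma exists_heckeSer_X (hl : l ≠ 0) : ∃ c : ℤ⟦X⟧, IsUnit (constantCoeff c) ∧
    heckeSer l hl (X : ℤ⟦X⟧) = X ^ (l + 1) * c := by
  have h1 : normSer l (X : ℤ⟦X⟧) ^ l = X ^ l := by
    rw [← normSer_pow hl, ← expand_X l hl, normSer_expand hl, expand_X]
  have h2 : constantCoeff (normSer l (X : ℤ⟦X⟧)) = 0 := by
    rw [constantCoeff_normSer]; simp [hl]
  obtain ⟨c, hc⟩ := X_dvd_iff.mpr h2
  have h3 : c ^ l = 1 := by
    rw [hc, mul_pow] at h1
    exact mul_left_cancel₀ (pow_ne_zero l X_ne_zero) (by rw [h1, mul_one])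
  refine ⟨c, ?_, ?_⟩
  · have h4 := congrArg constantCoeff h3
    rw [map_pow, map_one] at h4
    exact IsUnit.of_pow_eq_one h4 hl
  · rw [heckeSer, hc, expand_X, pow_succ]
    ring

end Ser

/-- inverse of a nonvanishing function given by a power series -/
lemma hasExp_inv_of {R : Type*} [CommRing R] {φ : R →+* ℂ} {f : ℍ → ℂ} (hf : MDiff f)
    (h0 : ∀ τ, f τ ≠ 0) (n : ℕ) (W : PowerSeries R) (u : Rˣ)
    (hW : PowerSeries.constantCoeff W = u)
    (h : HasQ 1 f (PowerSeries.map φ (PowerSeries.X ^ n * W))) :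
    HasExp φ (qN 1) (fun τ => (f τ)⁻¹)
      (HahnSeries.single (-(n : ℤ)) 1 * HahnSeries.ofPowerSeries ℤ R (PowerSeries.invOfUnit W u)) := by
  have hq0 : ∀ τ : ℍ, 𝕢 1 τ ≠ 0 := fun τ => Function.Periodic.qParam_ne_zero _
  have hWW : W * PowerSeries.invOfUnit W u = 1 := PowerSeries.mul_invOfUnit W u hW
  have hu : φ (PowerSeries.constantCoeff W) ≠ 0 := by
    rw [hW]
    exact (u.isUnit.map φ).ne_zero
  -- `f = q ^ n w`
  have hw : HasQ 1 (fun τ => f τ * (𝕢 1 τ ^ n)⁻¹) (PowerSeries.map φ W) := by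
    intro τ
    have h1 := (h τ).mul_right ((𝕢 1 τ ^ n)⁻¹)
    have hinj : Function.Injective (fun m : ℕ => m + n) := fun a b hab => by simpa using hab
    rw [← hinj.hasSum_iff] at h1
    · refine hasSum_congr' (fun m => ?_) h1
      simp only [Function.comp_apply]
      rw [map_mul, map_pow, PowerSeries.map_X, PowerSeries.coeff_X_pow_mul', if_pos (by omega),
        Nat.add_sub_cancel, pow_add]
      have := pow_ne_zero n (hq0 τ)
      field_simp
    · intro m hm
      have hlt : m < n := by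
        by_contra hc
        exact hm ⟨m - n, by simp; omega⟩
      rw [map_mul, map_pow, PowerSeries.map_X, PowerSeries.coeff_X_pow_mul', if_neg (by omega)]
      simp
  set w : ℍ → ℂ := fun τ => f τ * (𝕢 1 τ ^ n)⁻¹ with hwdef
  have hw0 : ∀ τ, w τ ≠ 0 := fun τ => mul_ne_zero (h0 τ) (inv_ne_zero (pow_ne_zero _ (hq0 τ)))
  have hmd := hw.mdiff one_pos
  have hmdi : MDiff (fun τ => (w τ)⁻¹) := by
    rw [UpperHalfPlane.mdifferentiable_iff] at hmd ⊢
    have : (fun τ => (w τ)⁻¹) ∘ ofComplex = fun z => ((w ∘ ofComplex) z)⁻¹ := rfl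
    rw [this]
    exact hmd.inv fun z _ => hw0 _
  have hper : Function.Periodic ((fun τ => (w τ)⁻¹) ∘ ofComplex) (1 : ℝ) := by
    intro z
    have := hw.periodic one_pos z
    simp only [Function.comp_apply] at this ⊢
    rw [this]
  have hb : IsBoundedAtImInfty (fun τ => (w τ)⁻¹) := by
    have h1 := (hw.tendsto one_pos).inv₀ (by
      rw [PowerSeries.coeff_map, PowerSeries.coeff_zero_eq_constantCoeff_apply]
      exact hu)
    exact h1.isBigO_one ℝ
  have hi := HasQ.of_periodic one_pos hper hmdi hb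
  have h2 : PowerSeries.map φ W * qExpansion 1 (fun τ => (w τ)⁻¹) = 1 := by
    refine (hw.mul hi).unique one_pos ?_
    refine (HasQ.one 1).congr fun τ => ?_
    simp only [Pi.mul_apply, Pi.one_apply]
    rw [mul_inv_cancel₀ (hw0 τ)]
  have h3 : qExpansion 1 (fun τ => (w τ)⁻¹) = PowerSeries.map φ (PowerSeries.invOfUnit W u) := by
    have h4 : PowerSeries.map φ W * PowerSeries.map φ (PowerSeries.invOfUnit W u) = 1 := by
      rw [← map_mul, hWW, map_one]
    linear_combination (PowerSeries.map φ (PowerSeries.invOfUnit W u)) * h2 -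
      (qExpansion 1 (fun τ => (w τ)⁻¹)) * h4
  rw [h3] at hi
  have h5 : HasExp φ (qN 1) (fun τ => (w τ)⁻¹)
      (HahnSeries.ofPowerSeries ℤ R (PowerSeries.invOfUnit W u)) := by
    refine hasExp_ofPowerSeries fun τ _ => ?_
    have := hi τ
    simp only [PowerSeries.coeff_map] at this
    rw [qN_apply, Nat.cast_one]
    exact this
  refine ((hasExp_single (φ := φ) (s := qN 1) (-(n : ℤ)) 1).mul h5).congr fun τ => ?_
  have hqq : qN 1 τ = 𝕢 1 τ := by rw [qN_apply, Nat.cast_one]
  simp only [Pi.mul_apply, map_one, one_mul, hwdef, hqq, zpow_neg, zpow_natCast]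
  have := pow_ne_zero n (hq0 τ)
  have := h0 τ
  field_simp

variable {p : ℕ} [Fact p.Prime] {κ : ℤ} (H : HauptFn p κ) {l : ℕ}

lemma opMul_hdelta_smul (hl : l.Prime) (hN : ¬ l ∣ p) {F : ℍ → ℂ}
    (hF : ∀ g ∈ Gamma0 p, ∀ τ, F (g • τ) = F τ) (g : SL(2, ℤ)) (hg : g ∈ Gamma0 p) (τ : ℍ) :
    opMul (hdelta l) F (g • τ) = opMul (hdelta l) F τ := by
  set Sy := heckeSys (N := p) hl hN
  have h1 : ∀ x, F (hdelta l x • g • τ) = F (hdelta l (Sy.tgt ⟨g, hg⟩ x) • τ) := by
    intro x
    have h2 := Sy.spec ⟨g, hg⟩ x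
    rw [gam_apply, gam_apply] at h2
    have h3 : hdelta l x • g • τ = ((Sy.coc ⟨g, hg⟩ x : Gamma0 p) : SL(2, ℤ)) •
        (hdelta l (Sy.tgt ⟨g, hg⟩ x) • τ) := by
      have h4 : hdelta l x • (mapGL ℝ g : GL (Fin 2) ℝ) • τ =
          (mapGL ℝ ((Sy.coc ⟨g, hg⟩ x : Gamma0 p) : SL(2, ℤ)) : GL (Fin 2) ℝ) •
          (hdelta l (Sy.tgt ⟨g, hg⟩ x) • τ) := by
        rw [← mul_smul, ← mul_smul]
        exact congrArg (· • τ) h2
      exact h4
    rw [h3, hF _ (Subtype.mem _)]
  simp only [opMul, h1]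
  exact (Sy.tgt_bijective ⟨g, hg⟩).prod_comp fun x => F (hdelta l x • τ)

/-- `t` is bounded at the cusps which are not equivalent to `∞` -/
lemma isBounded_tI (g : SL(2, ℤ)) (hg : ¬ (p : ℤ) ∣ g 1 0) :
    IsBoundedAtImInfty (fun τ => tI H (g • τ)) := by
  have hp : p.Prime := Fact.out
  -- `g = g' S T ^ k`
  obtain ⟨k, hk⟩ : ∃ k : ℤ, (p : ℤ) ∣ g 1 1 - k * g 1 0 := by
    have hcop : IsCoprime (g 1 0) (p : ℤ) := by
      rw [isCoprime_comm]
      exact (Nat.prime_iff_prime_int.mp hp).coprime_iff_not_dvd.mpr hg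
    obtain ⟨a, b, hab⟩ := hcop
    exact ⟨g 1 1 * a, ⟨g 1 1 * b, by linear_combination (-(g 1 1)) * hab⟩⟩
  have hdet := g.det_coe
  rw [Matrix.det_fin_two] at hdet
  set g' : SL(2, ℤ) := ⟨!![-(g 0 1 - k * g 0 0), g 0 0; -(g 1 1 - k * g 1 0), g 1 0], by
    rw [Matrix.det_fin_two_of]; linear_combination hdet⟩ with hg'
  have hmem : g' ∈ Gamma0 p := by
    rw [Gamma0_mem, ZMod.intCast_zmod_eq_zero_iff_dvd]
    have : g' 1 0 = -(g 1 1 - k * g 1 0) := by simp [hg']
    rw [this]
    exact hk.neg_right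
  have hfac : g = g' * S * T ^ k := by
    ext i j
    rw [Matrix.SpecialLinearGroup.coe_mul, Matrix.SpecialLinearGroup.coe_mul,
      ModularGroup.coe_T_zpow, ModularGroup.coe_S]
    fin_cases i <;> fin_cases j <;>
      simp [hg', Matrix.mul_apply, Fin.sum_univ_two] <;> ring
  have h1 : ∀ τ, tI H (g • τ) = tI H (S • (T ^ k • τ)) := by
    intro τ
    conv_lhs => rw [hfac, mul_smul, mul_smul, tI_smul H g' hmem]
  simp only [h1]
  have h2 := (hasQ_tI_S H).isBounded (by exact_mod_cast hp.pos)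
  have h3 : Filter.Tendsto (fun τ : ℍ => T ^ k • τ) atImInfty atImInfty := by
    rw [UpperHalfPlane.atImInfty, Filter.tendsto_comap_iff]
    refine Filter.tendsto_comap.congr fun τ => ?_
    rw [Function.comp_apply, UpperHalfPlane.modular_T_zpow_smul, UpperHalfPlane.vadd_im]
  exact h2.comp_tendsto h3

lemma mdiff_comp_hdelta {F : ℍ → ℂ} (hF : MDiff F) (hl : l ≠ 0) (x : Option (Fin l)) :
    MDiff (fun τ => F (hdelta l x • τ)) := by
  obtain ⟨a, b, d, h⟩ := hdelta_isTri hl x
  exact hF.comp (UpperHalfPlane.mdifferentiable_smul h.det_pos.2)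

/-- the entries of the Hecke representatives -/
lemma hdelta_entries (hl : l ≠ 0) (x : Option (Fin l)) :
    ∃ a b d : ℤ, IsTri (hdelta l x) a b d ∧ (a = 1 ∨ a = l) ∧ (d = 1 ∨ d = l) := by
  cases x with
  | none => exact ⟨_, _, _, isTri_heckeDiagMatrix hl, Or.inr rfl, Or.inl rfl⟩
  | some j => exact ⟨_, _, _, isTri_heckeMatrix hl j, Or.inl rfl, Or.inr rfl⟩

lemma tendsto_hdelta (hl : l ≠ 0) (x : Option (Fin l)) :
    Filter.Tendsto (fun τ : ℍ => hdelta l x • τ) atImInfty atImInfty := by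
  obtain ⟨a, b, d, h⟩ := hdelta_isTri hl x
  have ha : (0 : ℝ) < a := by exact_mod_cast h.ha
  have hd : (0 : ℝ) < d := by exact_mod_cast h.hd
  have him : ∀ τ : ℍ, (hdelta l x • τ : ℍ).im = (a / d : ℝ) * τ.im := by
    intro τ
    have h1 : ((hdelta l x • τ : ℍ) : ℂ) = ((a : ℂ) * τ + b) / d := by
      rw [UpperHalfPlane.coe_smul_of_det_pos h.det_pos.2]
      simp [UpperHalfPlane.num, UpperHalfPlane.denom, h.h00, h.h01, h.h10, h.h11]
    have h2 := congrArg Complex.im h1
    rw [show (d : ℂ) = ((d : ℝ) : ℂ) by simp, Complex.div_ofReal_im] at h2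
    rw [UpperHalfPlane.coe_im] at h2
    rw [h2]
    simp
    ring
  rw [UpperHalfPlane.atImInfty, Filter.tendsto_comap_iff]
  have h3 : (UpperHalfPlane.im ∘ fun τ : ℍ => hdelta l x • τ) =
      (fun y : ℝ => (a / d : ℝ) * y) ∘ UpperHalfPlane.im := by
    funext τ
    exact him τ
  rw [h3]
  exact (Filter.tendsto_id.const_mul_atTop (div_pos ha hd)).comp Filter.tendsto_comap

lemma exists_hasQ_prod_S (hl : l.Prime) (hN : ¬ l ∣ p) (x : ℂ) :
    ∃ B, HasQ p (fun τ => opMul (hdelta l) (fun τ => x - tI H τ) (S • τ)) B := by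
  have hp : p.Prime := Fact.out
  have hlp : IsCoprime (l : ℤ) (p : ℤ) := by
    have := (Nat.Prime.coprime_iff_not_dvd hl).mpr hN
    exact_mod_cast Nat.isCoprime_iff_coprime.mpr this
  have hFinv : ∀ g ∈ Gamma0 p, ∀ τ, (fun τ => x - tI H τ) (g • τ) = (fun τ => x - tI H τ) τ := by
    intro g hg τ
    simp only [tI_smul H g hg]
  have hMD : MDiff (opMul (hdelta l) (fun τ => x - tI H τ)) := by
    have h1 : opMul (hdelta l) (fun τ => x - tI H τ) =
        ∏ i : Option (Fin l), fun τ => x - tI H (hdelta l i • τ) := by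
      ext τ
      rw [opMul, Finset.prod_apply]
    rw [h1]
    exact mdiff_prod _ fun i _ => mdifferentiable_const.sub
      (mdiff_comp_hdelta (mdiff_tI H) hl.ne_zero i)
  have hMD2 : MDiff (fun τ => opMul (hdelta l) (fun τ => x - tI H τ) (S • τ)) :=
    ModFun.mdiff_smul hMD S
  -- periodicity
  have hper : Function.Periodic ((fun τ => opMul (hdelta l) (fun τ => x - tI H τ) (S • τ)) ∘
      ofComplex) (p : ℝ) := by
    have h1 : ∀ τ : ℍ, (fun τ => opMul (hdelta l) (fun τ => x - tI H τ) (S • τ)) ((p : ℝ) +ᵥ τ) =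
        (fun τ => opMul (hdelta l) (fun τ => x - tI H τ) (S • τ)) τ := by
      intro τ
      let g : SL(2, ℤ) := ⟨!![1, 0; -(p : ℤ), 1], by simp⟩
      have h3 : S * T ^ (p : ℤ) = g * S := by
        ext i j
        rw [Matrix.SpecialLinearGroup.coe_mul, Matrix.SpecialLinearGroup.coe_mul,
          ModularGroup.coe_T_zpow, ModularGroup.coe_S]
        fin_cases i <;> fin_cases j <;> simp [g, Matrix.mul_apply, Fin.sum_univ_two]
      have h2 : S • ((p : ℝ) +ᵥ τ) = g • (S • τ) := by
        rw [← mul_smul, ← h3, mul_smul, UpperHalfPlane.modular_T_zpow_smul]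
        simp
      have hmem : g ∈ Gamma0 p := by
        rw [Gamma0_mem]
        simp [g]
      simp only [h2]
      exact opMul_hdelta_smul hl hN hFinv _ hmem _
    have := ModFun.periodic_ofComplex (h := (p : ℕ)) (f := fun τ =>
      opMul (hdelta l) (fun τ => x - tI H τ) (S • τ)) h1
    exact_mod_cast this
  -- boundedness
  have hb : IsBoundedAtImInfty (fun τ => opMul (hdelta l) (fun τ => x - tI H τ) (S • τ)) := by
    have hl1 : ¬ l ∣ 1 := fun h => hl.one_lt.ne' (Nat.dvd_one.mp h)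
    set Sy := heckeSys (N := 1) hl hl1
    have hS1 : S ∈ Gamma0 1 := by rw [Gamma0_mem]; exact Subsingleton.elim _ _
    have h1 : ∀ i : Option (Fin l), IsBoundedAtImInfty
        (fun τ => x - tI H (hdelta l i • (S • τ))) := by
      intro i
      have h2 := Sy.spec ⟨S, hS1⟩ i
      rw [gam_apply, gam_apply] at h2
      set g' : SL(2, ℤ) := ((Sy.coc ⟨S, hS1⟩ i : Gamma0 1) : SL(2, ℤ)) with hg'
      set j := Sy.tgt ⟨S, hS1⟩ i with hj
      have h3 : ∀ τ : ℍ, hdelta l i • (S • τ) = g' • (hdelta l j • τ) := by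
        intro τ
        have h4 : hdelta l i • (mapGL ℝ S : GL (Fin 2) ℝ) • τ =
            (mapGL ℝ g' : GL (Fin 2) ℝ) • (hdelta l j • τ) := by
          rw [← mul_smul, ← mul_smul]
          exact congrArg (· • τ) h2
        exact h4
      have h5 : ¬ (p : ℤ) ∣ g' 1 0 := by
        obtain ⟨a, b, d, hi, ha, hd⟩ := hdelta_entries hl.ne_zero i
        obtain ⟨a', b', d', hj', ha', hd'⟩ := hdelta_entries hl.ne_zero j
        have h6 := congrArg (fun g : GL (Fin 2) ℝ => (g : Matrix (Fin 2) (Fin 2) ℝ) 1 0) h2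
        change ((hdelta l i * mapGL ℝ S : GL (Fin 2) ℝ) : Matrix (Fin 2) (Fin 2) ℝ) 1 0 =
          ((mapGL ℝ g' * hdelta l j : GL (Fin 2) ℝ) : Matrix (Fin 2) (Fin 2) ℝ) 1 0 at h6
        simp only [Units.val_mul, Matrix.mul_apply, Fin.sum_univ_two, hi.h10, hi.h11, hj'.h00,
          hj'.h10, mapGL_apply, mul_zero, add_zero, zero_mul, zero_add, ModularGroup.coe_S,
          Matrix.of_apply, Matrix.cons_val', Matrix.cons_val_zero, Matrix.cons_val_one,
          Matrix.cons_val_fin_one] at h6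
        have h7 : d = g' 1 0 * a' := by
          have : ((d : ℝ)) = (g' 1 0 : ℝ) * a' := by simpa using h6
          exact_mod_cast this
        intro hdvd
        have h8 : (p : ℤ) ∣ d := h7 ▸ hdvd.mul_right a'
        have h9 : IsCoprime (p : ℤ) d := by
          rcases hd with rfl | rfl
          · exact isCoprime_one_right
          · exact hlp.symm
        have h10 := h9.isUnit_of_dvd' dvd_rfl h8
        exact (Nat.prime_iff_prime_int.mp hp).not_isUnit h10
      simp only [h3]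
      refine (Filter.const_boundedAtFilter atImInfty x).sub ?_
      exact (isBounded_tI H g' h5).comp_tendsto (tendsto_hdelta hl.ne_zero j)
    have h2 : (fun τ => opMul (hdelta l) (fun τ => x - tI H τ) (S • τ)) =
        ∏ i : Option (Fin l), fun τ => x - tI H (hdelta l i • (S • τ)) := by
      ext τ
      rw [opMul, Finset.prod_apply]
    rw [h2]
    exact bounded_prod _ fun i _ => h1 i
  exact ⟨_, HasQ.of_periodic (by exact_mod_cast hp.pos) hper hMD2 hb⟩

end Fermat.Agent.LG
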