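import Mathlib
import Fermat.Agent.LG.GRGauss
import Fermat.Agent.LG.TPoly
import Fermat.Agent.ModFun.GenDegree
import Fermat.Agent.ModFun.VDegree

/-!
The Hauptmodul `t` as an element of the function field of `X₀(N)`.
-/

set_option autoImplicit false
set_option linter.unusedSectionVars false

open Matrix.SpecialLinearGroup CongruenceSubgroup ModularGroup
open scoped MatrixGroups ModularForm Manifold
open UpperHalfPlane hiding I J
open Complex (I)
open Fermat.Agent.Eis16 Fermat.Agent.ModFun Fermat.Agent.ESCore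

noncomputable section

namespace Fermat.Agent.LG

section Mem

variable {p : ℕ} [Fact p.Prime] {κ : ℤ} (H : HauptFn p κ)

theorem tI_mem_modFun {N : ℕ} [NeZero N] (hp : p ∣ N) : tI H ∈ modFun (RingHom.id ℂ) N := by
  refine ⟨mdiff_tI H, fun γ => ?_⟩
  by_cases hγ : (p : ℤ) ∣ γ 1 0
  · refine ⟨_, ((hasExp_tI H (RingHom.id ℂ)).level N).congr fun τ => ?_⟩
    rw [tI_smul H γ]
    rw [Gamma0_mem, ZMod.intCast_zmod_eq_zero_iff_dvd]
    exact hγ
  · have hb := isBounded_tI H γ hγ
    have hmd : MDiff (fun τ => tI H (γ • τ)) := ModFun.mdiff_smul (mdiff_tI H) γ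
    have hper : Function.Periodic ((fun τ => tI H (γ • τ)) ∘ ofComplex) ((N : ℕ) : ℝ) := by
      refine ModFun.periodic_ofComplex fun τ => ?_
      have h1 : ((N : ℝ) +ᵥ τ : ℍ) = ModularGroup.T ^ (N : ℤ) • τ := by
        rw [UpperHalfPlane.modular_T_zpow_smul]
        simp
      set g : SL(2, ℤ) := γ * ModularGroup.T ^ (N : ℤ) * γ⁻¹ with hg
      have h2 : γ • ModularGroup.T ^ (N : ℤ) • τ = g • (γ • τ) := by
        rw [hg, mul_smul, mul_smul, inv_smul_smul]
      rw [h1, h2]
      apply tI_smul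
      rw [Gamma0_mem, ZMod.intCast_zmod_eq_zero_iff_dvd]
      have h3 : g 1 0 = -(N : ℤ) * (γ 1 0) ^ 2 := by
        have hdet := γ.det_coe
        rw [Matrix.det_fin_two] at hdet
        rw [hg, Matrix.SpecialLinearGroup.coe_mul, Matrix.SpecialLinearGroup.coe_mul,
          ModularGroup.coe_T_zpow, Matrix.SpecialLinearGroup.coe_inv, Matrix.adjugate_fin_two]
        simp [Matrix.mul_apply, Fin.sum_univ_two]
        ring
      rw [h3]
      exact Dvd.dvd.mul_right ((Int.natCast_dvd_natCast.mpr hp).neg_right) _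
    have hN : (0 : ℝ) < ((N : ℕ) : ℝ) := by exact_mod_cast Nat.pos_of_ne_zero (NeZero.ne N)
    have hq := HasQ.of_periodic hN hper hmd hb
    refine ⟨_, hasExp_ofPowerSeries (P := qExpansion N (fun τ => tI H (γ • τ))) fun τ _ => ?_⟩
    exact hq τ

theorem tI_isInv {N : ℕ} (hp : p ∣ N) : IsInv N (tI H) := by
  intro γ hγ τ
  apply tI_smul
  rw [Gamma0_mem, ZMod.intCast_zmod_eq_zero_iff_dvd] at hγ ⊢
  exact (Int.natCast_dvd_natCast.mpr hp).trans hγ

variable {L : Type*} [Field L] (ι : L →+* ℂ) {N : ℕ} [NeZero N]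

include H in
theorem tS_mem_holC (hp : p ∣ N) : tS L p κ ∈ holC ι N :=
  ⟨tI H, tI_mem_modFun H hp, tI_isInv H hp, hasExp_tI H ι⟩

theorem mem_F0_of_mem_holC {F : LaurentSeries L} (hF : F ∈ holC ι N) : F ∈ F0 L N := by
  have h1 := mem_adjoin_of_mem_holC hF
  refine (IntermediateField.adjoin_le_iff.mpr ?_) h1
  rintro x hx
  rcases hx with rfl | rfl
  · exact IntermediateField.subset_adjoin _ _ jqModC_mem_gens
  · exact IntermediateField.subset_adjoin _ _ ⟨N, inferInstance, dvd_rfl, rfl⟩

include H ι in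
theorem tS_mem_F0 (hp : p ∣ N) : tS L p κ ∈ F0 L N := mem_F0_of_mem_holC ι (tS_mem_holC H ι hp)

include ι in
theorem vS_mem_F0 : vS L N ∈ F0 L N :=
  mem_F0_of_mem_holC ι ⟨Vfun N, Vfun_mem_modFun (φ := RingHom.id ℂ) (by
    rw [isUnit_iff_ne_zero]; exact_mod_cast NeZero.ne N) (zetaC_spec N), Vfun_isInv N,
    hasExp_Vfun' ι N⟩

end Mem

section Inj

variable {p : ℕ} [Fact p.Prime] {κ : ℤ} {R : Type*} [CommRing R]

theorem coeff_eval₂_tS' (r : Polynomial R) (n : ℕ) (hn : r.natDegree ≤ n) :
    (r.eval₂ HahnSeries.C (tS R p κ)).coeff (-(n : ℤ)) = r.coeff n := by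
  have h0 : r.eval₂ HahnSeries.C (tS R p κ) =
      ∑ i ∈ Finset.range (n + 1), HahnSeries.C (r.coeff i) * tS R p κ ^ i :=
    Polynomial.eval₂_eq_sum_range' _ (Nat.lt_succ_of_le hn) _
  rw [h0, HahnSeries.coeff_sum, Finset.sum_eq_single_of_mem n (by simp)]
  · rw [HahnSeries.C_mul_eq_smul, HahnSeries.coeff_smul, (coeff_tS_pow n).2, smul_eq_mul, mul_one]
  · intro m hm hne
    have : m < n := by
      have := Finset.mem_range.mp hm
      omega
    rw [HahnSeries.C_mul_eq_smul, HahnSeries.coeff_smul, (coeff_tS_pow m).1 _ (by omega),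
      smul_zero]

theorem eval₂_tS_eq_zero {P : Polynomial R} (h : P.eval₂ HahnSeries.C (tS R p κ) = 0) : P = 0 := by
  by_contra hne
  have h1 := coeff_eval₂_tS' (p := p) (κ := κ) P P.natDegree le_rfl
  rw [h, HahnSeries.coeff_zero] at h1
  exact hne (Polynomial.leadingCoeff_eq_zero.mp h1.symm)

theorem eval₂_jq_eq_zero {P : Polynomial R}
    (h : P.eval₂ HahnSeries.C (ModularCurve.jqModC R) = 0) : P = 0 := by
  refine eval₂_jq_injective ?_
  rw [map_zero]
  exact h

theorem toK_tS {O : Type*} [CommRing O] [IsDomain O] [IsDiscreteValuationRing O] :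
    toK O (tS O p κ) = tS (IsLocalRing.ResidueField O) p κ := by
  ext n
  simp only [toK_coeff, tS, ModularCurve.coeffMap_coeff]
  simp

theorem toL_tS {O L : Type*} [CommRing O] [IsDomain O] [IsDiscreteValuationRing O]
    [Field L] [Algebra O L] [IsFractionRing O L] : toL O L (tS O p κ) = tS L p κ := by
  ext n
  simp only [toL_coeff, tS, ModularCurve.coeffMap_coeff]
  simp

theorem toK_jq {O : Type*} [CommRing O] [IsDomain O] [IsDiscreteValuationRing O] :
    toK O (ModularCurve.jqModC O) = ModularCurve.jqModC (IsLocalRing.ResidueField O) :=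
  coeffMap_jqModC _

theorem toL_jq {O L : Type*} [CommRing O] [IsDomain O] [IsDiscreteValuationRing O]
    [Field L] [Algebra O L] [IsFractionRing O L] :
    toL O L (ModularCurve.jqModC O) = ModularCurve.jqModC L :=
  coeffMap_jqModC _

theorem thD_tS_ne_zero {k : Type*} [Field k] : thD (tS k p κ) ≠ 0 := by
  intro h
  have h1 := congrArg (fun z : LaurentSeries k => z.coeff (-1)) h
  simp only [thD_coeff, coeff_tS_neg_one] at h1
  simp at h1

end Inj

section GK

variable {O L : Type*} [CommRing O] [IsDomain O] [IsDiscreteValuationRing O]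
    [Field L] [Algebra O L] [IsFractionRing O L]

theorem toL_mem_gK (a : LaurentSeries O) : toL O L a ∈ gK O L := gV_le_gK (toL_mem_gV a)

/-- `gK` as an intermediate field -/
def gKI (O L : Type*) [CommRing O] [IsDomain O] [IsDiscreteValuationRing O]
    [Field L] [Algebra O L] [IsFractionRing O L] : IntermediateField L (LaurentSeries L) :=
  (gK O L).toIntermediateField fun x => by
    rw [ModularCurve.algebraMap_laurentSeries_eq_single]
    exact C_mem_gK x

theorem F0_le_gK {N : ℕ} [NeZero N] {x : LaurentSeries L} (hx : x ∈ F0 L N) : x ∈ gK O L := by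
  have h1 : F0 L N ≤ gKI O L := by
    rw [IntermediateField.adjoin_le_iff]
    rintro x ⟨d, hd0, hd, rfl⟩
    change _ ∈ gK O L
    have h2 : ModularCurve.qExpand L d (ModularCurve.jqModC L) =
        toL O L (ModularCurve.qExpand O d (ModularCurve.jqModC O)) := by
      rw [toL, coeffMap_qExpand, coeffMap_jqModC]
    rw [h2]
    exact toL_mem_gK _
  exact h1 hx

end GK

end Fermat.Agent.LG
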