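import Mathlib
import Fermat.Agent.LG.GRField

/-!
Orders of the Hauptmodul at the points of `ℍ`, and its relation with `J`.
-/

set_option autoImplicit false
set_option linter.unusedSectionVars false

open Matrix.SpecialLinearGroup CongruenceSubgroup ModularGroup
open scoped MatrixGroups ModularForm Manifold Topology
open UpperHalfPlane hiding I J
open Complex (I)
open Fermat.Agent.Eis16 Fermat.Agent.ModFun Fermat.Agent.ESCore

noncomputable section

namespace Fermat.Agent.LG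

theorem ordH_smul (g : SL(2, ℤ)) (f : ℍ → ℂ) (τ₀ : ℍ) :
    ordH τ₀ (fun τ => f (g • τ)) = ordH (g • τ₀) f := by
  set m : ℂ → ℂ := fun z => ((g 0 0 : ℂ) * z + g 0 1) / ((g 1 0 : ℂ) * z + g 1 1) with hm
  have hden : ∀ τ : ℍ, (g 1 0 : ℂ) * τ + g 1 1 ≠ 0 := by
    intro τ
    have := UpperHalfPlane.denom_ne_zero g τ
    rwa [ModularGroup.denom_apply] at this
  have hmt : ∀ τ : ℍ, m τ = ((g • τ : ℍ) : ℂ) := by
    intro τ
    rw [UpperHalfPlane.specialLinearGroup_apply, hm]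
    simp
  have hdet : (g 0 0 : ℂ) * g 1 1 - g 0 1 * g 1 0 = 1 := by
    have := g.det_coe
    rw [Matrix.det_fin_two] at this
    exact_mod_cast this
  have han : AnalyticAt ℂ m τ₀ := by
    rw [hm]
    exact AnalyticAt.div (by fun_prop) (by fun_prop) (hden τ₀)
  have hder : deriv m τ₀ ≠ 0 := by
    have h1 : HasDerivAt m (((g 0 0 : ℂ) * ((g 1 0 : ℂ) * τ₀ + g 1 1) -
        ((g 0 0 : ℂ) * τ₀ + g 0 1) * (g 1 0 : ℂ)) / ((g 1 0 : ℂ) * τ₀ + g 1 1) ^ 2) τ₀ := by
      have h2 : HasDerivAt (fun z : ℂ => (g 0 0 : ℂ) * z + g 0 1) (g 0 0 : ℂ) (τ₀ : ℂ) := by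
        simpa using ((hasDerivAt_id (τ₀ : ℂ)).const_mul (g 0 0 : ℂ)).add_const (g 0 1 : ℂ)
      have h3 : HasDerivAt (fun z : ℂ => (g 1 0 : ℂ) * z + g 1 1) (g 1 0 : ℂ) (τ₀ : ℂ) := by
        simpa using ((hasDerivAt_id (τ₀ : ℂ)).const_mul (g 1 0 : ℂ)).add_const (g 1 1 : ℂ)
      exact h2.div h3 (hden τ₀)
    rw [h1.deriv]
    refine div_ne_zero ?_ (pow_ne_zero _ (hden τ₀))
    have : (g 0 0 : ℂ) * ((g 1 0 : ℂ) * τ₀ + g 1 1) -
        ((g 0 0 : ℂ) * τ₀ + g 0 1) * (g 1 0 : ℂ) = 1 := by linear_combination hdet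
    rw [this]
    exact one_ne_zero
  have hev : (fun τ => f (g • τ)) ∘ ofComplex =ᶠ[𝓝 (τ₀ : ℂ)] (f ∘ ofComplex) ∘ m := by
    have hopen : {z : ℂ | 0 < z.im} ∈ 𝓝 (τ₀ : ℂ) :=
      (isOpen_lt continuous_const Complex.continuous_im).mem_nhds τ₀.im_pos
    filter_upwards [hopen] with z hz
    have hz' : ofComplex z = ⟨z, hz⟩ := ofComplex_apply_of_im_pos hz
    simp only [Function.comp_apply, hz']
    have h4 := hmt ⟨z, hz⟩
    have h5 : m z = ((g • (⟨z, hz⟩ : ℍ) : ℍ) : ℂ) := h4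
    rw [h5, ofComplex_apply]
  rw [ordH, analyticOrderAt_congr hev, analyticOrderAt_comp_of_deriv_ne_zero han hder, hmt, ordH]

/-- The properties of the Hauptmodul which are used. -/
structure HautData {p : ℕ} [Fact p.Prime] {κ : ℤ} (H : HauptFn p κ) (S : Set ℤ) (k : ℕ)
    (P : Polynomial ℤ) : Prop where
  zero : (0 : ℤ) ∈ S
  rel : ∀ τ, J τ * tI H τ ^ k = P.eval₂ (Int.castRingHom ℂ) (tI H τ)
  ord : ∀ τ₀ : ℍ, (∀ c ∈ S, tI H τ₀ ≠ (c : ℂ)) → ordH τ₀ (tI H - fun _ => tI H τ₀) = 1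

theorem ordH_tI {p : ℕ} [Fact p.Prime] {κ : ℤ} (H : HauptFn p κ) (τ₀ : ℍ) :
    ordH τ₀ (tI H - fun _ => tI H τ₀) = ordH τ₀ (H.t - fun _ => H.t τ₀) := by
  have ht := H.mdiff
  have hc : ∀ c : ℂ, MDiff (fun _ : ℍ => c) := fun c => mdifferentiable_const
  have h0 := H.ne_zero τ₀
  have h1 : (tI H - fun _ => tI H τ₀) * (H.t * fun _ => H.t τ₀) =
      (fun _ => (-1 : ℂ)) * (H.t - fun _ => H.t τ₀) := by
    funext τ
    have h2 := H.ne_zero τ
    simp only [Pi.mul_apply, Pi.sub_apply, tI]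
    field_simp
    ring
  have h3 := congrArg (ordH τ₀) h1
  rw [ordH_mul (mdiff_sub_const (mdiff_tI H) _) (ht.mul (hc _)),
    ordH_mul (hc _) (mdiff_sub_const ht _), ordH_mul ht (hc _), ordH_eq_zero ht h0,
    ordH_eq_zero (hc _) h0, ordH_eq_zero (hc _) (by norm_num), zero_add, add_zero] at h3
  rw [h3, zero_add]

theorem haut2 : HautData haupt2 {0, -64} 2 ((Polynomial.X + Polynomial.C 256) ^ 3) where
  zero := by simp
  rel τ := by
    have h := J_mul_t2 τ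
    have h0 := t2_ne_zero τ
    have h1 : tI haupt2 τ = (t2 τ)⁻¹ := rfl
    rw [h1]
    have e : (Int.castRingHom ℂ) 256 = 256 := by simp
    simp only [Polynomial.eval₂_pow, Polynomial.eval₂_add, Polynomial.eval₂_X, Polynomial.eval₂_C,
      e]
    field_simp
    linear_combination h
  ord τ₀ hτ := by
    rw [ordH_tI]
    have h := haupt2.ordH_two (τ₀ := τ₀) J_mul_t2
    rw [h, if_neg]
    intro h1
    apply hτ (-64) (by simp)
    rw [tI, h1]
    norm_num

theorem haut3 : HautData haupt3 {0, -27} 3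
    ((Polynomial.X + Polynomial.C 27) * (Polynomial.X + Polynomial.C 243) ^ 3) where
  zero := by simp
  rel τ := by
    have h := J_mul_t3 τ
    have h0 := t3_ne_zero τ
    have h1 : tI haupt3 τ = (t3 τ)⁻¹ := rfl
    rw [h1]
    have e : (Int.castRingHom ℂ) 27 = 27 := by simp
    have e' : (Int.castRingHom ℂ) 243 = 243 := by simp
    simp only [Polynomial.eval₂_pow, Polynomial.eval₂_mul, Polynomial.eval₂_add, Polynomial.eval₂_X,
      Polynomial.eval₂_C, e, e']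
    field_simp
    linear_combination h
  ord τ₀ hτ := by
    rw [ordH_tI]
    have h := haupt3.ordH_three (τ₀ := τ₀) J_mul_t3
    rw [h, if_neg]
    intro h1
    apply hτ (-27) (by simp)
    rw [tI, h1]
    norm_num

end Fermat.Agent.LG
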