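import Mathlib
import Fermat.Agent.LG.TPoly

/-!
The modular equation of prime degree `l` for the Hauptmodul `t`: existence and shape.
-/

set_option autoImplicit false
set_option linter.unusedSectionVars false

open Matrix.SpecialLinearGroup CongruenceSubgroup ModularGroup
open scoped MatrixGroups ModularForm Manifold
open UpperHalfPlane hiding I J
open Complex (I)
open Fermat.Agent.Eis16 Fermat.Agent.ModFun Fermat.Agent.ESCore

noncomputable section

namespace Fermat.Agent.LG

local notation "𝕢" => Function.Periodic.qParam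

variable {p : ℕ} [Fact p.Prime] {κ : ℤ} (H : HauptFn p κ) {l : ℕ}

/-- the expansion of the product of the conjugates of `H.t` -/
lemma exists_heckeSer_TS (hl : l ≠ 0) (H : HauptFn p κ) :
    ∃ (W : PowerSeries ℤ) (u : ℤˣ), PowerSeries.constantCoeff W = u ∧
    heckeSer l hl (TS p κ) = PowerSeries.X ^ (l + 1) * W := by
  obtain ⟨c, ⟨u, hu⟩, hc⟩ := exists_heckeSer_X hl
  refine ⟨c * heckeSer l hl (TW p κ), u, ?_, ?_⟩
  · rw [map_mul, constantCoeff_heckeSer, constantCoeff_TW p κ H.hp1, one_pow, mul_one, hu]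
  · rw [TS_eq, heckeSer_mul, hc]; ring

section StepA

variable {R : Type*} [CommRing R] (φ : R →+* ℂ)

/-- the expansion of `∏ (x - t_k)` -/
def FQ (hl : l ≠ 0) (p : ℕ) [NeZero p] (κ : ℤ) (W : PowerSeries ℤ) (u : ℤˣ) (x : R) :
    LaurentSeries R :=
  HahnSeries.ofPowerSeries ℤ R (heckeSer l hl
    (PowerSeries.C x * PowerSeries.map (Int.castRingHom R) (TS p κ) - 1)) *
  (HahnSeries.single (-((l + 1 : ℕ) : ℤ)) 1 * HahnSeries.ofPowerSeries ℤ R
    (PowerSeries.invOfUnit (PowerSeries.map (Int.castRingHom R) W)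
      (Units.map (Int.castRingHom R : ℤ →* R) u)))

lemma hasExp_FQ (hl : l ≠ 0) {W : PowerSeries ℤ} {u : ℤˣ}
    (hW : PowerSeries.constantCoeff W = u)
    (hTS : heckeSer l hl (TS p κ) = PowerSeries.X ^ (l + 1) * W) (x : R) :
    HasExp φ (qN 1) (opMul (hdelta l) (fun τ => φ x - tI H τ)) (FQ hl p κ W u x) := by
  have hmapmap : ∀ P : PowerSeries ℤ, PowerSeries.map φ (PowerSeries.map (Int.castRingHom R) P) =
      toC P := by
    intro P
    ext n
    simp
  have h1 : HasQ 1 (fun τ => φ x * H.t τ - 1)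
      (PowerSeries.map φ (PowerSeries.C x * PowerSeries.map (Int.castRingHom R) (TS p κ) - 1)) := by
    rw [map_sub, map_mul, PowerSeries.map_C, hmapmap, map_one]
    exact ((HasQ.const 1 (φ x)).mul H.hasQ).sub (HasQ.one 1)
  have h2 := hasQ_heckeMul hl h1
  rw [← map_heckeSer] at h2
  have h3 := hasQ_heckeMul hl H.hasQ
  have hmd : MDiff (heckeMul l H.t) := h3.mdiff one_pos
  have h3' : HasQ 1 (heckeMul l H.t) (PowerSeries.map φ
      (PowerSeries.X ^ (l + 1) * PowerSeries.map (Int.castRingHom R) W)) := by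
    have : PowerSeries.map φ (PowerSeries.X ^ (l + 1) * PowerSeries.map (Int.castRingHom R) W) =
        heckeSer l hl (toC (TS p κ)) := by
      have h5 : toC (TS p κ) = PowerSeries.map (Int.castRingHom ℂ) (TS p κ) := rfl
      rw [h5, ← map_heckeSer, hTS, map_mul, map_mul, map_pow, map_pow, PowerSeries.map_X,
        PowerSeries.map_X, hmapmap]
    rw [this]
    exact h3
  have h0 : ∀ τ, heckeMul l H.t τ ≠ 0 := fun τ => opMul_ne_zero _ τ fun x => H.ne_zero _
  have h4 := hasExp_inv_of (φ := φ) hmd h0 (l + 1) (PowerSeries.map (Int.castRingHom R) W)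
    (Units.map (Int.castRingHom R : ℤ →* R) u) (by
      rw [← PowerSeries.coeff_zero_eq_constantCoeff_apply, PowerSeries.coeff_map,
        PowerSeries.coeff_zero_eq_constantCoeff_apply, hW]
      rfl) h3'
  have h5 : HasExp φ (qN 1) (heckeMul l (fun τ => φ x * H.t τ - 1))
      (HahnSeries.ofPowerSeries ℤ R (heckeSer l hl
        (PowerSeries.C x * PowerSeries.map (Int.castRingHom R) (TS p κ) - 1))) := by
    refine hasExp_ofPowerSeries fun τ _ => ?_
    have := h2 τ
    simp only [PowerSeries.coeff_map] at this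
    rw [qN_apply, Nat.cast_one]
    exact this
  refine (h5.mul h4).congr fun τ => ?_
  simp only [Pi.mul_apply, heckeMul, opMul]
  rw [← Finset.prod_inv_distrib, ← Finset.prod_mul_distrib]
  refine Finset.prod_congr rfl fun i _ => ?_
  have := H.ne_zero (hdelta l i • τ)
  rw [tI]
  field_simp

end StepA

lemma hasExp_eval₂ {R : Type*} [CommRing R] {φ : R →+* ℂ} {s f : ℍ → ℂ} {F : LaurentSeries R}
    (h : HasExp φ s f F) (P : Polynomial R) :
    HasExp φ s (fun τ => P.eval₂ φ (f τ)) (P.eval₂ HahnSeries.C F) := by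
  have h1 : ∀ τ, P.eval₂ φ (f τ) = (∑ i ∈ P.support, fun τ => φ (P.coeff i) * (f ^ i) τ) τ := by
    intro τ
    rw [Polynomial.eval₂_eq_sum, Polynomial.sum, Finset.sum_apply]
    rfl
  rw [Polynomial.eval₂_eq_sum, Polynomial.sum]
  refine HasExp.congr (f := ∑ i ∈ P.support, fun τ => φ (P.coeff i) * (f ^ i) τ) ?_
    (fun τ => (h1 τ).symm)
  exact HasExp.sum _ fun i _ => (h.pow i).smul _

/-- existence of the modular equation -/
theorem exists_modpoly_aux (hl : l.Prime) (hN : ¬ l ∣ p) :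
    ∃ Φ : Polynomial (Polynomial ℤ), ∀ (x : ℂ) (τ : ℍ),
      opMul (hdelta l) (fun τ => x - tI H τ) τ =
        Φ.eval₂ (Polynomial.eval₂RingHom (Int.castRingHom ℂ) x) (tI H τ) := by
  obtain ⟨W, u, hW, hTS⟩ := exists_heckeSer_TS hl.ne_zero H
  -- a transcendental number
  have htr : Transcendental ℤ ((liouvilleNumber 2 : ℝ) : ℂ) := by
    have h1 : Transcendental ℤ (liouvilleNumber 2) := transcendental_liouvilleNumber (m := 2) le_rfl
    rintro ⟨P, hP, hP2⟩
    refine h1 ⟨P, hP, ?_⟩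
    have h2 : Polynomial.aeval ((liouvilleNumber 2 : ℝ) : ℂ) P =
        ((Polynomial.aeval (liouvilleNumber 2) P : ℝ) : ℂ) := by
      rw [Polynomial.aeval_def, Polynomial.aeval_def]
      have := Polynomial.hom_eval₂ P (algebraMap ℤ ℝ) Complex.ofRealHom (liouvilleNumber 2)
      rw [RingHom.ext_int (Complex.ofRealHom.comp (algebraMap ℤ ℝ)) (algebraMap ℤ ℂ)] at this
      exact this.symm
    rw [h2] at hP2
    exact_mod_cast hP2
  set x0 : ℂ := ((liouvilleNumber 2 : ℝ) : ℂ)
  set φ0 : Polynomial ℤ →+* ℂ := Polynomial.eval₂RingHom (Int.castRingHom ℂ) x0 with hφ0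
  have hinj : Function.Injective φ0 := by
    rw [injective_iff_map_eq_zero]
    intro P hP
    by_contra h0
    exact htr ⟨P, h0, hP⟩
  have hx0 : φ0 Polynomial.X = x0 := by simp [hφ0]
  have hinv : ∀ x : ℂ, ∀ g ∈ Gamma0 p, ∀ τ, (fun τ => x - tI H τ) (g • τ) =
      (fun τ => x - tI H τ) τ := by
    intro x g hg τ
    simp only [tI_smul H g hg]
  have hMD : ∀ x : ℂ, MDiff (opMul (hdelta l) (fun τ => x - tI H τ)) := by
    intro x
    have h1 : opMul (hdelta l) (fun τ => x - tI H τ) =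
        ∏ i : Option (Fin l), fun τ => x - tI H (hdelta l i • τ) := by
      ext τ
      rw [opMul, Finset.prod_apply]
    rw [h1]
    exact mdiff_prod _ fun i _ => mdifferentiable_const.sub
      (mdiff_comp_hdelta (mdiff_tI H) hl.ne_zero i)
  obtain ⟨Φ, -, hΦ⟩ := exists_polynomial_t H (φ := φ0) hinj (hMD x0)
    (fun g hg τ => opMul_hdelta_smul hl hN (hinv x0) g hg τ)
    (by
      have := hasExp_FQ H φ0 hl.ne_zero hW hTS Polynomial.X
      rwa [hx0] at this)
    (exists_hasQ_prod_S H hl hN x0)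
  refine ⟨Φ, fun x τ => ?_⟩
  set ψ : Polynomial ℤ →+* ℂ := Polynomial.eval₂RingHom (Int.castRingHom ℂ) x with hψ
  have h1 := hasExp_FQ H ψ hl.ne_zero hW hTS Polynomial.X
  have hx : ψ Polynomial.X = x := by simp [hψ]
  rw [hx, hΦ] at h1
  have h2 := hasExp_eval₂ (hasExp_tI H ψ) Φ
  exact congrFun (h1.fun_unique (qN_ne_zero 1) h2) τ

section Shape

/-- pairs of a function and its expansion -/
def expPairs (s : ℍ → ℂ) : Subring ((ℍ → ℂ) × LaurentSeries ℂ) where
  carrier := {x | HasExp (RingHom.id ℂ) s x.1 x.2}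
  mul_mem' h h' := HasExp.mul h h'
  one_mem' := hasExp_one
  add_mem' h h' := HasExp.add h h'
  zero_mem' := hasExp_zero
  neg_mem' h := HasExp.neg h

lemma hasExp_coeff_prod {ι : Type*} (s : Finset ι) {par : ℍ → ℂ} (f : ι → ℍ → ℂ)
    (E : ι → LaurentSeries ℂ) (h : ∀ i, HasExp (RingHom.id ℂ) par (f i) (E i)) (n : ℕ) :
    HasExp (RingHom.id ℂ) par
      (fun τ => (∏ i ∈ s, (Polynomial.X - Polynomial.C (f i τ))).coeff n)
      ((∏ i ∈ s, (Polynomial.X - Polynomial.C (E i))).coeff n) := by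
  set P : Polynomial (expPairs par) :=
    ∏ i ∈ s, (Polynomial.X - Polynomial.C (⟨(f i, E i), h i⟩ : expPairs par)) with hP
  have h1 : (P.map ((RingHom.snd (ℍ → ℂ) (LaurentSeries ℂ)).comp (expPairs par).subtype)) =
      ∏ i ∈ s, (Polynomial.X - Polynomial.C (E i)) := by
    rw [hP, Polynomial.map_prod]
    simp
  have h2 : ∀ τ : ℍ, (P.map (((Pi.evalRingHom (fun _ : ℍ => ℂ) τ).comp
      (RingHom.fst (ℍ → ℂ) (LaurentSeries ℂ))).comp (expPairs par).subtype)) =
      ∏ i ∈ s, (Polynomial.X - Polynomial.C (f i τ)) := by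
    intro τ
    rw [hP, Polynomial.map_prod]
    simp
  have h3 := (P.coeff n).2
  rw [← h1, Polynomial.coeff_map]
  refine HasExp.congr h3 fun τ => ?_
  rw [← h2, Polynomial.coeff_map]
  rfl

lemma coeff_prod_bound {ι : Type*} (s : Finset ι) (E : ι → LaurentSeries ℂ)
    (h : ∀ i, ∀ m < (-1 : ℤ), (E i).coeff m = 0) (n : ℕ) :
    ∀ m < (n : ℤ) - s.card, ((∏ i ∈ s, (Polynomial.X - Polynomial.C (E i))).coeff n).coeff m = 0 := by
  classical
  induction s using Finset.induction_on generalizing n with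
  | empty =>
    intro m hm
    rw [Finset.prod_empty, Polynomial.coeff_one]
    split_ifs with hn
    · subst hn
      simp only [CharP.cast_eq_zero, Finset.card_empty, sub_zero] at hm
      rw [HahnSeries.coeff_one, if_neg hm.ne]
    · simp
  | insert a s ha ih =>
    intro m hm
    rw [Finset.card_insert_of_notMem ha] at hm
    push_cast at hm
    have hexp : ((Polynomial.X - Polynomial.C (E a)) *
        ∏ i ∈ s, (Polynomial.X - Polynomial.C (E i)) : Polynomial (LaurentSeries ℂ)) =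
        Polynomial.X * ∏ i ∈ s, (Polynomial.X - Polynomial.C (E i)) -
        Polynomial.C (E a) * ∏ i ∈ s, (Polynomial.X - Polynomial.C (E i)) := by ring
    rw [Finset.prod_insert ha, hexp]
    cases n with
    | zero =>
      rw [Polynomial.coeff_sub, Polynomial.coeff_X_mul_zero, Polynomial.coeff_C_mul, zero_sub,
        HahnSeries.coeff_neg, (coeff_mul_of_lt (h a) (ih 0)).1 m (by push_cast at hm ⊢; omega),
        neg_zero]
    | succ n =>
      rw [Polynomial.coeff_sub, Polynomial.coeff_X_mul, Polynomial.coeff_C_mul,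
        HahnSeries.coeff_sub, ih n m (by push_cast at hm; omega),
        (coeff_mul_of_lt (h a) (ih (n + 1))).1 m (by push_cast at hm ⊢; omega), sub_zero]

variable (l) in
/-- the expansions of the conjugates of `t` -/
def Ecj (ζ : ℂˣ) (p : ℕ) [NeZero p] (κ : ℤ) [NeZero l] : Option (Fin l) → LaurentSeries ℂ
  | none => haveI : NeZero (l * l) := ⟨mul_ne_zero (NeZero.ne l) (NeZero.ne l)⟩
      ModularCurve.qExpand ℂ (l * l) (tS ℂ p κ)
  | some j => twist (ζ ^ (j : ℕ)) (tS ℂ p κ)

lemma hasExp_Ecj [NeZero l] {ζ : ℂˣ} (hζ : (ζ : ℂ) = Complex.exp (2 * Real.pi * Complex.I / l))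
    (k : Option (Fin l)) :
    HasExp (RingHom.id ℂ) (qN l) (fun τ => tI H (hdelta l k • τ)) (Ecj l ζ p κ k) := by
  have hl : l ≠ 0 := NeZero.ne l
  cases k with
  | none =>
    have : NeZero (l * l) := ⟨mul_ne_zero (NeZero.ne l) (NeZero.ne l)⟩
    refine (hasExp_tI H (RingHom.id ℂ)).qExpand (s' := qN l) (l * l)
      (fun τ => hdelta l none • τ) fun τ => ?_
    rw [qN_apply, Nat.cast_one]
    have h1 : 𝕢 1 ((hdelta l none • τ : ℍ) : ℂ) = 𝕢 1 τ ^ l := qParam_heckeDiagMatrix hl τ
    rw [h1, qN_apply, pow_mul]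
    congr 1
    simp only [Function.Periodic.qParam]
    rw [← Complex.exp_nat_mul]
    congr 1
    have : (l : ℂ) ≠ 0 := by exact_mod_cast hl
    push_cast
    field_simp
  | some j =>
    refine (hasExp_tI H (RingHom.id ℂ)).twist (s' := qN l) (ζ ^ (j : ℕ))
      (fun τ => hdelta l (some j) • τ) fun τ => ?_
    rw [qN_apply, Nat.cast_one]
    have h1 : 𝕢 1 ((hdelta l (some j) • τ : ℍ) : ℂ) =
        Complex.exp (2 * Real.pi * Complex.I / l) ^ (j : ℕ) * 𝕢 l τ := qParam_heckeMatrix hl j τ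
    rw [h1, qN_apply]
    simp [hζ]

lemma coeff_Ecj_some [NeZero l] (ζ : ℂˣ) (j : Fin l) :
    ∀ m < (-1 : ℤ), (Ecj l ζ p κ (some j)).coeff m = 0 := by
  intro m hm
  change (twist (ζ ^ (j : ℕ)) (tS ℂ p κ)).coeff m = 0
  rw [twist_coeff, coeff_tS_of_lt hm, mul_zero]

lemma coeff_Ecj_none [NeZero l] (ζ : ℂˣ) :
    (∀ m < (-((l : ℤ) * l) : ℤ), (Ecj l ζ p κ none).coeff m = 0) ∧
    (Ecj l ζ p κ none).coeff (-((l : ℤ) * l)) = 1 := by
  have hl0 : (0 : ℤ) < l := by exact_mod_cast Nat.pos_of_ne_zero (NeZero.ne l)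
  have : NeZero (l * l) := ⟨mul_ne_zero (NeZero.ne l) (NeZero.ne l)⟩
  constructor
  · intro m hm
    change (ModularCurve.qExpand ℂ (l * l) (tS ℂ p κ)).coeff m = 0
    by_cases hd : ((l * l : ℕ) : ℤ) ∣ m
    · obtain ⟨n, rfl⟩ := hd
      rw [ModularCurve.qExpand_coeff_mul]
      apply coeff_tS_of_lt
      push_cast at hm
      by_contra hc
      have : -1 ≤ n := not_lt.mp hc
      nlinarith [mul_pos hl0 hl0]
    · exact ModularCurve.qExpand_coeff_of_not_dvd _ _ hd
  · change (ModularCurve.qExpand ℂ (l * l) (tS ℂ p κ)).coeff _ = 1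
    have h : (-((l : ℤ) * l)) = ((l * l : ℕ) : ℤ) * (-1) := by push_cast; ring
    rw [h, ModularCurve.qExpand_coeff_mul, coeff_tS_neg_one]

/-- the coefficients of the product of the `X - t_k` -/
lemma coeff_prod_Ecj [NeZero l] (hl : 2 ≤ l) (ζ : ℂˣ) :
    (∀ (i : ℕ), ∀ m < (-((l : ℤ) * l) - l + i : ℤ),
      ((∏ k : Option (Fin l), (Polynomial.X - Polynomial.C (Ecj l ζ p κ k))).coeff i).coeff m = 0) ∧
    ((∏ k : Option (Fin l), (Polynomial.X - Polynomial.C (Ecj l ζ p κ k))).coeff l).coeff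
      (-((l : ℤ) * l)) = -1 := by
  have hl0 : (2 : ℤ) ≤ l := by exact_mod_cast hl
  set N : Polynomial (LaurentSeries ℂ) :=
    ∏ j : Fin l, (Polynomial.X - Polynomial.C (Ecj l ζ p κ (some j))) with hN
  have hb : ∀ n : ℕ, ∀ m < (n : ℤ) - l, (N.coeff n).coeff m = 0 := by
    intro n m hm
    exact coeff_prod_bound Finset.univ _ (fun j => coeff_Ecj_some (p := p) (κ := κ) ζ j) n m
      (by simpa using hm)
  have hprod : ∏ k : Option (Fin l), (Polynomial.X - Polynomial.C (Ecj l ζ p κ k)) =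
      Polynomial.X * N - Polynomial.C (Ecj l ζ p κ none) * N := by
    rw [Fintype.prod_option, ← hN]; ring
  have hE := coeff_Ecj_none (p := p) (κ := κ) (l := l) ζ
  rw [hprod]
  refine ⟨fun i m hm => ?_, ?_⟩
  · cases i with
    | zero =>
      rw [Polynomial.coeff_sub, Polynomial.coeff_X_mul_zero, Polynomial.coeff_C_mul, zero_sub,
        HahnSeries.coeff_neg, (coeff_mul_of_lt hE.1 (hb 0)).1 m (by push_cast at hm ⊢; linarith),
        neg_zero]
    | succ i =>
      rw [Polynomial.coeff_sub, Polynomial.coeff_X_mul, Polynomial.coeff_C_mul,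
        HahnSeries.coeff_sub, hb i m (by push_cast at hm; nlinarith),
        (coeff_mul_of_lt hE.1 (hb (i + 1))).1 m (by push_cast at hm ⊢; linarith), sub_zero]
  · obtain ⟨l', rfl⟩ : ∃ l', l = l' + 1 := ⟨l - 1, by omega⟩
    have hmon : N.Monic := Polynomial.monic_prod_of_monic _ _ fun j _ =>
      Polynomial.monic_X_sub_C _
    have hdeg : N.natDegree = l' + 1 := by
      rw [hN, Polynomial.natDegree_finsetProd_X_sub_C_eq_card, Finset.card_univ, Fintype.card_fin]
    have h1 : N.coeff (l' + 1) = 1 := by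
      have := hmon.coeff_natDegree
      rwa [hdeg] at this
    rw [Polynomial.coeff_sub, Polynomial.coeff_X_mul, Polynomial.coeff_C_mul,
      HahnSeries.coeff_sub, hb l' _ (by push_cast at hl0 ⊢; nlinarith), h1, mul_one, hE.2,
      zero_sub]

lemma coeff_eval₂_tS (r : Polynomial ℂ) (n : ℕ) (hn : r.natDegree ≤ n) :
    (r.eval₂ HahnSeries.C (tS ℂ p κ)).coeff (-(n : ℤ)) = r.coeff n := by
  have h0 : r.eval₂ HahnSeries.C (tS ℂ p κ) =
      ∑ i ∈ Finset.range (n + 1), HahnSeries.C (r.coeff i) * tS ℂ p κ ^ i :=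
    Polynomial.eval₂_eq_sum_range' _ (Nat.lt_succ_of_le hn) _
  rw [h0, HahnSeries.coeff_sum, Finset.sum_eq_single_of_mem n (by simp)]
  · rw [HahnSeries.C_mul_eq_smul, HahnSeries.coeff_smul, (coeff_tS_pow n).2, smul_eq_mul, mul_one]
  · intro m hm hne
    have : m < n := by
      have := Finset.mem_range.mp hm
      omega
    rw [HahnSeries.C_mul_eq_smul, HahnSeries.coeff_smul, (coeff_tS_pow m).1 _ (by omega),
      smul_zero]

/-- The modular equation, with the shape of its coefficients. -/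
theorem exists_modpoly (hl : l.Prime) (hN : ¬ l ∣ p) :
    ∃ c : ℕ → Polynomial ℤ, (∀ i, l + 1 < i → c i = 0) ∧ c (l + 1) = 1 ∧
      (∀ i, 1 ≤ i → (c i).natDegree ≤ l) ∧ (c 0).natDegree ≤ l + 1 ∧ (c l).coeff l = -1 ∧
      ∀ (x : ℂ) (τ : ℍ), ∏ k : Option (Fin l), (x - tI H (hdelta l k • τ)) =
        ∑ i ∈ Finset.range (l + 2), (c i).eval₂ (Int.castRingHom ℂ) (tI H τ) * x ^ i := by
  have : NeZero l := ⟨hl.ne_zero⟩
  obtain ⟨Φ, hΦ⟩ := exists_modpoly_aux H hl hN
  obtain ⟨ζ, hζ⟩ := (Complex.exp_ne_zero (2 * Real.pi * Complex.I / l)).isUnit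
  set c : ℕ → Polynomial ℤ := fun i =>
    ∑ j ∈ Φ.support, Polynomial.monomial j ((Φ.coeff j).coeff i) with hc
  set cast : ℤ →+* ℂ := Int.castRingHom ℂ
  -- polynomial identity
  have hpoly : ∀ τ : ℍ, ∏ k : Option (Fin l), (Polynomial.X - Polynomial.C (tI H (hdelta l k • τ))) =
      Φ.eval₂ (Polynomial.mapRingHom cast) (Polynomial.C (tI H τ)) := by
    intro τ
    apply Polynomial.funext
    intro x
    have h1 := hΦ x τ
    rw [opMul] at h1
    rw [Polynomial.eval_prod]
    simp only [Polynomial.eval_sub, Polynomial.eval_X, Polynomial.eval_C]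
    rw [h1]
    have h2 := Polynomial.hom_eval₂ Φ (Polynomial.mapRingHom cast) (Polynomial.evalRingHom x)
      (Polynomial.C (tI H τ))
    rw [Polynomial.coe_evalRingHom, Polynomial.eval_C] at h2
    rw [h2]
    congr 1
    apply Polynomial.ringHom_ext'
    · exact RingHom.ext_int _ _
    · simp
  have hcoeff : ∀ (i : ℕ) (τ : ℍ),
      (∏ k : Option (Fin l), (Polynomial.X - Polynomial.C (tI H (hdelta l k • τ)))).coeff i =
      (c i).eval₂ cast (tI H τ) := by
    intro i τ
    rw [hpoly, Polynomial.eval₂_eq_sum, Polynomial.sum, Polynomial.finsetSum_coeff, hc]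
    simp only [Polynomial.eval₂_finsetSum, Polynomial.eval₂_monomial]
    refine Finset.sum_congr rfl fun j _ => ?_
    rw [Polynomial.coe_mapRingHom, ← Polynomial.C_pow, Polynomial.coeff_mul_C,
      Polynomial.coeff_map]
  -- expansions
  set D : Polynomial (LaurentSeries ℂ) :=
    ∏ k : Option (Fin l), (Polynomial.X - Polynomial.C (Ecj l ζ p κ k)) with hD
  have hser : ∀ i, D.coeff i = ModularCurve.qExpand ℂ l
      (((c i).map cast).eval₂ HahnSeries.C (tS ℂ p κ)) := by
    intro i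
    have h1 := hasExp_coeff_prod (par := qN l) Finset.univ
      (fun (k : Option (Fin l)) (τ : ℍ) => tI H (hdelta l k • τ)) (Ecj l ζ p κ)
      (fun k => hasExp_Ecj H hζ k) i
    have h2 := (hasExp_eval₂ (hasExp_tI H (RingHom.id ℂ)) ((c i).map cast)).level l
    refine h1.unique Function.injective_id (isParam_qN l) (h2.congr fun τ => ?_)
    rw [hcoeff i τ, Polynomial.eval₂_map, RingHom.id_comp]
  have hb := coeff_prod_Ecj (p := p) (κ := κ) hl.two_le ζ
  rw [← hD] at hb
  have hmonD : D.Monic := Polynomial.monic_prod_of_monic _ _ fun j _ => Polynomial.monic_X_sub_C _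
  have hdegD : D.natDegree = l + 1 := by
    rw [hD, Polynomial.natDegree_finsetProd_X_sub_C_eq_card, Finset.card_univ]
    simp
  have hinjcast : Function.Injective cast := Int.cast_injective
  have hl0 : (2 : ℤ) ≤ l := by exact_mod_cast hl.two_le
  -- top coefficients
  have htop : ∀ i n : ℕ, (c i).natDegree ≤ n →
      (D.coeff i).coeff (-((l : ℤ) * n)) = ((c i).coeff n : ℂ) := by
    intro i n hn
    have h1 : (-((l : ℤ) * n)) = (l : ℤ) * (-(n : ℤ)) := by ring
    rw [hser, h1, ModularCurve.qExpand_coeff_mul, coeff_eval₂_tS _ n (by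
      rw [Polynomial.natDegree_map_eq_of_injective hinjcast]; exact hn), Polynomial.coeff_map]
    rfl
  have hzero : ∀ i n : ℕ, (c i).natDegree ≤ n → (D.coeff i).coeff (-((l : ℤ) * n)) = 0 →
      (c i).coeff n = 0 := by
    intro i n hn h
    rw [htop i n hn] at h
    exact_mod_cast h
  have hlead : ∀ i : ℕ, (D.coeff i).coeff (-((l : ℤ) * (c i).natDegree)) = 0 → c i = 0 := by
    intro i h
    have := hzero i _ le_rfl h
    exact Polynomial.leadingCoeff_eq_zero.mp this
  have hbig : ∀ i, l + 1 < i → c i = 0 := by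
    intro i hi
    apply hlead
    rw [Polynomial.coeff_eq_zero_of_natDegree_lt (by rw [hdegD]; exact hi)]
    rfl
  have hdeg1 : ∀ i, 1 ≤ i → (c i).natDegree ≤ l := by
    intro i hi
    by_contra hcon
    have hc0 : c i = 0 := by
      apply hlead
      apply hb.1
      have h1 : (l : ℤ) + 1 ≤ (c i).natDegree := by exact_mod_cast not_le.mp hcon
      have h2 : (1 : ℤ) ≤ i := by exact_mod_cast hi
      nlinarith
    rw [hc0] at hcon
    simp at hcon
  have hdeg0 : (c 0).natDegree ≤ l + 1 := by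
    by_contra hcon
    have hc0 : c 0 = 0 := by
      apply hlead
      apply hb.1
      have h1 : (l : ℤ) + 2 ≤ (c 0).natDegree := by exact_mod_cast (by omega : l + 2 ≤ _)
      push_cast
      nlinarith
    rw [hc0] at hcon
    simp at hcon
  have htopc : c (l + 1) = 1 := by
    have h1 : D.coeff (l + 1) = 1 := by
      have := hmonD.coeff_natDegree
      rwa [hdegD] at this
    have h2 : (c (l + 1)).natDegree = 0 := by
      by_contra hcon
      have hc0 : c (l + 1) = 0 := by
        apply hlead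
        rw [h1, HahnSeries.coeff_one, if_neg]
        have h3 : (1 : ℤ) ≤ (c (l + 1)).natDegree := by
          exact_mod_cast Nat.one_le_iff_ne_zero.mpr hcon
        intro h0
        nlinarith
      rw [hc0] at hcon
      simp at hcon
    have h3 := htop (l + 1) 0 h2.le
    rw [h1] at h3
    simp only [Nat.cast_zero, mul_zero, neg_zero, HahnSeries.coeff_one, if_true] at h3
    rw [Polynomial.eq_C_of_natDegree_eq_zero h2]
    have : (c (l + 1)).coeff 0 = 1 := by exact_mod_cast h3.symm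
    rw [this, map_one]
  refine ⟨c, hbig, htopc, hdeg1, hdeg0, ?_, ?_⟩
  · have h1 := htop l l (hdeg1 l hl.one_lt.le)
    rw [hb.2] at h1
    exact_mod_cast h1.symm
  · intro x τ
    have h1 := congrArg (Polynomial.eval x) (hpoly τ)
    have h2 : (∏ k : Option (Fin l),
        (Polynomial.X - Polynomial.C (tI H (hdelta l k • τ)))).natDegree < l + 2 := by
      rw [Polynomial.natDegree_finsetProd_X_sub_C_eq_card, Finset.card_univ]
      simp
    have h3 : Polynomial.eval x (∏ k : Option (Fin l),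
        (Polynomial.X - Polynomial.C (tI H (hdelta l k • τ)))) =
        ∏ k : Option (Fin l), (x - tI H (hdelta l k • τ)) := by
      rw [Polynomial.eval_prod]
      simp
    rw [← h3, Polynomial.eval_eq_sum_range' h2]
    exact Finset.sum_congr rfl fun i _ => by rw [hcoeff]

end Shape

end Fermat.Agent.LG
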