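import Mathlib
import Fermat.Agent.LG.GRHaupt
import Fermat.Agent.LG.ModPoly
import Fermat.Agent.ModFun.GenusX0
import Fermat.Agent.Geo.UnrRel

/-!
At a place of the function field of `X₀(N)` where `t` takes a non-special value, `t` minus this
value is a uniformiser.
-/

set_option autoImplicit false
set_option linter.unusedSectionVars false

noncomputable section

namespace Fermat.Agent.LG

section Extend

variable {F F' : Type*} [Field F] [Field F']

/-- extension of a valuation ring -/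
theorem exists_extend (φ : F →+* F') (W : ValuationSubring F) : ∃ W' : ValuationSubring F',
    (∀ x ∈ W, φ x ∈ W') ∧ (∀ x ∈ W.nonunits, φ x ∈ W'.nonunits) ∧ ∀ x, φ x ∈ W' → x ∈ W := by
  let A : Subring F' := W.toSubring.map φ
  let e : W.toSubring ≃+* A := W.toSubring.equivMapOfInjective φ φ.injective
  have he : ∀ x : W.toSubring, ((e x : A) : F') = φ x := fun x => rfl
  have hsurj : Function.Surjective (e : W.toSubring →+* A) := e.surjective
  let I : Ideal A := (IsLocalRing.maximalIdeal W).map (e : W.toSubring →+* A)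
  have hmem : ∀ x ∈ I, ∃ y : W.toSubring, y ∈ IsLocalRing.maximalIdeal W ∧ e y = x := by
    intro x hx
    exact (Ideal.mem_map_iff_of_surjective (e : W.toSubring →+* A) hsurj).mp hx
  have hI : I ≠ ⊤ := by
    intro h
    have h1 : (1 : A) ∈ I := by rw [h]; trivial
    obtain ⟨y, hy, hy1⟩ := hmem 1 h1
    have h2 : y = 1 := e.injective (by rw [hy1, map_one])
    rw [h2] at hy
    exact (Ideal.ne_top_iff_one _).mp (IsLocalRing.maximalIdeal.isMaximal W).ne_top hy
  obtain ⟨W', hle, hnon⟩ := Ideal.image_subset_nonunits_valuationSubring I hI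
  have h1 : ∀ x ∈ W, φ x ∈ W' := fun x hx => hle ⟨x, hx, rfl⟩
  have h2 : ∀ x ∈ W.nonunits, φ x ∈ W'.nonunits := by
    intro x hx
    obtain ⟨hxW, hxm⟩ := ValuationSubring.mem_nonunits_iff_exists_mem_maximalIdeal.mp hx
    apply hnon
    exact ⟨e ⟨x, hxW⟩, Ideal.mem_map_of_mem (e : W.toSubring →+* A) hxm, rfl⟩
  refine ⟨W', h1, h2, fun x hx => ?_⟩
  by_contra hne
  have h3 : x⁻¹ ∈ W.nonunits := W.inv_mem_nonunits_iff.mpr (Or.inr hne)
  have h4 := h2 _ h3
  rw [map_inv₀, W'.inv_mem_nonunits_iff] at h4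
  rcases h4 with h4 | h4
  · rw [map_eq_zero] at h4
    apply hne
    rw [h4]
    exact zero_mem _
  · exact h4 hx

end Extend

open UpperHalfPlane hiding I J
open ModularForm IntermediateField AlgebraicCurve
open scoped Manifold MatrixGroups ModularForm IntermediateField.algebraAdjoinAdjoin
open Fermat.Agent.Eis16 Fermat.Agent.ModFun Fermat.Agent.ESCore Fermat.Agent.FunField
open Fermat.Agent.Geo (mul_mem_nonunits)

/-- Valuation rings come from embeddings, when there are sufficiently many of these. -/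
theorem exists_valSub_of_embeddings {Ω F C : Type*} [Field Ω] [IsAlgClosed Ω] [CharZero Ω]
    [Field F] [Algebra Ω F] [Field C] {j : F} (hj : Transcendental Ω j)
    (hfd : FiniteDimensional Ω⟮j⟯ F) {X : Type*} [Fintype X] [DecidableEq X]
    (hX : Fintype.card X = Module.finrank Ω⟮j⟯ F) (φ : X → (F →+* LaurentSeries C))
    (hφ : Function.Injective φ) (κ : Ω → LaurentSeries C)
    (hκ : ∀ x a, φ x (algebraMap Ω F a) = κ a) (hκ0 : ∀ a, 0 ≤ (κ a).orderTop) {c : Ω}
    {τ : LaurentSeries C} (hτ : ∀ x, φ x (j - algebraMap Ω F c) = τ) (hτ0 : 0 < τ.order)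
    (W : ValuationSubring F) (hΩ : ∀ a : Ω, algebraMap Ω F a ∈ W)
    (hu : j - algebraMap Ω F c ∈ W.nonunits) : ∃ x, W = valSub (φ x) := by
  have hutr : Transcendental Ω (j - algebraMap Ω F c) := transcendental_sub hj c
  have huadj : Ω⟮j - algebraMap Ω F c⟯ = Ω⟮j⟯ := adjoin_sub_eq _ c
  have hfd' : FiniteDimensional Ω⟮j - algebraMap Ω F c⟯ F := by
    rw [huadj]
    exact hfd
  have hsep : Algebra.IsSeparable Ω⟮j - algebraMap Ω F c⟯ F := inferInstance
  obtain ⟨pl, hpl, -, hcard⟩ := exists_place_map hutr (by rw [huadj]; exact hX) φ hφ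
    κ hκ hκ0 τ hτ hτ0
  have hu0 : j - algebraMap Ω F c ≠ 0 := by
    intro h0
    apply hutr
    rw [h0]
    exact isAlgebraic_zero
  have huW : (j - algebraMap Ω F c)⁻¹ ∉ W := by
    rcases W.mem_nonunits_iff_or.mp hu with h1 | h1
    · exact absurd h1 hu0
    · exact h1
  have hWtop : W ≠ ⊤ := by
    intro h1
    apply huW
    rw [h1]
    exact ValuationSubring.mem_top _
  obtain ⟨v, hv⟩ := exists_place_eq hutr W hWtop hΩ (ValuationSubring.nonunits_subset hu)
  have hvpos : 0 < v.ord (j - algebraMap Ω F c) := by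
    have h1 : j - algebraMap Ω F c ∈ v.toValuationSubring :=
      hv ▸ ValuationSubring.nonunits_subset hu
    have h2 : (j - algebraMap Ω F c)⁻¹ ∉ v.toValuationSubring := hv ▸ huW
    rw [mem_iff_ord_nonneg] at h1 h2
    rw [v.ord_inv] at h2
    omega
  obtain ⟨x, hx⟩ : ∃ x, pl x = v := by
    by_contra hne
    push Not at hne
    have h1 := hcard v hvpos
    have h2 : IsEmpty {x // pl x = v} := ⟨fun x => hne x.1 x.2⟩
    rw [Nat.card_of_isEmpty] at h1
    omega
  exact ⟨x, by rw [← hpl x, hx, hv]⟩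

variable {p : ℕ} [Fact p.Prime] {κ : ℤ} {H : HauptFn p κ} {S : Set ℤ} {k : ℕ}
  {P : Polynomial ℤ}

theorem HautData.series (h : HautData H S k P) {Ω : Type*} [Field Ω] (ι : Ω →+* ℂ) :
    ModularCurve.jqModC Ω * tS Ω p κ ^ k =
      (P.map (Int.castRingHom Ω)).eval₂ HahnSeries.C (tS Ω p κ) := by
  have h1 := (hasExp_J' ι).mul ((hasExp_tI H ι).pow k)
  have h2 := hasExp_eval₂ (hasExp_tI H ι) (P.map (Int.castRingHom Ω))
  refine h1.unique ι.injective (isParam_qN 1) (h2.congr fun τ => ?_)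
  rw [Polynomial.eval₂_map]
  have h3 : ι.comp (Int.castRingHom Ω) = Int.castRingHom ℂ := RingHom.ext_int _ _
  rw [h3, ← h.rel τ]
  rfl

variable {Ω : Type*} [Field Ω] [IsAlgClosed Ω] [CharZero Ω] {N : ℕ} [NeZero N]
  {Sg : Set (LaurentSeries Ω)} {ι : Ω →+* ℂ}

local notation "𝓕" => IntermediateField.adjoin Ω Sg

theorem GenSet.transcendental_jF (G : GenSet ι N Sg) : Transcendental Ω G.jF := by
  intro hal
  obtain ⟨c, hc⟩ := Fermat.Agent.FunField.mem_range_of_isAlgebraic hal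
  have h1 : algebraMap Ω (LaurentSeries Ω) c = ModularCurve.jqModC Ω :=
    congrArg (fun z : 𝓕 => (z : LaurentSeries Ω)) hc
  rw [ModularCurve.algebraMap_laurentSeries_eq_single] at h1
  have h2 := congrArg (fun G : LaurentSeries Ω => G.coeff (-1)) h1
  simp only [HahnSeries.coeff_single_of_ne (show (-1 : ℤ) ≠ 0 by norm_num)] at h2
  have h3 := coeff_jqModC_pow_self' (R := Ω) 1
  rw [pow_one, Nat.cast_one] at h3
  rw [h3] at h2
  exact zero_ne_one h2

theorem transcendental_of_coe_eq_tS {t : 𝓕} (ht : (t : LaurentSeries Ω) = tS Ω p κ) :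
    Transcendental Ω t := by
  intro hal
  obtain ⟨c, hc⟩ := Fermat.Agent.FunField.mem_range_of_isAlgebraic hal
  have h1 : algebraMap Ω (LaurentSeries Ω) c = tS Ω p κ := by
    rw [← ht]
    exact congrArg (fun z : 𝓕 => (z : LaurentSeries Ω)) hc
  rw [ModularCurve.algebraMap_laurentSeries_eq_single] at h1
  have h2 := congrArg (fun G : LaurentSeries Ω => G.coeff (-1)) h1
  simp only [HahnSeries.coeff_single_of_ne (show (-1 : ℤ) ≠ 0 by norm_num),
    coeff_tS_neg_one] at h2
  exact zero_ne_one h2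

/-- the relation between `j` and `t` -/
theorem HautData.jF_mul (h : HautData H S k P) (G : GenSet ι N Sg) {t : 𝓕}
    (ht : (t : LaurentSeries Ω) = tS Ω p κ) :
    G.jF * t ^ k = Polynomial.aeval t (P.map (Int.castRingHom Ω)) := by
  apply Subtype.ext
  have h1 := h.series ι
  rw [← ht] at h1
  have h2 : ((Polynomial.aeval t (P.map (Int.castRingHom Ω)) : 𝓕) : LaurentSeries Ω) =
      Polynomial.aeval (t : LaurentSeries Ω) (P.map (Int.castRingHom Ω)) :=
    (Polynomial.aeval_algebraMap_apply (LaurentSeries Ω) t _).symm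
  rw [h2, Polynomial.aeval_def]
  have h3 : algebraMap Ω (LaurentSeries Ω) = HahnSeries.C := by
    ext1 a
    rw [ModularCurve.algebraMap_laurentSeries_eq_single]
    rfl
  rw [h3]
  exact h1

/-- `j` takes a finite value where `t` takes a nonzero finite value -/
theorem HautData.exists_j (h : HautData H S k P) (G : GenSet ι N Sg) (W : ValuationSubring 𝓕)
    (hΩ : ∀ a : Ω, algebraMap Ω 𝓕 a ∈ W) {α : Ω} (hα0 : α ≠ 0) {t : 𝓕}
    (ht : (t : LaurentSeries Ω) = tS Ω p κ) (hα : t - algebraMap Ω 𝓕 α ∈ W.nonunits) :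
    ∃ c : Ω, G.jF - algebraMap Ω 𝓕 c ∈ W.nonunits := by
  have htW : t ∈ W := by
    have h1 : t = (t - algebraMap Ω 𝓕 α) + algebraMap Ω 𝓕 α := by ring
    rw [h1]
    exact add_mem (ValuationSubring.nonunits_subset hα) (hΩ α)
  have hαn : algebraMap Ω 𝓕 α ∉ W.nonunits := by
    rw [ValuationSubring.mem_nonunits_iff_or]
    rintro (h1 | h1)
    · exact hα0 ((map_eq_zero _).mp h1)
    · apply h1
      rw [← map_inv₀]
      exact hΩ _
  have htn : t ∉ W.nonunits := by
    intro h1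
    apply hαn
    have h2 : algebraMap Ω 𝓕 α = t - (t - algebraMap Ω 𝓕 α) := by ring
    rw [h2]
    exact sub_mem h1 hα
  have ht0 : t ≠ 0 := fun h0 => htn (by rw [h0]; exact Fermat.Agent.Geo.zero_mem_nonunits W)
  have htiW : t⁻¹ ∈ W := Fermat.Agent.Geo.inv_mem_of_notMem_nonunits htn
  have hrel := h.jF_mul G ht
  have haW : ∀ R : Polynomial Ω, Polynomial.aeval t R ∈ W := by
    intro R
    rw [Polynomial.aeval_eq_sum_range]
    refine sum_mem fun i _ => ?_
    rw [Algebra.smul_def]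
    exact mul_mem (hΩ _) (pow_mem htW _)
  refine ⟨(P.map (Int.castRingHom Ω)).eval α / α ^ k, ?_⟩
  set c : Ω := (P.map (Int.castRingHom Ω)).eval α / α ^ k with hc
  set Q : Polynomial Ω := P.map (Int.castRingHom Ω) - Polynomial.C c * Polynomial.X ^ k with hQ
  have hroot : Q.IsRoot α := by
    rw [Polynomial.IsRoot.def, hQ]
    simp only [Polynomial.eval_sub, Polynomial.eval_mul, Polynomial.eval_C, Polynomial.eval_pow,
      Polynomial.eval_X, hc]
    field_simp
    ring
  obtain ⟨R, hR⟩ := Polynomial.dvd_iff_isRoot.mpr hroot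
  have h1 : (G.jF - algebraMap Ω 𝓕 c) * t ^ k = (t - algebraMap Ω 𝓕 α) * Polynomial.aeval t R := by
    rw [sub_mul, hrel]
    have h2 := congrArg (Polynomial.aeval t) hR
    rw [hQ, map_sub, map_mul, map_mul, map_pow, Polynomial.aeval_C, Polynomial.aeval_X, map_sub,
      Polynomial.aeval_C, Polynomial.aeval_X] at h2
    exact h2
  have h3 : G.jF - algebraMap Ω 𝓕 c =
      ((t⁻¹) ^ k * Polynomial.aeval t R) * (t - algebraMap Ω 𝓕 α) := by
    have h4 : t ^ k ≠ 0 := pow_ne_zero k ht0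
    apply mul_right_cancel₀ h4
    rw [h1, inv_pow]
    field_simp
  rw [h3]
  exact mul_mem_nonunits (mul_mem (pow_mem htiW k) (haW R)) hα

theorem order_ofPowerSeries_J_pos (τ₀ : ℍ) :
    0 < (HahnSeries.ofPowerSeries ℤ ℂ (dExp τ₀ (J - fun _ => J τ₀))).order := by
  have h1 : ordH τ₀ (J - fun _ => J τ₀) ≠ 0 :=
    ordH_ne_zero (mdiff_sub_const mdiff_J _) (by simp)
  obtain ⟨n, hn⟩ := order_dExp_ne_top τ₀ (mdiff_sub_const mdiff_J (J τ₀)) (by
    intro h0
    obtain ⟨τ₁, hτ₁⟩ := J_surjective (J τ₀ + 1)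
    have := congrFun h0 τ₁
    simp only [Pi.sub_apply, Pi.zero_apply, hτ₁] at this
    norm_num at this)
  rw [ModFun.order_ofPowerSeries hn]
  rw [← order_dExp_eq (mdiff_sub_const mdiff_J _), hn] at h1
  have h3 : n ≠ 0 := by
    intro h0
    rw [h0] at h1
    exact h1 rfl
  exact_mod_cast Nat.pos_of_ne_zero h3

/-- valuation rings where `j` is finite come from the embeddings -/
theorem GenSet.exists_valSub (G : GenSet ι N Sg) (W : ValuationSubring 𝓕)
    (hΩ : ∀ a : Ω, algebraMap Ω 𝓕 a ∈ W) {c : Ω} (hu : G.jF - algebraMap Ω 𝓕 c ∈ W.nonunits)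
    {τ₀ : ℍ} (hτ₀ : J τ₀ = ι c) (D : ExpData (RingHom.id ℂ) N (sD τ₀)) :
    ∃ x : XN N, W = valSub (G.embF D x) := by
  classical
  have hφinj : Function.Injective (G.embF D) := by
    intro x y hxy
    apply G.embF_jN_injective D
    change G.embF D x G.jNF = G.embF D y G.jNF
    rw [hxy]
  have hval : ∀ x, G.embF D x (G.jF - algebraMap Ω 𝓕 c) =
      HahnSeries.ofPowerSeries ℤ ℂ (dExp τ₀ (J - fun _ => J τ₀)) := by
    intro x
    rw [map_sub, G.embF_base D, G.embF_jF D x (hasExp_dExp τ₀ mdiff_J),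
      dExp_sub_const τ₀ mdiff_J, map_sub, HahnSeries.ofPowerSeries_C, hτ₀]
  exact exists_valSub_of_embeddings (GenSet.transcendental_jF G) G.finiteDimensional
    G.finrank_eq.symm (G.embF D) hφinj (fun a => HahnSeries.C (ι a))
    (fun x a => G.embF_base D x a) (fun a => by
      by_cases ha : ι a = 0
      · rw [ha, map_zero, HahnSeries.orderTop_zero]
        exact le_top
      · rw [HahnSeries.C_apply, HahnSeries.orderTop_single ha]
        rfl) hval (order_ofPowerSeries_J_pos τ₀) W hΩ hu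

/-- **The order of `t - α` is one.** -/
theorem exists_valSub (h : HautData H S k P) (hp : p ∣ N) (G : GenSet ι N Sg)
    (htS : tS Ω p κ ∈ Sg) (W : ValuationSubring 𝓕)
    (hΩ : ∀ a : Ω, algebraMap Ω 𝓕 a ∈ W) {α : Ω}
    (hαS : ∀ c ∈ S, α ≠ (c : Ω)) {t : 𝓕} (ht : (t : LaurentSeries Ω) = tS Ω p κ)
    (hα : t - algebraMap Ω 𝓕 α ∈ W.nonunits) :
    ∃ φ : 𝓕 →+* LaurentSeries ℂ, W = valSub φ ∧
      (φ (t - algebraMap Ω 𝓕 α)).order = 1 := by
  classical
  have hα0 : α ≠ 0 := by
    have := hαS 0 h.zero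
    simpa using this
  obtain ⟨c, hc⟩ := h.exists_j G W hΩ hα0 ht hα
  obtain ⟨τ₀, hτ₀⟩ := J_surjective (ι c)
  have D : ExpData (RingHom.id ℂ) N (sD τ₀) := expData_sD τ₀
  obtain ⟨x, hWφ⟩ := GenSet.exists_valSub G W hΩ hc hτ₀ D
  refine ⟨G.embF D x, hWφ, ?_⟩
  -- the expansion of `t - α`
  have htA : tS Ω p κ ∈ Algebra.adjoin Ω Sg := Algebra.subset_adjoin htS
  have htt : algebraMap (Algebra.adjoin Ω Sg) 𝓕 ⟨tS Ω p κ, htA⟩ = t := Subtype.ext ht.symm
  set f : ℍ → ℂ := conjHom x (tI H) with hfdef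
  have hfmd : MDiff f := (conjHom_mem_modFun (tI_mem_modFun H hp) x).1
  have hft : G.embF D x t = HahnSeries.ofPowerSeries ℤ ℂ (dExp τ₀ f) := by
    rw [← htt, G.embF_algebraMap]
    exact G.embA_eq D (f := tI H) (hasExp_tI H ι) (hasExp_dExp τ₀ hfmd)
  have hfta : G.embF D x (t - algebraMap Ω 𝓕 α) =
      HahnSeries.ofPowerSeries ℤ ℂ (dExp τ₀ (f - fun _ => ι α)) := by
    rw [map_sub, hft, G.embF_base D, dExp_sub_const τ₀ hfmd, map_sub, HahnSeries.ofPowerSeries_C]
  have hta0 : t - algebraMap Ω 𝓕 α ≠ 0 := by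
    intro h0
    apply transcendental_of_coe_eq_tS ht
    rw [sub_eq_zero.mp h0]
    exact isAlgebraic_algebraMap _
  have hfval : f τ₀ = ι α := by
    by_contra hne
    have h1 : (dExp τ₀ (f - fun _ => ι α)).order = 0 :=
      order_dExp_eq_zero τ₀ (by simpa [sub_eq_zero] using hne)
    have h2 : (G.embF D x (t - algebraMap Ω 𝓕 α)).order = 0 := by
      rw [hfta]
      exact ModFun.order_ofPowerSeries (n := 0) (by rw [h1]; rfl)
    have h3 : (t - algebraMap Ω 𝓕 α)⁻¹ ∈ W := by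
      rw [hWφ, mem_valSub_iff_order (inv_ne_zero hta0), order_map_inv _ hta0, h2]
      simp
    rcases W.mem_nonunits_iff_or.mp hα with h4 | h4
    · exact hta0 h4
    · exact h4 h3
  rw [hfta]
  refine ModFun.order_ofPowerSeries (n := 1) ?_
  rw [order_dExp_eq (mdiff_sub_const hfmd _)]
  set g : SL(2, ℤ) := (Quotient.out x)⁻¹ with hg
  have hfg : ∀ τ, f τ = tI H (g • τ) := fun τ => by rw [hfdef, conjHom_apply]
  have h1 : (f - fun _ => ι α) = fun τ => (tI H - fun _ : ℍ => ι α) (g • τ) := by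
    funext τ
    simp only [Pi.sub_apply, hfg]
  rw [h1, ordH_smul g (tI H - fun _ : ℍ => ι α)]
  have h2 : tI H (g • τ₀) = ι α := by rw [← hfg, hfval]
  have h3 := h.ord (g • τ₀) (fun c hc => by
    rw [h2]
    intro h4
    apply hαS c hc
    apply ι.injective
    rw [h4, map_intCast])
  rw [h2] at h3
  rw [h3]
  rfl

end Fermat.Agent.LG
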