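import Mathlib
import Fermat.Agent.LG.GRPlace

/-!
Descent: the places of the function field of `X₀(N)` over a subfield of `ℂ`.
-/

set_option autoImplicit false
set_option linter.unusedSectionVars false

noncomputable section

namespace Fermat.Agent.LG

open UpperHalfPlane hiding I J
open ModularForm IntermediateField AlgebraicCurve
open scoped Manifold MatrixGroups ModularForm
open Fermat.Agent.Eis16 Fermat.Agent.ModFun Fermat.Agent.ESCore Fermat.Agent.FunField
open Fermat.Agent.Geo (mul_mem_nonunits inv_mem_of_notMem_nonunits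
  mem_valuationSubring_of_isIntegralElem zero_mem_nonunits)

theorem exists_eq_mul_of_valSub {F : Type*} [Field F] {φ : F →+* LaurentSeries ℂ} {u : F}
    (hu : (φ u).order = 1) {x : F} (hx : x ∈ (valSub φ).nonunits) :
    ∃ y ∈ valSub φ, x = u * y := by
  have hu0 : u ≠ 0 := by
    rintro rfl
    rw [map_zero, HahnSeries.order_zero] at hu
    exact zero_ne_one hu
  refine ⟨u⁻¹ * x, ?_, by rw [mul_inv_cancel_left₀ hu0]⟩
  rcases eq_or_ne x 0 with rfl | hx0
  · rw [mul_zero]
    exact zero_mem _
  rw [mem_valSub_iff_order (mul_ne_zero (inv_ne_zero hu0) hx0),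
    order_map_mul φ (inv_ne_zero hu0) hx0, order_map_inv φ hu0, hu]
  rcases (valSub φ).mem_nonunits_iff_or.mp hx with h1 | h1
  · exact absurd h1 hx0
  · rw [mem_valSub_iff_order (inv_ne_zero hx0), order_map_inv φ hx0] at h1
    omega

theorem coeffMap_tS {R R' : Type*} [CommRing R] [CommRing R'] (f : R →+* R') (p : ℕ) [NeZero p]
    (κ : ℤ) : ModularCurve.coeffMap f (tS R p κ) = tS R' p κ := by
  ext n
  simp only [tS, ModularCurve.coeffMap_coeff]
  simp

theorem coeffMap_mem_adjoin {L Ω : Type*} [Field L] [Field Ω] (f : L →+* Ω) {N : ℕ} [NeZero N]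
    {x : LaurentSeries L} (hx : x ∈ F0 L N) : ModularCurve.coeffMap f x ∈ F0 Ω N := by
  let T : IntermediateField L (LaurentSeries L) :=
    ((F0 Ω N).toSubfield.comap (ModularCurve.coeffMap f)).toIntermediateField (by
      intro a
      rw [Subfield.mem_comap, ModularCurve.algebraMap_laurentSeries_eq_single]
      have h1 : ModularCurve.coeffMap f (HahnSeries.single 0 a) = HahnSeries.single 0 (f a) :=
        ModularCurve.coeffMap_single _ _ _
      rw [h1, ← ModularCurve.algebraMap_laurentSeries_eq_single]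
      exact (F0 Ω N).algebraMap_mem _)
  have h1 : F0 L N ≤ T := by
    rw [IntermediateField.adjoin_le_iff]
    rintro x ⟨d, hd0, hd, rfl⟩
    change ModularCurve.coeffMap f _ ∈ F0 Ω N
    rw [coeffMap_qExpand, coeffMap_jqModC]
    exact IntermediateField.subset_adjoin _ _ ⟨d, hd0, hd, rfl⟩
  exact h1 hx

theorem exists_root_of_aeval_mem_nonunits {Ω F : Type*} [Field Ω] [IsAlgClosed Ω] [Field F]
    [Algebra Ω F] (W : ValuationSubring F) (hΩ : ∀ a : Ω, algebraMap Ω F a ∈ W) {t : F}
    {Q : Polynomial Ω} (hQs : Q.Separable) (hQt0 : Polynomial.aeval t Q ≠ 0)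
    (hQW : Polynomial.aeval t Q ∈ W.nonunits) :
    ∃ α : Ω, Q.IsRoot α ∧ t - algebraMap Ω F α ∈ W.nonunits ∧
      ∃ r, r ∉ W.nonunits ∧ Polynomial.aeval t Q = (t - algebraMap Ω F α) * r := by
  classical
  have hQ0 : Q ≠ 0 := by
    rintro rfl
    exact hQt0 (map_zero _)
  obtain ⟨α, hαr, hα⟩ : ∃ α ∈ Q.roots, t - algebraMap Ω F α ∈ W.nonunits := by
    by_contra hne
    push Not at hne
    have hsp : Q.Splits := IsAlgClosed.splits Q
    have h1 := hsp.eq_prod_roots
    have h2 : Polynomial.aeval t Q = algebraMap Ω F Q.leadingCoeff *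
        (Q.roots.map fun a => t - algebraMap Ω F a).prod := by
      conv_lhs => rw [h1]
      rw [map_mul, Polynomial.aeval_C, map_multiset_prod, Multiset.map_map]
      congr 2
      refine Multiset.map_congr rfl fun a _ => ?_
      rw [Function.comp_apply, map_sub, Polynomial.aeval_X, Polynomial.aeval_C]
    have h3 : (Polynomial.aeval t Q)⁻¹ ∈ W := by
      rw [h2, mul_inv, ← map_inv₀, ← Multiset.prod_map_inv]
      refine mul_mem (hΩ _) (multiset_prod_mem _ fun z hz => ?_)
      obtain ⟨a, ha, rfl⟩ := Multiset.mem_map.mp hz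
      exact inv_mem_of_notMem_nonunits (hne a ha)
    rcases W.mem_nonunits_iff_or.mp hQW with h4 | h4
    · exact hQt0 h4
    · exact h4 h3
  have hroot : Q.IsRoot α := (Polynomial.mem_roots hQ0).mp hαr
  refine ⟨α, hroot, hα, ?_⟩
  obtain ⟨R, hR⟩ := Polynomial.dvd_iff_isRoot.mpr hroot
  have hRα : R.eval α ≠ 0 := by
    intro h0
    have h1 : Polynomial.X - Polynomial.C α ∣ R := Polynomial.dvd_iff_isRoot.mpr h0
    obtain ⟨R', hR'⟩ := h1
    rw [hR, hR'] at hQs
    have h3 := hQs.squarefree (Polynomial.X - Polynomial.C α) ⟨R', by ring⟩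
    exact Polynomial.not_isUnit_X_sub_C α h3
  have htW : t ∈ W := by
    have h1 : t = (t - algebraMap Ω F α) + algebraMap Ω F α := by ring
    rw [h1]
    exact add_mem (ValuationSubring.nonunits_subset hα) (hΩ α)
  have haW : ∀ R : Polynomial Ω, Polynomial.aeval t R ∈ W := by
    intro R
    rw [Polynomial.aeval_eq_sum_range]
    refine sum_mem fun i _ => ?_
    rw [Algebra.smul_def]
    exact mul_mem (hΩ _) (pow_mem htW _)
  refine ⟨Polynomial.aeval t R, ?_, ?_⟩
  · intro h1
    obtain ⟨R₂, hR₂⟩ : Polynomial.X - Polynomial.C α ∣ R - Polynomial.C (R.eval α) :=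
      Polynomial.dvd_iff_isRoot.mpr (by simp)
    have h2 : algebraMap Ω F (R.eval α) = Polynomial.aeval t R -
        Polynomial.aeval t R₂ * (t - algebraMap Ω F α) := by
      have h3 := congrArg (Polynomial.aeval t) hR₂
      rw [map_sub, map_mul, map_sub, Polynomial.aeval_C, Polynomial.aeval_X,
        Polynomial.aeval_C] at h3
      linear_combination -h3
    have h3 : algebraMap Ω F (R.eval α) ∈ W.nonunits := by
      rw [h2]
      exact sub_mem h1 (mul_mem_nonunits (haW _) hα)
    rcases W.mem_nonunits_iff_or.mp h3 with h4 | h4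
    · exact hRα ((map_eq_zero _).mp h4)
    · apply h4
      rw [← map_inv₀]
      exact hΩ _
  · conv_lhs => rw [hR]
    rw [map_mul, map_sub, Polynomial.aeval_X, Polynomial.aeval_C]

/-- descent of a uniformiser -/
theorem exists_eq_mul_of_descent {L Ω M F : Type*} [Field L] [Field Ω] [IsAlgClosed Ω] [Field M]
    [Field F] [CharZero L] [Algebra L Ω] [Algebra L M] [Algebra Ω F] [Algebra.IsAlgebraic L Ω]
    (φ : M →+* F) (hφL : ∀ a : L, φ (algebraMap L M a) = algebraMap Ω F (algebraMap L Ω a))
    {t : M} (htr : ∀ R : Polynomial Ω, Polynomial.aeval (φ t) R = 0 → R = 0)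
    (W : ValuationSubring M) (hL : ∀ a : L, algebraMap L M a ∈ W)
    {Q : Polynomial L} (hQ : Irreducible Q) (hQW : Polynomial.aeval t Q ∈ W.nonunits)
    (hval : ∀ W' : ValuationSubring F, (∀ a : Ω, algebraMap Ω F a ∈ W') → ∀ α : Ω,
      φ t - algebraMap Ω F α ∈ W'.nonunits → (Q.map (algebraMap L Ω)).IsRoot α →
      ∃ φ' : F →+* LaurentSeries ℂ, W' = valSub φ' ∧ (φ' (φ t - algebraMap Ω F α)).order = 1)
    {x : M} (hx : x ∈ W.nonunits) : ∃ y ∈ W, x = Polynomial.aeval t Q * y := by
  obtain ⟨W', hW1, hW2, hW3⟩ := exists_extend φ W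
  have hΩ : ∀ a : Ω, algebraMap Ω F a ∈ W' := by
    intro a
    have h1 : IsIntegral L a := Algebra.IsIntegral.isIntegral a
    refine mem_valuationSubring_of_isIntegralElem W' ((algebraMap Ω F).comp (algebraMap L Ω))
      (fun b => ?_) ?_
    · rw [RingHom.comp_apply, ← hφL]
      exact hW1 _ (hL b)
    · obtain ⟨q, hqm, hq⟩ := h1
      refine ⟨q, hqm, ?_⟩
      rw [← Polynomial.hom_eval₂, hq, map_zero]
  have hQ0 : Q.map (algebraMap L Ω) ≠ 0 :=
    (Polynomial.map_ne_zero_iff (algebraMap L Ω).injective).mpr hQ.ne_zero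
  have hφQ : φ (Polynomial.aeval t Q) = Polynomial.aeval (φ t) (Q.map (algebraMap L Ω)) := by
    rw [Polynomial.aeval_def, Polynomial.hom_eval₂, Polynomial.aeval_def,
      Polynomial.eval₂_map]
    congr 1
    ext1 a
    exact hφL a
  obtain ⟨α, hroot, hα, r, hr, hQr⟩ := exists_root_of_aeval_mem_nonunits W' hΩ
    (Q := Q.map (algebraMap L Ω)) (t := φ t) (hQ.separable).map
    (fun h0 => hQ0 (htr _ h0)) (hφQ ▸ hW2 _ hQW)
  obtain ⟨φ', hWφ, hord⟩ := hval W' hΩ α hα hroot
  have hxn := hW2 x hx
  rw [hWφ] at hxn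
  obtain ⟨y', hy', hxy'⟩ := exists_eq_mul_of_valSub hord hxn
  rw [← hWφ] at hy'
  have hR0 : r ≠ 0 := fun h0 => hr (by rw [h0]; exact zero_mem_nonunits W')
  have h2 : φ t - algebraMap Ω F α ≠ 0 := by
    intro h0
    rw [h0, map_zero, HahnSeries.order_zero] at hord
    exact zero_ne_one hord
  have hQt0 : Polynomial.aeval t Q ≠ 0 := by
    intro h0
    rw [h0, map_zero, hQr] at hφQ
    exact (mul_ne_zero h2 hR0) hφQ.symm
  refine ⟨(Polynomial.aeval t Q)⁻¹ * x, hW3 _ ?_, by rw [mul_inv_cancel_left₀ hQt0]⟩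
  have h1 : φ ((Polynomial.aeval t Q)⁻¹ * x) = r⁻¹ * y' := by
    rw [map_mul, map_inv₀, hφQ, hQr, hxy', mul_inv]
    field_simp
  rw [h1]
  exact mul_mem (inv_mem_of_notMem_nonunits hr) hy'

variable {p : ℕ} [Fact p.Prime] {κ : ℤ} {H : HauptFn p κ} {S : Set ℤ} {k : ℕ}
  {P : Polynomial ℤ}

/-- A uniformiser at a place of the function field. -/
theorem place_unif {L M : Type*} [Field L] [Field M] [Algebra L M] (ι : L →+* ℂ) {N : ℕ} [NeZero N]
    (h : HautData H S k P) (hp : p ∣ N) (θ : M →+* LaurentSeries L)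
    (hθC : ∀ a : L, θ (algebraMap L M a) = HahnSeries.C a) (hθN : ∀ x, θ x ∈ F0 L N)
    (W : ValuationSubring M) (hL : ∀ a : L, algebraMap L M a ∈ W) {t : M} (ht : θ t = tS L p κ)
    {Q : Polynomial L} (hQ : Irreducible Q) (hQW : Polynomial.aeval t Q ∈ W.nonunits)
    (hQS : ∀ c ∈ S, ¬ Q ∣ Polynomial.X - Polynomial.C (c : L)) {x : M} (hx : x ∈ W.nonunits) :
    ∃ y ∈ W, x = Polynomial.aeval t Q * y := by
  classical
  have hch : CharZero L := (ι.charZero_iff ι.injective).mpr inferInstance
  -- the embedding of the algebraic closure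
  let _ : Algebra L ℂ := ι.toAlgebra
  let ι'a : AlgebraicClosure L →ₐ[L] ℂ := IsAlgClosed.lift
  let ι' : AlgebraicClosure L →+* ℂ := ι'a
  have hchΩ : CharZero (AlgebraicClosure L) :=
    charZero_of_injective_algebraMap (algebraMap L (AlgebraicClosure L)).injective
  have G : GenSet ι' N (insert (tS (AlgebraicClosure L) p κ) (gens (AlgebraicClosure L) N)) :=
    (genSet_gens ι' N).insert (tS_mem_holC H ι' hp)
  have hmem : ∀ x : M, ModularCurve.coeffMap (algebraMap L (AlgebraicClosure L)) (θ x) ∈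
      IntermediateField.adjoin (AlgebraicClosure L)
        (insert (tS (AlgebraicClosure L) p κ) (gens (AlgebraicClosure L) N)) := by
    intro x
    have h1 := coeffMap_mem_adjoin (algebraMap L (AlgebraicClosure L)) (hθN x)
    exact IntermediateField.adjoin.mono _ _ _ (Set.subset_insert _ _) h1
  let φ : M →+* IntermediateField.adjoin (AlgebraicClosure L)
        (insert (tS (AlgebraicClosure L) p κ) (gens (AlgebraicClosure L) N)) :=
    ((ModularCurve.coeffMap (algebraMap L (AlgebraicClosure L))).comp θ).codRestrict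
    (IntermediateField.adjoin (AlgebraicClosure L)
        (insert (tS (AlgebraicClosure L) p κ)
          (gens (AlgebraicClosure L) N))).toSubalgebra.toSubring hmem
  have hφ : ∀ x, ((φ x : _) : LaurentSeries (AlgebraicClosure L)) =
      ModularCurve.coeffMap (algebraMap L (AlgebraicClosure L)) (θ x) := fun x => rfl
  have ht' : ((φ t : _) : LaurentSeries (AlgebraicClosure L)) = tS (AlgebraicClosure L) p κ := by
    rw [hφ, ht, coeffMap_tS]
  refine exists_eq_mul_of_descent (Ω := AlgebraicClosure L) φ ?_ ?_ W hL hQ hQW ?_ hx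
  · intro a
    apply Subtype.ext
    rw [hφ, hθC]
    have h1 : ((algebraMap (AlgebraicClosure L) (IntermediateField.adjoin (AlgebraicClosure L)
        (insert (tS (AlgebraicClosure L) p κ) (gens (AlgebraicClosure L) N)))
        (algebraMap L (AlgebraicClosure L) a) : _) : LaurentSeries (AlgebraicClosure L)) =
        algebraMap (AlgebraicClosure L) (LaurentSeries (AlgebraicClosure L))
          (algebraMap L (AlgebraicClosure L) a) := rfl
    rw [h1, ModularCurve.algebraMap_laurentSeries_eq_single]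
    exact ModularCurve.coeffMap_single _ _ _
  · exact fun R hR => transcendental_iff.mp
      (transcendental_of_coe_eq_tS (p := p) (κ := κ) ht') R hR
  · intro W' hΩ α hα hroot
    refine exists_valSub h hp G (Set.mem_insert _ _) W' hΩ ?_ ht' hα
    rintro c hc rfl
    apply hQS c hc
    have h1 : Q.IsRoot (c : L) := by
      have h2 : (algebraMap L (AlgebraicClosure L)) (Q.eval (c : L)) = 0 := by
        have h3 := Polynomial.eval_map (algebraMap L (AlgebraicClosure L))
          ((algebraMap L (AlgebraicClosure L)) (c : L)) (p := Q)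
        rw [Polynomial.eval₂_at_apply] at h3
        rw [← h3, map_intCast]
        exact hroot
      exact (map_eq_zero _).mp h2
    have h2 : Polynomial.X - Polynomial.C (c : L) ∣ Q := Polynomial.dvd_iff_isRoot.mpr h1
    exact ((Polynomial.irreducible_X_sub_C (c : L)).associated_of_dvd hQ h2).symm.dvd

end Fermat.Agent.LG
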