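import Mathlib
import Fermat.Agent.LG.GRPlace2

/-!
Good reduction of `X₀(N)`.
-/

set_option autoImplicit false
set_option linter.unusedSectionVars false

noncomputable section

universe u

namespace Fermat.Agent.LG

open IsLocalRing Polynomial Fermat.Agent.Geo ModularCurve
open UpperHalfPlane hiding I J
open scoped Manifold MatrixGroups ModularForm
open Fermat.Agent.ModFun (F0)
open Fermat.Agent.ESCore (HauptFn)

section Place

variable {O K : Type*} [CommRing O] [IsDomain O] [IsDiscreteValuationRing O] [Field K]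
  [Algebra O K] {t : K} {π : O}

theorem isDiscreteValuationRing_placeVal (ht : IsParam O t) {Q : O[X]} (hQ : Prime Q) :
    IsDiscreteValuationRing (placeVal ht hQ) := by
  let _ := polyAlg O t
  have _ := ht.isFractionRing
  exact isDiscreteValuationRing_primeVal hQ

theorem exists_place_unif (ht : IsParam O t) {Q : O[X]} (hQ : Prime Q) :
    ∃ ϖ : placeVal ht hQ, Irreducible ϖ ∧ (ϖ : K) = aeval t Q := by
  let _ := polyAlg O t
  have _ := ht.isFractionRing
  exact ⟨unif K hQ, irreducible_unif _, rfl⟩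

theorem aeval_mem_placeVal (ht : IsParam O t) {Q : O[X]} (hQ : Prime Q) (R : O[X]) :
    aeval t R ∈ placeVal ht hQ :=
  (mem_placeVal_iff ht _).mpr ⟨1, R, hQ.not_dvd_one, by rw [map_one, one_mul]⟩

theorem not_dvd_C (hπ : Prime π) {Q : O[X]} (hQ : Prime Q) (hQπ : ¬ C π ∣ Q) {y : O}
    (hy : y ≠ 0) : ¬ Q ∣ C y := by
  intro h
  obtain ⟨n, u, rfl⟩ := IsDiscreteValuationRing.eq_unit_mul_pow_irreducible hy hπ.irreducible
  rw [C_mul, C_pow] at h
  rcases hQ.dvd_or_dvd h with h1 | h1
  · exact hQ.not_isUnit (isUnit_of_dvd_unit h1 (u.isUnit.map C))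
  · have h2 := hQ.dvd_of_dvd_pow h1
    exact hQπ ((hQ.associated_of_dvd (prime_C_iff.mpr hπ) h2).symm.dvd)

theorem inv_mem_placeVal (ht : IsParam O t) (hπ : Prime π) {Q : O[X]} (hQ : Prime Q)
    (hQπ : ¬ C π ∣ Q) {y : O} (hy : y ≠ 0) : (algebraMap O K y)⁻¹ ∈ placeVal ht hQ := by
  refine (mem_placeVal_iff ht _).mpr ⟨C y, 1, not_dvd_C hπ hQ hQπ hy, ?_⟩
  have h1 : algebraMap O K y ≠ 0 := by
    intro h0
    have h2 : aeval t (C y : O[X]) = aeval t (0 : O[X]) := by
      rw [aeval_C, h0, map_zero]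
    have h3 := ht.inj h2
    rw [C_eq_zero] at h3
    exact hy h3
  rw [aeval_C, map_one, mul_inv_cancel₀ h1]

theorem isPrimitive_of_prime (hπ : Prime π) {Q : O[X]} (hQ : Prime Q) (hQπ : ¬ C π ∣ Q) :
    Q.IsPrimitive := by
  intro r hr
  by_contra hu
  have h0 : r ≠ 0 := by
    rintro rfl
    rw [C_0, zero_dvd_iff] at hr
    exact hQ.ne_zero hr
  apply hQπ
  have h1 : π ∣ r := by
    rw [← Ideal.mem_span_singleton, ← hπ.irreducible.maximalIdeal_eq]
    exact hu
  exact (map_dvd C h1).trans hr

theorem charZero_residue_placeVal [CharZero O] (ht : IsParam O t) (hπ : Prime π) {Q : O[X]}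
    (hQ : Prime Q) (hQπ : ¬ C π ∣ Q) :
    CharZero (ResidueField (placeVal ht hQ)) := by
  have hunit : ∀ n : ℕ, n ≠ 0 → IsUnit (n : placeVal ht hQ) := by
    intro n hn
    have hn' : (n : O) ≠ 0 := by exact_mod_cast hn
    refine IsUnit.of_mul_eq_one ⟨(algebraMap O K n)⁻¹, inv_mem_placeVal ht hπ hQ hQπ hn'⟩
      (Subtype.ext ?_)
    change ((n : placeVal ht hQ) : K) * (algebraMap O K n)⁻¹ = 1
    have h2 : ((n : placeVal ht hQ) : K) = algebraMap O K n := by
      rw [map_natCast]
      exact map_natCast (placeVal ht hQ).toSubring.subtype n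
    have h1 : algebraMap O K n ≠ 0 := by
      intro h0
      have h2 : aeval t (C (n : O) : O[X]) = aeval t (0 : O[X]) := by
        rw [aeval_C, h0, map_zero]
      have h3 := ht.inj h2
      rw [C_eq_zero] at h3
      exact hn' h3
    rw [h2, mul_inv_cancel₀ h1]
  refine ⟨fun m n hmn => ?_⟩
  by_contra hne
  rcases lt_or_gt_of_ne hne with hlt | hlt
  · have h1 := hunit (n - m) (by omega)
    have h2 : residue (placeVal ht hQ) ((n - m : ℕ) : placeVal ht hQ) = 0 := by
      rw [map_natCast, Nat.cast_sub hlt.le, hmn, sub_self]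
    exact (h1.map (residue (placeVal ht hQ))).ne_zero h2
  · have h1 := hunit (m - n) (by omega)
    have h2 : residue (placeVal ht hQ) ((m - n : ℕ) : placeVal ht hQ) = 0 := by
      rw [map_natCast, Nat.cast_sub hlt.le, hmn, sub_self]
    exact (h1.map (residue (placeVal ht hQ))).ne_zero h2

end Place

section Unr

variable {O L K₁ M : Type u} [CommRing O] [IsDomain O] [IsDiscreteValuationRing O] [Field L]
  [Algebra O L] [IsFractionRing O L] [Field K₁] [Field M] [Algebra O K₁] [Algebra O M]
  [Algebra K₁ M] [IsScalarTower O K₁ M] {t : K₁} {π : O}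
  {p : ℕ} [Fact p.Prime] {κ : ℤ} {H : HauptFn p κ} {S : Set ℤ} {k : ℕ} {P : ℤ[X]}

/-- Unramifiedness at the places where `t` does not take a special value. -/
theorem place_unr (ι : L →+* ℂ) {N : ℕ} [NeZero N] (h : HautData H S k P) (hp : p ∣ N)
    (ht : IsParam O t) (hπ : Prime π) (θ : M →+* LaurentSeries L)
    (hθC : ∀ a : O, θ (algebraMap O M a) = HahnSeries.C (algebraMap O L a))
    (hθN : ∀ x, θ x ∈ F0 L N) (hθt : θ (algebraMap K₁ M t) = tS L p κ)
    [FiniteDimensional K₁ M] [Algebra.IsSeparable K₁ M] {Q : O[X]} (hQ : Prime Q)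
    (hQπ : ¬ C π ∣ Q) (hQS : ∀ c ∈ S, ¬ Q ∣ X - C (c : O)) :
    Unr (placeVal ht hQ).toSubring M := by
  have hdvr := isDiscreteValuationRing_placeVal ht hQ
  have hchL : CharZero L := (ι.charZero_iff ι.injective).mpr inferInstance
  have hchO : CharZero O := ((algebraMap O L).charZero_iff
    (IsFractionRing.injective O L)).mpr hchL
  have hchr := charZero_residue_placeVal ht hπ hQ hQπ
  have hperf : PerfectField (ResidueField (placeVal ht hQ)) := PerfectField.ofCharZero
  obtain ⟨ϖ, hϖ, hϖQ⟩ := exists_place_unif ht hQ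
  have hinj : Function.Injective (algebraMap O M) := by
    rw [injective_iff_map_eq_zero]
    intro a ha
    have h1 := hθC a
    rw [ha, map_zero] at h1
    have h2 : algebraMap O L a = 0 := by
      have := congrArg (fun z : LaurentSeries L => z.coeff 0) h1
      simpa using this.symm
    exact IsFractionRing.injective O L (by rw [h2, map_zero])
  let _ : Algebra L M := (IsFractionRing.lift hinj : L →+* M).toAlgebra
  have hLM : ∀ a : O, algebraMap L M (algebraMap O L a) = algebraMap O M a :=
    fun a => IsFractionRing.lift_algebraMap hinj a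
  have hθL : ∀ a : L, θ (algebraMap L M a) = HahnSeries.C a := by
    intro a
    obtain ⟨x, y, hy, rfl⟩ := IsFractionRing.div_surjective (A := O) a
    rw [map_div₀, map_div₀, hLM, hLM, hθC, hθC, map_div₀]
  apply unr_of_forall_isUnrExt hϖ
  intro W hW hϖW
  have hL : ∀ a : L, algebraMap L M a ∈ W := by
    intro a
    obtain ⟨x, y, hy, rfl⟩ := IsFractionRing.div_surjective (A := O) a
    have hy0 : y ≠ 0 := nonZeroDivisors.ne_zero hy
    rw [map_div₀, hLM, hLM, div_eq_mul_inv, IsScalarTower.algebraMap_apply O K₁ M,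
      IsScalarTower.algebraMap_apply O K₁ M, ← map_inv₀]
    refine mul_mem (hW _ ?_) (hW _ (inv_mem_placeVal ht hπ hQ hQπ hy0))
    have := aeval_mem_placeVal ht hQ (C x)
    rwa [aeval_C] at this
  have hprim := isPrimitive_of_prime hπ hQ hQπ
  have hirr : Irreducible (Q.map (algebraMap O L)) :=
    (hprim.irreducible_iff_irreducible_map_fraction_map).mp hQ.irreducible
  have haev : aeval (algebraMap K₁ M t) (Q.map (algebraMap O L)) = algebraMap K₁ M ϖ := by
    rw [hϖQ, ← aeval_algebraMap_apply, aeval_def, aeval_def, eval₂_map]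
    congr 1
    ext a
    exact hLM a
  refine ⟨hW, hϖW, fun x hx => ?_, ?_⟩
  · obtain ⟨y, hy, hxy⟩ := place_unif ι h hp θ hθL hθN W hL hθt hirr (by
      rw [haev]; exact hϖW) (fun c hc hdvd => by
        apply hQS c hc
        have h1 := (hprim.dvd_iff_fraction_map_dvd_fraction_map L
          (q := X - C (c : O))).mpr (by
            rw [Polynomial.map_sub, Polynomial.map_X, Polynomial.map_C, map_intCast]
            exact hdvd)
        exact h1) hx
    exact ⟨y, hy, by rw [hxy, haev, Algebra.smul_def]⟩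
  · exact sep_of_perfect hW (mem_nonunits_of_unif hϖ.maximalIdeal_eq hW hϖW)

end Unr

end Fermat.Agent.LG
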