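import Mathlib
import Fermat.Agent.LG.GRMain

/-!
Good reduction of `X₀(N)`: the final statements.
-/

set_option autoImplicit false
set_option linter.unusedSectionVars false

noncomputable section

universe u

namespace Fermat.Agent.LG

open IsLocalRing Polynomial Fermat.Agent.Geo ModularCurve IntermediateField
open UpperHalfPlane hiding I J
open scoped Manifold MatrixGroups ModularForm
open Fermat.Agent.ModFun (F0 gens jF XN vS)
open Fermat.Agent.ESCore (HauptFn)

section Indep

variable {O L : Type u} [CommRing O] [IsDomain O] [IsDiscreteValuationRing O] [Field L]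
  [Algebra O L] [IsFractionRing O L]

/-- the root of unity is a unit of `O` -/
theorem exists_unit_of_root (ι : L →+* ℂ) {N : ℕ} [NeZero N] {ζ : Lˣ}
    (hζ : ι ζ = Complex.exp (2 * Real.pi * Complex.I / N)) :
    ∃ ζ' : Oˣ, (ι.comp (algebraMap O L)) ζ' = Complex.exp (2 * Real.pi * Complex.I / N) := by
  have hN : N ≠ 0 := NeZero.ne N
  have h1 : (ζ : L) ^ N = 1 := by
    apply ι.injective
    rw [map_pow, hζ, map_one, ← Complex.exp_nat_mul, mul_div_cancel₀ _ (by exact_mod_cast hN)]
    exact Complex.exp_two_pi_mul_I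
  have h2 : IsIntegral O (ζ : L) := by
    refine ⟨X ^ N - 1, monic_X_pow_sub_C (1 : O) hN, ?_⟩
    rw [eval₂_sub, eval₂_X_pow, eval₂_one, h1, sub_self]
  obtain ⟨z, hz⟩ := IsIntegrallyClosed.isIntegral_iff.mp h2
  have h3 : z ^ N = 1 := by
    apply IsFractionRing.injective O L
    rw [map_pow, hz, h1, map_one]
  refine ⟨Units.ofPowEqOne z N h3 hN, ?_⟩
  rw [RingHom.comp_apply, Units.val_ofPowEqOne, hz, hζ]

theorem vS_indep_sum {k : Type*} [Field k] {N : ℕ} [NeZero N] {ι : O →+* ℂ}
    (hι : Function.Injective ι) (hNu : IsUnit (N : O)) {ζ : Oˣ}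
    (hζ : ι ζ = Complex.exp (2 * Real.pi * Complex.I / N)) (ρ : O →+* k)
    (P : Fin (Fintype.card (XN N)) → k[X])
    (h : ∑ j, (P j).eval₂ HahnSeries.C (jqModC k) * (vS k N) ^ (j : ℕ) = 0)
    (j : Fin (Fintype.card (XN N))) : P j = 0 := by
  set p : k[X][X] := ∑ j : Fin (Fintype.card (XN N)), C (P j) * X ^ (j : ℕ) with hp
  have hcard : 0 < Fintype.card (XN N) := Fintype.card_pos
  have hdeg : p.natDegree < Fintype.card (XN N) := by
    refine lt_of_le_of_lt (natDegree_sum_le_of_forall_le (n := Fintype.card (XN N) - 1) _ _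
      fun i _ => ?_) (by omega)
    exact (natDegree_C_mul_X_pow_le _ _).trans (by omega)
  have h0 := Fermat.Agent.ModFun.vS_indep hι hNu hζ ρ (RingHom.id k) p hdeg (by
    rw [← h, hp, eval₂_finsetSum]
    refine Finset.sum_congr rfl fun i _ => ?_
    rw [eval₂_mul, eval₂_C, eval₂_X_pow]
    rfl)
  have h1 := congrArg (fun q => q.coeff (j : ℕ)) h0
  simp only [hp, finsetSum_coeff, coeff_C_mul, coeff_X_pow, coeff_zero] at h1
  rw [Finset.sum_eq_single j] at h1
  · simpa using h1
  · intro i _ hi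
    rw [if_neg, mul_zero]
    intro h2
    exact hi (Fin.ext h2.symm)
  · simp

end Indep

section Model

variable {O L K₁ M : Type u} [CommRing O] [IsDomain O] [IsDiscreteValuationRing O] [Field L]
  [Algebra O L] [IsFractionRing O L] [Field K₁] [Field M] [Algebra O K₁] [Algebra O M]
  [Algebra K₁ M]

/-- The field `M` is the function field of `X₀(N)` over `L`, with parameter `t : K₁`. -/
structure XModel {O L K₁ M : Type u} [CommRing O] [IsDomain O] [IsDiscreteValuationRing O]
    [Field L] [Algebra O L] [IsFractionRing O L] [Field K₁] [Field M] [Algebra O K₁] [Algebra O M]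
    [Algebra K₁ M] (N : ℕ) [NeZero N] (p : ℕ) [NeZero p] (κ : ℤ) (θ : M →+* LaurentSeries L)
    (t : K₁) : Prop where
  map_C : ∀ a : O, θ (algebraMap O M a) = HahnSeries.C (algebraMap O L a)
  mem : ∀ x, θ x ∈ F0 L N
  surj : ∀ y ∈ F0 L N, ∃ x, θ x = y
  map_t : θ (algebraMap K₁ M t) = tS L p κ
  gen : ∀ y : K₁, ∃ P Q : O[X], Q ≠ 0 ∧ y * aeval t Q = aeval t P

variable [IsScalarTower O K₁ M] {t : K₁} {π : O} {p : ℕ} [Fact p.Prime] {κ : ℤ}
  {θ : M →+* LaurentSeries L} {N : ℕ} [NeZero N]

theorem XModel.mem_gK (h : XModel (O := O) N p κ θ t) (x : M) : θ x ∈ gK O L := F0_le_gK (h.mem x)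

theorem XModel.isEmb (h : XModel (O := O) N p κ θ t) : IsEmb θ t (tS O p κ) where
  map_C := h.map_C
  map_z := by rw [h.map_t, toL_tS]
  trans P hP := eval₂_tS_eq_zero (by rwa [toK_tS] at hP)

theorem XModel.isParam (h : XModel (O := O) N p κ θ t) : IsParam O t where
  inj := by
    rw [injective_iff_map_eq_zero]
    intro P hP
    have h1 := h.isEmb.map_aeval P
    rw [hP, map_zero, map_zero] at h1
    exact eval₂_tS_eq_zero (toL_injective O L (by rw [← h1, map_zero]))
  surj := h.gen

/-- `M` is the function field. -/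
def XModel.equiv (h : XModel (O := O) N p κ θ t) : M ≃+* F0 L N :=
  RingEquiv.ofBijective (θ.codRestrict (F0 L N).toSubalgebra.toSubring h.mem : M →+* F0 L N)
    ⟨(θ.codRestrict (F0 L N).toSubalgebra.toSubring h.mem : M →+* F0 L N).injective, fun y => by
      obtain ⟨x, hx⟩ := h.surj y y.2
      exact ⟨x, Subtype.ext hx⟩⟩

theorem XModel.coe_equiv (h : XModel (O := O) N p κ θ t) (x : M) :
    ((h.equiv x : F0 L N) : LaurentSeries L) = θ x := rfl

theorem XModel.θ_symm (h : XModel (O := O) N p κ θ t) (y : F0 L N) :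
    θ (h.equiv.symm y) = y := by
  rw [← h.coe_equiv, RingEquiv.apply_symm_apply]

theorem toK_vS : toK O (vS O N) = vS (ResidueField O) N := Fermat.Agent.ModFun.coeffMap_vS _ _

theorem toL_vS : toL O L (vS O N) = vS L N := Fermat.Agent.ModFun.coeffMap_vS _ _

/-- uniqueness of the extension of the Gauss valuation of the `j`-line -/
theorem XModel.eq_gW_of_j (h : XModel (O := O) N p κ θ t) (ι : L →+* ℂ) {ζ : Lˣ}
    (hζ : ι ζ = Complex.exp (2 * Real.pi * Complex.I / N)) (hNu : IsUnit (N : O)) (hπ : Prime π)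
    {Kj : Type u} [Field Kj] [Algebra O Kj] [Algebra Kj M] [IsScalarTower O Kj M] {j : Kj}
    (hj : IsParam O j) (hθj : θ (algebraMap Kj M j) = jqModC L) [FiniteDimensional Kj M]
    [Algebra.IsSeparable Kj M] (hrank : Module.finrank Kj M ≤ Fintype.card (XN N))
    (W : ValuationSubring M) (hW : Over (gaussVal hj hπ) (algebraMap O Kj π) W) :
    W = gW θ h.mem_gK := by
  have hemb : IsEmb θ j (jqModC O) :=
    { map_C := h.map_C
      map_z := by rw [hθj, toL_jq]
      trans := fun P hP => eval₂_jq_eq_zero (by rwa [toK_jq] at hP) }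
  obtain ⟨V, hV⟩ := h.surj _ (vS_mem_F0 (N := N) ι)
  obtain ⟨ζ', hζ'⟩ := exists_unit_of_root (O := O) ι hζ
  have hVp : ∀ i : ℕ, θ (V ^ i) = toL O L (vS O N ^ i) := fun i => by
    rw [map_pow, hV, map_pow, toL_vS]
  have hb : ∀ i : Fin (Fintype.card (XN N)), θ (V ^ (i : ℕ)) ∈ gV O L := fun i => by
    rw [hVp]
    exact toL_mem_gV _
  refine gauss_eq_of_list (hθ := h.mem_gK) hj hπ hemb
    (fun i : Fin (Fintype.card (XN N)) => V ^ (i : ℕ)) hb (fun P hP => ?_) hrank W hW
  refine vS_indep_sum (ι := ι.comp (algebraMap O L))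
    (ι.injective.comp (IsFractionRing.injective O L)) hNu hζ' (residue O) P ?_
  rw [← hP]
  refine Finset.sum_congr rfl fun i _ => ?_
  rw [toK_jq, gρ_of_toL (hVp i), map_pow, toK_vS]

/-- `K₁` as a subfield of the function field, containing `L` and `j` -/
theorem XModel.exists_K₁ (h : XModel (O := O) N p κ θ t) (ι : L →+* ℂ) {H : HauptFn p κ}
    {S : Set ℤ} {k : ℕ} {P : ℤ[X]} (hH : HautData H S k P) (y : L⟮jF L N⟯) :
    ∃ y' : K₁, algebraMap K₁ M y' = h.equiv.symm (y : F0 L N) := by
  -- the subfield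
  let T : Subfield (F0 L N) := ((algebraMap K₁ M).fieldRange).comap
    (h.equiv.symm : F0 L N →+* M)
  have hT : ∀ z : F0 L N, z ∈ T ↔ ∃ y' : K₁, algebraMap K₁ M y' = h.equiv.symm z := by
    intro z
    exact Iff.rfl
  have hO : ∀ a : O, algebraMap L (F0 L N) (algebraMap O L a) ∈ T := by
    intro a
    rw [hT]
    refine ⟨algebraMap O K₁ a, ?_⟩
    rw [← IsScalarTower.algebraMap_apply]
    apply θ.injective
    rw [h.map_C, h.θ_symm]
    have h1 : ((algebraMap L (F0 L N) (algebraMap O L a) : F0 L N) : LaurentSeries L) =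
        algebraMap L (LaurentSeries L) (algebraMap O L a) := rfl
    rw [h1, ModularCurve.algebraMap_laurentSeries_eq_single]
    rfl
  have hL : ∀ a : L, algebraMap L (F0 L N) a ∈ T := by
    intro a
    obtain ⟨x, y, hy, rfl⟩ := IsFractionRing.div_surjective (A := O) a
    rw [map_div₀]
    exact div_mem (hO x) (hO y)
  let T' : IntermediateField L (F0 L N) := T.toIntermediateField hL
  -- `t` is in `T`
  set tF : F0 L N := h.equiv (algebraMap K₁ M t) with htF
  have htF' : (tF : LaurentSeries L) = tS L p κ := by rw [htF, h.coe_equiv, h.map_t]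
  have htT : tF ∈ T := by
    rw [hT]
    exact ⟨t, by rw [htF, RingEquiv.symm_apply_apply]⟩
  have ht0 : tF ≠ 0 := by
    intro h0
    have h1 := congrArg (fun z : F0 L N => (z : LaurentSeries L).coeff (-1)) h0
    simp only [htF', coeff_tS_neg_one] at h1
    exact one_ne_zero h1
  have hjT : jF L N ∈ T := by
    have h1 : jF L N * tF ^ k = aeval tF (P.map (Int.castRingHom L)) := by
      apply Subtype.ext
      have h1 := hH.series ι
      rw [← htF'] at h1
      have h2 : ((aeval tF (P.map (Int.castRingHom L)) : F0 L N) : LaurentSeries L) =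
          aeval (tF : LaurentSeries L) (P.map (Int.castRingHom L)) :=
        (aeval_algebraMap_apply (LaurentSeries L) tF _).symm
      rw [h2, aeval_def]
      have h3 : algebraMap L (LaurentSeries L) = HahnSeries.C := by
        ext1 a
        rw [ModularCurve.algebraMap_laurentSeries_eq_single]
        rfl
      rw [h3]
      exact h1
    have h2 : jF L N = aeval tF (P.map (Int.castRingHom L)) * (tF ^ k)⁻¹ := by
      rw [← h1, mul_inv_cancel_right₀ (pow_ne_zero k ht0)]
    rw [h2]
    refine mul_mem ?_ (inv_mem (pow_mem htT k))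
    rw [aeval_eq_sum_range]
    refine sum_mem fun i _ => ?_
    rw [Algebra.smul_def]
    exact mul_mem (hL _) (pow_mem htT i)
  have h3 : L⟮jF L N⟯ ≤ T' := by
    rw [IntermediateField.adjoin_simple_le_iff]
    exact hjT
  exact (hT _).mp (h3 y.2)

theorem isParam_of_transcendental {F : Type u} [Field F] [Algebra L F] {x : F}
    (hx : Transcendental L x) [Algebra O L⟮x⟯] [IsScalarTower O L L⟮x⟯] :
    IsParam O (AdjoinSimple.gen L x) where
  inj := by
    rw [injective_iff_map_eq_zero]
    intro P hP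
    have h1 : aeval x (P.map (algebraMap O L)) = 0 := by
      have h2 := congrArg (algebraMap L⟮x⟯ F) hP
      rw [map_zero] at h2
      rw [← h2]
      have h3 : aeval (AdjoinSimple.gen L x) P =
          aeval (AdjoinSimple.gen L x) (P.map (algebraMap O L)) :=
        (aeval_map_algebraMap L (AdjoinSimple.gen L x) P).symm
      rw [h3, ← aeval_algebraMap_apply, AdjoinSimple.algebraMap_gen]
    have h2 := transcendental_iff.mp hx _ h1
    exact (Polynomial.map_eq_zero_iff (IsFractionRing.injective O L)).mp h2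
  surj y := by
    classical
    obtain ⟨r, s, hrs⟩ := (IntermediateField.mem_adjoin_simple_iff L _).mp y.2
    by_cases hs : aeval x s = 0
    · refine ⟨0, 1, one_ne_zero, ?_⟩
      rw [hs, div_zero] at hrs
      have : y = 0 := Subtype.ext hrs
      rw [this, zero_mul, map_zero]
    obtain ⟨b, hb, hbr⟩ := IsLocalization.integerNormalization_spec (nonZeroDivisors O) r
    obtain ⟨c, hc, hcs⟩ := IsLocalization.integerNormalization_spec (nonZeroDivisors O) s
    set r' := IsLocalization.integerNormalization (nonZeroDivisors O) r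
    set s' := IsLocalization.integerNormalization (nonZeroDivisors O) s
    have hs0 : s ≠ 0 := by
      rintro rfl
      exact hs (map_zero _)
    have hs'0 : s' ≠ 0 := by
      intro h0
      rw [h0, Polynomial.map_zero, Algebra.smul_def] at hcs
      have h1 : algebraMap O L[X] c ≠ 0 := by
        intro h2
        have h3 : (C (algebraMap O L c) : L[X]) = 0 := h2
        rw [C_eq_zero] at h3
        exact nonZeroDivisors.ne_zero hc (IsFractionRing.injective O L (by rw [h3, map_zero]))
      exact (mul_ne_zero h1 hs0) hcs.symm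
    have hy : y * aeval (AdjoinSimple.gen L x) s = aeval (AdjoinSimple.gen L x) r := by
      apply Subtype.ext
      have e1 : ∀ q : L[X], ((aeval (AdjoinSimple.gen L x) q : L⟮x⟯) : F) = aeval x q := by
        intro q
        have := aeval_algebraMap_apply F (AdjoinSimple.gen L x) q
        rw [AdjoinSimple.algebraMap_gen] at this
        exact this.symm
      change (y : F) * ((aeval (AdjoinSimple.gen L x) s : L⟮x⟯) : F) = _
      rw [e1, e1, hrs, div_mul_cancel₀ _ hs]
    refine ⟨C c * r', C b * s', mul_ne_zero (C_ne_zero.mpr (nonZeroDivisors.ne_zero hb)) hs'0, ?_⟩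
    have e2 : ∀ (q : O[X]), aeval (AdjoinSimple.gen L x) q =
        aeval (AdjoinSimple.gen L x) (q.map (algebraMap O L)) := fun q =>
      (aeval_map_algebraMap L (AdjoinSimple.gen L x) q).symm
    rw [map_mul, map_mul, aeval_C, aeval_C, e2 r', e2 s', hbr, hcs]
    have e3 : ∀ (a : O) (q : L[X]), aeval (AdjoinSimple.gen L x) (a • q) =
        algebraMap O L⟮x⟯ a * aeval (AdjoinSimple.gen L x) q := by
      intro a q
      have : a • q = C (algebraMap O L a) * q := by
        rw [← smul_eq_C_mul, algebraMap_smul]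
      rw [this, map_mul, aeval_C, ← IsScalarTower.algebraMap_apply]
    rw [e3, e3]
    linear_combination (algebraMap O L⟮x⟯ b) * (algebraMap O L⟮x⟯ c) * hy

/-- transport of the subfield generated by a transcendental element -/
theorem exists_j_field {F : Type u} [Field F] [Algebra L F] [CharZero L] (e : F ≃+* M) {j : F}
    (htr : Transcendental L j) [FiniteDimensional L⟮j⟯ F]
    (hC : ∀ a : O, e (algebraMap L F (algebraMap O L a)) = algebraMap O M a) :
    ∃ (Kj : Type u) (_ : Field Kj) (_ : Algebra O Kj) (_ : Algebra Kj M)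
      (_ : IsScalarTower O Kj M) (jj : Kj), IsParam O jj ∧ algebraMap Kj M jj = e j ∧
      FiniteDimensional Kj M ∧ Algebra.IsSeparable Kj M ∧
      Module.finrank Kj M = Module.finrank L⟮j⟯ F ∧
      ∀ y : Kj, ∃ y₀ : L⟮j⟯, algebraMap Kj M y = e (y₀ : F) := by
  let iO : Algebra O L⟮j⟯ := ((algebraMap L L⟮j⟯).comp (algebraMap O L)).toAlgebra
  have iOL : IsScalarTower O L L⟮j⟯ := IsScalarTower.of_algebraMap_eq fun _ => rfl
  let iM : Algebra L⟮j⟯ M := ((e : F →+* M).comp (algebraMap L⟮j⟯ F)).toAlgebra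
  have iOM : IsScalarTower O L⟮j⟯ M := IsScalarTower.of_algebraMap_eq fun a => (hC a).symm
  let e' : F ≃ₗ[L⟮j⟯] M :=
    { e with
      map_smul' := fun a m => by
        change e (a • m) = a • e m
        rw [Algebra.smul_def, Algebra.smul_def, map_mul]
        rfl }
  have hfdM : FiniteDimensional L⟮j⟯ M := e'.finiteDimensional
  have halg : Algebra.IsAlgebraic L⟮j⟯ M := Algebra.IsAlgebraic.of_finite _ _
  exact ⟨L⟮j⟯, inferInstance, iO, iM, iOM, AdjoinSimple.gen L j, isParam_of_transcendental htr,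
    rfl, hfdM, Algebra.IsAlgebraic.isSeparable_of_perfectField, e'.finrank_eq.symm,
    fun y => ⟨y, rfl⟩⟩

/-- The unique extension of the Gauss valuation, and finiteness. -/
theorem XModel.main (h : XModel (O := O) N p κ θ t) (ι : L →+* ℂ) {ζ : Lˣ}
    (hζ : ι ζ = Complex.exp (2 * Real.pi * Complex.I / N)) (hNu : IsUnit (N : O)) (hπ : Prime π)
    {H : HauptFn p κ} {S : Set ℤ} {k : ℕ} {P : ℤ[X]} (hH : HautData H S k P) :
    FiniteDimensional K₁ M ∧ ∀ W : ValuationSubring M,
      Over (gaussVal h.isParam hπ) (algebraMap O K₁ π) W → W = gW θ h.mem_gK := by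
  have hch : CharZero L := (ι.charZero_iff ι.injective).mpr inferInstance
  have hfd : FiniteDimensional L⟮jF L N⟯ (F0 L N) := Fermat.Agent.ModFun.finiteDimensional_F0 hζ
  have htr : Transcendental L (jF L N) := by
    rw [transcendental_iff]
    intro q hq
    have h1 : aeval (jqModC L) q = 0 := by
      have := congrArg (algebraMap (F0 L N) (LaurentSeries L)) hq
      rw [map_zero, ← aeval_algebraMap_apply] at this
      exact this
    exact Fermat.Agent.ModFun.aeval_jq_injective L (by rw [h1, map_zero])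
  obtain ⟨Kj, iK, iO, iM, iOM, j, hj, hje, hfdM, hsep, hrank, hKj⟩ :=
    exists_j_field (O := O) h.equiv.symm htr (fun a => by
      apply θ.injective
      rw [h.map_C, h.θ_symm]
      have h1 : ((algebraMap L (F0 L N) (algebraMap O L a) : F0 L N) : LaurentSeries L) =
          algebraMap L (LaurentSeries L) (algebraMap O L a) := rfl
      rw [h1, ModularCurve.algebraMap_laurentSeries_eq_single]
      rfl)
  have hrank' : Module.finrank Kj M ≤ Fintype.card (XN N) := by
    rw [hrank]
    exact Fermat.Agent.ModFun.finrank_le hζ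
  have hθj : θ (algebraMap Kj M j) = jqModC L := by
    rw [hje, h.θ_symm]
    rfl
  have hKK : ∀ y : Kj, ∃ y' : K₁, algebraMap K₁ M y' = algebraMap Kj M y := by
    intro y
    obtain ⟨y₀, hy₀⟩ := hKj y
    obtain ⟨y', hy'⟩ := h.exists_K₁ ι hH y₀
    exact ⟨y', by rw [hy', hy₀]⟩
  refine ⟨?_, fun W hW => ?_⟩
  · -- finiteness over `K₁`
    choose g hg using hKK
    have hginj := (algebraMap K₁ M).injective
    let gh : Kj →+* K₁ :=
      { toFun := g
        map_one' := hginj (by rw [hg, map_one, map_one])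
        map_zero' := hginj (by rw [hg, map_zero, map_zero])
        map_mul' := fun a b => hginj (by rw [hg, map_mul, map_mul, hg, hg])
        map_add' := fun a b => hginj (by rw [hg, map_add, map_add, hg, hg]) }
    let iK : Algebra Kj K₁ := gh.toAlgebra
    have iKM : IsScalarTower Kj K₁ M := IsScalarTower.of_algebraMap_eq fun a => (hg a).symm
    exact Module.Finite.of_restrictScalars_finite Kj K₁ M
  · refine gauss_eq_of_param (hθ := h.mem_gK) hj h.isParam hπ
      (Z := jqModC O) { map_C := h.map_C, map_z := ?_, trans := ?_ } h.isEmb hKK ?_ W hW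
    · rw [hθj, toL_jq]
    · exact fun P hP => eval₂_jq_eq_zero (by rwa [toK_jq] at hP)
    · exact h.eq_gW_of_j ι hζ hNu hπ hj hθj hrank'

/-- finiteness -/
theorem XModel.finiteDimensional (h : XModel (O := O) N p κ θ t) (ι : L →+* ℂ) {ζ : Lˣ}
    (hζ : ι ζ = Complex.exp (2 * Real.pi * Complex.I / N)) (hNu : IsUnit (N : O))
    {H : HauptFn p κ} {S : Set ℤ} {k : ℕ} {P : ℤ[X]} (hH : HautData H S k P) :
    FiniteDimensional K₁ M := by
  obtain ⟨ϖ, hϖ⟩ := IsDiscreteValuationRing.exists_irreducible O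
  exact (h.main ι hζ hNu hϖ.prime hH).1

theorem XModel.charZero (h : XModel (O := O) N p κ θ t) (ι : L →+* ℂ) : CharZero K₁ := by
  have hchL : CharZero L := (ι.charZero_iff ι.injective).mpr inferInstance
  have hchO : CharZero O := ((algebraMap O L).charZero_iff
    (IsFractionRing.injective O L)).mpr hchL
  have h1 : Function.Injective (algebraMap O K₁) := by
    have h2 : ((aeval t : O[X] →ₐ[O] K₁) : O[X] →+* K₁).comp C = algebraMap O K₁ := by
      ext a
      simp
    rw [← h2]
    exact h.isParam.inj.comp C_injective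
  exact ((algebraMap O K₁).charZero_iff h1).mp hchO

/-- **The Gauss valuation has a unique extension to the function field of `X₀(N)`.** -/
theorem XModel.eq_gW (h : XModel (O := O) N p κ θ t) (ι : L →+* ℂ) {ζ : Lˣ}
    (hζ : ι ζ = Complex.exp (2 * Real.pi * Complex.I / N)) (hNu : IsUnit (N : O)) (hπ : Prime π)
    {H : HauptFn p κ} {S : Set ℤ} {k : ℕ} {P : ℤ[X]} (hH : HautData H S k P)
    (W : ValuationSubring M) (hW : Over (gaussVal h.isParam hπ) (algebraMap O K₁ π) W) :
    W = gW θ h.mem_gK := (h.main ι hζ hNu hπ hH).2 W hW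

/-- **Good reduction of `X₀(N)`.** -/
theorem XModel.goodRed [PerfectField (ResidueField O)] (h : XModel (O := O) N p κ θ t)
    (ι : L →+* ℂ) (hp : p ∣ N) {ζ : Lˣ}
    (hζ : ι ζ = Complex.exp (2 * Real.pi * Complex.I / N)) (hNu : IsUnit (N : O)) (hπ : Prime π)
    {H : HauptFn p κ} {S : Set ℤ} {k : ℕ} {P : ℤ[X]} (hH : HautData H S k P)
    (hS : ∀ c ∈ S, ∀ c' ∈ S, c ≠ c' → IsUnit ((c - c' : ℤ) : O)) :
    GoodRed h.isParam hπ ((fun c : ℤ => (c : O)) '' S) M := by
  have hfd := h.finiteDimensional ι hζ hNu hH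
  have hch := h.charZero ι
  have hsep : Algebra.IsSeparable K₁ M := Algebra.IsAlgebraic.isSeparable_of_perfectField
  refine ⟨?_, fun Q hQ hQπ hQS => ?_, ?_⟩
  · refine gauss_unr (hθ := h.mem_gK) h.isParam hπ h.isEmb ?_ (h.eq_gW ι hζ hNu hπ hH)
    rw [toK_tS]
    exact thD_tS_ne_zero
  · exact place_unr ι hH hp h.isParam hπ θ h.map_C h.mem h.map_t hQ hQπ
      fun c hc => hQS _ ⟨c, hc, rfl⟩
  · rintro _ ⟨c, hc, rfl⟩ _ ⟨c', hc', rfl⟩ hne
    have h1 := hS c hc c' hc' (fun h0 => hne (by rw [h0]))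
    rw [Int.cast_sub] at h1
    exact h1

/-- **A basis of the residue field.** -/
theorem XModel.basis (h : XModel (O := O) N p κ θ t) (ι : L →+* ℂ) {ζ : Lˣ}
    (hζ : ι ζ = Complex.exp (2 * Real.pi * Complex.I / N)) (hNu : IsUnit (N : O))
    {H : HauptFn p κ} {S : Set ℤ} {k : ℕ} {P : ℤ[X]} (hH : HautData H S k P) :
    ∃ (e : Fin (Module.finrank K₁ M) → M) (he : ∀ i, θ (e i) ∈ gV O L),
    ∀ P : Fin (Module.finrank K₁ M) → (ResidueField O)[X],
      ∑ i, (P i).eval₂ HahnSeries.C (toK O (tS O p κ)) * gR (⟨_, he i⟩ : gV O L) = 0 →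
        ∀ i, P i = 0 := by
  obtain ⟨ϖ, hϖ⟩ := IsDiscreteValuationRing.exists_irreducible O
  have hfd := h.finiteDimensional ι hζ hNu hH
  have hch := h.charZero ι
  have hsep : Algebra.IsSeparable K₁ M := Algebra.IsAlgebraic.isSeparable_of_perfectField
  exact gauss_basis (hθ := h.mem_gK) h.isParam hϖ.prime h.isEmb (h.eq_gW ι hζ hNu hϖ.prime hH)

end Model

end Fermat.Agent.LG
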