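import Mathlib
import Fermat.Agent.LG.TFun
import Fermat.Agent.Geo.Param

/-!
Conventions for subfields of the field of Laurent series.
-/

set_option autoImplicit false
set_option linter.unusedSectionVars false

open Fermat.Agent.Geo

noncomputable section

universe u

namespace Fermat.Agent.LG

variable (O : Type u) {L : Type u} [CommRing O] [Field L] [Algebra O L]

/-- The `O`-algebra structure on a field of Laurent series over `L`. -/
@[reducible] def algO (S : IntermediateField L (LaurentSeries L)) : Algebra O S :=
  ((algebraMap L S).comp (algebraMap O L)).toAlgebra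

/-- Inclusions. -/
@[reducible] def algI {S S' : IntermediateField L (LaurentSeries L)} (h : S ≤ S') :
    Algebra S S' :=
  (IntermediateField.inclusion h : S →+* S').toAlgebra

theorem coe_algebraMap_L (S : IntermediateField L (LaurentSeries L)) (a : L) :
    ((algebraMap L S a : S) : LaurentSeries L) = HahnSeries.C a := by
  change algebraMap L (LaurentSeries L) a = _
  rw [ModularCurve.algebraMap_laurentSeries_eq_single]
  rfl

theorem coe_algO (S : IntermediateField L (LaurentSeries L)) (a : O) :
    letI := algO O S
    ((algebraMap O S a : S) : LaurentSeries L) = HahnSeries.C (algebraMap O L a) :=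
  coe_algebraMap_L S _

theorem coe_algI {S S' : IntermediateField L (LaurentSeries L)} (h : S ≤ S') (x : S) :
    letI := algI h
    ((algebraMap S S' x : S') : LaurentSeries L) = x := rfl

theorem tower_O {S S' : IntermediateField L (LaurentSeries L)} (h : S ≤ S') :
    letI := algO O S
    letI := algO O S'
    letI := algI h
    IsScalarTower O S S' :=
  letI := algO O S
  letI := algO O S'
  letI := algI h
  IsScalarTower.of_algebraMap_eq fun _ => rfl

theorem tower_L {S S' : IntermediateField L (LaurentSeries L)} (h : S ≤ S') :
    letI := algI h
    IsScalarTower L S S' :=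
  letI := algI h
  IsScalarTower.of_algebraMap_eq fun _ => rfl

theorem tower_I {S S' S'' : IntermediateField L (LaurentSeries L)} (h : S ≤ S') (h' : S' ≤ S'')
    (h'' : S ≤ S'') :
    letI := algI h
    letI := algI h'
    letI := algI h''
    IsScalarTower S S' S'' :=
  letI := algI h
  letI := algI h'
  letI := algI h''
  IsScalarTower.of_algebraMap_eq fun _ => rfl

section Param

variable {O} [IsDomain O] [IsFractionRing O L]

/-- A series with a pole is a parameter of the field it generates. -/
theorem isParam_adjoin {x : LaurentSeries L} (hx : Transcendental L x) :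
    letI := algO O (IntermediateField.adjoin L {x})
    IsParam O (⟨x, IntermediateField.mem_adjoin_simple_self L x⟩ :
      IntermediateField.adjoin L {x}) := by
  let _ := algO O (IntermediateField.adjoin L {x})
  have haev : ∀ P : Polynomial O, ((Polynomial.aeval (⟨x, IntermediateField.mem_adjoin_simple_self L x⟩ :
      IntermediateField.adjoin L {x}) P : IntermediateField.adjoin L {x}) : LaurentSeries L) =
      Polynomial.aeval x (P.map (algebraMap O L)) := by
    intro P
    rw [Polynomial.aeval_def]
    change ((IntermediateField.adjoin L {x}).val.toRingHom) _ = _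
    rw [Polynomial.hom_eval₂, Polynomial.aeval_def, Polynomial.eval₂_map]
    rfl
  constructor
  · intro P Q hPQ
    have h1 := congrArg (fun z : IntermediateField.adjoin L {x} => (z : LaurentSeries L)) hPQ
    simp only [haev] at h1
    have h2 := (transcendental_iff_injective.mp hx) h1
    exact Polynomial.map_injective _ (IsFractionRing.injective O L) h2
  · rintro ⟨y, hy⟩
    obtain ⟨r, s, hrs⟩ := (IntermediateField.mem_adjoin_simple_iff L y).mp hy
    have hnorm : ∀ r : Polynomial L, ∃ a : O, a ≠ 0 ∧ ∃ R : Polynomial O,
        R.map (algebraMap O L) = Polynomial.C (algebraMap O L a) * r := by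
      intro r
      obtain ⟨a, ha, har⟩ := IsLocalization.integerNormalization_spec (nonZeroDivisors O) r
      refine ⟨a, nonZeroDivisors.ne_zero ha, _, har.trans ?_⟩
      rw [← algebraMap_smul L a r, Polynomial.smul_eq_C_mul]
    obtain ⟨a, ha, ha'⟩ := hnorm r
    obtain ⟨b, hb, hb'⟩ := hnorm s
    obtain ⟨R, hR⟩ := ha'
    obtain ⟨S, hS⟩ := hb'
    by_cases hs : s = 0
    · refine ⟨0, 1, one_ne_zero, ?_⟩
      apply Subtype.ext
      change y * _ = _
      rw [hrs, hs, map_zero, div_zero, zero_mul, map_zero]
      rfl
    refine ⟨R * Polynomial.C b, S * Polynomial.C a, ?_, ?_⟩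
    · refine mul_ne_zero ?_ (Polynomial.C_ne_zero.mpr ha)
      rintro rfl
      rw [Polynomial.map_zero] at hS
      have := mul_ne_zero (Polynomial.C_ne_zero.mpr
        (fun h => hb ((IsFractionRing.to_map_eq_zero_iff (K := L)).mp h))) hs
      exact this hS.symm
    · apply Subtype.ext
      have hs0 : Polynomial.aeval x s ≠ 0 := by
        intro h0
        exact hs ((transcendental_iff_injective.mp hx) (by rw [h0, map_zero]))
      change y * ((Polynomial.aeval _ (S * Polynomial.C a) : IntermediateField.adjoin L {x}) :
        LaurentSeries L) = _
      rw [haev, haev, Polynomial.map_mul, Polynomial.map_mul, Polynomial.map_C, Polynomial.map_C,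
        hR, hS, hrs]
      simp only [map_mul, Polynomial.aeval_C]
      field_simp

end Param

end Fermat.Agent.LG
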