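import Mathlib
import Fermat.Agent.LG.GRModel
import Fermat.Agent.LG.Sub

/-!
Good reduction of `X₀(N)`, for subfields of the field of Laurent series.
-/

set_option autoImplicit false
set_option linter.unusedSectionVars false

noncomputable section

universe u

namespace Fermat.Agent.LG

open IsLocalRing Polynomial Fermat.Agent.Geo ModularCurve IntermediateField
open Fermat.Agent.ModFun (F0 gens jF XN vS)
open Fermat.Agent.ESCore (HauptFn haupt2 haupt3)

variable {O L : Type u} [CommRing O] [IsDomain O] [IsDiscreteValuationRing O] [Field L]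
  [Algebra O L] [IsFractionRing O L] {p : ℕ} [Fact p.Prime] {κ : ℤ} {N : ℕ} [NeZero N]

variable (L p κ) in
/-- The field `L(t)`. -/
abbrev Kt : IntermediateField L (LaurentSeries L) := IntermediateField.adjoin L {tS L p κ}

variable (L p κ) in
/-- `t` as an element of `L(t)` -/
def tK : Kt L p κ := ⟨tS L p κ, mem_adjoin_simple_self L _⟩

theorem Kt_le_F0 (H : HauptFn p κ) (ι : L →+* ℂ) (hp : p ∣ N) : Kt L p κ ≤ F0 L N := by
  rw [IntermediateField.adjoin_le_iff, Set.singleton_subset_iff]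
  exact tS_mem_F0 H ι hp

theorem transcendental_tS : Transcendental L (tS L p κ) := by
  rw [transcendental_iff]
  intro q hq
  rw [aeval_def] at hq
  have h3 : algebraMap L (LaurentSeries L) = HahnSeries.C := by
    ext1 a
    rw [ModularCurve.algebraMap_laurentSeries_eq_single]
    rfl
  rw [h3] at hq
  exact eval₂_tS_eq_zero hq

theorem xModel_F0 (hle : Kt L p κ ≤ F0 L N) :
    letI := algO O (Kt L p κ)
    letI := algO O (F0 L N)
    letI := algI hle
    XModel (O := O) N p κ (algebraMap (F0 L N) (LaurentSeries L)) (tK L p κ) := by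
  let _ := algO O (Kt L p κ)
  let _ := algO O (F0 L N)
  let _ := algI hle
  exact
    { map_C := fun a => coe_algO O (F0 L N) a
      mem := fun x => x.2
      surj := fun y hy => ⟨⟨y, hy⟩, rfl⟩
      map_t := rfl
      gen := (isParam_adjoin (O := O) (transcendental_tS (L := L) (p := p) (κ := κ))).surj }

theorem isUnit_of_dvd_natCast {q N : ℕ} (hp : q ∣ N) (hNu : IsUnit (N : O)) : IsUnit (q : O) := by
  obtain ⟨m, rfl⟩ := hp
  push_cast at hNu
  exact isUnit_of_mul_isUnit_left hNu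

/-- the elements of `S` are distinct modulo the maximal ideal -/
theorem sep2 (hp : 2 ∣ N) (hNu : IsUnit (N : O)) :
    ∀ c ∈ ({0, -64} : Set ℤ), ∀ c' ∈ ({0, -64} : Set ℤ), c ≠ c' →
      IsUnit ((c - c' : ℤ) : O) := by
  have h1 := isUnit_of_dvd_natCast hp hNu
  have h2 : IsUnit (((64 : ℤ) : O)) := by
    have : ((64 : ℤ) : O) = ((2 : ℕ) : O) ^ 6 := by norm_num
    rw [this]
    exact h1.pow 6
  intro c hc c' hc' hne
  simp only [Set.mem_insert_iff, Set.mem_singleton_iff] at hc hc'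
  rcases hc with rfl | rfl <;> rcases hc' with rfl | rfl
  · exact absurd rfl hne
  · simpa using h2
  · simpa using h2.neg
  · exact absurd rfl hne

theorem sep3 (hp : 3 ∣ N) (hNu : IsUnit (N : O)) :
    ∀ c ∈ ({0, -27} : Set ℤ), ∀ c' ∈ ({0, -27} : Set ℤ), c ≠ c' →
      IsUnit ((c - c' : ℤ) : O) := by
  have h1 := isUnit_of_dvd_natCast hp hNu
  have h2 : IsUnit (((27 : ℤ) : O)) := by
    have : ((27 : ℤ) : O) = ((3 : ℕ) : O) ^ 3 := by norm_num
    rw [this]
    exact h1.pow 3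
  intro c hc c' hc' hne
  simp only [Set.mem_insert_iff, Set.mem_singleton_iff] at hc hc'
  rcases hc with rfl | rfl <;> rcases hc' with rfl | rfl
  · exact absurd rfl hne
  · simpa using h2
  · simpa using h2.neg
  · exact absurd rfl hne

section Final

variable {π : O} [PerfectField (ResidueField O)]

/-- **Good reduction of `X₀(N)`**, in terms of a Hauptmodul of level `p ∣ N`. -/
theorem goodRed_F0 (ι : L →+* ℂ) {ζ : Lˣ}
    (hζ : ι ζ = Complex.exp (2 * Real.pi * Complex.I / N)) (hNu : IsUnit (N : O)) (hπ : Prime π)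
    (hp : p ∣ N) {H : HauptFn p κ} {S : Set ℤ} {k : ℕ} {P : ℤ[X]} (hH : HautData H S k P)
    (hS : ∀ c ∈ S, ∀ c' ∈ S, c ≠ c' → IsUnit ((c - c' : ℤ) : O)) (hle : Kt L p κ ≤ F0 L N) :
    letI := algO O (Kt L p κ)
    letI := algO O (F0 L N)
    letI := algI hle
    ∃ ht : IsParam O (tK L p κ), GoodRed ht hπ ((fun c : ℤ => (c : O)) '' S) (F0 L N) ∧
      FiniteDimensional (Kt L p κ) (F0 L N) ∧
      (∀ W : ValuationSubring (F0 L N),
        Over (gaussVal ht hπ) (algebraMap O (Kt L p κ) π) W →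
        ∀ x : F0 L N, x ∈ W ↔ (x : LaurentSeries L) ∈ gV O L) ∧
      ∃ (e : Fin (Module.finrank (Kt L p κ) (F0 L N)) → F0 L N)
        (he : ∀ i, (e i : LaurentSeries L) ∈ gV O L),
        ∀ P : Fin (Module.finrank (Kt L p κ) (F0 L N)) → (ResidueField O)[X],
        ∑ i, (P i).eval₂ HahnSeries.C (tS (ResidueField O) p κ) * gR (⟨_, he i⟩ : gV O L) = 0 →
        ∀ i, P i = 0 := by
  let _ := algO O (Kt L p κ)
  let _ := algO O (F0 L N)
  let _ := algI hle
  have _ : IsScalarTower O (Kt L p κ) (F0 L N) := tower_O O hle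
  have h := xModel_F0 (O := O) hle
  refine ⟨h.isParam, h.goodRed ι hp hζ hNu hπ hH hS, h.finiteDimensional ι hζ hNu hH, ?_, ?_⟩
  · intro W hW x
    rw [h.eq_gW ι hζ hNu hπ hH W hW]
    exact Iff.rfl
  · obtain ⟨e, he, hind⟩ := h.basis ι hζ hNu hH
    exact ⟨e, he, fun P hP i => hind P (by rw [toK_tS]; exact hP) i⟩

theorem goodRed_F0_two (ι : L →+* ℂ) {ζ : Lˣ}
    (hζ : ι ζ = Complex.exp (2 * Real.pi * Complex.I / N)) (hNu : IsUnit (N : O)) (hπ : Prime π)
    (hp : 2 ∣ N) (hle : Kt L 2 16 ≤ F0 L N) :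
    letI := algO O (Kt L 2 16)
    letI := algO O (F0 L N)
    letI := algI hle
    ∃ ht : IsParam O (tK L 2 16), GoodRed ht hπ ((fun c : ℤ => (c : O)) '' {0, -64}) (F0 L N) ∧
      FiniteDimensional (Kt L 2 16) (F0 L N) ∧
      (∀ W : ValuationSubring (F0 L N),
        Over (gaussVal ht hπ) (algebraMap O (Kt L 2 16) π) W →
        ∀ x : F0 L N, x ∈ W ↔ (x : LaurentSeries L) ∈ gV O L) ∧
      ∃ (e : Fin (Module.finrank (Kt L 2 16) (F0 L N)) → F0 L N)
        (he : ∀ i, (e i : LaurentSeries L) ∈ gV O L),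
        ∀ P : Fin (Module.finrank (Kt L 2 16) (F0 L N)) → (ResidueField O)[X],
        ∑ i, (P i).eval₂ HahnSeries.C (tS (ResidueField O) 2 16) * gR (⟨_, he i⟩ : gV O L) = 0 →
        ∀ i, P i = 0 :=
  goodRed_F0 ι hζ hNu hπ hp haut2 (sep2 hp hNu) hle

theorem goodRed_F0_three (ι : L →+* ℂ) {ζ : Lˣ}
    (hζ : ι ζ = Complex.exp (2 * Real.pi * Complex.I / N)) (hNu : IsUnit (N : O)) (hπ : Prime π)
    (hp : 3 ∣ N) (hle : Kt L 3 3 ≤ F0 L N) :
    letI := algO O (Kt L 3 3)
    letI := algO O (F0 L N)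
    letI := algI hle
    ∃ ht : IsParam O (tK L 3 3), GoodRed ht hπ ((fun c : ℤ => (c : O)) '' {0, -27}) (F0 L N) ∧
      FiniteDimensional (Kt L 3 3) (F0 L N) ∧
      (∀ W : ValuationSubring (F0 L N),
        Over (gaussVal ht hπ) (algebraMap O (Kt L 3 3) π) W →
        ∀ x : F0 L N, x ∈ W ↔ (x : LaurentSeries L) ∈ gV O L) ∧
      ∃ (e : Fin (Module.finrank (Kt L 3 3) (F0 L N)) → F0 L N)
        (he : ∀ i, (e i : LaurentSeries L) ∈ gV O L),
        ∀ P : Fin (Module.finrank (Kt L 3 3) (F0 L N)) → (ResidueField O)[X],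
        ∑ i, (P i).eval₂ HahnSeries.C (tS (ResidueField O) 3 3) * gR (⟨_, he i⟩ : gV O L) = 0 →
        ∀ i, P i = 0 :=
  goodRed_F0 ι hζ hNu hπ hp haut3 (sep3 hp hNu) hle

end Final

end Fermat.Agent.LG
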