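import Fermat.Agent.LG.InertField

set_option autoImplicit false

/-!
# Finite extensions of the inertia field: discrete valuation rings with algebraically closed
residue field
-/

namespace Fermat.Agent.LG

open scoped Pointwise NumberField
open Fermat.Agent.GaloisBasics Fermat.Agent.Inertia Fermat.Agent.EC

/-- The field of algebraic numbers. -/
local notation "Qb" => AlgebraicClosure ℚ
/-- The absolute Galois group. -/
local notation "GQ" => (AlgebraicClosure ℚ ≃ₐ[ℚ] AlgebraicClosure ℚ)

section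

variable {A : ValuationSubring Qb} {q : ℕ}

/-- A field between `KI A` and `Qb` of finite degree over `KI A`: valuations of its elements have
bounded denominators. -/
lemma exists_pow_zpow (hq : q.Prime) (hA : A.LiesOverPrime q) (L : IntermediateField (KI A) Qb)
    [FiniteDimensional (KI A) L] : ∃ N : ℕ, 0 < N ∧ ∀ x ∈ L, x ≠ 0 →
      ∃ s : ℤ, A.valuation x ^ N = A.valuation (q : Qb) ^ s := by
  classical
  set d := Module.finrank (KI A) L with hd
  have hq0 : A.valuation (q : Qb) ≠ 0 := by
    rw [Valuation.ne_zero_iff]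
    exact_mod_cast hq.ne_zero
  refine ⟨(d).factorial, Nat.factorial_pos _, fun x hx hx0 => ?_⟩
  -- linear dependence of the powers of `x`
  let f : Fin (d + 1) → L := fun i => (⟨x, hx⟩ : L) ^ (i : ℕ)
  have hdep : ¬ LinearIndependent (KI A) f := by
    intro hli
    have := hli.fintype_card_le_finrank
    rw [Fintype.card_fin, ← hd] at this
    omega
  rw [Fintype.not_linearIndependent_iff] at hdep
  obtain ⟨c, hc, i₀, hi₀⟩ := hdep
  have hsum : ∑ i : Fin (d + 1), ((c i : KI A) : Qb) * x ^ (i : ℕ) = 0 := by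
    have := congrArg (fun z : L => (z : Qb)) hc
    simp only [f, IntermediateField.coe_sum, IntermediateField.coe_zero] at this
    rw [← this]
    exact Finset.sum_congr rfl fun i _ => rfl
  have hne : ((c i₀ : KI A) : Qb) * x ^ (i₀ : ℕ) ≠ 0 := by
    refine mul_ne_zero ?_ (pow_ne_zero _ hx0)
    exact fun h => hi₀ (Subtype.ext h)
  obtain ⟨i, -, j, -, hij, hfi, hv⟩ := exists_eq_val_of_sum_eq_zero (v := A.valuation) hsum
    (Finset.mem_univ i₀) hne
  have hci : ((c i : KI A) : Qb) ≠ 0 := left_ne_zero_of_mul hfi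
  have hcj : ((c j : KI A) : Qb) ≠ 0 := by
    intro h0
    rw [h0, zero_mul, map_zero, Valuation.zero_iff] at hv
    exact hfi hv
  obtain ⟨m, hm⟩ := exists_zpow A hq hA (c i).2 hci
  obtain ⟨n, hn⟩ := exists_zpow A hq hA (c j).2 hcj
  have hvx : A.valuation x ≠ 0 := (Valuation.ne_zero_iff _).mpr hx0
  rw [map_mul, map_mul, map_pow, map_pow, hm, hn] at hv
  -- general statement for `i < j`
  have key : ∀ {i j : ℕ} {m n : ℤ}, i < j → j ≤ d →
      A.valuation (q : Qb) ^ m * A.valuation x ^ i = A.valuation (q : Qb) ^ n * A.valuation x ^ j →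
      ∃ s : ℤ, A.valuation x ^ d.factorial = A.valuation (q : Qb) ^ s := by
    intro i j m n hlt hle h
    have h1 : A.valuation x ^ (j - i) = A.valuation (q : Qb) ^ (m - n) := by
      have e : A.valuation x ^ j = A.valuation x ^ (j - i) * A.valuation x ^ i := by
        rw [← pow_add]; congr 1; omega
      rw [e, ← mul_assoc] at h
      have h2 := mul_right_cancel₀ (pow_ne_zero i hvx) h
      rw [zpow_sub₀ hq0, h2, mul_comm, mul_div_assoc, div_self (zpow_ne_zero n hq0), mul_one]
    obtain ⟨t, ht⟩ : (j - i) ∣ d.factorial := Nat.dvd_factorial (by omega) (by omega)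
    refine ⟨(m - n) * t, ?_⟩
    rw [ht, pow_mul, h1, zpow_mul, zpow_natCast]
  rcases lt_or_gt_of_ne (fun h : (i : ℕ) = j => hij (Fin.ext h)) with h | h
  · exact key h (by have := j.2; omega) hv
  · exact key h (by have := i.2; omega) hv.symm

/-- The value group of a finite extension of the inertia field is infinite cyclic. -/
lemma exists_uniformizer (hq : q.Prime) (hA : A.LiesOverPrime q) (L : IntermediateField (KI A) Qb)
    [FiniteDimensional (KI A) L] : ∃ π ∈ L, π ≠ 0 ∧ A.valuation π < 1 ∧ ∀ x ∈ L, x ≠ 0 →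
      ∃ s : ℤ, A.valuation x = A.valuation π ^ s := by
  obtain ⟨N, hN, hpow⟩ := exists_pow_zpow hq hA L
  have hvq : A.valuation (q : Qb) < 1 := hA
  have hqne : (q : Qb) ≠ 0 := by exact_mod_cast hq.ne_zero
  have hq0 : A.valuation (q : Qb) ≠ 0 := (Valuation.ne_zero_iff _).mpr hqne
  have hqL : (q : Qb) ∈ L := by exact_mod_cast natCast_mem L q
  -- the set of exponents
  let S : AddSubgroup ℤ :=
    { carrier := {s | ∃ x ∈ L, x ≠ 0 ∧ A.valuation x ^ N = A.valuation (q : Qb) ^ s}
      add_mem' := by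
        rintro a b ⟨x, hx, hx0, hxa⟩ ⟨y, hy, hy0, hyb⟩
        exact ⟨x * y, L.mul_mem hx hy, mul_ne_zero hx0 hy0, by
          rw [map_mul, mul_pow, hxa, hyb, zpow_add₀ hq0]⟩
      zero_mem' := ⟨1, L.one_mem, one_ne_zero, by simp⟩
      neg_mem' := by
        rintro a ⟨x, hx, hx0, hxa⟩
        exact ⟨x⁻¹, L.inv_mem hx, inv_ne_zero hx0, by
          rw [map_inv₀, inv_pow, hxa, zpow_neg]⟩ }
  obtain ⟨d, hd⟩ := Int.subgroup_cyclic S
  have hNS : (N : ℤ) ∈ S := ⟨q, hqL, hqne, by rw [zpow_natCast]⟩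
  have hd0 : d ≠ 0 := by
    rintro rfl
    rw [hd, AddSubgroup.mem_closure_singleton] at hNS
    obtain ⟨n, hn⟩ := hNS
    rw [smul_zero] at hn
    omega
  -- choose the positive generator
  obtain ⟨e, he0, heS, hmul⟩ : ∃ e : ℤ, 0 < e ∧ e ∈ S ∧ ∀ s ∈ S, e ∣ s := by
    have hdS : d ∈ S := by
      rw [hd]; exact AddSubgroup.subset_closure rfl
    refine ⟨|d|, abs_pos.mpr hd0, ?_, ?_⟩
    · rcases abs_choice d with h | h
      · rw [h]; exact hdS
      · rw [h]; exact S.neg_mem hdS
    · intro s hs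
      rw [hd, AddSubgroup.mem_closure_singleton] at hs
      obtain ⟨n, rfl⟩ := hs
      rw [abs_dvd, smul_eq_mul]
      exact dvd_mul_left _ _
  obtain ⟨π, hπL, hπ0, hπ⟩ := heS
  refine ⟨π, hπL, hπ0, ?_, ?_⟩
  · by_contra hle
    rw [not_lt] at hle
    have h1 : 1 ≤ A.valuation π ^ N := one_le_pow_of_one_le' hle N
    rw [hπ] at h1
    have h2 : A.valuation (q : Qb) ^ e < 1 := by
      obtain ⟨n, rfl⟩ := Int.eq_ofNat_of_zero_le he0.le
      rw [zpow_natCast]
      exact pow_lt_one₀ zero_le hvq (by omega)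
    exact absurd h1 (not_le.mpr h2)
  · intro x hx hx0
    obtain ⟨s, hs⟩ := hpow x hx hx0
    obtain ⟨t, rfl⟩ := hmul s ⟨x, hx, hx0, hs⟩
    refine ⟨t, ?_⟩
    have h1 : A.valuation x ^ N = (A.valuation π ^ t) ^ N := by
      rw [hs, zpow_mul, ← hπ, ← zpow_natCast, ← zpow_natCast, ← zpow_mul, ← zpow_mul, mul_comm]
    exact (pow_left_inj₀ zero_le zero_le hN.ne').mp h1

/-- The valuation ring of a finite extension of the inertia field is discrete. -/
theorem isDVR (hq : q.Prime) (hA : A.LiesOverPrime q) (L : IntermediateField (KI A) Qb)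
    [FiniteDimensional (KI A) L] : IsDiscreteValuationRing (A.comap (algebraMap L Qb)) := by
  obtain ⟨π, hπL, hπ0, hπ1, hπ⟩ := exists_uniformizer hq hA L
  set B := A.comap (algebraMap L Qb) with hB
  have hmem : ∀ z : L, z ∈ B ↔ A.valuation (z : Qb) ≤ 1 := by
    intro z
    rw [hB, ValuationSubring.mem_comap, A.valuation_le_one_iff]
    rfl
  have hvπ0 : A.valuation π ≠ 0 := (Valuation.ne_zero_iff _).mpr hπ0
  let ϖ : B := ⟨⟨π, hπL⟩, (hmem _).mpr hπ1.le⟩
  have hunit : ∀ z : B, IsUnit z ↔ A.valuation ((z : L) : Qb) = 1 := by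
    intro z
    constructor
    · rintro ⟨u, rfl⟩
      have h1 := (hmem _).mp (u : B).2
      have h2 := (hmem _).mp ((u⁻¹ : Bˣ) : B).2
      have h3 : (((u : B) : L) : Qb) * (((u⁻¹ : Bˣ) : B) : L) = 1 := by
        have := congrArg (fun w : B => ((w : L) : Qb)) u.mul_inv
        exact this
      refine le_antisymm h1 ?_
      have h4 := congrArg A.valuation h3
      rw [map_mul, map_one] at h4
      rw [← h4]
      exact mul_le_of_le_one_right' h2
    · intro h1
      have hz0 : (z : L) ≠ 0 := by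
        intro h0
        rw [h0] at h1
        simp at h1
      refine IsUnit.of_mul_eq_one ⟨(z : L)⁻¹, (hmem _).mpr ?_⟩ ?_
      · have : (((z : L)⁻¹ : L) : Qb) = ((z : L) : Qb)⁻¹ := rfl
        rw [this, map_inv₀, h1, inv_one]
      · apply Subtype.ext
        exact mul_inv_cancel₀ hz0
  apply IsDiscreteValuationRing.ofHasUnitMulPowIrreducibleFactorization
  refine ⟨ϖ, ?_, ?_⟩
  · constructor
    · rw [hunit]
      exact hπ1.ne
    · intro a b hab
      by_contra hcon
      push Not at hcon
      rw [hunit, hunit] at hcon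
      have hab' : π = ((a : L) : Qb) * ((b : L) : Qb) := congrArg (fun w : B => ((w : L) : Qb)) hab
      have ha0 : ((a : L) : Qb) ≠ 0 := by
        intro h0; rw [h0, zero_mul] at hab'; exact hπ0 hab'
      have hb0 : ((b : L) : Qb) ≠ 0 := by
        intro h0; rw [h0, mul_zero] at hab'; exact hπ0 hab'
      obtain ⟨s, hs⟩ := hπ _ (a : L).2 ha0
      obtain ⟨t, ht⟩ := hπ _ (b : L).2 hb0
      have ha1 := (hmem _).mp a.2
      have hb1 := (hmem _).mp b.2
      have key : ∀ {u : ℤ}, A.valuation π ^ u ≤ 1 → A.valuation π ^ u ≠ 1 → 1 ≤ u := by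
        intro u h1 h2
        by_contra hlt
        push Not at hlt
        obtain ⟨n, rfl⟩ : ∃ n : ℕ, u = -(n : ℤ) := ⟨u.natAbs, by omega⟩
        rw [zpow_neg, zpow_natCast] at h1 h2
        rcases Nat.eq_zero_or_pos n with rfl | hn
        · simp at h2
        · have h3 : A.valuation π ^ n < 1 := pow_lt_one₀ zero_le hπ1 hn.ne'
          have h4 : 1 < (A.valuation π ^ n)⁻¹ :=
            (one_lt_inv₀ (zero_lt_iff.mpr (pow_ne_zero n hvπ0))).mpr h3
          exact absurd h1 (not_le.mpr h4)
      have hs1 : 1 ≤ s := key (hs ▸ ha1) (hs ▸ hcon.1)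
      have ht1 : 1 ≤ t := key (ht ▸ hb1) (ht ▸ hcon.2)
      have h5 := congrArg A.valuation hab'
      rw [map_mul, hs, ht, ← zpow_add₀ hvπ0] at h5
      have h6 : A.valuation π ^ (s + t) < A.valuation π := by
        conv_rhs => rw [← zpow_one (A.valuation π)]
        rw [zpow_lt_zpow_iff_right_of_lt_one₀ (zero_lt_iff.mpr hvπ0) hπ1]
        omega
      rw [← h5] at h6
      exact lt_irrefl _ h6
  · intro z hz
    have hz0 : ((z : L) : Qb) ≠ 0 := by
      intro h0
      apply hz
      apply Subtype.ext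
      apply Subtype.ext
      exact h0
    obtain ⟨s, hs⟩ := hπ _ (z : L).2 hz0
    have hz1 := (hmem _).mp z.2
    have hs0 : 0 ≤ s := by
      by_contra hlt
      push Not at hlt
      have : 1 < A.valuation π ^ s := one_lt_zpow_of_neg₀ (zero_lt_iff.mpr hvπ0) hπ1 hlt
      rw [← hs] at this
      exact absurd hz1 (not_le.mpr this)
    obtain ⟨n, rfl⟩ := Int.eq_ofNat_of_zero_le hs0
    refine ⟨n, ?_⟩
    -- the quotient is a unit
    have hw : A.valuation (((z : L) : Qb) / π ^ n) = 1 := by
      rw [map_div₀, hs, map_pow, zpow_natCast, div_self (pow_ne_zero n hvπ0)]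
    let w : B := ⟨(z : L) / (⟨π, hπL⟩ : L) ^ n, (hmem _).mpr (by
      change A.valuation (((z : L) : Qb) / π ^ n) ≤ 1
      exact hw.le)⟩
    have hwu : IsUnit w := (hunit w).mpr hw
    obtain ⟨u, hu⟩ := hwu
    refine ⟨u, ?_⟩
    rw [hu]
    apply Subtype.ext
    apply Subtype.ext
    change π ^ n * (((z : L) : Qb) / π ^ n) = _
    rw [mul_div_cancel₀ _ (pow_ne_zero n hπ0)]

/-- (I3) Arbitrarily large discretely valued fields between the inertia field and `ℚ̄`, stable
under the decomposition group. -/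
theorem exists_dvr_field (A : ValuationSubring Qb) {q : ℕ} (hq : q.Prime) (hA : A.LiesOverPrime q)
    (S : Finset Qb) :
    ∃ L : IntermediateField ℚ Qb, KI A ≤ L ∧ (∀ x ∈ S, x ∈ L) ∧
      (∀ σ ∈ A.decompositionSubgroup ℚ, ∀ x ∈ L, σ x ∈ L) ∧
      (∃ M : IntermediateField (KI A) Qb, FiniteDimensional (KI A) M ∧
        M.restrictScalars ℚ = L) ∧
      IsDiscreteValuationRing (A.comap (algebraMap L Qb)) := by
  obtain ⟨T, hST, hT⟩ := exists_stable S
  let M : IntermediateField (KI A) Qb := IntermediateField.adjoin (KI A) (T : Set Qb)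
  have hM : FiniteDimensional (KI A) M :=
    IntermediateField.finiteDimensional_adjoin fun x _ => Algebra.IsIntegral.isIntegral x
  have hres : M.restrictScalars ℚ = IntermediateField.adjoin ℚ ((KI A : Set Qb) ∪ T) :=
    IntermediateField.restrictScalars_adjoin (F := ℚ) (KI A) (T : Set Qb)
  refine ⟨M.restrictScalars ℚ, ?_, ?_, ?_, ⟨M, hM, rfl⟩, isDVR hq hA M⟩
  · rw [hres]
    intro x hx
    exact IntermediateField.subset_adjoin ℚ _ (Or.inl hx)
  · intro x hx
    rw [hres]
    exact IntermediateField.subset_adjoin ℚ _ (Or.inr (hST hx))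
  · intro σ hσ x hx
    have h1 : (M.restrictScalars ℚ).map (σ : Qb →ₐ[ℚ] Qb) ≤ M.restrictScalars ℚ := by
      rw [hres, IntermediateField.adjoin_map, IntermediateField.adjoin_le_iff]
      rintro _ ⟨y, hy, rfl⟩
      apply IntermediateField.subset_adjoin ℚ
      rcases hy with hy | hy
      · exact Or.inl (decomposition_KI A hσ hy)
      · exact Or.inr (hT σ y hy)
    exact h1 ⟨x, hx, rfl⟩

/-- The residue field of `ℚ̄` at a place is algebraically closed; so is that of every subfield
containing the inertia field. -/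
theorem isAlgClosed_residue (A : ValuationSubring Qb) {q : ℕ} (hq : q.Prime)
    (hA : A.LiesOverPrime q) (L : IntermediateField ℚ Qb) (hL : KI A ≤ L) :
    IsAlgClosed (IsLocalRing.ResidueField (A.comap (algebraMap L Qb))) := by
  set B := A.comap (algebraMap L Qb) with hB
  have hmem : ∀ z : L, z ∈ B ↔ A.valuation (z : Qb) ≤ 1 := by
    intro z
    rw [hB, ValuationSubring.mem_comap, A.valuation_le_one_iff]
    rfl
  have hresB : ∀ z : B, IsLocalRing.residue B z = 0 ↔ A.valuation ((z : L) : Qb) < 1 := by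
    intro z
    rw [IsLocalRing.residue_eq_zero_iff, IsLocalRing.mem_maximalIdeal, mem_nonunits_iff]
    constructor
    · intro h
      by_contra hlt
      rw [not_lt] at hlt
      have h1 : A.valuation ((z : L) : Qb) = 1 := le_antisymm ((hmem _).mp z.2) hlt
      apply h
      have hz0 : (z : L) ≠ 0 := by
        intro h0
        rw [h0] at h1
        simp at h1
      refine IsUnit.of_mul_eq_one ⟨(z : L)⁻¹, (hmem _).mpr ?_⟩ ?_
      · have : (((z : L)⁻¹ : L) : Qb) = ((z : L) : Qb)⁻¹ := rfl
        rw [this, map_inv₀, h1, inv_one]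
      · apply Subtype.ext
        exact mul_inv_cancel₀ hz0
    · rintro h ⟨u, rfl⟩
      have h2 := (hmem _).mp ((u⁻¹ : Bˣ) : B).2
      have h3 : (((u : B) : L) : Qb) * (((u⁻¹ : Bˣ) : B) : L) = 1 :=
        congrArg (fun w : B => ((w : L) : Qb)) u.mul_inv
      have h4 := congrArg A.valuation h3
      rw [map_mul, map_one] at h4
      have h5 : A.valuation (((u : B) : L) : Qb) * A.valuation ((((u⁻¹ : Bˣ) : B) : L) : Qb) < 1 :=
        (mul_le_of_le_one_right' h2).trans_lt h
      rw [h4] at h5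
      exact lt_irrefl _ h5
  apply IsAlgClosed.of_exists_root
  intro p hp hirr
  -- lift to a monic polynomial
  obtain ⟨P, hPp, hPdeg, hPm⟩ := Polynomial.lifts_and_natDegree_eq_and_monic
    (f := IsLocalRing.residue B) (by
      rw [Polynomial.lifts_iff_coeff_lifts]
      intro n
      exact IsLocalRing.residue_surjective _) hp
  -- a root in `Qb`
  let ψ : B →+* Qb := (algebraMap L Qb).comp B.subtype
  let φ : B →+* A := ψ.codRestrict A.toSubring (fun z => z.2)
  have hψφ : ψ = A.subtype.comp φ := rfl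
  have hψ : Function.Injective ψ := fun a b h =>
    Subtype.val_injective ((algebraMap L Qb).injective h)
  have hdeg : (P.map ψ).degree ≠ 0 := by
    rw [Polynomial.degree_map_eq_of_injective hψ]
    have h1 : P.natDegree = p.natDegree := hPdeg
    have h2 : 0 < p.natDegree := hirr.natDegree_pos
    intro h0
    have := Polynomial.natDegree_eq_zero_iff_degree_le_zero.mpr h0.le
    omega
  obtain ⟨y, hy⟩ := IsAlgClosed.exists_root _ hdeg
  have hyA : y ∈ A := by
    have hint : IsIntegral A y := by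
      refine ⟨P.map φ, hPm.map _, ?_⟩
      rw [Polynomial.eval₂_map]
      have := hy.eq_zero
      rw [Polynomial.eval_map] at this
      exact this
    obtain ⟨w, hw⟩ := IsIntegrallyClosed.isIntegral_iff.mp hint
    rw [← hw]
    exact w.2
  obtain ⟨b, hbK, hbA, hb⟩ := exists_residue hq hA hyA
  let b' : B := ⟨⟨b, hL hbK⟩, (hmem _).mpr ((A.valuation_le_one_iff b).mpr hbA)⟩
  refine ⟨IsLocalRing.residue B b', ?_⟩
  have h1 : p.eval (IsLocalRing.residue B b') = IsLocalRing.residue B (P.eval b') := by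
    rw [← hPp, Polynomial.eval_map, Polynomial.eval₂_at_apply]
  rw [h1, hresB]
  have h2 : (((P.eval b' : B) : L) : Qb) = (P.map ψ).eval b := by
    change ψ (P.eval b') = _
    rw [Polynomial.eval_map, ← Polynomial.eval₂_at_apply]
    rfl
  have h3 : (P.map ψ).eval y = 0 := hy.eq_zero
  let yA : A := ⟨y, hyA⟩
  let bA : A := ⟨b, hbA⟩
  obtain ⟨c, hc⟩ := Polynomial.sub_dvd_eval_sub bA yA (P.map φ)
  have e : ∀ z : A, (((P.map φ).eval z : A) : Qb) = (P.map ψ).eval (z : Qb) := by
    intro z
    change A.subtype ((P.map φ).eval z) = _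
    rw [← Polynomial.eval₂_at_apply, hψφ, ← Polynomial.map_map, Polynomial.eval_map]
    rfl
  have h4 := congrArg (fun z : A => (z : Qb)) hc
  have h5 : (P.map ψ).eval b - (P.map ψ).eval y = (b - y) * (c : Qb) := by
    rw [← e bA, ← e yA]
    exact h4
  rw [h2, ← sub_zero ((P.map ψ).eval b), ← h3, h5, map_mul]
  have h6 : A.valuation (b - y) < 1 := by
    rw [← Valuation.map_neg, neg_sub]; exact hb
  exact (mul_le_of_le_one_right' (A.valuation_le_one c)).trans_lt h6

end

end Fermat.Agent.LG
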