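import Mathlib
import Fermat.Agent.ESCore.GalConj
import Fermat.Agent.ModFun.GenDegree
import Fermat.Agent.LG.GRPlace2

/-!
# Series of modular functions with character
-/

set_option autoImplicit false
set_option linter.unusedSectionVars false

noncomputable section

namespace Fermat.Agent.LG

open UpperHalfPlane hiding I J
open ModularForm
open scoped IntermediateField.algebraAdjoinAdjoin
open scoped Manifold MatrixGroups ModularForm
open Fermat.Agent.Eis16 Fermat.Agent.ModFun Fermat.Agent.ESCore Fermat.Agent.ESCore.Gal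
open CongruenceSubgroup (Gamma0 Gamma Gamma0_mem Gamma_mem Gamma_normal)

local notation "Δ" => ModularForm.discriminant

theorem qN_isBigO_disc : (fun τ : ℍ => qN 1 τ) =O[atImInfty] (Δ : ℍ → ℂ) := by
  refine Asymptotics.IsBigO.trans ?_ ModularForm.exp_isBigO_discriminant
  refine Asymptotics.isBigO_of_le _ fun τ => ?_
  rw [qN_apply, Nat.cast_one, Function.Periodic.norm_qParam]
  rw [Real.norm_of_nonneg (Real.exp_nonneg _)]
  simp

theorem disc_isBigO_qN : (Δ : ℍ → ℂ) =O[atImInfty] (fun τ : ℍ => qN 1 τ) := by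
  have h : (fun τ : ℍ => Δ τ / qN 1 τ) =O[atImInfty] (1 : ℍ → ℝ) := isBounded_discriminant_div
  have h1 : (fun τ : ℍ => Δ τ / qN 1 τ) =O[atImInfty] (fun _ => (1 : ℂ)) :=
    h.trans (Asymptotics.isBigO_of_le _ fun τ => by simp)
  have h2 := h1.mul (Asymptotics.isBigO_refl (fun τ : ℍ => qN 1 τ) atImInfty)
  refine (h2.congr_left fun τ => div_mul_cancel₀ _ (qN_ne_zero 1 τ)).congr_right fun τ => ?_
  rw [one_mul]

theorem qN_pow_self (N : ℕ) [NeZero N] (τ : ℍ) : qN N τ ^ N = qN 1 τ := by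
  have hN0 : (N : ℂ) ≠ 0 := by exact_mod_cast NeZero.ne N
  rw [qN_apply, qN_apply, Function.Periodic.qParam, Function.Periodic.qParam,
    ← Complex.exp_nat_mul]
  congr 1
  push_cast
  field_simp

/-- expansions of elements of `MB` -/
theorem exists_exp_of_MB {f : ℍ → ℂ} (hf : f ∈ MB) (M : ℕ) [NeZero M]
    (hper : ∀ τ : ℍ, f ((M : ℝ) +ᵥ τ) = f τ) :
    ∃ R : LaurentSeries ℂ, HasExp (RingHom.id ℂ) (qN M) f R := by
  obtain ⟨h1, k, hk⟩ := hf
  have hb : IsBoundedAtImInfty (fun τ => qN M τ ^ (M * k) * f τ) := by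
    have h3 : IsBoundedAtImInfty (Δ ^ k * f) := by simpa using hk 1
    have h4 : (fun τ => qN M τ ^ (M * k) * f τ) =O[atImInfty] (Δ ^ k * f : ℍ → ℂ) := by
      have h5 := (qN_isBigO_disc.pow k).mul (Asymptotics.isBigO_refl f atImInfty)
      refine h5.congr_left fun τ => ?_
      rw [pow_mul, qN_pow_self]
    exact h4.trans h3
  exact exists_hasExp (N := M) h1 hper (M * k) hb

theorem conj_T_mem_Gamma0 (N : ℕ) (γ : SL(2, ℤ)) :
    (γ * ModularGroup.T ^ (N : ℤ) * γ⁻¹ : SL(2, ℤ)) ∈ Gamma0 N := by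
  have h1 : (ModularGroup.T ^ (N : ℤ) : SL(2, ℤ)) ∈ Gamma N := by
    rw [Gamma_mem, ModularGroup.coe_T_zpow]
    simp
  have h2 := (Gamma_normal N).conj_mem _ h1 γ
  rw [Gamma_mem] at h2
  rw [Gamma0_mem]
  exact h2.2.2.1

theorem smul_vadd_eq (γ : SL(2, ℤ)) (N : ℕ) (τ : ℍ) :
    γ • ((N : ℝ) +ᵥ τ) = (γ * ModularGroup.T ^ (N : ℤ) * γ⁻¹ : SL(2, ℤ)) • (γ • τ) := by
  rw [← mul_smul, inv_mul_cancel_right, mul_smul, modular_T_zpow_smul]
  push_cast
  rfl

theorem mem_modFun_of_MB {N : ℕ} [NeZero N] {f : ℍ → ℂ} (hf : f ∈ MB) (hinv : IsInv N f) :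
    f ∈ modFun (RingHom.id ℂ) N := by
  refine ⟨hf.1, fun γ => exists_exp_of_MB (MB_comp hf γ) N fun τ => ?_⟩
  rw [smul_vadd_eq]
  exact hinv _ (conj_T_mem_Gamma0 N γ) (γ • τ)

theorem bounded_disc_pow_mul {N : ℕ} [NeZero N] {f : ℍ → ℂ} {F : LaurentSeries ℂ}
    (hF : HasExp (RingHom.id ℂ) (qN N) f F) {k : ℕ} (hk : ∀ m < -(k : ℤ), F.coeff m = 0) :
    IsBoundedAtImInfty (Δ ^ k * f) := by
  have h1 := (hasExp_single (φ := RingHom.id ℂ) (s := qN N) (k : ℤ) 1).mul hF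
  have h2 := h1.isBoundedAtImInfty (fun m hm => by
    rw [HahnSeries.coeff_single_mul, one_mul]
    exact hk _ (by omega))
  have h3 : (Δ ^ k * f : ℍ → ℂ) =O[atImInfty] ((fun τ => (RingHom.id ℂ) 1 * qN N τ ^ (k : ℤ)) * f :
      ℍ → ℂ) := by
    refine Asymptotics.IsBigO.mul ?_ (Asymptotics.isBigO_refl _ _)
    have h4 : (fun τ : ℍ => qN 1 τ) =O[atImInfty] (fun τ : ℍ => qN N τ) := by
      refine Asymptotics.isBigO_of_le _ fun τ => ?_
      rw [← qN_pow_self N, norm_pow]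
      exact pow_le_of_le_one (norm_nonneg _) (norm_qN_lt N τ).le (NeZero.ne N)
    have h5 := (disc_isBigO_qN.trans h4).pow k
    refine h5.congr_right fun τ => ?_
    rw [RingHom.id_apply, one_mul, zpow_natCast]
  exact h3.trans h2

theorem mem_MB_of_modFun {N : ℕ} [NeZero N] {f : ℍ → ℂ} (hf : f ∈ modFun (RingHom.id ℂ) N)
    (hinv : IsInv N f) : f ∈ MB := by
  classical
  choose E hE using fun x : XN N => hf.2 (Quotient.out x)⁻¹
  refine ⟨hf.1, Finset.univ.sup fun x => (-(E x).order).toNat, fun γ => ?_⟩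
  set k := Finset.univ.sup fun x => (-(E x).order).toNat
  have h1 : (fun τ : ℍ => f (γ • τ)) = fun τ : ℍ =>
      f ((Quotient.out ((γ⁻¹ : SL(2, ℤ)) : XN N))⁻¹ • τ) := by
    funext τ
    have h2 := conjHom_mk hinv γ⁻¹ τ
    rw [inv_inv] at h2
    rw [← h2]
    rfl
  rw [h1]
  refine bounded_disc_pow_mul (hE _) fun m hm => ?_
  apply HahnSeries.coeff_eq_zero_of_lt_order
  have h3 : (-(E ((γ⁻¹ : SL(2, ℤ)) : XN N)).order).toNat ≤ k :=
    Finset.le_sup (f := fun x => (-(E x).order).toNat) (Finset.mem_univ _)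
  have h4 := Int.self_le_toNat (-(E ((γ⁻¹ : SL(2, ℤ)) : XN N)).order)
  omega

/-! ### Series attached to a character -/

section

variable {L : Type*} [Field L] (ι : L →+* ℂ) (N : ℕ) [NeZero N]

/-- `y` is the expansion of a modular function with character `χ` on `Γ₀(N)`, holomorphic on the
upper half plane. -/
def XSer (χ : Gamma0 N →* ℂˣ) (y : LaurentSeries L) : Prop :=
  ∃ f ∈ MB, (∀ (γ : Gamma0 N) (τ : ℍ), f ((γ : SL(2, ℤ)) • τ) = (χ γ : ℂ) * f τ) ∧
    HasExp ι (qN 1) f y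

variable {ι N}

theorem XSer.mul {χ ψ : Gamma0 N →* ℂˣ} {y z : LaurentSeries L} (hy : XSer ι N χ y)
    (hz : XSer ι N ψ z) : XSer ι N (χ * ψ) (y * z) := by
  obtain ⟨f, hf, hf', hfy⟩ := hy
  obtain ⟨g, hg, hg', hgz⟩ := hz
  refine ⟨f * g, mul_mem hf hg, fun γ τ => ?_, hfy.mul hgz⟩
  rw [Pi.mul_apply, hf', hg', MonoidHom.mul_apply, Units.val_mul, Pi.mul_apply]
  ring

theorem xSer_one : XSer ι N (1 : Gamma0 N →* ℂˣ) (1 : LaurentSeries L) :=
  ⟨1, one_mem _, fun γ τ => by simp, hasExp_one⟩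

omit [NeZero N] in
theorem char_pow_zero (χ : Gamma0 N →* ℂˣ) : χ ^ 0 = 1 := by
  ext g
  simp

omit [NeZero N] in
theorem char_pow_succ (χ : Gamma0 N →* ℂˣ) (n : ℕ) : χ ^ (n + 1) = χ ^ n * χ := by
  ext g
  simp [pow_succ]

omit [NeZero N] in
theorem char_one_mul (χ : Gamma0 N →* ℂˣ) : 1 * χ = χ := by
  ext g
  simp

theorem XSer.pow {χ : Gamma0 N →* ℂˣ} {y : LaurentSeries L} (hy : XSer ι N χ y) (n : ℕ) :
    XSer ι N (χ ^ n) (y ^ n) := by
  induction n with
  | zero =>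
    rw [char_pow_zero, pow_zero]
    exact xSer_one
  | succ n ih =>
    rw [char_pow_succ, pow_succ]
    exact ih.mul hy

theorem xSer_one_iff {y : LaurentSeries L} : XSer ι N 1 y ↔ y ∈ holC ι N := by
  constructor
  · rintro ⟨f, hf, hf', hfy⟩
    have h1 : IsInv N f := fun γ hγ τ => by
      have := hf' ⟨γ, hγ⟩ τ
      simpa using this
    exact ⟨f, mem_modFun_of_MB hf h1, h1, hfy⟩
  · rintro ⟨f, hf, hf', hfy⟩
    exact ⟨f, mem_MB_of_modFun hf hf', fun γ τ => by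
      rw [hf' γ γ.2 τ, MonoidHom.one_apply, Units.val_one, one_mul], hfy⟩

theorem mem_F0_of_holC {y : LaurentSeries L} (hy : y ∈ holC ι N) : y ∈ F0 L N := by
  have h1 := mem_adjoin_of_mem_holC hy
  refine IntermediateField.adjoin.mono _ _ _ ?_ h1
  rintro x (rfl | rfl)
  · exact jqModC_mem_gens
  · exact ⟨N, inferInstance, dvd_rfl, rfl⟩

theorem XSer.mem_F0 {y : LaurentSeries L} (hy : XSer ι N 1 y) : y ∈ F0 L N :=
  mem_F0_of_holC (xSer_one_iff.mp hy)

theorem XSer.pow_mem_F0 {χ : Gamma0 N →* ℂˣ} {m : ℕ} (hχ : χ ^ m = 1) {y : LaurentSeries L}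
    (hy : XSer ι N χ y) : y ^ m ∈ F0 L N := by
  have h := hy.pow m
  rw [hχ] at h
  exact h.mem_F0

theorem XSer.div_mem {χ : Gamma0 N →* ℂˣ} {m : ℕ} (hm : 0 < m) (hχ : χ ^ m = 1)
    {y z : LaurentSeries L} (hy : XSer ι N χ y) (hy0 : y ≠ 0) (hz : XSer ι N χ z) :
    z / y ∈ F0 L N := by
  have h1 : XSer ι N 1 (z * y ^ (m - 1)) := by
    have h := hz.mul (hy.pow (m - 1))
    have h3 : χ * χ ^ (m - 1) = χ ^ m := by
      obtain ⟨k, rfl⟩ : ∃ k, m = k + 1 := ⟨m - 1, by omega⟩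
      rw [char_pow_succ, Nat.add_sub_cancel]
      ext g
      simp [mul_comm]
    rwa [h3, hχ] at h
  have h2 : z / y = z * y ^ (m - 1) / y ^ m := by
    rw [← mul_pow_sub_one hm.ne' y]
    have := pow_ne_zero (m - 1) hy0
    field_simp
  rw [h2]
  exact _root_.div_mem h1.mem_F0 (hy.pow_mem_F0 hχ)

/-- the coefficients may be changed -/
theorem XSer.coeffMap {L' : Type*} [Field L'] {ι' : L' →+* ℂ} (u : L →+* L') (hu : ι'.comp u = ι)
    {χ : Gamma0 N →* ℂˣ} {y : LaurentSeries L} (hy : XSer ι N χ y) :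
    XSer ι' N χ (ModularCurve.coeffMap u y) := by
  obtain ⟨f, hf, hf', hfy⟩ := hy
  exact ⟨f, hf, hf', hfy.coeffMap u hu⟩

theorem xSer_coeffMap_iff {L' : Type*} [Field L'] {ι' : L' →+* ℂ} (u : L →+* L')
    (hu : ι'.comp u = ι) {χ : Gamma0 N →* ℂˣ} {y : LaurentSeries L} :
    XSer ι' N χ (ModularCurve.coeffMap u y) ↔ XSer ι N χ y := by
  constructor
  · rintro ⟨f, hf, hf', hfy⟩
    exact ⟨f, hf, hf', (hasExp_coeffMap_iff u hu).mp hfy⟩
  · exact XSer.coeffMap u hu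

/-- the character is determined by the series -/
theorem XSer.char_unique {χ ψ : Gamma0 N →* ℂˣ} {y : LaurentSeries L} (hy0 : y ≠ 0)
    (h1 : XSer ι N χ y) (h2 : XSer ι N ψ y) : χ = ψ := by
  obtain ⟨f, hf, hf', hfy⟩ := h1
  obtain ⟨g, hg, hg', hgy⟩ := h2
  have h3 : f = g := hfy.fun_unique (qN_ne_zero 1) hgy
  subst h3
  have h4 : f ≠ 0 := by
    rintro rfl
    exact hy0 (hfy.eq_zero ι.injective (isParam_qN 1))
  obtain ⟨τ, hτ⟩ := Function.ne_iff.mp h4
  ext γ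
  have h5 := (hf' γ τ).symm.trans (hg' γ τ)
  exact mul_right_cancel₀ hτ h5

/-- a series in the function field has trivial character -/
theorem XSer.eq_one_of_mem {χ : Gamma0 N →* ℂˣ} {y : LaurentSeries L} (hy0 : y ≠ 0)
    (hy : XSer ι N χ y) (hyF : y ∈ F0 L N) : χ = 1 := by
  obtain ⟨a, b, hb0, hab⟩ : ∃ a b : A0 L N, b ≠ 0 ∧ (b : LaurentSeries L) * y = a := by
    obtain ⟨a, b, hb, hab⟩ := IsFractionRing.div_surjective (A := Algebra.adjoin L (gens L N))
      (⟨y, hyF⟩ : IntermediateField.adjoin L (gens L N))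
    have hb0 : b ≠ 0 := nonZeroDivisors.ne_zero hb
    have hb1 : algebraMap (A0 L N) (F0 L N) b ≠ 0 := by
      intro h
      exact hb0 ((IsFractionRing.to_map_eq_zero_iff (K := F0 L N)).mp h)
    rw [div_eq_iff hb1] at hab
    refine ⟨a, b, hb0, ?_⟩
    have h1 := congrArg (fun z : F0 L N => (z : LaurentSeries L)) hab
    rw [mul_comm]
    exact h1.symm
  have hle : A0 L N ≤ holC ι N := Algebra.adjoin_le gens_subset_holC
  have ha : XSer ι N 1 (a : LaurentSeries L) := xSer_one_iff.mpr (hle a.2)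
  have hb : XSer ι N 1 (b : LaurentSeries L) := xSer_one_iff.mpr (hle b.2)
  have h1 := hb.mul hy
  rw [char_one_mul, hab] at h1
  refine h1.char_unique ?_ ha
  rw [← hab]
  exact mul_ne_zero (fun h => hb0 (Subtype.ext h)) hy0

theorem coeffMap_id_apply (y : LaurentSeries L) :
    ModularCurve.coeffMap (RingHom.id L) y = y := by
  ext n
  rfl

theorem coeffMap_coeffMap {L₁ L₂ L₃ : Type*} [CommRing L₁] [CommRing L₂] [CommRing L₃]
    (g : L₂ →+* L₃) (f : L₁ →+* L₂) (y : LaurentSeries L₁) :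
    ModularCurve.coeffMap g (ModularCurve.coeffMap f y) = ModularCurve.coeffMap (g.comp f) y := by
  ext n
  rfl

/-- coefficient automorphisms preserve the function field -/
theorem coeffMap_mem_F0_iff (d : L ≃+* L) {y : LaurentSeries L} :
    ModularCurve.coeffMap (d : L →+* L) y ∈ F0 L N ↔ y ∈ F0 L N := by
  constructor
  · intro h
    have h1 := coeffMap_mem_adjoin (d.symm : L →+* L) h
    rw [coeffMap_coeffMap] at h1
    have h2 : ((d.symm : L →+* L).comp (d : L →+* L)) = RingHom.id L := by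
      ext a
      simp
    rwa [h2, coeffMap_id_apply] at h1
  · exact coeffMap_mem_adjoin (d : L →+* L)

theorem coeffMap_image_F0 (d : L ≃+* L) :
    (ModularCurve.coeffMap (d : L →+* L)) '' (F0 L N : Set (LaurentSeries L)) = F0 L N := by
  ext y
  constructor
  · rintro ⟨x, hx, rfl⟩
    exact coeffMap_mem_adjoin (d : L →+* L) hx
  · intro hy
    refine ⟨ModularCurve.coeffMap (d.symm : L →+* L) y, coeffMap_mem_adjoin _ hy, ?_⟩
    rw [coeffMap_coeffMap]
    have h2 : ((d : L →+* L).comp (d.symm : L →+* L)) = RingHom.id L := by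
      ext a
      simp
    rw [h2, coeffMap_id_apply]

/-- the expansion of `Δ` -/
def dSer (L : Type*) [Field L] : LaurentSeries L := ModularCurve.coeffMap (Int.castRingHom L) dSeries

/-- the expansion of `1/Δ` -/
def dInvSer (L : Type*) [Field L] : LaurentSeries L :=
  ModularCurve.coeffMap (Int.castRingHom L) dInvSeries

theorem dSer_mul_dInvSer : dSer L * dInvSer L = 1 := by
  rw [dSer, dInvSer, ← map_mul, dSeries_mul_dInvSeries, map_one]

theorem coeffMap_dSer {L' : Type*} [Field L'] (u : L →+* L') :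
    ModularCurve.coeffMap u (dSer L) = dSer L' := by
  rw [dSer, coeffMap_coeffMap, dSer,
    RingHom.ext_int (u.comp (Int.castRingHom L)) (Int.castRingHom L')]

theorem coeffMap_dInvSer {L' : Type*} [Field L'] (u : L →+* L') :
    ModularCurve.coeffMap u (dInvSer L) = dInvSer L' := by
  rw [dInvSer, coeffMap_coeffMap, dInvSer,
    RingHom.ext_int (u.comp (Int.castRingHom L)) (Int.castRingHom L')]

/-- forms with character divided by a power of `Δ` -/
theorem xSer_of_mform {χ : Gamma0 N →* ℂˣ} {n : ℕ} {f : ℍ → ℂ} (hf : f ∈ mform χ (12 * n))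
    {P : PowerSeries L} (hP : HasQ 1 f (P.map ι)) :
    XSer ι N χ (HahnSeries.ofPowerSeries ℤ L P * dInvSer L ^ n) := by
  refine ⟨(divD hf.1 n : ℍ → ℂ), divD_mem_MB hf, fun γ τ => ?_, ?_⟩
  · rw [divD_apply, divD_apply, div_smul_eq, hf.2.1 γ, Pi.smul_apply, smul_eq_mul, mul_div_assoc]
  · have h1 : HasExp ι (qN 1) f (HahnSeries.ofPowerSeries ℤ L P) := by
      refine hasExp_ofPowerSeries fun τ _ => ?_
      have h2 := hP τ
      simp only [PowerSeries.coeff_map] at h2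
      simp only [qN_apply, Nat.cast_one]
      exact h2
    have h2 : HasExp ι (qN 1) (Δ : ℍ → ℂ)⁻¹ (dInvSer L) :=
      hasExp_discriminant_inv.coeffMap (Int.castRingHom L) (RingHom.ext_int _ _)
    refine (h1.mul (h2.pow n)).congr fun τ => ?_
    rw [divD_apply, Pi.mul_apply, Pi.pow_apply, Pi.inv_apply, inv_pow, div_eq_mul_inv]

theorem hasExp_disc_L : HasExp ι (qN 1) (Δ : ℍ → ℂ) (dSer L) :=
  hasExp_discriminant.coeffMap (Int.castRingHom L) (RingHom.ext_int _ _)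

theorem smul_T_of_hasExp {f : ℍ → ℂ} {y : LaurentSeries L} (h : HasExp ι (qN 1) f y) (τ : ℍ) :
    f (ModularGroup.T • τ) = f τ := by
  have h1 := h (ModularGroup.T • τ) (qN_ne_zero 1 _)
  have h2 : qN 1 (ModularGroup.T • τ) = qN 1 τ := by
    have h3 := qN_vadd 1 τ
    rwa [Nat.cast_one, ← modular_T_smul] at h3
  rw [h2] at h1
  exact h1.unique (h τ (qN_ne_zero 1 _))

/-- every series with character comes from a form with character -/
theorem XSer.exists_mform {χ : Gamma0 N →* ℂˣ} {y : LaurentSeries L} (hy : XSer ι N χ y) :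
    ∃ (n : ℕ) (f : ℍ → ℂ), f ∈ mform χ (12 * n) ∧ ∃ P : PowerSeries L, HasQ 1 f (P.map ι) ∧
      y * dSer L ^ n = HahnSeries.ofPowerSeries ℤ L P := by
  obtain ⟨f, hf, hf', hfy⟩ := hy
  obtain ⟨h1, k, hk⟩ := hf
  have hmd : MDiff (f * (Δ : ℍ → ℂ) ^ k) := h1.mul (mdiff_discriminant.pow k)
  have hsl : ∀ γ : SL(2, ℤ), (f * (Δ : ℍ → ℂ) ^ k) ∣[(12 * k : ℤ)] γ =
      (Δ ^ k * fun τ : ℍ => f (γ • τ)) := by
    intro γ
    funext τ
    have h2 : ((f * (Δ : ℍ → ℂ) ^ k) ∣[(12 * k : ℤ)] γ) τ = (f * (Δ : ℍ → ℂ) ^ k) (γ • τ) *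
      denom γ τ ^ (-(12 * (k : ℤ))) := ModularForm.SL_slash_apply _ _ _
    have hd : denom γ (τ : ℂ) ≠ 0 := denom_ne_zero _ τ
    rw [h2, Pi.mul_apply, Pi.pow_apply, disc_pow_smul, _root_.zpow_neg, Pi.mul_apply, Pi.pow_apply]
    have hd' : denom γ (τ : ℂ) ^ (12 * (k : ℤ)) ≠ 0 := zpow_ne_zero _ hd
    field_simp
  have hmf : f * (Δ : ℍ → ℂ) ^ k ∈ mform χ (12 * k) := by
    refine ⟨hmd, fun γ => ?_, fun γ => ?_⟩
    · rw [hsl]
      funext τ
      rw [Pi.mul_apply, Pi.smul_apply, smul_eq_mul, Pi.mul_apply, hf' γ τ]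
      ring
    · rw [hsl]
      exact hk γ
  have hexp := hfy.mul ((hasExp_disc_L (ι := ι)).pow k)
  have hT : ∀ τ : ℍ, (f * (Δ : ℍ → ℂ) ^ k) (ModularGroup.T • τ) = (f * (Δ : ℍ → ℂ) ^ k) τ :=
    fun τ => smul_T_of_hasExp hexp τ
  have hQ : HasQ 1 (f * (Δ : ℍ → ℂ) ^ k) (qExpansion 1 (f * (Δ : ℍ → ℂ) ^ k)) :=
    HasQ.of_periodic one_pos (periodic_of_T hT) hmd (by simpa using hmf.2.2 1)
  have h3 := hasExp_of_hasQ hQ
  have h4 := hexp.coeffMap ι (RingHom.id_comp ι)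
  have h5 := h4.unique (RingHom.id ℂ).injective (isParam_qN 1) h3
  refine ⟨k, _, hmf, PowerSeries.mk fun n => (y * dSer L ^ k).coeff n, ?_, ?_⟩
  · have h6 : (PowerSeries.mk fun n => (y * dSer L ^ k).coeff n).map ι =
        qExpansion 1 (f * (Δ : ℍ → ℂ) ^ k) := by
      ext n
      rw [PowerSeries.coeff_map, PowerSeries.coeff_mk]
      have h7 := congrArg (fun F : LaurentSeries ℂ => F.coeff (n : ℤ)) h5
      rw [HahnSeries.ofPowerSeries_apply_coeff] at h7
      exact h7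
    rw [h6]
    exact hQ
  · ext n
    rcases lt_or_ge n 0 with hn | hn
    · rw [ModularCurve.ofPowerSeries_coeff_of_neg _ hn]
      have h7 := congrArg (fun F : LaurentSeries ℂ => F.coeff n) h5
      simp only [ModularCurve.coeffMap_coeff] at h7
      rw [ModularCurve.ofPowerSeries_coeff_of_neg _ hn] at h7
      exact ι.injective (by rw [h7, map_zero])
    · lift n to ℕ using hn
      rw [HahnSeries.ofPowerSeries_apply_coeff, PowerSeries.coeff_mk]

end

end Fermat.Agent.LG
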