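import Mathlib
import Fermat.Agent.Geo.SplitVal
import Fermat.Agent.FunField.LocalCount

/-!
# Constant field extensions are unramified
-/

set_option autoImplicit false

open Polynomial IntermediateField
open Fermat.Agent.Geo

namespace Fermat.Agent.LG

section Unr

variable {L F E : Type*} [Field L] [Field F] [Field E] [Algebra L F] [Algebra F E] [Algebra L E]
  [IsScalarTower L F E]

theorem intOver_of_isIntegral {V : Subring F} (hL : ∀ a : L, algebraMap L F a ∈ V) {x : E}
    (hx : IsIntegral L x) : IntOver V x := by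
  obtain ⟨p, hp, hpx⟩ := hx
  let f : L →+* V := (algebraMap L F).codRestrict V hL
  refine ⟨p.map f, hp.map f, ?_⟩
  rw [eval₂_map]
  have h1 : ((algebraMap F E).comp V.subtype).comp f = algebraMap L E := by
    ext a
    exact (IsScalarTower.algebraMap_apply L F E a).symm
  rw [h1]
  exact hpx

theorem unr_of_adjoin (V : ValuationSubring F) (hL : ∀ a : L, algebraMap L F a ∈ V)
    [FiniteDimensional F E] [Algebra.IsSeparable F E] {θ : E} (hθ : IsIntegral L θ)
    (hsep : (minpoly L θ).Separable) (pb : PowerBasis F E) (hgen : pb.gen = θ) :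
    Unr V.toSubring E := by
  classical
  intro x hx
  let _ : Algebra V E := ((algebraMap F E).comp V.toSubring.subtype).toAlgebra
  have : IsScalarTower V F E := IsScalarTower.of_algebraMap_eq fun a => rfl
  let _ : Algebra L V := ((algebraMap L F).codRestrict V.toSubring hL).toAlgebra
  have : IsScalarTower L V E := IsScalarTower.of_algebraMap_eq fun a =>
    IsScalarTower.algebraMap_apply L F E a
  have : Module.IsTorsionFree V E := by
    have h0 : Function.Injective (algebraMap V E) :=
      (algebraMap F E).injective.comp Subtype.val_injective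
    exact Module.isTorsionFree_iff_algebraMap_injective.mpr h0
  change IsIntegral V x
  have hθV : IsIntegral V θ := hθ.tower_top
  have hθF : IsIntegral F θ := hθ.tower_top
  -- the derivative
  have hd : IsIntegral V (aeval θ (derivative (minpoly F θ)))⁻¹ := by
    obtain ⟨R, hR⟩ : minpoly V θ ∣ (minpoly L θ).map (algebraMap L V) := by
      refine minpoly.isIntegrallyClosed_dvd hθV ?_
      rw [aeval_map_algebraMap, minpoly.aeval]
    have h1 := congrArg (fun p => aeval θ (derivative p)) hR
    simp only [derivative_mul, map_add, map_mul, minpoly.aeval, zero_mul, add_zero,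
      derivative_map, aeval_map_algebraMap] at h1
    have h2 : aeval θ (derivative (minpoly F θ)) = aeval θ (derivative (minpoly V θ)) := by
      rw [minpoly.isIntegrallyClosed_eq_field_fractions' F hθV, derivative_map,
        aeval_map_algebraMap]
    have h3 : aeval θ (derivative (minpoly L θ)) ≠ 0 :=
      hsep.aeval_derivative_ne_zero (minpoly.aeval L θ)
    have h4 : (aeval θ (derivative (minpoly F θ)))⁻¹ =
        aeval θ R * (aeval θ (derivative (minpoly L θ)))⁻¹ := by
      rw [h2, h1]
      rw [h1] at h3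
      have h5 := left_ne_zero_of_mul h3
      have h6 := right_ne_zero_of_mul h3
      field_simp
    rw [h4]
    refine IsIntegral.mul ?_ ?_
    · have : aeval θ R ∈ Algebra.adjoin V {θ} := aeval_mem_adjoin_singleton V θ
      exact (adjoin_le_integralClosure hθV) this
    · have h7 : IsIntegral L (aeval θ (derivative (minpoly L θ))) := by
        have : aeval θ (derivative (minpoly L θ)) ∈ Algebra.adjoin L {θ} :=
          aeval_mem_adjoin_singleton L θ
        exact (adjoin_le_integralClosure hθ) this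
      exact h7.inv.tower_top
  have hB : (Algebra.traceForm F E).Nondegenerate := traceForm_nondegenerate F E
  have h1 := ((Algebra.traceForm F E).dualBasis hB pb.basis).sum_repr x
  rw [← h1]
  refine IsIntegral.sum _ fun i _ => ?_
  rw [LinearMap.BilinForm.dualBasis_repr_apply, ← Module.Basis.traceDual, Module.Basis.traceDual_powerBasis_eq, hgen,
    div_eq_mul_inv]
  rw [Algebra.smul_def]
  refine IsIntegral.mul ?_ (IsIntegral.mul ?_ hd)
  · have h2 : Algebra.traceForm F E x (pb.basis i) ∈ V := by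
      rw [Algebra.traceForm_apply]
      refine hx _ ?_
      rw [pb.basis_eq_pow, hgen]
      exact IntOver.pow (intOver_of_isIntegral hL hθ) _
    exact intOver_algebraMap h2
  · rw [← minpolyDiv_eq_of_isIntegrallyClosed F hθV]
    exact (adjoin_le_integralClosure hθV) (coeff_minpolyDiv_mem_adjoin θ i)

end Unr

section Descent

universe u

variable {L Ω F F' : Type u} [Field L] [Field Ω] [Field F] [Field F'] [CharZero L] [Algebra L Ω]
  [Algebra L F] [Algebra Ω F'] [Algebra.IsAlgebraic L Ω]

open AlgebraicCurve Fermat.Agent.FunField in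
/-- a place induces a discrete valuation ring -/
theorem isDVR_comap_place (φ : F →+* F') (v : AlgebraicCurve.Place Ω F') {u : F}
    (hu : 0 < v.ord (φ u)) (hmin : ∀ x : F, 0 < v.ord (φ x) → v.ord (φ u) ≤ v.ord (φ x)) :
    IsDiscreteValuationRing (v.toValuationSubring.comap φ) ∧
      ∀ h : u ∈ v.toValuationSubring.comap φ,
        Irreducible (⟨u, h⟩ : v.toValuationSubring.comap φ) := by
  set V := v.toValuationSubring.comap φ with hV
  have hmem : ∀ x : F, x ∈ V ↔ 0 ≤ v.ord (φ x) := fun x => mem_iff_ord_nonneg v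
  have hu0 : u ≠ 0 := by
    rintro rfl
    rw [map_zero, v.ord_zero] at hu
    exact lt_irrefl _ hu
  have huV : u ∈ V := (hmem u).mpr hu.le
  have hmul : ∀ x y : F, x ≠ 0 → y ≠ 0 → v.ord (φ (x * y)) = v.ord (φ x) + v.ord (φ y) := by
    intro x y hx hy
    rw [map_mul, v.ord_mul ((map_ne_zero φ).mpr hx) ((map_ne_zero φ).mpr hy)]
  have hpow : ∀ n : ℤ, v.ord (φ (u ^ n)) = n * v.ord (φ u) := by
    intro n
    rw [map_zpow₀, v.ord_zpow]
  have hunit : ∀ x : V, x ≠ 0 → v.ord (φ x) = 0 → IsUnit x := by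
    intro x hx h0
    have hx0 : (x : F) ≠ 0 := fun h => hx (Subtype.ext h)
    have h1 : (x : F)⁻¹ ∈ V := by
      rw [hmem, map_inv₀, v.ord_inv, h0, neg_zero]
    exact ⟨⟨x, ⟨_, h1⟩, Subtype.ext (mul_inv_cancel₀ hx0), Subtype.ext (inv_mul_cancel₀ hx0)⟩, rfl⟩
  have hunit' : ∀ x : V, IsUnit x → v.ord (φ x) = 0 := by
    rintro _ ⟨x, rfl⟩
    have hx0 : ((x : V) : F) ≠ 0 := fun h => x.ne_zero (Subtype.ext h)
    have h1 := (hmem _).mp (x : V).2
    have h2 := (hmem _).mp ((x⁻¹ : Vˣ) : V).2
    have h3 : (((x⁻¹ : Vˣ) : V) : F) = ((x : V) : F)⁻¹ := by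
      have h3 := congrArg Subtype.val (x.mul_inv)
      have h4 : ((x : V) : F) * (((x⁻¹ : Vˣ) : V) : F) = 1 := h3
      exact eq_inv_of_mul_eq_one_right h4
    rw [h3, map_inv₀, v.ord_inv] at h2
    omega
  have hfac : ∀ x : V, x ≠ 0 → ∃ (n : ℕ) (w : Vˣ), (⟨u, huV⟩ : V) ^ n * w = x := by
    intro x hx
    have hx0 : (x : F) ≠ 0 := fun h => hx (Subtype.ext h)
    have h1 := (hmem _).mp x.2
    set q := v.ord (φ x) / v.ord (φ u) with hq
    have hq0 : 0 ≤ q := Int.ediv_nonneg h1 hu.le
    have h2 : v.ord (φ ((x : F) * u ^ (-q))) = v.ord (φ x) % v.ord (φ u) := by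
      rw [hmul _ _ hx0 (zpow_ne_zero _ hu0), hpow, Int.emod_def, hq]
      ring
    have h3 : v.ord (φ ((x : F) * u ^ (-q))) = 0 := by
      have h4 := Int.emod_nonneg (v.ord (φ x)) hu.ne'
      have h5 := Int.emod_lt_of_pos (v.ord (φ x)) hu
      rcases h4.eq_or_lt with h6 | h6
      · rw [h2, ← h6]
      · rw [← h2] at h6
        have := hmin _ h6
        rw [h2] at this
        omega
    have h4 : (x : F) * u ^ (-q) ∈ V := (hmem _).mpr h3.ge
    obtain ⟨w, hw⟩ := hunit ⟨_, h4⟩ (fun h => by
      have := congrArg Subtype.val h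
      exact mul_ne_zero hx0 (zpow_ne_zero _ hu0) this) h3
    refine ⟨q.toNat, w, Subtype.ext ?_⟩
    rw [hw]
    change u ^ q.toNat * ((x : F) * u ^ (-q)) = x
    rw [← zpow_natCast, Int.toNat_of_nonneg hq0, zpow_neg]
    have := zpow_ne_zero q hu0
    field_simp
  have hirr : Irreducible (⟨u, huV⟩ : V) := by
    refine ⟨fun h => hu.ne' (hunit' _ h), fun x y hxy => ?_⟩
    have hxy' : u = (x : F) * y := congrArg Subtype.val hxy
    have hx0 : (x : F) ≠ 0 := by
      intro h
      rw [h, zero_mul] at hxy'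
      exact hu0 hxy'
    have hy0 : (y : F) ≠ 0 := by
      intro h
      rw [h, mul_zero] at hxy'
      exact hu0 hxy'
    have h1 := (hmem _).mp x.2
    have h2 := (hmem _).mp y.2
    have h3 := hmul _ _ hx0 hy0
    rw [← hxy'] at h3
    rcases h1.eq_or_lt with h4 | h4
    · exact Or.inl (hunit x (fun h => hx0 (congrArg Subtype.val h)) h4.symm)
    · have h5 := hmin _ h4
      exact Or.inr (hunit y (fun h => hy0 (congrArg Subtype.val h)) (by omega))
  exact ⟨IsDiscreteValuationRing.ofHasUnitMulPowIrreducibleFactorization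
    ⟨_, hirr, fun {x} hx => hfac x hx⟩, fun _ => hirr⟩

open AlgebraicCurve Fermat.Agent.FunField in
/-- Constant field extensions do not change uniformisers. -/
theorem exists_unif_descent (φ : F →+* F')
    (hφ : ∀ a : L, φ (algebraMap L F a) = algebraMap Ω F' (algebraMap L Ω a))
    (hgen : ∀ x : F', ∃ θ : Ω, x ∈ Subfield.closure (Set.range φ ∪ {algebraMap Ω F' θ}))
    (v : AlgebraicCurve.Place Ω F') : ∃ u : F, v.ord (φ u) = 1 := by
  classical
  let _ : Algebra F F' := φ.toAlgebra
  let _ : Algebra L F' := (φ.comp (algebraMap L F)).toAlgebra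
  have : IsScalarTower L F F' := IsScalarTower.of_algebraMap_eq fun a => rfl
  have : IsScalarTower L Ω F' := IsScalarTower.of_algebraMap_eq fun a => hφ a
  have hF : CharZero F := charZero_of_injective_algebraMap (algebraMap L F).injective
  obtain ⟨πv, hπv⟩ := IsDiscreteValuationRing.exists_irreducible v.toValuationSubring
  have hπ1 : v.ord (πv : F') = 1 := v.ord_coe_irreducible hπv
  obtain ⟨θ, hθ⟩ := hgen πv
  set θ' := algebraMap Ω F' θ with hθ'
  have hθL : IsIntegral L θ' := (Algebra.IsIntegral.isIntegral (R := L) θ).map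
    (IsScalarTower.toAlgHom L Ω F')
  have hθF : IsIntegral F θ' := hθL.tower_top
  have hπE : (πv : F') ∈ F⟮θ'⟯ := by
    have h1 : Subfield.closure (Set.range φ ∪ {θ'}) ≤ (F⟮θ'⟯).toSubfield := by
      rw [Subfield.closure_le]
      rintro x (⟨a, rfl⟩ | rfl)
      · exact (F⟮θ'⟯).algebraMap_mem a
      · exact mem_adjoin_simple_self F _
    exact h1 hθ
  have hfin : FiniteDimensional F F⟮θ'⟯ := adjoin.finiteDimensional hθF
  -- an element of positive order
  have hex : ∃ n : ℕ, 0 < n ∧ ∃ x : F, v.ord (φ x) = n := by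
    by_contra hne
    have h0 : ∀ x : F, v.ord (φ x) = 0 := by
      intro x
      by_contra hx
      apply hne
      rcases lt_or_gt_of_ne hx with h | h
      · exact ⟨(-v.ord (φ x)).toNat, by omega, x⁻¹, by
          rw [map_inv₀, v.ord_inv]
          omega⟩
      · exact ⟨(v.ord (φ x)).toNat, by omega, x, by omega⟩
    have h1 : (πv : F')⁻¹ ∈ v.toValuationSubring := by
      have h2 : IsIntegral F (⟨(πv : F'), hπE⟩ : F⟮θ'⟯) := Algebra.IsIntegral.isIntegral _
      have h3 : IsIntegral F (πv : F') := h2.map (F⟮θ'⟯).val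
      exact Fermat.Agent.Geo.mem_valuationSubring_of_isIntegralElem _ φ
        (fun a => (mem_iff_ord_nonneg v).mpr (h0 a).ge) h3.inv
    rw [mem_iff_ord_nonneg, v.ord_inv, hπ1] at h1
    omega
  obtain ⟨hn0, u, hu⟩ := Nat.find_spec hex
  have humin : ∀ x : F, 0 < v.ord (φ x) → v.ord (φ u) ≤ v.ord (φ x) := by
    intro x hx
    rw [hu]
    have h1 := Nat.find_min' hex (m := (v.ord (φ x)).toNat) ⟨by omega, x, by omega⟩
    omega
  have hupos : 0 < v.ord (φ u) := by omega
  obtain ⟨hdvr, hirr⟩ := isDVR_comap_place φ v hupos humin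
  have huV : u ∈ v.toValuationSubring.comap φ := (mem_iff_ord_nonneg v).mpr hupos.le
  have hLV : ∀ a : L, algebraMap L F a ∈ v.toValuationSubring.comap φ := by
    intro a
    rw [ValuationSubring.mem_comap, hφ]
    exact v.algebraMap_mem' _
  -- the extension is unramified
  have hunr : Unr (v.toValuationSubring.comap φ).toSubring F⟮θ'⟯ := by
    refine unr_of_adjoin (L := L) (θ := AdjoinSimple.gen F θ') _ hLV ?_ ?_
      (adjoin.powerBasis hθF) rfl
    · obtain ⟨p, hp, hpx⟩ := hθL
      refine ⟨p, hp, ?_⟩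
      apply (F⟮θ'⟯).val.injective
      rw [map_zero, ← hpx]
      have := Polynomial.hom_eval₂ p (algebraMap L F⟮θ'⟯) (F⟮θ'⟯.val : F⟮θ'⟯ →+* F')
        (AdjoinSimple.gen F θ')
      exact this
    · refine (minpoly.irreducible ?_).separable
      obtain ⟨p, hp, hpx⟩ := hθL
      refine ⟨p, hp, ?_⟩
      apply (F⟮θ'⟯).val.injective
      rw [map_zero, ← hpx]
      have := Polynomial.hom_eval₂ p (algebraMap L F⟮θ'⟯) (F⟮θ'⟯.val : F⟮θ'⟯ →+* F')
        (AdjoinSimple.gen F θ')
      exact this
  let W : ValuationSubring F⟮θ'⟯ := v.toValuationSubring.comap (F⟮θ'⟯.val : F⟮θ'⟯ →+* F')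
  have hnon : ∀ (x : F⟮θ'⟯), x ∈ W.nonunits ↔ ((x : F') = 0 ∨ 0 < v.ord (x : F')) := by
    intro x
    rw [ValuationSubring.mem_nonunits_iff_or, ValuationSubring.mem_comap, map_inv₀]
    change x = 0 ∨ (x : F')⁻¹ ∉ v.toValuationSubring ↔ _
    rw [mem_iff_ord_nonneg, v.ord_inv]
    constructor
    · rintro (h | h)
      · exact Or.inl (by rw [h]; rfl)
      · exact Or.inr (by omega)
    · rintro (h | h)
      · exact Or.inl (Subtype.ext h)
      · exact Or.inr (by omega)
  have hover : Over (v.toValuationSubring.comap φ) u W := by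
    refine ⟨fun x hx => hx, ?_⟩
    rw [hnon]
    exact Or.inr hupos
  obtain ⟨y, hy, hxy⟩ := unif_of_unr (ϖ := ⟨u, huV⟩) (hirr huV) hunr hover
    (x := ⟨(πv : F'), hπE⟩) ((hnon _).mpr (Or.inr (by
      change 0 < v.ord (πv : F')
      omega)))
  have hxy' : (πv : F') = φ u * (y : F') := by
    have := congrArg (fun z : F⟮θ'⟯ => (z : F')) hxy
    rw [Algebra.smul_def] at this
    exact this
  have hy' : 0 ≤ v.ord (y : F') := (mem_iff_ord_nonneg v).mp hy
  have hu0 : φ u ≠ 0 := by
    intro h
    rw [h, v.ord_zero] at hupos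
    exact lt_irrefl _ hupos
  have hy0 : (y : F') ≠ 0 := by
    intro h
    rw [h, mul_zero] at hxy'
    rw [hxy', v.ord_zero] at hπ1
    exact zero_ne_one hπ1
  rw [hxy', v.ord_mul hu0 hy0] at hπ1
  exact ⟨u, by omega⟩

end Descent

end Fermat.Agent.LG
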