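import Mathlib
import Fermat.Agent.LG.KX1
import Fermat.Agent.LG.KX2
import Fermat.Agent.ModFun.GenusX0

/-!
# Divisibility of orders of powers of functions with character
-/

set_option autoImplicit false
set_option linter.unusedSectionVars false

noncomputable section

namespace Fermat.Agent.LG

open UpperHalfPlane hiding I J
open ModularForm IntermediateField AlgebraicCurve
open scoped Manifold MatrixGroups ModularForm IntermediateField.algebraAdjoinAdjoin
open Fermat.Agent.Eis16 Fermat.Agent.ModFun Fermat.Agent.ESCore Fermat.Agent.FunField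
open CongruenceSubgroup (Gamma0 Gamma0_mem)

/-- the trace of an integral matrix -/
def trS (γ : SL(2, ℤ)) : ℤ := γ 0 0 + γ 1 1

theorem trS_mul_comm (a b : SL(2, ℤ)) : trS (a * b) = trS (b * a) := by
  simp only [trS, Matrix.SpecialLinearGroup.coe_mul, Matrix.mul_apply, Fin.sum_univ_two]
  ring

theorem trS_conj (g a : SL(2, ℤ)) : trS (g * a * g⁻¹) = trS a := by
  rw [trS_mul_comm, inv_mul_cancel_left]

theorem trS_T_zpow (n : ℤ) : trS (ModularGroup.T ^ n) = 2 := by
  have h := ModularGroup.coe_T_zpow n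
  rw [trS]
  have h0 : (ModularGroup.T ^ n : SL(2, ℤ)) 0 0 = 1 := by
    have := congrFun (congrFun h 0) 0
    simpa using this
  have h1 : (ModularGroup.T ^ n : SL(2, ℤ)) 1 1 = 1 := by
    have := congrFun (congrFun h 1) 1
    simpa using this
  rw [h0, h1]
  norm_num

theorem trS_sq_le_of_fix {γ : SL(2, ℤ)} {τ : ℍ} (h : γ • τ = τ) : trS γ ^ 2 ≤ 4 := by
  have h1 : ((γ • τ : ℍ) : ℂ) = (τ : ℂ) := congrArg (fun z : ℍ => (z : ℂ)) h
  rw [coe_smul_SL, div_eq_iff (denom_SL_ne_zero γ τ)] at h1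
  have hre := congrArg Complex.re h1
  have him := congrArg Complex.im h1
  simp only [Complex.add_re, Complex.mul_re, Complex.add_im, Complex.mul_im, Complex.intCast_re,
    Complex.intCast_im, zero_mul, sub_zero, add_zero] at hre him
  have hdet := γ.det_coe
  rw [Matrix.det_fin_two] at hdet
  have hdet' : ((γ 0 0 : ℤ) : ℝ) * (γ 1 1 : ℤ) - ((γ 0 1 : ℤ) : ℝ) * (γ 1 0 : ℤ) = 1 := by
    exact_mod_cast hdet
  have hy : 0 < (τ : ℂ).im := τ.im_pos
  set a : ℝ := ((γ 0 0 : ℤ) : ℝ)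
  set b : ℝ := ((γ 0 1 : ℤ) : ℝ)
  set c : ℝ := ((γ 1 0 : ℤ) : ℝ)
  set d : ℝ := ((γ 1 1 : ℤ) : ℝ)
  set x : ℝ := (τ : ℂ).re
  set y : ℝ := (τ : ℂ).im
  have h2 : a - d = 2 * c * x := by
    have h3 : (a - d - 2 * c * x) * y = 0 := by linear_combination him
    rcases mul_eq_zero.mp h3 with h4 | h4
    · linear_combination h4
    · exact absurd h4 hy.ne'
  have h3 : (a + d) ^ 2 = 4 - 4 * (c * y) ^ 2 := by
    have h4 : b = -c * (x ^ 2 + y ^ 2) := by linear_combination hre - x * h2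
    have h5 : (a + d) ^ 2 = (a - d) ^ 2 + 4 * (a * d) := by ring
    rw [h5, h2]
    linear_combination 4 * hdet' + 4 * c * h4
  have h4 : (a + d) ^ 2 ≤ 4 := by nlinarith [sq_nonneg (c * y)]
  have h5 : (((trS γ) ^ 2 : ℤ) : ℝ) ≤ ((4 : ℤ) : ℝ) := by
    rw [trS]
    push_cast
    exact h4
  exact_mod_cast h5

/-- `Γ₀(N)` has no elliptic elements -/
def NoEll (N : ℕ) : Prop := ∀ γ ∈ Gamma0 N, 4 ≤ trS γ ^ 2

theorem noEll_of_four_dvd {N : ℕ} (h : 4 ∣ N) : NoEll N := by
  intro γ hγ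
  rw [Gamma0_mem, ZMod.intCast_zmod_eq_zero_iff_dvd] at hγ
  have hc : (4 : ℤ) ∣ γ 1 0 := (by exact_mod_cast h : ((4 : ℕ) : ℤ) ∣ N).trans hγ
  obtain ⟨k, hk⟩ := hc
  have hdet := γ.det_coe
  rw [Matrix.det_fin_two, hk] at hdet
  have h1 : ((γ 0 0 : ℤ) : ZMod 4) * ((γ 1 1 : ℤ) : ZMod 4) = 1 := by
    have h2 := congrArg (fun z : ℤ => (z : ZMod 4)) hdet
    push_cast at h2
    have h3 : (4 : ZMod 4) = 0 := rfl
    rw [h3, zero_mul, mul_zero, sub_zero] at h2
    exact h2
  have h2 : ∀ a d : ZMod 4, a * d = 1 → a + d = 2 := by decide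
  have h3 := h2 _ _ h1
  by_contra hlt
  push Not at hlt
  have h4 : trS γ = -1 ∨ trS γ = 0 ∨ trS γ = 1 := by
    have : -2 < trS γ ∧ trS γ < 2 := ⟨by nlinarith, by nlinarith⟩
    omega
  have h5 : ((trS γ : ℤ) : ZMod 4) = 2 := by
    rw [trS]
    push_cast
    exact h3
  rcases h4 with h4 | h4 | h4 <;> rw [h4] at h5 <;> revert h5 <;> decide

theorem noEll_of_nine_dvd {N : ℕ} (h : 9 ∣ N) : NoEll N := by
  intro γ hγ
  rw [Gamma0_mem, ZMod.intCast_zmod_eq_zero_iff_dvd] at hγ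
  have hc : (9 : ℤ) ∣ γ 1 0 := (by exact_mod_cast h : ((9 : ℕ) : ℤ) ∣ N).trans hγ
  obtain ⟨k, hk⟩ := hc
  have hdet := γ.det_coe
  rw [Matrix.det_fin_two, hk] at hdet
  have h1 : ((γ 0 0 : ℤ) : ZMod 9) * ((γ 1 1 : ℤ) : ZMod 9) = 1 := by
    have h2 := congrArg (fun z : ℤ => (z : ZMod 9)) hdet
    push_cast at h2
    have h3 : (9 : ZMod 9) = 0 := rfl
    rw [h3, zero_mul, mul_zero, sub_zero] at h2
    exact h2
  have h2 : ∀ a d : ZMod 9, a * d = 1 → a + d ≠ 0 ∧ a + d ≠ 1 ∧ a + d ≠ -1 := by decide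
  have h3 := h2 _ _ h1
  by_contra hlt
  push Not at hlt
  have h4 : trS γ = -1 ∨ trS γ = 0 ∨ trS γ = 1 := by
    have : -2 < trS γ ∧ trS γ < 2 := ⟨by nlinarith, by nlinarith⟩
    omega
  have h5 : ((trS γ : ℤ) : ZMod 9) = ((γ 0 0 : ℤ) : ZMod 9) + ((γ 1 1 : ℤ) : ZMod 9) := by
    rw [trS]
    push_cast
    rfl
  rw [← h5] at h3
  rcases h4 with h4 | h4 | h4 <;> rw [h4] at h3
  · exact h3.2.2 (by decide)
  · exact h3.1 (by decide)
  · exact h3.2.1 (by decide)

/-- the character is trivial on `-1` and on the parabolic elements -/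
def IsPar {N : ℕ} (χ : Gamma0 N →* ℂˣ) : Prop :=
  ∀ γ : Gamma0 N, trS (γ : SL(2, ℤ)) ^ 2 = 4 → χ γ = 1

theorem isSeparable_adjoin_simple {K F : Type*} [Field K] [Field F] [Algebra K F] [CharZero K]
    (t : F) [FiniteDimensional K⟮t⟯ F] : Algebra.IsSeparable K⟮t⟯ F := by
  have : CharZero K⟮t⟯ := charZero_of_injective_algebraMap (algebraMap K K⟮t⟯).injective
  exact Algebra.IsAlgebraic.isSeparable_of_perfectField

section Closed

variable {K : Type*} [Field K] [IsAlgClosed K] [CharZero K] {N : ℕ} [NeZero N] {ι : K →+* ℂ}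
  {ζ : Kˣ}

theorem embF_eq_of_hasExp {s : ℍ → ℂ} (D : ExpData ι N s)
    (hζ : ι ζ = Complex.exp (2 * Real.pi * Complex.I / N)) (x : XN N) {z : F0 K N} {F : ℍ → ℂ}
    (hz : HasExp ι (qN 1) F (z : LaurentSeries K)) {E : LaurentSeries ℂ}
    (hE : HasExp (RingHom.id ℂ) s (conjHom x F) E) : embF D hζ x z = E := by
  obtain ⟨a, b, hb, hab⟩ := IsFractionRing.div_surjective (A := Algebra.adjoin K (gens K N)) z
  have hb0 : b ≠ 0 := nonZeroDivisors.ne_zero hb
  have hb1 : algebraMap (A0 K N) (F0 K N) b ≠ 0 := by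
    intro h
    exact hb0 ((IsFractionRing.to_map_eq_zero_iff (K := F0 K N)).mp h)
  rw [div_eq_iff hb1] at hab
  have h1 : (a : LaurentSeries K) = z * b := congrArg (fun y : F0 K N => (y : LaurentSeries K)) hab
  have ha := ev_hasExp ι N (Subalgebra.inclusion (adjoin_le_holAlg hζ) a)
  have hb' := ev_hasExp ι N (Subalgebra.inclusion (adjoin_le_holAlg hζ) b)
  have h2 : ev ι N (Subalgebra.inclusion (adjoin_le_holAlg hζ) a) =
      F * ev ι N (Subalgebra.inclusion (adjoin_le_holAlg hζ) b) := by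
    refine ha.fun_unique (qN_ne_zero 1) ?_
    have h3 := hz.mul hb'
    have h4 : ((Subalgebra.inclusion (adjoin_le_holAlg hζ) a : holAlg ι N) : LaurentSeries K) =
        z * ((Subalgebra.inclusion (adjoin_le_holAlg hζ) b : holAlg ι N) : LaurentSeries K) := h1
    rw [h4]
    exact h3
  have h3 := embA_spec D hζ x a
  rw [h2, map_mul] at h3
  have h4 := (hE.mul (embA_spec D hζ x b)).unique Function.injective_id D.isParam h3
  rw [← embF_algebraMap D, ← embF_algebraMap D, hab, map_mul] at h4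
  have h5 : embF D hζ x (algebraMap (A0 K N) (F0 K N) b) ≠ 0 := by
    rwa [Ne, _root_.map_eq_zero]
  exact (mul_right_cancel₀ h5 h4).symm

theorem order_twist {E : LaurentSeries ℂ} (u : ℂˣ) : (twist u E).order = E.order := by
  rcases eq_or_ne E 0 with rfl | hE
  · rw [map_zero]
  have hne : twist u E ≠ 0 := by rwa [Ne, _root_.map_eq_zero]
  have hcoeff : ∀ k, (twist u E).coeff k = 0 ↔ E.coeff k = 0 := by
    intro k
    rw [twist_coeff, Units.mul_right_eq_zero]
  apply le_antisymm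
  · apply HahnSeries.order_le_of_coeff_ne_zero
    rw [ne_eq, hcoeff]
    exact HahnSeries.coeff_order_eq_zero.not.2 hE
  · apply HahnSeries.order_le_of_coeff_ne_zero
    rw [ne_eq, ← hcoeff]
    exact HahnSeries.coeff_order_eq_zero.not.2 hne

/-- rotation by powers -/
theorem param_pow_smul {s : ℍ → ℂ} {h : SL(2, ℤ)} {u : ℂˣ} (hu : ∀ τ, s (h • τ) = u * s τ)
    (r : ℕ) (τ : ℍ) : s (h ^ r • τ) = ((u ^ r : ℂˣ) : ℂ) * s τ := by
  induction r generalizing τ with
  | zero => simp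
  | succ r ih =>
    rw [pow_succ, mul_smul, ih, hu, pow_succ, Units.val_mul, mul_assoc]

theorem zpow_order_of_twist_eq {E : LaurentSeries ℂ} (hE : E ≠ 0) {u : ℂˣ} {m₀ : ℕ}
    (hprim : IsPrimitiveRoot (u : ℂ) m₀) {r : ℕ} (h : twist (u ^ r) E = E) :
    (m₀ : ℤ) ∣ r * E.order := by
  have h1 := congrArg (fun F : LaurentSeries ℂ => F.coeff E.order) h
  simp only [twist_coeff] at h1
  have h2 : E.coeff E.order ≠ 0 := HahnSeries.coeff_order_eq_zero.not.2 hE
  have h3 := mul_right_cancel₀ h2 (h1.trans (one_mul _).symm)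
  rw [← hprim.zpow_eq_one_iff_dvd, zpow_mul, zpow_natCast]
  rw [Units.val_zpow_eq_zpow_val, Units.val_pow_eq_pow_val] at h3
  exact h3

theorem ord_dvd_at {s : ℍ → ℂ} (D : ExpData ι N s)
    (hζ : ι ζ = Complex.exp (2 * Real.pi * Complex.I / N)) (h : SL(2, ℤ)) (u : ℂˣ)
    (hu : ∀ τ, s (h • τ) = u * s τ) {m₀ : ℕ} (hm₀ : 0 < m₀) (hprim : IsPrimitiveRoot (u : ℂ) m₀)
    {t : F0 K N} (ht : Transcendental K t) (htL : K⟮t⟯ = K⟮jF K N⟯)
    {G : LaurentSeries ℂ} (hG : ∀ x, embF D hζ x t = G) (hG0 : G.order = m₀)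
    {f : ℍ → ℂ} {m : ℕ}
    (hexp : ∀ g : SL(2, ℤ), ∃ R, HasExp (RingHom.id ℂ) s (fun τ => f (g • τ)) R)
    (hrot : ∀ (g : SL(2, ℤ)) (r : ℕ), g * h ^ r * g⁻¹ ∈ Gamma0 N →
      ∀ τ : ℍ, f ((g * h ^ r * g⁻¹) • τ) = f τ)
    {z : F0 K N} (hz0 : z ≠ 0) (hz : HasExp ι (qN 1) (f ^ m) (z : LaurentSeries K))
    (v : Place K (F0 K N)) (hv : 0 < v.ord t) : (m : ℤ) ∣ v.ord z := by
  classical
  have : FiniteDimensional K⟮t⟯ (F0 K N) := by
    rw [htL]
    exact finiteDimensional_F0 hζ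
  have : Algebra.IsSeparable K⟮t⟯ (F0 K N) := isSeparable_adjoin_simple t
  have hX : Fintype.card (XN N) = Module.finrank K⟮t⟯ (F0 K N) := by
    rw [htL]
    exact (finrank_eq hζ).symm
  obtain ⟨p, hp, hpos, hcard⟩ := exists_place_map ht hX (embF D hζ) (embF_injective D hζ)
    (fun a => HahnSeries.C (ι a)) (fun x a => embF_algebraMap_base D hζ x a) (fun a => by
      by_cases ha : ι a = 0
      · rw [ha, map_zero, HahnSeries.orderTop_zero]
        exact le_top
      · rw [HahnSeries.C_apply, HahnSeries.orderTop_single ha]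
        rfl) G hG (by rw [hG0]; exact_mod_cast hm₀)
  have ht0 : t ≠ 0 := by
    rintro rfl
    exact ht isAlgebraic_zero
  -- the embedding
  obtain ⟨x, hx⟩ : ∃ x, p x = v := by
    by_contra hc
    push Not at hc
    have h1 := hcard v hv
    have : IsEmpty {x // p x = v} := ⟨fun x => hc x.1 x.2⟩
    rw [Nat.card_of_isEmpty] at h1
    simp at h1
    omega
  obtain ⟨c, hc⟩ := order_eq_mul_ord (embF D hζ x) v (by rw [← hx, hp])
  have hmc : (m₀ : ℤ) = c * v.ord t := by
    rw [← hG0, ← hG x, hc t ht0]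
  have hc0 : (c : ℤ) ≠ 0 := by
    intro h0
    rw [h0, zero_mul] at hmc
    omega
  -- rotations preserve the place
  have hsm : ∀ y, p (h⁻¹ • y) = p y := by
    intro y
    apply Place.ext
    rw [hp, hp]
    ext f
    rcases eq_or_ne f 0 with rfl | hf
    · simp
    rw [mem_valSub_iff_order hf, mem_valSub_iff_order hf, embF_smul D hζ h hu, order_twist]
  have hsm' : ∀ y, p (h • y) = p y := by
    intro y
    rw [← hsm (h • y), inv_smul_smul]
  have hsz : ∀ (g : Subgroup.zpowers h) (y : XN N), p (g • y) = p y := by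
    rintro ⟨_, n, rfl⟩ y
    change p (h ^ n • y) = p y
    induction n using Int.induction_on generalizing y with
    | zero => rw [zpow_zero, one_smul]
    | succ n ih => rw [zpow_add_one, mul_smul, ih, hsm']
    | pred n ih => rw [zpow_sub_one, mul_smul, ih, hsm]
  -- the period
  obtain ⟨π, hπ⟩ := IsDiscreteValuationRing.exists_irreducible v.toValuationSubring
  have hπ0 : (π : F0 K N) ≠ 0 := by
    intro h
    exact hπ.ne_zero (Subtype.ext h)
  have hcπ : (embF D hζ x π).order = c := by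
    rw [hc _ hπ0, v.ord_coe_irreducible hπ, mul_one]
  set r := MulAction.period h x with hr
  have hrx : h ^ r • x = x := MulAction.pow_period_smul h x
  have htw : ∀ (n : ℕ) (f : F0 K N), embF D hζ ((h ^ n)⁻¹ • x) f =
      twist (u ^ n) (embF D hζ x f) := fun n f =>
    embF_smul D hζ (h ^ n) (param_pow_smul hu n) x f
  have hdvd : v.ord t ∣ (r : ℤ) := by
    have h1 := htw r π
    have h2 : (h ^ r)⁻¹ • x = x := by
      rw [inv_smul_eq_iff, hrx]
    rw [h2] at h1
    have h3 := zpow_order_of_twist_eq (by rwa [Ne, _root_.map_eq_zero]) hprim h1.symm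
    rw [hcπ, hmc, mul_comm (r : ℤ)] at h3
    exact (mul_dvd_mul_iff_left hc0).1 h3
  have hrcard : r = Nat.card (MulAction.orbit (Subgroup.zpowers h) x) := by
    rw [hr, MulAction.period_eq_minimalPeriod, MulAction.minimalPeriod_eq_card,
      Nat.card_eq_fintype_card]
    exact Fintype.card_congr (Equiv.refl _)
  have hle : (r : ℤ) ≤ v.ord t := by
    rw [← hcard v hv, hrcard]
    have h1 : Nat.card (MulAction.orbit (Subgroup.zpowers h) x) ≤ Nat.card {y // p y = v} := by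
      refine Nat.card_le_card_of_injective
        (fun y : MulAction.orbit (Subgroup.zpowers h) x => (⟨y.1, by
          obtain ⟨g, hg⟩ := y.2
          rw [← hg]
          change p (g • x) = v
          rw [hsz, hx]⟩ : {y // p y = v})) ?_
      intro a b hab
      exact Subtype.ext (congrArg (fun z : {y // p y = v} => z.1) hab)
    exact_mod_cast h1
  have hrpos : 0 < r := by
    rw [hrcard]
    have : Nonempty (MulAction.orbit (Subgroup.zpowers h) x) := ⟨⟨x, MulAction.mem_orbit_self x⟩⟩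
    exact Nat.card_pos
  have hreq : (r : ℤ) = v.ord t := le_antisymm hle (Int.le_of_dvd (by exact_mod_cast hrpos) hdvd)
  -- the expansion of the conjugate function
  set g : SL(2, ℤ) := (Quotient.out x)⁻¹ with hg
  obtain ⟨R, hR⟩ := hexp g
  have hγ : g * h ^ r * g⁻¹ ∈ Gamma0 N := by
    have h1 : ((Quotient.out x : SL(2, ℤ)) : XN N) = ((h ^ r * Quotient.out x : SL(2, ℤ)) : XN N) := by
      have h2 : ((h ^ r * Quotient.out x : SL(2, ℤ)) : XN N) =
          h ^ r • ((Quotient.out x : SL(2, ℤ)) : XN N) := rfl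
      rw [h2, QuotientGroup.out_eq', hrx]
    have h2 := QuotientGroup.eq.mp h1
    rw [hg, inv_inv]
    rwa [← mul_assoc] at h2
  have hR' : twist (u ^ r) R = R := by
    refine (hR.twist (s' := s) (u ^ r) (fun τ => h ^ r • τ) (param_pow_smul hu r)).congr
      (g := fun τ => f (g • τ)) (fun τ => ?_) |>.unique Function.injective_id D.isParam hR
    have h1 := hrot g r hγ (g • τ)
    rw [← mul_smul, inv_mul_cancel_right, mul_smul] at h1
    exact h1
  have hE : embF D hζ x z = R ^ m := by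
    refine embF_eq_of_hasExp D hζ x hz ?_
    exact hR.pow m
  have hz1 : embF D hζ x z ≠ 0 := by rwa [Ne, _root_.map_eq_zero]
  rcases Nat.eq_zero_or_pos m with hm | hm
  · rw [hm, pow_zero] at hE
    have h1 := hc z hz0
    rw [hE, HahnSeries.order_one] at h1
    have h2 : v.ord z = 0 := by
      rcases mul_eq_zero.mp h1.symm with h3 | h3
      · exact absurd h3 hc0
      · exact h3
    rw [h2]
    exact dvd_zero _
  have hR0 : R ≠ 0 := by
    rintro rfl
    rw [zero_pow hm.ne'] at hE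
    exact hz1 hE
  have h4 := zpow_order_of_twist_eq hR0 hprim hR'
  rw [hmc, ← hreq, mul_comm (r : ℤ)] at h4
  have h5 : (c : ℤ) ∣ R.order :=
    (mul_dvd_mul_iff_right (by exact_mod_cast hrpos.ne' : (r : ℤ) ≠ 0)).1 h4
  obtain ⟨k, hk⟩ := h5
  have h6 := hc z hz0
  rw [hE, HahnSeries.order_pow, hk, nsmul_eq_mul] at h6
  refine ⟨k, ?_⟩
  apply mul_left_cancel₀ hc0
  rw [← h6]
  ring

theorem order_qExpand_jq_inv (N : ℕ) [NeZero N] :
    ((ModularCurve.qExpand ℂ N (ModularCurve.jqModC ℂ))⁻¹).order = N := by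
  have h1 : (ModularCurve.qExpand ℂ N (ModularCurve.jqModC ℂ)).order = -(N : ℤ) := by
    refine order_eq_of_coeff ?_ ?_
    · rw [show -(N : ℤ) = (N : ℤ) * (-1) by ring, ModularCurve.qExpand_coeff_mul]
      have h3 := coeff_jqModC_pow_self' (R := ℂ) 1
      rw [pow_one, Nat.cast_one] at h3
      rw [h3]
      exact one_ne_zero
    · intro m hm
      by_cases hdvd : (N : ℤ) ∣ m
      · obtain ⟨n, rfl⟩ := hdvd
        rw [ModularCurve.qExpand_coeff_mul]
        have hpos : (0 : ℤ) < N := by exact_mod_cast Nat.pos_of_ne_zero (NeZero.ne N)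
        have hn : n < -((1 : ℕ) : ℤ) := by
          push_cast
          nlinarith
        have := coeff_jqModC_pow_of_lt' (R := ℂ) hn
        rwa [pow_one] at this
      · exact ModularCurve.qExpand_coeff_of_not_dvd _ _ hdvd
  have h2 : ModularCurve.qExpand ℂ N (ModularCurve.jqModC ℂ) ≠ 0 := by
    intro h
    rw [h, HahnSeries.order_zero] at h1
    have : (N : ℤ) ≠ 0 := by exact_mod_cast NeZero.ne N
    omega
  have h3 := HahnSeries.order_mul h2 (inv_ne_zero h2)
  rw [mul_inv_cancel₀ h2, HahnSeries.order_one, h1] at h3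
  omega

theorem ord_jF_sub_pos_cases (hζ : ι ζ = Complex.exp (2 * Real.pi * Complex.I / N))
    (v : Place K (F0 K N)) (hv : 0 ≤ v.ord (jF K N)) :
    ∃ c : K, 0 < v.ord (jF K N - algebraMap K (F0 K N) c) := by
  have : FiniteDimensional K⟮jF K N⟯ (F0 K N) := finiteDimensional_F0 hζ
  obtain ⟨c, hc⟩ := exists_residue_eq (transcendental_jF (K := K) (N := N)) v
    (mem_of_ord_nonneg v hv)
  rw [adicValuation_lt_one_iff] at hc
  refine ⟨c, hc.resolve_left fun h => ?_⟩
  have h1 : jF K N = algebraMap K (F0 K N) c := sub_eq_zero.mp h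
  exact transcendental_jF (K := K) (N := N) (h1 ▸ isAlgebraic_algebraMap c)

/-- The orders of the `m`-th power of a function with a parabolic character are divisible
by `m`. -/
theorem ord_dvd (hζ : ι ζ = Complex.exp (2 * Real.pi * Complex.I / N)) (hN : NoEll N)
    {χ : Gamma0 N →* ℂˣ} (hχ : IsPar χ) {f : ℍ → ℂ} (hf : f ∈ Gal.MB)
    (hfχ : ∀ (γ : Gamma0 N) (τ : ℍ), f ((γ : SL(2, ℤ)) • τ) = (χ γ : ℂ) * f τ) {m : ℕ}
    {z : F0 K N} (hz0 : z ≠ 0) (hz : HasExp ι (qN 1) (f ^ m) (z : LaurentSeries K))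
    (v : Place K (F0 K N)) : (m : ℤ) ∣ v.ord z := by
  have hinv : ∀ γ : SL(2, ℤ), γ ∈ Gamma0 N → trS γ ^ 2 = 4 → ∀ τ : ℍ, f (γ • τ) = f τ := by
    intro γ hγ htr τ
    have h1 := hfχ ⟨γ, hγ⟩ τ
    rw [hχ ⟨γ, hγ⟩ htr, Units.val_one, one_mul] at h1
    exact h1
  have hrotE : ∀ {h : SL(2, ℤ)} {τ₀ : ℍ}, h • τ₀ = τ₀ → ∀ (g : SL(2, ℤ)) (r : ℕ),
      g * h ^ r * g⁻¹ ∈ Gamma0 N → ∀ τ : ℍ, f ((g * h ^ r * g⁻¹) • τ) = f τ := by
    intro h τ₀ hfix g r hmem
    refine hinv _ hmem (le_antisymm ?_ (hN _ hmem))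
    rw [trS_conj]
    refine trS_sq_le_of_fix (τ := τ₀) ?_
    clear hmem
    induction r with
    | zero => rw [pow_zero, one_smul]
    | succ r ih => rw [pow_succ, mul_smul, hfix, ih]
  have hexpE : ∀ (τ₀ : ℍ) (g : SL(2, ℤ)), ∃ R, HasExp (RingHom.id ℂ) (sD τ₀)
      (fun τ => f (g • τ)) R := fun τ₀ g => ⟨_, hasExp_dExp τ₀ (mdiff_smul hf.1 g)⟩
  rcases lt_or_ge (v.ord (jF K N)) 0 with hj | hj
  · have hN0 : (N : ℂ) ≠ 0 := by exact_mod_cast NeZero.ne N
    have hG := (hasExp_J' (RingHom.id ℂ)).level N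
    have hprim : IsPrimitiveRoot (Complex.exp (2 * Real.pi * Complex.I / N)) N :=
      Complex.isPrimitiveRoot_exp N (NeZero.ne N)
    refine ord_dvd_at (expData_qN (ι := ι)) hζ ModularGroup.T
      (Units.mk0 (Complex.exp (2 * Real.pi * Complex.I / N)) (Complex.exp_ne_zero _))
      (fun τ => ?_) (m₀ := N) (Nat.pos_of_ne_zero (NeZero.ne N)) hprim
      (transcendental_inv transcendental_jF) (Fermat.Agent.FunField.adjoin_inv_eq _)
      (G := (ModularCurve.qExpand ℂ N (ModularCurve.jqModC ℂ))⁻¹)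
      (fun x => by rw [map_inv₀, embF_jF expData_qN hζ x hG]) ?_ (f := f) (m := m) ?_ ?_ hz0 hz v
      (by rw [v.ord_inv]; omega)
    · rw [modular_T_smul, qN_apply, qN_apply, Function.Periodic.qParam, Function.Periodic.qParam,
        Units.val_mk0, ← Complex.exp_add]
      congr 1
      have : (((1 : ℝ) +ᵥ τ : ℍ) : ℂ) = 1 + τ := by simp
      rw [this]
      push_cast
      field_simp
    · exact order_qExpand_jq_inv N
    · intro g
      refine exists_exp_of_MB (Gal.MB_comp hf g) N fun τ => ?_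
      change f (g • ((N : ℝ) +ᵥ τ)) = f (g • τ)
      rw [smul_vadd_eq]
      refine hinv _ (conj_T_mem_Gamma0 N g) ?_ _
      rw [trS_conj, trS_T_zpow]
      norm_num
    · intro g r hmem
      refine hinv _ hmem ?_
      rw [trS_conj, ← zpow_natCast, trS_T_zpow]
      norm_num
  · obtain ⟨c, hc⟩ := ord_jF_sub_pos_cases hζ v hj
    by_cases hc0 : c = 0
    · subst hc0
      obtain ⟨u, hu1, hu2⟩ := exists_rotation_ρ
      refine ord_dvd_at (expData_sD ModFun.ρ) hζ (ModularGroup.S * ModularGroup.T) u hu2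
        (m₀ := 3) (by norm_num) hu1
        (Fermat.Agent.FunField.transcendental_sub transcendental_jF 0)
        (Fermat.Agent.FunField.adjoin_sub_eq _ 0) (fun x => embF_jF_sub hζ ModFun.ρ x) ?_ (hexpE ModFun.ρ)
        (hrotE ST_smul_ρ) hz0 hz v hc
      refine ModFun.order_ofPowerSeries (n := 3) ?_
      have h1 := order_dExp_J_three ModFun.ρ E₄_ρ
      have h2 : (J - fun _ => ι 0) = J := by
        funext τ
        simp
      rw [h2, h1]
      rfl
    by_cases hc1 : c = 1728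
    · subst hc1
      refine ord_dvd_at (expData_sD UpperHalfPlane.I) hζ ModularGroup.S (-1) sD_S
        (m₀ := 2) (by norm_num) isPrimitiveRoot_S
        (Fermat.Agent.FunField.transcendental_sub transcendental_jF 1728)
        (Fermat.Agent.FunField.adjoin_sub_eq _ 1728) (fun x => embF_jF_sub hζ _ x) ?_
        (hexpE UpperHalfPlane.I) (hrotE S_smul_I) hz0 hz v hc
      refine ModFun.order_ofPowerSeries (n := 2) ?_
      have h1 := order_dExp_J_two UpperHalfPlane.I E₆_I
      have h2 : (J - fun _ => ι 1728) = (J - fun _ => 1728) := by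
        have h3 : ι 1728 = 1728 := map_ofNat ι 1728
        rw [h3]
      rw [h2, h1]
      rfl
    · obtain ⟨τ₀, hτ₀⟩ := J_surjective (ι c)
      have h4 : E₄ τ₀ ≠ 0 := by
        intro h
        rw [← J_eq_zero_iff, hτ₀] at h
        exact hc0 (ι.injective (by rw [h, map_zero]))
      have h6 : E₆ τ₀ ≠ 0 := by
        intro h
        rw [← J_eq_1728_iff, hτ₀] at h
        exact hc1 (ι.injective (by rw [h]; exact (map_ofNat ι 1728).symm))
      refine ord_dvd_at (expData_sD τ₀) hζ 1 1 (fun τ => by simp) (m₀ := 1) one_pos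
        (by simp) (Fermat.Agent.FunField.transcendental_sub transcendental_jF c)
        (Fermat.Agent.FunField.adjoin_sub_eq _ c) (fun x => embF_jF_sub hζ τ₀ x) ?_
        (hexpE τ₀) (hrotE (τ₀ := τ₀) (by simp)) hz0 hz v hc
      have h1 := order_dExp_J_one τ₀ h4 h6
      rw [hτ₀] at h1
      exact ModFun.order_ofPowerSeries (n := 1) (by simpa using h1)

end Closed

end Fermat.Agent.LG
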