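import Mathlib
import Fermat.Agent.LG.KX3

/-!
# Unramified valuations: descent to arbitrary fields of constants
-/

set_option autoImplicit false
set_option linter.unusedSectionVars false

noncomputable section

namespace Fermat.Agent.LG

open IntermediateField

section Gen

universe u

variable {L Ω F F' : Type*} [Field L] [Field Ω] [Field F] [Field F'] [CharZero L] [Algebra L Ω]
  [Algebra L F] [Algebra Ω F'] [Algebra.IsAlgebraic L Ω]

theorem exists_common_theta (φ : F →+* F')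
    (hφ : ∀ a : L, φ (algebraMap L F a) = algebraMap Ω F' (algebraMap L Ω a)) (θ₁ θ₂ : Ω) :
    ∃ θ : Ω, algebraMap Ω F' θ₁ ∈ Subfield.closure (Set.range φ ∪ {algebraMap Ω F' θ}) ∧
      algebraMap Ω F' θ₂ ∈ Subfield.closure (Set.range φ ∪ {algebraMap Ω F' θ}) := by
  have hfin : FiniteDimensional L (adjoin L ({θ₁, θ₂} : Set Ω)) :=
    finiteDimensional_adjoin fun x _ => Algebra.IsIntegral.isIntegral x
  obtain ⟨α, hα⟩ := Field.exists_primitive_element L (adjoin L ({θ₁, θ₂} : Set Ω))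
  have key : adjoin L ({θ₁, θ₂} : Set Ω) ≤
      ((Subfield.closure (Set.range φ ∪ {algebraMap Ω F' (α : Ω)})).comap
        (algebraMap Ω F')).toIntermediateField (K := L) (by
          intro a
          rw [Subfield.mem_comap, ← hφ]
          exact Subfield.subset_closure (Or.inl ⟨_, rfl⟩)) := by
    have h1 : adjoin L ({θ₁, θ₂} : Set Ω) = (L⟮α⟯).map (adjoin L ({θ₁, θ₂} : Set Ω)).val := by
      rw [hα, ← AlgHom.fieldRange_eq_map, IntermediateField.fieldRange_val]
    refine h1.le.trans ?_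
    rw [adjoin_map, Set.image_singleton, adjoin_simple_le_iff]
    change algebraMap Ω F' (α : Ω) ∈ Subfield.closure _
    exact Subfield.subset_closure (Or.inr rfl)
  exact ⟨α, key (subset_adjoin L _ (Set.mem_insert _ _)),
    key (subset_adjoin L _ (Set.mem_insert_of_mem _ rfl))⟩

theorem exists_theta (φ : F →+* F')
    (hφ : ∀ a : L, φ (algebraMap L F a) = algebraMap Ω F' (algebraMap L Ω a)) {x : F'}
    (hx : x ∈ Subfield.closure (Set.range φ ∪ Set.range (algebraMap Ω F'))) :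
    ∃ θ : Ω, x ∈ Subfield.closure (Set.range φ ∪ {algebraMap Ω F' θ}) := by
  have hmono : ∀ {θ₁ θ : Ω}, algebraMap Ω F' θ₁ ∈
      Subfield.closure (Set.range φ ∪ {algebraMap Ω F' θ}) →
      Subfield.closure (Set.range φ ∪ {algebraMap Ω F' θ₁}) ≤
      Subfield.closure (Set.range φ ∪ {algebraMap Ω F' θ}) := by
    intro θ₁ θ h
    rw [Subfield.closure_le]
    rintro y (hy | rfl)
    · exact Subfield.subset_closure (Or.inl hy)
    · exact h
  induction hx using Subfield.closure_induction with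
  | mem x hx =>
    rcases hx with hx | ⟨a, rfl⟩
    · exact ⟨0, Subfield.subset_closure (Or.inl hx)⟩
    · exact ⟨a, Subfield.subset_closure (Or.inr rfl)⟩
  | one => exact ⟨0, one_mem _⟩
  | add x y _ _ hx hy =>
    obtain ⟨θ₁, h1⟩ := hx
    obtain ⟨θ₂, h2⟩ := hy
    obtain ⟨θ, h3, h4⟩ := exists_common_theta φ hφ θ₁ θ₂
    exact ⟨θ, add_mem (hmono h3 h1) (hmono h4 h2)⟩
  | neg x _ hx =>
    obtain ⟨θ₁, h1⟩ := hx
    exact ⟨θ₁, neg_mem h1⟩
  | inv x _ hx =>
    obtain ⟨θ₁, h1⟩ := hx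
    exact ⟨θ₁, inv_mem h1⟩
  | mul x y _ _ hx hy =>
    obtain ⟨θ₁, h1⟩ := hx
    obtain ⟨θ₂, h2⟩ := hy
    obtain ⟨θ, h3, h4⟩ := exists_common_theta φ hφ θ₁ θ₂
    exact ⟨θ, mul_mem (hmono h3 h1) (hmono h4 h2)⟩

end Gen

section Main

open UpperHalfPlane hiding I J
open ModularForm AlgebraicCurve
open scoped Manifold MatrixGroups ModularForm
open Fermat.Agent.Eis16 Fermat.Agent.ModFun Fermat.Agent.ESCore Fermat.Agent.FunField
open CongruenceSubgroup (Gamma0 Gamma0_mem)

/-- roots of unity are in the image of an algebraically closed field -/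
theorem exists_zeta {Ω : Type*} [Field Ω] [IsAlgClosed Ω] (ι : Ω →+* ℂ) (N : ℕ) [NeZero N] :
    ∃ ζ : Ωˣ, ι ζ = Complex.exp (2 * Real.pi * Complex.I / N) := by
  have hN : 0 < N := Nat.pos_of_ne_zero (NeZero.ne N)
  set w := Complex.exp (2 * Real.pi * Complex.I / N) with hw
  have hprim : IsPrimitiveRoot w N := Complex.isPrimitiveRoot_exp N (NeZero.ne N)
  have hP0 : (Polynomial.X ^ N - 1 : Polynomial Ω) ≠ 0 :=
    Polynomial.X_pow_sub_C_ne_zero hN 1
  have hsp : (Polynomial.X ^ N - 1 : Polynomial Ω).Splits := IsAlgClosed.splits _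
  have hmap : (Polynomial.X ^ N - 1 : Polynomial Ω).map ι = Polynomial.X ^ N - 1 := by
    rw [Polynomial.map_sub, Polynomial.map_pow, Polynomial.map_X, Polynomial.map_one]
  have hroot : w ∈ ((Polynomial.X ^ N - 1 : Polynomial Ω).map ι).roots := by
    rw [Polynomial.mem_roots ((Polynomial.map_ne_zero_iff ι.injective).mpr hP0), hmap,
      Polynomial.IsRoot.def]
    simp [hprim.pow_eq_one]
  rw [hsp.roots_map ι, Multiset.mem_map] at hroot
  obtain ⟨a, -, ha⟩ := hroot
  have ha0 : a ≠ 0 := by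
    rintro rfl
    rw [map_zero] at ha
    exact Complex.exp_ne_zero _ ha.symm
  exact ⟨Units.mk0 a ha0, ha⟩

/-- the change of constants on function fields -/
def F0map {L Ω : Type*} [Field L] [Field Ω] (f : L →+* Ω) (N : ℕ) [NeZero N] :
    F0 L N →+* F0 Ω N :=
  ((ModularCurve.coeffMap f).comp (F0 L N).val.toRingHom).codRestrict
    (F0 Ω N).toSubalgebra.toSubring fun x => coeffMap_mem_adjoin f x.2

theorem coe_F0map {L Ω : Type*} [Field L] [Field Ω] (f : L →+* Ω) (N : ℕ) [NeZero N]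
    (x : F0 L N) : ((F0map f N x : F0 Ω N) : LaurentSeries Ω) = ModularCurve.coeffMap f x := rfl

theorem F0map_algebraMap {L Ω : Type*} [Field L] [Field Ω] (f : L →+* Ω) (N : ℕ) [NeZero N]
    (a : L) : F0map f N (algebraMap L (F0 L N) a) = algebraMap Ω (F0 Ω N) (f a) := by
  apply Subtype.ext
  rw [coe_F0map]
  change ModularCurve.coeffMap f (algebraMap L (LaurentSeries L) a) =
    algebraMap Ω (LaurentSeries Ω) (f a)
  rw [ModularCurve.algebraMap_laurentSeries_eq_single,
    ModularCurve.algebraMap_laurentSeries_eq_single]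
  exact ModularCurve.coeffMap_single _ _ _

theorem mem_closure_F0 {L Ω : Type*} [Field L] [Field Ω] (f : L →+* Ω) {N : ℕ} [NeZero N]
    (x : F0 Ω N) : x ∈ Subfield.closure (Set.range (F0map f N) ∪
      Set.range (algebraMap Ω (F0 Ω N))) := by
  set T := Subfield.closure (Set.range (F0map f N) ∪ Set.range (algebraMap Ω (F0 Ω N))) with hT
  let T' : IntermediateField Ω (F0 Ω N) := T.toIntermediateField (fun a =>
    Subfield.subset_closure (Or.inr ⟨a, rfl⟩))
  have h1 : F0 Ω N ≤ IntermediateField.lift T' := by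
    rw [IntermediateField.adjoin_le_iff]
    rintro y ⟨d, hd0, hd, rfl⟩
    have h2 : ModularCurve.qExpand Ω d (ModularCurve.jqModC Ω) ∈ F0 Ω N :=
      IntermediateField.subset_adjoin _ _ ⟨d, hd0, hd, rfl⟩
    refine ⟨⟨_, h2⟩, ?_, rfl⟩
    change (⟨_, h2⟩ : F0 Ω N) ∈ T
    refine Subfield.subset_closure (Or.inl ⟨⟨ModularCurve.qExpand L d (ModularCurve.jqModC L),
      IntermediateField.subset_adjoin _ _ ⟨d, hd0, hd, rfl⟩⟩, ?_⟩)
    apply Subtype.ext
    rw [coe_F0map]
    change ModularCurve.coeffMap f (ModularCurve.qExpand L d (ModularCurve.jqModC L)) = _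
    rw [coeffMap_qExpand, coeffMap_jqModC]
  obtain ⟨y, hy, hyx⟩ := h1 x.2
  have h3 : y = x := Subtype.ext hyx
  rw [← h3]
  exact hy

universe u

/-- **(P2.1, first half)** -/
theorem exists_unit_of_isPar {L : Type u} [Field L] (ι : L →+* ℂ) {N : ℕ} [NeZero N]
    (hN : NoEll N) {χ : Gamma0 N →* ℂˣ} (hχ : IsPar χ) {m : ℕ} (hm : 0 < m) (hχm : χ ^ m = 1)
    {y : LaurentSeries L} (hy : XSer ι N χ y) (hy0 : y ≠ 0) (V : ValuationSubring (F0 L N))
    (hV : V ≠ ⊤) (hL : ∀ a : L, algebraMap L (F0 L N) a ∈ V) :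
    ∃ f : F0 L N, f ≠ 0 ∧ f ^ m * ⟨y ^ m, hy.pow_mem_F0 hχm⟩ ∈ V ∧
      (f ^ m * ⟨y ^ m, hy.pow_mem_F0 hχm⟩)⁻¹ ∈ V := by
  classical
  have hch : CharZero L := (ι.charZero_iff ι.injective).mpr inferInstance
  -- the embedding of the algebraic closure
  let _ : Algebra L ℂ := ι.toAlgebra
  let ι'a : AlgebraicClosure L →ₐ[L] ℂ := IsAlgClosed.lift
  let ι' : AlgebraicClosure L →+* ℂ := ι'a
  have hι' : ι'.comp (algebraMap L (AlgebraicClosure L)) = ι := by
    ext a
    exact ι'a.commutes a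
  have hchΩ : CharZero (AlgebraicClosure L) :=
    charZero_of_injective_algebraMap (algebraMap L (AlgebraicClosure L)).injective
  obtain ⟨ζ, hζ⟩ := exists_zeta ι' N
  set f₀ : L →+* AlgebraicClosure L := algebraMap L (AlgebraicClosure L) with hf₀
  set φ := F0map f₀ N with hφ
  obtain ⟨W, hW1, hW2, hW3⟩ := exists_extend φ V
  have hΩ : ∀ a : AlgebraicClosure L,
      algebraMap (AlgebraicClosure L) (F0 (AlgebraicClosure L) N) a ∈ W := by
    intro a
    have h1 : IsIntegral L a := Algebra.IsIntegral.isIntegral a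
    refine Fermat.Agent.Geo.mem_valuationSubring_of_isIntegralElem W
      ((algebraMap (AlgebraicClosure L) (F0 (AlgebraicClosure L) N)).comp f₀) (fun b => ?_) ?_
    · rw [RingHom.comp_apply, ← F0map_algebraMap]
      exact hW1 _ (hL b)
    · obtain ⟨q, hqm, hq⟩ := h1
      refine ⟨q, hqm, ?_⟩
      rw [← Polynomial.hom_eval₂, hq, map_zero]
  have hWtop : W ≠ ⊤ := by
    intro h
    apply hV
    ext x
    refine ⟨fun _ => ValuationSubring.mem_top x, fun _ => hW3 x ?_⟩
    rw [h]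
    exact ValuationSubring.mem_top _
  -- the place
  obtain ⟨v, hv⟩ : ∃ v : Place (AlgebraicClosure L) (F0 (AlgebraicClosure L) N),
      v.toValuationSubring = W := by
    have hfd : FiniteDimensional (AlgebraicClosure L)⟮jF (AlgebraicClosure L) N⟯
        (F0 (AlgebraicClosure L) N) := finiteDimensional_F0 hζ
    have htr : Transcendental (AlgebraicClosure L) (jF (AlgebraicClosure L) N) := transcendental_jF
    rcases W.mem_or_inv_mem (jF (AlgebraicClosure L) N) with h | h
    · have := isSeparable_adjoin_simple (K := AlgebraicClosure L) (jF (AlgebraicClosure L) N)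
      exact exists_place_eq htr W hWtop hΩ h
    · have hfd' : FiniteDimensional (AlgebraicClosure L)⟮(jF (AlgebraicClosure L) N)⁻¹⟯
        (F0 (AlgebraicClosure L) N) := by
        rw [adjoin_inv_eq]
        exact hfd
      have := isSeparable_adjoin_simple (K := AlgebraicClosure L) (jF (AlgebraicClosure L) N)⁻¹
      exact exists_place_eq (transcendental_inv htr) W hWtop hΩ h
  set z : F0 L N := ⟨y ^ m, hy.pow_mem_F0 hχm⟩ with hz
  have hz0 : z ≠ 0 := by
    intro h
    exact pow_ne_zero m hy0 (congrArg Subtype.val h)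
  have hφz0 : φ z ≠ 0 := by rwa [Ne, _root_.map_eq_zero]
  obtain ⟨F, hF, hFχ, hFy⟩ := hy
  have hdvd : (m : ℤ) ∣ v.ord (φ z) := by
    refine ord_dvd hζ hN hχ hF hFχ hφz0 ?_ v
    exact (hFy.pow m).coeffMap f₀ hι'
  obtain ⟨k, hk⟩ := hdvd
  obtain ⟨u, hu⟩ := exists_unif_descent (L := L) φ (F0map_algebraMap f₀ N)
    (fun x => exists_theta (L := L) φ (F0map_algebraMap f₀ N) (mem_closure_F0 f₀ x)) v
  have hu0 : u ≠ 0 := by
    rintro rfl
    rw [map_zero, v.ord_zero] at hu
    exact zero_ne_one hu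
  have hmem : ∀ x, φ x ∈ W ↔ 0 ≤ v.ord (φ x) := by
    intro x
    rw [← hv, mem_iff_ord_nonneg]
  have hord : v.ord (φ ((u ^ (-k)) ^ m * z)) = 0 := by
    rw [map_mul, v.ord_mul ?_ hφz0]
    · rw [map_pow, map_zpow₀, ← zpow_natCast, ← zpow_mul, v.ord_zpow, hu, hk]
      ring
    · rw [Ne, _root_.map_eq_zero]
      exact pow_ne_zero _ (zpow_ne_zero _ hu0)
  refine ⟨u ^ (-k), zpow_ne_zero _ hu0, hW3 _ ?_, hW3 _ ?_⟩
  · rw [hmem, hord]
  · rw [hmem, map_inv₀, v.ord_inv, hord, neg_zero]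

end Main

end Fermat.Agent.LG
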