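import Mathlib
import Fermat.Agent.LG.KX4
import Fermat.Agent.ES.EquivPrim
import Fermat.Agent.ESCore.GalGamma0

/-!
# Parabolic characters are detected by valuations; Galois stability
-/

set_option autoImplicit false
set_option linter.unusedSectionVars false

noncomputable section

namespace Fermat.Agent.LG

open UpperHalfPlane hiding I J
open ModularForm IntermediateField AlgebraicCurve
open scoped Manifold MatrixGroups ModularForm IntermediateField.algebraAdjoinAdjoin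
open Fermat.Agent.Eis16 Fermat.Agent.ModFun Fermat.Agent.ESCore Fermat.Agent.FunField
open CongruenceSubgroup (Gamma0 Gamma0_mem)

theorem order_qExpand' {R : Type*} [CommRing R] (d : ℕ) [NeZero d] {F : LaurentSeries R}
    (hF : F ≠ 0) : (ModularCurve.qExpand R d F).order = d * F.order := by
  have hd : (0 : ℤ) < d := by exact_mod_cast Nat.pos_of_ne_zero (NeZero.ne d)
  refine order_eq_of_coeff ?_ fun k hk => ?_
  · rw [ModularCurve.qExpand_coeff_mul]
    exact HahnSeries.coeff_order_eq_zero.not.2 hF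
  · by_cases hdvd : (d : ℤ) ∣ k
    · obtain ⟨r, rfl⟩ := hdvd
      rw [ModularCurve.qExpand_coeff_mul]
      exact HahnSeries.coeff_eq_zero_of_lt_order (lt_of_mul_lt_mul_left hk hd.le)
    · exact ModularCurve.qExpand_coeff_of_not_dvd _ _ hdvd

theorem qN_mul_pow (N m : ℕ) [NeZero N] [NeZero m] (τ : ℍ) : qN (N * m) τ ^ m = qN N τ := by
  have hN0 : (N : ℂ) ≠ 0 := by exact_mod_cast NeZero.ne N
  have hm0 : (m : ℂ) ≠ 0 := by exact_mod_cast NeZero.ne m
  rw [qN_apply, qN_apply, Function.Periodic.qParam, Function.Periodic.qParam,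
    ← Complex.exp_nat_mul]
  congr 1
  push_cast
  field_simp

theorem qN_T_zpow (M : ℕ) [NeZero M] (n : ℤ) (τ : ℍ) :
    qN M (ModularGroup.T ^ n • τ) = ((zetaC M ^ n : ℂˣ) : ℂ) * qN M τ := by
  have hM0 : (M : ℂ) ≠ 0 := by exact_mod_cast NeZero.ne M
  have h1 : ((zetaC M ^ n : ℂˣ) : ℂ) = Complex.exp (2 * Real.pi * Complex.I / M) ^ n := by
    rw [Units.val_zpow_eq_zpow_val]
    rfl
  rw [h1, modular_T_zpow_smul, qN_apply, qN_apply, Function.Periodic.qParam,
    Function.Periodic.qParam, ← Complex.exp_int_mul, ← Complex.exp_add]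
  congr 1
  have : (((n : ℝ) +ᵥ τ : ℍ) : ℂ) = n + τ := by simp
  rw [this]
  push_cast
  field_simp

section Closed

variable {K : Type*} [Field K] [IsAlgClosed K] [CharZero K] {N : ℕ} [NeZero N] {ι : K →+* ℂ}
  {ζ : Kˣ}

theorem embF_twist_of_fix {s : ℍ → ℂ} (D : ExpData ι N s)
    (hζ : ι ζ = Complex.exp (2 * Real.pi * Complex.I / N)) (x : XN N) {u : ℂˣ} (α : ℍ → ℍ)
    (hα : ∀ τ, s (α τ) = u * s τ)
    (hfix : ∀ F : ℍ → ℂ, IsInv N F → ∀ τ, conjHom x F (α τ) = conjHom x F τ)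
    (F : F0 K N) : twist u (embF D hζ x F) = embF D hζ x F := by
  have h1 : (twist u).comp (embF D hζ x) = embF D hζ x := by
    refine IsLocalization.ringHom_ext (nonZeroDivisors (A0 K N)) ?_
    ext1 F
    simp only [RingHom.comp_apply]
    rw [embF_algebraMap]
    have h2 := (embA_spec D hζ x F).twist (s' := s) u α hα
    have h3 := h2.congr (g := conjHom x (ev ι N (Subalgebra.inclusion (adjoin_le_holAlg hζ) F)))
      (fun τ => hfix _ (ev_inv ι N _) τ)
    exact h3.unique Function.injective_id D.isParam (embA_spec D hζ x F)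
  exact congrArg (fun φ : F0 K N →+* LaurentSeries ℂ => φ F) h1

theorem coeff_twist_mul {E : LaurentSeries ℂ} {u : ℂˣ} {a : ℂ} (hE : E ≠ 0)
    (h : twist u E = HahnSeries.C a * E) : ((u ^ E.order : ℂˣ) : ℂ) = a := by
  have h1 := congrArg (fun F : LaurentSeries ℂ => F.coeff E.order) h
  simp only [twist_coeff] at h1
  rw [HahnSeries.C_mul_eq_smul, HahnSeries.coeff_smul, smul_eq_mul] at h1
  exact mul_right_cancel₀ (HahnSeries.coeff_order_eq_zero.not.2 hE) h1

set_option maxHeartbeats 1000000 in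
/-- **(P2.1, second half)** -/
theorem isPar_of_unit (hζ : ι ζ = Complex.exp (2 * Real.pi * Complex.I / N))
    {χ : Gamma0 N →* ℂˣ} {m : ℕ} (hm : 0 < m) (hχm : χ ^ m = 1) {y : LaurentSeries K}
    (hy : XSer ι N χ y) (hy0 : y ≠ 0)
    (h : ∀ V : ValuationSubring (F0 K N), V ≠ ⊤ → (∀ a : K, algebraMap K (F0 K N) a ∈ V) →
      ∃ f : F0 K N, f ≠ 0 ∧ f ^ m * ⟨y ^ m, hy.pow_mem_F0 hχm⟩ ∈ V ∧
        (f ^ m * ⟨y ^ m, hy.pow_mem_F0 hχm⟩)⁻¹ ∈ V) : IsPar χ := by
  classical
  intro γ hγ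
  have : NeZero m := ⟨hm.ne'⟩
  obtain ⟨δ, n, hδ⟩ := Fermat.Agent.ES.exists_conj_T (γ := (γ : SL(2, ℤ))) (by
    rw [Matrix.trace_fin_two]
    exact hγ)
  set z : F0 K N := ⟨y ^ m, hy.pow_mem_F0 hχm⟩ with hz
  have hz0 : z ≠ 0 := fun h0 => pow_ne_zero m hy0 (congrArg Subtype.val h0)
  obtain ⟨f, hf, hfχ, hfy⟩ := hy
  have hf0 : f ≠ 0 := by
    rintro rfl
    exact hy0 (hfy.eq_zero ι.injective (isParam_qN 1))
  -- the coset
  set x : XN N := ((δ⁻¹ : SL(2, ℤ)) : XN N) with hx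
  set g : SL(2, ℤ) := (Quotient.out x)⁻¹ with hg
  obtain ⟨k, hk⟩ := QuotientGroup.mk_out_eq_mul (Gamma0 N) δ⁻¹
  have hgk : g = ((k⁻¹ : Gamma0 N) : SL(2, ℤ)) * δ := by
    have h1 : (Quotient.out x : SL(2, ℤ)) = δ⁻¹ * (k : SL(2, ℤ)) := hk
    rw [hg, h1, mul_inv_rev, inv_inv]
    rfl
  set γ' : Gamma0 N := k⁻¹ * γ * k with hγ'
  have hact : ∀ τ : ℍ, g • (ModularGroup.T ^ n • τ) = (γ' : SL(2, ℤ)) • (g • τ) := by
    intro τ
    rw [hgk, mul_smul, ← hδ, ← mul_smul, ← mul_smul, ← mul_smul, hγ']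
    congr 1
    rw [Subgroup.coe_mul, Subgroup.coe_mul, Subgroup.coe_inv]
    group
  have hχγ : χ γ' = χ γ := by
    rw [hγ', map_mul, map_mul, map_inv, mul_comm, mul_inv_cancel_left]
  rw [← hχγ]
  set D : ExpData ι N (qN N) := expData_qN
  set ψ := embF D hζ x with hψ
  -- invariance of the image
  have htw : ∀ F : F0 K N, twist (zetaC N ^ n) (ψ F) = ψ F := by
    intro F
    refine embF_twist_of_fix D hζ x (fun τ => ModularGroup.T ^ n • τ) (qN_T_zpow N n) ?_ F
    intro F hF τ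
    rw [conjHom_apply, conjHom_apply]
    change F (g • (ModularGroup.T ^ n • τ)) = F (g • τ)
    rw [hact]
    exact hF _ γ'.2 _
  have hprim : ∀ (M : ℕ) [NeZero M], IsPrimitiveRoot ((zetaC M : ℂˣ) : ℂ) M := fun M _ =>
    Complex.isPrimitiveRoot_exp M (NeZero.ne M)
  have hdvd : ∀ F : F0 K N, F ≠ 0 → (N : ℤ) ∣ n * (ψ F).order := by
    intro F hF
    have hψF : ψ F ≠ 0 := by rwa [Ne, _root_.map_eq_zero]
    have h1 := coeff_twist_mul (a := 1) hψF (by rw [htw, map_one, one_mul])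
    rw [← zpow_mul, Units.val_zpow_eq_zpow_val, (hprim N).zpow_eq_one_iff_dvd] at h1
    exact h1
  -- the valuation ring
  have hVK : ∀ a : K, algebraMap K (F0 K N) a ∈ valSub ψ := by
    intro a
    rw [mem_valSub, hψ, embF_algebraMap_base]
    by_cases ha : ι a = 0
    · rw [ha, map_zero, HahnSeries.orderTop_zero]
      exact le_top
    · rw [HahnSeries.C_apply, HahnSeries.orderTop_single ha]
      rfl
  have hG := (hasExp_J' (RingHom.id ℂ)).level N
  have hV : valSub ψ ≠ ⊤ := by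
    intro htop
    have h1 : (jF K N)  ∈ valSub ψ := by
      rw [htop]
      exact ValuationSubring.mem_top _
    have hj0 : jF K N ≠ 0 := by
      intro h0
      exact transcendental_jF (K := K) (N := N) (h0 ▸ isAlgebraic_zero)
    rw [mem_valSub_iff_order hj0, hψ, embF_jF D hζ x hG] at h1
    have h2 := order_qExpand_jq_inv N
    have h3 : ModularCurve.qExpand ℂ N (ModularCurve.jqModC ℂ) ≠ 0 := by
      intro h0
      rw [h0, inv_zero, HahnSeries.order_zero] at h2
      have : (N : ℤ) ≠ 0 := by exact_mod_cast NeZero.ne N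
      omega
    have h4 := HahnSeries.order_mul h3 (inv_ne_zero h3)
    rw [mul_inv_cancel₀ h3, HahnSeries.order_one, h2] at h4
    have : (0 : ℤ) < N := by exact_mod_cast Nat.pos_of_ne_zero (NeZero.ne N)
    omega
  obtain ⟨w, hw0, hw1, hw2⟩ := h (valSub ψ) hV hVK
  have hwz : w ^ m * z ≠ 0 := mul_ne_zero (pow_ne_zero _ hw0) hz0
  rw [mem_valSub_iff_order hwz] at hw1
  rw [mem_valSub_iff_order (inv_ne_zero hwz), order_map_inv ψ hwz] at hw2
  have hwz' : (ψ (w ^ m * z)).order = 0 := by omega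
  rw [order_map_mul ψ (pow_ne_zero _ hw0) hz0, order_map_pow ψ hw0] at hwz'
  -- the expansion of `f ∘ g` in the parameter of level `N m`
  have hfg : (fun τ => f (g • τ)) ∈ Gal.MB := Gal.MB_comp hf g
  have hinv : ∀ τ : ℍ, f (g • (((N * m : ℕ) : ℝ) +ᵥ τ)) = f (g • τ) := by
    intro τ
    have h1 : (g * ModularGroup.T ^ ((N * m : ℕ) : ℤ) * g⁻¹ : SL(2, ℤ)) =
        (((⟨_, conj_T_mem_Gamma0 N g⟩ : Gamma0 N) ^ m : Gamma0 N) : SL(2, ℤ)) := by
      rw [SubmonoidClass.coe_pow, conj_pow, ← zpow_natCast (ModularGroup.T ^ (N : ℤ)), ← zpow_mul]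
      push_cast
      rfl
    rw [smul_vadd_eq, h1, hfχ, map_pow]
    have h2 := congrArg (fun ψ : Gamma0 N →* ℂˣ => ψ ⟨_, conj_T_mem_Gamma0 N g⟩) hχm
    simp only [MonoidHom.pow_apply, MonoidHom.one_apply] at h2
    rw [h2, Units.val_one, one_mul]
  obtain ⟨R, hR⟩ := exists_exp_of_MB hfg (N * m) hinv
  have hR0 : R ≠ 0 := by
    rintro rfl
    have h1 : (fun τ => f (g • τ)) = 0 :=
      hR.fun_unique (qN_ne_zero (N * m)) hasExp_zero
    apply hf0
    funext τ
    have h2 := congrFun h1 (g⁻¹ • τ)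
    simpa using h2
  have hE : HasExp (RingHom.id ℂ) (qN N) (conjHom x (f ^ m)) (ψ z) := by
    have h1 : IsInv N (f ^ m) := fun γ hγ τ => by
      rw [Pi.pow_apply, Pi.pow_apply, hfχ ⟨γ, hγ⟩, mul_pow]
      have h2 := congrArg (fun ψ : Gamma0 N →* ℂˣ => ((ψ ⟨γ, hγ⟩ : ℂˣ) : ℂ)) hχm
      simp only [MonoidHom.pow_apply, MonoidHom.one_apply, Units.val_pow_eq_pow_val,
        Units.val_one] at h2
      rw [h2, one_mul]
    obtain ⟨E, hE⟩ := (mem_modFun_of_MB (pow_mem hf m) h1).2 g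
    have hE' : HasExp (RingHom.id ℂ) (qN N) (conjHom x (f ^ m)) E := hE.congr fun τ => rfl
    have hz' : HasExp ι (qN 1) (f ^ m) (z : LaurentSeries K) := hfy.pow m
    have h2 : ψ z = E := embF_eq_of_hasExp D hζ x hz' hE'
    rw [h2]
    exact hE'
  have hRm : R ^ m = ModularCurve.qExpand ℂ m (ψ z) := by
    have h1 := hR.pow m
    have h2 := hE.qExpand (s' := qN (N * m)) m (fun τ => τ) (fun τ => (qN_mul_pow N m τ).symm)
    exact h1.unique Function.injective_id (isParam_qN _) h2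
  have hord : R.order = (ψ z).order := by
    have h1 := congrArg HahnSeries.order hRm
    have hψz : ψ z ≠ 0 := by rwa [Ne, _root_.map_eq_zero]
    rw [HahnSeries.order_pow, order_qExpand' m hψz, nsmul_eq_mul] at h1
    exact mul_left_cancel₀ (by exact_mod_cast hm.ne' : (m : ℤ) ≠ 0) h1
  -- the multiplier
  have hmult : twist (zetaC (N * m) ^ n) R = HahnSeries.C ((χ γ' : ℂˣ) : ℂ) * R := by
    have h1 := hR.twist (s' := qN (N * m)) (zetaC (N * m) ^ n)
      (fun τ => ModularGroup.T ^ n • τ) (qN_T_zpow (N * m) n)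
    have h2 := hR.smul ((χ γ' : ℂˣ) : ℂ)
    refine h1.unique Function.injective_id (isParam_qN _) (h2.congr fun τ => ?_)
    rw [hact, hfχ γ']
    rfl
  have h5 := coeff_twist_mul hR0 hmult
  have h6 : ((N * m : ℕ) : ℤ) ∣ n * R.order := by
    obtain ⟨c, hc⟩ := hdvd w hw0
    refine ⟨-c, ?_⟩
    have h7 : R.order = -(m * (ψ w).order) := by
      rw [hord]
      linear_combination hwz'
    rw [h7]
    push_cast
    linear_combination (-(m : ℤ)) * hc
  rw [← zpow_mul, Units.val_zpow_eq_zpow_val] at h5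
  rw [((hprim (N * m)).zpow_eq_one_iff_dvd _).mpr h6] at h5
  exact Units.ext h5.symm

end Closed

/-! ### Galois action -/

section Gal

variable {N : ℕ} [NeZero N] {m : ℕ}

theorem exists_zeta_Qb (N : ℕ) [NeZero N] : ∃ ζ : Qbˣ,
    ιC ζ = Complex.exp (2 * Real.pi * Complex.I / N) := exists_zeta ιC N

theorem coeffMap_ofPowerSeries' {R S : Type*} [CommRing R] [CommRing S] (f : R →+* S)
    (P : PowerSeries R) : ModularCurve.coeffMap f (HahnSeries.ofPowerSeries ℤ R P) =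
      HahnSeries.ofPowerSeries ℤ S (P.map f) := by
  ext n
  rw [ModularCurve.coeffMap_coeff]
  rcases lt_or_ge n 0 with hn | hn
  · rw [ModularCurve.ofPowerSeries_coeff_of_neg _ hn, ModularCurve.ofPowerSeries_coeff_of_neg _ hn,
      map_zero]
  · lift n to ℕ using hn
    rw [HahnSeries.ofPowerSeries_apply_coeff, HahnSeries.ofPowerSeries_apply_coeff,
      PowerSeries.coeff_map]

/-- The Galois action on characters and on series. -/
theorem xSer_galX (hm : 0 < m) (σ : GQ) (χ : XG N m) {y : LaurentSeries Qb}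
    (hy : XSer ιC N χ.1 y) :
    XSer ιC N (galX N hm σ χ).1 (ModularCurve.coeffMap (σ.toRingEquiv.toRingHom : Qb →+* Qb) y) := by
  rcases eq_or_ne y 0 with rfl | hy0
  · rw [map_zero]
    exact ⟨0, zero_mem _, fun γ τ => by simp, hasExp_zero⟩
  obtain ⟨n, f, hf, P, hP, hyP⟩ := hy.exists_mform
  have hf0 : f ≠ 0 := by
    rintro rfl
    have h1 := hP.unique one_pos (HasQ.zero 1)
    have h2 : P = 0 := PowerSeries.map_injective _ ιC.injective (by rw [h1, map_zero])
    rw [h2, map_zero] at hyP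
    have h3 : dSer Qb ≠ 0 := left_ne_zero_of_mul_eq_one dSer_mul_dInvSer
    exact mul_ne_zero hy0 (pow_ne_zero n h3) hyP
  obtain ⟨G, hG, hG0, hGq⟩ := galSpec_galX hm σ χ n f hf hf0 P (hP.qExpansion_eq one_pos)
  have hGQ : HasQ 1 G ((gmap σ P).map ιC) := by
    have h1 := Gal.hasQ_mform_G (T_mem_Gamma0 N) (galX N hm σ χ).2.2 hG
    rwa [hGq] at h1
  have h1 := xSer_of_mform hG hGQ
  have h2 : ModularCurve.coeffMap (σ.toRingEquiv.toRingHom : Qb →+* Qb) y =
      HahnSeries.ofPowerSeries ℤ Qb (gmap σ P) * dInvSer Qb ^ n := by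
    have h3 := congrArg (ModularCurve.coeffMap (σ.toRingEquiv.toRingHom : Qb →+* Qb)) hyP
    rw [map_mul, map_pow, coeffMap_dSer, coeffMap_ofPowerSeries'] at h3
    have h4 : dSer Qb ^ n * dInvSer Qb ^ n = 1 := by
      rw [← mul_pow, dSer_mul_dInvSer, one_pow]
    change _ = HahnSeries.ofPowerSeries ℤ Qb (P.map (σ.toRingEquiv.toRingHom : Qb →+* Qb)) * _
    rw [← h3, mul_assoc, h4, mul_one]
  rw [h2]
  exact h1

/-- existence of a series for every character -/
theorem exists_xSer (hm : 0 < m) (χ : XG N m) : ∃ y : LaurentSeries Qb, y ≠ 0 ∧ XSer ιC N χ.1 y := by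
  obtain ⟨F, hF, hF0, P, hP⟩ := algForms hm χ
  have hF' : F ∈ mform χ.1 (12 * (1 : ℕ)) := by
    have : (12 * ((1 : ℕ) : ℤ)) = 12 := by norm_num
    rw [this]
    exact hF
  have hFQ : HasQ 1 F (P.map ιC) := by
    have h1 := Gal.hasQ_mform_G (T_mem_Gamma0 N) χ.2.2 hF'
    rwa [hP] at h1
  refine ⟨_, ?_, xSer_of_mform hF' hFQ⟩
  have h3 : dInvSer Qb ≠ 0 := right_ne_zero_of_mul_eq_one dSer_mul_dInvSer
  refine mul_ne_zero ?_ (pow_ne_zero _ h3)
  intro h
  have h4 : P = 0 := HahnSeries.ofPowerSeries_injective (h.trans (map_zero _).symm)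
  rw [h4, map_zero] at hFQ
  exact hF0 (hFQ.ext (HasQ.zero 1))

/-- **The Galois action preserves parabolic characters.** -/
theorem isPar_galX (hN : NoEll N) (hm : 0 < m) (σ : GQ) (χ : XG N m) (hχ : IsPar χ.1) :
    IsPar (galX N hm σ χ).1 := by
  obtain ⟨ζ, hζ⟩ := exists_zeta_Qb N
  obtain ⟨y, hy0, hy⟩ := exists_xSer hm χ
  have hy' := xSer_galX hm σ χ hy
  set s : Qb →+* Qb := (σ.toRingEquiv.toRingHom : Qb →+* Qb) with hs
  have hy'0 : ModularCurve.coeffMap s y ≠ 0 := by rwa [Ne, _root_.map_eq_zero]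
  refine isPar_of_unit hζ hm (galX N hm σ χ).2.1 hy' hy'0 fun V' hV' hL' => ?_
  set φ := F0map s N with hφ
  have hsurj : Function.Surjective φ := by
    intro w
    have h1 := coeffMap_mem_adjoin ((σ⁻¹ : GQ).toRingEquiv.toRingHom : Qb →+* Qb) w.2
    refine ⟨⟨_, h1⟩, ?_⟩
    apply Subtype.ext
    rw [hφ, coe_F0map]
    change ModularCurve.coeffMap s (ModularCurve.coeffMap _ (w : LaurentSeries Qb)) = w
    rw [coeffMap_coeffMap]
    have h2 : s.comp ((σ⁻¹ : GQ).toRingEquiv.toRingHom : Qb →+* Qb) = RingHom.id Qb := by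
      ext a
      change σ (σ⁻¹ a) = a
      rw [← AlgEquiv.mul_apply, mul_inv_cancel, AlgEquiv.one_apply]
    rw [h2, coeffMap_id_apply]
  obtain ⟨f, hf0, hf1, hf2⟩ := exists_unit_of_isPar ιC hN hχ hm χ.2.1 hy hy0 (V'.comap φ)
    (by
      intro htop
      apply hV'
      ext w
      refine ⟨fun _ => ValuationSubring.mem_top w, fun _ => ?_⟩
      obtain ⟨u, rfl⟩ := hsurj w
      have : u ∈ V'.comap φ := by
        rw [htop]
        exact ValuationSubring.mem_top _
      exact this)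
    (fun a => by
      rw [ValuationSubring.mem_comap, hφ, F0map_algebraMap]
      exact hL' _)
  rw [ValuationSubring.mem_comap] at hf1 hf2
  have h3 : φ (f ^ m * ⟨y ^ m, hy.pow_mem_F0 χ.2.1⟩) =
      φ f ^ m * ⟨ModularCurve.coeffMap s y ^ m, hy'.pow_mem_F0 (galX N hm σ χ).2.1⟩ := by
    rw [map_mul, map_pow]
    congr 1
    apply Subtype.ext
    rw [hφ, coe_F0map]
    exact map_pow _ _ _
  rw [map_inv₀] at hf2
  rw [h3] at hf1 hf2
  exact ⟨φ f, by rwa [Ne, _root_.map_eq_zero], hf1, hf2⟩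

end Gal

end Fermat.Agent.LG
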