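import Fermat.Agent.LG.InertFinite
import Fermat.Agent.Inertia.Minkowski
import Fermat.Agent.EC.InertiaQ

set_option autoImplicit false

/-!
# The maximal unramified extension inside `ℚ̄` (inertia field of a place)
-/

namespace Fermat.Agent.LG

open scoped Pointwise NumberField
open Fermat.Agent.GaloisBasics Fermat.Agent.Inertia Fermat.Agent.EC

/-- The field of algebraic numbers. -/
local notation "Qb" => AlgebraicClosure ℚ
/-- The ring of algebraic integers. -/
local notation "Zb" => integralClosure ℤ (AlgebraicClosure ℚ)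
/-- The absolute Galois group. -/
local notation "GQ" => (AlgebraicClosure ℚ ≃ₐ[ℚ] AlgebraicClosure ℚ)

/-- The inertia field of a place of `ℚ̄`. -/
noncomputable def KI (A : ValuationSubring Qb) : IntermediateField ℚ Qb :=
  IntermediateField.fixedField (A.inertiaSubgroupIn ℚ)

lemma mem_KI {A : ValuationSubring Qb} {x : Qb} :
    x ∈ KI A ↔ ∀ σ ∈ A.inertiaSubgroupIn ℚ, σ x = x := by
  rw [KI, IntermediateField.mem_fixedField_iff]

section

variable {A : ValuationSubring Qb} {q : ℕ}

lemma pow_eq_one_iff_of_ne_zero' {Γ₀ : Type*} [LinearOrderedCommGroupWithZero Γ₀] {a : Γ₀} {m : ℕ}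
    (hm : m ≠ 0) : a ^ m = 1 ↔ a = 1 := by
  constructor
  · intro h
    exact (pow_left_inj₀ zero_le zero_le hm).mp (h.trans (one_pow m).symm)
  · rintro rfl; exact one_pow m

/-- Reduction is injective on roots of unity of order prime to the residue characteristic. -/
lemma root_eq_of_congr (hq : q.Prime) (hA : A.LiesOverPrime q) {m : ℕ} (hm : ¬ q ∣ m)
    {ζ η : Qb} (hζ : ζ ^ m = 1) (hη : η ^ m = 1) (h : A.valuation (ζ - η) < 1) : ζ = η := by
  have hvq : A.valuation (q : Qb) < 1 := hA
  have hvm : A.valuation (m : Qb) = 1 := v_nat_eq_one hq hvq hm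
  have hm0 : m ≠ 0 := by rintro rfl; simp at hm
  have hη0 : η ≠ 0 := by
    rintro rfl
    rw [zero_pow hm0] at hη
    exact zero_ne_one hη
  have hvη : A.valuation η = 1 := by
    have := congrArg A.valuation hη
    rw [map_pow, map_one] at this
    exact (pow_eq_one_iff_of_ne_zero' hm0).mp this
  by_contra hne
  set u := ζ / η with hu
  have hum : u ^ m = 1 := by rw [hu, div_pow, hζ, hη, div_one]
  have hu1 : A.valuation (u - 1) < 1 := by
    have : u - 1 = (ζ - η) / η := by rw [hu]; field_simp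
    rw [this, map_div₀, hvη, div_one]
    exact h
  have hune : u - 1 ≠ 0 := by
    intro h0
    apply hne
    have : u = 1 := sub_eq_zero.mp h0
    rw [hu, div_eq_one_iff_eq hη0] at this
    exact this
  have hgeom : (∑ i ∈ Finset.range m, u ^ i) = 0 := by
    have h1 := geom_sum_mul u m
    rw [hum, sub_self] at h1
    exact (mul_eq_zero.mp h1).resolve_right hune
  have hvu : A.valuation u ≤ 1 := by
    have : u = 1 + (u - 1) := by ring
    rw [this]
    exact v_add_le (by rw [map_one]) hu1.le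
  have hpow : ∀ i : ℕ, A.valuation (u ^ i - 1) < 1 := by
    intro i
    rw [← geom_sum_mul u i]
    refine v_mul_lt_of_lt one_ne_zero ?_ hu1
    exact Valuation.map_sum_le _ fun j _ => by
      rw [map_pow]; exact pow_le_one₀ zero_le hvu
  have h2 : (∑ i ∈ Finset.range m, (u ^ i - 1)) = -(m : Qb) := by
    rw [Finset.sum_sub_distrib, hgeom]
    simp
  have h3 : A.valuation (∑ i ∈ Finset.range m, (u ^ i - 1)) < 1 :=
    Valuation.map_sum_lt _ one_ne_zero fun i _ => hpow i
  rw [h2, Valuation.map_neg, hvm] at h3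
  exact lt_irrefl _ h3

/-- Roots of unity of order prime to `q` are in the inertia field. -/
theorem root_mem_KI (hq : q.Prime) (hA : A.LiesOverPrime q) {m : ℕ} (hm : ¬ q ∣ m)
    {ζ : Qb} (hζ : ζ ^ m = 1) : ζ ∈ KI A := by
  rw [mem_KI]
  intro σ hσ
  have hm0 : m ≠ 0 := by rintro rfl; simp at hm
  refine root_eq_of_congr hq hA hm (by rw [← map_pow, hζ, map_one]) hζ ?_
  apply inertia_residue hσ
  have := congrArg A.valuation hζ
  rw [map_pow, map_one] at this
  exact ((pow_eq_one_iff_of_ne_zero' hm0).mp this).le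

/-- Residues are roots of unity. -/
lemma exists_pow_congr_one (hq : q.Prime) (hA : A.LiesOverPrime q) {a : Qb}
    (ha : A.valuation a = 1) : ∃ m : ℕ, ¬ q ∣ m ∧ A.valuation (a ^ m - 1) < 1 := by
  have : Fact q.Prime := ⟨hq⟩
  set κ := IsLocalRing.ResidueField A with hκ
  let r : A →+* κ := IsLocalRing.residue A
  have hr0 : ∀ z : A, r z = 0 ↔ A.valuation (z : Qb) < 1 := by
    intro z
    rw [IsLocalRing.residue_eq_zero_iff, ValuationSubring.valuation_lt_one_iff]
  have hchar : CharP κ q := by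
    have h1 : ((q : ℕ) : κ) = 0 := by
      rw [← map_natCast r, hr0]
      exact_mod_cast hA
    exact (CharP.charP_iff_prime_eq_zero hq).mpr h1
  let _ : Algebra (ZMod q) κ := ZMod.algebra κ q
  have haA : a ∈ A := (A.valuation_le_one_iff a).mp ha.le
  have halg : IsIntegral (ZMod q) (r ⟨a, haA⟩) := by
    obtain ⟨b, hb, hab, hbn⟩ := mem_integralClosure_of_div A haA (isAlgebraic_int_Qbar a)
    have key : ∀ z : A, (z : Qb) ∈ integralClosure ℤ Qb → IsIntegral (ZMod q) (r z) := by
      intro z hz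
      obtain ⟨p, hp, hpz⟩ : IsIntegral ℤ (z : Qb) := hz
      refine ⟨p.map (Int.castRingHom (ZMod q)), hp.map _, ?_⟩
      have h1 : p.eval₂ (Int.castRingHom A) z = 0 := by
        apply Subtype.val_injective
        have h3 := Polynomial.hom_eval₂ p (Int.castRingHom A) A.subtype z
        change A.subtype _ = 0
        rw [h3, ← hpz]
        congr 1
      rw [Polynomial.eval₂_map]
      have h3 := Polynomial.hom_eval₂ p (Int.castRingHom A) r z
      rw [h1, map_zero] at h3
      rw [h3]
      congr 1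
      exact RingHom.ext_int _ _
    have hbA : b ∈ A := integralClosure_le_valuationSubring A hb
    have h1 := key ⟨b, hbA⟩ hb
    have h2 := key ((⟨a, haA⟩ : A) * (⟨b, hbA⟩ : A)) hab
    rw [map_mul] at h2
    have hb0 : r ⟨b, hbA⟩ ≠ 0 := by
      rw [Ne, hr0]
      exact hbn
    have h3 : r ⟨a, haA⟩ = r ⟨a, haA⟩ * r ⟨b, hbA⟩ * (r ⟨b, hbA⟩)⁻¹ := by
      rw [mul_assoc, mul_inv_cancel₀ hb0, mul_one]
    rw [h3]
    exact h2.mul h1.inv
  set y := r ⟨a, haA⟩ with hy
  have hy0 : y ≠ 0 := by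
    rw [Ne, hr0]
    change ¬ A.valuation a < 1
    rw [ha]
    exact lt_irrefl _
  have hfd : FiniteDimensional (ZMod q) (IntermediateField.adjoin (ZMod q) {y}) :=
    IntermediateField.adjoin.finiteDimensional halg
  have hfin : Finite (IntermediateField.adjoin (ZMod q) {y}) := Module.finite_of_finite (ZMod q)
  have hft := Fintype.ofFinite (IntermediateField.adjoin (ZMod q) {y})
  set N := Fintype.card (IntermediateField.adjoin (ZMod q) {y}) with hN
  have hqN : q ∣ N := by
    have h1 : CharP (IntermediateField.adjoin (ZMod q) {y}) q := inferInstance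
    obtain ⟨n, -, h2⟩ := FiniteField.card (IntermediateField.adjoin (ZMod q) {y}) q
    rw [hN, h2]
    exact dvd_pow_self q n.2.ne'
  have hN1 : 1 ≤ N := Fintype.card_pos
  refine ⟨N - 1, ?_, ?_⟩
  · intro h
    have h1 : q ∣ N - (N - 1) := Nat.dvd_sub hqN h
    rw [show N - (N - 1) = 1 by omega] at h1
    exact hq.one_lt.ne' (Nat.dvd_one.mp h1)
  · set y' : IntermediateField.adjoin (ZMod q) {y} :=
      ⟨y, IntermediateField.mem_adjoin_simple_self _ y⟩ with hy'
    have h1 : y' ^ (N - 1) = 1 :=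
      FiniteField.pow_card_sub_one_eq_one y' (fun h => hy0 (congrArg Subtype.val h))
    have h2 : y ^ (N - 1) = 1 := congrArg Subtype.val h1
    have h3 : r (⟨a, haA⟩ ^ (N - 1) - 1) = 0 := by
      rw [map_sub, map_pow, map_one, h2, sub_self]
    rw [hr0] at h3
    exact h3

/-- (I1) Every residue class contains an element of the inertia field (a Teichmüller
representative). -/
theorem exists_residue (hq : q.Prime) (hA : A.LiesOverPrime q) {a : Qb} (ha : a ∈ A) :
    ∃ b ∈ KI A, b ∈ A ∧ A.valuation (a - b) < 1 := by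
  have hvq : A.valuation (q : Qb) < 1 := hA
  have hva : A.valuation a ≤ 1 := (A.valuation_le_one_iff a).mpr ha
  rcases hva.lt_or_eq with h | h
  · exact ⟨0, (KI A).zero_mem, A.zero_mem, by rw [sub_zero]; exact h⟩
  obtain ⟨m, hm, h1⟩ := exists_pow_congr_one hq hA h
  have hm0 : m ≠ 0 := by rintro rfl; simp at hm
  have : NeZero m := ⟨hm0⟩
  obtain ⟨ζ, hζ⟩ := HasEnoughRootsOfUnity.exists_primitiveRoot Qb m
  have h2 := Polynomial.X_pow_sub_one_eq_prod (Nat.pos_of_ne_zero hm0) hζ
  have h3 := congrArg (Polynomial.eval a) h2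
  rw [Polynomial.eval_sub, Polynomial.eval_pow, Polynomial.eval_X, Polynomial.eval_one,
    Polynomial.eval_prod] at h3
  simp only [Polynomial.eval_sub, Polynomial.eval_X, Polynomial.eval_C] at h3
  have hroot : ∀ η ∈ Polynomial.nthRootsFinset m (1 : Qb), η ^ m = 1 := by
    intro η hη
    exact (Polynomial.mem_nthRootsFinset (Nat.pos_of_ne_zero hm0) 1).mp hη
  have hvη : ∀ η ∈ Polynomial.nthRootsFinset m (1 : Qb), A.valuation η = 1 := by
    intro η hη
    have := congrArg A.valuation (hroot η hη)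
    rw [map_pow, map_one] at this
    exact (pow_eq_one_iff_of_ne_zero' hm0).mp this
  by_contra hcon
  push Not at hcon
  have h4 : ∀ η ∈ Polynomial.nthRootsFinset m (1 : Qb), A.valuation (a - η) = 1 := by
    intro η hη
    refine le_antisymm (v_sub_le hva (hvη η hη).le) ?_
    exact hcon η (root_mem_KI hq hA hm (hroot η hη))
      ((A.valuation_le_one_iff η).mp (hvη η hη).le)
  rw [h3, map_prod, Finset.prod_congr rfl h4, Finset.prod_const_one] at h1
  exact lt_irrefl _ h1

end

/-! ### Galois-stable finite sets -/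

lemma exists_stable (S : Finset Qb) : ∃ T : Finset Qb, S ⊆ T ∧ ∀ g : GQ, ∀ x ∈ T, g x ∈ T := by
  classical
  refine ⟨S.biUnion fun x => ((minpoly ℚ x).aroots Qb).toFinset, ?_, ?_⟩
  · intro x hx
    rw [Finset.mem_biUnion]
    refine ⟨x, hx, ?_⟩
    rw [Multiset.mem_toFinset, Polynomial.mem_aroots]
    exact ⟨minpoly.ne_zero (Algebra.IsIntegral.isIntegral x), minpoly.aeval ℚ x⟩
  · intro g x hx
    rw [Finset.mem_biUnion] at hx ⊢
    obtain ⟨y, hy, hx⟩ := hx
    refine ⟨y, hy, ?_⟩
    rw [Multiset.mem_toFinset, Polynomial.mem_aroots] at hx ⊢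
    refine ⟨hx.1, ?_⟩
    have := congrArg g hx.2
    rw [map_zero] at this
    rw [← this]
    exact (Polynomial.aeval_algHom_apply (g : Qb →ₐ[ℚ] Qb) x (minpoly ℚ y))

lemma exists_galois_field (S : Finset Qb) : ∃ F : IntermediateField ℚ Qb, (∀ x ∈ S, x ∈ F) ∧
    (∀ g : GQ, ∀ x ∈ F, g x ∈ F) ∧ (@FiniteDimensional ℚ F _ _ F.algebra'.toModule) ∧
    (@IsGalois ℚ _ F _ F.algebra') := by
  obtain ⟨T, hST, hT⟩ := exists_stable S
  set F : IntermediateField ℚ Qb := IntermediateField.adjoin ℚ (T : Set Qb) with hF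
  have hfd : @FiniteDimensional ℚ F _ _ F.algebra'.toModule :=
    IntermediateField.finiteDimensional_adjoin fun x _ => Algebra.IsIntegral.isIntegral x
  have hstab : ∀ g : GQ, F.map (g : Qb →ₐ[ℚ] Qb) ≤ F := by
    intro g
    rw [hF, IntermediateField.adjoin_map, IntermediateField.adjoin_le_iff]
    rintro _ ⟨x, hx, rfl⟩
    exact IntermediateField.subset_adjoin ℚ _ (hT g x hx)
  refine ⟨F, fun x hx => IntermediateField.subset_adjoin ℚ _ (hST hx), ?_, hfd, ?_⟩
  · intro g x hx
    exact hstab g ⟨x, hx, rfl⟩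
  · have hn : @Normal ℚ F _ _ F.algebra' :=
      (IntermediateField.normal_iff_forall_map_le' (F := ℚ) (L := Qb) (K := F)).mpr hstab
    exact @IsGalois.mk ℚ _ F _ F.algebra' (Algebra.isSeparable_tower_bot_of_isSeparable ℚ F Qb) hn

/-- (I2) `q` is a uniformizer of the inertia field. -/
theorem exists_zpow (A : ValuationSubring Qb) {q : ℕ} (hq : q.Prime) (hA : A.LiesOverPrime q)
    {x : Qb} (hx : x ∈ KI A) (hx0 : x ≠ 0) :
    ∃ n : ℤ, A.valuation x = A.valuation (q : Qb) ^ n := by
  obtain ⟨F, hSF, hstab, hfin', hgal'⟩ := exists_galois_field {x}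
  have hxF : x ∈ F := hSF x (Finset.mem_singleton_self x)
  have halg : (DivisionRing.toRatAlgebra : Algebra ℚ F) = F.algebra' := Subsingleton.elim _ _
  have hfin : FiniteDimensional ℚ F := hfin'
  have hgal : IsGalois ℚ F := by rw [halg]; exact hgal'
  have hnf : NumberField F := { to_charZero := inferInstance, to_finiteDimensional := hfin }
  let ι : 𝓞 F →+* Zb :=
    { toFun := fun x => ⟨((x : F) : Qb), by
        have hx : IsIntegral ℤ (x : F) := x.2
        exact hx.map (F.val.restrictScalars ℤ)⟩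
      map_one' := rfl
      map_mul' := fun _ _ => rfl
      map_zero' := rfl
      map_add' := fun _ _ => rfl }
  have hι : ∀ x : 𝓞 F, ((ι x : Zb) : Qb) = ((x : F) : Qb) := fun _ => rfl
  let P : Ideal (𝓞 F) := (idealOf A).comap ι
  have hqP : ((q : ℕ) : 𝓞 F) ∈ P := by
    change ι (q : 𝓞 F) ∈ idealOf A
    rw [map_natCast, mem_idealOf]
    exact_mod_cast hA
  obtain ⟨n, a, b, ha, hb, hab⟩ := inertia_field_unram P hq hqP (⟨x, hxF⟩ : F)
    (fun h => hx0 (congrArg Subtype.val h)) (by
    intro g hg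
    obtain ⟨τ, hτ⟩ := exists_extension F g.toRingEquiv
    obtain ⟨ρ, hρ, hρF⟩ := exists_inertia_lift F hstab A τ (by
      intro x hx
      have hxi : IsIntegral ℤ (⟨x, hx⟩ : F) := by
        have hx' : IsIntegral ℤ (x : Qb) := x.2
        exact (isIntegral_algHom_iff (F.val.restrictScalars ℤ) F.val.injective).mp hx'
      obtain ⟨z, hz⟩ : ∃ z : 𝓞 F, (z : F) = ⟨x, hx⟩ := ⟨⟨⟨x, hx⟩, hxi⟩, rfl⟩
      have h1 : ι (g • z - z) ∈ idealOf A := hg z
      rw [map_sub] at h1
      have h2 : ι z = x := by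
        apply Subtype.ext
        rw [hι, hz]
      have h3 : ι (g • z) = τ • x := by
        apply Subtype.ext
        rw [hι]
        have h4 : ((g • z : 𝓞 F) : F) = g (z : F) := rfl
        rw [h4, hz]
        exact (hτ ⟨x, hx⟩).symm
      rw [h2, h3] at h1
      exact h1)
    apply Subtype.ext
    have h1 := mem_KI.mp hx ρ hρ
    rw [hρF x hxF] at h1
    exact (hτ ⟨x, hxF⟩).symm.trans h1)
  have hnot : ∀ c : 𝓞 F, c ∉ P → A.valuation ((c : F) : Qb) = 1 := by
    intro c hc
    have h1 : ι c ∉ idealOf A := hc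
    rw [mem_idealOf] at h1
    have h2 : ((ι c : Zb) : Qb) ∈ A := integralClosure_le_valuationSubring A (ι c).2
    exact le_antisymm ((A.valuation_le_one_iff _).mpr h2) (not_lt.mp h1)
  refine ⟨n, ?_⟩
  have h1 := congrArg (fun z : F => A.valuation (z : Qb)) hab
  simp only [IntermediateField.coe_mul, map_mul] at h1
  have h2 : (((q : F) ^ n : F) : Qb) = (q : Qb) ^ n := by
    exact (map_zpow₀ (algebraMap F Qb) (q : F) n).trans (by rw [map_natCast])
  rw [hnot a ha, hnot b hb, mul_one, one_mul, h2, map_zpow₀] at h1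
  exact h1

/-- (I4) The decomposition group stabilises the inertia field. -/
theorem decomposition_KI (A : ValuationSubring Qb) {σ : GQ} (hσ : σ ∈ A.decompositionSubgroup ℚ)
    {x : Qb} (hx : x ∈ KI A) : σ x ∈ KI A := by
  rw [mem_KI] at hx ⊢
  intro τ hτ
  have h1 : σ⁻¹ * τ * σ ∈ A.inertiaSubgroupIn ℚ := by
    rw [ValuationSubring.inertiaSubgroupIn, Subgroup.mem_map] at hτ ⊢
    obtain ⟨g, hg, rfl⟩ := hτ
    refine ⟨(⟨σ, hσ⟩ : A.decompositionSubgroup ℚ)⁻¹ * g * ⟨σ, hσ⟩, ?_, rfl⟩
    have hn : (A.inertiaSubgroup ℚ).Normal := by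
      rw [ValuationSubring.inertiaSubgroup]
      infer_instance
    have := hn.conj_mem g hg (⟨σ, hσ⟩ : A.decompositionSubgroup ℚ)⁻¹
    rwa [inv_inv] at this
  have h2 := hx _ h1
  have h3 := congrArg σ h2
  have h4 : σ ((σ⁻¹ * τ * σ) x) = τ (σ x) := by
    change (σ * (σ⁻¹ * τ * σ)) x = (τ * σ) x
    congr 1
    group
  rw [← h4, h3]

end Fermat.Agent.LG
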