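import Mathlib
import Fermat.Agent.Geo.Val

/-!
# Kummer extensions attached to finite groups of characters
-/

set_option autoImplicit false
set_option linter.unusedSectionVars false

noncomputable section

namespace Fermat.Agent.LG

open Polynomial IntermediateField
open Fermat.Agent.Geo

/-- The abstract data of a Kummer extension with basis indexed by a finite group. -/
structure KumData {F E X : Type*} [Field F] [Field E] [Algebra F E] [CommGroup X] (m : ℕ) (ζ : F)
    (y : X → E) : Prop where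
  hm : 0 < m
  prim : IsPrimitiveRoot ζ m
  ne_zero : ∀ χ, y χ ≠ 0
  mul : ∀ χ ψ, ∃ a : F, y χ * y ψ = algebraMap F E a * y (χ * ψ)
  one : ∃ a : F, y 1 = algebraMap F E a
  pow : ∀ χ, ∃ a : F, y χ ^ m = algebraMap F E a
  ker : ∀ χ, y χ ∈ Set.range (algebraMap F E) → χ = 1
  top : IntermediateField.adjoin F (Set.range y) = ⊤

namespace KumData

variable {F E X : Type*} [Field F] [Field E] [Algebra F E] [CommGroup X] {m : ℕ} {ζ : F}
  {y : X → E}

theorem mul_ne (h : KumData m ζ y) (χ ψ : X) :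
    ∃ a : F, a ≠ 0 ∧ y χ * y ψ = algebraMap F E a * y (χ * ψ) := by
  obtain ⟨a, ha⟩ := h.mul χ ψ
  refine ⟨a, ?_, ha⟩
  rintro rfl
  rw [map_zero, zero_mul] at ha
  exact mul_ne_zero (h.ne_zero χ) (h.ne_zero ψ) ha

theorem one_ne (h : KumData m ζ y) : ∃ a : F, a ≠ 0 ∧ y 1 = algebraMap F E a := by
  obtain ⟨a, ha⟩ := h.one
  refine ⟨a, ?_, ha⟩
  rintro rfl
  rw [map_zero] at ha
  exact h.ne_zero 1 ha

/-- the span of the `y χ` -/
def spanAlg (h : KumData m ζ y) : Subalgebra F E :=
  (Submodule.span F (Set.range y)).toSubalgebra (by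
    obtain ⟨a, ha, h1⟩ := h.one_ne
    have h2 : (1 : E) = a⁻¹ • y 1 := by
      rw [h1, Algebra.smul_def, ← map_mul, inv_mul_cancel₀ ha, map_one]
    rw [h2]
    exact Submodule.smul_mem _ _ (Submodule.subset_span ⟨1, rfl⟩)) (by
    intro u v hu hv
    induction hu using Submodule.span_induction with
    | zero => rw [zero_mul]; exact zero_mem _
    | add u u' _ _ h1 h2 => rw [add_mul]; exact add_mem h1 h2
    | smul a u _ h1 => rw [smul_mul_assoc]; exact Submodule.smul_mem _ _ h1
    | mem u hu =>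
      obtain ⟨χ, rfl⟩ := hu
      induction hv using Submodule.span_induction with
      | zero => rw [mul_zero]; exact zero_mem _
      | add u u' _ _ h1 h2 => rw [mul_add]; exact add_mem h1 h2
      | smul a u _ h1 => rw [mul_smul_comm]; exact Submodule.smul_mem _ _ h1
      | mem v hv =>
        obtain ⟨ψ, rfl⟩ := hv
        obtain ⟨a, ha⟩ := h.mul χ ψ
        rw [ha, ← Algebra.smul_def]
        exact Submodule.smul_mem _ _ (Submodule.subset_span ⟨_, rfl⟩))

theorem isIntegral_y (h : KumData m ζ y) (χ : X) : IsIntegral F (y χ) := by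
  obtain ⟨a, ha⟩ := h.pow χ
  refine IsIntegral.of_pow h.hm ?_
  rw [ha]
  exact isIntegral_algebraMap

variable [Finite X]

theorem finiteDimensional (h : KumData m ζ y) : FiniteDimensional F E := by
  have h1 : FiniteDimensional F (IntermediateField.adjoin F (Set.range y)) :=
    finiteDimensional_adjoin (by rintro _ ⟨χ, rfl⟩; exact h.isIntegral_y χ)
  rw [h.top] at h1
  exact (topEquiv (F := F) (E := E)).toLinearEquiv.finiteDimensional

theorem mem_span (h : KumData m ζ y) (x : E) : x ∈ Submodule.span F (Set.range y) := by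
  have h1 : x ∈ (IntermediateField.adjoin F (Set.range y)).toSubalgebra := by
    rw [h.top]
    trivial
  rw [adjoin_toSubalgebra_of_isAlgebraic (by
    rintro _ ⟨χ, rfl⟩
    exact (h.isIntegral_y χ).isAlgebraic)] at h1
  have h2 : Algebra.adjoin F (Set.range y) ≤ h.spanAlg := Algebra.adjoin_le fun z hz =>
    Submodule.subset_span hz
  exact h2 h1

theorem exists_sum [Fintype X] (h : KumData m ζ y) (x : E) :
    ∃ a : X → F, x = ∑ χ, algebraMap F E (a χ) * y χ := by
  obtain ⟨a, ha⟩ := (Submodule.mem_span_range_iff_exists_fun F).mp (h.mem_span x)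
  exact ⟨a, by simp only [← Algebra.smul_def]; exact ha.symm⟩

theorem isGalois [CharZero F] (h : KumData m ζ y) : IsGalois F E := by
  have := h.finiteDimensional
  have : Normal F E := by
    refine { toIsAlgebraic := inferInstance, splits' := fun x => ?_ }
    refine splits_of_mem_adjoin F E (S := Set.range y) ?_ (by rw [h.top]; trivial)
    rintro _ ⟨χ, rfl⟩
    refine ⟨h.isIntegral_y χ, ?_⟩
    obtain ⟨a, ha⟩ := h.pow χ
    have h1 : minpoly F (y χ) ∣ Polynomial.X ^ m - Polynomial.C a := minpoly.dvd F _ (by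
      rw [map_sub, map_pow, aeval_X, aeval_C, ha, sub_self])
    have h2 : ((Polynomial.X ^ m - Polynomial.C a : Polynomial F).map (algebraMap F E)).Splits := by
      rw [Polynomial.map_sub, Polynomial.map_pow, Polynomial.map_X, Polynomial.map_C]
      exact X_pow_sub_C_splits_of_isPrimitiveRoot
        (h.prim.map_of_injective (algebraMap F E).injective) ha
    refine h2.of_dvd ?_ (Polynomial.map_dvd _ h1)
    exact (Polynomial.map_ne_zero_iff (algebraMap F E).injective).mpr
      (Polynomial.X_pow_sub_C_ne_zero h.hm a)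
  exact IsGalois.mk

theorem exists_root_aut (h : KumData m ζ y) (g : E ≃ₐ[F] E) (χ : X) :
    ∃ w : F, w ^ m = 1 ∧ g (y χ) = algebraMap F E w * y χ := by
  obtain ⟨a, ha⟩ := h.pow χ
  have h1 : (g (y χ) / y χ) ^ m = 1 := by
    rw [div_pow, ← map_pow, ha, AlgEquiv.commutes, ← ha, div_self (pow_ne_zero _ (h.ne_zero χ))]
  have : NeZero m := ⟨h.hm.ne'⟩
  obtain ⟨i, -, hi⟩ := (h.prim.map_of_injective (algebraMap F E).injective).eq_pow_of_pow_eq_one h1
  refine ⟨ζ ^ i, ?_, ?_⟩
  · rw [← pow_mul, mul_comm, pow_mul, h.prim.pow_eq_one, one_pow]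
  · rw [map_pow, hi, div_mul_cancel₀ _ (h.ne_zero χ)]

/-- The Kummer pairing. -/
theorem exists_hom (h : KumData m ζ y) (g : E ≃ₐ[F] E) :
    ∃ w : X →* rootsOfUnity m F, ∀ χ, g (y χ) = algebraMap F E ((w χ : Fˣ) : F) * y χ := by
  have : NeZero m := ⟨h.hm.ne'⟩
  choose w hw hgw using h.exists_root_aut g
  have hw0 : ∀ χ, w χ ≠ 0 := by
    intro χ h0
    have := hw χ
    rw [h0, zero_pow h.hm.ne'] at this
    exact zero_ne_one this
  have hmul : ∀ χ ψ, w (χ * ψ) = w χ * w ψ := by
    intro χ ψ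
    obtain ⟨a, ha0, ha⟩ := h.mul_ne χ ψ
    have h1 := congrArg g ha
    rw [map_mul, map_mul, hgw, hgw, hgw, AlgEquiv.commutes] at h1
    have h2 : algebraMap F E (w (χ * ψ)) * (algebraMap F E a * y (χ * ψ)) =
        algebraMap F E (w χ * w ψ) * (algebraMap F E a * y (χ * ψ)) := by
      rw [map_mul]
      calc _ = algebraMap F E a * (algebraMap F E (w (χ * ψ)) * y (χ * ψ)) := by ring
        _ = algebraMap F E (w χ) * y χ * (algebraMap F E (w ψ) * y ψ) := h1.symm
        _ = algebraMap F E (w χ) * algebraMap F E (w ψ) * (y χ * y ψ) := by ring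
        _ = _ := by rw [ha]
    have h3 : algebraMap F E a * y (χ * ψ) ≠ 0 :=
      mul_ne_zero (by rwa [Ne, _root_.map_eq_zero]) (h.ne_zero _)
    exact (algebraMap F E).injective (mul_right_cancel₀ h3 h2)
  have hone : w 1 = 1 := by
    have h1 := hmul 1 1
    rw [mul_one] at h1
    exact (mul_left_cancel₀ (hw0 1) (by rw [mul_one]; exact h1)).symm
  refine ⟨{ toFun := fun χ => rootsOfUnity.mkOfPowEq (w χ) (hw χ), map_one' := ?_, map_mul' := ?_ },
    fun χ => ?_⟩
  · ext
    simp [hone]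
  · intro χ ψ
    ext
    simp [hmul]
  · change _ = algebraMap F E (((rootsOfUnity.mkOfPowEq (w χ) (hw χ) : rootsOfUnity m F) : Fˣ) : F) *
      _
    rw [rootsOfUnity.val_mkOfPowEq_coe, hgw]

theorem eq_one_of_fixed [CharZero F] (h : KumData m ζ y) {χ : X}
    (hfix : ∀ g : E ≃ₐ[F] E, g (y χ) = y χ) : χ = 1 := by
  have := h.isGalois
  have := h.finiteDimensional
  exact h.ker χ ((IsGalois.mem_range_algebraMap_iff_fixed (y χ)).mpr hfix)

theorem trace_eq_zero [CharZero F] (h : KumData m ζ y) {χ : X} (hχ : χ ≠ 1) (a : F) :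
    Algebra.trace F E (algebraMap F E a * y χ) = 0 := by
  by_contra hne
  apply hχ
  refine h.eq_one_of_fixed fun g => ?_
  obtain ⟨w, hw, hgw⟩ := h.exists_root_aut g χ
  have h1 := Algebra.trace_eq_of_algEquiv g (algebraMap F E a * y χ)
  rw [map_mul, AlgEquiv.commutes, hgw, mul_left_comm, ← Algebra.smul_def w, map_smul,
    smul_eq_mul] at h1
  have h2 : w = 1 := mul_right_cancel₀ hne (h1.trans (one_mul _).symm)
  rw [hgw, h2, map_one, one_mul]

/-- A Kummer extension all of whose generators are units up to scaling is unramified. -/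
theorem unr [CharZero F] (h : KumData m ζ y) (V : ValuationSubring F)
    (hQ : ∀ n : ℕ, n ≠ 0 → ((n : F))⁻¹ ∈ V)
    (hunit : ∀ χ, ∃ f : F, f ≠ 0 ∧ ∃ u : F, u ∈ V ∧ u⁻¹ ∈ V ∧
      algebraMap F E u = (algebraMap F E f * y χ) ^ m) : Unr V.toSubring E := by
  classical
  have hfd := h.finiteDimensional
  have : Fintype X := Fintype.ofFinite X
  intro x hx
  choose f hf0 u hu hui hfu using hunit
  have hv0 : ∀ χ, algebraMap F E (f χ) * y χ ≠ 0 := fun χ =>
    mul_ne_zero (by rw [Ne, _root_.map_eq_zero]; exact hf0 χ) (h.ne_zero χ)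
  have hint : ∀ χ, IntOver V.toSubring (algebraMap F E (f χ) * y χ) := by
    intro χ
    refine ⟨Polynomial.X ^ m - Polynomial.C ⟨u χ, hu χ⟩, monic_X_pow_sub_C _ h.hm.ne', ?_⟩
    rw [eval₂_sub, eval₂_X_pow, eval₂_C, ← hfu]
    exact sub_self _
  have hint' : ∀ χ, IntOver V.toSubring (algebraMap F E (f χ) * y χ)⁻¹ := by
    intro χ
    refine ⟨Polynomial.X ^ m - Polynomial.C ⟨(u χ)⁻¹, hui χ⟩, monic_X_pow_sub_C _ h.hm.ne', ?_⟩
    rw [eval₂_sub, eval₂_X_pow, eval₂_C, inv_pow, ← hfu]
    change (algebraMap F E (u χ))⁻¹ - algebraMap F E (u χ)⁻¹ = 0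
    rw [map_inv₀, sub_self]
  obtain ⟨a, ha⟩ := h.exists_sum x
  -- the coefficients in terms of the scaled generators
  have ha' : x = ∑ χ, algebraMap F E (a χ / f χ) * (algebraMap F E (f χ) * y χ) := by
    rw [ha]
    refine Finset.sum_congr rfl fun χ _ => ?_
    rw [map_div₀]
    have : algebraMap F E (f χ) ≠ 0 := by rw [Ne, _root_.map_eq_zero]; exact hf0 χ
    field_simp
  have hcoef : ∀ ψ, a ψ / f ψ ∈ V := by
    intro ψ
    have h1 := hx _ (hint' ψ)
    have h2 : Algebra.trace F E (x * (algebraMap F E (f ψ) * y ψ)⁻¹) =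
        (Module.finrank F E : F) * (a ψ / f ψ) := by
      rw [ha', Finset.sum_mul, map_sum, Finset.sum_eq_single ψ]
      · rw [mul_assoc, mul_inv_cancel₀ (hv0 ψ), mul_one, Algebra.trace_algebraMap, nsmul_eq_mul]
      · intro χ _ hχ
        -- `y χ / y ψ` is a multiple of `y (χ ψ⁻¹)`
        obtain ⟨b, hb0, hb⟩ := h.mul_ne (χ * ψ⁻¹) ψ
        rw [inv_mul_cancel_right] at hb
        have hb1 : algebraMap F E b ≠ 0 := by rw [Ne, _root_.map_eq_zero]; exact hb0
        have hf1 : algebraMap F E (f χ) ≠ 0 := by rw [Ne, _root_.map_eq_zero]; exact hf0 χ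
        have hf2 : algebraMap F E (f ψ) ≠ 0 := by rw [Ne, _root_.map_eq_zero]; exact hf0 ψ
        have hyψ := h.ne_zero ψ
        have h3 : algebraMap F E (a χ / f χ) * (algebraMap F E (f χ) * y χ) *
            (algebraMap F E (f ψ) * y ψ)⁻¹ =
            algebraMap F E (a χ / f χ * f χ * (f ψ)⁻¹ * b⁻¹) * y (χ * ψ⁻¹) := by
          rw [map_mul, map_mul, map_mul, map_inv₀, map_inv₀]
          have h4 : y χ = (algebraMap F E b)⁻¹ * (y (χ * ψ⁻¹) * y ψ) := by
            rw [hb, inv_mul_cancel_left₀ hb1]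
          rw [h4]
          field_simp
        rw [h3]
        exact h.trace_eq_zero (fun h4 => hχ (mul_inv_eq_one.mp h4)) _
      · intro hψ
        exact absurd (Finset.mem_univ ψ) hψ
    rw [h2] at h1
    have hn : Module.finrank F E ≠ 0 := Module.finrank_pos.ne'
    have h3 := V.mul_mem _ _ (hQ _ hn) h1
    rwa [inv_mul_cancel_left₀ (Nat.cast_ne_zero.mpr hn)] at h3
  rw [ha']
  have : ∀ s : Finset X, IntOver V.toSubring
      (∑ χ ∈ s, algebraMap F E (a χ / f χ) * (algebraMap F E (f χ) * y χ)) := by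
    intro s
    induction s using Finset.induction_on with
    | empty =>
      rw [Finset.sum_empty, ← map_zero (algebraMap F E)]
      exact intOver_algebraMap (zero_mem _)
    | insert χ s hχ ih =>
      rw [Finset.sum_insert hχ]
      exact IntOver.add ((intOver_algebraMap (hcoef χ)).mul (hint χ)) ih
  exact this _

end KumData

end Fermat.Agent.LG
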