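import Mathlib
import Fermat.Agent.LG.KX4
import Fermat.Agent.LG.KX5
import Fermat.Agent.LG.Sub
import Fermat.Agent.Geo.SplitChart

/-!
# The Kummer cover of `X₀(N)` attached to a group of characters
-/

set_option autoImplicit false
set_option linter.unusedSectionVars false

noncomputable section

namespace Fermat.Agent.LG

open ModularForm IntermediateField
open scoped MatrixGroups
open Fermat.Agent.ModFun Fermat.Agent.ESCore Fermat.Agent.FunField Fermat.Agent.Geo
open CongruenceSubgroup (Gamma0 Gamma0_mem)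

universe u

variable {L : Type u} [Field L] {ι : L →+* ℂ} {N : ℕ} [NeZero N]
  {X : Subgroup (Gamma0 N →* ℂˣ)} {y : X → LaurentSeries L}

/-- The cover generated by the series `y χ`. -/
def coverE (N : ℕ) [NeZero N] {X : Subgroup (Gamma0 N →* ℂˣ)} (y : X → LaurentSeries L) :
    IntermediateField L (LaurentSeries L) :=
  IntermediateField.adjoin L ((F0 L N : Set (LaurentSeries L)) ∪ Set.range y)

theorem F0_le_coverE : F0 L N ≤ coverE N y := fun _ hx =>
  IntermediateField.subset_adjoin _ _ (Or.inl hx)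

theorem mem_coverE (χ : X) : y χ ∈ coverE N y :=
  IntermediateField.subset_adjoin _ _ (Or.inr ⟨χ, rfl⟩)

/-- the generators in the cover -/
def yE (y : X → LaurentSeries L) (χ : X) : coverE N y := ⟨y χ, mem_coverE χ⟩

theorem coe_yE (χ : X) : ((yE y χ : coverE N y) : LaurentSeries L) = y χ := rfl

/-- abstract generation statement -/
theorem adjoin_range_eq_top_of {k F E : Type*} [Field k] [Field F] [Field E] [Algebra k F]
    [Algebra F E] [Algebra k E] [IsScalarTower k F E] {X : Type*} (y : X → E)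
    (h : IntermediateField.adjoin k (Set.range (algebraMap F E) ∪ Set.range y) = ⊤) :
    IntermediateField.adjoin F (Set.range y) = ⊤ := by
  rw [eq_top_iff]
  rintro x -
  have h1 : IntermediateField.adjoin k (Set.range (algebraMap F E) ∪ Set.range y) ≤
      (IntermediateField.adjoin F (Set.range y)).restrictScalars k := by
    rw [IntermediateField.adjoin_le_iff]
    rintro z (⟨a, rfl⟩ | hz)
    · exact (IntermediateField.adjoin F (Set.range y)).algebraMap_mem a
    · exact subset_adjoin F _ hz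
  rw [h] at h1
  exact h1 trivial

theorem adjoin_self_eq_top {k K : Type*} [Field k] [Field K] [Algebra k K] (S : Set K) :
    IntermediateField.adjoin k {x : IntermediateField.adjoin k S | (x : K) ∈ S} = ⊤ := by
  apply IntermediateField.map_injective (IntermediateField.adjoin k S).val
  rw [IntermediateField.adjoin_map, ← AlgHom.fieldRange_eq_map, IntermediateField.fieldRange_val]
  congr 1
  ext x
  constructor
  · rintro ⟨z, hz, rfl⟩
    exact hz
  · intro hx
    exact ⟨⟨x, subset_adjoin k S hx⟩, hx, rfl⟩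

theorem cover_top :
    letI := algI (F0_le_coverE (N := N) (y := y))
    IntermediateField.adjoin (F0 L N) (Set.range (yE (N := N) y)) = ⊤ := by
  letI := algI (F0_le_coverE (N := N) (y := y))
  haveI := tower_L (F0_le_coverE (N := N) (y := y))
  refine adjoin_range_eq_top_of (k := L) _ ?_
  rw [eq_top_iff]
  have h1 := adjoin_self_eq_top (k := L) ((F0 L N : Set (LaurentSeries L)) ∪ Set.range y)
  refine h1.ge.trans (IntermediateField.adjoin.mono _ _ _ ?_)
  rintro z (hz | ⟨χ, hχ⟩)
  · exact Or.inl ⟨⟨z, hz⟩, rfl⟩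
  · exact Or.inr ⟨χ, Subtype.ext hχ⟩

theorem kumData {m : ℕ} (hm : 0 < m) {ζ : L} (hζ : IsPrimitiveRoot ζ m)
    (hX : ∀ χ ∈ X, χ ^ m = 1) (hy0 : ∀ χ, y χ ≠ 0)
    (hy : ∀ χ : X, XSer ι N (χ : Gamma0 N →* ℂˣ) (y χ)) :
    letI := algI (F0_le_coverE (N := N) (y := y))
    KumData m (algebraMap L (F0 L N) ζ) (yE (N := N) y) := by
  let _ := algI (F0_le_coverE (N := N) (y := y))
  refine { hm := hm, prim := hζ.map_of_injective (algebraMap L (F0 L N)).injective,
           ne_zero := fun χ h => hy0 χ (congrArg Subtype.val h), mul := fun χ ψ => ?_,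
           one := ⟨⟨y 1, (hy 1).mem_F0⟩, rfl⟩, pow := fun χ => ?_, ker := fun χ hχ => ?_,
           top := cover_top }
  · have h1 := XSer.div_mem hm (hX _ (χ * ψ).2) (hy (χ * ψ)) (hy0 _) ((hy χ).mul (hy ψ))
    refine ⟨⟨_, h1⟩, ?_⟩
    apply Subtype.ext
    change y χ * y ψ = y χ * y ψ / y (χ * ψ) * y (χ * ψ)
    rw [div_mul_cancel₀ _ (hy0 _)]
  · exact ⟨⟨y χ ^ m, (hy χ).pow_mem_F0 (hX _ χ.2)⟩, rfl⟩
  · obtain ⟨a, ha⟩ := hχ
    have h1 : y χ ∈ F0 L N := by
      have h2 : (a : LaurentSeries L) = y χ := congrArg Subtype.val ha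
      rw [← h2]
      exact a.2
    exact Subtype.ext ((hy χ).eq_one_of_mem (hy0 χ) h1)

/-- The cover is unramified over all non-trivial valuation rings containing the constants. -/
theorem unr_cover (hN : NoEll N) {m : ℕ} (hm : 0 < m) {ζ : L} (hζ : IsPrimitiveRoot ζ m)
    [Finite X] (hX : ∀ χ ∈ X, χ ^ m = 1) (hXp : ∀ χ ∈ X, IsPar χ) (hy0 : ∀ χ, y χ ≠ 0)
    (hy : ∀ χ : X, XSer ι N (χ : Gamma0 N →* ℂˣ) (y χ)) (W : ValuationSubring (F0 L N))
    (hW : W ≠ ⊤) (hL : ∀ a : L, algebraMap L (F0 L N) a ∈ W) :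
    letI := algI (F0_le_coverE (N := N) (y := y))
    Unr W.toSubring (coverE N y) := by
  let _ := algI (F0_le_coverE (N := N) (y := y))
  have hch : CharZero L := (ι.charZero_iff ι.injective).mpr inferInstance
  have : CharZero (F0 L N) := charZero_of_injective_algebraMap (algebraMap L (F0 L N)).injective
  refine (kumData hm hζ hX hy0 hy).unr W (fun n hn => ?_) fun χ => ?_
  · have h1 := hL (n : L)⁻¹
    rwa [map_inv₀, map_natCast] at h1
  · obtain ⟨f, hf0, hf1, hf2⟩ := exists_unit_of_isPar ι hN (hXp _ χ.2) hm (hX _ χ.2) (hy χ)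
      (hy0 χ) W hW hL
    refine ⟨f, hf0, _, hf1, hf2, ?_⟩
    rw [mul_pow, map_mul, map_pow]
    rfl

theorem unrGen_cover {O : Type u} [CommRing O] [IsDomain O] [IsDiscreteValuationRing O]
    [Algebra O L] [IsFractionRing O L] {π : O} (hπ : Prime π) (hN : NoEll N) {m : ℕ} (hm : 0 < m)
    {ζ : L} (hζ : IsPrimitiveRoot ζ m) [Finite X] (hX : ∀ χ ∈ X, χ ^ m = 1)
    (hXp : ∀ χ ∈ X, IsPar χ) (hy0 : ∀ χ, y χ ≠ 0)
    (hy : ∀ χ : X, XSer ι N (χ : Gamma0 N →* ℂˣ) (y χ)) :
    letI := algO O (F0 L N)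
    letI := algI (F0_le_coverE (N := N) (y := y))
    UnrGen O π (F0 L N) (coverE N y) := by
  let _ := algO O (F0 L N)
  let _ := algI (F0_le_coverE (N := N) (y := y))
  intro W hdvr hO hπW
  have hL : ∀ a : L, algebraMap L (F0 L N) a ∈ W := by
    intro a
    obtain ⟨x, s, hs, rfl⟩ := IsFractionRing.div_surjective (A := O) a
    have hs0 : s ≠ 0 := nonZeroDivisors.ne_zero hs
    obtain ⟨n, u, rfl⟩ := IsDiscreteValuationRing.eq_unit_mul_pow_irreducible hs0 hπ.irreducible
    have h1 : algebraMap L (F0 L N) (algebraMap O L x / algebraMap O L ((u : O) * π ^ n)) =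
        algebraMap O (F0 L N) (x * ((u⁻¹ : Oˣ) : O)) * ((algebraMap O (F0 L N) π)⁻¹) ^ n := by
      change algebraMap L (F0 L N) _ = algebraMap L (F0 L N) (algebraMap O L _) *
        ((algebraMap L (F0 L N) (algebraMap O L π))⁻¹) ^ n
      rw [← map_inv₀, ← map_pow, ← map_mul]
      congr 1
      have hu : algebraMap O L (u : O) * algebraMap O L ((u⁻¹ : Oˣ) : O) = 1 := by
        rw [← map_mul, Units.mul_inv, map_one]
      have hu0 : algebraMap O L (u : O) ≠ 0 := left_ne_zero_of_mul_eq_one hu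
      have hπ0 : algebraMap O L π ≠ 0 := by
        intro h
        exact hπ.ne_zero ((IsFractionRing.to_map_eq_zero_iff (K := L)).mp h)
      have hπn := pow_ne_zero n hπ0
      rw [map_mul, map_mul, map_pow, eq_inv_of_mul_eq_one_right hu, inv_pow]
      field_simp
    rw [h1]
    exact mul_mem (hO _) (pow_mem hπW n)
  have hW : W ≠ ⊤ := by
    intro h
    apply IsDiscreteValuationRing.not_isField W
    subst h
    refine ⟨⟨0, 1, zero_ne_one⟩, mul_comm, fun {a} ha => ?_⟩
    refine ⟨⟨(a : F0 L N)⁻¹, ValuationSubring.mem_top _⟩, ?_⟩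
    exact Subtype.ext (mul_inv_cancel₀ fun h => ha (Subtype.ext h))
  exact unr_cover hN hm hζ hX hXp hy0 hy W hW hL

end Fermat.Agent.LG
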