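import Mathlib
import Fermat.Agent.LG.Gauss
import Fermat.Prelude.Def_ModularCurve_X0
import Fermat.Prelude.Thm_ModularCurve_coeffMap_qExpand

/-!
Reduction of the Gauss ring, the substitution `q ↦ q^l` and Frobenius.
-/

set_option autoImplicit false
set_option linter.unusedSectionVars false

open IsLocalRing ModularCurve

noncomputable section

universe u

namespace Fermat.Agent.LG

section CharP

variable {κ : Type*} [CommRing κ] (q : ℕ) [NeZero q]

theorem qExpand_ofPowerSeries (f : PowerSeries κ) :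
    qExpand κ q (HahnSeries.ofPowerSeries ℤ κ f) =
      HahnSeries.ofPowerSeries ℤ κ (f.expand q (NeZero.ne q)) := by
  ext k
  by_cases hk : (q : ℤ) ∣ k
  · obtain ⟨m, rfl⟩ := hk
    rw [qExpand_coeff_mul]
    rcases lt_or_ge m 0 with hm | hm
    · rw [PowerSeries.coeff_coe, if_pos hm, PowerSeries.coeff_coe, if_pos]
      have : (0 : ℤ) < q := by exact_mod_cast Nat.pos_of_ne_zero (NeZero.ne q)
      nlinarith
    · obtain ⟨n, rfl⟩ := Int.eq_ofNat_of_zero_le hm
      rw [PowerSeries.coeff_coe, if_neg (by omega), PowerSeries.coeff_coe,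
        if_neg (not_lt.mpr (by positivity))]
      have h1 : ((q : ℤ) * (n : ℤ)).natAbs = q * n := by
        rw [Int.natAbs_mul, Int.natAbs_natCast, Int.natAbs_natCast]
      rw [h1, PowerSeries.coeff_expand_mul]
      simp
  · rw [qExpand_coeff_of_not_dvd q _ hk, PowerSeries.coeff_coe]
    split_ifs with h
    · rfl
    · rw [PowerSeries.coeff_expand_of_not_dvd]
      intro hdvd
      apply hk
      exact Int.natCast_dvd.mpr hdvd

theorem coeffMap_ofPowerSeries {κ' : Type*} [CommRing κ'] (φ : κ →+* κ') (f : PowerSeries κ) :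
    coeffMap φ (HahnSeries.ofPowerSeries ℤ κ f) = HahnSeries.ofPowerSeries ℤ κ' (f.map φ) := by
  ext k
  rw [coeffMap_coeff, PowerSeries.coeff_coe, PowerSeries.coeff_coe]
  split_ifs with h
  · exact map_zero _
  · rw [PowerSeries.coeff_map]

/-- Frobenius on Laurent series. -/
theorem pow_eq_qExpand [ExpChar κ q] (X : LaurentSeries κ) :
    X ^ q = qExpand κ q (coeffMap (frobenius κ q) X) := by
  have h1 := LaurentSeries.single_order_mul_powerSeriesPart X
  set f := X.powerSeriesPart with hf
  have h2 : f ^ q = (f.expand q (NeZero.ne q)).map (frobenius κ q) :=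
    (MvPowerSeries.map_frobenius_expand q (NeZero.ne q)).symm
  conv_lhs => rw [← h1]
  conv_rhs => rw [← h1]
  rw [mul_pow, map_mul, map_mul, coeffMap_single, (frobenius κ q).map_one, qExpand_single,
    HahnSeries.single_pow, one_pow]
  rw [nsmul_eq_mul]
  congr 1
  rw [← map_pow, h2, coeffMap_ofPowerSeries, qExpand_ofPowerSeries, PowerSeries.map_expand]

end CharP

section Gauss

variable {O : Type*} [CommRing O] [IsDomain O] [IsDiscreteValuationRing O]
variable {L : Type*} [Field L] [Algebra O L] [IsFractionRing O L] (q : ℕ) [NeZero q]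

theorem qExpand_toL (a : LaurentSeries O) : qExpand L q (toL O L a) = toL O L (qExpand O q a) :=
  (coeffMap_qExpand _ _ _).symm

theorem qExpand_toK (a : LaurentSeries O) :
    qExpand (ResidueField O) q (toK O a) = toK O (qExpand O q a) :=
  (coeffMap_qExpand _ _ _).symm

theorem qExpand_mem_gV {x : LaurentSeries L} (hx : x ∈ gV O L) : qExpand L q x ∈ gV O L := by
  obtain ⟨a, b, hb, h⟩ := hx
  refine ⟨qExpand O q a, qExpand O q b, ?_, ?_⟩
  · rw [← qExpand_toK]
    exact (map_ne_zero_iff _ (qExpand_injective q)).mpr hb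
  · rw [← qExpand_toL, ← qExpand_toL, ← h, map_mul]

theorem gR_qExpand {x : LaurentSeries L} (hx : x ∈ gV O L) :
    gR (⟨qExpand L q x, qExpand_mem_gV q hx⟩ : gV O L) =
      qExpand (ResidueField O) q (gR (⟨x, hx⟩ : gV O L)) := by
  have hx' := hx
  obtain ⟨a, b, hb, h⟩ := hx'
  have e1 : gR (⟨x, hx⟩ : gV O L) = toK O a / toK O b := gR_eq hb h
  rw [e1]
  refine (gR_eq (a := qExpand O q a) (b := qExpand O q b) ?_ ?_).trans ?_
  · rw [← qExpand_toK]
    exact (map_ne_zero_iff _ (qExpand_injective q)).mpr hb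
  · change toL O L (qExpand O q b) * qExpand L q x = _
    rw [← qExpand_toL, ← qExpand_toL, ← h, map_mul]
  · rw [← qExpand_toK, ← qExpand_toK, map_div₀]

/-- the automorphism of the residue field -/
def dbar (d : O ≃+* O) : ResidueField O →+* ResidueField O :=
  haveI : IsLocalHom (d : O →+* O) := ⟨fun a ha => by
    have := ha.map (d.symm : O →+* O)
    simpa using this⟩
  ResidueField.map (d : O →+* O)

theorem dbar_residue (d : O ≃+* O) (a : O) : dbar d (residue O a) = residue O (d a) := rfl

/-- the automorphism of the fraction field -/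
def dL (L : Type*) [Field L] [Algebra O L] [IsFractionRing O L] (d : O ≃+* O) : L ≃+* L :=
  IsFractionRing.ringEquivOfRingEquiv d

@[simp] theorem dL_algebraMap (d : O ≃+* O) (a : O) :
    dL L d (algebraMap O L a) = algebraMap O L (d a) := by
  unfold dL
  exact IsFractionRing.ringEquivOfRingEquiv_algebraMap d a

theorem coeffMap_dL_toL (d : O ≃+* O) (a : LaurentSeries O) :
    coeffMap (dL L d : L →+* L) (toL O L a) = toL O L (coeffMap (d : O →+* O) a) := by
  ext n
  rw [coeffMap_coeff, toL_coeff, toL_coeff, coeffMap_coeff]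
  exact dL_algebraMap d _

theorem toK_coeffMap_d (d : O ≃+* O) (a : LaurentSeries O) :
    toK O (coeffMap (d : O →+* O) a) = coeffMap (dbar d) (toK O a) := by
  ext n
  rfl

theorem coeffMap_injective' {R S : Type*} [CommRing R] [CommRing S] {f : R →+* S}
    (hf : Function.Injective f) : Function.Injective (coeffMap f) := by
  intro x y h
  ext n
  exact hf (congrArg (fun z : LaurentSeries S => z.coeff n) h)

theorem coeffMap_mem_gV (d : O ≃+* O) {x : LaurentSeries L} (hx : x ∈ gV O L) :
    coeffMap (dL L d : L →+* L) x ∈ gV O L := by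
  obtain ⟨a, b, hb, h⟩ := hx
  refine ⟨coeffMap (d : O →+* O) a, coeffMap (d : O →+* O) b, ?_, ?_⟩
  · rw [toK_coeffMap_d]
    exact (map_ne_zero_iff _ (coeffMap_injective' (dbar d).injective)).mpr hb
  · rw [← coeffMap_dL_toL, ← coeffMap_dL_toL, ← h, map_mul]

theorem gR_coeffMap (d : O ≃+* O) {x : LaurentSeries L} (hx : x ∈ gV O L) :
    gR (⟨coeffMap (dL L d : L →+* L) x, coeffMap_mem_gV d hx⟩ : gV O L) =
      coeffMap (dbar d) (gR (⟨x, hx⟩ : gV O L)) := by
  have hx' := hx
  obtain ⟨a, b, hb, h⟩ := hx'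
  have e1 : gR (⟨x, hx⟩ : gV O L) = toK O a / toK O b := gR_eq hb h
  rw [e1]
  refine (gR_eq (a := coeffMap (d : O →+* O) a) (b := coeffMap (d : O →+* O) b) ?_ ?_).trans ?_
  · rw [toK_coeffMap_d]
    exact (map_ne_zero_iff _ (coeffMap_injective' (dbar d).injective)).mpr hb
  · change toL O L (coeffMap (d : O →+* O) b) * coeffMap (dL L d : L →+* L) x = _
    rw [← coeffMap_dL_toL, ← coeffMap_dL_toL, ← h, map_mul]
  · rw [toK_coeffMap_d, toK_coeffMap_d, map_div₀]

end Gauss

end Fermat.Agent.LG
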