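import Mathlib
import Fermat.Agent.LG.FrobRed
import Fermat.Agent.ModFun.Exp
import Fermat.Agent.LG.KX1

/-!
# The norm operator on Laurent series
-/

set_option autoImplicit false
set_option linter.unusedSectionVars false

open IsLocalRing ModularCurve Fermat.Agent.ModFun

noncomputable section

namespace Fermat.Agent.LG

section Contr

variable (R : Type*) [CommRing R] (q : ℕ) [NeZero q]

/-- contraction of the exponents -/
def contr (x : LaurentSeries R) : LaurentSeries R :=
  HahnSeries.ofSuppBddBelow (fun n => x.coeff (q * n)) (by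
    refine ⟨-|x.order|, ?_⟩
    intro n hn
    rw [Function.mem_support] at hn
    by_contra h
    push Not at h
    apply hn
    apply HahnSeries.coeff_eq_zero_of_lt_order
    have hq : (1 : ℤ) ≤ q := by exact_mod_cast Nat.one_le_iff_ne_zero.mpr (NeZero.ne q)
    have h1 : n < 0 := lt_of_lt_of_le h (neg_nonpos.mpr (abs_nonneg _))
    have h2 : (q : ℤ) * n ≤ n := by nlinarith
    have h3 : -|x.order| ≤ x.order := neg_abs_le _
    omega)

variable {R}

@[simp] theorem contr_coeff (x : LaurentSeries R) (n : ℤ) :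
    (contr R q x).coeff n = x.coeff (q * n) := rfl

theorem qExpand_contr {x : LaurentSeries R} (h : ∀ n : ℤ, ¬ (q : ℤ) ∣ n → x.coeff n = 0) :
    qExpand R q (contr R q x) = x := by
  ext n
  by_cases hn : (q : ℤ) ∣ n
  · obtain ⟨m, rfl⟩ := hn
    rw [qExpand_coeff_mul, contr_coeff]
  · rw [qExpand_coeff_of_not_dvd q _ hn, h n hn]

theorem contr_qExpand (x : LaurentSeries R) : contr R q (qExpand R q x) = x := by
  ext n
  rw [contr_coeff, qExpand_coeff_mul]

theorem contr_coeffMap {S : Type*} [CommRing S] (f : R →+* S) (x : LaurentSeries R) :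
    contr S q (coeffMap f x) = coeffMap f (contr R q x) := by
  ext n
  rfl

end Contr

section Norm

variable {R : Type*} [CommRing R] (q : ℕ) [NeZero q] (ζ : Rˣ)

/-- the product of the twists -/
def twN (x : LaurentSeries R) : LaurentSeries R := ∏ j : Fin q, twist (ζ ^ (j : ℕ)) x

theorem twist_twist (u v : Rˣ) (x : LaurentSeries R) : twist u (twist v x) = twist (u * v) x := by
  ext n
  rw [twist_coeff, twist_coeff, twist_coeff, mul_zpow, Units.val_mul, mul_assoc]

theorem twist_one' (x : LaurentSeries R) : twist (1 : Rˣ) x = x := by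
  ext n
  rw [twist_coeff, one_zpow, Units.val_one, one_mul]

theorem twist_eq_self {x : LaurentSeries R} {u : Rˣ} (h : twist u x = x) (n : ℤ) :
    (((u ^ n : Rˣ) : R) - 1) * x.coeff n = 0 := by
  have h1 := congrArg (fun z : LaurentSeries R => z.coeff n) h
  simp only [twist_coeff] at h1
  rw [sub_mul, one_mul, h1, sub_self]

theorem twist_twN (h : ζ ^ q = 1) (x : LaurentSeries R) : twist ζ (twN q ζ x) = twN q ζ x := by
  rw [twN, map_prod]
  have h1 : ∀ j : Fin q, twist ζ (twist (ζ ^ (j : ℕ)) x) =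
      twist (ζ ^ ((finRotate q j : Fin q) : ℕ)) x := by
    intro j
    rw [twist_twist, ← pow_succ']
    congr 1
    obtain ⟨k, rfl⟩ : ∃ k, q = k + 1 := ⟨q - 1, (Nat.succ_pred_eq_of_ne_zero (NeZero.ne q)).symm⟩
    rcases eq_or_ne j (Fin.last k) with rfl | hj
    · rw [finRotate_last, Fin.val_last, h, Fin.val_zero, pow_zero]
    · rw [coe_finRotate_of_ne_last hj]
  rw [Finset.prod_congr rfl fun j _ => h1 j]
  exact Equiv.prod_comp (finRotate q) fun j : Fin q => twist (ζ ^ (j : ℕ)) x

theorem twN_coeff_eq_zero [IsDomain R] (h : IsPrimitiveRoot ζ q) (x : LaurentSeries R) {n : ℤ}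
    (hn : ¬ (q : ℤ) ∣ n) : (twN q ζ x).coeff n = 0 := by
  have h1 := twist_eq_self (twist_twN q ζ h.pow_eq_one x) n
  rcases mul_eq_zero.mp h1 with h2 | h2
  · exfalso
    apply hn
    rw [← h.zpow_eq_one_iff_dvd]
    exact Units.ext (sub_eq_zero.mp h2)
  · exact h2

/-- the multiplicative operator `U_q` on Laurent series -/
def uN (x : LaurentSeries R) : LaurentSeries R := contr R q (twN q ζ x)

variable {q ζ}

theorem qExpand_uN [IsDomain R] (h : IsPrimitiveRoot ζ q) (x : LaurentSeries R) :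
    qExpand R q (uN q ζ x) = twN q ζ x :=
  qExpand_contr q fun _ hn => twN_coeff_eq_zero q ζ h x hn

theorem twN_mul (x y : LaurentSeries R) : twN q ζ (x * y) = twN q ζ x * twN q ζ y := by
  simp [twN, Finset.prod_mul_distrib]

theorem twN_one : twN q ζ (1 : LaurentSeries R) = 1 := by
  simp [twN]

theorem uN_mul [IsDomain R] (h : IsPrimitiveRoot ζ q) (x y : LaurentSeries R) :
    uN q ζ (x * y) = uN q ζ x * uN q ζ y := by
  apply qExpand_injective q
  rw [qExpand_uN h, twN_mul, map_mul, qExpand_uN h, qExpand_uN h]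

theorem uN_one [IsDomain R] (h : IsPrimitiveRoot ζ q) : uN q ζ (1 : LaurentSeries R) = 1 := by
  apply qExpand_injective q
  rw [qExpand_uN h, twN_one, map_one]

/-- the operator as a homomorphism -/
def uNH [IsDomain R] (h : IsPrimitiveRoot ζ q) : LaurentSeries R →* LaurentSeries R where
  toFun := uN q ζ
  map_one' := uN_one h
  map_mul' := uN_mul h

theorem uN_pow [IsDomain R] (h : IsPrimitiveRoot ζ q) (x : LaurentSeries R) (n : ℕ) :
    uN q ζ (x ^ n) = uN q ζ x ^ n := map_pow (uNH h) x n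

theorem twist_C (u : Rˣ) (c : R) : twist u (HahnSeries.C c : LaurentSeries R) = HahnSeries.C c := by
  ext n
  rw [twist_coeff, HahnSeries.C_apply]
  rcases eq_or_ne n 0 with rfl | hn
  · simp
  · rw [HahnSeries.coeff_single_of_ne hn, mul_zero]

theorem uN_C [IsDomain R] (h : IsPrimitiveRoot ζ q) (c : R) :
    uN q ζ (HahnSeries.C c) = HahnSeries.C (c ^ q) := by
  apply qExpand_injective q
  rw [qExpand_uN h, qExpand_C, twN,
    Finset.prod_congr rfl fun (j : Fin q) _ => twist_C (ζ ^ (j : ℕ)) c,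
    Finset.prod_const, Finset.card_univ, Fintype.card_fin, map_pow]

theorem uN_zero [IsDomain R] (h : IsPrimitiveRoot ζ q) : uN q ζ (0 : LaurentSeries R) = 0 := by
  have h1 := uN_C h (0 : R)
  rwa [map_zero, zero_pow (NeZero.ne q), map_zero] at h1

theorem coeffMap_twist {S : Type*} [CommRing S] (f : R →+* S) (u : Rˣ) (x : LaurentSeries R) :
    coeffMap f (twist u x) = twist (Units.map (f : R →* S) u) (coeffMap f x) := by
  ext n
  rw [coeffMap_coeff, twist_coeff, twist_coeff, coeffMap_coeff, map_mul, ← map_zpow]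
  rfl

theorem coeffMap_twN {S : Type*} [CommRing S] (f : R →+* S) (x : LaurentSeries R) :
    coeffMap f (twN q ζ x) = twN q (Units.map (f : R →* S) ζ) (coeffMap f x) := by
  rw [twN, map_prod, twN]
  refine Finset.prod_congr rfl fun j _ => ?_
  rw [coeffMap_twist, map_pow]

theorem coeffMap_uN {S : Type*} [CommRing S] (f : R →+* S) (x : LaurentSeries R) :
    coeffMap f (uN q ζ x) = uN q (Units.map (f : R →* S) ζ) (coeffMap f x) := by
  rw [uN, uN, ← coeffMap_twN, contr_coeffMap]

/-- independence of the root of unity -/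
theorem twN_pow [IsDomain R] (h : IsPrimitiveRoot ζ q) {ζ' : Rˣ} (h' : IsPrimitiveRoot ζ' q)
    (x : LaurentSeries R) : twN q ζ' x = twN q ζ x := by
  classical
  obtain ⟨i, hi, hcop, hii⟩ := (IsPrimitiveRoot.isPrimitiveRoot_iff
    (IsPrimitiveRoot.coe_units_iff.mpr h)).mp (IsPrimitiveRoot.coe_units_iff.mpr h')
  obtain rfl : ζ ^ i = ζ' := Units.ext hii
  have hqpos := Nat.pos_of_ne_zero (NeZero.ne q)
  rw [twN, twN]
  refine Fintype.prod_bijective
    (fun j : Fin q => (⟨(i * j) % q, Nat.mod_lt _ hqpos⟩ : Fin q)) ?_ _ _ ?_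
  · rw [Fintype.bijective_iff_injective_and_card]
    refine ⟨fun a b hab => ?_, rfl⟩
    have h1 : (i * a) % q = (i * b) % q := congrArg Fin.val hab
    have h2 : (a : ℕ) ≡ b [MOD q] := Nat.ModEq.cancel_left_of_coprime (by
      rw [Nat.gcd_comm]; exact hcop) h1
    have h3 : (a : ℕ) % q = b % q := h2
    rw [Nat.mod_eq_of_lt a.2, Nat.mod_eq_of_lt b.2] at h3
    exact Fin.ext h3
  · intro j
    have h1 : (ζ ^ i) ^ (j : ℕ) = ζ ^ ((i * j) % q) := by
      rw [← pow_mul]
      conv_lhs => rw [← Nat.div_add_mod (i * j) q, pow_add, pow_mul, h.pow_eq_one, one_pow, one_mul]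
    simp only
    rw [h1]

theorem uN_indep [IsDomain R] (h : IsPrimitiveRoot ζ q) {ζ' : Rˣ} (h' : IsPrimitiveRoot ζ' q)
    (x : LaurentSeries R) : uN q ζ' x = uN q ζ x := by
  rw [uN, uN, twN_pow h h']

theorem coeffMap_uN_equiv [IsDomain R] (h : IsPrimitiveRoot ζ q) (d : R ≃+* R)
    (x : LaurentSeries R) :
    coeffMap (d : R →+* R) (uN q ζ x) = uN q ζ (coeffMap (d : R →+* R) x) := by
  rw [coeffMap_uN]
  refine uN_indep h ?_ _
  exact h.map_of_injective (Units.map_injective (f := (d : R →* R)) d.injective)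

end Norm

section Gauss

variable {O : Type*} [CommRing O] [IsDomain O] [IsDiscreteValuationRing O]
variable {L : Type*} [Field L] [Algebra O L] [IsFractionRing O L] {q : ℕ} [NeZero q] {ζ : Oˣ}

variable (L) in
/-- the root of unity in the fraction field -/
def zL (ζ : Oˣ) : Lˣ := Units.map (algebraMap O L : O →* L) ζ

theorem zL_prim (h : IsPrimitiveRoot ζ q) : IsPrimitiveRoot (zL L ζ) q :=
  h.map_of_injective (Units.map_injective (f := (algebraMap O L : O →* L))
    (IsFractionRing.injective O L))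

theorem uN_toL (a : LaurentSeries O) : uN q (zL L ζ) (toL O L a) = toL O L (uN q ζ a) :=
  (coeffMap_uN (algebraMap O L) a).symm

/-- The reduction of the root of unity is trivial. -/
theorem residue_zeta (hq : q.Prime) (hq0 : (q : ResidueField O) = 0) (h : IsPrimitiveRoot ζ q) :
    Units.map (residue O : O →* ResidueField O) ζ = 1 := by
  have hf : Fact q.Prime := ⟨hq⟩
  have hc : CharP (ResidueField O) q := by
    obtain ⟨c, hc⟩ := CharP.exists (ResidueField O)
    have h6 : c ∣ q := (CharP.cast_eq_zero_iff _ c q).1 hq0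
    rcases (Nat.dvd_prime hq).1 h6 with h7 | h7
    · subst h7
      exact absurd rfl (CharP.char_ne_one (ResidueField O) 1)
    · rw [← h7]
      exact hc
  apply Units.ext
  have h1 : (residue O (ζ : O)) ^ q = 1 := by
    rw [← map_pow]
    have := congrArg Units.val h.pow_eq_one
    rw [Units.val_pow_eq_pow_val, Units.val_one] at this
    rw [this, map_one]
  have h2 : (residue O (ζ : O) - 1) ^ q = 0 := by
    rw [sub_pow_char, h1, one_pow, sub_self]
  exact sub_eq_zero.mp (eq_zero_of_pow_eq_zero h2)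

theorem toK_twN (hq : q.Prime) (hq0 : (q : ResidueField O) = 0) (h : IsPrimitiveRoot ζ q)
    (a : LaurentSeries O) : toK O (twN q ζ a) = toK O a ^ q := by
  have h1 : toK O (twN q ζ a) = twN q (Units.map (residue O : O →* ResidueField O) ζ)
      (toK O a) := coeffMap_twN (residue O) a
  rw [h1, residue_zeta hq hq0 h, twN]
  simp [twist_one']

theorem toK_uN [ExpChar (ResidueField O) q] (hq : q.Prime) (hq0 : (q : ResidueField O) = 0)
    (h : IsPrimitiveRoot ζ q) (a : LaurentSeries O) :
    toK O (uN q ζ a) = coeffMap (frobenius (ResidueField O) q) (toK O a) := by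
  apply qExpand_injective q
  rw [qExpand_toK, qExpand_uN h, toK_twN hq hq0 h, pow_eq_qExpand]

theorem coeffMap_frob_ne_zero [ExpChar (ResidueField O) q] {x : LaurentSeries (ResidueField O)}
    (hx : x ≠ 0) : coeffMap (frobenius (ResidueField O) q) x ≠ 0 := by
  intro h
  apply hx
  ext n
  have h1 := congrArg (fun z : LaurentSeries (ResidueField O) => z.coeff n) h
  simp only [coeffMap_coeff, HahnSeries.coeff_zero] at h1
  rw [HahnSeries.coeff_zero]
  exact (map_eq_zero_iff _ (frobenius (ResidueField O) q).injective).mp h1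

theorem uN_mem_gV [ExpChar (ResidueField O) q] (hq : q.Prime) (hq0 : (q : ResidueField O) = 0)
    (h : IsPrimitiveRoot ζ q) {x : LaurentSeries L} (hx : x ∈ gV O L) :
    uN q (zL L ζ) x ∈ gV O L := by
  obtain ⟨a, b, hb, hab⟩ := hx
  refine ⟨uN q ζ a, uN q ζ b, ?_, ?_⟩
  · rw [toK_uN hq hq0 h]
    exact coeffMap_frob_ne_zero hb
  · rw [← uN_toL (L := L), ← uN_toL (L := L), ← uN_mul (zL_prim h), hab]

theorem gR_uN [ExpChar (ResidueField O) q] (hq : q.Prime) (hq0 : (q : ResidueField O) = 0)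
    (h : IsPrimitiveRoot ζ q) {x : LaurentSeries L} (hx : x ∈ gV O L) :
    gR (⟨uN q (zL L ζ) x, uN_mem_gV hq hq0 h hx⟩ : gV O L) =
      coeffMap (frobenius (ResidueField O) q) (gR (⟨x, hx⟩ : gV O L)) := by
  obtain ⟨a, b, hb, hab⟩ := hx
  have h1 : toK O (uN q ζ b) ≠ 0 := by
    rw [toK_uN hq hq0 h]
    exact coeffMap_frob_ne_zero hb
  have e1 : gR (⟨x, ⟨a, b, hb, hab⟩⟩ : gV O L) = toK O a / toK O b := gR_eq hb hab
  have e2 : gR (⟨uN q (zL L ζ) x, uN_mem_gV hq hq0 h ⟨a, b, hb, hab⟩⟩ : gV O L) =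
      toK O (uN q ζ a) / toK O (uN q ζ b) := by
    refine gR_eq h1 ?_
    rw [← uN_toL (L := L), ← uN_toL (L := L), ← uN_mul (zL_prim h), hab]
  rw [e1, e2, toK_uN hq hq0 h, toK_uN hq hq0 h, map_div₀]

/-- The norm contracts: `N(b + ϖ^k a) ≡ N(b)` modulo `ϖ^(k+1)`. -/
theorem twN_contract (hq : q.Prime) (hq0 : (q : ResidueField O) = 0) (h : IsPrimitiveRoot ζ q)
    {ϖ : O} (hϖ : Irreducible ϖ) (a b : LaurentSeries O) {k : ℕ} (hk : 1 ≤ k) :
    ∃ c : LaurentSeries O, twN q ζ (b + HahnSeries.C ϖ ^ k * a) =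
      twN q ζ b + HahnSeries.C ϖ ^ (k + 1) * c := by
  classical
  have hf : Fact q.Prime := ⟨hq⟩
  have hchar : CharP (ResidueField O) q := by
    obtain ⟨c, hc⟩ := CharP.exists (ResidueField O)
    have h6 : c ∣ q := (CharP.cast_eq_zero_iff _ c q).1 hq0
    rcases (Nat.dvd_prime hq).1 h6 with h7 | h7
    · subst h7
      exact absurd rfl (CharP.char_ne_one (ResidueField O) 1)
    · rw [← h7]
      exact hc
  have hchar' : CharP (Polynomial (LaurentSeries (ResidueField O))) q := by
    have : CharP (LaurentSeries (ResidueField O)) q := charP_of_injective_ringHom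
      (f := (HahnSeries.C : ResidueField O →+* LaurentSeries (ResidueField O)))
      HahnSeries.C_injective q
    infer_instance
  let Q : Polynomial (LaurentSeries O) := ∏ j : Fin q,
    (Polynomial.C (twist (ζ ^ (j : ℕ)) b) + Polynomial.X * Polynomial.C (twist (ζ ^ (j : ℕ)) a))
  have hQmap : Q.map (toK O) = (Polynomial.C (toK O b) + Polynomial.X * Polynomial.C (toK O a)) ^ q := by
    have htw : ∀ (j : ℕ) (x : LaurentSeries O), toK O (twist (ζ ^ j) x) = toK O x := by
      intro j x
      have h1 : toK O (twist (ζ ^ j) x) =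
          twist (Units.map (residue O : O →* ResidueField O) (ζ ^ j)) (toK O x) :=
        coeffMap_twist (residue O) _ x
      rw [h1, map_pow, residue_zeta hq hq0 h, one_pow, twist_one']
    rw [Polynomial.map_prod]
    have h2 : ∀ j : Fin q, (Polynomial.C (twist (ζ ^ (j : ℕ)) b) +
        Polynomial.X * Polynomial.C (twist (ζ ^ (j : ℕ)) a)).map (toK O) =
        Polynomial.C (toK O b) + Polynomial.X * Polynomial.C (toK O a) := by
      intro j
      rw [Polynomial.map_add, Polynomial.map_mul, Polynomial.map_C, Polynomial.map_C,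
        Polynomial.map_X, htw, htw]
    rw [Finset.prod_congr rfl fun j _ => h2 j, Finset.prod_const, Finset.card_univ,
      Fintype.card_fin]
  have hcoef : ∀ i : ℕ, i ≠ 0 → i < q → ∃ y, Q.coeff i = HahnSeries.C ϖ * y := by
    intro i hi0 hiq
    apply exists_eq_mul_of_toK_eq_zero hϖ
    have h3 : toK O (Q.coeff i) = (Q.map (toK O)).coeff i := (Polynomial.coeff_map _ _).symm
    rw [h3, hQmap, add_pow_char, mul_pow, ← Polynomial.C_pow, ← Polynomial.C_pow,
      Polynomial.coeff_add, Polynomial.coeff_C, if_neg hi0, zero_add, Polynomial.coeff_X_pow_mul',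
      if_neg (not_le.mpr hiq)]
  have heval : ∀ T : LaurentSeries O, (∀ u : Oˣ, twist u T = T) →
      twN q ζ (b + T * a) = Q.eval T := by
    intro T hT
    rw [twN, Polynomial.eval_prod]
    refine Finset.prod_congr rfl fun j _ => ?_
    rw [map_add, map_mul, hT, Polynomial.eval_add, Polynomial.eval_mul, Polynomial.eval_C,
      Polynomial.eval_C, Polynomial.eval_X]
  have hT : ∀ u : Oˣ, twist u ((HahnSeries.C ϖ : LaurentSeries O) ^ k) = HahnSeries.C ϖ ^ k := by
    intro u
    rw [map_pow, twist_C]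
  have h0 : twN q ζ b = Q.coeff 0 := by
    have := heval 0 (fun u => map_zero _)
    rw [zero_mul, add_zero] at this
    rw [this, Polynomial.coeff_zero_eq_eval_zero]
  rw [heval _ hT, h0]
  have hdeg : Q.natDegree < q + 1 := by
    have h4 : Q.natDegree ≤ ∑ _j : Fin q, 1 := by
      refine (Polynomial.natDegree_prod_le _ _).trans (Finset.sum_le_sum fun j _ => ?_)
      refine (Polynomial.natDegree_add_le _ _).trans ?_
      rw [Polynomial.natDegree_C, Nat.zero_max]
      refine (Polynomial.natDegree_mul_le).trans ?_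
      rw [Polynomial.natDegree_C, add_zero]
      exact Polynomial.natDegree_X_le
    rw [Finset.sum_const, Finset.card_univ, Fintype.card_fin, smul_eq_mul, mul_one] at h4
    omega
  have h5 : (HahnSeries.C ϖ : LaurentSeries O) ^ (k + 1) ∣ Q.eval (HahnSeries.C ϖ ^ k) - Q.coeff 0 := by
    rw [Polynomial.eval_eq_sum_range' hdeg, Finset.sum_range_succ', pow_zero, mul_one,
      add_sub_cancel_right]
    refine Finset.dvd_sum fun i hi => ?_
    rw [Finset.mem_range] at hi
    rcases Nat.lt_or_ge (i + 1) q with h6 | h6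
    · obtain ⟨y, hy⟩ := hcoef (i + 1) (Nat.succ_ne_zero _) h6
      rw [hy, ← pow_mul]
      have h7 : k ≤ k * (i + 1) := Nat.le_mul_of_pos_right k (Nat.succ_pos i)
      obtain ⟨r, hr⟩ := Nat.exists_eq_add_of_le h7
      rw [hr, pow_add, pow_succ]
      exact ⟨y * HahnSeries.C ϖ ^ r, by ring⟩
    · have h7 : k + 1 ≤ k * (i + 1) := by
        have h8 : 2 ≤ i + 1 := hq.two_le.trans h6
        nlinarith
      rw [← pow_mul]
      exact Dvd.dvd.mul_left (pow_dvd_pow _ h7) _
  obtain ⟨c, hc⟩ := h5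
  exact ⟨c, by rw [← hc]; ring⟩

theorem contr_C_mul (c : O) (x : LaurentSeries O) :
    contr O q (HahnSeries.C c * x) = HahnSeries.C c * contr O q x := by
  ext n
  rw [contr_coeff, HahnSeries.C_mul_eq_smul, HahnSeries.C_mul_eq_smul, HahnSeries.coeff_smul,
    HahnSeries.coeff_smul, contr_coeff]

theorem uN_contract_O (hq : q.Prime) (hq0 : (q : ResidueField O) = 0) (h : IsPrimitiveRoot ζ q)
    {ϖ : O} (hϖ : Irreducible ϖ) (a b : LaurentSeries O) {k : ℕ} (hk : 1 ≤ k) :
    ∃ c : LaurentSeries O, uN q ζ (b + HahnSeries.C ϖ ^ k * a) =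
      uN q ζ b + HahnSeries.C ϖ ^ (k + 1) * c := by
  obtain ⟨c, hc⟩ := twN_contract hq hq0 h hϖ a b hk
  refine ⟨contr O q c, ?_⟩
  rw [uN, hc, uN, ← map_pow, ← contr_C_mul]
  ext n
  rfl

/-- **Contraction.** -/
theorem uN_contract [ExpChar (ResidueField O) q] (hq : q.Prime) (hq0 : (q : ResidueField O) = 0)
    (h : IsPrimitiveRoot ζ q) {ϖ : O} (hϖ : Irreducible ϖ) {v : LaurentSeries L} (hv : v ∈ gV O L)
    {k : ℕ} (hk : 1 ≤ k) :
    ∃ v' ∈ gV O L, uN q (zL L ζ) (1 + HahnSeries.C (algebraMap O L ϖ) ^ k * v) =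
      1 + HahnSeries.C (algebraMap O L ϖ) ^ (k + 1) * v' := by
  obtain ⟨a, b, hb, hab⟩ := hv
  obtain ⟨c, hc⟩ := uN_contract_O hq hq0 h hϖ a b hk
  have hb' : toK O (uN q ζ b) ≠ 0 := by
    rw [toK_uN hq hq0 h]
    exact coeffMap_frob_ne_zero hb
  have hbL : toL O L (uN q ζ b) ≠ 0 := by
    intro h0
    rw [map_eq_zero_iff _ (toL_injective O L)] at h0
    rw [h0, map_zero] at hb'
    exact hb' rfl
  have hCt : (toL O L (HahnSeries.C ϖ) : LaurentSeries L) = HahnSeries.C (algebraMap O L ϖ) := by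
    change coeffMap (algebraMap O L) (HahnSeries.single 0 ϖ) = _
    rw [coeffMap_single]
    rfl
  refine ⟨toL O L c / toL O L (uN q ζ b), ⟨c, uN q ζ b, hb', ?_⟩, ?_⟩
  · rw [mul_div_cancel₀ _ hbL]
  · have h1 : toL O L (uN q ζ b) * uN q (zL L ζ) (1 + HahnSeries.C (algebraMap O L ϖ) ^ k * v) =
        toL O L (uN q ζ (b + HahnSeries.C ϖ ^ k * a)) := by
      rw [← uN_toL (L := L), ← uN_toL (L := L), ← uN_mul (zL_prim h)]
      congr 1
      rw [map_add, map_mul, map_pow, hCt, ← hab]
      ring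
    rw [hc, map_add, map_mul, map_pow, hCt] at h1
    field_simp
    rw [mul_comm] at h1
    linear_combination h1

end Gauss

end Fermat.Agent.LG
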