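import Mathlib
import Fermat.Agent.ModFun.GenDegree

/-!
The Atkin–Lehner involution `w_q` of the function field of `X₀(qM)`, `q` prime to `M`.
-/

set_option autoImplicit false
set_option linter.unusedSectionVars false

open Matrix.SpecialLinearGroup CongruenceSubgroup ModularGroup
open scoped MatrixGroups ModularForm Manifold
open UpperHalfPlane hiding I J
open Complex (I)
open Fermat.Agent.ModFun

noncomputable section

namespace Fermat.Agent.LG

/-- Bézout data. -/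
structure Bez (q M : ℕ) where
  /-- first coefficient -/
  w : ℤ
  /-- second coefficient -/
  y : ℤ
  det : q * w - M * y = 1

theorem nonempty_bez {q M : ℕ} (h : q.Coprime M) : Nonempty (Bez q M) := by
  have h1 := Nat.gcd_eq_gcd_ab q M
  rw [Nat.Coprime] at h
  rw [h] at h1
  exact ⟨⟨Nat.gcdA q M, -Nat.gcdB q M, by push_cast at h1; linarith⟩⟩

section W

variable {q M : ℕ} [NeZero q] [NeZero M] (B : Bez q M)

/-- first matrix -/
def Bez.g0 : SL(2, ℤ) := ⟨!![1, B.y; M, q * B.w], by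
  rw [Matrix.det_fin_two_of]; linarith [B.det]⟩

/-- second matrix -/
def Bez.g1 : SL(2, ℤ) := ⟨!![q, B.y; M, B.w], by
  rw [Matrix.det_fin_two_of]; linarith [B.det]⟩

theorem Bez.g0_mem : B.g0 ∈ Gamma0 M := by
  rw [Gamma0_mem, ZMod.intCast_zmod_eq_zero_iff_dvd]
  change (M : ℤ) ∣ M
  exact dvd_rfl

theorem Bez.g1_mem : B.g1 ∈ Gamma0 M := by
  rw [Gamma0_mem, ZMod.intCast_zmod_eq_zero_iff_dvd]
  change (M : ℤ) ∣ M
  exact dvd_rfl

/-- The Atkin–Lehner operator on the upper half plane. -/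
def Bez.W (τ : ℍ) : ℍ := B.g0 • tri q 0 1 τ

theorem Bez.W_eq {d : ℕ} [NeZero d] (τ : ℍ) :
    tri (q * d) 0 1 (B.W τ) = tri d 0 1 (B.g1 • τ) := by
  apply UpperHalfPlane.ext
  have e1 := denom_SL_ne_zero B.g0 (tri q 0 1 τ)
  have e2 := denom_SL_ne_zero B.g1 τ
  have c1 := coe_smul_SL B.g0 (tri q 0 1 τ)
  have c2 := coe_smul_SL B.g1 τ
  rw [coe_tri] at e1 c1
  rw [Bez.W, coe_tri, coe_tri, c1, c2]
  have h1 : (B.g0 0 0 : ℂ) = 1 := by
    have : B.g0 0 0 = 1 := rfl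
    rw [this]; norm_num
  have h2 : (B.g0 0 1 : ℂ) = B.y := rfl
  have h3 : (B.g0 1 0 : ℂ) = M := by
    have : B.g0 1 0 = M := rfl
    rw [this]; norm_num
  have h4 : (B.g0 1 1 : ℂ) = q * B.w := by
    have : B.g0 1 1 = q * B.w := rfl
    rw [this]; push_cast; ring
  have h5 : (B.g1 0 0 : ℂ) = q := by
    have : B.g1 0 0 = q := rfl
    rw [this]; norm_num
  have h6 : (B.g1 0 1 : ℂ) = B.y := rfl
  have h7 : (B.g1 1 0 : ℂ) = M := by
    have : B.g1 1 0 = M := rfl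
    rw [this]; norm_num
  have h8 : (B.g1 1 1 : ℂ) = B.w := rfl
  rw [h3, h4] at e1
  rw [h7, h8] at e2
  rw [h1, h2, h3, h4, h5, h6, h7, h8]
  have hq : (q : ℂ) ≠ 0 := by exact_mod_cast NeZero.ne q
  have e3 : (M : ℂ) * ((q * (τ : ℂ) + (0 : ℤ)) / (1 : ℕ)) + q * B.w =
      q * ((M : ℂ) * τ + B.w) := by push_cast; ring
  rw [e3]
  push_cast
  field_simp
  ring

/-- The action on the functions. -/
def Bez.slash : (ℍ → ℂ) →+* (ℍ → ℂ) where
  toFun f := fun τ => f (B.W τ)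
  map_one' := rfl
  map_mul' _ _ := rfl
  map_zero' := rfl
  map_add' _ _ := rfl

theorem Bez.slash_apply (f : ℍ → ℂ) (τ : ℍ) : B.slash f τ = f (B.W τ) := rfl

theorem Bez.slash_Jd₁ {d : ℕ} [NeZero d] (hd : d ∣ M) : B.slash (Jd d) = Jd (q * d) := by
  funext τ
  rw [B.slash_apply, Bez.W, Jd_invariant hd B.g0_mem, Jd, Jd]
  congr 1
  apply UpperHalfPlane.ext
  rw [coe_tri, coe_tri, coe_tri]
  push_cast
  ring

theorem Bez.slash_Jd₂ {d : ℕ} [NeZero d] (hd : d ∣ M) : B.slash (Jd (q * d)) = Jd d := by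
  funext τ
  rw [B.slash_apply, Jd, B.W_eq]
  exact Jd_invariant hd B.g1_mem τ

variable {K : Type*} [Field K] (ι : K →+* ℂ)

/-- evaluation on `A₀` -/
def evA (N : ℕ) [NeZero N] : A0 K N →+* (ℍ → ℂ) :=
  (evC ι N).comp (Subalgebra.inclusion (Algebra.adjoin_le gens_subset_holC)).toRingHom

variable {ι}

theorem evA_hasExp {N : ℕ} [NeZero N] (F : A0 K N) : HasExp ι (qN 1) (evA ι N F) F :=
  evC_hasExp ι N _

theorem evA_eq {N : ℕ} [NeZero N] {F : A0 K N} {f : ℍ → ℂ}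
    (h : HasExp ι (qN 1) f (F : LaurentSeries K)) : evA ι N F = f :=
  (evA_hasExp F).fun_unique (qN_ne_zero 1) h

theorem evA_injective {N : ℕ} [NeZero N] : Function.Injective (evA (K := K) ι N) := by
  intro F G h
  apply Subtype.ext
  have h1 := evA_hasExp (ι := ι) F
  rw [h] at h1
  exact h1.unique ι.injective (isParam_qN 1) (evA_hasExp G)

/-- the generators of level `M` -/
theorem gens_dvd {N : ℕ} [NeZero N] {d : ℕ} [NeZero d] (hd : d ∣ N) :
    ModularCurve.qExpand K d (ModularCurve.jqModC K) ∈ gens K N := ⟨d, inferInstance, hd, rfl⟩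

theorem dvd_cases {q M d : ℕ} (hq : q.Prime) (hd : d ∣ q * M) :
    d ∣ M ∨ ∃ e, e ∣ M ∧ d = q * e := by
  by_cases h : q ∣ d
  · obtain ⟨e, rfl⟩ := h
    exact Or.inr ⟨e, Nat.dvd_of_mul_dvd_mul_left hq.pos hd, rfl⟩
  · left
    exact (Nat.Coprime.symm ((Nat.Prime.coprime_iff_not_dvd hq).mpr h)).dvd_of_dvd_mul_left hd

variable {N : ℕ} [NeZero N]

theorem dvd₁ (hN : N = q * M) {d : ℕ} (hd : d ∣ M) : q * d ∣ N := hN ▸ mul_dvd_mul_left q hd

theorem dvd₂ (hN : N = q * M) {d : ℕ} (hd : d ∣ M) : d ∣ N := hN ▸ hd.trans (dvd_mul_left M q)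

theorem Bez.exists_A0 (hq : q.Prime) (hN : N = q * M) (x : LaurentSeries K)
    (hx : x ∈ A0 K N) : ∃ (f : ℍ → ℂ) (y : LaurentSeries K), y ∈ A0 K N ∧
      HasExp ι (qN 1) f x ∧ HasExp ι (qN 1) (B.slash f) y := by
  induction hx using Algebra.adjoin_induction with
  | mem x hx =>
    obtain ⟨d, hd0, hd, rfl⟩ := hx
    rcases dvd_cases hq (hN ▸ hd) with h | ⟨e, he, rfl⟩
    · refine ⟨Jd d, ModularCurve.qExpand K (q * d) (ModularCurve.jqModC K),
        Algebra.subset_adjoin (gens_dvd (dvd₁ hN h)), hasExp_Jd ι, ?_⟩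
      rw [B.slash_Jd₁ h]
      exact hasExp_Jd ι
    · have he0 : NeZero e := ⟨by rintro rfl; exact (NeZero.ne (q * 0)) (Nat.mul_zero q)⟩
      refine ⟨Jd (q * e), ModularCurve.qExpand K e (ModularCurve.jqModC K),
        Algebra.subset_adjoin (gens_dvd (dvd₂ hN he)), hasExp_Jd ι, ?_⟩
      rw [B.slash_Jd₂ he]
      exact hasExp_Jd ι
  | algebraMap r =>
    refine ⟨fun _ => ι r, algebraMap K _ r, Subalgebra.algebraMap_mem _ _, ?_, ?_⟩
    · rw [ModularCurve.algebraMap_laurentSeries_eq_single]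
      exact HasExp.const r
    · rw [ModularCurve.algebraMap_laurentSeries_eq_single]
      exact HasExp.const r
  | add x y hx hy h1 h2 =>
    obtain ⟨f, x', h3, h4, h5⟩ := h1
    obtain ⟨g, y', h6, h7, h8⟩ := h2
    refine ⟨f + g, x' + y', add_mem h3 h6, h4.add h7, ?_⟩
    rw [map_add]
    exact h5.add h8
  | mul x y hx hy h1 h2 =>
    obtain ⟨f, x', h3, h4, h5⟩ := h1
    obtain ⟨g, y', h6, h7, h8⟩ := h2
    refine ⟨f * g, x' * y', mul_mem h3 h6, h4.mul h7, ?_⟩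
    rw [map_mul]
    exact h5.mul h8

theorem Bez.exists_A0' (hq : q.Prime) (hN : N = q * M) (F : A0 K N) :
    ∃ G : A0 K N, evA ι N G = B.slash (evA ι N F) := by
  obtain ⟨f, y, hy, h1, h2⟩ := B.exists_A0 (ι := ι) hq hN F F.2
  refine ⟨⟨y, hy⟩, ?_⟩
  rw [evA_eq (F := F) h1]
  exact evA_eq (F := ⟨y, hy⟩) h2

/-- The involution on the algebra. -/
def Bez.wAf (ι : K →+* ℂ) (hq : q.Prime) (hN : N = q * M) (F : A0 K N) : A0 K N :=
  (B.exists_A0' (ι := ι) hq hN F).choose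

theorem Bez.evA_wAf (hq : q.Prime) (hN : N = q * M) (F : A0 K N) :
    evA ι N (B.wAf ι hq hN F) = B.slash (evA ι N F) := (B.exists_A0' (ι := ι) hq hN F).choose_spec

/-- The involution on the algebra. -/
def Bez.wA (ι : K →+* ℂ) (hq : q.Prime) (hN : N = q * M) : A0 K N →+* A0 K N where
  toFun := B.wAf ι hq hN
  map_one' := evA_injective (ι := ι) (by rw [B.evA_wAf, map_one, map_one])
  map_mul' F G := evA_injective (ι := ι) (by
    rw [B.evA_wAf, RingHom.map_mul, RingHom.map_mul, RingHom.map_mul, B.evA_wAf, B.evA_wAf])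
  map_zero' := evA_injective (ι := ι) (by rw [B.evA_wAf, map_zero, map_zero])
  map_add' F G := evA_injective (ι := ι) (by
    rw [B.evA_wAf, RingHom.map_add, RingHom.map_add, RingHom.map_add, B.evA_wAf, B.evA_wAf])

theorem Bez.evA_wA (hq : q.Prime) (hN : N = q * M) (F : A0 K N) :
    evA ι N (B.wA ι hq hN F) = B.slash (evA ι N F) := B.evA_wAf hq hN F

theorem Bez.wA_eq (hq : q.Prime) (hN : N = q * M) {F : A0 K N} {f : ℍ → ℂ}
    {y : LaurentSeries K} (h1 : HasExp ι (qN 1) f (F : LaurentSeries K))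
    (h2 : HasExp ι (qN 1) (B.slash f) y) : (B.wA ι hq hN F : LaurentSeries K) = y := by
  have h3 := evA_hasExp (ι := ι) (B.wA ι hq hN F)
  rw [B.evA_wA, evA_eq h1] at h3
  exact h3.unique ι.injective (isParam_qN 1) h2

theorem Bez.wA_C (hq : q.Prime) (hN : N = q * M) (a : K) :
    B.wA ι hq hN (algebraMap K _ a) = algebraMap K _ a := by
  have h1 : HasExp ι (qN 1) (fun _ => ι a) (algebraMap K (LaurentSeries K) a) := by
    rw [ModularCurve.algebraMap_laurentSeries_eq_single]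
    exact HasExp.const a
  exact Subtype.ext (B.wA_eq hq hN (F := algebraMap K _ a) h1 h1)

theorem Bez.wA_gen₁ (hq : q.Prime) (hN : N = q * M) {d : ℕ} [NeZero d] (hd : d ∣ M)
    (h : ModularCurve.qExpand K d (ModularCurve.jqModC K) ∈ A0 K N) :
    (B.wA ι hq hN ⟨_, h⟩ : LaurentSeries K) =
      ModularCurve.qExpand K (q * d) (ModularCurve.jqModC K) :=
  B.wA_eq hq hN (F := ⟨_, h⟩) (hasExp_Jd ι) (by rw [B.slash_Jd₁ hd]; exact hasExp_Jd ι)

theorem Bez.wA_gen₂ (hq : q.Prime) (hN : N = q * M) {d : ℕ} [NeZero d] (hd : d ∣ M)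
    (h : ModularCurve.qExpand K (q * d) (ModularCurve.jqModC K) ∈ A0 K N) :
    (B.wA ι hq hN ⟨_, h⟩ : LaurentSeries K) =
      ModularCurve.qExpand K d (ModularCurve.jqModC K) :=
  B.wA_eq hq hN (F := ⟨_, h⟩) (hasExp_Jd ι) (by rw [B.slash_Jd₂ hd]; exact hasExp_Jd ι)

theorem Bez.wA_wA (hq : q.Prime) (hN : N = q * M) (F : A0 K N) :
    B.wA ι hq hN (B.wA ι hq hN F) = F := by
  have key : ∀ x (hx : x ∈ A0 K N),
      B.wA ι hq hN (B.wA ι hq hN ⟨x, hx⟩) = ⟨x, hx⟩ := by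
    intro x hx
    induction hx using Algebra.adjoin_induction with
    | mem x hx =>
      obtain ⟨d, hd0, hd, rfl⟩ := hx
      rcases dvd_cases hq (hN ▸ hd) with h | ⟨e, he, rfl⟩
      · have h1 : B.wA ι hq hN ⟨_, Algebra.subset_adjoin (gens_dvd hd)⟩ =
          ⟨_, Algebra.subset_adjoin (gens_dvd (K := K) (dvd₁ hN h))⟩ :=
          Subtype.ext (B.wA_gen₁ hq hN h _)
        rw [h1]
        exact Subtype.ext (B.wA_gen₂ hq hN h _)
      · have he0 : NeZero e := ⟨by rintro rfl; exact (NeZero.ne (q * 0)) (Nat.mul_zero q)⟩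
        have h1 : B.wA ι hq hN ⟨_, Algebra.subset_adjoin (gens_dvd hd)⟩ =
          ⟨_, Algebra.subset_adjoin (gens_dvd (K := K) (dvd₂ hN he))⟩ :=
          Subtype.ext (B.wA_gen₂ hq hN he _)
        rw [h1]
        exact Subtype.ext (B.wA_gen₁ hq hN he _)
    | algebraMap r =>
      have h1 := B.wA_C (ι := ι) hq hN r
      change B.wA ι hq hN (B.wA ι hq hN (algebraMap K _ r)) = algebraMap K _ r
      rw [h1, h1]
    | add x y hx hy h1 h2 =>
      have h3 : (⟨x + y, add_mem hx hy⟩ : A0 K N) = ⟨x, hx⟩ + ⟨y, hy⟩ := rfl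
      rw [h3, RingHom.map_add, RingHom.map_add, h1, h2]
    | mul x y hx hy h1 h2 =>
      have h3 : (⟨x * y, mul_mem hx hy⟩ : A0 K N) = ⟨x, hx⟩ * ⟨y, hy⟩ := rfl
      rw [h3, RingHom.map_mul, RingHom.map_mul, h1, h2]
  exact key F F.2

/-- the involution of the algebra -/
def Bez.wAe (ι : K →+* ℂ) (hq : q.Prime) (hN : N = q * M) : A0 K N ≃+* A0 K N where
  toFun := B.wA ι hq hN
  invFun := B.wA ι hq hN
  left_inv := B.wA_wA hq hN
  right_inv := B.wA_wA hq hN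
  map_mul' := RingHom.map_mul _
  map_add' := RingHom.map_add _

open scoped IntermediateField.algebraAdjoinAdjoin

/-- The Atkin–Lehner involution of the function field. -/
def Bez.wF (ι : K →+* ℂ) (hq : q.Prime) (hN : N = q * M) : F0 K N ≃+* F0 K N :=
  IsFractionRing.ringEquivOfRingEquiv (B.wAe ι hq hN)

theorem Bez.wF_algebraMap (hq : q.Prime) (hN : N = q * M) (F : A0 K N) :
    B.wF ι hq hN (algebraMap _ (F0 K N) F) =
      algebraMap _ (F0 K N) (B.wA ι hq hN F) :=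
  IsFractionRing.ringEquivOfRingEquiv_algebraMap _ _

theorem Bez.wF_wF (hq : q.Prime) (hN : N = q * M) (x : F0 K N) :
    B.wF ι hq hN (B.wF ι hq hN x) = x := by
  obtain ⟨a, b, hb, rfl⟩ := IsFractionRing.div_surjective (A := A0 K N) x
  rw [map_div₀, map_div₀, B.wF_algebraMap, B.wF_algebraMap, B.wF_algebraMap, B.wF_algebraMap,
    B.wA_wA, B.wA_wA]

theorem Bez.wF_C (hq : q.Prime) (hN : N = q * M) (a : K) :
    B.wF ι hq hN (algebraMap K _ a) = algebraMap K _ a := by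
  have h1 : algebraMap K (F0 K N) a =
      algebraMap _ (F0 K N) (algebraMap K (A0 K N) a) := rfl
  rw [h1, B.wF_algebraMap, B.wA_C]

theorem Bez.wF_gen₁ (hq : q.Prime) (hN : N = q * M) {d : ℕ} [NeZero d] (hd : d ∣ M)
    (h : ModularCurve.qExpand K d (ModularCurve.jqModC K) ∈ F0 K N) :
    (B.wF ι hq hN ⟨_, h⟩ : LaurentSeries K) =
      ModularCurve.qExpand K (q * d) (ModularCurve.jqModC K) := by
  have h1 : ModularCurve.qExpand K d (ModularCurve.jqModC K) ∈ A0 K N :=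
    Algebra.subset_adjoin (gens_dvd (dvd₂ hN hd))
  have h2 : (⟨_, h⟩ : F0 K N) = algebraMap (A0 K N) (F0 K N) ⟨_, h1⟩ := rfl
  rw [h2, B.wF_algebraMap]
  exact B.wA_gen₁ hq hN hd h1

theorem Bez.wF_gen₂ (hq : q.Prime) (hN : N = q * M) {d : ℕ} [NeZero d] (hd : d ∣ M)
    (h : ModularCurve.qExpand K (q * d) (ModularCurve.jqModC K) ∈ F0 K N) :
    (B.wF ι hq hN ⟨_, h⟩ : LaurentSeries K) =
      ModularCurve.qExpand K d (ModularCurve.jqModC K) := by
  have h1 : ModularCurve.qExpand K (q * d) (ModularCurve.jqModC K) ∈ A0 K N :=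
    Algebra.subset_adjoin (gens_dvd (dvd₁ hN hd))
  have h2 : (⟨_, h⟩ : F0 K N) = algebraMap (A0 K N) (F0 K N) ⟨_, h1⟩ := rfl
  rw [h2, B.wF_algebraMap]
  exact B.wA_gen₂ hq hN hd h1

end W

/-- Ring homomorphisms from an adjoin. -/
theorem ringHom_ext_adjoin {K A R : Type*} [Field K] [Field A] [Algebra K A] [Semiring R]
    [Nontrivial R] {S : Set A} {f g : IntermediateField.adjoin K S →+* R}
    (h0 : ∀ a, f (algebraMap K _ a) = g (algebraMap K _ a))
    (h : ∀ x (hx : x ∈ S), f ⟨x, IntermediateField.subset_adjoin K S hx⟩ =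
      g ⟨x, IntermediateField.subset_adjoin K S hx⟩) : f = g := by
  ext1 ⟨x, hx⟩
  induction hx using IntermediateField.adjoin_induction with
  | mem x hx => exact h x hx
  | algebraMap a => exact h0 a
  | add x y hx hy h1 h2 =>
    have h3 : (⟨x + y, add_mem hx hy⟩ : IntermediateField.adjoin K S) = ⟨x, hx⟩ + ⟨y, hy⟩ := rfl
    rw [h3, map_add, map_add, h1, h2]
  | inv x hx h1 =>
    have h3 : (⟨x⁻¹, inv_mem hx⟩ : IntermediateField.adjoin K S) = ⟨x, hx⟩⁻¹ := rfl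
    by_cases hx0 : (⟨x, hx⟩ : IntermediateField.adjoin K S) = 0
    · rw [h3, hx0, inv_zero, map_zero, map_zero]
    · have e1 : f ⟨x, hx⟩⁻¹ * f ⟨x, hx⟩ = 1 := by rw [← map_mul, inv_mul_cancel₀ hx0, map_one]
      have e2 : g ⟨x, hx⟩ * g ⟨x, hx⟩⁻¹ = 1 := by rw [← map_mul, mul_inv_cancel₀ hx0, map_one]
      rw [h3]
      rw [h1] at e1
      exact left_inv_eq_right_inv e1 e2
  | mul x y hx hy h1 h2 =>
    have h3 : (⟨x * y, mul_mem hx hy⟩ : IntermediateField.adjoin K S) = ⟨x, hx⟩ * ⟨y, hy⟩ := rfl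
    rw [h3, map_mul, map_mul, h1, h2]

end Fermat.Agent.LG
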