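import Mathlib
import Fermat.Agent.LG.Unorm
import Fermat.Agent.LG.WQ
import Fermat.Agent.ESCore.HeckeMul

/-!
# The operators `U_q` and `w_q` on series with character
-/

set_option autoImplicit false
set_option linter.unusedSectionVars false

open UpperHalfPlane hiding I J
open ModularForm Filter
open scoped Manifold MatrixGroups ModularForm
open Fermat.Agent.Eis16 Fermat.Agent.ModFun Fermat.Agent.ESCore Fermat.Agent.ESCore.Gal
open CongruenceSubgroup (Gamma0 Gamma Gamma0_mem Gamma_mem Gamma_normal)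

noncomputable section

namespace Fermat.Agent.LG

local notation "Δ" => ModularForm.discriminant

theorem tendsto_tri (a : ℕ) (b : ℤ) (d : ℕ) [NeZero a] [NeZero d] :
    Tendsto (tri a b d) atImInfty atImInfty := by
  rw [atImInfty, tendsto_comap_iff]
  have h1 : (UpperHalfPlane.im ∘ tri a b d) = fun τ : ℍ => ((a : ℝ) / d) * τ.im := by
    funext τ
    change ((tri a b d τ : ℍ) : ℂ).im = _
    rw [coe_tri, show (d : ℂ) = ((d : ℝ) : ℂ) by simp, Complex.div_ofReal_im]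
    simp
    ring
  rw [h1]
  refine Tendsto.const_mul_atTop ?_ tendsto_comap
  have ha : (0 : ℝ) < a := by exact_mod_cast Nat.pos_of_ne_zero (NeZero.ne a)
  have hd : (0 : ℝ) < d := by exact_mod_cast Nat.pos_of_ne_zero (NeZero.ne d)
  positivity

theorem norm_qN_one (τ : ℍ) : ‖qN 1 τ‖ = Real.exp (-(2 * Real.pi * τ.im)) := by
  rw [qN_apply, Nat.cast_one, Function.Periodic.norm_qParam]
  congr 1
  change -2 * Real.pi * (τ : ℂ).im / 1 = _
  rw [div_one]
  change -2 * Real.pi * τ.im = _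
  ring

theorem qN_pow_isBigO_tri {a : ℕ} {b : ℤ} {d' n : ℕ} [NeZero a] [NeZero d'] (h : a ≤ n) :
    (fun τ : ℍ => qN 1 τ ^ n) =O[atImInfty] (fun τ : ℍ => qN 1 (tri a b d' τ)) := by
  refine Asymptotics.isBigO_of_le _ fun τ => ?_
  rw [norm_pow, norm_qN_one, norm_qN_one, ← Real.exp_nat_mul]
  apply Real.exp_le_exp.mpr
  have h1 : (tri a b d' τ).im = ((a : ℝ) / d') * τ.im := by
    change ((tri a b d' τ : ℍ) : ℂ).im = _
    rw [coe_tri, show (d' : ℂ) = ((d' : ℝ) : ℂ) by simp, Complex.div_ofReal_im]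
    simp
    ring
  rw [h1]
  have hd : (1 : ℝ) ≤ d' := by exact_mod_cast Nat.one_le_iff_ne_zero.mpr (NeZero.ne d')
  have hτ := τ.im_pos
  have ha : (0 : ℝ) ≤ a := Nat.cast_nonneg a
  have h2 : (a : ℝ) / d' ≤ n := by
    rw [div_le_iff₀ (by linarith)]
    have : (a : ℝ) ≤ n := by exact_mod_cast h
    have hn : (0 : ℝ) ≤ n := Nat.cast_nonneg n
    nlinarith
  have h3 : (a : ℝ) / d' * τ.im ≤ n * τ.im := mul_le_mul_of_nonneg_right h2 hτ.le
  have h4 := Real.pi_pos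
  nlinarith

theorem bounded_tri {g : ℍ → ℂ} {k : ℕ} (hg : IsBoundedAtImInfty (Δ ^ k * g)) {a : ℕ} {b : ℤ}
    {d' n : ℕ} [NeZero a] [NeZero d'] (h : a ≤ n) :
    IsBoundedAtImInfty (Δ ^ (n * k) * fun τ => g (tri a b d' τ)) := by
  have h1 : (fun τ : ℍ => (Δ ^ k * g : ℍ → ℂ) (tri a b d' τ)) =O[atImInfty] (1 : ℍ → ℝ) :=
    hg.comp_tendsto (tendsto_tri a b d')
  have h2 : (Δ ^ (n * k) * (fun τ => g (tri a b d' τ)) : ℍ → ℂ) =O[atImInfty]
      (fun τ : ℍ => (Δ ^ k * g : ℍ → ℂ) (tri a b d' τ)) := by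
    have h3 : (fun τ : ℍ => (Δ : ℍ → ℂ) τ ^ n) =O[atImInfty]
        (fun τ : ℍ => (Δ : ℍ → ℂ) (tri a b d' τ)) := by
      refine (disc_isBigO_qN.pow n).trans ((qN_pow_isBigO_tri (b := b) (d' := d') h).trans ?_)
      exact qN_isBigO_disc.comp_tendsto (tendsto_tri a b d')
    have h4 := (h3.pow k).mul (Asymptotics.isBigO_refl (fun τ => g (tri a b d' τ)) atImInfty)
    refine (h4.congr_left fun τ => ?_).congr_right fun τ => ?_
    · rw [Pi.mul_apply, Pi.pow_apply, pow_mul]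
    · rw [Pi.mul_apply, Pi.pow_apply]
  exact h2.trans h1

/-- `MB` is stable under `τ ↦ dτ` -/
theorem MB_tri_one {f : ℍ → ℂ} (hf : f ∈ MB) (d : ℕ) [NeZero d] :
    (fun τ : ℍ => f (tri d 0 1 τ)) ∈ MB := by
  obtain ⟨h1, k, hk⟩ := hf
  refine ⟨mdiff_tri d 0 1 h1, d * k, fun γ => ?_⟩
  obtain ⟨γ', a, d', b, ha, had, e1, e2, e3, e4⟩ := exists_hermite d γ
  have ha0 : NeZero a := ⟨ha.ne'⟩
  have hd0 : NeZero d' := ⟨by
    rintro rfl
    exact NeZero.ne d (by rw [← had, mul_zero])⟩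
  have h2 : (fun τ : ℍ => f (tri d 0 1 (γ • τ))) = fun τ : ℍ => f (γ' • tri a b d' τ) := by
    funext τ
    rw [tri_smul e1 e2 e3 e4]
  rw [h2]
  refine bounded_tri (g := fun τ => f (γ' • τ)) (hk γ') ?_
  rw [← had]
  exact Nat.le_mul_of_pos_right a (Nat.pos_of_ne_zero (NeZero.ne d'))

theorem tri_one_zero (d : ℕ) [NeZero d] (τ : ℍ) :
    tri 1 0 d τ = ModularGroup.S • tri d 0 1 (ModularGroup.S • τ) := by
  apply UpperHalfPlane.ext
  have h1 : ((ModularGroup.S • τ : ℍ) : ℂ) = (-(τ : ℂ))⁻¹ := by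
    rw [modular_S_smul]
  have h2 : ((ModularGroup.S • tri d 0 1 (ModularGroup.S • τ) : ℍ) : ℂ) =
      (-(tri d 0 1 (ModularGroup.S • τ) : ℂ))⁻¹ := by
    rw [modular_S_smul]
  rw [h2, coe_tri, coe_tri, h1]
  have h3 : (τ : ℂ) ≠ 0 := τ.ne_zero
  have h4 : (d : ℂ) ≠ 0 := by exact_mod_cast NeZero.ne d
  push_cast
  field_simp
  rw [mul_zero, add_zero, add_zero, div_neg, neg_neg, mul_div_cancel_right₀ _ h4]

theorem MB_tri {f : ℍ → ℂ} (hf : f ∈ MB) (b : ℤ) (d : ℕ) [NeZero d] :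
    (fun τ : ℍ => f (tri 1 b d τ)) ∈ MB := by
  have h1 := MB_comp (MB_tri_one (MB_comp hf ModularGroup.S) d) (ModularGroup.S * ModularGroup.T ^ b)
  convert h1 using 2 with τ
  rw [mul_smul, ← tri_one_zero]
  congr 1
  apply UpperHalfPlane.ext
  rw [coe_tri, coe_tri, modular_T_zpow_smul]
  push_cast
  simp
  ring

theorem heckeMatrix_smul_eq (q : ℕ) [NeZero q] (j : ℕ) (τ : ℍ) :
    heckeMatrix q j • τ = tri 1 j q τ := by
  apply UpperHalfPlane.ext
  rw [ESCore.coe_heckeMatrix_smul (NeZero.ne q), coe_tri]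
  push_cast
  ring

theorem MB_prod {ι : Type*} (s : Finset ι) {f : ι → ℍ → ℂ} (h : ∀ i ∈ s, f i ∈ MB) :
    (∏ i ∈ s, f i) ∈ MB := prod_mem h

theorem heckeMulU_eq_prod (q : ℕ) [NeZero q] (f : ℍ → ℂ) :
    heckeMulU q f = ∏ j : Fin q, fun τ => f (tri 1 (j : ℕ) q τ) := by
  funext τ
  rw [heckeMulU_apply, Finset.prod_apply]
  refine Finset.prod_congr rfl fun j _ => ?_
  rw [heckeMatrix_smul_eq]

theorem heckeMulU_mem_MB {f : ℍ → ℂ} (hf : f ∈ MB) (q : ℕ) [NeZero q] : heckeMulU q f ∈ MB := by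
  rw [heckeMulU_eq_prod]
  exact MB_prod _ fun j _ => MB_tri hf _ q

theorem heckeMulU_smul {N q : ℕ} (hq : q ≠ 0) (hN : q ∣ N) {χ : Gamma0 N →* ℂˣ} {f : ℍ → ℂ}
    (hf : ∀ (γ : Gamma0 N) (τ : ℍ), f ((γ : SL(2, ℤ)) • τ) = (χ γ : ℂ) * f τ)
    (γ : Gamma0 N) (τ : ℍ) :
    heckeMulU q f ((γ : SL(2, ℤ)) • τ) = (heckeCharU hq hN χ γ : ℂ) * heckeMulU q f τ := by
  have h1 : ∀ x : Fin q, f (heckeMatrix q x • ((γ : SL(2, ℤ)) • τ)) =
      (χ ((heckeSysU hq hN).coc γ x) : ℂ) *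
        f (heckeMatrix q ((heckeSysU hq hN).tgt γ x : Fin q) • τ) := by
    intro x
    have h2 := (heckeSysU hq hN).spec γ x
    rw [gam_apply, gam_apply] at h2
    have h3 : heckeMatrix q x • ((γ : SL(2, ℤ)) • τ) =
        (((heckeSysU hq hN).coc γ x : Gamma0 N) : SL(2, ℤ)) •
          (heckeMatrix q ((heckeSysU hq hN).tgt γ x : Fin q) • τ) := by
      have h4 : heckeMatrix q x • ((γ : SL(2, ℤ)) • τ) =
          (heckeMatrix q x * Matrix.SpecialLinearGroup.mapGL ℝ (γ : SL(2, ℤ))) • τ := by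
        rw [mul_smul]
        rfl
      have h5 : (heckeSysU hq hN).δ x = heckeMatrix q x := rfl
      rw [h4, ← h5, h2, mul_smul]
      rfl
    rw [h3, hf]
  rw [heckeMulU_apply, heckeMulU_apply, Finset.prod_congr rfl fun x _ => h1 x,
    Finset.prod_mul_distrib]
  congr 1
  · rw [heckeCharU, CosetSys.trans_apply', Units.coe_prod]
  · exact Function.Bijective.prod_comp ((heckeSysU hq hN).tgt_bijective γ)
      fun x : Fin q => f (heckeMatrix q x • τ)

section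

variable {L : Type*} [Field L] {ι : L →+* ℂ}

/-- the converse of the change of parameter -/
theorem hasExp_of_qExpand {q : ℕ} [NeZero q] {f : ℍ → ℂ} {Y : LaurentSeries L}
    (h : HasExp ι (qN q) f (ModularCurve.qExpand L q Y)) : HasExp ι (qN 1) f Y := by
  intro τ _
  have h1 := h τ (qN_ne_zero q τ)
  have hinj : Function.Injective (fun m : ℤ => (q : ℤ) * m) :=
    mul_right_injective₀ (by exact_mod_cast NeZero.ne q)
  rw [← hinj.hasSum_iff] at h1
  · convert h1 using 2 with n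
    simp only [Function.comp_apply]
    rw [ModularCurve.qExpand_coeff_mul, zpow_mul, zpow_natCast, qN_pow_self]
  · intro n hn
    rw [ModularCurve.qExpand_coeff_of_not_dvd]
    · simp
    · rintro ⟨m, rfl⟩
      exact hn ⟨m, rfl⟩

theorem qN_one_tri_j (q : ℕ) [NeZero q] (j : ℕ) (τ : ℍ) :
    qN 1 (tri 1 (j : ℕ) q τ) = Complex.exp (2 * Real.pi * Complex.I / q) ^ j * qN q τ := by
  have hq : (q : ℂ) ≠ 0 := by exact_mod_cast NeZero.ne q
  rw [qN_apply, qN_apply, coe_tri, Function.Periodic.qParam, Function.Periodic.qParam,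
    ← Complex.exp_nat_mul, ← Complex.exp_add]
  congr 1
  push_cast
  field_simp
  ring

theorem hasExp_finset_prod {σ : Type*} {s : ℍ → ℂ} (t : Finset σ) {f : σ → ℍ → ℂ}
    {F : σ → LaurentSeries L} (h : ∀ i ∈ t, HasExp ι s (f i) (F i)) :
    HasExp ι s (∏ i ∈ t, f i) (∏ i ∈ t, F i) := by
  classical
  induction t using Finset.induction_on with
  | empty => simpa using! (hasExp_one (φ := ι) (s := s))
  | insert i t hi IH =>
    rw [Finset.prod_insert hi, Finset.prod_insert hi]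
    exact (h i (Finset.mem_insert_self _ _)).mul (IH fun j hj => h j (Finset.mem_insert_of_mem hj))

theorem hasExp_heckeMulU {q : ℕ} [NeZero q] {ζ : Lˣ} (hζ : IsPrimitiveRoot ζ q)
    {f : ℍ → ℂ} {y : LaurentSeries L} (h : HasExp ι (qN 1) f y) :
    HasExp ι (qN 1) (heckeMulU q f) (uN q ζ y) := by
  -- the standard root of unity
  obtain ⟨i, hi, hcop, hii⟩ := (IsPrimitiveRoot.isPrimitiveRoot_iff
    (IsPrimitiveRoot.map_of_injective (IsPrimitiveRoot.coe_units_iff.mpr hζ) ι.injective)).mp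
    (Complex.isPrimitiveRoot_exp q (NeZero.ne q))
  have hζ' : IsPrimitiveRoot (ζ ^ i) q := hζ.pow_of_coprime i hcop
  have hi' : ι ((ζ ^ i : Lˣ) : L) = Complex.exp (2 * Real.pi * Complex.I / q) := by
    rw [Units.val_pow_eq_pow_val, map_pow, hii]
  rw [← uN_indep hζ hζ']
  apply hasExp_of_qExpand (q := q)
  rw [qExpand_uN hζ', heckeMulU_eq_prod, twN]
  refine hasExp_finset_prod _ fun j _ => ?_
  refine h.twist _ (fun τ => tri 1 ((j : ℕ) : ℤ) q τ) fun τ => ?_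
  rw [qN_one_tri_j, Units.val_pow_eq_pow_val, map_pow, hi']

/-- **`U_q` on series with character.** -/
theorem XSer.uN {N q : ℕ} [NeZero N] [NeZero q] (hq : q ≠ 0) (hN : q ∣ N) {ζ : Lˣ}
    (hζ : IsPrimitiveRoot ζ q) {χ : Gamma0 N →* ℂˣ} {y : LaurentSeries L} (hy : XSer ι N χ y) :
    XSer ι N (heckeCharU hq hN χ) (uN q ζ y) := by
  obtain ⟨f, hf, hf', hfy⟩ := hy
  exact ⟨heckeMulU q f, heckeMulU_mem_MB hf q, fun γ τ => heckeMulU_smul hq hN hf' γ τ,
    hasExp_heckeMulU hζ hfy⟩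

end

end Fermat.Agent.LG
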