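import Mathlib
import Fermat.Agent.LG.WQ
import Fermat.Agent.LG.GRPlace2

/-!
The Atkin–Lehner involution: level `M` and the coefficient action.
-/

set_option autoImplicit false
set_option linter.unusedSectionVars false

open Matrix.SpecialLinearGroup CongruenceSubgroup ModularGroup
open scoped MatrixGroups ModularForm Manifold
open UpperHalfPlane hiding I J
open Complex (I)
open Fermat.Agent.ModFun

noncomputable section

namespace Fermat.Agent.LG

section W

variable {q M N : ℕ} [NeZero q] [NeZero M] [NeZero N] (B : Bez q M)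
  {K : Type*} [Field K] {ι : K →+* ℂ}

theorem F0_mono {M N : ℕ} [NeZero M] [NeZero N] (h : M ∣ N) : F0 K M ≤ F0 K N := by
  rw [IntermediateField.adjoin_le_iff]
  rintro x ⟨d, hd0, hd, rfl⟩
  exact IntermediateField.subset_adjoin _ _ (gens_dvd (hd.trans h))

theorem Bez.wF_level (hq : q.Prime) (hN : N = q * M) (hle : F0 K M ≤ F0 K N) (x : F0 K M) :
    (B.wF ι hq hN (IntermediateField.inclusion hle x) : LaurentSeries K) =
      ModularCurve.qExpand K q (x : LaurentSeries K) := by
  let f : F0 K M →+* LaurentSeries K :=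
    ((F0 K N).val.toRingHom.comp (B.wF ι hq hN : F0 K N →+* F0 K N)).comp
      (IntermediateField.inclusion hle).toRingHom
  let g : F0 K M →+* LaurentSeries K := (ModularCurve.qExpand K q).comp (F0 K M).val.toRingHom
  have h : f = g := by
    apply ringHom_ext_adjoin
    · intro a
      change ((B.wF ι hq hN (algebraMap K (F0 K N) a) : F0 K N) : LaurentSeries K) =
        ModularCurve.qExpand K q (algebraMap K (LaurentSeries K) a)
      rw [B.wF_C, ModularCurve.algebraMap_laurentSeries_eq_single]
      change algebraMap K (LaurentSeries K) a = _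
      rw [ModularCurve.algebraMap_laurentSeries_eq_single, ModularCurve.qExpand_single, mul_zero]
    · rintro x ⟨d, hd0, hd, rfl⟩
      change ((B.wF ι hq hN ⟨_, _⟩ : F0 K N) : LaurentSeries K) =
        ModularCurve.qExpand K q (ModularCurve.qExpand K d (ModularCurve.jqModC K))
      rw [ModularCurve.qExpand_qExpand]
      exact B.wF_gen₁ hq hN hd _
  exact congrArg (fun φ : F0 K M →+* LaurentSeries K => φ x) h

/-- The coefficient action on the function field. -/
def actF (d : K ≃+* K) (N : ℕ) [NeZero N] : F0 K N ≃+* F0 K N where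
  toFun x := ⟨ModularCurve.coeffMap (d : K →+* K) (x : LaurentSeries K),
    coeffMap_mem_adjoin _ x.2⟩
  invFun x := ⟨ModularCurve.coeffMap (d.symm : K →+* K) (x : LaurentSeries K),
    coeffMap_mem_adjoin _ x.2⟩
  left_inv x := Subtype.ext (by
    change ModularCurve.coeffMap (d.symm : K →+* K)
      (ModularCurve.coeffMap (d : K →+* K) (x : LaurentSeries K)) = (x : LaurentSeries K)
    ext n
    simp)
  right_inv x := Subtype.ext (by
    change ModularCurve.coeffMap (d : K →+* K)
      (ModularCurve.coeffMap (d.symm : K →+* K) (x : LaurentSeries K)) = (x : LaurentSeries K)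
    ext n
    simp)
  map_mul' x y := Subtype.ext (map_mul (ModularCurve.coeffMap (d : K →+* K)) _ _)
  map_add' x y := Subtype.ext (map_add (ModularCurve.coeffMap (d : K →+* K)) _ _)

theorem coe_actF (d : K ≃+* K) (x : F0 K N) : (actF d N x : LaurentSeries K) =
    ModularCurve.coeffMap (d : K →+* K) x := rfl

theorem actF_C (d : K ≃+* K) (a : K) : actF d N (algebraMap K _ a) = algebraMap K _ (d a) := by
  apply Subtype.ext
  rw [coe_actF]
  change ModularCurve.coeffMap (d : K →+* K) (algebraMap K (LaurentSeries K) a) =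
    algebraMap K (LaurentSeries K) (d a)
  rw [ModularCurve.coeffMap_algebraMap]
  rfl

theorem actF_gen (d : K ≃+* K) {e : ℕ} [NeZero e]
    (h : ModularCurve.qExpand K e (ModularCurve.jqModC K) ∈ F0 K N) :
    actF d N ⟨_, h⟩ = ⟨_, h⟩ := by
  apply Subtype.ext
  rw [coe_actF]
  change ModularCurve.coeffMap (d : K →+* K) (ModularCurve.qExpand K e _) = _
  rw [coeffMap_qExpand, coeffMap_jqModC]

theorem Bez.wF_actF (hq : q.Prime) (hN : N = q * M) (d : K ≃+* K) (x : F0 K N) :
    B.wF ι hq hN (actF d N x) = actF d N (B.wF ι hq hN x) := by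
  let f : F0 K N →+* F0 K N := (B.wF ι hq hN : F0 K N →+* F0 K N).comp (actF d N : F0 K N →+* F0 K N)
  let g : F0 K N →+* F0 K N := (actF d N : F0 K N →+* F0 K N).comp (B.wF ι hq hN : F0 K N →+* F0 K N)
  have h : f = g := by
    apply ringHom_ext_adjoin
    · intro a
      change B.wF ι hq hN (actF d N (algebraMap K _ a)) = actF d N (B.wF ι hq hN (algebraMap K _ a))
      rw [actF_C, B.wF_C, B.wF_C, actF_C]
    · rintro x ⟨e, he0, he, rfl⟩
      change B.wF ι hq hN (actF d N ⟨_, _⟩) = actF d N (B.wF ι hq hN ⟨_, _⟩)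
      rw [actF_gen]
      rcases dvd_cases hq (hN ▸ he) with h | ⟨c, hc, rfl⟩
      · have h1 : B.wF ι hq hN ⟨_, IntermediateField.subset_adjoin K _ (gens_dvd he)⟩ =
          ⟨_, IntermediateField.subset_adjoin K _ (gens_dvd (dvd₁ hN h))⟩ :=
          Subtype.ext (B.wF_gen₁ hq hN h _)
        rw [h1, actF_gen]
      · have he0 : NeZero c := ⟨by rintro rfl; exact (NeZero.ne (q * 0)) (Nat.mul_zero q)⟩
        have h1 : B.wF ι hq hN ⟨_, IntermediateField.subset_adjoin K _ (gens_dvd he)⟩ =
          ⟨_, IntermediateField.subset_adjoin K _ (gens_dvd (dvd₂ hN hc))⟩ :=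
          Subtype.ext (B.wF_gen₂ hq hN hc _)
        rw [h1, actF_gen]
  exact congrArg (fun φ : F0 K N →+* F0 K N => φ x) h

end W

end Fermat.Agent.LG
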