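import Mathlib
import Fermat.Agent.LG.USer
import Fermat.Agent.LG.WQ2
import Fermat.Agent.LG.KX3
import Fermat.Agent.ESCore.AlgLaurent

/-!
# The operator `w_q` on characters and on series with character
-/

set_option autoImplicit false
set_option linter.unusedSectionVars false

open UpperHalfPlane hiding I J
open ModularForm Filter Matrix.SpecialLinearGroup
open scoped Manifold MatrixGroups ModularForm
open Fermat.Agent.Eis16 Fermat.Agent.ModFun Fermat.Agent.ESCore Fermat.Agent.ESCore.Gal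
open CongruenceSubgroup (Gamma0 Gamma Gamma0_mem Gamma_mem Gamma_normal)

noncomputable section

namespace Fermat.Agent.LG

theorem mapGL_entry (g : SL(2, ℤ)) (i j : Fin 2) :
    (mapGL ℝ g : GL (Fin 2) ℝ) i j = ((g i j : ℤ) : ℝ) := by
  simp

section W

variable {q M N : ℕ} [NeZero q] [NeZero M] [NeZero N] (B : Bez q M)

/-- The Atkin–Lehner matrix. -/
def Bez.Wm : GL (Fin 2) ℝ := mapGL ℝ B.g0 * heckeDiagMatrix q

theorem Bez.Wm_smul (τ : ℍ) : B.Wm • τ = B.W τ := by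
  rw [Bez.Wm, mul_smul]
  have h1 : heckeDiagMatrix q • τ = tri q 0 1 τ := by
    apply UpperHalfPlane.ext
    rw [ESCore.coe_heckeDiagMatrix_smul (NeZero.ne q), coe_tri]
    push_cast
    ring
  rw [h1]
  rfl

theorem Bez.Wm_entries : (B.Wm : Matrix (Fin 2) (Fin 2) ℝ) 0 0 = q ∧
    (B.Wm : Matrix (Fin 2) (Fin 2) ℝ) 0 1 = B.y ∧
    (B.Wm : Matrix (Fin 2) (Fin 2) ℝ) 1 0 = M * q ∧
    (B.Wm : Matrix (Fin 2) (Fin 2) ℝ) 1 1 = q * B.w := by
  have h := isTri_heckeDiagMatrix (NeZero.ne q)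
  have h0 : B.g0 0 0 = 1 := rfl
  have h1 : B.g0 0 1 = B.y := rfl
  have h2 : B.g0 1 0 = M := rfl
  have h3 : B.g0 1 1 = q * B.w := rfl
  refine ⟨?_, ?_, ?_, ?_⟩ <;>
    rw [Bez.Wm, Units.val_mul, Matrix.mul_apply, Fin.sum_univ_two] <;>
    simp only [h.h00, h.h01, h.h10, h.h11, mapGL_entry, h0, h1, h2, h3] <;> push_cast <;> ring

/-- conjugation by the Atkin–Lehner matrix -/
theorem Bez.exists_conj {K : ℕ} (hK : K ∣ M) (γ : SL(2, ℤ)) (hγ : γ ∈ Gamma0 (q * K)) :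
    ∃ γ' : SL(2, ℤ), γ' ∈ Gamma0 (q * K) ∧ B.Wm * mapGL ℝ γ = mapGL ℝ γ' * B.Wm ∧
      trS γ' = trS γ := by
  have hdet := γ.det_coe
  rw [Matrix.det_fin_two] at hdet
  have hc : ((q * K : ℕ) : ℤ) ∣ γ 1 0 :=
    (ZMod.intCast_zmod_eq_zero_iff_dvd _ _).mp (Gamma0_mem.mp hγ)
  obtain ⟨e, he⟩ := hc
  obtain ⟨r, hr⟩ := hK
  have hB := B.det
  push_cast at he
  set c₁ : ℤ := K * e with hc₁
  have hc : γ 1 0 = q * c₁ := by rw [he, hc₁]; ring
  have hMr : (M : ℤ) = K * r := by exact_mod_cast hr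
  have key : ∃ γ' : SL(2, ℤ),
      γ' 0 0 = q * γ 0 0 * B.w + q * B.y * B.w * c₁ - q * γ 0 1 * M - B.y * γ 1 1 * M ∧
      γ' 0 1 = -γ 0 0 * B.y - B.y ^ 2 * c₁ + q * γ 0 1 + B.y * γ 1 1 ∧
      γ' 1 0 = q * (M * γ 0 0 * B.w + q * B.w ^ 2 * c₁ - M ^ 2 * γ 0 1 - M * B.w * γ 1 1) ∧
      γ' 1 1 = -(M : ℤ) * γ 0 0 * B.y - B.w * q * c₁ * B.y + q * M * γ 0 1 +
        q * B.w * γ 1 1 := by
    refine ⟨⟨!![q * γ 0 0 * B.w + q * B.y * B.w * c₁ - q * γ 0 1 * M - B.y * γ 1 1 * M,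
      -γ 0 0 * B.y - B.y ^ 2 * c₁ + q * γ 0 1 + B.y * γ 1 1;
      q * (M * γ 0 0 * B.w + q * B.w ^ 2 * c₁ - M ^ 2 * γ 0 1 - M * B.w * γ 1 1),
      -(M : ℤ) * γ 0 0 * B.y - B.w * q * c₁ * B.y + q * M * γ 0 1 + q * B.w * γ 1 1], ?_⟩,
      rfl, rfl, rfl, rfl⟩
    rw [hc] at hdet
    rw [Matrix.det_fin_two_of]
    have h1 : (q * B.w - M * B.y) ^ 2 * (γ 0 0 * γ 1 1 - γ 0 1 * (q * c₁)) = 1 := by
      rw [hB, hdet]; norm_num
    linear_combination h1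
  obtain ⟨γ', g00, g01, g10, g11⟩ := key
  refine ⟨γ', ?_, ?_, ?_⟩
  · rw [Gamma0_mem, ZMod.intCast_zmod_eq_zero_iff_dvd]
    refine ⟨r * γ 0 0 * B.w + q * B.w ^ 2 * e - K * r ^ 2 * γ 0 1 - r * B.w * γ 1 1, ?_⟩
    rw [g10, hMr, hc₁]
    push_cast
    ring
  · have hB' : (q : ℝ) * B.w - M * B.y = 1 := by exact_mod_cast hB
    obtain ⟨w00, w01, w10, w11⟩ := B.Wm_entries
    ext i j
    rw [Units.val_mul, Units.val_mul, Matrix.mul_apply, Matrix.mul_apply, Fin.sum_univ_two,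
      Fin.sum_univ_two]
    fin_cases i <;> fin_cases j
    · simp only [Fin.zero_eta, Fin.isValue, w00, w01, w10, mapGL_entry, g00, g01, hc]
      push_cast
      linear_combination (-(q : ℝ) * γ 0 0 - B.y * q * c₁) * hB'
    · simp only [Fin.zero_eta, Fin.isValue, Fin.mk_one, w00, w01, w11, mapGL_entry, g00, g01]
      push_cast
      linear_combination (-(q : ℝ) * γ 0 1 - B.y * γ 1 1) * hB'
    · simp only [Fin.zero_eta, Fin.isValue, Fin.mk_one, w00, w10, w11, mapGL_entry, g10, g11, hc]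
      push_cast
      linear_combination (-(q : ℝ) * M * γ 0 0 - q ^ 2 * B.w * c₁) * hB'
    · simp only [Fin.isValue, Fin.mk_one, w01, w10, w11, mapGL_entry, g10, g11]
      push_cast
      linear_combination (-(q : ℝ) * M * γ 0 1 - q * B.w * γ 1 1) * hB'
  · rw [trS, trS, g00, g11]
    linear_combination (γ 0 0 + γ 1 1) * hB

/-- The coset system of the Atkin–Lehner operator, at every level `qK` with `K ∣ M`. -/
def Bez.wSys {K : ℕ} (hK : K ∣ M) (hN : N = q * K) : CosetSys (gam N) Unit where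
  δ _ := B.Wm
  inj _ _ _ _ := rfl
  act _ γ := by
    subst hN
    obtain ⟨γ', h1, h2, -⟩ := B.exists_conj hK γ γ.2
    exact ⟨(), ⟨γ', h1⟩, h2⟩

variable {Bg : Type*} [CommGroup Bg]

/-- The Atkin–Lehner operator on characters. -/
def Bez.wChar {K : ℕ} (hK : K ∣ M) (hN : N = q * K) (c : Gamma0 N →* Bg) : Gamma0 N →* Bg :=
  (B.wSys hK hN).trans (gam_injective N) c

theorem Bez.wChar_apply {K : ℕ} (hK : K ∣ M) (hN : N = q * K) (c : Gamma0 N →* Bg)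
    {γ γ' : Gamma0 N} (h : B.Wm * mapGL ℝ (γ : SL(2, ℤ)) = mapGL ℝ (γ' : SL(2, ℤ)) * B.Wm) :
    B.wChar hK hN c γ = c γ' := by
  have h1 := CosetSys.trans_apply (gam_injective N) (B.wSys hK hN) c γ (fun _ => γ')
    (fun _ => ()) (fun _ => h)
  rw [Bez.wChar, h1]
  simp

theorem Bez.exists_wChar {K : ℕ} (hK : K ∣ M) (hN : N = q * K) (γ : Gamma0 N) :
    ∃ γ' : Gamma0 N, B.Wm * mapGL ℝ (γ : SL(2, ℤ)) = mapGL ℝ (γ' : SL(2, ℤ)) * B.Wm ∧
      trS (γ' : SL(2, ℤ)) = trS (γ : SL(2, ℤ)) := by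
  subst hN
  obtain ⟨γ', h1, h2, h3⟩ := B.exists_conj hK γ γ.2
  exact ⟨⟨γ', h1⟩, h2, h3⟩

theorem Bez.wChar_isPar {K : ℕ} (hK : K ∣ M) (hN : N = q * K) {χ : Gamma0 N →* ℂˣ}
    (hχ : IsPar χ) : IsPar (B.wChar hK hN χ) := by
  intro γ hγ
  obtain ⟨γ', h1, h2⟩ := B.exists_wChar hK hN γ
  rw [B.wChar_apply hK hN χ h1]
  apply hχ
  rw [h2, hγ]

theorem Bez.wChar_mul {K : ℕ} (hK : K ∣ M) (hN : N = q * K) (c c' : Gamma0 N →* Bg) :
    B.wChar hK hN (c * c') = B.wChar hK hN c * B.wChar hK hN c' := CosetSys.trans_mul _ _ c c'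

theorem Bez.wChar_pow {K : ℕ} (hK : K ∣ M) (hN : N = q * K) (c : Gamma0 N →* Bg) (n : ℕ) :
    B.wChar hK hN (c ^ n) = B.wChar hK hN c ^ n := CosetSys.trans_pow _ _ c n

theorem Bez.wChar_one {K : ℕ} (hK : K ∣ M) (hN : N = q * K) :
    B.wChar hK hN (1 : Gamma0 N →* Bg) = 1 := CosetSys.trans_one _ _

/-- functions with character -/
theorem Bez.slash_smul {K : ℕ} (hK : K ∣ M) (hN : N = q * K) {χ : Gamma0 N →* ℂˣ} {f : ℍ → ℂ}
    (hf : ∀ (γ : Gamma0 N) (τ : ℍ), f ((γ : SL(2, ℤ)) • τ) = (χ γ : ℂ) * f τ)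
    (γ : Gamma0 N) (τ : ℍ) :
    B.slash f ((γ : SL(2, ℤ)) • τ) = (B.wChar hK hN χ γ : ℂ) * B.slash f τ := by
  obtain ⟨γ', h1, -⟩ := B.exists_wChar hK hN γ
  rw [B.wChar_apply hK hN χ h1, B.slash_apply, B.slash_apply, ← B.Wm_smul, ← B.Wm_smul]
  have h2 : B.Wm • ((γ : SL(2, ℤ)) • τ) = (B.Wm * mapGL ℝ (γ : SL(2, ℤ))) • τ := by
    rw [mul_smul]
    rfl
  rw [h2, h1, mul_smul]
  exact hf γ' _

theorem Bez.slash_mem_MB {f : ℍ → ℂ} (hf : f ∈ MB) : B.slash f ∈ MB :=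
  MB_tri_one (MB_comp hf B.g0) q

section F

open scoped IntermediateField.algebraAdjoinAdjoin

variable {L : Type*} [Field L] {ι : L →+* ℂ}

/-- The expansion of the transform of a function under `w_q`. -/
theorem Bez.wF_hasExp (hq : q.Prime) (hN : N = q * M) {f : ℍ → ℂ} {h : F0 L N}
    (hfh : HasExp ι (qN 1) f (h : LaurentSeries L)) {z : LaurentSeries ℂ}
    (hz : HasExp (RingHom.id ℂ) (qN 1) (B.slash f) z) :
    ModularCurve.coeffMap ι (B.wF ι hq hN h : LaurentSeries L) = z := by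
  obtain ⟨a, b, hb, hab⟩ := IsFractionRing.div_surjective (A := A0 L N) h
  have hb0 : b ≠ 0 := nonZeroDivisors.ne_zero hb
  have hb1 : algebraMap (A0 L N) (F0 L N) b ≠ 0 := by
    intro h
    exact hb0 ((IsFractionRing.to_map_eq_zero_iff (K := F0 L N)).mp h)
  rw [div_eq_iff hb1] at hab
  have h1 : (a : LaurentSeries L) = (h : LaurentSeries L) * (b : LaurentSeries L) :=
    congrArg (fun y : F0 L N => (y : LaurentSeries L)) hab
  have ha := evA_hasExp (ι := ι) a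
  have hb' := evA_hasExp (ι := ι) b
  have h2 : evA ι N a = f * evA ι N b := by
    refine ha.fun_unique (qN_ne_zero 1) ?_
    rw [h1]
    exact hfh.mul hb'
  have h3 := evA_hasExp (ι := ι) (B.wA ι hq hN a)
  rw [B.evA_wA, h2, RingHom.map_mul, ← B.evA_wA hq hN b] at h3
  have h4 := hz.mul ((evA_hasExp (ι := ι) (B.wA ι hq hN b)).coeffMap ι (RingHom.id_comp ι))
  have h5 := (h3.coeffMap ι (RingHom.id_comp ι)).unique Function.injective_id (isParam_qN 1) h4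
  have h6 : (B.wF ι hq hN h : LaurentSeries L) * (B.wA ι hq hN b : LaurentSeries L) =
      (B.wA ι hq hN a : LaurentSeries L) := by
    have h7 := congrArg (B.wF ι hq hN) hab
    rw [map_mul, B.wF_algebraMap, B.wF_algebraMap] at h7
    exact (congrArg (fun y : F0 L N => (y : LaurentSeries L)) h7).symm
  have h8 := congrArg (ModularCurve.coeffMap ι) h6
  rw [map_mul, h5] at h8
  refine mul_right_cancel₀ ?_ h8
  intro h9
  have h10 := (map_eq_zero_iff _ (RingHom.injective (ModularCurve.coeffMap ι))).mp h9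
  have h11 : B.wA ι hq hN b = 0 := Subtype.ext h10
  have h12 := congrArg (B.wA ι hq hN) h11
  rw [B.wA_wA, map_zero] at h12
  exact hb0 h12

/-- `w_q` on series with parabolic character, with complex coefficients -/
theorem Bez.exists_wSer_C (hq : q.Prime) (hN : N = q * M) {χ : Gamma0 N →* ℂˣ} (hχ : IsPar χ)
    {m : ℕ} (hχm : χ ^ m = 1) {y : LaurentSeries L} (hy : XSer ι N χ y) :
    ∃ z : LaurentSeries ℂ, XSer (RingHom.id ℂ) N (B.wChar dvd_rfl hN χ) z ∧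
      z ^ m = ModularCurve.coeffMap ι (B.wF ι hq hN ⟨y ^ m, hy.pow_mem_F0 hχm⟩ : LaurentSeries L) := by
  obtain ⟨f, hf, hf', hfy⟩ := hy
  have h1 := B.slash_smul dvd_rfl hN hf'
  have hpar := B.wChar_isPar dvd_rfl hN hχ
  obtain ⟨z, hz⟩ := exists_exp_of_MB (B.slash_mem_MB hf) 1 fun τ => by
    have h2 := h1 ⟨ModularGroup.T, by
      rw [← zpow_one ModularGroup.T, Gamma0_mem, ModularGroup.coe_T_zpow]; simp⟩ τ
    have h3 : (((1 : ℕ) : ℝ) +ᵥ τ : ℍ) = ModularGroup.T • τ := by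
      rw [modular_T_smul, Nat.cast_one]
    rw [h3, h2, hpar _ (by
      change trS (ModularGroup.T) ^ 2 = 4
      rw [← zpow_one ModularGroup.T, trS_T_zpow]
      norm_num), Units.val_one, one_mul]
  refine ⟨z, ⟨B.slash f, B.slash_mem_MB hf, h1, hz⟩, ?_⟩
  refine (B.wF_hasExp hq hN (h := ⟨y ^ m, _⟩) (hfy.pow m) ?_).symm
  rw [RingHom.map_pow]
  exact hz.pow m

end F

end W

end Fermat.Agent.LG
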