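import Mathlib
import Fermat.Agent.LG.WSer
import Fermat.Agent.ESCore.GalX
import Fermat.Agent.LG.InertField3

/-!
# Fields of definition of series with character
-/

set_option autoImplicit false
set_option linter.unusedSectionVars false

open ModularCurve Fermat.Agent.ModFun Fermat.Agent.ESCore IntermediateField
open CongruenceSubgroup (Gamma0)

noncomputable section

namespace Fermat.Agent.LG

/-- the coefficients are in a subfield -/
theorem mem_fieldRange_coeffMap {K : IntermediateField ℚ Qb} {z : LaurentSeries Qb} :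
    z ∈ (coeffMap (algebraMap K Qb)).fieldRange ↔ ∀ n, z.coeff n ∈ K := by
  constructor
  · rintro ⟨y, rfl⟩ n
    exact (y.coeff n).2
  · intro h
    refine ⟨⟨fun n => ⟨z.coeff n, h n⟩, z.isPWO_support.mono fun n hn => ?_⟩, ?_⟩
    · rw [HahnSeries.mem_support]
      intro h0
      apply hn
      exact Subtype.ext h0
    · ext n
      rfl

theorem exists_lift_coeff {K : IntermediateField ℚ Qb} {z : LaurentSeries Qb}
    (h : ∀ n, z.coeff n ∈ K) : ∃ y : LaurentSeries K, coeffMap (algebraMap K Qb) y = z :=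
  mem_fieldRange_coeffMap.mpr h

/-- the coefficients are in a finitely generated field -/
def FinCoef (z : LaurentSeries Qb) : Prop :=
  ∃ S : Finset Qb, ∀ n, z.coeff n ∈ adjoin ℚ (S : Set Qb)

theorem FinCoef.mem {z : LaurentSeries Qb} {S : Finset Qb}
    (h : ∀ n, z.coeff n ∈ adjoin ℚ (S : Set Qb)) {L : IntermediateField ℚ Qb}
    (hL : ∀ x ∈ S, x ∈ L) (n : ℤ) : z.coeff n ∈ L :=
  (adjoin_le_iff.mpr fun x hx => hL x hx) (h n)

theorem finCoef_of_mem_F0 {N : ℕ} [NeZero N] {z : LaurentSeries Qb} (hz : z ∈ F0 Qb N) :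
    FinCoef z := by
  classical
  have hun : ∀ {x y : LaurentSeries Qb}, FinCoef x → FinCoef y →
      ∃ S : Finset Qb, x ∈ (coeffMap (algebraMap (adjoin ℚ (S : Set Qb)) Qb)).fieldRange ∧
        y ∈ (coeffMap (algebraMap (adjoin ℚ (S : Set Qb)) Qb)).fieldRange := by
    rintro x y ⟨S, hS⟩ ⟨T, hT⟩
    refine ⟨S ∪ T, mem_fieldRange_coeffMap.mpr fun n => ?_, mem_fieldRange_coeffMap.mpr fun n => ?_⟩
    · exact adjoin.mono _ _ _ (by rw [Finset.coe_union]; exact Set.subset_union_left) (hS n)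
    · exact adjoin.mono _ _ _ (by rw [Finset.coe_union]; exact Set.subset_union_right) (hT n)
  induction hz using IntermediateField.adjoin_induction with
  | mem x hx =>
    obtain ⟨d, hd0, hd, rfl⟩ := hx
    refine ⟨∅, fun n => ?_⟩
    have h1 : qExpand Qb d (jqModC Qb) = coeffMap (algebraMap ℚ Qb) (qExpand ℚ d (jqModC ℚ)) := by
      rw [ModularCurve.coeffMap_qExpand, coeffMap_jqModC]
    rw [h1, coeffMap_coeff]
    exact IntermediateField.algebraMap_mem _ _
  | algebraMap c =>
    refine ⟨{c}, fun n => ?_⟩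
    rw [ModularCurve.algebraMap_laurentSeries_eq_single]
    rcases eq_or_ne n 0 with rfl | hn
    · rw [HahnSeries.coeff_single_same]
      exact subset_adjoin _ _ (by simp)
    · rw [HahnSeries.coeff_single_of_ne hn]
      exact zero_mem _
  | add x y _ _ hx hy =>
    obtain ⟨S, h1, h2⟩ := hun hx hy
    exact ⟨S, mem_fieldRange_coeffMap.mp (add_mem h1 h2)⟩
  | mul x y _ _ hx hy =>
    obtain ⟨S, h1, h2⟩ := hun hx hy
    exact ⟨S, mem_fieldRange_coeffMap.mp (mul_mem h1 h2)⟩
  | inv x _ hx =>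
    obtain ⟨S, h1, -⟩ := hun hx hx
    exact ⟨S, mem_fieldRange_coeffMap.mp (inv_mem h1)⟩

theorem finCoef_of_pow {z : LaurentSeries Qb} {m : ℕ} (hm : 0 < m) (h : FinCoef (z ^ m)) :
    FinCoef z := by
  classical
  have hm0 : NeZero m := ⟨hm.ne'⟩
  rcases eq_or_ne z 0 with rfl | hz0
  · exact ⟨∅, fun n => by rw [HahnSeries.coeff_zero]; exact zero_mem _⟩
  obtain ⟨S, hS⟩ := h
  set c := z.coeff z.order with hc
  have hc0 : c ≠ 0 := HahnSeries.coeff_order_eq_zero.not.2 hz0
  refine ⟨S ∪ {c}, fun n => ?_⟩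
  set K := adjoin ℚ ((S ∪ {c} : Finset Qb) : Set Qb) with hK
  have hSK : adjoin ℚ (S : Set Qb) ≤ K :=
    adjoin.mono _ _ _ (by rw [Finset.coe_union]; exact Set.subset_union_left)
  have hcK : c ∈ K := subset_adjoin _ _ (by simp)
  rw [← InfiniteGalois.fixedField_fixingSubgroup K, mem_fixedField_iff]
  intro σ hσ
  rw [IntermediateField.mem_fixingSubgroup_iff] at hσ
  -- the conjugate series
  set z' := coeffMap (σ : Qb →+* Qb) z with hz'
  have h1 : z' ^ m = z ^ m := by
    rw [hz', ← map_pow]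
    ext k
    rw [coeffMap_coeff]
    exact hσ _ (hSK (hS k))
  have hlead : z'.coeff z.order = c := hσ _ hcK
  obtain ⟨ζ, hζ⟩ : ∃ ζ : Qb, IsPrimitiveRoot ζ m := by
    have : NeZero (m : Qb) := ⟨by exact_mod_cast hm.ne'⟩
    exact HasEnoughRootsOfUnity.exists_primitiveRoot Qb m
  have hζ' : IsPrimitiveRoot (HahnSeries.C ζ : LaurentSeries Qb) m :=
    hζ.map_of_injective HahnSeries.C_injective
  have h2 : (z' / z) ^ m = 1 := by
    rw [div_pow, h1, div_self (pow_ne_zero _ hz0)]
  obtain ⟨i, -, hi⟩ := hζ'.eq_pow_of_pow_eq_one h2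
  have h3 : z' = HahnSeries.C (ζ ^ i) * z := by
    rw [map_pow, hi, div_mul_cancel₀ _ hz0]
  have h4 : ζ ^ i = 1 := by
    have h5 := congrArg (fun F : LaurentSeries Qb => F.coeff z.order) h3
    simp only [HahnSeries.C_mul_eq_smul, HahnSeries.coeff_smul, smul_eq_mul] at h5
    rw [hlead] at h5
    exact (mul_right_cancel₀ hc0 ((one_mul c).trans h5)).symm
  rw [h4, map_one, one_mul] at h3
  exact congrArg (fun F : LaurentSeries Qb => F.coeff n) h3

theorem XSer.finCoef {N : ℕ} [NeZero N] {χ : Gamma0 N →* ℂˣ} {m : ℕ} (hm : 0 < m)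
    (hχ : χ ^ m = 1) {y : LaurentSeries Qb} (hy : XSer ιC N χ y) : FinCoef y :=
  finCoef_of_pow hm (finCoef_of_mem_F0 (hy.pow_mem_F0 hχ))

/-- `w_q` on series with algebraic coefficients -/
theorem Bez.exists_wSer {q M N : ℕ} [NeZero q] [NeZero M] [NeZero N] (B : Bez q M) (hq : q.Prime)
    (hN : N = q * M) {χ : Gamma0 N →* ℂˣ} (hχ : IsPar χ) {m : ℕ} (hm : 0 < m) (hχm : χ ^ m = 1)
    {y : LaurentSeries Qb} (hy : XSer ιC N χ y) :
    ∃ z : LaurentSeries Qb, XSer ιC N (B.wChar dvd_rfl hN χ) z ∧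
      z ^ m = (B.wF ιC hq hN ⟨y ^ m, hy.pow_mem_F0 hχm⟩ : LaurentSeries Qb) := by
  obtain ⟨z, hz, hzm⟩ := B.exists_wSer_C hq hN hχ hχm hy
  obtain ⟨z', hz'⟩ := exists_coeffMap_of_root (x := z)
    (f := Polynomial.X ^ m - Polynomial.C (B.wF ιC hq hN ⟨y ^ m, hy.pow_mem_F0 hχm⟩ :
      LaurentSeries Qb)) (Polynomial.X_pow_sub_C_ne_zero hm _) (by
    rw [Polynomial.eval₂_sub, Polynomial.eval₂_pow, Polynomial.eval₂_X, Polynomial.eval₂_C, hzm,
      sub_self])
  refine ⟨z', ?_, ?_⟩
  · rw [← xSer_coeffMap_iff ιC (RingHom.id_comp ιC), hz']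
    exact hz
  · apply RingHom.injective (coeffMap ιC)
    rw [map_pow, hz', hzm]

/-- descent of the coefficients of a series with character -/
theorem XSer.descend {N : ℕ} [NeZero N] {χ : Gamma0 N →* ℂˣ} {y : LaurentSeries Qb}
    (hy : XSer ιC N χ y) {L : IntermediateField ℚ Qb} (hL : ∀ n, y.coeff n ∈ L) :
    ∃ y' : LaurentSeries L, ModularCurve.coeffMap (algebraMap L Qb) y' = y ∧
      XSer (ιC.comp (algebraMap L Qb)) N χ y' := by
  obtain ⟨y', rfl⟩ := exists_lift_coeff hL
  exact ⟨y', rfl, (xSer_coeffMap_iff (algebraMap L Qb) rfl).mp hy⟩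

/-- compatibility of `w_q` with the extension of the coefficients -/
theorem Bez.wF_coeffMap {q M N : ℕ} [NeZero q] [NeZero M] [NeZero N] (B : Bez q M) (hq : q.Prime)
    (hN : N = q * M) {L L' : Type*} [Field L] [Field L'] (ι : L →+* ℂ) (ι' : L' →+* ℂ)
    (u : L →+* L') {h : F0 L N} {h' : F0 L' N}
    (hh : coeffMap u (h : LaurentSeries L) = h') :
    coeffMap u (B.wF ι hq hN h : LaurentSeries L) = B.wF ι' hq hN h' := by
  have h1 : ((coeffMap u).comp (F0 L N).val.toRingHom).comp (B.wF ι hq hN : F0 L N →+* F0 L N) =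
      ((F0 L' N).val.toRingHom.comp (B.wF ι' hq hN : F0 L' N →+* F0 L' N)).comp
        ({ toFun := fun x => ⟨coeffMap u (x : LaurentSeries L), coeffMap_mem_adjoin u x.2⟩
           map_one' := Subtype.ext (map_one (coeffMap u))
           map_mul' := fun x y => Subtype.ext (map_mul (coeffMap u) _ _)
           map_zero' := Subtype.ext (map_zero (coeffMap u))
           map_add' := fun x y => Subtype.ext (map_add (coeffMap u) _ _) } : F0 L N →+* F0 L' N) := by
    refine ringHom_ext_adjoin (fun a => ?_) (fun x hx => ?_)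
    · have e1 := B.wF_C (ι := ι) hq hN a
      have e2 := B.wF_C (ι := ι') hq hN (u a)
      have e3 : ∀ c : L, coeffMap u (algebraMap L (LaurentSeries L) c) =
          algebraMap L' (LaurentSeries L') (u c) := by
        intro c
        rw [ModularCurve.algebraMap_laurentSeries_eq_single,
          ModularCurve.algebraMap_laurentSeries_eq_single, coeffMap_single]
      change coeffMap u (B.wF ι hq hN (algebraMap L (F0 L N) a) : LaurentSeries L) = _
      rw [e1]
      have e4 : (⟨coeffMap u ((algebraMap L (F0 L N) a : F0 L N) : LaurentSeries L),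
          coeffMap_mem_adjoin u (algebraMap L (F0 L N) a).2⟩ : F0 L' N) =
          algebraMap L' (F0 L' N) (u a) := Subtype.ext (e3 a)
      change _ = (B.wF ι' hq hN ⟨coeffMap u ((algebraMap L (F0 L N) a : F0 L N) :
        LaurentSeries L), _⟩ : LaurentSeries L')
      rw [e4, e2]
      exact e3 a
    · obtain ⟨d, hd0, hd, rfl⟩ := hx
      change coeffMap u (B.wF ι hq hN ⟨_, _⟩ : LaurentSeries L) =
        (B.wF ι' hq hN ⟨coeffMap u _, _⟩ : LaurentSeries L')
      have e5 : ∀ (e : ℕ) [NeZero e], coeffMap u (qExpand L e (jqModC L)) =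
          qExpand L' e (jqModC L') := by
        intro e _
        rw [ModularCurve.coeffMap_qExpand, coeffMap_jqModC]
      rcases dvd_cases hq (hN ▸ hd) with h2 | ⟨e, he, rfl⟩
      · rw [B.wF_gen₁ hq hN h2]
        simp only [e5]
        rw [B.wF_gen₁ hq hN h2]
      · have he0 : NeZero e := ⟨by rintro rfl; exact (NeZero.ne (q * 0)) (Nat.mul_zero q)⟩
        rw [B.wF_gen₂ hq hN he]
        simp only [e5]
        rw [B.wF_gen₂ hq hN he]
  have h2 := congrArg (fun f : F0 L N →+* LaurentSeries L' => f h) h1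
  have h3 : (⟨coeffMap u (h : LaurentSeries L), coeffMap_mem_adjoin u h.2⟩ : F0 L' N) = h' :=
    Subtype.ext hh
  change coeffMap u (B.wF ι hq hN h : LaurentSeries L) =
    (B.wF ι' hq hN ⟨coeffMap u (h : LaurentSeries L), _⟩ : LaurentSeries L') at h2
  rw [h3] at h2
  exact h2

end Fermat.Agent.LG
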