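import Mathlib

/-!
Algebraic consequences of the shape of the modular equation of `t`.
-/

set_option autoImplicit false
set_option linter.unusedSectionVars false

open Polynomial

noncomputable section

namespace Fermat.Agent.LG

/-- The shape of the modular equation `∑ c_i(t) t_l ^ i = 0`. -/
structure ModShape (l : ℕ) (c : ℕ → ℤ[X]) : Prop where
  two_le : 2 ≤ l
  top : c (l + 1) = 1
  deg : ∀ i, 1 ≤ i → (c i).natDegree ≤ l
  deg0 : (c 0).natDegree ≤ l + 1
  coeff : (c l).coeff l = -1

/-- The relation. -/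
def MRel (l : ℕ) (c : ℕ → ℤ[X]) {E : Type*} [CommRing E] (x y : E) : Prop :=
  ∑ i ∈ Finset.range (l + 2), aeval y (c i) * x ^ i = 0

variable {l : ℕ} {c : ℕ → ℤ[X]}

/-- `t` is integral over `ℤ[t + t_l]`, of degree at most `2 l`. -/
theorem ModShape.exists_monic (h : ModShape l c) : ∃ P : ℤ[X][X], P.Monic ∧ P.natDegree = 2 * l ∧
    ∀ {E : Type*} [CommRing E] (x y : E), MRel l c x y →
      P.eval₂ (eval₂RingHom (Int.castRingHom E) (x + y)) y = 0 := by
  have hl := h.two_le
  set m : ℤ[X] →+* ℤ[X][X] := mapRingHom (C : ℤ →+* ℤ[X]) with hm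
  set Q : ℤ[X][X] := ∑ i ∈ Finset.range (l + 2), m (c i) * (C X - X) ^ i with hQ
  have hdm : ∀ i, (m (c i)).natDegree ≤ (c i).natDegree := fun i => natDegree_map_le
  have hd1 : ∀ i, ((C X - X : ℤ[X][X]) ^ i).natDegree ≤ i := by
    intro i
    refine natDegree_pow_le.trans ?_
    have : (C X - X : ℤ[X][X]).natDegree ≤ 1 := by
      refine (natDegree_sub_le _ _).trans ?_
      simp
    nlinarith
  have hterm : ∀ i ∈ Finset.range (l + 2), (m (c i) * (C X - X) ^ i).natDegree ≤ 2 * l := by
    intro i hi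
    have hi' := Finset.mem_range.mp hi
    refine natDegree_mul_le.trans ?_
    have h1 := hdm i
    have h2 := hd1 i
    rcases Nat.eq_zero_or_pos i with rfl | hpos
    · have := h.deg0
      omega
    · rcases Nat.lt_or_ge i (l + 1) with h3 | h3
      · have := h.deg i hpos
        omega
      · obtain rfl : i = l + 1 := by omega
        have h3 : (c (l + 1)).natDegree = 0 := by rw [h.top, natDegree_one]
        omega
  have hdeg : Q.natDegree ≤ 2 * l := natDegree_sum_le_of_forall_le _ _ hterm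
  have hcoeff : Q.coeff (2 * l) = (-1) ^ (l + 1) := by
    rw [hQ, finsetSum_coeff, Finset.sum_eq_single_of_mem l (by simp)]
    · have h1 : (m (c l) * (C X - X) ^ l).coeff (2 * l) =
          (m (c l)).coeff l * ((C X - X : ℤ[X][X]) ^ l).coeff l := by
        rw [two_mul]
        exact coeff_mul_add_eq_of_natDegree_le ((hdm l).trans (h.deg l (by omega))) (hd1 l)
      have h2 : ((C X - X : ℤ[X][X]) ^ l).coeff l = (-1) ^ l := by
        have h3 : (C X - X : ℤ[X][X]) ^ l = C ((-1) ^ l) * (X - C X) ^ l := by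
          rw [map_pow, ← mul_pow]
          congr 1
          rw [map_neg, map_one]; ring
        have h4 : ((X - C X : ℤ[X][X]) ^ l).coeff l = 1 := by
          have hmon : ((X - C X : ℤ[X][X]) ^ l).Monic := (monic_X_sub_C _).pow l
          have hnd : ((X - C X : ℤ[X][X]) ^ l).natDegree = l := by
            rw [(monic_X_sub_C _).natDegree_pow, natDegree_X_sub_C, mul_one]
          have := hmon.coeff_natDegree
          rwa [hnd] at this
        rw [h3, coeff_C_mul, h4, mul_one]
      rw [h1, h2, hm, coe_mapRingHom, coeff_map, h.coeff, map_neg, map_one]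
      ring
    · intro i hi hne
      apply coeff_eq_zero_of_natDegree_lt
      have hi' := Finset.mem_range.mp hi
      refine lt_of_le_of_lt natDegree_mul_le ?_
      have h1 := hdm i
      have h2 := hd1 i
      rcases Nat.eq_zero_or_pos i with rfl | hpos
      · have := h.deg0
        omega
      · rcases Nat.lt_or_ge i (l + 1) with h3 | h3
        · have := h.deg i hpos
          omega
        · obtain rfl : i = l + 1 := by omega
          have h3 : (c (l + 1)).natDegree = 0 := by rw [h.top, natDegree_one]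
          omega
  refine ⟨C ((-1) ^ (l + 1)) * Q, ?_, ?_, ?_⟩
  · refine monic_of_natDegree_le_of_coeff_eq_one (2 * l) ((natDegree_C_mul_le _ _).trans hdeg) ?_
    rw [coeff_C_mul, hcoeff, ← mul_pow]
    norm_num
  · refine le_antisymm ((natDegree_C_mul_le _ _).trans hdeg) (le_natDegree_of_ne_zero ?_)
    rw [coeff_C_mul, hcoeff, ← mul_pow]
    norm_num
  · intro E _ x y hrel
    rw [eval₂_mul, hQ, eval₂_finsetSum]
    have h1 : ∀ i ∈ Finset.range (l + 2),
        (m (c i) * (C X - X) ^ i).eval₂ (eval₂RingHom (Int.castRingHom E) (x + y)) y =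
        aeval y (c i) * x ^ i := by
      intro i _
      rw [eval₂_mul, eval₂_pow, eval₂_sub, eval₂_C, eval₂_X, coe_eval₂RingHom, eval₂_X,
        add_sub_cancel_right, hm, coe_mapRingHom, eval₂_map]
      congr 1
      rw [aeval_def]
      congr 1
      exact RingHom.ext_int _ _
    rw [Finset.sum_congr rfl h1, hrel, mul_zero]

/-- the relation at infinity -/
theorem ModShape.exists_inv (h : ModShape l c) : ∃ Q : ℤ[X][X], Q.natDegree ≤ 2 * l ∧
    Q.map (evalRingHom 0) = X ^ (2 * l) ∧
    ∀ {E : Type*} [Field E] (x y : E), y ≠ 0 → x + y ≠ 0 → MRel l c x y →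
      Q.eval₂ (eval₂RingHom (Int.castRingHom E) (x + y)⁻¹) y⁻¹ = 0 := by
  have hl := h.two_le
  set m : ℤ[X] →+* ℤ[X][X] := mapRingHom (C : ℤ →+* ℤ[X]) with hm
  -- reversed coefficients
  set d : ℕ → ℤ[X] := fun i => if i = 0 then reflect (l + 1) (c 0) else reflect l (c i) with hd
  set Q : ℤ[X][X] := C X ^ (l + 1) * X ^ (l - 1) * m (d 0) +
    ∑ i ∈ Finset.Icc 1 l, C X ^ (l + 1 - i) * (X - C X) ^ i * X ^ (l - i) * m (d i) +
    (X - C X) ^ (l + 1) * X ^ (l - 1) with hQ
  have hdd : ∀ i, 1 ≤ i → (m (d i)).natDegree ≤ l := by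
    intro i hi
    refine natDegree_map_le.trans ?_
    rw [hd]
    simp only [if_neg (show i ≠ 0 by omega)]
    rw [natDegree_le_iff_coeff_eq_zero]
    intro N hN
    rw [coeff_reflect, revAt_eq_self_of_lt hN]
    exact coeff_eq_zero_of_natDegree_lt (lt_of_le_of_lt (h.deg i hi) hN)
  have hd0 : (m (d 0)).natDegree ≤ l + 1 := by
    refine natDegree_map_le.trans ?_
    rw [hd]
    simp only [if_true]
    rw [natDegree_le_iff_coeff_eq_zero]
    intro N hN
    rw [coeff_reflect, revAt_eq_self_of_lt hN]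
    exact coeff_eq_zero_of_natDegree_lt (lt_of_le_of_lt h.deg0 hN)
  have hCX : ∀ n, ((C X : ℤ[X][X]) ^ n).natDegree = 0 := by
    intro n
    rw [← C_pow, natDegree_C]
  have hXC : ∀ n, ((X - C X : ℤ[X][X]) ^ n).natDegree ≤ n := by
    intro n
    rw [(monic_X_sub_C _).natDegree_pow, natDegree_X_sub_C, mul_one]
  have hXn : ∀ n, ((X : ℤ[X][X]) ^ n).natDegree ≤ n := fun n => natDegree_X_pow_le n
  refine ⟨Q, ?_, ?_, ?_⟩
  · rw [hQ]
    refine natDegree_add_le_of_degree_le (natDegree_add_le_of_degree_le ?_ ?_) ?_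
    · refine natDegree_mul_le.trans ?_
      have h1 := natDegree_mul_le (p := (C X : ℤ[X][X]) ^ (l + 1)) (q := X ^ (l - 1))
      have h2 := hCX (l + 1)
      have h3 := hXn (l - 1)
      omega
    · refine natDegree_sum_le_of_forall_le _ _ fun i hi => ?_
      have hi' := Finset.mem_Icc.mp hi
      refine natDegree_mul_le.trans ?_
      have h1 := natDegree_mul_le (p := (C X : ℤ[X][X]) ^ (l + 1 - i) * (X - C X) ^ i)
        (q := X ^ (l - i))
      have h2 := natDegree_mul_le (p := (C X : ℤ[X][X]) ^ (l + 1 - i)) (q := (X - C X) ^ i)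
      have h3 := hCX (l + 1 - i)
      have h4 := hXC i
      have h5 := hXn (l - i)
      have h6 := hdd i hi'.1
      omega
    · refine natDegree_mul_le.trans ?_
      have h1 := hXC (l + 1)
      have h2 := hXn (l - 1)
      omega
  · rw [hQ]
    have e1 : ∀ n, n ≠ 0 → (C X : ℤ[X][X]).map (evalRingHom 0) ^ n = 0 := by
      intro n hn
      rw [map_C, coe_evalRingHom, eval_X, map_zero, zero_pow hn]
    rw [Polynomial.map_add, Polynomial.map_add, Polynomial.map_mul, Polynomial.map_mul,
      Polynomial.map_pow, e1 (l + 1) (by omega), zero_mul, zero_mul, zero_add,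
      Polynomial.map_sum, Finset.sum_eq_zero, zero_add]
    · rw [Polynomial.map_mul, Polynomial.map_pow, Polynomial.map_pow, Polynomial.map_sub,
        Polynomial.map_X, map_C, coe_evalRingHom, eval_X, map_zero, sub_zero, ← pow_add]
      congr 1
      omega
    · intro i hi
      have hi' := Finset.mem_Icc.mp hi
      rw [Polynomial.map_mul, Polynomial.map_mul, Polynomial.map_mul, Polynomial.map_pow,
        e1 (l + 1 - i) (by omega), zero_mul, zero_mul, zero_mul]
  · intro E _ x y hy hz hrel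
    set z := x + y with hzdef
    have hrefl : ∀ i, 1 ≤ i → aeval y⁻¹ (d i) = aeval y (c i) * y⁻¹ ^ l := by
      intro i hi
      rw [hd]
      simp only [if_neg (show i ≠ 0 by omega)]
      let := invertibleOfNonzero hy
      have h1 := eval₂_reflect_mul_pow (algebraMap ℤ E) y l (c i) (h.deg i hi)
      rw [invOf_eq_inv] at h1
      rw [aeval_def, aeval_def, ← h1, mul_assoc, ← mul_pow, mul_inv_cancel₀ hy, one_pow, mul_one]
    have hrefl0 : aeval y⁻¹ (d 0) = aeval y (c 0) * y⁻¹ ^ (l + 1) := by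
      rw [hd]
      simp only [if_true]
      let := invertibleOfNonzero hy
      have h1 := eval₂_reflect_mul_pow (algebraMap ℤ E) y (l + 1) (c 0) h.deg0
      rw [invOf_eq_inv] at h1
      rw [aeval_def, aeval_def, ← h1, mul_assoc, ← mul_pow, mul_inv_cancel₀ hy, one_pow, mul_one]
    have hev : ∀ i, (m (d i)).eval₂ (eval₂RingHom (Int.castRingHom E) z⁻¹) y⁻¹ =
        aeval y⁻¹ (d i) := by
      intro i
      rw [hm, coe_mapRingHom, eval₂_map, aeval_def]
      congr 1
      exact RingHom.ext_int _ _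
    rw [hQ, eval₂_add, eval₂_add, eval₂_finsetSum]
    simp only [eval₂_mul, eval₂_pow, eval₂_sub, eval₂_X, eval₂_C, coe_eval₂RingHom]
    -- express through the relation
    have hx : x = z - y := by rw [hzdef]; ring
    have hdiff : y⁻¹ - z⁻¹ = x * z⁻¹ * y⁻¹ := by
      rw [hx]
      field_simp
    rw [hdiff]
    have key : (∑ i ∈ Finset.range (l + 2), aeval y (c i) * x ^ i) * z⁻¹ ^ (l + 1) *
        y⁻¹ ^ (2 * l) = 0 := by
      rw [show ∑ i ∈ Finset.range (l + 2), aeval y (c i) * x ^ i = 0 from hrel]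
      ring
    have hsplit : ∑ i ∈ Finset.range (l + 2), aeval y (c i) * x ^ i =
        aeval y (c 0) + ∑ i ∈ Finset.Icc 1 l, aeval y (c i) * x ^ i + x ^ (l + 1) := by
      rw [Finset.sum_range_succ, h.top, map_one, one_mul]
      congr 1
      rw [Finset.range_eq_Ico, Finset.sum_eq_sum_Ico_succ_bot (by omega), pow_zero, mul_one]
      congr 1
    rw [hsplit] at key
    rw [← key, add_mul, add_mul, add_mul, add_mul, Finset.sum_mul, Finset.sum_mul]
    congr 1
    · congr 1
      · have := hev 0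
        rw [this, hrefl0, show 2 * l = (l - 1) + (l + 1) by omega, pow_add]
        ring
      · refine Finset.sum_congr rfl fun i hi => ?_
        have hi' := Finset.mem_Icc.mp hi
        have := hev i
        rw [this, hrefl i hi'.1]
        have h1 : z⁻¹ ^ (l + 1) = z⁻¹ ^ (l + 1 - i) * z⁻¹ ^ i := by
          rw [← pow_add]; congr 1; omega
        have h2 : y⁻¹ ^ (2 * l) = y⁻¹ ^ i * y⁻¹ ^ (l - i) * y⁻¹ ^ l := by
          rw [← pow_add, ← pow_add]; congr 1; omega
        rw [h1, h2, mul_pow, mul_pow]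
        ring
    · have h2 : y⁻¹ ^ (2 * l) = y⁻¹ ^ (l + 1) * y⁻¹ ^ (l - 1) := by
        rw [← pow_add]; congr 1; omega
      rw [h2, mul_pow, mul_pow]
      ring

/-- `t_l / t ^ l` is integral over `ℤ[1/t]` -/
theorem ModShape.exists_monic_quot (h : ModShape l c) : ∃ R : ℤ[X][X], R.Monic ∧
    ∀ {E : Type*} [Field E] (x y : E), y ≠ 0 → MRel l c x y →
      R.eval₂ (eval₂RingHom (Int.castRingHom E) y⁻¹) (x / y ^ l) = 0 := by
  have hl := h.two_le
  set d : ℕ → ℤ[X] := fun i => if i = 0 then reflect (l + 1) (c 0) * X ^ (l ^ 2 - 1)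
    else reflect l (c i) * X ^ (l ^ 2 - l * i) with hd
  set R : ℤ[X][X] := X ^ (l + 1) + ∑ i ∈ Finset.range (l + 1), C (d i) * X ^ i with hR
  refine ⟨R, ?_, ?_⟩
  · refine monic_X_pow_add ?_
    rw [degree_lt_iff_coeff_zero]
    intro n hn
    rw [finsetSum_coeff]
    refine Finset.sum_eq_zero fun i hi => ?_
    rw [coeff_C_mul_X_pow, if_neg]
    have := Finset.mem_range.mp hi
    omega
  · intro E _ x y hy hrel
    have hl2 : l ≤ l ^ 2 := by nlinarith
    have hl1 : 1 ≤ l ^ 2 := by nlinarith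
    have hdi : ∀ i, 1 ≤ i → i ≤ l → eval₂ (Int.castRingHom E) y⁻¹ (d i) =
        aeval y (c i) * y⁻¹ ^ l * y⁻¹ ^ (l ^ 2 - l * i) := by
      intro i hi hil
      rw [hd]
      simp only [if_neg (show i ≠ 0 by omega)]
      let := invertibleOfNonzero hy
      have h1 := eval₂_reflect_mul_pow (algebraMap ℤ E) y l (c i) (h.deg i hi)
      rw [invOf_eq_inv] at h1
      rw [eval₂_mul, eval₂_X_pow, aeval_def, ← h1, mul_assoc (eval₂ _ _ _) (y ^ _) (y⁻¹ ^ _),
        ← mul_pow, mul_inv_cancel₀ hy, one_pow, mul_one]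
      congr 2
    have hd0 : eval₂ (Int.castRingHom E) y⁻¹ (d 0) =
        aeval y (c 0) * y⁻¹ ^ (l + 1) * y⁻¹ ^ (l ^ 2 - 1) := by
      rw [hd]
      simp only [if_true]
      let := invertibleOfNonzero hy
      have h1 := eval₂_reflect_mul_pow (algebraMap ℤ E) y (l + 1) (c 0) h.deg0
      rw [invOf_eq_inv] at h1
      rw [eval₂_mul, eval₂_X_pow, aeval_def, ← h1, mul_assoc (eval₂ _ _ _) (y ^ _) (y⁻¹ ^ _),
        ← mul_pow, mul_inv_cancel₀ hy, one_pow, mul_one]
      congr 2
    rw [hR, eval₂_add, eval₂_X_pow, eval₂_finsetSum]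
    simp only [eval₂_mul, eval₂_C, eval₂_X_pow, coe_eval₂RingHom]
    have key : (∑ i ∈ Finset.range (l + 2), aeval y (c i) * x ^ i) * y⁻¹ ^ (l ^ 2 + l) = 0 := by
      rw [show ∑ i ∈ Finset.range (l + 2), aeval y (c i) * x ^ i = 0 from hrel]
      ring
    rw [Finset.sum_range_succ, h.top, map_one, one_mul, add_mul, Finset.sum_mul] at key
    rw [← key, add_comm]
    congr 1
    · refine Finset.sum_congr rfl fun i hi => ?_
      have hi' := Finset.mem_range.mp hi
      rcases Nat.eq_zero_or_pos i with rfl | hpos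
      · rw [hd0, pow_zero, mul_one, pow_zero, mul_one, mul_assoc, ← pow_add]
        congr 2
        omega
      · rw [hdi i hpos (by omega)]
        have h3 : l * i ≤ l ^ 2 := by nlinarith
        have h2 : l ^ 2 + l = l + (l ^ 2 - l * i) + l * i := by omega
        rw [h2, pow_add, pow_add, div_pow, ← pow_mul, div_eq_mul_inv, ← inv_pow]
        ring
    · rw [div_pow, ← pow_mul, show l * (l + 1) = l ^ 2 + l by ring, div_eq_mul_inv, ← inv_pow]

end Fermat.Agent.LG
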