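import Mathlib
import Fermat.Agent.LG.WQ2
import Fermat.Agent.LG.GRConcrete
import Fermat.Agent.LG.ModPoly

/-!
The degree of `X₀(qM)`.
-/

set_option autoImplicit false
set_option linter.unusedSectionVars false

open Matrix.SpecialLinearGroup CongruenceSubgroup ModularGroup
open scoped MatrixGroups ModularForm Manifold IntermediateField.algebraAdjoinAdjoin
open UpperHalfPlane hiding I J
open Complex (I)
open Fermat.Agent.ModFun IntermediateField

noncomputable section

namespace Fermat.Agent.LG

theorem exists_primitive {k F : Type*} [Field k] [Field F] [Algebra k F] [FiniteDimensional k F]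
    [Algebra.IsSeparable k F] (T : IntermediateField k F) : ∃ θ : F, T = k⟮θ⟯ := by
  obtain ⟨θ, hθ⟩ := Field.exists_primitive_element k T
  refine ⟨θ, ?_⟩
  have h1 := congrArg (fun S : IntermediateField k T => S.map T.val) hθ
  simp only [IntermediateField.adjoin_map, Set.image_singleton] at h1
  have h2 : IntermediateField.map T.val (⊤ : IntermediateField k T) = T := by
    ext x
    constructor
    · rintro ⟨y, -, rfl⟩
      exact y.2
    · intro hx
      exact ⟨⟨x, hx⟩, trivial, rfl⟩
  rw [h2] at h1
  exact h1.symm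

section Sep

variable {q M N : ℕ} [NeZero q] [NeZero M] [NeZero N] {K : Type*} [Field K] {ι : K →+* ℂ}
  {s : ℍ → ℂ} {S : Set (LaurentSeries K)}

theorem embF_Jd_eq (G : GenSet ι N S) (D : ExpData (RingHom.id ℂ) N s) {d : ℕ} [NeZero d]
    (hd : d ∣ N) (hdS : ModularCurve.qExpand K d (ModularCurve.jqModC K) ∈ S) {x y : XN N}
    (h : G.embF D x ⟨_, subset_adjoin K _ hdS⟩ =
      G.embF D y ⟨_, subset_adjoin K _ hdS⟩) :
    (Quotient.out x)⁻¹ * Quotient.out y ∈ Gamma0 d := by
  let a : Algebra.adjoin K S := ⟨_, Algebra.subset_adjoin hdS⟩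
  have ha : (⟨_, subset_adjoin K _ hdS⟩ : IntermediateField.adjoin K S) =
    algebraMap _ (IntermediateField.adjoin K S) a := rfl
  rw [ha, G.embF_algebraMap, G.embF_algebraMap] at h
  have h2 := G.embA_spec D x a
  have h3 := G.embA_spec D y a
  have h4 : evC ι N (Subalgebra.inclusion G.adjoin_le a) = Jd d := evC_eq (hasExp_Jd ι)
  rw [h4] at h2 h3
  rw [h] at h2
  have h5 := h2.sub h3
  rw [sub_self] at h5
  have h6 := D.eq_zero _
    ((conjHom_mem_modFun (Jd_mem_modFun hd (zetaC_spec N)) x).1.sub
    (conjHom_mem_modFun (Jd_mem_modFun hd (zetaC_spec N)) y).1) h5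
  have h7 := mul_inv_mem_of_Jd_eq (N := d) (g := (Quotient.out x)⁻¹) (h := (Quotient.out y)⁻¹)
    (fun τ => by
      have := congrFun h6 τ
      simp only [Pi.sub_apply, Pi.zero_apply, conjHom_apply] at this
      exact sub_eq_zero.mp this)
  rw [inv_inv] at h7
  exact h7

set_option synthInstance.maxHeartbeats 400000 in
set_option maxHeartbeats 1000000 in
/-- A field containing `j_M` and `j_q` is everything. -/
theorem eq_top_of_sep (G : GenSet ι N S) (hN : N = q * M) (hqM : q.Coprime M)
    (T : IntermediateField K⟮G.jF⟯ (IntermediateField.adjoin K S))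
    (hMS : ModularCurve.qExpand K M (ModularCurve.jqModC K) ∈ S)
    (hqS : ModularCurve.qExpand K q (ModularCurve.jqModC K) ∈ S)
    (hM : (⟨_, subset_adjoin K _ hMS⟩ : IntermediateField.adjoin K S) ∈ T)
    (hq : (⟨_, subset_adjoin K _ hqS⟩ : IntermediateField.adjoin K S) ∈ T) : T = ⊤ := by
  classical
  have _ : CharZero K := (ι.charZero_iff ι.injective).mpr inferInstance
  have _ := G.finiteDimensional
  have D : ExpData (RingHom.id ℂ) N (qN N) := expData_qN
  obtain ⟨θ', hT⟩ := exists_primitive T
  let x₀ : XN N := ((1 : SL(2, ℤ)) : XN N)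
  have hinj : Function.Injective (fun x : XN N => G.embF D x θ') := by
    intro x y hxy
    -- the two embeddings agree on `T`
    have h1 : ∀ z ∈ T, G.embF D x z = G.embF D y z := by
      intro z hz
      rw [hT] at hz
      induction hz using IntermediateField.adjoin_induction with
      | mem z hz =>
        rw [Set.mem_singleton_iff] at hz
        rw [hz]
        exact hxy
      | algebraMap r => exact G.embF_adjoin D x y r
      | add a b _ _ h1 h2 => rw [map_add, map_add, h1, h2]
      | inv a _ h1 => rw [map_inv₀, map_inv₀, h1]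
      | mul a b _ _ h1 h2 => rw [map_mul, map_mul, h1, h2]
    have h2 := embF_Jd_eq G D (dvd₂ hN dvd_rfl) hMS (h1 _ hM)
    have h3 := embF_Jd_eq G D (hN ▸ dvd_mul_right q M) hqS (h1 _ hq)
    have h4 : (Quotient.out x)⁻¹ * Quotient.out y ∈ Gamma0 N := by
      rw [Gamma0_mem, ZMod.intCast_zmod_eq_zero_iff_dvd] at h2 h3 ⊢
      have h5 : ((q : ℤ) * M) ∣ ((Quotient.out x)⁻¹ * Quotient.out y) 1 0 :=
        IsCoprime.mul_dvd (Nat.isCoprime_iff_coprime.mpr hqM) h3 h2
      have h6 : (N : ℤ) = (q : ℤ) * M := by rw [← Nat.cast_mul, ← hN]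
      exact h6 ▸ h5
    have h8 := QuotientGroup.eq.mpr h4
    rw [QuotientGroup.out_eq', QuotientGroup.out_eq'] at h8
    exact h8
  set P := minpoly K⟮G.jF⟯ θ' with hP
  have hint : IsIntegral K⟮G.jF⟯ θ' := Algebra.IsIntegral.isIntegral _
  have hP0 : P ≠ 0 := minpoly.ne_zero hint
  let u : K⟮G.jF⟯ →+* LaurentSeries ℂ :=
    (G.embF D x₀).comp (algebraMap K⟮G.jF⟯ (IntermediateField.adjoin K S))
  have hroot : ∀ x : XN N, (P.map u).IsRoot (G.embF D x θ') := by
    intro x
    have h1 : u = (G.embF D x).comp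
        (algebraMap K⟮G.jF⟯ (IntermediateField.adjoin K S)) := by
      ext1 r
      exact G.embF_adjoin D x₀ x r
    rw [Polynomial.IsRoot.def, Polynomial.eval_map, h1, ← Polynomial.hom_eval₂]
    have h2 := minpoly.aeval K⟮G.jF⟯ θ'
    rw [Polynomial.aeval_def] at h2
    rw [h2, map_zero]
  have hmap0 : P.map u ≠ 0 := (Polynomial.map_ne_zero_iff u.injective).mpr hP0
  have h3 : Finset.univ.image (fun x : XN N => G.embF D x θ') ⊆ (P.map u).roots.toFinset := by
    intro y hy
    obtain ⟨x, -, rfl⟩ := Finset.mem_image.mp hy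
    rw [Multiset.mem_toFinset, Polynomial.mem_roots hmap0]
    exact hroot x
  have h4 := Finset.card_le_card h3
  rw [Finset.card_image_of_injective _ hinj, Finset.card_univ] at h4
  have h5 : Fintype.card (XN N) ≤ P.natDegree := by
    calc Fintype.card (XN N) ≤ (P.map u).roots.toFinset.card := h4
      _ ≤ (P.map u).roots.card := Multiset.toFinset_card_le _
      _ ≤ (P.map u).natDegree := Polynomial.card_roots' _
      _ = P.natDegree := Polynomial.natDegree_map _
  rw [hT, Field.primitive_element_iff_minpoly_natDegree_eq]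
  refine le_antisymm (minpoly.natDegree_le _) ?_
  rw [G.finrank_eq]
  exact h5

/-- The field of level `qM` is generated by the field of level `M` and `j_q`. -/
theorem F0_le_of_mem (ι : K →+* ℂ) (hN : N = q * M) (hqM : q.Coprime M)
    (T : IntermediateField K (LaurentSeries K)) (hM : F0 K M ≤ T)
    (hq : ModularCurve.qExpand K q (ModularCurve.jqModC K) ∈ T) : F0 K N ≤ T := by
  have G := genSet_gens ι N
  -- the intermediate field
  have hj : ∀ r : K⟮G.jF⟯, (((r : IntermediateField.adjoin K (gens K N)) : LaurentSeries K)) ∈ T := by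
    intro r
    have h1 : (r : IntermediateField.adjoin K (gens K N)) ∈
        T.comap (IntermediateField.adjoin K (gens K N)).val := by
      have h2 : K⟮G.jF⟯ ≤ T.comap (IntermediateField.adjoin K (gens K N)).val := by
        rw [IntermediateField.adjoin_simple_le_iff]
        exact hM (subset_adjoin K _ jqModC_mem_gens)
      exact h2 r.2
    exact h1
  let T' : IntermediateField K⟮G.jF⟯ (IntermediateField.adjoin K (gens K N)) :=
    { (T.comap (IntermediateField.adjoin K (gens K N)).val).toSubfield with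
      algebraMap_mem' := fun r => hj r }
  have h1 : T' = ⊤ := eq_top_of_sep G hN hqM T' (gens_dvd (dvd₂ hN dvd_rfl))
    (gens_dvd (hN ▸ dvd_mul_right q M)) (hM (subset_adjoin K _ (gens_dvd dvd_rfl))) hq
  intro x hx
  have h2 : (⟨x, hx⟩ : IntermediateField.adjoin K (gens K N)) ∈ T' := by
    rw [h1]
    trivial
  exact h2

end Sep

end Fermat.Agent.LG
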