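import Mathlib
import Fermat.Agent.LG.WDeg
import Fermat.Agent.LG.Rel

/-!
Degrees of composita of fields of Laurent series; transcendental series; the modular relation.
-/

set_option autoImplicit false
set_option linter.unusedSectionVars false

open IntermediateField Fermat.Agent.Geo

noncomputable section

universe u

namespace Fermat.Agent.LG

section Comp

variable {L Λ : Type u} [Field L] [Field Λ] [Algebra L Λ] {K₁ M K' F : IntermediateField L Λ}

/-- Inclusions. -/
@[reducible] def algG {S S' : IntermediateField L Λ} (h : S ≤ S') :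
    Algebra S S' :=
  (IntermediateField.inclusion h : S →+* S').toAlgebra


theorem finrank_compositum (h1 : K₁ ≤ M) (h2 : K₁ ≤ K') (h4 : K' ≤ F)
    (hF : ∀ T : IntermediateField L Λ, M ≤ T → K' ≤ T → F ≤ T)
    (hfin : @FiniteDimensional K₁ M _ _ (algG h1).toModule) :
    letI := algG h1
    letI := algG h4
    FiniteDimensional K' F ∧ Module.finrank K' F ≤ Module.finrank K₁ M := by
  let _ := algG h1
  let _ := algG h4
  let _ := algG h2
  have t1 : IsScalarTower K₁ K' Λ := IsScalarTower.of_algebraMap_eq fun _ => rfl
  let M₁ : IntermediateField K₁ Λ := extendScalars h1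
  let eM : M ≃ₗ[K₁] M₁ :=
    { toFun := fun x => ⟨x, x.2⟩
      invFun := fun x => ⟨x, x.2⟩
      left_inv := fun _ => rfl
      right_inv := fun _ => rfl
      map_add' := fun _ _ => rfl
      map_smul' := fun _ _ => rfl }
  have hM₁ : FiniteDimensional K₁ M₁ := eM.finiteDimensional
  have halg : Algebra.IsAlgebraic K₁ M₁ := Algebra.IsAlgebraic.of_finite K₁ M₁
  have hrk := adjoin_rank_le_of_isAlgebraic_right K' M₁
  set E' : IntermediateField K' Λ := adjoin K' (M₁ : Set Λ) with hE'
  have hFE : ∀ x ∈ F, x ∈ E' := by
    have h5 : F ≤ E'.restrictScalars L := by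
      refine hF _ ?_ ?_
      · intro x hx
        exact subset_adjoin K' _ hx
      · intro x hx
        exact E'.algebraMap_mem ⟨x, hx⟩
    exact fun x hx => h5 hx
  let f : F →ₗ[K'] E' :=
    { toFun := fun x => ⟨x, hFE x x.2⟩
      map_add' := fun _ _ => rfl
      map_smul' := fun _ _ => rfl }
  have hf : Function.Injective f := by
    intro x y hxy
    apply Subtype.ext
    exact congrArg (fun z : E' => (z : Λ)) hxy
  have hr1 : Module.rank K' F ≤ Module.rank K' E' := LinearMap.rank_le_of_injective f hf
  have hr2 : Module.rank K₁ M₁ = Module.finrank K₁ M := by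
    rw [← eM.rank_eq, Module.finrank_eq_rank]
  have hr : Module.rank K' F ≤ Module.finrank K₁ M := (hr1.trans hrk).trans_eq hr2
  have hfd : FiniteDimensional K' F := by
    rw [FiniteDimensional, ← Module.rank_lt_aleph0_iff]
    exact hr.trans_lt (Cardinal.natCast_lt_aleph0)
  refine ⟨hfd, ?_⟩
  have := Module.finrank_eq_rank K' F
  rw [← this] at hr
  exact_mod_cast hr

/-- The degree of a simple extension is at most the degree of a monic relation. -/
theorem finrank_simple {K : IntermediateField L Λ} (h : K ≤ K')
    {t : Λ}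
    (hgen : ∀ T : IntermediateField L Λ, K ≤ T → t ∈ T → K' ≤ T)
    (Q : Polynomial K) (hQ : Q.Monic) (hQt : Polynomial.aeval t Q = 0) :
    letI := algG h
    FiniteDimensional K K' ∧ Module.finrank K K' ≤ Q.natDegree := by
  let _ := algG h
  have hint : IsIntegral K t := ⟨Q, hQ, hQt⟩
  have hfd0 := adjoin.finiteDimensional hint
  have hfr : Module.finrank K K⟮t⟯ = (minpoly K t).natDegree := adjoin.finrank hint
  have hle : ∀ x ∈ K', x ∈ K⟮t⟯ := by
    have h5 : K' ≤ K⟮t⟯.restrictScalars L := by
      refine hgen _ ?_ ?_
      · intro x hx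
        exact K⟮t⟯.algebraMap_mem ⟨x, hx⟩
      · exact mem_adjoin_simple_self K t
    exact fun x hx => h5 hx
  let f : K' →ₗ[K] K⟮t⟯ :=
    { toFun := fun x => ⟨x, hle x x.2⟩
      map_add' := fun _ _ => rfl
      map_smul' := fun _ _ => rfl }
  have hf : Function.Injective f := by
    intro x y hxy
    apply Subtype.ext
    exact congrArg (fun z : K⟮t⟯ => (z : Λ)) hxy
  have hfd : FiniteDimensional K K' := FiniteDimensional.of_injective f hf
  refine ⟨hfd, ?_⟩
  calc Module.finrank K K' ≤ Module.finrank K K⟮t⟯ := LinearMap.finrank_le_finrank_of_injective hf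
    _ = (minpoly K t).natDegree := hfr
    _ ≤ Q.natDegree := Polynomial.natDegree_le_of_dvd (minpoly.dvd K t hQt) hQ.ne_zero

end Comp

section Trans

variable {L : Type*} [Field L]

/-- A series with a pole is transcendental. -/
theorem transcendental_of_order_neg {x : LaurentSeries L} (hx : x.order < 0) :
    Transcendental L x := by
  have hx0 : x ≠ 0 := by
    rintro rfl
    rw [HahnSeries.order_zero] at hx
    exact lt_irrefl _ hx
  rw [transcendental_iff]
  intro P hP
  by_contra hP0
  have hC : algebraMap L (LaurentSeries L) = HahnSeries.C := by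
    ext1 a
    rw [ModularCurve.algebraMap_laurentSeries_eq_single]
    rfl
  rw [Polynomial.aeval_def, hC, Polynomial.eval₂_eq_sum_range] at hP
  have hpow : ∀ i : ℕ, (x ^ i).order = i * x.order := by
    intro i
    rw [HahnSeries.order_pow, nsmul_eq_mul]
  have h0 := congrArg (fun F : LaurentSeries L => F.coeff (P.natDegree * x.order)) hP
  simp only [HahnSeries.coeff_zero] at h0
  rw [HahnSeries.coeff_sum, Finset.sum_eq_single_of_mem P.natDegree (by simp)] at h0
  · rw [HahnSeries.C_mul_eq_smul, HahnSeries.coeff_smul, smul_eq_mul, ← hpow] at h0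
    rcases mul_eq_zero.mp h0 with h1 | h1
    · exact hP0 (Polynomial.leadingCoeff_eq_zero.mp h1)
    · have h2 := HahnSeries.leadingCoeff_ne_zero.mpr (pow_ne_zero P.natDegree hx0)
      rw [HahnSeries.leadingCoeff_eq] at h2
      exact h2 h1
  · intro i hi hne
    have hi' := Finset.mem_range.mp hi
    rw [HahnSeries.C_mul_eq_smul, HahnSeries.coeff_smul, smul_eq_mul,
      HahnSeries.coeff_eq_zero_of_lt_order, mul_zero]
    rw [hpow]
    have h1 : (i : ℤ) < P.natDegree := by
      have : i < P.natDegree := by omega
      exact_mod_cast this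
    nlinarith

/-- Series algebraic over the constants are constant. -/
theorem eq_C_of_isAlgebraic {x : LaurentSeries L} (hx : IsAlgebraic L x) :
    x = HahnSeries.C (x.coeff 0) := by
  have hC : algebraMap L (LaurentSeries L) (x.coeff 0) = HahnSeries.C (x.coeff 0) := by
    rw [ModularCurve.algebraMap_laurentSeries_eq_single]
    rfl
  set y := x - HahnSeries.C (x.coeff 0) with hy
  have hya : IsAlgebraic L y := by
    rw [hy, ← hC]
    exact hx.sub (isAlgebraic_algebraMap _)
  have hy0 : y.coeff 0 = 0 := by
    rw [hy, HahnSeries.coeff_sub, HahnSeries.C_apply, HahnSeries.coeff_single_same, sub_self]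
  by_contra hne
  have hyn : y ≠ 0 := fun h => hne (sub_eq_zero.mp h)
  have hl := HahnSeries.leadingCoeff_ne_zero.mpr hyn
  rw [HahnSeries.leadingCoeff_eq] at hl
  rcases lt_trichotomy y.order 0 with h | h | h
  · exact transcendental_of_order_neg h hya
  · rw [h] at hl
    exact hl hy0
  · have h1 : (y⁻¹).order < 0 := by
      have h2 : y.order + y⁻¹.order = 0 := by
        rw [← HahnSeries.order_mul hyn (inv_ne_zero hyn), mul_inv_cancel₀ hyn,
          HahnSeries.order_one]
      omega
    exact transcendental_of_order_neg h1 hya.inv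

end Trans

end Fermat.Agent.LG
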