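import Mathlib
import Fermat.Agent.Geo.Connected

/-!
The localised chart at infinity.
-/

set_option autoImplicit false
set_option linter.unusedSectionVars false

open Polynomial Fermat.Agent.Geo

universe u

namespace Fermat.Agent.LG

variable {O F : Type u} [CommRing O] [Field F] [Algebra O F] {u : F}

theorem mem_chart_of_eval₂ {A : Type*} [CommRing A] (φ : A →+* F) (hφ : ∀ a, φ a ∈ chart O u)
    {x : F} (p : A[X]) (hp : p.Monic) (hx : p.eval₂ φ x = 0) : x ∈ chart O u := by
  letI : Algebra O[X] F := ((aeval u : O[X] →ₐ[O] F) : O[X] →+* F).toAlgebra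
  have hint : ∀ x : F, x ∈ chart O u ↔ IsIntegral O[X] x := fun x => Iff.rfl
  let φ' : A →+* integralClosure O[X] F :=
    φ.codRestrict (integralClosure O[X] F).toSubring fun a => hφ a
  have h1 : IsIntegral (integralClosure O[X] F) x := by
    refine ⟨p.map φ', hp.map _, ?_⟩
    rw [eval₂_map]
    exact hx
  rw [hint]
  exact isIntegral_trans x h1

theorem chart_trans {u' x : F} (hu : u' ∈ chart O u) (hx : x ∈ chart O u') : x ∈ chart O u := by
  obtain ⟨p, hp, hpx⟩ := hx
  refine mem_chart_of_eval₂ ((aeval u' : O[X] →ₐ[O] F) : O[X] →+* F) (fun a => ?_) p hp hpx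
  change aeval u' a ∈ chart O u
  rw [aeval_eq_sum_range]
  exact sum_mem fun i _ => smul_mem_chart (pow_mem hu _) _

variable (O) in
/-- The localisation of the chart `u` at `u = 0`, `π = 0`. -/
def chartL (u : F) : Subring F where
  carrier := {x | ∃ s : O[X], IsUnit (s.coeff 0) ∧ aeval u s * x ∈ chart O u}
  mul_mem' := by
    rintro x y ⟨s, hs, hx⟩ ⟨s', hs', hy⟩
    refine ⟨s * s', by rw [mul_coeff_zero]; exact hs.mul hs', ?_⟩
    rw [map_mul, show aeval u s * aeval u s' * (x * y) = (aeval u s * x) * (aeval u s' * y) by ring]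
    exact mul_mem hx hy
  one_mem' := ⟨1, by rw [coeff_one_zero]; exact isUnit_one, by
    rw [map_one, one_mul]; exact one_mem _⟩
  add_mem' := by
    rintro x y ⟨s, hs, hx⟩ ⟨s', hs', hy⟩
    refine ⟨s * s', by rw [mul_coeff_zero]; exact hs.mul hs', ?_⟩
    rw [map_mul, show aeval u s * aeval u s' * (x + y) = aeval u s' * (aeval u s * x) +
      aeval u s * (aeval u s' * y) by ring]
    exact add_mem (mul_mem (aeval_mem_chart _ _) hx) (mul_mem (aeval_mem_chart _ _) hy)
  zero_mem' := ⟨1, by rw [coeff_one_zero]; exact isUnit_one, by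
    rw [mul_zero]; exact zero_mem _⟩
  neg_mem' := by
    rintro x ⟨s, hs, hx⟩
    refine ⟨s, hs, ?_⟩
    rw [mul_neg]
    exact neg_mem hx

theorem mem_chartL {x : F} : x ∈ chartL O u ↔
    ∃ s : O[X], IsUnit (s.coeff 0) ∧ aeval u s * x ∈ chart O u := Iff.rfl

theorem chart_le_chartL {x : F} (hx : x ∈ chart O u) : x ∈ chartL O u :=
  ⟨1, by rw [coeff_one_zero]; exact isUnit_one, by rw [map_one, one_mul]; exact hx⟩

theorem mem_chartL_of_mul {x : F} {s : O[X]} (hs : IsUnit (s.coeff 0))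
    (h : aeval u s * x ∈ chartL O u) : x ∈ chartL O u := by
  obtain ⟨s', hs', h'⟩ := h
  refine ⟨s' * s, by rw [mul_coeff_zero]; exact hs'.mul hs, ?_⟩
  rw [map_mul, mul_assoc]
  exact h'

theorem exists_common {ι : Type*} (S : Finset ι) (f : ι → F) (hf : ∀ i ∈ S, f i ∈ chartL O u) :
    ∃ s : O[X], IsUnit (s.coeff 0) ∧ ∀ i ∈ S, aeval u s * f i ∈ chart O u := by
  classical
  induction S using Finset.induction_on with
  | empty => exact ⟨1, by rw [coeff_one_zero]; exact isUnit_one, by simp⟩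
  | insert a S _ ih =>
    obtain ⟨s, hs, h⟩ := ih fun i hi => hf i (Finset.mem_insert_of_mem hi)
    obtain ⟨s', hs', h'⟩ := hf a (Finset.mem_insert_self a S)
    refine ⟨s * s', by rw [mul_coeff_zero]; exact hs.mul hs', fun i hi => ?_⟩
    rw [map_mul]
    rcases Finset.mem_insert.mp hi with rfl | hi
    · rw [mul_assoc]
      exact mul_mem (aeval_mem_chart _ _) h'
    · rw [mul_comm (aeval u s), mul_assoc]
      exact mul_mem (aeval_mem_chart _ _) (h i hi)

theorem mem_chartL_of_eval₂ {A : Type*} [CommRing A] (φ : A →+* F)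
    (hφ : ∀ a, φ a ∈ chartL O u) {x : F} (p : A[X]) (hp : p.Monic) (hx : p.eval₂ φ x = 0) :
    x ∈ chartL O u := by
  obtain ⟨s, hs, h⟩ := exists_common (Finset.range (p.natDegree + 1)) (fun i => φ (p.coeff i))
    fun i _ => hφ _
  refine ⟨s, hs, ?_⟩
  have hmon : (p.map φ).Monic := hp.map φ
  have hroot : ((p.map φ).scaleRoots (aeval u s)).eval₂ (RingHom.id F) (aeval u s * x) = 0 := by
    have h0 : (p.map φ).eval₂ (RingHom.id F) x = 0 := by
      rw [eval₂_map, RingHom.id_comp]; exact hx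
    exact scaleRoots_eval₂_eq_zero (RingHom.id F) h0
  have hcoeff : ∀ i, ((p.map φ).scaleRoots (aeval u s)).coeff i ∈ (chart O u).toSubring := by
    intro i
    rw [coeff_scaleRoots, hp.natDegree_map, coeff_map]
    rcases lt_trichotomy i p.natDegree with hi | hi | hi
    · obtain ⟨k, hk⟩ : ∃ k, p.natDegree - i = k + 1 := ⟨p.natDegree - i - 1, by omega⟩
      rw [hk, pow_succ', ← mul_assoc, mul_comm (φ _)]
      exact mul_mem (h i (Finset.mem_range.mpr (by omega)))
        (pow_mem (aeval_mem_chart _ _) k)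
    · rw [hi, hp.coeff_natDegree, map_one, one_mul]
      exact pow_mem (aeval_mem_chart _ _) _
    · rw [coeff_eq_zero_of_natDegree_lt hi, map_zero, zero_mul]
      exact zero_mem _
  have hmon' : ((p.map φ).scaleRoots (aeval u s)).Monic := (monic_scaleRoots_iff _).mpr hmon
  obtain ⟨r, hr⟩ : ∃ r : ((chart O u).toSubring)[X],
      r.map ((chart O u).toSubring.subtype) = (p.map φ).scaleRoots (aeval u s) := by
    have : (p.map φ).scaleRoots (aeval u s) ∈ Polynomial.lifts ((chart O u).toSubring.subtype) := by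
      rw [Polynomial.lifts_iff_coeff_lifts]
      intro i
      exact ⟨⟨_, hcoeff i⟩, rfl⟩
    exact (Polynomial.mem_lifts _).mp this
  have hrm : r.Monic := by
    rw [← hr] at hmon'
    exact Polynomial.monic_of_injective (Subtype.val_injective) hmon'
  refine mem_chart_of_eval₂ ((chart O u).toSubring.subtype) (fun a => a.2) r hrm ?_
  rw [← hr, eval₂_map, RingHom.id_comp] at hroot
  exact hroot

/-- units of the localised chart -/
theorem inv_one_sub_mem [Nontrivial O] {g : F} (hg : g ∈ chartL O u)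
    (htr : ∀ P : O[X], aeval u P = 0 → P = 0) :
    1 - u * g ≠ 0 ∧ (1 - u * g)⁻¹ ∈ chartL O u := by
  obtain ⟨s, hs, p, hp, hpg⟩ := hg
  set h : F := 1 - u * g with hh
  set m := p.natDegree with hm
  -- the polynomial satisfied by `h`
  set R : O[X][X] := ∑ i ∈ Finset.range (m + 1),
    C (p.coeff i) * (C s * (1 - X)) ^ i * C X ^ (m - i) with hR
  have hRh : R.eval₂ ((aeval u : O[X] →ₐ[O] F) : O[X] →+* F) h = 0 := by
    have h1 : R.eval₂ ((aeval u : O[X] →ₐ[O] F) : O[X] →+* F) h =
        u ^ m * p.eval₂ ((aeval u : O[X] →ₐ[O] F) : O[X] →+* F) (aeval u s * g) := by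
      rw [hR, eval₂_finsetSum, eval₂_eq_sum_range, Finset.mul_sum]
      refine Finset.sum_congr rfl fun i hi => ?_
      have hi' := Finset.mem_range.mp hi
      simp only [eval₂_mul, eval₂_pow, eval₂_sub, eval₂_one, eval₂_C, eval₂_X,
        AlgHom.coe_toRingHom, aeval_X]
      rw [hh, show (1 : F) - (1 - u * g) = u * g by ring]
      have h2 : u ^ m = u ^ i * u ^ (m - i) := by rw [← pow_add]; congr 1; omega
      rw [h2]
      ring
    rw [h1, hpg, mul_zero]
  set N := R.coeff 0 with hN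
  have hN0 : IsUnit (N.coeff 0) := by
    have h1 : N.coeff 0 = (s.coeff 0) ^ m := by
      have h2 : N = eval 0 R := (coeff_zero_eq_eval_zero R)
      rw [h2, hR, eval_finsetSum, coeff_zero_eq_eval_zero, eval_finsetSum,
        Finset.sum_eq_single_of_mem m (by simp)]
      · simp only [eval_mul, eval_pow, eval_sub, eval_one, eval_C, eval_X, sub_zero, mul_one,
          Nat.sub_self, pow_zero, hm, hp.coeff_natDegree, one_mul, coeff_zero_eq_eval_zero]
      · intro i hi hne
        have hi' := Finset.mem_range.mp hi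
        simp only [eval_mul, eval_pow, eval_C, eval_X]
        rw [zero_pow (by omega), mul_zero]
    rw [h1]
    exact hs.pow m
  have h4 : R.divX.eval₂ ((aeval u : O[X] →ₐ[O] F) : O[X] →+* F) h * h + aeval u N = 0 := by
    rw [← hRh]
    conv_rhs => rw [← divX_mul_X_add R]
    rw [eval₂_add, eval₂_mul, eval₂_X, eval₂_C]
    rfl
  have h0 : h ≠ 0 := by
    intro h0
    rw [h0, mul_zero, zero_add] at h4
    rw [htr N h4, coeff_zero] at hN0
    exact not_isUnit_zero hN0
  refine ⟨h0, mem_chartL_of_mul (s := N) hN0 ?_⟩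
  have h3 : aeval u N * h⁻¹ = - R.divX.eval₂ ((aeval u : O[X] →ₐ[O] F) : O[X] →+* F) h := by
    have h5 : aeval u N = - (R.divX.eval₂ ((aeval u : O[X] →ₐ[O] F) : O[X] →+* F) h * h) :=
      (neg_eq_of_add_eq_zero_right h4).symm
    rw [h5, neg_mul, mul_assoc, mul_inv_cancel₀ h0, mul_one]
  rw [h3]
  refine neg_mem ?_
  have hhm : h ∈ chartL O u := by
    rw [hh]
    refine sub_mem (one_mem _) (mul_mem (chart_le_chartL (self_mem_chart u)) ?_)
    exact ⟨s, hs, p, hp, hpg⟩
  rw [eval₂_eq_sum_range]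
  exact sum_mem fun i _ => mul_mem (chart_le_chartL (aeval_mem_chart _ _)) (pow_mem hhm _)

theorem inv_mem_chartL [Nontrivial O] {x g : F} (hx : x ∈ chartL O u) {n : ℕ}
    (hg : g ∈ chartL O u) (hn : x ^ n = u * g) (htr : ∀ P : O[X], aeval u P = 0 → P = 0)
    {s : O[X]} (hs : IsUnit (s.coeff 0)) :
    aeval x s ≠ 0 ∧ (aeval x s)⁻¹ ∈ chartL O u := by
  obtain ⟨c, hc⟩ := hs
  -- `s(x) = c (1 - v)` with `v = - c⁻¹ x r(x)`
  set v : F := - (algebraMap O F (↑c⁻¹ : O)) * (x * aeval x s.divX) with hv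
  have hcc : algebraMap O F (↑c⁻¹ : O) * algebraMap O F (c : O) = 1 := by
    rw [← map_mul, Units.inv_mul, map_one]
  have hsx : algebraMap O F (↑c⁻¹ : O) * aeval x s = 1 - v := by
    conv_lhs => rw [← divX_mul_X_add s]
    rw [map_add, map_mul, aeval_X, aeval_C, ← hc, hv, mul_add, hcc]
    ring
  have hrx : aeval x s.divX ∈ chartL O u := by
    rw [aeval_eq_sum_range]
    refine sum_mem fun i _ => ?_
    rw [Algebra.smul_def]
    exact mul_mem (chart_le_chartL (Subalgebra.algebraMap_mem _ _)) (pow_mem hx _)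
  have hvm : v ∈ chartL O u := by
    rw [hv]
    exact mul_mem (neg_mem (chart_le_chartL (Subalgebra.algebraMap_mem _ _))) (mul_mem hx hrx)
  have hvn : v ^ n = u * ((- algebraMap O F (↑c⁻¹ : O)) ^ n * aeval x s.divX ^ n * g) := by
    rw [hv, mul_pow, mul_pow, hn]
    ring
  have h1 := inv_one_sub_mem (O := O) (u := u)
    (g := (- algebraMap O F (↑c⁻¹ : O)) ^ n * aeval x s.divX ^ n * g)
    (mul_mem (mul_mem (pow_mem (neg_mem (chart_le_chartL (Subalgebra.algebraMap_mem _ _))) _)
      (pow_mem hrx _)) hg) htr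
  rw [← hvn] at h1
  obtain ⟨h2, h1⟩ := h1
  have h4 : (∑ i ∈ Finset.range n, v ^ i) * (1 - v) = 1 - v ^ n := by
    have := geom_sum_mul v n
    linear_combination -this
  have h5 : 1 - v ≠ 0 := by
    intro h5
    rw [h5, mul_zero] at h4
    exact h2 h4.symm
  have h6 : ∑ i ∈ Finset.range n, v ^ i ≠ 0 := by
    intro h6
    rw [h6, zero_mul] at h4
    exact h2 h4.symm
  have h3 : (1 - v)⁻¹ = (∑ i ∈ Finset.range n, v ^ i) * (1 - v ^ n)⁻¹ := by
    rw [← h4]
    field_simp
  have h7 : (aeval x s)⁻¹ = algebraMap O F (↑c⁻¹ : O) * (1 - v)⁻¹ := by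
    rw [← hsx, mul_inv, ← mul_assoc, mul_inv_cancel₀ (left_ne_zero_of_mul_eq_one hcc), one_mul]
  refine ⟨?_, ?_⟩
  · intro h0
    rw [h0, mul_zero] at hsx
    exact h5 hsx.symm
  rw [h7, h3]
  exact mul_mem (chart_le_chartL (Subalgebra.algebraMap_mem _ _))
    (mul_mem (sum_mem fun i _ => pow_mem hvm _) h1)

end Fermat.Agent.LG
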