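import Mathlib
import Fermat.Agent.Geo.ConnVal

/-!
The connectedness argument: a (semilinear) automorphism which fixes one component and the
crossing points fixes all the components.
-/

set_option autoImplicit false
set_option linter.unusedSectionVars false

open IsLocalRing Polynomial

universe u

namespace Fermat.Agent.LG

open Fermat.Agent.Geo

section Semilinear

variable {O K E : Type u} [CommRing O] [IsDomain O] [IsDiscreteValuationRing O]
  [Field K] [Field E] [Algebra O K] [Algebra O E] [Algebra K E] [IsScalarTower O K E]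
  {z : K} {π : O}

/-- A semilinear automorphism of `E` over an automorphism of `O`, fixing `z`. -/
structure SemiAut (O : Type u) {K E : Type u} [CommRing O] [Field K] [Field E]
    [Algebra O E] [Algebra K E] (z : K) where
  /-- the automorphism of the constants -/
  d : O ≃+* O
  /-- the automorphism -/
  δ : E ≃+* E
  map_C : ∀ a : O, δ (algebraMap O E a) = algebraMap O E (d a)
  map_z : δ (algebraMap K E z) = algebraMap K E z

variable (D : SemiAut O (K := K) (E := E) z)

/-- the inverse -/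
def SemiAut.symm : SemiAut O (K := K) (E := E) z where
  d := D.d.symm
  δ := D.δ.symm
  map_C a := by
    rw [RingEquiv.symm_apply_eq, D.map_C, RingEquiv.apply_symm_apply]
  map_z := by rw [RingEquiv.symm_apply_eq, D.map_z]

theorem SemiAut.comp_aeval {u : E} (hu : D.δ u = u) :
    (D.δ : E →+* E).comp ((aeval u : O[X] →ₐ[O] E) : O[X] →+* E) =
      ((aeval u : O[X] →ₐ[O] E) : O[X] →+* E).comp (mapRingHom (D.d : O →+* O)) := by
  ext a
  · simpa using D.map_C a
  · simpa using hu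

theorem SemiAut.map_aeval (P : O[X]) :
    D.δ (algebraMap K E (aeval z P)) = algebraMap K E (aeval z (P.map (D.d : O →+* O))) := by
  rw [← aeval_algebraMap_apply, ← aeval_algebraMap_apply]
  exact congrArg (fun f : O[X] →+* E => f P) (D.comp_aeval D.map_z)

theorem SemiAut.mem_chart_of {u x : E} (hu : D.δ u = u) (hx : x ∈ chart O u) :
    D.δ x ∈ chart O u := by
  obtain ⟨P, hP, hPx⟩ := hx
  refine ⟨P.map (mapRingHom (D.d : O →+* O)), hP.map _, ?_⟩
  rw [eval₂_map, ← D.comp_aeval hu]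
  have h2 : D.δ x = (D.δ : E →+* E) x := rfl
  rw [h2, ← hom_eval₂, hPx, map_zero]

theorem SemiAut.mem_chart_iff_of {u x : E} (hu : D.δ u = u) :
    D.δ x ∈ chart O u ↔ x ∈ chart O u := by
  refine ⟨fun h => ?_, D.mem_chart_of hu⟩
  have h1 := D.symm.mem_chart_of (u := u) (x := D.δ x)
    (by change D.δ.symm u = u; rw [RingEquiv.symm_apply_eq, hu]) h
  have h2 : D.symm.δ (D.δ x) = x := D.δ.symm_apply_apply x
  rwa [h2] at h1

theorem dvd_map_iff (hπ : Irreducible π) (e : O ≃+* O) (a : O) : π ∣ e a ↔ π ∣ a := by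
  have h1 : ∀ (e : O ≃+* O) (a : O), π ∣ a → π ∣ e a := by
    intro e a ha
    rw [← Ideal.mem_span_singleton, ← hπ.maximalIdeal_eq] at ha ⊢
    rw [mem_maximalIdeal, mem_nonunits_iff] at ha ⊢
    rwa [MulEquiv.isUnit_map]
  refine ⟨fun h => ?_, h1 e a⟩
  have h2 := h1 e.symm _ h
  rwa [RingEquiv.symm_apply_apply] at h2

theorem C_dvd_map_iff (hπ : Irreducible π) (e : O ≃+* O) (P : O[X]) :
    C π ∣ P.map (e : O →+* O) ↔ C π ∣ P := by
  rw [C_dvd_iff_dvd_coeff, C_dvd_iff_dvd_coeff]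
  refine forall_congr' fun i => ?_
  rw [coeff_map]
  exact dvd_map_iff hπ e _

theorem SemiAut.mem_gaussVal (ht : IsParam O z) (hπ : Prime π) {x : K}
    (hx : x ∈ gaussVal ht hπ) : ∃ x' ∈ gaussVal ht hπ, D.δ (algebraMap K E x) =
      algebraMap K E x' := by
  obtain ⟨s, a, hs, h⟩ := (mem_placeVal_iff ht _).mp hx
  have hs0 : aeval z (s.map (D.d : O →+* O)) ≠ 0 := by
    intro h0
    have h1 : s.map (D.d : O →+* O) = 0 := ht.inj (by rw [h0, map_zero])
    apply hs
    rw [← C_dvd_map_iff hπ.irreducible D.d, h1]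
    exact dvd_zero _
  refine ⟨(aeval z (s.map (D.d : O →+* O)))⁻¹ * aeval z (a.map (D.d : O →+* O)), ?_, ?_⟩
  · refine (mem_placeVal_iff ht _).mpr ⟨s.map (D.d : O →+* O), a.map (D.d : O →+* O), ?_, ?_⟩
    · rwa [C_dvd_map_iff hπ.irreducible]
    · rw [mul_inv_cancel_left₀ hs0]
  · rw [map_mul, map_inv₀, ← D.map_aeval, ← D.map_aeval, ← h, map_mul, map_mul,
      inv_mul_cancel_left₀]
    rw [D.map_aeval]
    exact (_root_.map_ne_zero _).mpr hs0

theorem comap_mem_nonunits {E E' : Type*} [Field E] [Field E'] (W : ValuationSubring E')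
    (f : E →+* E') (x : E) : x ∈ (W.comap f).nonunits ↔ f x ∈ W.nonunits := by
  rw [ValuationSubring.mem_nonunits_iff_or, ValuationSubring.mem_nonunits_iff_or,
    ValuationSubring.mem_comap, map_inv₀, map_eq_zero]

theorem SemiAut.over_comap [FiniteDimensional K E] (ht : IsParam O z) (hπ : Prime π)
    {W : ValuationSubring E}
    (hW : Over (gaussVal ht hπ) (algebraMap O K π) W) :
    Over (gaussVal ht hπ) (algebraMap O K π) (W.comap (D.δ : E →+* E)) := by
  refine ⟨fun x hx => ?_, ?_⟩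
  · obtain ⟨x', hx', h⟩ := D.mem_gaussVal ht hπ hx
    rw [ValuationSubring.mem_comap]
    change D.δ (algebraMap K E x) ∈ W
    rw [h]
    exact hW.1 _ hx'
  · rw [comap_mem_nonunits]
    change D.δ (algebraMap K E (algebraMap O K π)) ∈ _
    rw [← IsScalarTower.algebraMap_apply, D.map_C]
    have h1 : π ∣ D.d π := (dvd_map_iff hπ.irreducible D.d π).mpr dvd_rfl
    obtain ⟨c, hc⟩ := h1
    have h2 : algebraMap O E c ∈ W := by
      rw [IsScalarTower.algebraMap_apply O K E]
      apply hW.1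
      refine (mem_placeVal_iff ht _).mpr ⟨1, C c, (prime_C_iff.mpr hπ).not_dvd_one, ?_⟩
      rw [map_one, one_mul, aeval_C]
    rw [hc, map_mul, mul_comm]
    refine mul_mem_nonunits h2 ?_
    rw [IsScalarTower.algebraMap_apply O K E]
    exact hW.2

end Semilinear

section Main

variable {O K E : Type u} [CommRing O] [IsDomain O] [IsDiscreteValuationRing O]
  [Field K] [Field E] [Algebra O K] [Algebra O E] [Algebra K E] [IsScalarTower O K E]
  {z : K} {π : O} [FiniteDimensional K E] [Algebra.IsSeparable K E]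

/-- The centre of `W` is contained in `y`. -/
def Meets {u : E} (y : Ideal (chart O u)) (W : ValuationSubring E) : Prop :=
  ∀ x : chart O u, (x : E) ∈ W.nonunits → x ∈ y

/-- `y` is a closed point of the model: in the finite chart, or at infinity. -/
def IsPt (z : K) (u : E) (y : Ideal (chart O u)) : Prop :=
  y.IsMaximal ∧ (u = algebraMap K E z ∨ (u = (algebraMap K E z)⁻¹ ∧
    (⟨u, self_mem_chart u⟩ : chart O u) ∈ y))

theorem IsPt.map_eq {u : E} {y : Ideal (chart O u)} (h : IsPt z u y)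
    (D : SemiAut O (K := K) (E := E) z) : D.δ u = u := by
  rcases h.2 with rfl | ⟨rfl, -⟩
  · exact D.map_z
  · rw [map_inv₀, D.map_z]

theorem connected' (ht : IsParam O z) (hπ : Prime π)
    (hinj : Function.Injective (algebraMap O E))
    (hO : ∀ x : E, IsIntegral O x → ∃ o : O, algebraMap O E o = x)
    (S : Set (ValuationSubring E)) {W₁ W₂ : ValuationSubring E}
    (hW₁ : Over (gaussVal ht hπ) (algebraMap O K π) W₁)
    (hW₂ : Over (gaussVal ht hπ) (algebraMap O K π) W₂) (h₁ : W₁ ∈ S) (h₂ : W₂ ∉ S) :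
    ∃ W ∈ S, ∃ W' ∉ S, Over (gaussVal ht hπ) (algebraMap O K π) W ∧
      Over (gaussVal ht hπ) (algebraMap O K π) W' ∧
      ∃ (u : E) (y : Ideal (chart O u)), IsPt z u y ∧ Meets y W ∧ Meets y W' := by
  rcases zariski_connected ht hπ hinj hO S hW₁ hW₂ h₁ h₂ with
    ⟨W, hW, W', hW', hWo, hWo', y, hy, h, h'⟩ | ⟨W, hW, W', hW', hWo, hWo', y, hy, hyz, h, h'⟩
  · exact ⟨W, hW, W', hW', hWo, hWo', _, y, ⟨hy, Or.inl rfl⟩, h, h'⟩
  · exact ⟨W, hW, W', hW', hWo, hWo', _, y, ⟨hy, Or.inr ⟨rfl, hyz⟩⟩, h, h'⟩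

/-- All components are fixed by `δ`. -/
theorem comap_eq_of_connected (D : SemiAut O (K := K) (E := E) z) (ht : IsParam O z)
    (hπ : Prime π) (hinj : Function.Injective (algebraMap O E))
    (hO : ∀ x : E, IsIntegral O x → ∃ o : O, algebraMap O E o = x)
    {ι : Type*} (ty : ValuationSubring E → ι)
    (hty : ∀ W, Over (gaussVal ht hπ) (algebraMap O K π) W →
      ty (W.comap (D.δ : E →+* E)) = ty W)
    (hone : ∀ W W', Over (gaussVal ht hπ) (algebraMap O K π) W →
      Over (gaussVal ht hπ) (algebraMap O K π) W' → ty W = ty W' →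
      ∀ (u : E) (y : Ideal (chart O u)), IsPt z u y → Meets y W → Meets y W' → W = W')
    (hstab : ∀ W W', Over (gaussVal ht hπ) (algebraMap O K π) W →
      Over (gaussVal ht hπ) (algebraMap O K π) W' → W.comap (D.δ : E →+* E) = W → ty W ≠ ty W' →
      ∀ (u : E) (y : Ideal (chart O u)), IsPt z u y → Meets y W → Meets y W' →
      ∀ (x : E) (hx : x ∈ chart O u) (hδx : D.δ x ∈ chart O u),
      (⟨D.δ x, hδx⟩ : chart O u) ∈ y → (⟨x, hx⟩ : chart O u) ∈ y)
    {W₁ : ValuationSubring E} (hW₁ : Over (gaussVal ht hπ) (algebraMap O K π) W₁)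
    (h₁ : W₁.comap (D.δ : E →+* E) = W₁) (W₂ : ValuationSubring E)
    (hW₂ : Over (gaussVal ht hπ) (algebraMap O K π) W₂) :
    W₂.comap (D.δ : E →+* E) = W₂ := by
  by_contra h₂
  obtain ⟨W, hW, W', hW', hWo, hWo', u, y, hy, hm, hm'⟩ := connected' ht hπ hinj hO
    {W | W.comap (D.δ : E →+* E) = W} hW₁ hW₂ h₁ h₂
  by_cases hne : ty W = ty W'
  · apply hW'
    rw [← hone W W' hWo hWo' hne u y hy hm hm']
    exact hW
  · apply hW'
    have hov := D.over_comap ht hπ hWo'
    refine hone _ W' hov hWo' (hty W' hWo') u y hy ?_ hm'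
    rintro ⟨x, hx⟩ hxn
    rw [comap_mem_nonunits] at hxn
    have hδx := D.mem_chart_of (hy.map_eq D) hx
    exact hstab W W' hWo hWo' hW hne u y hy hm hm' x hx hδx (hm' ⟨D.δ x, hδx⟩ hxn)

end Main

section Comm

variable {F E : Type*} [Field F] [Field E] [Algebra F E]

/-- An automorphism fixing all components commutes with the Galois group. -/
theorem comm_of_comap_eq (δ : E ≃+* E) (hδF : ∀ a : F, ∃ b : F, δ (algebraMap F E a) =
      algebraMap F E b)
    (hδF' : ∀ a : F, ∃ b : F, δ.symm (algebraMap F E a) = algebraMap F E b)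
    {W₁ : ValuationSubring E} (h₁ : W₁.comap (δ : E →+* E) = W₁)
    (hstab : ∀ g : E ≃ₐ[F] E, W₁.comap (g : E →+* E) = W₁ → g = 1)
    (hall : ∀ g : E ≃ₐ[F] E, (W₁.comap (g : E →+* E)).comap (δ : E →+* E) =
      W₁.comap (g : E →+* E)) (g : E ≃ₐ[F] E) (x : E) : δ (g x) = g (δ x) := by
  -- `h = g δ g⁻¹ δ⁻¹`
  let h₀ : E ≃+* E := δ.symm.trans ((g.symm : E ≃+* E).trans (δ.trans (g : E ≃+* E)))
  have hh : ∀ x, h₀ x = g (δ (g.symm (δ.symm x))) := fun x => rfl
  have hF : ∀ a : F, h₀ (algebraMap F E a) = algebraMap F E a := by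
    intro a
    obtain ⟨b, hb⟩ := hδF' a
    rw [hh, hb, AlgEquiv.commutes, ← hb, RingEquiv.apply_symm_apply, AlgEquiv.commutes]
  let h : E ≃ₐ[F] E := AlgEquiv.ofRingEquiv (f := h₀) hF
  have h1 : h = 1 := by
    apply hstab
    ext x
    rw [ValuationSubring.mem_comap]
    change h₀ x ∈ W₁ ↔ _
    rw [hh]
    have e1 : ∀ y, g (δ y) ∈ W₁ ↔ g y ∈ W₁ := by
      intro y
      have := congrArg (fun V : ValuationSubring E => y ∈ V) (hall g)
      simpa [ValuationSubring.mem_comap] using this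
    have e2 : ∀ y, δ y ∈ W₁ ↔ y ∈ W₁ := by
      intro y
      have := congrArg (fun V : ValuationSubring E => y ∈ V) h₁
      simpa [ValuationSubring.mem_comap] using this
    rw [e1, AlgEquiv.apply_symm_apply, ← e2, RingEquiv.apply_symm_apply]
  have h2 : h₀ (δ (g x)) = δ (g x) := by
    have : h (δ (g x)) = δ (g x) := by rw [h1]; rfl
    exact this
  rw [hh, RingEquiv.symm_apply_apply, AlgEquiv.symm_apply_apply] at h2
  exact h2.symm

/-- Kummer theory. -/
theorem exists_eq_div_pow [FiniteDimensional F E] [IsGalois F E] (δ : E ≃+* E)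
    (hcomm : ∀ (g : E ≃ₐ[F] E) (x : E), δ (g x) = g (δ x)) {m k : ℕ} {y : E} (hy : y ≠ 0)
    (hym : ∃ a : F, y ^ m = algebraMap F E a)
    (hroot : ∀ c : E, c ^ m = 1 → δ c = c ^ k) : ∃ f : F, δ y = algebraMap F E f * y ^ k := by
  have h1 : ∀ g : E ≃ₐ[F] E, g (δ y / y ^ k) = δ y / y ^ k := by
    intro g
    obtain ⟨a, ha⟩ := hym
    set c : E := g y / y with hc
    have hcm : c ^ m = 1 := by
      rw [hc, div_pow, ← map_pow, ha, AlgEquiv.commutes, ← ha, div_self (pow_ne_zero _ hy)]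
    have hgy : g y = c * y := by rw [hc, div_mul_cancel₀ _ hy]
    have hc0 : c ≠ 0 := by
      intro h0
      rw [h0, zero_mul, map_eq_zero] at hgy
      exact hy hgy
    rw [map_div₀, map_pow, ← hcomm, hgy, map_mul, hroot c hcm, mul_pow]
    rw [mul_div_mul_left _ _ (pow_ne_zero _ hc0)]
  have h2 : δ y / y ^ k ∈ (⊥ : IntermediateField F E) := by
    rw [IsGalois.mem_bot_iff_fixed]
    exact h1
  obtain ⟨f, hf⟩ := IntermediateField.mem_bot.mp h2
  exact ⟨f, by rw [hf, div_mul_cancel₀ _ (pow_ne_zero _ hy)]⟩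

end Comm

end Fermat.Agent.LG
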