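import Mathlib
import Fermat.Agent.LG.Core
import Fermat.Agent.Geo.ResSep

/-!
The action of inertia and of the square of Frobenius on a totally split cover of a curve with two
components.
-/

set_option autoImplicit false
set_option linter.unusedSectionVars false

open IsLocalRing Polynomial

universe u

namespace Fermat.Agent.LG

open Fermat.Agent.Geo

section Two

variable {O K F E : Type u} [CommRing O] [IsDomain O] [IsDiscreteValuationRing O]
  [Field K] [Field F] [Field E] [Algebra O K] [Algebra O F] [Algebra O E] [Algebra K F]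
  [Algebra K E] [Algebra F E] [IsScalarTower O K E] [IsScalarTower O K F] [IsScalarTower K F E]
  [IsScalarTower O F E]
  {z : K} {π : O} [FiniteDimensional K E] [Algebra.IsSeparable K E]

theorem mem_chart_algebraMap {u b : F} (hb : b ∈ chart O u) :
    algebraMap F E b ∈ chart O (algebraMap F E u) := by
  obtain ⟨P, hP, hPb⟩ := hb
  refine ⟨P, hP, ?_⟩
  have h1 : ((aeval (algebraMap F E u) : O[X] →ₐ[O] E) : O[X] →+* E) =
      (algebraMap F E).comp ((aeval u : O[X] →ₐ[O] F) : O[X] →+* F) := by
    ext a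
    · simp [← IsScalarTower.algebraMap_apply]
    · simp
  rw [h1, ← hom_eval₂, hPb, map_zero]

theorem mem_nonunits_comap' {W : ValuationSubring E} {y : F} :
    y ∈ (W.comap (algebraMap F E)).nonunits ↔ algebraMap F E y ∈ W.nonunits :=
  comap_mem_nonunits W (algebraMap F E) y

/-- Normality of the reduction of `F` along `P`, in the chart `z`. -/
def NormalAt (O : Type u) {K F : Type u} [CommRing O] [Field K] [Field F] [Algebra O F]
    [Algebra K F] (z : K) (P : ValuationSubring F) : Prop :=
  ∀ w ∈ P, ∀ p : O[X][X], p.Monic →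
    p.eval₂ ((aeval (algebraMap K F z) : O[X] →ₐ[O] F) : O[X] →+* F) w ∈ P.nonunits →
    ∃ b ∈ chart O (algebraMap K F z), w - b ∈ P.nonunits

/-- All components are fixed. -/
theorem comap_eq_of_two (D : SemiAut O (K := K) (E := E) z) (ht : IsParam O z)
    (hπ : Prime π) (hinj : Function.Injective (algebraMap O E))
    (hO : ∀ x : E, IsIntegral O x → ∃ o : O, algebraMap O E o = x)
    (P₁ P₂ : ValuationSubring F)
    (hP : ∀ W : ValuationSubring E, Over (gaussVal ht hπ) (algebraMap O K π) W →
      W.comap (algebraMap F E) = P₁ ∨ W.comap (algebraMap F E) = P₂)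
    (hδP : ∀ W : ValuationSubring E, Over (gaussVal ht hπ) (algebraMap O K π) W →
      (W.comap (D.δ : E →+* E)).comap (algebraMap F E) = W.comap (algebraMap F E))
    (hone : ∀ W W' : ValuationSubring E, Over (gaussVal ht hπ) (algebraMap O K π) W →
      Over (gaussVal ht hπ) (algebraMap O K π) W' →
      W.comap (algebraMap F E) = W'.comap (algebraMap F E) →
      ∀ (u : E) (y : Ideal (chart O u)), IsPt z u y → Meets y W → Meets y W' → W = W')
    (hres : ∀ W : ValuationSubring E, Over (gaussVal ht hπ) (algebraMap O K π) W →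
      ∀ x ∈ W, ∃ f : F, x - algebraMap F E f ∈ W.nonunits)
    (hN₁ : NormalAt O z P₁) (hN₂ : NormalAt O z P₂)
    (hinf : ∃ s : O[X], IsUnit (s.coeff 0) ∧ ∃ b₁ b₂ : F,
      b₁ ∈ chart O (algebraMap K F z)⁻¹ ∧ b₂ ∈ chart O (algebraMap K F z)⁻¹ ∧
      b₁ ∈ P₁.nonunits ∧ b₂ ∈ P₂.nonunits ∧ b₁ + b₂ = aeval (algebraMap K F z)⁻¹ s)
    (hnode : ∀ b ∈ chart O (algebraMap K F z), ∃ b' ∈ chart O (algebraMap K F z),
      D.δ (algebraMap F E b) = algebraMap F E b' ∧ ∃ k : ℕ, ∃ b₁ b₂ : F,
      b₁ ∈ chart O (algebraMap K F z) ∧ b₂ ∈ chart O (algebraMap K F z) ∧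
      b₁ ∈ P₁.nonunits ∧ b₂ ∈ P₂.nonunits ∧ b' - b ^ k = b₁ + b₂)
    {W₁ : ValuationSubring E} (hW₁ : Over (gaussVal ht hπ) (algebraMap O K π) W₁)
    (h₁ : W₁.comap (D.δ : E →+* E) = W₁) (W₂ : ValuationSubring E)
    (hW₂ : Over (gaussVal ht hπ) (algebraMap O K π) W₂) :
    W₂.comap (D.δ : E →+* E) = W₂ := by
  have hzE : algebraMap F E (algebraMap K F z) = algebraMap K E z :=
    (IsScalarTower.algebraMap_apply K F E z).symm
  refine comap_eq_of_connected D ht hπ hinj hO (fun W => W.comap (algebraMap F E)) hδP hone ?_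
    hW₁ h₁ W₂ hW₂
  -- the stability of the crossing points
  intro W W' hW hW' hfix hne u y hy hm hm' x hx hδx hδxy
  -- `y` contains the centres of `P₁` and `P₂`
  have hcen : ∀ b₁ b₂ : F, ∀ (h1 : algebraMap F E b₁ ∈ chart O u)
      (h2 : algebraMap F E b₂ ∈ chart O u), b₁ ∈ P₁.nonunits → b₂ ∈ P₂.nonunits →
      (⟨_, h1⟩ : chart O u) ∈ y ∧ (⟨_, h2⟩ : chart O u) ∈ y := by
    intro b₁ b₂ h1 h2 hb₁ hb₂
    rcases hP W hW with e | e <;> rcases hP W' hW' with e' | e'
    · exact absurd (e.trans e'.symm) hne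
    · refine ⟨hm ⟨_, h1⟩ ?_, hm' ⟨_, h2⟩ ?_⟩
      · rw [← e] at hb₁; exact mem_nonunits_comap'.mp hb₁
      · rw [← e'] at hb₂; exact mem_nonunits_comap'.mp hb₂
    · refine ⟨hm' ⟨_, h1⟩ ?_, hm ⟨_, h2⟩ ?_⟩
      · rw [← e'] at hb₁; exact mem_nonunits_comap'.mp hb₁
      · rw [← e] at hb₂; exact mem_nonunits_comap'.mp hb₂
    · exact absurd (e.trans e'.symm) hne
  have hyp : y.IsPrime := hy.1.isPrime
  obtain ⟨hyM, rfl | ⟨rfl, hyz⟩⟩ := hy
  · -- the finite chart
    have hxW : x ∈ W := mem_of_intOver hW.1 (intOver_of_mem_chart ht hπ hx)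
    obtain ⟨f, hf⟩ := hres W hW x hxW
    -- normality gives an integral representative
    obtain ⟨b, hb, hxb⟩ : ∃ b ∈ chart O (algebraMap K F z), x - algebraMap F E b ∈ W.nonunits := by
      have hfW : algebraMap F E f ∈ W := by
        have := sub_mem hxW (ValuationSubring.nonunits_subset hf)
        rwa [sub_sub_cancel] at this
      obtain ⟨p, hp, hpx⟩ := hx
      have hpf : p.eval₂ ((aeval (algebraMap K F z) : O[X] →ₐ[O] F) : O[X] →+* F) f ∈
          (W.comap (algebraMap F E)).nonunits := by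
        rw [mem_nonunits_comap', hom_eval₂]
        have h1 : (algebraMap F E).comp ((aeval (algebraMap K F z) : O[X] →ₐ[O] F) : O[X] →+* F) =
            ((aeval (algebraMap K E z) : O[X] →ₐ[O] E) : O[X] →+* E) := by
          ext a
          · simp [← IsScalarTower.algebraMap_apply]
          · simp [← IsScalarTower.algebraMap_apply]
        rw [h1]
        -- compare with `x`
        have hcoe : ∀ r : O[X], ((aeval (algebraMap K E z) : O[X] →ₐ[O] E) : O[X] →+* E) r ∈ W := by
          intro r
          have h2 := hW.1 _ (aeval_mem_gaussVal ht hπ r)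
          rwa [← aeval_algebraMap_apply] at h2
        let φ : O[X] →+* W := ((aeval (algebraMap K E z) : O[X] →ₐ[O] E) : O[X] →+* E).codRestrict
          W.toSubring hcoe
        have h3 : ∀ w : W, p.eval₂ ((aeval (algebraMap K E z) : O[X] →ₐ[O] E) : O[X] →+* E) w =
            ((p.eval₂ φ w : W) : E) := by
          intro w
          have h4 : ((aeval (algebraMap K E z) : O[X] →ₐ[O] E) : O[X] →+* E) =
            W.toSubring.subtype.comp φ := rfl
          rw [h4]
          exact (hom_eval₂ p φ W.toSubring.subtype w).symm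
        have h5 : residue W (p.eval₂ φ ⟨algebraMap F E f, hfW⟩) =
            residue W (p.eval₂ φ ⟨x, hxW⟩) := by
          rw [hom_eval₂, hom_eval₂]
          congr 1
          rw [eq_comm, ← sub_eq_zero, ← map_sub, residue_eq_zero_iff,
            ← ValuationSubring.coe_mem_nonunits_iff]
          exact hf
        have h6 : p.eval₂ φ ⟨x, hxW⟩ = 0 := by
          apply Subtype.ext
          rw [← h3]
          exact hpx
        rw [h6, map_zero, residue_eq_zero_iff, ← ValuationSubring.coe_mem_nonunits_iff, ← h3] at h5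
        exact h5
      have hN : NormalAt O z (W.comap (algebraMap F E)) := by
        rcases hP W hW with e | e
        · rw [e]; exact hN₁
        · rw [e]; exact hN₂
      obtain ⟨b, hb, hfb⟩ := hN f hfW p hp hpf
      refine ⟨b, hb, ?_⟩
      rw [mem_nonunits_comap', map_sub] at hfb
      have h7 : x - algebraMap F E b = (x - algebraMap F E f) +
        (algebraMap F E f - algebraMap F E b) := by ring
      rw [h7]
      exact add_mem hf hfb
    obtain ⟨b', hb', hδb, k, b₁, b₂, hb₁c, hb₂c, hb₁, hb₂, hbk⟩ := hnode b hb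
    have mc : ∀ {c : F}, c ∈ chart O (algebraMap K F z) →
        algebraMap F E c ∈ chart O (algebraMap K E z) := by
      intro c hc
      rw [← hzE]
      exact mem_chart_algebraMap hc
    have hc := hcen b₁ b₂ (mc hb₁c) (mc hb₂c) hb₁ hb₂
    -- `δ b ∈ y`
    have hδb' : (⟨algebraMap F E b', mc hb'⟩ : chart O (algebraMap K E z)) ∈ y := by
      have h1 : D.δ x - D.δ (algebraMap F E b) ∈ W.nonunits := by
        rw [← hfix] at hxb
        rw [← map_sub]
        exact (comap_mem_nonunits W (D.δ : E →+* E) _).mp hxb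
      rw [hδb] at h1
      have h2 := hm ⟨_, sub_mem hδx (mc hb')⟩ h1
      have h3 := y.sub_mem hδxy h2
      convert h3 using 1
      apply Subtype.ext
      change algebraMap F E b' = D.δ x - (D.δ x - algebraMap F E b')
      ring
    have hbk' : (⟨algebraMap F E b, mc hb⟩ : chart O (algebraMap K E z)) ^ k ∈ y := by
      have h1 := y.sub_mem hδb' (y.add_mem hc.1 hc.2)
      convert h1 using 1
      apply Subtype.ext
      change algebraMap F E b ^ k = algebraMap F E b' - (algebraMap F E b₁ + algebraMap F E b₂)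
      rw [← map_add, ← hbk, map_sub, map_pow]
      ring
    have hby := hyp.mem_of_pow_mem k hbk'
    have h1 := hm ⟨_, sub_mem hx (mc hb)⟩ hxb
    have h2 := y.add_mem h1 hby
    convert h2 using 1
    apply Subtype.ext
    change x = x - algebraMap F E b + algebraMap F E b
    ring
  · -- no crossing point at infinity
    exfalso
    obtain ⟨s, hs, b₁, b₂, hb₁c, hb₂c, hb₁, hb₂, hsum⟩ := hinf
    have mc : ∀ {c : F}, c ∈ chart O (algebraMap K F z)⁻¹ →
        algebraMap F E c ∈ chart O (algebraMap K E z)⁻¹ := by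
      intro c hc
      have := mem_chart_algebraMap (E := E) hc
      rwa [map_inv₀, hzE] at this
    have hc := hcen b₁ b₂ (mc hb₁c) (mc hb₂c) hb₁ hb₂
    have h1 := y.add_mem hc.1 hc.2
    -- `s(z⁻¹) - s(0)` is in `y`
    obtain ⟨r, hr⟩ := X_dvd_sub_C (p := s)
    have hs' : s = C (s.coeff 0) + X * r := by
      rw [← hr]; ring
    have h2 := y.mul_mem_left ⟨_, aeval_mem_chart (O := O) (algebraMap K E z)⁻¹ r⟩ hyz
    have h3 := y.sub_mem h1 h2
    apply hyM.ne_top
    refine Ideal.eq_top_of_isUnit_mem _ h3 ?_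
    have h4 : (⟨algebraMap F E b₁, mc hb₁c⟩ + ⟨algebraMap F E b₂, mc hb₂c⟩ -
        ⟨_, aeval_mem_chart (O := O) (algebraMap K E z)⁻¹ r⟩ *
          ⟨(algebraMap K E z)⁻¹, self_mem_chart _⟩ : chart O (algebraMap K E z)⁻¹) =
        algebraMap O _ (s.coeff 0) := by
      apply Subtype.ext
      change algebraMap F E b₁ + algebraMap F E b₂ -
        aeval (algebraMap K E z)⁻¹ r * (algebraMap K E z)⁻¹ = algebraMap O E (s.coeff 0)
      rw [← map_add, hsum, ← aeval_algebraMap_apply, map_inv₀, hzE]
      conv_lhs => rw [hs']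
      rw [map_add, map_mul, aeval_X, aeval_C]
      ring
    rw [h4]
    exact hs.map _

end Two

end Fermat.Agent.LG
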