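import Mathlib
import Fermat.Agent.LG.GVal
import Fermat.Agent.LG.FrobRed
import Fermat.Agent.LG.Core2

/-!
The two components of the reduction of `X₀(qM)`, in abstract form.
-/

set_option autoImplicit false
set_option linter.unusedSectionVars false

open IsLocalRing Polynomial Fermat.Agent.Geo ModularCurve

noncomputable section

universe u

namespace Fermat.Agent.LG

theorem comp_indep {k : Type*} [Field k] {q : ℕ} (hq : 2 ≤ q) (P : Fin q → k[X])
    (h : ∑ i, (P i).comp (X + X ^ q) * X ^ (i : ℕ) = 0) (i : Fin q) : P i = 0 := by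
  classical
  by_contra hi
  set Q : k[X] := X + X ^ q with hQ
  have hQd : Q.natDegree = q := by
    rw [hQ, natDegree_add_eq_right_of_natDegree_lt, natDegree_X_pow]
    rw [natDegree_X, natDegree_X_pow]
    omega
  have hne : ∀ j, P j ≠ 0 → (P j).comp Q * X ^ (j : ℕ) ≠ 0 := by
    intro j hj
    refine mul_ne_zero ?_ (pow_ne_zero _ X_ne_zero)
    intro h0
    rw [comp_eq_zero_iff] at h0
    rcases h0 with h0 | ⟨-, h0⟩
    · exact hj h0
    · have := congrArg natDegree h0
      rw [hQd, natDegree_C] at this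
      omega
  have hdeg : ∀ j, P j ≠ 0 → ((P j).comp Q * X ^ (j : ℕ)).natDegree =
      (P j).natDegree * q + j := by
    intro j hj
    have h1 : (P j).comp Q ≠ 0 := left_ne_zero_of_mul (hne j hj)
    rw [natDegree_mul_X_pow _ h1, natDegree_comp, hQd]
  set S := Finset.univ.filter fun j => P j ≠ 0 with hS
  have hSne : S.Nonempty := ⟨i, by simp [hS, hi]⟩
  obtain ⟨j₀, hj₀, hmax⟩ := Finset.exists_max_image S
    (fun j => ((P j).comp Q * X ^ (j : ℕ)).natDegree) hSne
  have hj₀' : P j₀ ≠ 0 := (Finset.mem_filter.mp hj₀).2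
  set d := ((P j₀).comp Q * X ^ (j₀ : ℕ)).natDegree with hd
  have hc : (∑ j, (P j).comp Q * X ^ (j : ℕ)).coeff d = ((P j₀).comp Q * X ^ (j₀ : ℕ)).coeff d := by
    rw [finsetSum_coeff]
    refine Finset.sum_eq_single_of_mem j₀ (Finset.mem_univ _) fun j _ hj => ?_
    by_cases hPj : P j = 0
    · rw [hPj, zero_comp, zero_mul, coeff_zero]
    · apply coeff_eq_zero_of_natDegree_lt
      refine lt_of_le_of_ne (hmax j (by simp [hS, hPj])) ?_
      rw [hd, hdeg j hPj, hdeg j₀ hj₀']
      intro he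
      apply hj
      apply Fin.ext
      have h1 := congrArg (· % q) he
      simp only [Nat.mul_add_mod_self_right] at h1
      rw [Nat.mod_eq_of_lt j.2, Nat.mod_eq_of_lt j₀.2] at h1
      exact h1
  rw [h, coeff_zero, hd, coeff_natDegree] at hc
  exact hne j₀ hj₀' (leadingCoeff_eq_zero.mp hc.symm)

section Data

variable {O L K₁ M K F : Type u} [CommRing O] [IsDomain O] [IsDiscreteValuationRing O]
  [Field L] [Algebra O L] [IsFractionRing O L] [Field K₁] [Field M] [Field K] [Field F]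
  [Algebra O K₁] [Algebra O M] [Algebra O K] [Algebra O F] [Algebra K₁ M] [Algebra M F]
  [Algebra K F]

/-- The data of a curve `F` of level `qM` over a curve `M` with good reduction. -/
structure LData {O L K₁ K F : Type u} [CommRing O] [IsDomain O] [IsDiscreteValuationRing O]
    [Field L] [Algebra O L] [IsFractionRing O L] [Field K₁] (M : Type u) [Field M] [Field K]
    [Field F] [Algebra O K₁] [Algebra O M] [Algebra O K] [Algebra O F] [Algebra K₁ M]
    [Algebra M F] [Algebra K F] (q : ℕ) [NeZero q] (t : K₁) (z : K) (T : LaurentSeries O)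
    (θ : F →+* LaurentSeries L) (w : F ≃+* F) : Prop where
  q2 : 2 ≤ q
  q0 : (q : ResidueField O) = 0
  hgK : ∀ x, θ x ∈ gK O L
  θC : ∀ a : O, θ (algebraMap O F a) = HahnSeries.C (algebraMap O L a)
  θt : θ (algebraMap M F (algebraMap K₁ M t)) = toL O L T
  trans : ∀ P : (ResidueField O)[X], P.eval₂ HahnSeries.C (toK O T) = 0 → P = 0
  deriv : thD (toK O T) ≠ 0
  wC : ∀ a : O, w (algebraMap O F a) = algebraMap O F a
  ww : ∀ x, w (w x) = x
  zz : algebraMap K F z = algebraMap M F (algebraMap K₁ M t) +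
    w (algebraMap M F (algebraMap K₁ M t))
  θw : ∀ x : M, θ (w (algebraMap M F x)) = qExpand L q (θ (algebraMap M F x))
  Tq : qExpand _ q (toK O T) = (toK O T) ^ q
  deg : Module.finrank K F ≤ 2 * (Module.finrank K₁ M * q)
  bas : ∃ (e : Fin (Module.finrank K₁ M) → M) (he : ∀ i, θ (algebraMap M F (e i)) ∈ gV O L),
    ∀ P : Fin (Module.finrank K₁ M) → (ResidueField O)[X],
      ∑ i, (P i).eval₂ HahnSeries.C (toK O T) * gR (⟨_, he i⟩ : gV O L) = 0 → ∀ i, P i = 0

variable {q : ℕ} [NeZero q] {t : K₁} {z : K} {T : LaurentSeries O}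
    {θ : F →+* LaurentSeries L} {w : F ≃+* F}

/-- The expansion of `z`. -/
def ZS (q : ℕ) [NeZero q] (T : LaurentSeries O) : LaurentSeries O := T + qExpand O q T

theorem LData.toK_ZS (h : LData M q t z T θ w) : toK O (ZS q T) = toK O T + toK O T ^ q := by
  rw [ZS, map_add, ← qExpand_toK, h.Tq]

theorem LData.trans_ZS (h : LData M q t z T θ w) (P : (ResidueField O)[X])
    (hP : P.eval₂ HahnSeries.C (toK O (ZS q T)) = 0) : P = 0 := by
  have h1 : (P.comp (X + X ^ q)).eval₂ HahnSeries.C (toK O T) = 0 := by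
    rw [eval₂_comp, eval₂_add, eval₂_X_pow, eval₂_X, ← h.toK_ZS]
    exact hP
  have h2 := h.trans _ h1
  rw [comp_eq_zero_iff] at h2
  rcases h2 with h2 | ⟨-, h2⟩
  · exact h2
  · exfalso
    have h3 := congrArg (fun p => p.coeff 1) h2
    have hq := h.q2
    simp only [coeff_add, coeff_X_one, coeff_X_pow, coeff_C_succ] at h3
    rw [if_neg (by omega), add_zero] at h3
    exact one_ne_zero h3

theorem LData.deriv_ZS (h : LData M q t z T θ w) : thD (toK O (ZS q T)) ≠ 0 := by
  have h1 : thD (toK O (ZS q T)) = thD (toK O T) := by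
    rw [ZS, map_add, ← qExpand_toK, map_add]
    have h2 : thD (qExpand (ResidueField O) q (toK O T)) = 0 := by
      ext k
      rw [thD_coeff]
      by_cases hk : (q : ℤ) ∣ k
      · obtain ⟨m, rfl⟩ := hk
        rw [mul_smul, zsmul_eq_mul]
        push_cast
        rw [h.q0, zero_mul]
        rfl
      · rw [qExpand_coeff_of_not_dvd q _ hk, smul_zero]
        rfl
    rw [h2, add_zero]
  rw [h1]
  exact h.deriv

theorem LData.isEmb₁ (h : LData M q t z T θ w) : IsEmb θ z (ZS q T) where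
  map_C := h.θC
  map_z := by
    rw [h.zz, map_add, h.θw, h.θt, ZS, map_add, qExpand_toL]
  trans := h.trans_ZS

theorem LData.isEmb₂ (h : LData M q t z T θ w) :
    IsEmb (θ.comp (w : F →+* F)) z (ZS q T) where
  map_C a := by
    change θ (w (algebraMap O F a)) = _
    rw [h.wC, h.θC]
  map_z := by
    change θ (w (algebraMap K F z)) = _
    rw [h.zz, map_add, h.ww, map_add, h.θw, h.θt, ZS, map_add, qExpand_toL, add_comm]
  trans := h.trans_ZS

theorem LData.gK₂ (h : LData M q t z T θ w) (x : F) : θ.comp (w : F →+* F) x ∈ gK O L := h.hgK _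

/-- the first component -/
def LData.P₁ (h : LData M q t z T θ w) : ValuationSubring F := gW θ h.hgK

/-- the second component -/
def LData.P₂ (h : LData M q t z T θ w) : ValuationSubring F := gW (θ.comp (w : F →+* F)) h.gK₂

theorem LData.mem_P₁ (h : LData M q t z T θ w) {x : F} : x ∈ h.P₁ ↔ θ x ∈ gV O L := Iff.rfl

theorem LData.mem_P₂ (h : LData M q t z T θ w) {x : F} : x ∈ h.P₂ ↔ w x ∈ h.P₁ := Iff.rfl

theorem LData.mem_P₂_nonunits (h : LData M q t z T θ w) {x : F} :
    x ∈ h.P₂.nonunits ↔ w x ∈ h.P₁.nonunits := by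
  rw [ValuationSubring.mem_nonunits_iff_or, ValuationSubring.mem_nonunits_iff_or, h.mem_P₂,
    map_inv₀, EmbeddingLike.map_eq_zero_iff]

/-- the family of elements whose reductions are a basis of the residue field -/
def LData.fam (h : LData M q t z T θ w) (j : Fin (Module.finrank K₁ M * q)) : F :=
  algebraMap M F (h.bas.choose j.divNat) *
    algebraMap M F (algebraMap K₁ M t) ^ (j.modNat : ℕ)

theorem LData.fam_mem (h : LData M q t z T θ w) (j : Fin (Module.finrank K₁ M * q)) :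
    θ (h.fam j) ∈ gV O L := by
  rw [LData.fam, map_mul, map_pow, h.θt]
  exact mul_mem (h.bas.choose_spec.choose _) (pow_mem (toL_mem_gV T) _)

theorem LData.fam_indep (h : LData M q t z T θ w)
    (P : Fin (Module.finrank K₁ M * q) → (ResidueField O)[X])
    (hP : ∑ j, (P j).eval₂ HahnSeries.C (toK O (ZS q T)) * gR (⟨_, h.fam_mem j⟩ : gV O L) = 0)
    (j : Fin (Module.finrank K₁ M * q)) : P j = 0 := by
  classical
  have he := h.bas.choose_spec.choose
  have hind := h.bas.choose_spec.choose_spec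
  have hfam : ∀ j : Fin (Module.finrank K₁ M * q), gR (⟨_, h.fam_mem j⟩ : gV O L) =
      gR (⟨_, he j.divNat⟩ : gV O L) * toK O T ^ (j.modNat : ℕ) := by
    intro j
    have h1 : (⟨_, h.fam_mem j⟩ : gV O L) = ⟨_, he j.divNat⟩ *
        (⟨toL O L T, toL_mem_gV T⟩ : gV O L) ^ (j.modNat : ℕ) := by
      apply Subtype.ext
      change θ (h.fam j) = θ _ * (toL O L T) ^ _
      rw [LData.fam, map_mul, map_pow, h.θt]
    rw [h1, map_mul, map_pow, gR_toL]
  have h2 : ∀ i : Fin (Module.finrank K₁ M), (∑ k : Fin q, (P (finProdFinEquiv (i, k))).comp (X + X ^ q) *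
      X ^ (k : ℕ)) = 0 := by
    apply hind (fun i => ∑ k : Fin q, (P (finProdFinEquiv (i, k))).comp (X + X ^ q) * X ^ (k : ℕ))
    refine Eq.trans ?_ hP
    rw [← finProdFinEquiv.sum_comp, Fintype.sum_prod_type]
    refine Finset.sum_congr rfl fun i _ => ?_
    rw [eval₂_finsetSum, Finset.sum_mul]
    refine Finset.sum_congr rfl fun k _ => ?_
    rw [hfam, eval₂_mul, eval₂_comp, eval₂_add, eval₂_X_pow, eval₂_X, eval₂_X_pow, ← h.toK_ZS]
    have e1 : (finProdFinEquiv (i, k)).divNat = i := by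
      have := finProdFinEquiv.symm_apply_apply (i, k)
      exact congrArg Prod.fst this
    have e2 : (finProdFinEquiv (i, k)).modNat = k := by
      have := finProdFinEquiv.symm_apply_apply (i, k)
      exact congrArg Prod.snd this
    rw [e1, e2]
    ring
  have h3 := comp_indep h.q2 (fun k => P (finProdFinEquiv (j.divNat, k))) (h2 j.divNat) j.modNat
  have h4 : finProdFinEquiv (j.divNat, j.modNat) = j := finProdFinEquiv.apply_symm_apply j
  rwa [h4] at h3

/-- the family for the second component -/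
def LData.fam₂ (h : LData M q t z T θ w) (j : Fin (Module.finrank K₁ M * q)) : F := w (h.fam j)

theorem LData.θw_fam₂ (h : LData M q t z T θ w) (j : Fin (Module.finrank K₁ M * q)) :
    θ.comp (w : F →+* F) (h.fam₂ j) = θ (h.fam j) := by
  change θ (w (w (h.fam j))) = _
  rw [h.ww]

theorem LData.fam₂_mem (h : LData M q t z T θ w) (j : Fin (Module.finrank K₁ M * q)) :
    θ.comp (w : F →+* F) (h.fam₂ j) ∈ gV O L := by
  rw [h.θw_fam₂]
  exact h.fam_mem j

variable {π : O}

section NoTower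

variable [IsScalarTower O K F]

theorem LData.over₁ (h : LData M q t z T θ w) (hz : IsParam O z) (hπ : Prime π) :
    Over (gaussVal hz hπ) (algebraMap O K π) h.P₁ := h.isEmb₁.over hz hπ

theorem LData.over₂ (h : LData M q t z T θ w) (hz : IsParam O z) (hπ : Prime π) :
    Over (gaussVal hz hπ) (algebraMap O K π) h.P₂ := h.isEmb₂.over hz hπ

theorem LData.sub_mem₁ (h : LData M q t z T θ w) :
    w (algebraMap M F (algebraMap K₁ M t)) - algebraMap M F (algebraMap K₁ M t) ^ q ∈
      h.P₁.nonunits := by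
  have h1 : θ (w (algebraMap M F (algebraMap K₁ M t)) -
      algebraMap M F (algebraMap K₁ M t) ^ q) = toL O L (qExpand O q T - T ^ q) := by
    rw [map_sub, map_pow, h.θw, h.θt, map_sub, map_pow, qExpand_toL]
  refine (mem_nonunits_iff_toL h1).mpr ?_
  rw [map_sub, map_pow, ← qExpand_toK, h.Tq, sub_self]

theorem LData.pow_ne (h : LData M q t z T θ w) {a b : ℕ} (hab : a ≠ b) :
    toK O T ^ a ≠ toK O T ^ b := by
  intro he
  have h1 := h.trans (X ^ a - X ^ b) (by rw [eval₂_sub, eval₂_X_pow, eval₂_X_pow, he, sub_self])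
  have h2 := congrArg (fun p => p.coeff a) h1
  simp only [coeff_sub, coeff_X_pow_self, coeff_X_pow, coeff_zero] at h2
  rw [if_neg hab, sub_zero] at h2
  exact one_ne_zero h2

theorem LData.sub_notMem₂ (h : LData M q t z T θ w) :
    w (algebraMap M F (algebraMap K₁ M t)) - algebraMap M F (algebraMap K₁ M t) ^ q ∉
      h.P₂.nonunits := by
  rw [h.mem_P₂_nonunits]
  intro hmem
  have h1 : θ (w (w (algebraMap M F (algebraMap K₁ M t)) -
      algebraMap M F (algebraMap K₁ M t) ^ q)) = toL O L (T - qExpand O q T ^ q) := by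
    rw [map_sub, h.ww, map_pow, map_sub, map_pow, h.θw, h.θt, map_sub, map_pow, qExpand_toL]
  have h2 := (mem_nonunits_iff_toL h1).mp hmem
  rw [map_sub, map_pow, ← qExpand_toK, h.Tq, ← pow_mul, sub_eq_zero] at h2
  have hq := h.q2
  refine h.pow_ne (a := 1) (b := q * q) ?_ (by rw [pow_one]; exact h2)
  nlinarith

theorem LData.P_ne (h : LData M q t z T θ w) : h.P₁ ≠ h.P₂ := by
  intro he
  apply h.sub_notMem₂
  rw [← he]
  exact h.sub_mem₁

variable [FiniteDimensional K F] [Algebra.IsSeparable K F]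

/-- the hypotheses of the list criterion -/
theorem LData.list (h : LData M q t z T θ w) (hz : IsParam O z) (hπ : Prime π) :
    ∃ (ϖ : gaussVal hz hπ), Irreducible ϖ ∧ (ϖ : K) = algebraMap O K π ∧
    ∃ (W : Fin 2 → ValuationSubring F) (b : ∀ _ : Fin 2, Fin (Module.finrank K₁ M * q) → F),
    W 0 = h.P₁ ∧ W 1 = h.P₂ ∧ b 0 = h.fam ∧ b 1 = h.fam₂ ∧ Function.Injective W ∧
    (∀ i, ∀ x ∈ gaussVal hz hπ, algebraMap K F x ∈ W i) ∧
    (∀ i, algebraMap K F ϖ ∈ (W i).nonunits) ∧
    (∀ i j, b i j ∈ W i) ∧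
    (∀ i, ∀ c : Fin (Module.finrank K₁ M * q) → K, (∀ j, c j ∈ gaussVal hz hπ) →
      ∑ j, c j • b i j ∈ (W i).nonunits → ∀ j, c j ∈ (gaussVal hz hπ).nonunits) ∧
    Module.finrank K F ≤ ∑ _i : Fin 2, Module.finrank K₁ M * q := by
  obtain ⟨ϖ, hϖ, hϖπ⟩ := exists_gauss_unif hz hπ
  refine ⟨ϖ, hϖ, hϖπ, ![h.P₁, h.P₂], ![h.fam, h.fam₂], rfl, rfl, rfl, rfl, ?_, ?_, ?_, ?_, ?_, ?_⟩
  · intro i j hij
    fin_cases i <;> fin_cases j
    · rfl
    · exact absurd hij h.P_ne
    · exact absurd hij.symm h.P_ne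
    · rfl
  · rw [Fin.forall_fin_two]
    exact ⟨(h.over₁ hz hπ).1, (h.over₂ hz hπ).1⟩
  · rw [Fin.forall_fin_two, hϖπ]
    exact ⟨(h.over₁ hz hπ).2, (h.over₂ hz hπ).2⟩
  · rw [Fin.forall_fin_two]
    exact ⟨h.fam_mem, h.fam₂_mem⟩
  · rw [Fin.forall_fin_two]
    refine ⟨fun c hc hsum j => ?_, fun c hc hsum j => ?_⟩
    · exact h.isEmb₁.indep (hθ := h.hgK) hz hπ h.fam h.fam_mem h.fam_indep c hc hsum j
    · refine h.isEmb₂.indep (hθ := h.gK₂) hz hπ h.fam₂ h.fam₂_mem (fun P hP => h.fam_indep P ?_)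
        c hc hsum j
      rw [← hP]
      refine Finset.sum_congr rfl fun j _ => ?_
      congr 1
      change gR _ = gR _
      congr 1
      apply Subtype.ext
      exact (h.θw_fam₂ j).symm
  · rw [Fin.sum_univ_two]
    have := h.deg
    omega

theorem LData.complete (h : LData M q t z T θ w) (hz : IsParam O z) (hπ : Prime π)
    (W : ValuationSubring F) (hW : Over (gaussVal hz hπ) (algebraMap O K π) W) :
    W = h.P₁ ∨ W = h.P₂ := by
  have := isDiscreteValuationRing_gaussVal hz hπ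
  obtain ⟨ϖ, hϖ, hϖπ, Ws, b, e0, e1, -, -, hinj, h1, h2, h3, h4, h5⟩ := h.list hz hπ
  obtain ⟨i, hi⟩ := list_complete hϖ Ws hinj h1 h2 (fun _ => Module.finrank K₁ M * q) b h3 h4 h5 W
    hW.1 (by rw [hϖπ]; exact hW.2)
  fin_cases i
  · exact Or.inl (hi.trans e0)
  · exact Or.inr (hi.trans e1)

theorem LData.unr [PerfectField (ResidueField O)] (h : LData M q t z T θ w) (hz : IsParam O z)
    (hπ : Prime π) : Unr (gaussVal hz hπ).toSubring F := by
  have := isDiscreteValuationRing_gaussVal hz hπ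
  obtain ⟨ϖ, hϖ, hϖπ, Ws, b, e0, e1, -, -, hinj, h1, h2, h3, h4, h5⟩ := h.list hz hπ
  refine unr_of_list hϖ Ws hinj h1 h2 ?_ (fun _ => Module.finrank K₁ M * q) b h3 h4 h5
  rw [Fin.forall_fin_two, e0, e1]
  exact ⟨h.isEmb₁.sep hz hπ h.deriv_ZS, h.isEmb₂.sep hz hπ h.deriv_ZS⟩

/-- elements of the first component are congruent to elements of `M` -/
theorem LData.exists_span (h : LData M q t z T θ w) (hz : IsParam O z) (hπ : Prime π) {x : F}
    (hx : x ∈ h.P₁) : ∃ c : Fin (Module.finrank K₁ M * q) → K, (∀ j, c j ∈ gaussVal hz hπ) ∧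
      x - ∑ j, c j • h.fam j ∈ h.P₁.nonunits := by
  have := isDiscreteValuationRing_gaussVal hz hπ
  obtain ⟨ϖ, hϖ, hϖπ, Ws, b, e0, e1, e2, -, hinj, h1, h2, h3, h4, h5⟩ := h.list hz hπ
  obtain ⟨c, hc, hc'⟩ := list_span hϖ Ws hinj h1 h2 (fun _ => Module.finrank K₁ M * q) b h3 h4 h5
    0 (x := x) (by rw [e0]; exact hx)
  refine ⟨c, hc, ?_⟩
  rw [e0, e2] at hc'
  exact hc'

end NoTower

section Tower

variable [IsScalarTower O K F] [IsScalarTower O K₁ M] [IsScalarTower O M F]

theorem LData.θM_aeval (h : LData M q t z T θ w) (P : O[X]) :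
    θ (algebraMap M F (algebraMap K₁ M (aeval t P))) = toL O L (P.eval₂ HahnSeries.C T) := by
  rw [← aeval_algebraMap_apply, ← aeval_algebraMap_apply, aeval_def, hom_eval₂, h.θt, hom_eval₂]
  congr 1
  ext a : 1
  rw [RingHom.comp_apply, h.θC, RingHom.comp_apply, toL_C]

theorem gR_of_mul {a b : LaurentSeries O} {x : LaurentSeries L} (hb : toK O b ≠ 0)
    (h : toL O L b * x = toL O L a) : ∃ hx : x ∈ gV O L,
      gR (⟨x, hx⟩ : gV O L) = toK O a / toK O b :=
  ⟨⟨a, b, hb, h⟩, gR_eq hb h⟩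

theorem sub_mem_nonunits_iff {E : Type u} [Field E] {θ : E →+* LaurentSeries L}
    {hθ : ∀ x, θ x ∈ gK O L} {x y : E} (hx : θ x ∈ gV O L) (hy : θ y ∈ gV O L) :
    x - y ∈ (gW θ hθ).nonunits ↔ gR (⟨θ x, hx⟩ : gV O L) = gR (⟨θ y, hy⟩ : gV O L) := by
  have h1 : θ (x - y) ∈ gV O L := by rw [map_sub]; exact sub_mem hx hy
  have h2 : (⟨θ (x - y), h1⟩ : gV O L) = ⟨θ x, hx⟩ - ⟨θ y, hy⟩ := Subtype.ext (map_sub _ _ _)
  rw [mem_nonunits_iff_gR h1, h2, map_sub, sub_eq_zero]

/-- functions of `z` are congruent to functions of `t` on the first component -/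
theorem LData.exists_base (h : LData M q t z T θ w) (hz : IsParam O z) (hπ : Prime π) {c : K}
    (hc : c ∈ gaussVal hz hπ) : ∃ c' : K₁, algebraMap K F c - algebraMap M F (algebraMap K₁ M c') ∈
      h.P₁.nonunits ∧ algebraMap M F (algebraMap K₁ M c') ∈ h.P₁ := by
  obtain ⟨s, a, hs, hsa⟩ := (mem_placeVal_iff hz _).mp hc
  set s' := s.comp (X + X ^ q) with hs'
  set a' := a.comp (X + X ^ q) with ha'
  have hcomp : ∀ P : O[X], toK O ((P.comp (X + X ^ q)).eval₂ HahnSeries.C T) =
      toK O (P.eval₂ HahnSeries.C (ZS q T)) := by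
    intro P
    rw [toK_eval₂, toK_eval₂, Polynomial.map_comp, eval₂_comp, h.toK_ZS]
    congr 1
    simp
  have hsz : toK O (s.eval₂ HahnSeries.C (ZS q T)) ≠ 0 := h.isEmb₁.toK_ne_zero hπ hs
  have h1 : toL O L (s.eval₂ HahnSeries.C (ZS q T)) * θ (algebraMap K F c) =
      toL O L (a.eval₂ HahnSeries.C (ZS q T)) := by
    rw [← h.isEmb₁.map_aeval, ← h.isEmb₁.map_aeval, ← hsa, map_mul, map_mul]
  have hst : toK O (s'.eval₂ HahnSeries.C T) ≠ 0 := by rw [hs', hcomp]; exact hsz
  have hst0 : aeval t s' ≠ 0 := by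
    intro h0
    apply hst
    have h2 := h.θM_aeval s'
    rw [h0, map_zero, map_zero, map_zero] at h2
    have h3 : s'.eval₂ HahnSeries.C T = 0 := toL_injective O L (by rw [← h2, map_zero])
    rw [h3, map_zero]
  have h4 : toL O L (s'.eval₂ HahnSeries.C T) *
      θ (algebraMap M F (algebraMap K₁ M (aeval t a' / aeval t s'))) =
      toL O L (a'.eval₂ HahnSeries.C T) := by
    rw [← h.θM_aeval, ← h.θM_aeval, ← map_mul, ← map_mul, ← map_mul, mul_div_cancel₀ _ hst0]
  obtain ⟨h5, h6⟩ := gR_of_mul hsz h1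
  obtain ⟨h7, h8⟩ := gR_of_mul hst h4
  refine ⟨aeval t a' / aeval t s', ?_, h7⟩
  refine (sub_mem_nonunits_iff h5 h7).mpr ?_
  rw [h6, h8, hs', ha', hcomp, hcomp]

variable [FiniteDimensional K F] [Algebra.IsSeparable K F]

/-- elements of the first component are congruent to elements of `M` -/
theorem LData.exists_M (h : LData M q t z T θ w) (hz : IsParam O z) (hπ : Prime π) {x : F}
    (hx : x ∈ h.P₁) : ∃ x' : M, x - algebraMap M F x' ∈ h.P₁.nonunits ∧
      algebraMap M F x' ∈ h.P₁ := by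
  obtain ⟨c, hc, hcx⟩ := h.exists_span hz hπ hx
  choose c' hc' hc'' using fun j => h.exists_base hz hπ (hc j)
  refine ⟨∑ j, algebraMap K₁ M (c' j) * (h.bas.choose j.divNat * algebraMap K₁ M t ^ (j.modNat : ℕ)),
    ?_, ?_⟩
  · have h1 : x - algebraMap M F (∑ j, algebraMap K₁ M (c' j) *
        (h.bas.choose j.divNat * algebraMap K₁ M t ^ (j.modNat : ℕ))) =
        (x - ∑ j, c j • h.fam j) + ∑ j, h.fam j * (algebraMap K F (c j) -
          algebraMap M F (algebraMap K₁ M (c' j))) := by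
      rw [map_sum, sub_add, ← Finset.sum_sub_distrib]
      congr 1
      refine Finset.sum_congr rfl fun j _ => ?_
      rw [map_mul, map_mul, map_pow, Algebra.smul_def, LData.fam]
      ring
    rw [h1]
    refine add_mem hcx (sum_mem fun j _ => ?_)
    exact mul_mem_nonunits (h.fam_mem j) (hc' j)
  · rw [map_sum]
    refine sum_mem fun j _ => ?_
    rw [map_mul]
    refine mul_mem (hc'' j) ?_
    have := h.fam_mem j
    rw [LData.fam, ← map_pow, ← map_mul] at this
    exact this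

end Tower

end Data

end Fermat.Agent.LG
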