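import Mathlib
import Fermat.Agent.LG.LevelQ
import Fermat.Agent.LG.ChartL
import Fermat.Agent.LG.Rel
import Fermat.Agent.Geo.Hone

/-!
Semistable reduction of the curve of level `qM`.
-/

set_option autoImplicit false
set_option linter.unusedSectionVars false

open IsLocalRing Polynomial Fermat.Agent.Geo ModularCurve

noncomputable section

universe u

namespace Fermat.Agent.LG

section Eval

variable {O L E : Type u} [CommRing O] [IsDomain O] [IsDiscreteValuationRing O]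
  [Field L] [Algebra O L] [IsFractionRing O L] [Field E] [Algebra O E]
  {θ : E →+* LaurentSeries L} {hθ : ∀ x, θ x ∈ gK O L}

/-- the structure map modulo `π` given by a parameter -/
def ψ (v : LaurentSeries (ResidueField O)) : O[X] →+* LaurentSeries (ResidueField O) :=
  eval₂RingHom ((HahnSeries.C : ResidueField O →+* _).comp (residue O)) v

theorem ψ_C (v : LaurentSeries (ResidueField O)) (a : O) :
    ψ v (C a) = HahnSeries.C (residue O a) := eval₂_C _ _

theorem ψ_X (v : LaurentSeries (ResidueField O)) : ψ v (X : O[X]) = v := eval₂_X _ _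

theorem algebraMap_mem_gW
    (hC : ∀ a : O, θ (algebraMap O E a) = HahnSeries.C (algebraMap O L a)) (a : O) :
    algebraMap O E a ∈ gW θ hθ := by
  rw [mem_gW, hC]
  exact C_mem_gV a

theorem gρ_aeval (hC : ∀ a : O, θ (algebraMap O E a) = HahnSeries.C (algebraMap O L a)) {u : E}
    (hu : u ∈ gW θ hθ) (P : O[X]) :
    ∃ h : aeval u P ∈ gW θ hθ, gρ θ hθ ⟨_, h⟩ = ψ (gρ θ hθ ⟨u, hu⟩) P := by
  let j : O →+* gW θ hθ := (algebraMap O E).codRestrict (gW θ hθ).toSubring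
    fun a => algebraMap_mem_gW hC a
  have h1 : ((P.eval₂ j ⟨u, hu⟩ : gW θ hθ) : E) = aeval u P := by
    change (gW θ hθ).toSubring.subtype _ = _
    rw [hom_eval₂]
    rfl
  refine ⟨by rw [← h1]; exact (P.eval₂ j ⟨u, hu⟩ : gW θ hθ).2, ?_⟩
  have h2 : (⟨aeval u P, by rw [← h1]; exact (P.eval₂ j ⟨u, hu⟩ : gW θ hθ).2⟩ : gW θ hθ) =
      P.eval₂ j ⟨u, hu⟩ := Subtype.ext h1.symm
  rw [h2, hom_eval₂, ψ, coe_eval₂RingHom]
  congr 1
  ext a : 1
  rw [RingHom.comp_apply, RingHom.comp_apply]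
  have h4 : (⟨θ (algebraMap O E a), algebraMap_mem_gW (hθ := hθ) hC a⟩ : gV O L) =
      ⟨HahnSeries.C (algebraMap O L a), C_mem_gV a⟩ := Subtype.ext (hC a)
  change gR (⟨θ (algebraMap O E a), algebraMap_mem_gW (hθ := hθ) hC a⟩ : gV O L) = _
  rw [h4, gR_C]

theorem gρ_eval₂ (hC : ∀ a : O, θ (algebraMap O E a) = HahnSeries.C (algebraMap O L a)) {u x : E}
    (hu : u ∈ gW θ hθ) (hx : x ∈ gW θ hθ) (p : O[X][X]) :
    ∃ h : p.eval₂ ((aeval u : O[X] →ₐ[O] E) : O[X] →+* E) x ∈ gW θ hθ,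
      gρ θ hθ ⟨_, h⟩ = p.eval₂ (ψ (gρ θ hθ ⟨u, hu⟩)) (gρ θ hθ ⟨x, hx⟩) := by
  let j : O[X] →+* gW θ hθ := ((aeval u : O[X] →ₐ[O] E) : O[X] →+* E).codRestrict
    (gW θ hθ).toSubring fun a => (gρ_aeval hC hu a).choose
  have h1 : ((p.eval₂ j ⟨x, hx⟩ : gW θ hθ) : E) =
      p.eval₂ ((aeval u : O[X] →ₐ[O] E) : O[X] →+* E) x := by
    change (gW θ hθ).toSubring.subtype _ = _
    rw [hom_eval₂]
    rfl
  refine ⟨by rw [← h1]; exact (p.eval₂ j ⟨x, hx⟩ : gW θ hθ).2, ?_⟩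
  have h2 : (⟨p.eval₂ ((aeval u : O[X] →ₐ[O] E) : O[X] →+* E) x,
      by rw [← h1]; exact (p.eval₂ j ⟨x, hx⟩ : gW θ hθ).2⟩ : gW θ hθ) =
      p.eval₂ j ⟨x, hx⟩ := Subtype.ext h1.symm
  rw [h2, hom_eval₂]
  congr 1
  exact RingHom.ext fun a => (gρ_aeval hC hu a).choose_spec

theorem gρ_congr {x y : E} (hx : x ∈ gW θ hθ) (hxy : x - y ∈ (gW θ hθ).nonunits) :
    ∃ hy : y ∈ gW θ hθ, gρ θ hθ ⟨y, hy⟩ = gρ θ hθ ⟨x, hx⟩ := by
  have hy : y ∈ gW θ hθ := by
    have := sub_mem hx (ValuationSubring.nonunits_subset hxy)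
    rwa [sub_sub_cancel] at this
  exact ⟨hy, ((sub_mem_nonunits_iff hx hy).mp hxy).symm⟩

theorem sub_mem_nonunits_of {x y : E} (hx : x ∈ gW θ hθ) (hy : y ∈ gW θ hθ)
    (h : gρ θ hθ ⟨x, hx⟩ = gρ θ hθ ⟨y, hy⟩) : x - y ∈ (gW θ hθ).nonunits :=
  (sub_mem_nonunits_iff hx hy).mpr h

theorem mem_nonunits_of {x : E} (hx : x ∈ gW θ hθ) (h : gρ θ hθ ⟨x, hx⟩ = 0) :
    x ∈ (gW θ hθ).nonunits := (gρ_eq_zero_iff (⟨x, hx⟩ : gW θ hθ)).mp h

theorem gρ_eq_zero_of {x : E} (hx : x ∈ gW θ hθ) (h : x ∈ (gW θ hθ).nonunits) :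
    gρ θ hθ ⟨x, hx⟩ = 0 := (gρ_eq_zero_iff (⟨x, hx⟩ : gW θ hθ)).mpr h

/-- elements of the maximal ideal are divisible by `π` -/
theorem exists_smul_of_mem_nonunits {π : O}
    (hC : ∀ a : O, θ (algebraMap O E a) = HahnSeries.C (algebraMap O L a)) (hπ : Irreducible π)
    {x : E} (hx : x ∈ (gW θ hθ).nonunits) : ∃ y ∈ gW θ hθ, x = π • y := by
  have hx' : x ∈ gW θ hθ := ValuationSubring.nonunits_subset hx
  have h1 := (mem_nonunits_iff_gR hx').mp hx
  obtain ⟨y, hy, hxy⟩ := (gR_eq_zero_iff hπ _).mp h1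
  have hπ0 : algebraMap O L π ≠ 0 := by
    rw [Ne, IsFractionRing.to_map_eq_zero_iff]
    exact hπ.ne_zero
  have hπE : algebraMap O E π ≠ 0 := by
    intro h0
    have h2 := hC π
    rw [h0, map_zero] at h2
    exact hπ0 (HahnSeries.C_injective (by rw [← h2, map_zero]))
  refine ⟨(algebraMap O E π)⁻¹ * x, ?_, ?_⟩
  · rw [mem_gW, map_mul, map_inv₀, hC]
    have h3 : θ x = HahnSeries.C (algebraMap O L π) * y := hxy
    rw [h3, ← mul_assoc, inv_mul_cancel₀, one_mul]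
    · exact hy
    · intro h0
      exact hπ0 (HahnSeries.C_injective (by rw [h0, map_zero]))
  · rw [Algebra.smul_def, ← mul_assoc, mul_inv_cancel₀ hπE, one_mul]

end Eval

section Data

variable {O L K₁ M K F : Type u} [CommRing O] [IsDomain O] [IsDiscreteValuationRing O]
  [Field L] [Algebra O L] [IsFractionRing O L] [Field K₁] [Field M] [Field K] [Field F]
  [Algebra O K₁] [Algebra O M] [Algebra O K] [Algebra O F] [Algebra K₁ M] [Algebra M F]
  [Algebra K F] {q : ℕ} [NeZero q] {t : K₁} {z : K} {T : LaurentSeries O}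
  {θ : F →+* LaurentSeries L} {w : F ≃+* F} {π : O}
  [IsScalarTower O K F] [IsScalarTower O K₁ M] [IsScalarTower O M F]

/-- The hypotheses on the curve of level `M`. -/
structure LGood (h : LData M q t z T θ w) (ht : IsParam O t) (hz : IsParam O z)
    (hπ : Prime π) : Prop where
  gr : ∃ S : Set O, GoodRed ht hπ S M
  rel : ∃ c, ModShape q c ∧ MRel q c (w (algebraMap M F (algebraMap K₁ M t)))
    (algebraMap M F (algebraMap K₁ M t))

theorem LData.gKM (h : LData M q t z T θ w) (x : M) : θ.comp (algebraMap M F) x ∈ gK O L :=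
  h.hgK _

theorem LData.isEmbM (h : LData M q t z T θ w) : IsEmb (θ.comp (algebraMap M F)) t T where
  map_C a := by
    rw [RingHom.comp_apply, ← IsScalarTower.algebraMap_apply, h.θC]
  map_z := h.θt
  trans := h.trans

/-- the valuation ring of `M` -/
def LData.PM (h : LData M q t z T θ w) : ValuationSubring M :=
  gW (θ.comp (algebraMap M F)) h.gKM

theorem LData.mem_PM (h : LData M q t z T θ w) {x : M} : x ∈ h.PM ↔ algebraMap M F x ∈ h.P₁ :=
  Iff.rfl

theorem LData.mem_PM_nonunits (h : LData M q t z T θ w) {x : M} :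
    x ∈ h.PM.nonunits ↔ algebraMap M F x ∈ h.P₁.nonunits := by
  rw [ValuationSubring.mem_nonunits_iff_or, ValuationSubring.mem_nonunits_iff_or, h.mem_PM,
    map_inv₀, map_eq_zero]

theorem LData.intM [FiniteDimensional K₁ M] [Algebra.IsSeparable K₁ M]
    (h : LData M q t z T θ w) (ht : IsParam O t) (hπ : Prime π)
    {x : M} (hx : x ∈ h.PM) : IntOver (gaussVal ht hπ).toSubring x := by
  have := isDiscreteValuationRing_gaussVal ht hπ
  obtain ⟨ϖ, hϖ, hϖπ⟩ := exists_gauss_unif ht hπ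
  refine intOver_of_forall_over hϖ fun W hW => ?_
  obtain ⟨e, he, hind⟩ := h.bas
  obtain ⟨i, hi⟩ := list_complete (ι := Unit) hϖ (fun _ => h.PM) (fun _ _ _ => rfl)
    (fun _ => (h.isEmbM.over (hθ := h.gKM) ht hπ).1)
    (fun _ => by rw [hϖπ]; exact (h.isEmbM.over (hθ := h.gKM) ht hπ).2)
    (fun _ => Module.finrank K₁ M) (fun _ => e) (fun _ => he)
    (fun _ c hc hsum j => h.isEmbM.indep (hθ := h.gKM) ht hπ e he hind c hc hsum j)
    (by simp) W hW.1 hW.2
  rw [hi]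
  exact hx

theorem LData.t_mem₁ (h : LData M q t z T θ w) :
    algebraMap M F (algebraMap K₁ M t) ∈ h.P₁ := by
  rw [h.mem_P₁, h.θt]
  exact toL_mem_gV T

theorem LData.gρ_t (h : LData M q t z T θ w) :
    gρ θ h.hgK ⟨algebraMap M F (algebraMap K₁ M t), h.t_mem₁⟩ = toK O T :=
  gρ_of_toL h.θt _

theorem LData.z_mem₁ (h : LData M q t z T θ w) : algebraMap K F z ∈ h.P₁ := by
  rw [h.mem_P₁, h.isEmb₁.map_z]
  exact toL_mem_gV _

theorem LData.gρ_z (h : LData M q t z T θ w) :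
    gρ θ h.hgK ⟨algebraMap K F z, h.z_mem₁⟩ = toK O T + toK O T ^ q := by
  exact (gρ_of_toL h.isEmb₁.map_z _).trans h.toK_ZS

theorem LData.toK_T_ne (h : LData M q t z T θ w) : toK O T ≠ 0 := by
  intro h0
  have := h.trans X (by rw [eval₂_X, h0])
  exact X_ne_zero this

theorem LData.t_mem_chart (h : LData M q t z T θ w) {ht : IsParam O t} {hz : IsParam O z}
    {hπ : Prime π} (hg : LGood h ht hz hπ) :
    algebraMap M F (algebraMap K₁ M t) ∈ chart O (algebraMap K F z) := by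
  obtain ⟨c, hc, hrel⟩ := hg.rel
  obtain ⟨P, hP, -, hPe⟩ := hc.exists_monic
  have h1 := hPe _ _ hrel
  refine mem_chart_of_eval₂ _ (fun a => ?_) P hP h1
  have h2 : (eval₂RingHom (Int.castRingHom F) (w (algebraMap M F (algebraMap K₁ M t)) +
      algebraMap M F (algebraMap K₁ M t))) a =
      aeval (algebraMap K F z) (a.map (Int.castRingHom O)) := by
    rw [aeval_def, eval₂_map, coe_eval₂RingHom, h.zz, add_comm]
    congr 1
    exact RingHom.ext_int _ _
  rw [h2]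
  exact aeval_mem_chart _ _

theorem LData.aeval_mem (h : LData M q t z T θ w) (x : F) (hx : x ∈ h.P₁) (P : O[X]) :
    aeval x P ∈ h.P₁ := (gρ_aeval (hθ := h.hgK) h.θC hx P).choose

variable [FiniteDimensional K F] [Algebra.IsSeparable K F] [FiniteDimensional K₁ M]
  [Algebra.IsSeparable K₁ M] [CharZero O]

theorem algebraMap_mem_chart_M {x : M} {v : M} (hx : x ∈ chart O v) :
    algebraMap M F x ∈ chart O (algebraMap M F v) := by
  obtain ⟨P, hP, hPb⟩ := hx
  refine ⟨P, hP, ?_⟩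
  have h1 : ((aeval (algebraMap M F v) : O[X] →ₐ[O] F) : O[X] →+* F) =
      (algebraMap M F).comp ((aeval v : O[X] →ₐ[O] M) : O[X] →+* M) := by
    ext a
    · simp [← IsScalarTower.algebraMap_apply]
    · simp
  rw [h1, ← hom_eval₂, hPb, map_zero]

theorem LData.memF (h : LData M q t z T θ w) {ht : IsParam O t} {hz : IsParam O z}
    {hπ : Prime π} (hg : LGood h ht hz hπ) {f : M} (hf : f ∈ chart O (algebraMap K₁ M t)) :
    algebraMap M F f ∈ chart O (algebraMap K F z) :=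
  chart_trans (h.t_mem_chart hg) (algebraMap_mem_chart_M hf)

/-- Elements integral over `O[z]` modulo `P₁` are congruent to elements of level `M` integral over
`O[t]`. -/
theorem LData.exists_chartM (h : LData M q t z T θ w) {ht : IsParam O t} {hz : IsParam O z}
    {hπ : Prime π} (hg : LGood h ht hz hπ) {x : F} (hx : x ∈ h.P₁) (p : O[X][X]) (hp : p.Monic)
    (hpx : p.eval₂ ((aeval (algebraMap K F z) : O[X] →ₐ[O] F) : O[X] →+* F) x ∈ h.P₁.nonunits) :
    ∃ f ∈ chart O (algebraMap K₁ M t), x - algebraMap M F f ∈ h.P₁.nonunits := by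
  obtain ⟨x', hxx', hx'⟩ := h.exists_M hz hπ hx
  obtain ⟨S, hS⟩ := hg.gr
  have e1 : gρ θ h.hgK ⟨x, hx⟩ = gρ θ h.hgK ⟨algebraMap M F x', hx'⟩ :=
    (sub_mem_nonunits_iff hx hx').mp hxx'
  -- the polynomial over `O[t]`
  set p' : O[X][X] := p.map (compRingHom (X + X ^ q)) with hp'
  have hp'm : p'.Monic := hp.map _
  obtain ⟨h1, h2⟩ := gρ_eval₂ (hθ := h.hgK) h.θC h.z_mem₁ hx p
  have h3 := gρ_eq_zero_of h1 hpx
  rw [h2] at h3
  obtain ⟨h4, h5⟩ := gρ_eval₂ (hθ := h.hgK) h.θC h.t_mem₁ hx' p'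
  have h6 : p'.eval₂ (ψ (gρ θ h.hgK ⟨algebraMap M F (algebraMap K₁ M t), h.t_mem₁⟩))
      (gρ θ h.hgK ⟨algebraMap M F x', hx'⟩) = 0 := by
    rw [← h3, ← e1, hp', eval₂_map]
    congr 1
    apply Polynomial.ringHom_ext
    · intro a
      rw [RingHom.comp_apply, coe_compRingHom_apply, C_comp, ψ_C, ψ_C]
    · rw [RingHom.comp_apply, coe_compRingHom_apply, X_comp, map_add, map_pow, ψ_X, ψ_X, h.gρ_t]
      exact h.gρ_z.symm
  rw [h6] at h5
  have h7 := mem_nonunits_of h4 h5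
  have h8 : algebraMap M F (p'.eval₂ ((aeval (algebraMap K₁ M t) : O[X] →ₐ[O] M) : O[X] →+* M) x')
      = p'.eval₂ ((aeval (algebraMap M F (algebraMap K₁ M t)) : O[X] →ₐ[O] F) : O[X] →+* F)
        (algebraMap M F x') := by
    rw [hom_eval₂]
    congr 1
    ext a
    · simp [← IsScalarTower.algebraMap_apply]
    · simp
  rw [← h8] at h7
  have h9 := h.mem_PM_nonunits.mpr h7
  obtain ⟨y, hy, hxy⟩ := exists_smul_of_mem_nonunits (hθ := h.gKM) h.isEmbM.map_C hπ.irreducible h9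
  have hred : RedIntP ht hπ x' := ⟨p', hp'm, y, h.intM ht hπ hy, hxy⟩
  obtain ⟨b, hb, w', hw', hbw⟩ := hS.exists_of_redIntP hred
  refine ⟨b, hb, ?_⟩
  have h10 : x - algebraMap M F b = (x - algebraMap M F x') +
      algebraMap O F π * algebraMap M F w' := by
    rw [hbw, map_add, Algebra.smul_def, map_mul, ← IsScalarTower.algebraMap_apply]
    ring
  rw [h10]
  refine add_mem hxx' ?_
  have h11 : w' ∈ h.PM := mem_of_intOver (h.isEmbM.over (hθ := h.gKM) ht hπ).1 hw'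
  have h12 : algebraMap O F π ∈ h.P₁.nonunits := by
    have := (h.over₁ hz hπ).2
    rwa [← IsScalarTower.algebraMap_apply] at this
  rw [mul_comm]
  exact mul_mem_nonunits (h.mem_PM.mp h11) h12

theorem LData.exists_chartM_of_chart (h : LData M q t z T θ w) {ht : IsParam O t}
    {hz : IsParam O z} {hπ : Prime π} (hg : LGood h ht hz hπ) {b : F}
    (hb : b ∈ chart O (algebraMap K F z)) :
    ∃ f ∈ chart O (algebraMap K₁ M t), b - algebraMap M F f ∈ h.P₁.nonunits := by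
  have hb1 : b ∈ h.P₁ := mem_of_intOver (h.over₁ hz hπ).1 (intOver_of_mem_chart hz hπ hb)
  obtain ⟨p, hp, hpb⟩ := hb
  refine h.exists_chartM hg hb1 p hp ?_
  rw [hpb]
  exact zero_mem_nonunits _

theorem LData.w_mem_chart (h : LData M q t z T θ w) {u x : F} (hu : w u = u)
    (hx : x ∈ chart O u) : w x ∈ chart O u := by
  obtain ⟨p, hp, hpx⟩ := hx
  refine ⟨p, hp, ?_⟩
  have h1 : ((aeval u : O[X] →ₐ[O] F) : O[X] →+* F) =
      (w : F →+* F).comp ((aeval u : O[X] →ₐ[O] F) : O[X] →+* F) := by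
    ext a
    · simp [h.wC]
    · simp [hu]
  have h2 : w x = (w : F →+* F) x := rfl
  rw [h1, h2, ← hom_eval₂, hpx, map_zero]

theorem LData.wz (h : LData M q t z T θ w) : w (algebraMap K F z) = algebraMap K F z := by
  rw [h.zz, map_add, h.ww, add_comm]

theorem LData.mem_P₁_nonunits' (h : LData M q t z T θ w) {x : F} :
    w x ∈ h.P₂.nonunits ↔ x ∈ h.P₁.nonunits := by
  rw [h.mem_P₂_nonunits, h.ww]

theorem LData.normal₁ (h : LData M q t z T θ w) {ht : IsParam O t} {hz : IsParam O z}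
    {hπ : Prime π} (hg : LGood h ht hz hπ) {x : F} (hx : x ∈ h.P₁) (p : O[X][X]) (hp : p.Monic)
    (hpx : p.eval₂ ((aeval (algebraMap K F z) : O[X] →ₐ[O] F) : O[X] →+* F) x ∈ h.P₁.nonunits) :
    ∃ b ∈ chart O (algebraMap K F z), x - b ∈ h.P₁.nonunits := by
  obtain ⟨f, hf, hxf⟩ := h.exists_chartM hg hx p hp hpx
  exact ⟨_, h.memF hg hf, hxf⟩

theorem LData.w_eval₂ (h : LData M q t z T θ w) {u : F} (hu : w u = u) (x : F) (p : O[X][X]) :
    w (p.eval₂ ((aeval u : O[X] →ₐ[O] F) : O[X] →+* F) x) =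
      p.eval₂ ((aeval u : O[X] →ₐ[O] F) : O[X] →+* F) (w x) := by
  have h1 : (w : F →+* F).comp ((aeval u : O[X] →ₐ[O] F) : O[X] →+* F) =
      ((aeval u : O[X] →ₐ[O] F) : O[X] →+* F) := by
    ext a
    · simp [h.wC]
    · simp [hu]
  change (w : F →+* F) _ = _
  rw [hom_eval₂, h1]
  rfl

theorem LData.normal₂ (h : LData M q t z T θ w) {ht : IsParam O t} {hz : IsParam O z}
    {hπ : Prime π} (hg : LGood h ht hz hπ) {x : F} (hx : x ∈ h.P₂) (p : O[X][X]) (hp : p.Monic)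
    (hpx : p.eval₂ ((aeval (algebraMap K F z) : O[X] →ₐ[O] F) : O[X] →+* F) x ∈ h.P₂.nonunits) :
    ∃ b ∈ chart O (algebraMap K F z), x - b ∈ h.P₂.nonunits := by
  rw [h.mem_P₂_nonunits, h.w_eval₂ h.wz] at hpx
  obtain ⟨b, hb, hxb⟩ := h.normal₁ hg (h.mem_P₂.mp hx) p hp hpx
  refine ⟨w b, h.w_mem_chart h.wz hb, ?_⟩
  rw [h.mem_P₂_nonunits, map_sub, h.ww]
  exact hxb

end Data

end Fermat.Agent.LG
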