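import Mathlib
import Fermat.Agent.LG.LevelQ2

/-!
The action of coefficient automorphisms on the curve of level `qM`, the crossing points.
-/

set_option autoImplicit false
set_option linter.unusedSectionVars false

open IsLocalRing Polynomial Fermat.Agent.Geo ModularCurve

noncomputable section

universe u

namespace Fermat.Agent.LG

section Data

variable {O L K₁ M K F : Type u} [CommRing O] [IsDomain O] [IsDiscreteValuationRing O]
  [Field L] [Algebra O L] [IsFractionRing O L] [Field K₁] [Field M] [Field K] [Field F]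
  [Algebra O K₁] [Algebra O M] [Algebra O K] [Algebra O F] [Algebra K₁ M] [Algebra M F]
  [Algebra K F] {q : ℕ} [NeZero q] {t : K₁} {z : K} {T : LaurentSeries O}
  {θ : F →+* LaurentSeries L} {w : F ≃+* F} {π : O}
  [IsScalarTower O K F] [IsScalarTower O K₁ M] [IsScalarTower O M F]

/-- The action of an automorphism of the coefficients. -/
structure LAct (h : LData M q t z T θ w) (d : O ≃+* O) (δ : F ≃+* F) : Prop where
  θδ : ∀ x, θ (δ x) = coeffMap (dL L d : L →+* L) (θ x)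
  wδ : ∀ x, w (δ x) = δ (w x)
  δt : δ (algebraMap M F (algebraMap K₁ M t)) = algebraMap M F (algebraMap K₁ M t)

variable {h : LData M q t z T θ w} {d : O ≃+* O} {δ : F ≃+* F}

theorem LAct.δO (hA : LAct h d δ) (a : O) : δ (algebraMap O F a) = algebraMap O F (d a) := by
  apply θ.injective
  rw [hA.θδ, h.θC, h.θC, HahnSeries.C_apply, HahnSeries.C_apply, coeffMap_single]
  congr 1
  exact dL_algebraMap d a

theorem LAct.δz (hA : LAct h d δ) : δ (algebraMap K F z) = algebraMap K F z := by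
  rw [h.zz, map_add, ← hA.wδ, hA.δt]

theorem LAct.mem_chart (hA : LAct h d δ) {u x : F} (hu : δ u = u) (hx : x ∈ chart O u) :
    δ x ∈ chart O u := by
  obtain ⟨P, hP, hPx⟩ := hx
  refine ⟨P.map (mapRingHom (d : O →+* O)), hP.map _, ?_⟩
  have h1 : ((aeval u : O[X] →ₐ[O] F) : O[X] →+* F).comp (mapRingHom (d : O →+* O)) =
      (δ : F →+* F).comp ((aeval u : O[X] →ₐ[O] F) : O[X] →+* F) := by
    ext a
    · simp [hA.δO]
    · simp [hu]
  have h2 : δ x = (δ : F →+* F) x := rfl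
  rw [eval₂_map, h1, h2, ← hom_eval₂, hPx, map_zero]

theorem LAct.mem₁ (hA : LAct h d δ) {x : F} (hx : x ∈ h.P₁) :
    ∃ h' : δ x ∈ h.P₁, gρ θ h.hgK ⟨δ x, h'⟩ = coeffMap (dbar d) (gρ θ h.hgK ⟨x, hx⟩) := by
  have h1 : θ (δ x) ∈ gV O L := by
    rw [hA.θδ]
    exact coeffMap_mem_gV d hx
  refine ⟨h1, ?_⟩
  have h2 : (⟨θ (δ x), h1⟩ : gV O L) = ⟨coeffMap (dL L d : L →+* L) (θ x), coeffMap_mem_gV d hx⟩ :=
    Subtype.ext (hA.θδ x)
  change gR (⟨θ (δ x), h1⟩ : gV O L) = _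
  rw [h2, gR_coeffMap]
  rfl

theorem LAct.nonunits₁ (hA : LAct h d δ) {x : F} (hx : x ∈ h.P₁.nonunits) :
    δ x ∈ h.P₁.nonunits := by
  have hx' : x ∈ h.P₁ := ValuationSubring.nonunits_subset hx
  obtain ⟨h1, h2⟩ := hA.mem₁ hx'
  refine mem_nonunits_of h1 ?_
  rw [h2, gρ_eq_zero_of hx' hx, map_zero]

theorem LAct.nonunits₂ (hA : LAct h d δ) {x : F} (hx : x ∈ h.P₂.nonunits) :
    δ x ∈ h.P₂.nonunits := by
  rw [h.mem_P₂_nonunits] at hx ⊢
  rw [hA.wδ]
  exact hA.nonunits₁ hx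

theorem dL_symm (d : O ≃+* O) (x : L) : dL L d.symm (dL L d x) = x := by
  obtain ⟨a, b, hb, rfl⟩ := IsFractionRing.div_surjective (A := O) x
  simp

theorem LAct.symm (hA : LAct h d δ) : LAct h d.symm δ.symm where
  θδ x := by
    obtain ⟨y, rfl⟩ := δ.surjective x
    rw [RingEquiv.symm_apply_apply, hA.θδ]
    ext n
    rw [coeffMap_coeff, coeffMap_coeff]
    exact (dL_symm d _).symm
  wδ x := by
    rw [eq_comm, RingEquiv.symm_apply_eq, ← hA.wδ, RingEquiv.apply_symm_apply]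
  δt := by
    rw [RingEquiv.symm_apply_eq, hA.δt]

variable [FiniteDimensional K F] [Algebra.IsSeparable K F] [FiniteDimensional K₁ M]
  [Algebra.IsSeparable K₁ M] [CharZero O]

theorem LData.chart_mem₁ (h : LData M q t z T θ w) (hz : IsParam O z) (hπ : Prime π) {x : F}
    (hx : x ∈ chart O (algebraMap K F z)) : x ∈ h.P₁ :=
  mem_of_intOver (h.over₁ hz hπ).1 (intOver_of_mem_chart hz hπ hx)

theorem LData.chart_mem₂ (h : LData M q t z T θ w) (hz : IsParam O z) (hπ : Prime π) {x : F}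
    (hx : x ∈ chart O (algebraMap K F z)) : x ∈ h.P₂ :=
  mem_of_intOver (h.over₂ hz hπ).1 (intOver_of_mem_chart hz hπ hx)

/-- the ideal of the crossing points -/
def LData.J (h : LData M q t z T θ w) (hz : IsParam O z) (hπ : Prime π) :
    Ideal (chart O (algebraMap K F z)) where
  carrier := {x | ∃ b₁ ∈ chart O (algebraMap K F z), ∃ b₂ ∈ chart O (algebraMap K F z),
    b₁ ∈ h.P₁.nonunits ∧ b₂ ∈ h.P₂.nonunits ∧ (x : F) = b₁ + b₂}
  add_mem' := by
    rintro x y ⟨b₁, hb₁, b₂, hb₂, h1, h2, hx⟩ ⟨c₁, hc₁, c₂, hc₂, h3, h4, hy⟩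
    refine ⟨b₁ + c₁, add_mem hb₁ hc₁, b₂ + c₂, add_mem hb₂ hc₂, add_mem h1 h3, add_mem h2 h4, ?_⟩
    change (x : F) + y = _
    rw [hx, hy]
    ring
  zero_mem' := ⟨0, zero_mem _, 0, zero_mem _, zero_mem_nonunits _, zero_mem_nonunits _, by
    rw [add_zero]; rfl⟩
  smul_mem' := by
    rintro c x ⟨b₁, hb₁, b₂, hb₂, h1, h2, hx⟩
    refine ⟨c * b₁, mul_mem c.2 hb₁, c * b₂, mul_mem c.2 hb₂,
      mul_mem_nonunits (h.chart_mem₁ hz hπ c.2) h1, mul_mem_nonunits (h.chart_mem₂ hz hπ c.2) h2, ?_⟩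
    change (c : F) * x = _
    rw [hx]
    ring

theorem LData.mem_J {h : LData M q t z T θ w} {hz : IsParam O z} {hπ : Prime π}
    {x : chart O (algebraMap K F z)} : x ∈ h.J hz hπ ↔
    ∃ b₁ ∈ chart O (algebraMap K F z), ∃ b₂ ∈ chart O (algebraMap K F z),
    b₁ ∈ h.P₁.nonunits ∧ b₂ ∈ h.P₂.nonunits ∧ (x : F) = b₁ + b₂ := Iff.rfl

theorem LData.mem_J₁ {h : LData M q t z T θ w} {hz : IsParam O z} {hπ : Prime π}
    {x : chart O (algebraMap K F z)} (hx : (x : F) ∈ h.P₁.nonunits) : x ∈ h.J hz hπ :=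
  ⟨x, x.2, 0, zero_mem _, hx, zero_mem_nonunits _, (add_zero _).symm⟩

theorem LData.mem_J₂ {h : LData M q t z T θ w} {hz : IsParam O z} {hπ : Prime π}
    {x : chart O (algebraMap K F z)} (hx : (x : F) ∈ h.P₂.nonunits) : x ∈ h.J hz hπ :=
  ⟨0, zero_mem _, x, x.2, zero_mem_nonunits _, hx, (zero_add _).symm⟩

/-- the action on the chart -/
def LAct.onChart (hA : LAct h d δ) : chart O (algebraMap K F z) →+* chart O (algebraMap K F z) :=
  ((δ : F →+* F).comp (chart O (algebraMap K F z)).toSubring.subtype).codRestrict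
    (chart O (algebraMap K F z)).toSubring fun x => hA.mem_chart hA.δz x.2

theorem LAct.coe_onChart (hA : LAct h d δ) (x : chart O (algebraMap K F z)) :
    ((hA.onChart x : chart O (algebraMap K F z)) : F) = δ x := rfl

theorem LAct.onChart_mem (hA : LAct h d δ) {hz : IsParam O z} {hπ : Prime π}
    {x : chart O (algebraMap K F z)} (hx : x ∈ h.J hz hπ) : hA.onChart x ∈ h.J hz hπ := by
  obtain ⟨b₁, hb₁, b₂, hb₂, h1, h2, hx⟩ := hx
  refine ⟨δ b₁, hA.mem_chart hA.δz hb₁, δ b₂, hA.mem_chart hA.δz hb₂, hA.nonunits₁ h1,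
    hA.nonunits₂ h2, ?_⟩
  rw [hA.coe_onChart, hx, map_add]

theorem LAct.onChart_mem_iff (hA : LAct h d δ) {hz : IsParam O z} {hπ : Prime π}
    {x : chart O (algebraMap K F z)} : hA.onChart x ∈ h.J hz hπ ↔ x ∈ h.J hz hπ := by
  refine ⟨fun hx => ?_, hA.onChart_mem⟩
  have h1 := hA.symm.onChart_mem hx
  have h2 : hA.symm.onChart (hA.onChart x) = x := Subtype.ext (δ.symm_apply_apply x)
  rwa [h2] at h1

variable {ht : IsParam O t} {hz : IsParam O z} {hπ : Prime π}

/-- Frobenius and `w`. -/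
theorem LAct.frob (hA : LAct h d δ) [ExpChar (ResidueField O) q]
    (hd : ∀ a, dbar d a = a ^ q) {f : M} (hf : algebraMap M F f ∈ h.P₁) :
    w (δ (algebraMap M F f)) - algebraMap M F f ^ q ∈ h.P₁.nonunits := by
  have h1 : θ (w (algebraMap M F f)) ∈ gV O L := by
    rw [h.θw]
    exact qExpand_mem_gV q hf
  obtain ⟨h2, h3⟩ := hA.mem₁ (x := w (algebraMap M F f)) h1
  rw [hA.wδ]
  refine sub_mem_nonunits_of h2 (pow_mem hf q) ?_
  have h4 : gρ θ h.hgK ⟨w (algebraMap M F f), h1⟩ =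
      qExpand _ q (gρ θ h.hgK ⟨algebraMap M F f, hf⟩) := by
    change gR (⟨θ (w (algebraMap M F f)), h1⟩ : gV O L) = _
    have h5 : (⟨θ (w (algebraMap M F f)), h1⟩ : gV O L) = ⟨qExpand L q (θ (algebraMap M F f)),
        qExpand_mem_gV q hf⟩ := Subtype.ext (h.θw f)
    rw [h5]
    exact gR_qExpand q hf
  have h6 : (⟨algebraMap M F f ^ q, pow_mem hf q⟩ : gW θ h.hgK) = ⟨algebraMap M F f, hf⟩ ^ q := rfl
  have h7 : dbar d = frobenius (ResidueField O) q := RingHom.ext fun a => hd a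
  rw [h3, h4, h6, map_pow, pow_eq_qExpand, h7]
  ext n
  by_cases hn : (q : ℤ) ∣ n
  · obtain ⟨m, rfl⟩ := hn
    rw [coeffMap_coeff, qExpand_coeff_mul, qExpand_coeff_mul, coeffMap_coeff]
  · rw [coeffMap_coeff, qExpand_coeff_of_not_dvd q _ hn, qExpand_coeff_of_not_dvd q _ hn, map_zero]

/-- The square of Frobenius, modulo the crossing points. -/
theorem LAct.frob_sq (hA : LAct h d δ) (hg : LGood h ht hz hπ) [ExpChar (ResidueField O) q]
    (hd : ∀ a, dbar d a = a ^ q) (b : chart O (algebraMap K F z)) :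
    hA.onChart (hA.onChart b) - b ^ (q * q) ∈ h.J hz hπ := by
  obtain ⟨f₀, hf₀, hbf⟩ := h.exists_chartM_of_chart hg b.2
  have hf₀F := h.memF hg hf₀
  set f : chart O (algebraMap K F z) := ⟨algebraMap M F f₀, hf₀F⟩ with hf
  have hf1 : algebraMap M F f₀ ∈ h.P₁ := h.chart_mem₁ hz hπ hf₀F
  have e1 : b - f ∈ h.J hz hπ := LData.mem_J₁ hbf
  set g : chart O (algebraMap K F z) := ⟨w (δ (algebraMap M F f₀)),
    h.w_mem_chart h.wz (hA.mem_chart hA.δz hf₀F)⟩ with hg'
  have e2 : g - f ^ q ∈ h.J hz hπ := LData.mem_J₁ (hA.frob hd hf1)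
  have e3 : hA.onChart (hA.onChart f) - g ^ q ∈ h.J hz hπ := by
    apply LData.mem_J₂
    change δ (δ (algebraMap M F f₀)) - w (δ (algebraMap M F f₀)) ^ q ∈ h.P₂.nonunits
    rw [h.mem_P₂_nonunits, map_sub, map_pow, h.ww, hA.wδ, hA.wδ, ← map_pow, ← map_sub]
    apply hA.nonunits₁
    have := hA.frob hd hf1
    rwa [hA.wδ] at this
  rw [← Ideal.Quotient.eq_zero_iff_mem, map_sub, sub_eq_zero] at e1 e2 e3 ⊢
  have e4 : Ideal.Quotient.mk (h.J hz hπ) (hA.onChart (hA.onChart b)) =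
      Ideal.Quotient.mk (h.J hz hπ) (hA.onChart (hA.onChart f)) := by
    rw [Ideal.Quotient.eq, ← map_sub, ← map_sub]
    apply hA.onChart_mem
    apply hA.onChart_mem
    rwa [← Ideal.Quotient.eq]
  rw [e4, e3, map_pow, e2, map_pow, map_pow, e1, ← pow_mul]

theorem LAct.frob_iter (hA : LAct h d δ) (hg : LGood h ht hz hπ) [ExpChar (ResidueField O) q]
    (hd : ∀ a, dbar d a = a ^ q) (b : chart O (algebraMap K F z)) (r : ℕ) :
    (hA.onChart^[2 * r]) b - b ^ ((q * q) ^ r) ∈ h.J hz hπ := by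
  induction r with
  | zero => simp
  | succ r ih =>
    have h1 : (hA.onChart^[2 * (r + 1)]) b =
        hA.onChart (hA.onChart ((hA.onChart^[2 * r]) b)) := by
      rw [show 2 * (r + 1) = 2 * r + 1 + 1 by ring, Function.iterate_succ_apply',
        Function.iterate_succ_apply']
    have h2 := hA.frob_sq hg hd ((hA.onChart^[2 * r]) b)
    rw [← Ideal.Quotient.eq_zero_iff_mem, map_sub, sub_eq_zero] at h2 ih ⊢
    rw [h1, h2, map_pow, ih, ← map_pow, ← pow_mul, pow_succ]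

/-- The intersection of the two components is reduced. -/
theorem LAct.rad (hA : LAct h d δ) (hg : LGood h ht hz hπ) [ExpChar (ResidueField O) q]
    (hd : ∀ a, dbar d a = a ^ q) (b : chart O (algebraMap K F z)) (n : ℕ)
    (hb : b ^ n ∈ h.J hz hπ) : b ∈ h.J hz hπ := by
  obtain ⟨r, hr⟩ : ∃ r : ℕ, n ≤ (q * q) ^ r := by
    have hq := h.q2
    refine ⟨n, (Nat.lt_pow_self ?_).le⟩
    nlinarith
  have h1 := hA.frob_iter hg hd b r
  have h2 : b ^ ((q * q) ^ r) ∈ h.J hz hπ := by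
    rw [← Nat.sub_add_cancel hr, pow_add]
    exact Ideal.mul_mem_left _ _ hb
  have h3 : (hA.onChart^[2 * r]) b ∈ h.J hz hπ := by
    have := add_mem h1 h2
    rwa [sub_add_cancel] at this
  have h4 : ∀ (m : ℕ) (x : chart O (algebraMap K F z)), (hA.onChart^[m]) x ∈ h.J hz hπ →
      x ∈ h.J hz hπ := by
    intro m
    induction m with
    | zero => intro x hx; exact hx
    | succ m ih =>
      intro x hx
      rw [Function.iterate_succ_apply] at hx
      exact hA.onChart_mem_iff.mp (ih _ hx)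
  exact h4 _ _ h3

/-- Inertia acts trivially on the crossing points. -/
theorem LAct.inert (hA : LAct h d δ) (hg : LGood h ht hz hπ)
    (hd : ∀ a, dbar d a = a) (b : chart O (algebraMap K F z)) :
    hA.onChart b - b ∈ h.J hz hπ := by
  obtain ⟨f₀, hf₀, hbf⟩ := h.exists_chartM_of_chart hg b.2
  have hf₀F := h.memF hg hf₀
  have hf1 : algebraMap M F f₀ ∈ h.P₁ := h.chart_mem₁ hz hπ hf₀F
  apply LData.mem_J₁
  have h1 := hA.nonunits₁ hbf
  obtain ⟨h2, h3⟩ := hA.mem₁ hf1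
  have h4 : δ (algebraMap M F f₀) - algebraMap M F f₀ ∈ h.P₁.nonunits := by
    refine sub_mem_nonunits_of h2 hf1 ?_
    rw [h3]
    ext n
    rw [coeffMap_coeff, hd]
  have h5 : (hA.onChart b - b : chart O (algebraMap K F z)) = δ (b - algebraMap M F f₀) +
      (δ (algebraMap M F f₀) - algebraMap M F f₀) - (b - algebraMap M F f₀) := by
    change δ b - b = _
    rw [map_sub]
    ring
  rw [h5]
  exact sub_mem (add_mem h1 h4) hbf

end Data

end Fermat.Agent.LG
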