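import Mathlib
import Fermat.Agent.LG.LevelQ3

/-!
The curve of level `qM` near infinity.
-/

set_option autoImplicit false
set_option linter.unusedSectionVars false

open IsLocalRing Polynomial Fermat.Agent.Geo ModularCurve

noncomputable section

universe u

namespace Fermat.Agent.LG

/-- The local statement at the point at infinity of the special fibre. -/
theorem goodRed_inf {O F E : Type u} [CommRing O] [IsDomain O] [IsDiscreteValuationRing O]
    [Field F] [Field E] [Algebra O F] [Algebra O E] [Algebra F E] [IsScalarTower O F E]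
    {t : F} {π : O} [FiniteDimensional F E] [Algebra.IsSeparable F E] [CharZero O]
    {ht : IsParam O t} (ht' : IsParam O t⁻¹) {hπ : Prime π} {S : Set O}
    (hE : GoodRed ht hπ S E) {x : E} (hx : RedIntP ht' hπ x) :
    ∃ c : O[X], IsUnit (c.coeff 0) ∧ ∃ b ∈ chart O (algebraMap F E t)⁻¹, ∃ w : E,
      IntOver (gaussVal ht hπ).toSubring w ∧
      aeval (algebraMap F E t)⁻¹ c * x = b + π • w := by
  have ht0 : algebraMap F E t ≠ 0 := by
    rw [Ne, map_eq_zero]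
    exact ht.ne_zero
  have hinv : algebraMap F E t⁻¹ = (algebraMap F E t)⁻¹ := map_inv₀ _ _
  have hgg : gaussVal ht' hπ = gaussVal ht hπ := gaussVal_inv ht ht' hπ
  set y : Ideal O[X] := Ideal.span {C π, X} with hys
  have hy1 : ∀ p : O[X], p ∈ y ↔ ¬ IsUnit (p.coeff 0) := by
    intro p
    rw [hys, Ideal.mem_span_pair]
    constructor
    · rintro ⟨a, b, hab⟩ hu
      have h1 : p.coeff 0 = a.coeff 0 * π := by
        rw [← hab, coeff_add, coeff_mul_C, mul_coeff_zero, coeff_X_zero, mul_zero, add_zero]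
      rw [h1] at hu
      exact hπ.not_isUnit (isUnit_of_mul_isUnit_right hu)
    · intro hu
      have h1 : p.coeff 0 ∈ maximalIdeal O := hu
      rw [hπ.irreducible.maximalIdeal_eq, Ideal.mem_span_singleton] at h1
      obtain ⟨a, ha⟩ := h1
      refine ⟨C a, p.divX, ?_⟩
      conv_rhs => rw [← divX_mul_X_add p]
      rw [ha, map_mul]
      ring
  have hyp : y.IsPrime := by
    rw [Ideal.isPrime_iff]
    constructor
    · intro h
      have : (1 : O[X]) ∈ y := by rw [h]; trivial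
      rw [hy1, coeff_one_zero] at this
      exact this isUnit_one
    · intro a b hab
      by_contra hcon
      rw [not_or, hy1, hy1, not_not, not_not] at hcon
      rw [hy1, mul_coeff_zero] at hab
      exact hab (hcon.1.mul hcon.2)
  have hXy : (X : O[X]) ∈ y := by
    rw [hy1, coeff_X_zero]
    exact not_isUnit_zero
  have hunr : ∀ p : O[X], ∀ hp : Prime p, p ∈ y → ¬ p ∣ X → Unr (placeVal ht' hp).toSubring E := by
    intro p hp hpy hpX
    by_cases hpπ : C π ∣ p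
    · have hass : Associated (C π) p :=
        (prime_C_iff.mpr hπ).associated_of_dvd hp hpπ
      rw [← placeVal_congr ht' (prime_C_iff.mpr hπ) hp hass]
      change Unr (gaussVal ht' hπ).toSubring E
      rw [hgg]
      exact hE.gauss
    · have hp0 : p.coeff 0 ≠ 0 := by
        intro h0
        have h1 : (X : O[X]) ∣ p := X_dvd_iff.mpr h0
        exact hpX ((prime_X.associated_of_dvd hp h1).symm.dvd)
      have hq := prime_reflect hp hp0
      have hdeg := natDegree_reflect_natDegree hp0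
      have hpl : placeVal ht hq = placeVal ht' hp :=
        placeVal_inv ht ht' hq hp (by rw [hdeg, reflect_reflect']) hdeg.symm
      rw [← hpl]
      apply hE.place _ hq
      · rw [C_dvd_reflect_iff le_rfl]
        exact hpπ
      · intro c hc hqc
        have h1 : p ∣ reflect 1 (X - C c) := by
          apply dvd_of_dvd_reflect rfl hdeg
            (natDegree_reflect_le' (by rw [natDegree_X_sub_C]))
          rwa [reflect_reflect']
        have h2 : reflect 1 (X - C c) = 1 - C c * X := by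
          rw [reflect_sub, reflect_C, pow_one]
          have := reflect_monomial (R := O) 1 1
          rw [pow_one] at this
          rw [this, revAt_le le_rfl, Nat.sub_self, pow_zero]
        rw [h2] at h1
        have h3 : (1 : O[X]) ∈ y := by
          have : (1 : O[X]) = (1 - C c * X) + C c * X := by ring
          rw [this]
          exact add_mem (y.mem_of_dvd h1 hpy) (Ideal.mul_mem_left _ _ hXy)
        exact (Ideal.ne_top_iff_one _).mp hyp.ne_top h3
  obtain ⟨c, hcy, b, hb, w, hw, h⟩ := exists_aeval_mul_eq ht' hπ prime_X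
    (fun n hn => not_monic_dvd_natCast monic_X prime_X hn) (not_C_dvd_monic monic_X hπ)
    y hys hunr hx
  rw [hy1, not_not] at hcy
  refine ⟨c, hcy, b, by rwa [hinv] at hb, w, by rwa [hgg] at hw, ?_⟩
  rwa [hinv] at h

section Data

variable {O L K₁ M K F : Type u} [CommRing O] [IsDomain O] [IsDiscreteValuationRing O]
  [Field L] [Algebra O L] [IsFractionRing O L] [Field K₁] [Field M] [Field K] [Field F]
  [Algebra O K₁] [Algebra O M] [Algebra O K] [Algebra O F] [Algebra K₁ M] [Algebra M F]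
  [Algebra K F] {q : ℕ} [NeZero q] {t : K₁} {z : K} {T : LaurentSeries O}
  {θ : F →+* LaurentSeries L} {w : F ≃+* F} {π : O}
  [IsScalarTower O K F] [IsScalarTower O K₁ M] [IsScalarTower O M F]

theorem LData.inv_mem_of_gρ (h : LData M q t z T θ w) {x : F} (hx : x ∈ h.P₁)
    (hx0 : gρ θ h.hgK ⟨x, hx⟩ ≠ 0) : ∃ hi : x⁻¹ ∈ h.P₁, gρ θ h.hgK ⟨x⁻¹, hi⟩ =
      (gρ θ h.hgK ⟨x, hx⟩)⁻¹ := by
  have h1 : x ∉ h.P₁.nonunits := fun hn => hx0 (gρ_eq_zero_of hx hn)
  have hi : x⁻¹ ∈ h.P₁ := inv_mem_of_notMem_nonunits h1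
  have hxne : x ≠ 0 := by
    rintro rfl
    exact h1 (zero_mem_nonunits _)
  refine ⟨hi, ?_⟩
  have h2 : (⟨x⁻¹, hi⟩ : gW θ h.hgK) * ⟨x, hx⟩ = 1 := Subtype.ext (inv_mul_cancel₀ hxne)
  have h3 := congrArg (gρ θ h.hgK) h2
  rw [map_mul, map_one] at h3
  exact eq_inv_of_mul_eq_one_left h3

theorem LData.tinv_mem₁ (h : LData M q t z T θ w) :
    ∃ hi : (algebraMap M F (algebraMap K₁ M t))⁻¹ ∈ h.P₁, gρ θ h.hgK ⟨_, hi⟩ = (toK O T)⁻¹ := by
  obtain ⟨h1, h2⟩ := h.inv_mem_of_gρ h.t_mem₁ (by rw [h.gρ_t]; exact h.toK_T_ne)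
  exact ⟨h1, by rw [h2, h.gρ_t]⟩

theorem LData.one_add_ne (h : LData M q t z T θ w) : 1 + (toK O T)⁻¹ ^ (q - 1) ≠ 0 := by
  intro h0
  have hq := h.q2
  have h1 : toK O T ^ (q - 1) = -1 := by
    have h2 := h.toK_T_ne
    rw [inv_pow] at h0
    field_simp at h0
    linear_combination h0
  have h3 := h.trans (X ^ (q - 1) + C 1) (by
    rw [eval₂_add, eval₂_X_pow, eval₂_C, h1, map_one, neg_add_cancel])
  have h4 := congrArg (fun p => p.coeff (q - 1)) h3
  simp only [coeff_add, coeff_X_pow_self, coeff_C, coeff_zero] at h4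
  rw [if_neg (by omega), add_zero] at h4
  exact one_ne_zero h4

theorem LData.z_ne (h : LData M q t z T θ w) : toK O T + toK O T ^ q ≠ 0 := by
  have hq := h.q2
  have h1 : toK O T + toK O T ^ q = toK O T ^ q * (1 + (toK O T)⁻¹ ^ (q - 1)) := by
    have h2 := h.toK_T_ne
    have h3 : toK O T ^ q = toK O T * toK O T ^ (q - 1) := by
      rw [← pow_succ']
      congr 1
      omega
    have h4 : toK O T ^ q * (toK O T)⁻¹ ^ (q - 1) = toK O T := by
      rw [h3, mul_assoc, ← mul_pow, mul_inv_cancel₀ h2, one_pow, mul_one]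
    rw [mul_add, mul_one, h4, add_comm]
  rw [h1]
  exact mul_ne_zero (pow_ne_zero _ h.toK_T_ne) h.one_add_ne

theorem LData.zinv_mem₁ (h : LData M q t z T θ w) :
    ∃ hi : (algebraMap K F z)⁻¹ ∈ h.P₁, gρ θ h.hgK ⟨_, hi⟩ = (toK O T + toK O T ^ q)⁻¹ := by
  obtain ⟨h1, h2⟩ := h.inv_mem_of_gρ h.z_mem₁ (by rw [h.gρ_z]; exact h.z_ne)
  exact ⟨h1, by rw [h2, h.gρ_z]⟩

theorem LData.transzinv (h : LData M q t z T θ w) (hz : IsParam O z) (P : O[X])
    (hP : aeval (algebraMap K F z)⁻¹ P = 0) : P = 0 := by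
  apply hz.inv.inj
  rw [map_zero]
  apply (algebraMap K F).injective
  rw [map_zero, ← aeval_algebraMap_apply, map_inv₀]
  exact hP

variable [FiniteDimensional K F] [Algebra.IsSeparable K F] [FiniteDimensional K₁ M]
  [Algebra.IsSeparable K₁ M] [CharZero O]
variable {ht : IsParam O t} {hz : IsParam O z} {hπ : Prime π}

theorem LData.chartL_mem₁ (h : LData M q t z T θ w) (hz : IsParam O z) (hπ : Prime π) {x : F}
    (hx : x ∈ chartL O (algebraMap K F z)⁻¹) : x ∈ h.P₁ := by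
  obtain ⟨s, hs, hx⟩ := hx
  have hgg : gaussVal hz.inv hπ = gaussVal hz hπ := gaussVal_inv hz hz.inv hπ
  have h1 : aeval (algebraMap K F z)⁻¹ s * x ∈ h.P₁ := by
    have h2 := intOver_of_mem_chart (E := F) hz.inv hπ (by rw [map_inv₀]; exact hx)
    rw [hgg] at h2
    exact mem_of_intOver (h.over₁ hz hπ).1 h2
  have hs0 : s ≠ 0 := by
    rintro rfl
    rw [coeff_zero] at hs
    exact not_isUnit_zero hs
  have hsn : aeval (algebraMap K F z)⁻¹ s ≠ 0 := fun h0 => hs0 (h.transzinv hz s h0)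
  have h2 : (aeval (algebraMap K F z)⁻¹ s)⁻¹ ∈ h.P₁ := by
    have h3 : (aeval z⁻¹ s)⁻¹ ∈ gaussVal hz.inv hπ := by
      refine (mem_placeVal_iff hz.inv _).mpr ⟨s, 1, ?_, ?_⟩
      · rw [C_dvd_iff_dvd_coeff]
        intro hdvd
        exact hπ.not_isUnit (isUnit_of_dvd_unit (hdvd 0) hs)
      · rw [map_one, mul_inv_cancel₀]
        intro h0
        exact hs0 (hz.inv.inj (by rw [h0, map_zero]))
    rw [hgg] at h3
    have h4 := (h.over₁ hz hπ).1 _ h3
    rwa [map_inv₀, ← aeval_algebraMap_apply, map_inv₀] at h4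
  have h3 := mul_mem h2 h1
  rwa [← mul_assoc, inv_mul_cancel₀ hsn, one_mul] at h3

theorem LData.wzinv (h : LData M q t z T θ w) :
    w (algebraMap K F z)⁻¹ = (algebraMap K F z)⁻¹ := by
  rw [map_inv₀, h.wz]

theorem LData.w_aeval (h : LData M q t z T θ w) {u : F} (P : O[X]) :
    w (aeval u P) = aeval (w u) P := by
  rw [aeval_def, aeval_def]
  change (w : F →+* F) _ = _
  rw [hom_eval₂]
  congr 1
  ext a
  exact h.wC a

theorem LData.w_mem_chartL (h : LData M q t z T θ w) {x : F}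
    (hx : x ∈ chartL O (algebraMap K F z)⁻¹) : w x ∈ chartL O (algebraMap K F z)⁻¹ := by
  obtain ⟨s, hs, hx⟩ := hx
  refine ⟨s, hs, ?_⟩
  have h1 := h.w_mem_chart h.wzinv hx
  rwa [map_mul, h.w_aeval, h.wzinv] at h1

theorem LData.chartL_mem₂ (h : LData M q t z T θ w) (hz : IsParam O z) (hπ : Prime π) {x : F}
    (hx : x ∈ chartL O (algebraMap K F z)⁻¹) : x ∈ h.P₂ :=
  h.mem_P₂.mpr (h.chartL_mem₁ hz hπ (h.w_mem_chartL hx))

theorem eval₂_int_eq {R : Type*} [CommRing R] [Algebra O R] (u : R) (a : ℤ[X]) :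
    (eval₂RingHom (Int.castRingHom R) u) a = aeval u (a.map (Int.castRingHom O)) := by
  rw [aeval_def, eval₂_map, coe_eval₂RingHom]
  congr 1
  exact RingHom.ext_int _ _

/-- `t⁻¹` is in the localised chart, and nilpotent modulo `z⁻¹`. -/
theorem LData.tinv_mem_chartL (h : LData M q t z T θ w) (hg : LGood h ht hz hπ) :
    (algebraMap M F (algebraMap K₁ M t))⁻¹ ∈ chartL O (algebraMap K F z)⁻¹ ∧
    ∃ g ∈ chartL O (algebraMap K F z)⁻¹, (algebraMap M F (algebraMap K₁ M t))⁻¹ ^ (2 * q) =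
      (algebraMap K F z)⁻¹ * g := by
  obtain ⟨c, hc, hrel⟩ := hg.rel
  obtain ⟨Q, hQd, hQ0, hQe⟩ := hc.exists_inv
  set y := algebraMap M F (algebraMap K₁ M t) with hy
  set u := (algebraMap K F z)⁻¹ with hu
  have hy0 : y ≠ 0 := by
    intro h0
    have h1 := h.θt
    rw [← hy, h0, map_zero] at h1
    have h2 : toK O T = 0 := by
      rw [toL_injective O L (by rw [← h1, map_zero] : toL O L T = toL O L 0), map_zero]
    exact h.toK_T_ne h2
  have hzy : w y + y = algebraMap K F z := by rw [h.zz, add_comm]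
  have hz0 : algebraMap K F z ≠ 0 := by
    rw [Ne, map_eq_zero]
    exact hz.ne_zero
  have h1 := hQe (w y) y hy0 (by rw [hzy]; exact hz0) hrel
  rw [hzy] at h1
  have hcoef : ∀ i, (Q.coeff i).coeff 0 = if i = 2 * q then 1 else 0 := by
    intro i
    have h2 := congrArg (fun P => P.coeff i) hQ0
    simp only [coeff_map, coeff_X_pow, coe_evalRingHom] at h2
    rw [coeff_zero_eq_eval_zero, h2]
  have hlead : IsUnit (((Q.coeff (2 * q)).map (Int.castRingHom O)).coeff 0) := by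
    rw [coeff_map, hcoef, if_pos rfl, map_one]
    exact isUnit_one
  have hQne : Q.coeff (2 * q) ≠ 0 := by
    intro h0
    have := hcoef (2 * q)
    rw [h0, coeff_zero, if_pos rfl] at this
    exact zero_ne_one this
  have hnd : Q.natDegree = 2 * q := le_antisymm hQd (le_natDegree_of_ne_zero hQne)
  have hφ : ∀ a : ℤ[X], (eval₂RingHom (Int.castRingHom F) u) a ∈ chart O u := by
    intro a
    rw [eval₂_int_eq (O := O)]
    exact aeval_mem_chart _ _
  have hmem : y⁻¹ ∈ chartL O u := by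
    refine mem_chartL_of_mul hlead (chart_le_chartL ?_)
    rw [← eval₂_int_eq (O := O)]
    have h2 := RingHom.isIntegralElem_leadingCoeff_mul
      (eval₂RingHom (Int.castRingHom F) u) Q y⁻¹ h1
    obtain ⟨p, hp, hpx⟩ := h2
    rw [leadingCoeff, hnd] at hpx
    exact mem_chart_of_eval₂ _ hφ p hp hpx
  refine ⟨hmem, ?_⟩
  -- the expression of the power
  have h3 : (eval₂RingHom (Int.castRingHom F) u) (Q.coeff (2 * q)) * y⁻¹ ^ (2 * q) =
      - ∑ i ∈ Finset.range (2 * q), (eval₂RingHom (Int.castRingHom F) u) (Q.coeff i) * y⁻¹ ^ i := by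
    rw [eval₂_eq_sum_range, hnd, Finset.sum_range_succ] at h1
    linear_combination h1
  have h4 : ∀ i ∈ Finset.range (2 * q), (eval₂RingHom (Int.castRingHom F) u) (Q.coeff i) =
      u * (eval₂RingHom (Int.castRingHom F) u) (Q.coeff i).divX := by
    intro i hi
    have hi' := Finset.mem_range.mp hi
    conv_lhs => rw [← divX_mul_X_add (Q.coeff i)]
    rw [hcoef, if_neg (by omega), map_zero, add_zero, map_mul]
    simp only [coe_eval₂RingHom, eval₂_X]
    ring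
  set a := (eval₂RingHom (Int.castRingHom F) u) (Q.coeff (2 * q)) with ha
  have hainv : a⁻¹ ∈ chartL O u := by
    by_cases ha0 : a = 0
    · rw [ha0, inv_zero]; exact zero_mem _
    refine mem_chartL_of_mul hlead ?_
    rw [← eval₂_int_eq (O := O), ← ha, mul_inv_cancel₀ ha0]
    exact one_mem _
  have ha0 : a ≠ 0 := by
    intro h0
    rw [ha, eval₂_int_eq (O := O)] at h0
    have h5 := h.transzinv hz _ h0
    rw [h5, coeff_zero] at hlead
    exact not_isUnit_zero hlead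
  refine ⟨a⁻¹ * (- ∑ i ∈ Finset.range (2 * q),
    (eval₂RingHom (Int.castRingHom F) u) (Q.coeff i).divX * y⁻¹ ^ i), ?_, ?_⟩
  · refine mul_mem hainv (neg_mem (sum_mem fun i _ => mul_mem (chart_le_chartL (hφ _))
      (pow_mem hmem _)))
  · have h5 : y⁻¹ ^ (2 * q) = a⁻¹ * (a * y⁻¹ ^ (2 * q)) := by
      rw [← mul_assoc, inv_mul_cancel₀ ha0, one_mul]
    rw [h5, h3, Finset.sum_congr rfl fun i hi => by rw [h4 i hi]]
    rw [mul_left_comm u, mul_neg u, Finset.mul_sum]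
    congr 2
    refine Finset.sum_congr rfl fun i _ => ?_
    ring

/-- `t_q / t ^ q` is in the localised chart -/
theorem LData.quot_mem_chartL (h : LData M q t z T θ w) (hg : LGood h ht hz hπ) :
    w (algebraMap M F (algebraMap K₁ M t)) / algebraMap M F (algebraMap K₁ M t) ^ q ∈
      chartL O (algebraMap K F z)⁻¹ := by
  obtain ⟨c, hc, hrel⟩ := hg.rel
  obtain ⟨R, hR, hRe⟩ := hc.exists_monic_quot
  set y := algebraMap M F (algebraMap K₁ M t) with hy
  have hy0 : y ≠ 0 := by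
    intro h0
    have h1 := h.θt
    rw [← hy, h0, map_zero] at h1
    have h2 : toK O T = 0 := by
      rw [toL_injective O L (by rw [← h1, map_zero] : toL O L T = toL O L 0), map_zero]
    exact h.toK_T_ne h2
  have h1 := hRe (w y) y hy0 hrel
  refine mem_chartL_of_eval₂ _ (fun a => ?_) R hR h1
  rw [eval₂_int_eq (O := O), aeval_eq_sum_range]
  refine sum_mem fun i _ => ?_
  rw [Algebra.smul_def]
  exact mul_mem (chart_le_chartL (Subalgebra.algebraMap_mem _ _))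
    (pow_mem (h.tinv_mem_chartL hg).1 _)

theorem LData.wt_mem₁ (h : LData M q t z T θ w) :
    ∃ hi : w (algebraMap M F (algebraMap K₁ M t)) ∈ h.P₁,
      gρ θ h.hgK ⟨_, hi⟩ = toK O T ^ q := by
  have h1 : θ (w (algebraMap M F (algebraMap K₁ M t))) = toL O L (qExpand O q T) := by
    rw [h.θw, h.θt, qExpand_toL]
  have h2 : w (algebraMap M F (algebraMap K₁ M t)) ∈ h.P₁ := by
    rw [h.mem_P₁, h1]
    exact toL_mem_gV _
  refine ⟨h2, ?_⟩
  refine (gρ_of_toL h1 h2).trans ?_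
  rw [← qExpand_toK, h.Tq]

/-- No crossing point at infinity. -/
theorem LData.rad_inf' (h : LData M q t z T θ w) (hg : LGood h ht hz hπ) :
    ∃ b ∈ chartL O (algebraMap K F z)⁻¹, b ∈ h.P₂.nonunits ∧ 1 - b ∈ h.P₁.nonunits := by
  have hq := h.q2
  set y := algebraMap M F (algebraMap K₁ M t) with hy
  set u := (algebraMap K F z)⁻¹ with hu
  have hy0 : y ≠ 0 := by
    intro h0
    have h1 := h.θt
    rw [← hy, h0, map_zero] at h1
    have h2 : toK O T = 0 := by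
      rw [toL_injective O L (by rw [← h1, map_zero] : toL O L T = toL O L 0), map_zero]
    exact h.toK_T_ne h2
  obtain ⟨hy1, g, hg1, hgy⟩ := h.tinv_mem_chartL hg
  have hU := h.quot_mem_chartL hg
  -- the inverse of `w t`
  have hw1 : w y⁻¹ ∈ chartL O u := h.w_mem_chartL hy1
  have hw2 : (w y⁻¹) ^ (2 * q) = u * w g := by
    rw [← map_pow, hgy, map_mul, h.wzinv]
  obtain ⟨s, hs⟩ : ∃ s : O[X], s = 1 - X ^ (q * q - 1) := ⟨_, rfl⟩
  have hqq : q * q - 1 ≠ 0 := by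
    have : 2 * 2 ≤ q * q := Nat.mul_le_mul hq hq
    omega
  have hs0 : IsUnit (s.coeff 0) := by
    rw [hs, coeff_sub, coeff_one_zero, coeff_X_pow, if_neg hqq.symm, sub_zero]
    exact isUnit_one
  obtain ⟨hne, hinv⟩ := inv_mem_chartL hw1 (h.w_mem_chartL hg1) hw2 (h.transzinv hz) hs0
  have hse : aeval (w y⁻¹) s = 1 - w y⁻¹ ^ (q * q - 1) := by
    rw [hs, map_sub, map_one, map_pow, aeval_X]
  rw [hse] at hne hinv
  have he : w y / y ^ q - w y⁻¹ ^ (q * q - 1) ∈ chartL O u := sub_mem hU (pow_mem hw1 _)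
  refine ⟨(w y / y ^ q - w y⁻¹ ^ (q * q - 1)) * (1 - w y⁻¹ ^ (q * q - 1))⁻¹, mul_mem he hinv, ?_, ?_⟩
  · rw [mul_comm]
    refine mul_mem_nonunits (h.chartL_mem₂ hz hπ hinv) ?_
    rw [h.mem_P₂_nonunits, map_sub, map_div₀, h.ww, map_pow, map_pow, h.ww]
    -- `t / t_q ^ q - t⁻¹ ^ (q ^ 2 - 1)`
    obtain ⟨h1, h2⟩ := h.wt_mem₁
    obtain ⟨h3, h4⟩ := h.inv_mem_of_gρ h1 (by rw [h2]; exact pow_ne_zero _ h.toK_T_ne)
    obtain ⟨h5, h6⟩ := h.tinv_mem₁
    have h7 : y / w y ^ q ∈ h.P₁ := by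
      rw [div_eq_mul_inv, ← inv_pow]
      exact mul_mem h.t_mem₁ (pow_mem h3 q)
    have h8 : y⁻¹ ^ (q * q - 1) ∈ h.P₁ := pow_mem h5 _
    refine sub_mem_nonunits_of h7 h8 ?_
    have h9 : (⟨y / w y ^ q, h7⟩ : gW θ h.hgK) = ⟨y, h.t_mem₁⟩ * ⟨(w y)⁻¹, h3⟩ ^ q := by
      apply Subtype.ext
      change y / w y ^ q = y * (w y)⁻¹ ^ q
      rw [div_eq_mul_inv, inv_pow]
    have h10 : (⟨y⁻¹ ^ (q * q - 1), h8⟩ : gW θ h.hgK) = ⟨y⁻¹, h5⟩ ^ (q * q - 1) := rfl
    rw [h9, h10, map_mul, map_pow, map_pow, h4, h6, h2]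
    have h11 := h.gρ_t
    rw [h11]
    have h12 : (toK O T)⁻¹ ^ (q * q) = (toK O T)⁻¹ * (toK O T)⁻¹ ^ (q * q - 1) := by
      rw [← pow_succ']
      congr 1
      omega
    rw [← inv_pow, ← pow_mul, h12, ← mul_assoc, mul_inv_cancel₀ h.toK_T_ne, one_mul]
  · have h1 : 1 - (w y / y ^ q - w y⁻¹ ^ (q * q - 1)) * (1 - w y⁻¹ ^ (q * q - 1))⁻¹ =
        (1 - w y⁻¹ ^ (q * q - 1))⁻¹ * (1 - w y / y ^ q) := by
      have hD := inv_mul_cancel₀ hne
      linear_combination -hD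
    rw [h1]
    refine mul_mem_nonunits (h.chartL_mem₁ hz hπ hinv) ?_
    obtain ⟨h1, h2⟩ := h.wt_mem₁
    obtain ⟨h5, h6⟩ := h.tinv_mem₁
    have h7 : w y / y ^ q ∈ h.P₁ := by
      rw [div_eq_mul_inv, ← inv_pow]
      exact mul_mem h1 (pow_mem h5 q)
    refine sub_mem_nonunits_of (one_mem _) h7 ?_
    have h9 : (⟨w y / y ^ q, h7⟩ : gW θ h.hgK) = ⟨w y, h1⟩ * ⟨y⁻¹, h5⟩ ^ q := by
      apply Subtype.ext
      change w y / y ^ q = w y * y⁻¹ ^ q
      rw [div_eq_mul_inv, inv_pow]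
    have h10 : (⟨1, one_mem _⟩ : gW θ h.hgK) = 1 := rfl
    rw [h9, h10, map_mul, map_pow, map_one, h2, h6, ← mul_pow, mul_inv_cancel₀ h.toK_T_ne, one_pow]

theorem LData.rad_inf (h : LData M q t z T θ w) (hg : LGood h ht hz hπ) :
    ∃ s : O[X], IsUnit (s.coeff 0) ∧ ∃ b₁ ∈ chart O (algebraMap K F z)⁻¹,
    ∃ b₂ ∈ chart O (algebraMap K F z)⁻¹, b₁ ∈ h.P₁.nonunits ∧ b₂ ∈ h.P₂.nonunits ∧
      b₁ + b₂ = aeval (algebraMap K F z)⁻¹ s := by
  obtain ⟨b, ⟨s, hs, hsb⟩, hb2, hb1⟩ := h.rad_inf' hg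
  have h1 : aeval (algebraMap K F z)⁻¹ s ∈ chartL O (algebraMap K F z)⁻¹ :=
    chart_le_chartL (aeval_mem_chart _ _)
  refine ⟨s, hs, aeval (algebraMap K F z)⁻¹ s * (1 - b), ?_, _, hsb, ?_, ?_, by ring⟩
  · rw [mul_sub, mul_one]
    exact sub_mem (aeval_mem_chart _ _) hsb
  · exact mul_mem_nonunits (h.chartL_mem₁ hz hπ h1) hb1
  · exact mul_mem_nonunits (h.chartL_mem₂ hz hπ h1) hb2

/-- clearing the denominators of a polynomial in `z⁻¹` -/
theorem exists_clear {k : Type u} [Field k] [Algebra O k] (q : ℕ) {u v : k}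
    (huv : u * (1 + v ^ (q - 1)) = v ^ q) (P : O[X]) :
    ∃ N : ℕ, ∀ n, N ≤ n → ∃ P' : O[X], (1 + v ^ (q - 1)) ^ n * aeval u P = aeval v P' := by
  induction P using Polynomial.induction_on' with
  | add P Q hP hQ =>
    obtain ⟨N, hN⟩ := hP
    obtain ⟨N', hN'⟩ := hQ
    refine ⟨max N N', fun n hn => ?_⟩
    obtain ⟨P', hP'⟩ := hN n (le_of_max_le_left hn)
    obtain ⟨Q', hQ'⟩ := hN' n (le_of_max_le_right hn)
    exact ⟨P' + Q', by rw [map_add, mul_add, hP', hQ', map_add]⟩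
  | monomial i a =>
    refine ⟨i, fun n hn => ⟨C a * (X ^ q) ^ i * (1 + X ^ (q - 1)) ^ (n - i), ?_⟩⟩
    rw [aeval_monomial, map_mul, map_mul, aeval_C, map_pow, map_pow, map_pow, aeval_X, map_add,
      map_one, map_pow, aeval_X, ← huv]
    have : (1 + v ^ (q - 1)) ^ n = (1 + v ^ (q - 1)) ^ i * (1 + v ^ (q - 1)) ^ (n - i) := by
      rw [← pow_add]; congr 1; omega
    rw [this, mul_pow]
    ring

theorem exists_clear_poly {k : Type u} [Field k] [Algebra O k] (q : ℕ) {u v : k}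
    (huv : u * (1 + v ^ (q - 1)) = v ^ q) (p : O[X][X]) (hp : p.Monic) :
    ∃ n : ℕ, ∃ p' : O[X][X], p'.Monic ∧ ∀ x : k,
      p'.eval₂ ((aeval v : O[X] →ₐ[O] k) : O[X] →+* k) ((1 + v ^ (q - 1)) ^ n * x) =
      ((1 + v ^ (q - 1)) ^ n) ^ p.natDegree *
        p.eval₂ ((aeval u : O[X] →ₐ[O] k) : O[X] →+* k) x := by
  choose N hN using fun i => exists_clear (k := k) q huv (p.coeff i)
  set n := ∑ i ∈ Finset.range (p.natDegree + 1), N i with hn
  have hle : ∀ i ∈ Finset.range (p.natDegree + 1), N i ≤ n := fun i hi =>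
    Finset.single_le_sum (f := N) (fun _ _ => Nat.zero_le _) hi
  have hex : ∀ i, ∃ P' : O[X], i < p.natDegree + 1 → (1 + v ^ (q - 1)) ^ n * aeval u (p.coeff i) =
      aeval v P' := by
    intro i
    by_cases hi : i < p.natDegree + 1
    · obtain ⟨P', hP'⟩ := hN i n (hle i (Finset.mem_range.mpr hi))
      exact ⟨P', fun _ => hP'⟩
    · exact ⟨0, fun h => absurd h hi⟩
  choose P' hP' using hex
  have hD : (1 + v ^ (q - 1)) ^ n = aeval v ((1 + X ^ (q - 1)) ^ n : O[X]) := by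
    rw [map_pow, map_add, map_one, map_pow, aeval_X]
  refine ⟨n, X ^ p.natDegree + ∑ i ∈ Finset.range p.natDegree,
    C (P' i * ((1 + X ^ (q - 1)) ^ n) ^ (p.natDegree - 1 - i)) * X ^ i, ?_, fun x => ?_⟩
  · refine monic_X_pow_add ?_
    rw [degree_lt_iff_coeff_zero]
    intro m hm
    rw [finsetSum_coeff]
    refine Finset.sum_eq_zero fun i hi => ?_
    rw [coeff_C_mul_X_pow, if_neg]
    have := Finset.mem_range.mp hi
    omega
  · rw [eval₂_add, eval₂_X_pow, eval₂_finsetSum, eval₂_eq_sum_range, Finset.sum_range_succ,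
      hp.coeff_natDegree, mul_add, Finset.mul_sum, map_one, one_mul, ← mul_pow, add_comm]
    congr 1
    refine Finset.sum_congr rfl fun i hi => ?_
    have hi' := Finset.mem_range.mp hi
    rw [eval₂_mul, eval₂_C, eval₂_X_pow]
    simp only [AlgHom.coe_toRingHom]
    rw [map_mul, ← hP' i (by omega), map_pow, ← hD]
    have e : ((1 + v ^ (q - 1)) ^ n) ^ p.natDegree =
        (1 + v ^ (q - 1)) ^ n * ((1 + v ^ (q - 1)) ^ n) ^ (p.natDegree - 1 - i) *
          ((1 + v ^ (q - 1)) ^ n) ^ i := by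
      rw [← pow_succ', ← pow_add]
      congr 1
      omega
    rw [e, mul_pow]
    ring

theorem LData.chartM_inv_mem_chartL (h : LData M q t z T θ w) (hg : LGood h ht hz hπ) {b : M}
    (hb : b ∈ chart O (algebraMap K₁ M t)⁻¹) :
    algebraMap M F b ∈ chartL O (algebraMap K F z)⁻¹ := by
  have h1 := algebraMap_mem_chart_M (F := F) hb
  rw [map_inv₀] at h1
  obtain ⟨p, hp, hpb⟩ := h1
  refine mem_chartL_of_eval₂ _ (fun a => ?_) p hp hpb
  change aeval _ a ∈ _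
  rw [aeval_eq_sum_range]
  refine sum_mem fun i _ => ?_
  rw [Algebra.smul_def]
  exact mul_mem (chart_le_chartL (Subalgebra.algebraMap_mem _ _))
    (pow_mem (h.tinv_mem_chartL hg).1 _)

theorem LData.exists_uM (h : LData M q t z T θ w) : ∃ u : M,
    u * (1 + (algebraMap K₁ M t)⁻¹ ^ (q - 1)) = (algebraMap K₁ M t)⁻¹ ^ q ∧
    algebraMap M F (1 + (algebraMap K₁ M t)⁻¹ ^ (q - 1)) ∈ h.P₁ ∧
    ∃ hu : algebraMap M F u ∈ h.P₁,
      gρ θ h.hgK ⟨algebraMap M F u, hu⟩ = (toK O T + toK O T ^ q)⁻¹ := by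
  obtain ⟨v, hv⟩ : ∃ v : M, v = (algebraMap K₁ M t)⁻¹ := ⟨_, rfl⟩
  rw [← hv]
  have hvF : algebraMap M F v = (algebraMap M F (algebraMap K₁ M t))⁻¹ := by rw [hv, map_inv₀]
  obtain ⟨hv1, hv2⟩ := h.tinv_mem₁
  have hv1' : algebraMap M F v ∈ h.P₁ := by rw [hvF]; exact hv1
  have hv2' : gρ θ h.hgK ⟨algebraMap M F v, hv1'⟩ = (toK O T)⁻¹ := by
    rw [← hv2]
    congr 1
    exact Subtype.ext hvF
  have hD1 : algebraMap M F (1 + v ^ (q - 1)) ∈ h.P₁ := by
    rw [map_add, map_one, map_pow]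
    exact add_mem (one_mem _) (pow_mem hv1' _)
  have hD2 : gρ θ h.hgK ⟨algebraMap M F (1 + v ^ (q - 1)), hD1⟩ = 1 + (toK O T)⁻¹ ^ (q - 1) := by
    have h3 : (⟨algebraMap M F (1 + v ^ (q - 1)), hD1⟩ : gW θ h.hgK) =
        1 + ⟨algebraMap M F v, hv1'⟩ ^ (q - 1) := by
      apply Subtype.ext
      change algebraMap M F (1 + v ^ (q - 1)) = 1 + algebraMap M F v ^ (q - 1)
      rw [map_add, map_one, map_pow]
    rw [h3, map_add, map_one, map_pow, hv2']
  obtain ⟨hDi, hDi2⟩ := h.inv_mem_of_gρ hD1 (by rw [hD2]; exact h.one_add_ne)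
  have hD0 : 1 + v ^ (q - 1) ≠ 0 := by
    intro h0
    have h3 : (⟨algebraMap M F (1 + v ^ (q - 1)), hD1⟩ : gW θ h.hgK) = 0 := by
      apply Subtype.ext
      change algebraMap M F (1 + v ^ (q - 1)) = 0
      rw [h0, map_zero]
    rw [h3, map_zero] at hD2
    exact h.one_add_ne hD2.symm
  obtain ⟨D, hD⟩ : ∃ D : M, D = 1 + v ^ (q - 1) := ⟨_, rfl⟩
  have huF : algebraMap M F (v ^ q * D⁻¹) = algebraMap M F v ^ q * (algebraMap M F D)⁻¹ := by
    rw [map_mul, map_pow, map_inv₀]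
  rw [← hD] at hD0 ⊢
  have hDi' : (algebraMap M F D)⁻¹ ∈ h.P₁ := by rw [hD]; exact hDi
  have hu1 : algebraMap M F (v ^ q * D⁻¹) ∈ h.P₁ := by
    rw [huF]
    exact mul_mem (pow_mem hv1' _) hDi'
  refine ⟨v ^ q * D⁻¹, ?_, by rw [hD]; exact hD1, hu1, ?_⟩
  · rw [mul_assoc, inv_mul_cancel₀ hD0, mul_one]
  have h3 : (⟨algebraMap M F (v ^ q * D⁻¹), hu1⟩ : gW θ h.hgK) =
      ⟨algebraMap M F v, hv1'⟩ ^ q * ⟨(algebraMap M F (1 + v ^ (q - 1)))⁻¹, hDi⟩ := by
    apply Subtype.ext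
    change algebraMap M F (v ^ q * D⁻¹) =
      algebraMap M F v ^ q * (algebraMap M F (1 + v ^ (q - 1)))⁻¹
    rw [huF, hD]
  rw [h3, map_mul, map_pow, hv2', hDi2, hD2, inv_pow, ← mul_inv]
  congr 1
  have hq := h.q2
  have h4 : toK O T ^ q * (toK O T)⁻¹ ^ (q - 1) = toK O T := by
    have h5 : toK O T ^ q = toK O T * toK O T ^ (q - 1) := by
      rw [← pow_succ']
      congr 1
      omega
    rw [h5, mul_assoc, ← mul_pow, mul_inv_cancel₀ h.toK_T_ne, one_pow, mul_one]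
  rw [mul_add, mul_one, h4, add_comm]

/-- the equation of `x` near infinity gives an equation over `O[t⁻¹]` modulo `π` -/
theorem LData.exists_redInt_inf (h : LData M q t z T θ w) (hz : IsParam O z) (ht : IsParam O t)
    (hπ : Prime π) {x : F} (hx : x ∈ h.P₁) (p : O[X][X]) (hp : p.Monic)
    (hpx : p.eval₂ ((aeval (algebraMap K F z)⁻¹ : O[X] →ₐ[O] F) : O[X] →+* F) x ∈
      h.P₁.nonunits) {x' : M} (hxx' : x - algebraMap M F x' ∈ h.P₁.nonunits)
    (hx' : algebraMap M F x' ∈ h.P₁) :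
    ∃ n : ℕ, RedIntP ht.inv hπ ((1 + (algebraMap K₁ M t)⁻¹ ^ (q - 1)) ^ n * x') := by
  have e1 : gρ θ h.hgK ⟨x, hx⟩ = gρ θ h.hgK ⟨algebraMap M F x', hx'⟩ :=
    (sub_mem_nonunits_iff hx hx').mp hxx'
  obtain ⟨uM, huv, hD1, hu1, hu2⟩ := h.exists_uM
  obtain ⟨hzi, hzi2⟩ := h.zinv_mem₁
  -- `x'` satisfies the equation at `uM`
  obtain ⟨h1, h2⟩ := gρ_eval₂ (hθ := h.hgK) h.θC hzi hx p
  have h3 := gρ_eq_zero_of h1 hpx
  rw [h2] at h3
  obtain ⟨h4, h5⟩ := gρ_eval₂ (hθ := h.hgK) h.θC hu1 hx' p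
  rw [hu2, ← e1, ← hzi2, h3] at h5
  have h7 := mem_nonunits_of h4 h5
  have h8 : algebraMap M F (p.eval₂ ((aeval uM : O[X] →ₐ[O] M) : O[X] →+* M) x')
      = p.eval₂ ((aeval (algebraMap M F uM) : O[X] →ₐ[O] F) : O[X] →+* F)
        (algebraMap M F x') := by
    rw [hom_eval₂]
    congr 1
    ext a
    · simp [← IsScalarTower.algebraMap_apply]
    · simp
  rw [← h8] at h7
  obtain ⟨n, p', hp'm, hp'⟩ := exists_clear_poly (k := M) q huv p hp
  have h9 : p'.eval₂ ((aeval (algebraMap K₁ M t)⁻¹ : O[X] →ₐ[O] M) : O[X] →+* M)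
      ((1 + (algebraMap K₁ M t)⁻¹ ^ (q - 1)) ^ n * x') ∈ h.PM.nonunits := by
    rw [hp']
    exact mul_mem_nonunits (pow_mem (pow_mem (h.mem_PM.mpr hD1) _) _)
      (h.mem_PM_nonunits.mpr h7)
  obtain ⟨y, hy, hxy⟩ := exists_smul_of_mem_nonunits (hθ := h.gKM) h.isEmbM.map_C hπ.irreducible h9
  have hgg : gaussVal ht.inv hπ = gaussVal ht hπ := gaussVal_inv ht ht.inv hπ
  exact ⟨n, p', hp'm, y, by rw [hgg]; exact h.intM ht hπ hy, by rw [map_inv₀]; exact hxy⟩

theorem LData.normal_inf₁ (h : LData M q t z T θ w) (hg : LGood h ht hz hπ) {x : F}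
    (hx : x ∈ h.P₁) (p : O[X][X]) (hp : p.Monic)
    (hpx : p.eval₂ ((aeval (algebraMap K F z)⁻¹ : O[X] →ₐ[O] F) : O[X] →+* F) x ∈
      h.P₁.nonunits) :
    ∃ s : O[X], IsUnit (s.coeff 0) ∧ ∃ b ∈ chart O (algebraMap K F z)⁻¹,
      aeval (algebraMap K F z)⁻¹ s * x - b ∈ h.P₁.nonunits := by
  obtain ⟨x', hxx', hx'⟩ := h.exists_M hz hπ hx
  obtain ⟨S, hS⟩ := hg.gr
  obtain ⟨n, hred⟩ := h.exists_redInt_inf hz ht hπ hx p hp hpx hxx' hx'
  obtain ⟨c, hc, b, hb, w', hw', hbw⟩ := goodRed_inf ht.inv hS hred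
  have h11 : w' ∈ h.PM := mem_of_intOver (h.isEmbM.over (hθ := h.gKM) ht hπ).1 hw'
  -- the denominator
  obtain ⟨e, he⟩ : ∃ e : O[X], e = c * (1 + X ^ (q - 1)) ^ n := ⟨_, rfl⟩
  have hq := h.q2
  have he0 : IsUnit (e.coeff 0) := by
    have h12 : ((1 + X ^ (q - 1) : O[X])).coeff 0 = 1 := by
      rw [coeff_add, coeff_one_zero, coeff_X_pow, if_neg (by omega), add_zero]
    rw [he, mul_coeff_zero, coeff_zero_eq_eval_zero ((1 + X ^ (q - 1) : O[X]) ^ n), eval_pow,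
      ← coeff_zero_eq_eval_zero, h12, one_pow, mul_one]
    exact hc
  obtain ⟨hy1, g, hg1, hgy⟩ := h.tinv_mem_chartL hg
  obtain ⟨hene, heinv⟩ := inv_mem_chartL hy1 hg1 hgy (h.transzinv hz) he0
  have hex : aeval (algebraMap M F (algebraMap K₁ M t))⁻¹ e * algebraMap M F x' =
      algebraMap M F b + algebraMap O F π * algebraMap M F w' := by
    have h13 : aeval (algebraMap M F (algebraMap K₁ M t))⁻¹ e =
        algebraMap M F (aeval (algebraMap K₁ M t)⁻¹ c *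
          (1 + (algebraMap K₁ M t)⁻¹ ^ (q - 1)) ^ n) := by
      rw [← map_inv₀, aeval_algebraMap_apply, he, map_mul, map_pow, map_add, map_one, map_pow,
        aeval_X]
    rw [h13, ← map_mul, mul_assoc, hbw, map_add, Algebra.smul_def, map_mul,
      ← IsScalarTower.algebraMap_apply]
  obtain ⟨E, hE⟩ : ∃ E : F, E = aeval (algebraMap M F (algebraMap K₁ M t))⁻¹ e := ⟨_, rfl⟩
  rw [← hE] at hene heinv hex
  obtain ⟨s, hs, hsb⟩ := mul_mem heinv (h.chartM_inv_mem_chartL hg hb)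
  refine ⟨s, hs, _, hsb, ?_⟩
  rw [← mul_sub]
  refine mul_mem_nonunits (h.chartL_mem₁ hz hπ (chart_le_chartL (aeval_mem_chart _ _))) ?_
  have h14 : x - E⁻¹ * algebraMap M F b = (x - algebraMap M F x') +
      (E⁻¹ * algebraMap M F w') * algebraMap O F π := by
    have h15 : algebraMap M F b = E * algebraMap M F x' -
      algebraMap O F π * algebraMap M F w' := by rw [hex]; ring
    have h16 := inv_mul_cancel₀ hene
    rw [h15]
    linear_combination (-algebraMap M F x') * h16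
  rw [h14]
  refine add_mem hxx' (mul_mem_nonunits (mul_mem (h.chartL_mem₁ hz hπ heinv)
    (h.mem_PM.mp h11)) ?_)
  have := (h.over₁ hz hπ).2
  rwa [← IsScalarTower.algebraMap_apply] at this

theorem LData.normal_inf₂ (h : LData M q t z T θ w) (hg : LGood h ht hz hπ) {x : F}
    (hx : x ∈ h.P₂) (p : O[X][X]) (hp : p.Monic)
    (hpx : p.eval₂ ((aeval (algebraMap K F z)⁻¹ : O[X] →ₐ[O] F) : O[X] →+* F) x ∈
      h.P₂.nonunits) :
    ∃ s : O[X], IsUnit (s.coeff 0) ∧ ∃ b ∈ chart O (algebraMap K F z)⁻¹,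
      aeval (algebraMap K F z)⁻¹ s * x - b ∈ h.P₂.nonunits := by
  rw [h.mem_P₂_nonunits, h.w_eval₂ h.wzinv] at hpx
  obtain ⟨s, hs, b, hb, hxb⟩ := h.normal_inf₁ hg (h.mem_P₂.mp hx) p hp hpx
  refine ⟨s, hs, w b, h.w_mem_chart h.wzinv hb, ?_⟩
  rw [h.mem_P₂_nonunits, map_sub, h.ww, map_mul, h.w_aeval, h.wzinv]
  exact hxb

/-- The curve of level `qM` has semistable reduction with two components. -/
theorem LData.semiStable [PerfectField (ResidueField O)] (h : LData M q t z T θ w)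
    (hg : LGood h ht hz hπ) [ExpChar (ResidueField O) q] {d : O ≃+* O} {δ : F ≃+* F}
    (hA : LAct h d δ) (hd : ∀ a, dbar d a = a ^ q) :
    SemiStable hz hπ h.P₁ h.P₂ where
  over₁ := h.over₁ hz hπ
  over₂ := h.over₂ hz hπ
  ne := h.P_ne
  all := fun W hW => h.complete hz hπ W hW
  unr := h.unr hz hπ
  normal₁ := fun _ hw p hp hpw => h.normal₁ hg hw p hp hpw
  normal₂ := fun _ hw p hp hpw => h.normal₂ hg hw p hp hpw
  normal_inf₁ := fun _ hw p hp hpw => h.normal_inf₁ hg hw p hp hpw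
  normal_inf₂ := fun _ hw p hp hpw => h.normal_inf₂ hg hw p hp hpw
  rad := fun b hb n ⟨b₁, hb₁, b₂, hb₂, h1, h2, h3⟩ =>
    hA.rad hg hd ⟨b, hb⟩ n ⟨b₁, hb₁, b₂, hb₂, h1, h2, h3⟩
  rad_inf := h.rad_inf hg

end Data

end Fermat.Agent.LG
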