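import Mathlib
import Fermat.Agent.LG.CDeg
import Fermat.Agent.LG.LevelQ4

/-!
The concrete data of level `qM`.
-/

set_option autoImplicit false
set_option linter.unusedSectionVars false

open Matrix.SpecialLinearGroup CongruenceSubgroup ModularGroup
open scoped MatrixGroups ModularForm Manifold
open UpperHalfPlane hiding I J
open Complex (I)
open Fermat.Agent.ModFun IntermediateField Fermat.Agent.Geo IsLocalRing
open Fermat.Agent.ESCore (HauptFn haupt2 haupt3 hdelta)
open ModularCurve (qExpand)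

noncomputable section

universe u

namespace Fermat.Agent.LG

local notation "𝕢" => Function.Periodic.qParam

section Rel

variable {p : ℕ} [Fact p.Prime] {κ : ℤ} (H : HauptFn p κ)

theorem aeval_int {E : Type*} [CommRing E] (y : E) (r : Polynomial ℤ) :
    Polynomial.aeval y r = r.eval₂ (Int.castRingHom E) y := by
  rw [Polynomial.aeval_def]
  rfl

include H in
theorem exists_mrel {l : ℕ} [NeZero l] (hl : l.Prime) (hlp : ¬ l ∣ p) :
    ∃ c, ModShape l c ∧ ∀ {K : Type u} [Field K] (_ : K →+* ℂ),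
      MRel l c (qExpand K l (tS K p κ)) (tS K p κ) := by
  obtain ⟨c, h1, h2, h3, h4, h5, h6⟩ := exists_modpoly H hl hlp
  refine ⟨c, ⟨hl.two_le, h2, h3, h4, h5⟩, ?_⟩
  intro K _ ι
  have hexp : HasExp ι (qN 1) (fun τ => tI H (hdelta l none • τ)) (qExpand K l (tS K p κ)) := by
    refine (hasExp_tI H ι).qExpand (s' := qN 1) l (fun τ => hdelta l none • τ) fun τ => ?_
    have h1 : 𝕢 1 ((hdelta l none • τ : ℍ) : ℂ) = 𝕢 1 τ ^ l := ESCore.qParam_heckeDiagMatrix hl.ne_zero τ
    rw [qN_apply, qN_apply, Nat.cast_one]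
    exact h1
  have h7 : HasExp ι (qN 1) (∑ i ∈ Finset.range (l + 2), (fun τ =>
      ((c i).map (Int.castRingHom K)).eval₂ ι (tI H τ)) *
      (fun τ => tI H (hdelta l none • τ)) ^ i)
      (∑ i ∈ Finset.range (l + 2), ((c i).map (Int.castRingHom K)).eval₂ HahnSeries.C (tS K p κ) *
        (qExpand K l (tS K p κ)) ^ i) :=
    HasExp.sum _ fun i _ => (hasExp_eval₂ (hasExp_tI H ι) _).mul (hexp.pow i)
  have h8 : (∑ i ∈ Finset.range (l + 2), (fun τ =>
      ((c i).map (Int.castRingHom K)).eval₂ ι (tI H τ)) *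
      (fun τ => tI H (hdelta l none • τ)) ^ i) = 0 := by
    funext τ
    rw [Finset.sum_apply, Pi.zero_apply]
    have h9 := h6 (tI H (hdelta l none • τ)) τ
    rw [Finset.prod_eq_zero (Finset.mem_univ none) (sub_self _)] at h9
    rw [h9]
    refine Finset.sum_congr rfl fun i _ => ?_
    rw [Pi.mul_apply, Pi.pow_apply, Polynomial.eval₂_map]
    congr 2
    exact RingHom.ext_int _ _
  rw [h8] at h7
  have h9 := h7.unique ι.injective (isParam_qN 1) hasExp_zero
  rw [MRel, ← h9]
  refine Finset.sum_congr rfl fun i _ => ?_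
  rw [aeval_int, Polynomial.eval₂_map]
  congr 2

end Rel

section Conc

variable (L : Type u) [Field L] (q : ℕ) [NeZero q] (p : ℕ) [Fact p.Prime] (κ : ℤ)

/-- The expansion of `z`. -/
def zS : LaurentSeries L := tS L p κ + qExpand L q (tS L p κ)

/-- The field `L(z)`. -/
abbrev Kz : IntermediateField L (LaurentSeries L) := IntermediateField.adjoin L {zS L q p κ}

/-- `z` -/
def zK : Kz L q p κ := ⟨zS L q p κ, mem_adjoin_simple_self L _⟩

/-- The field `L(t, t_q)`. -/
abbrev Ktt : IntermediateField L (LaurentSeries L) :=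
  IntermediateField.adjoin L {tS L p κ, qExpand L q (tS L p κ)}

variable {L q p κ}

theorem Kt_le_Ktt : Kt L p κ ≤ Ktt L q p κ := by
  rw [adjoin_simple_le_iff]
  exact subset_adjoin L _ (Set.mem_insert _ _)

theorem Kz_le_Ktt : Kz L q p κ ≤ Ktt L q p κ := by
  rw [adjoin_simple_le_iff]
  exact add_mem (subset_adjoin L _ (Set.mem_insert _ _))
    (subset_adjoin L _ (Set.mem_insert_of_mem _ rfl))

theorem Ktt_le_of {T : IntermediateField L (LaurentSeries L)} (h1 : Kz L q p κ ≤ T)
    (h2 : tS L p κ ∈ T) : Ktt L q p κ ≤ T := by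
  rw [adjoin_le_iff]
  rintro x (rfl | rfl)
  · exact h2
  · have h3 : zS L q p κ ∈ T := h1 (mem_adjoin_simple_self L _)
    have h4 : qExpand L q (tS L p κ) = zS L q p κ - tS L p κ := by rw [zS]; ring
    rw [h4]
    exact sub_mem h3 h2

variable {M N : ℕ} [NeZero M] [NeZero N] (H : HauptFn p κ) (ι : L →+* ℂ)

theorem qExpand_mem_F0 (hN : N = q * M) {x : LaurentSeries L} (hx : x ∈ F0 L M) :
    qExpand L q x ∈ F0 L N := by
  let T : IntermediateField L (LaurentSeries L) :=
    ((F0 L N).toSubfield.comap (qExpand L q)).toIntermediateField (by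
      intro a
      rw [Subfield.mem_comap, ModularCurve.algebraMap_laurentSeries_eq_single,
        ModularCurve.qExpand_single, mul_zero, ← ModularCurve.algebraMap_laurentSeries_eq_single]
      exact (F0 L N).algebraMap_mem _)
  have h1 : F0 L M ≤ T := by
    rw [IntermediateField.adjoin_le_iff]
    rintro x ⟨d, hd0, hd, rfl⟩
    change qExpand L q _ ∈ F0 L N
    rw [ModularCurve.qExpand_qExpand]
    exact IntermediateField.subset_adjoin _ _ (gens_dvd (dvd₁ hN hd))
  exact h1 hx

include H ι in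
theorem Ktt_le_F0 (hN : N = q * M) (hpM : p ∣ M) : Ktt L q p κ ≤ F0 L N := by
  rw [adjoin_le_iff]
  rintro x (rfl | rfl)
  · exact F0_mono (dvd₂ hN dvd_rfl) (tS_mem_F0 H ι hpM)
  · exact qExpand_mem_F0 hN (tS_mem_F0 H ι hpM)

include H ι in
theorem Kz_le_F0 (hN : N = q * M) (hpM : p ∣ M) : Kz L q p κ ≤ F0 L N :=
  Kz_le_Ktt.trans (Ktt_le_F0 H ι hN hpM)

variable {H} {S : Set ℤ} {k : ℕ} {P : Polynomial ℤ}

theorem tS_ne_zero : tS L p κ ≠ 0 := by
  intro h
  have h1 := coeff_tS_neg_one (R := L) (p := p) (κ := κ)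
  rw [h, HahnSeries.coeff_zero] at h1
  exact zero_ne_one h1

/-- `j_q` is a rational function of `t_q`. -/
theorem jq_mem_of (hH : HautData H S k P) (ι : L →+* ℂ) {T : IntermediateField L (LaurentSeries L)}
    (hT : qExpand L q (tS L p κ) ∈ T) : qExpand L q (ModularCurve.jqModC L) ∈ T := by
  have h1 := congrArg (qExpand L q) (hH.series ι)
  rw [map_mul, map_pow, Polynomial.hom_eval₂] at h1
  have h2 : (qExpand L q).comp HahnSeries.C = HahnSeries.C := by
    ext1 a
    exact ModularCurve.qExpand_C (N := q) a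
  rw [h2] at h1
  have h3 : qExpand L q (tS L p κ) ≠ 0 :=
    (map_ne_zero_iff _ (ModularCurve.qExpand_injective q)).mpr tS_ne_zero
  have h4 : qExpand L q (ModularCurve.jqModC L) =
      ((P.map (Int.castRingHom L)).eval₂ HahnSeries.C (qExpand L q (tS L p κ))) /
        (qExpand L q (tS L p κ)) ^ k := by
    rw [← h1, mul_div_cancel_right₀ _ (pow_ne_zero _ h3)]
  rw [h4]
  refine div_mem ?_ (pow_mem hT _)
  rw [Polynomial.eval₂_eq_sum_range]
  refine sum_mem fun i _ => mul_mem ?_ (pow_mem hT _)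
  have h5 : HahnSeries.C ((P.map (Int.castRingHom L)).coeff i) =
      algebraMap L (LaurentSeries L) ((P.map (Int.castRingHom L)).coeff i) := by
    rw [ModularCurve.algebraMap_laurentSeries_eq_single]
    rfl
  rw [h5]
  exact T.algebraMap_mem _

end Conc

end Fermat.Agent.LG
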