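import Mathlib
import Fermat.Agent.LG.Conc
import Fermat.Agent.LG.LevelQ4

/-!
The concrete data of level `qM`: the degree, and the verification of the axioms.
-/

set_option autoImplicit false
set_option linter.unusedSectionVars false

open scoped MatrixGroups ModularForm Manifold
open UpperHalfPlane hiding I J
open Complex (I)
open Fermat.Agent.ModFun IntermediateField Fermat.Agent.Geo IsLocalRing
open Fermat.Agent.ESCore (HauptFn haupt2 haupt3 hdelta)
open ModularCurve (qExpand)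

noncomputable section

universe u

namespace Fermat.Agent.LG

theorem tower_bound {A B C : Type*} [Field A] [Field B] [Field C] [Algebra A B] [Algebra B C]
    [Algebra A C] (t : IsScalarTower A B C) (h1 : FiniteDimensional A B)
    (h2 : FiniteDimensional B C) {a b : ℕ} (ha : Module.finrank A B ≤ a)
    (hb : Module.finrank B C ≤ b) : FiniteDimensional A C ∧ Module.finrank A C ≤ a * b := by
  refine ⟨FiniteDimensional.trans A B C, ?_⟩
  rw [← Module.finrank_mul_finrank A B C]
  exact Nat.mul_le_mul ha hb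

section Deg

variable {L : Type u} [Field L] {q : ℕ} [NeZero q] {p : ℕ} [Fact p.Prime] {κ : ℤ}
  {M N : ℕ} [NeZero M] [NeZero N] {H : HauptFn p κ} {S : Set ℤ} {k : ℕ} {P : Polynomial ℤ}

theorem finrank_Ktt (H : HauptFn p κ) (ι : L →+* ℂ) (hq : q.Prime) (hqp : ¬ q ∣ p) :
    letI := algI (Kz_le_Ktt (L := L) (q := q) (p := p) (κ := κ))
    FiniteDimensional (Kz L q p κ) (Ktt L q p κ) ∧
      Module.finrank (Kz L q p κ) (Ktt L q p κ) ≤ 2 * q := by
  obtain ⟨c, hc, hrel⟩ := exists_mrel.{u} H hq hqp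
  obtain ⟨Q, hQ, hdeg, hQr⟩ := hc.exists_monic
  let φ : Polynomial ℤ →+* Kz L q p κ := Polynomial.eval₂RingHom (Int.castRingHom _) (zK L q p κ)
  have h1 := finrank_simple (Kz_le_Ktt (L := L) (q := q) (p := p) (κ := κ)) (t := tS L p κ)
    (fun T h1 h2 => Ktt_le_of h1 h2) (Q.map φ) (hQ.map φ) ?_
  · refine ⟨h1.1, h1.2.trans ?_⟩
    rw [hQ.natDegree_map, hdeg]
  · have h2 := hQr _ _ (hrel ι)
    rw [Polynomial.aeval_def, Polynomial.eval₂_map, ← h2]
    congr 1
    apply Polynomial.ringHom_ext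
    · intro a
      simp
    · simp only [RingHom.comp_apply, φ, Polynomial.coe_eval₂RingHom, Polynomial.eval₂_X]
      change zS L q p κ = _
      rw [zS, add_comm]

theorem finrank_F0_le (hH : HautData H S k P) (ι : L →+* ℂ) (hq : q.Prime) (hqp : ¬ q ∣ p)
    (hN : N = q * M) (hqM : q.Coprime M) (hpM : p ∣ M) (hle1 : Kt L p κ ≤ F0 L M)
    (hle4 : Kz L q p κ ≤ F0 L N)
    (hfin : letI := algI hle1; FiniteDimensional (Kt L p κ) (F0 L M)) :
    letI := algI hle1
    letI := algI hle4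
    FiniteDimensional (Kz L q p κ) (F0 L N) ∧
      Module.finrank (Kz L q p κ) (F0 L N) ≤
        2 * (Module.finrank (Kt L p κ) (F0 L M) * q) := by
  let _ := algI hle1
  let _ := algI hle4
  have hle2 : Ktt L q p κ ≤ F0 L N := Ktt_le_F0 H ι hN hpM
  let _ := algI (Kz_le_Ktt (L := L) (q := q) (p := p) (κ := κ))
  let _ := algI hle2
  obtain ⟨h1, h2⟩ := finrank_compositum (L := L) (K₁ := Kt L p κ) (M := F0 L M)
    (K' := Ktt L q p κ) (F := F0 L N) hle1 Kt_le_Ktt hle2
    (fun T h1 h2 => F0_le_of_mem ι hN hqM T h1 (jq_mem_of hH ι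
      (h2 (subset_adjoin L _ (Set.mem_insert_of_mem _ rfl))))) hfin
  obtain ⟨h3, h4⟩ := finrank_Ktt (L := L) H ι hq hqp
  have t : IsScalarTower (Kz L q p κ) (Ktt L q p κ) (F0 L N) :=
    tower_I Kz_le_Ktt hle2 hle4
  obtain ⟨h5, h6⟩ := tower_bound t h3 h1 h4 h2
  refine ⟨h5, h6.trans (le_of_eq ?_)⟩
  rw [mul_assoc, mul_comm q]

end Deg

section Data

variable {O L : Type u} [CommRing O] [IsDomain O] [IsDiscreteValuationRing O] [Field L]
  [Algebra O L] [IsFractionRing O L] {q : ℕ} [NeZero q] {p : ℕ} [Fact p.Prime] {κ : ℤ}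
  {M N : ℕ} [NeZero M] [NeZero N] {H : HauptFn p κ} {S : Set ℤ} {k : ℕ} {P : Polynomial ℤ}
  {π : O}

theorem coeffMap_tS' {R R' : Type*} [CommRing R] [CommRing R'] (f : R →+* R') :
    ModularCurve.coeffMap f (tS R p κ) = tS R' p κ := coeffMap_tS f p κ

theorem tS_pow {k : Type*} [Field k] [ExpChar k q] : (tS k p κ) ^ q = qExpand k q (tS k p κ) := by
  rw [pow_eq_qExpand, coeffMap_tS']

theorem lData (B : Bez q M) (hH : HautData H S k P) (ι : L →+* ℂ) {ζ : Lˣ}
    (hζ : ι ζ = Complex.exp (2 * Real.pi * Complex.I / M)) (hMu : IsUnit (M : O)) (hπ : Prime π)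
    (hS : ∀ c ∈ S, ∀ c' ∈ S, c ≠ c' → IsUnit ((c - c' : ℤ) : O))
    [PerfectField (ResidueField O)] [ExpChar (ResidueField O) q]
    (hq0 : (q : ResidueField O) = 0) (hq : q.Prime) (hqp : ¬ q ∣ p)
    (hN : N = q * M) (hqM : q.Coprime M) (hpM : p ∣ M) (hle1 : Kt L p κ ≤ F0 L M)
    (hle2 : F0 L M ≤ F0 L N) (hle4 : Kz L q p κ ≤ F0 L N) :
    letI := algO O (Kt L p κ)
    letI := algO O (F0 L M)
    letI := algO O (Kz L q p κ)
    letI := algO O (F0 L N)
    letI := algI hle1
    letI := algI hle2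
    letI := algI hle4
    LData (O := O) (L := L) (K₁ := Kt L p κ) (K := Kz L q p κ) (F := F0 L N) (F0 L M) q
      (tK L p κ) (zK L q p κ) (tS O p κ) (algebraMap (F0 L N) (LaurentSeries L))
      (B.wF ι hq hN) := by
  let _ := algO O (Kt L p κ)
  let _ := algO O (F0 L M)
  let _ := algO O (Kz L q p κ)
  let _ := algO O (F0 L N)
  let _ := algI hle1
  let _ := algI hle2
  let _ := algI hle4
  obtain ⟨ht, -, hfin, -, e, he, hind⟩ := goodRed_F0 ι hζ hMu hπ hpM hH hS hle1
  refine
    { q2 := hq.two_le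
      q0 := hq0
      hgK := fun x => F0_le_gK x.2
      θC := fun a => coe_algO O (F0 L N) a
      θt := toL_tS.symm
      trans := fun P hP => eval₂_tS_eq_zero (p := p) (κ := κ) (by rw [← toK_tS (O := O)]; exact hP)
      deriv := by
        rw [toK_tS]
        exact thD_tS_ne_zero
      wC := fun a => B.wF_C hq hN _
      ww := fun x => B.wF_wF hq hN x
      zz := ?_
      θw := fun x => B.wF_level hq hN hle2 x
      Tq := by
        rw [toK_tS]
        exact tS_pow.symm
      deg := (finrank_F0_le hH ι hq hqp hN hqM hpM hle1 hle4 hfin).2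
      bas := ?_ }
  · apply Subtype.ext
    have h1 := B.wF_level (ι := ι) hq hN hle2 (algebraMap (Kt L p κ) (F0 L M) (tK L p κ))
    change zS L q p κ = tS L p κ + ((B.wF ι hq hN (IntermediateField.inclusion hle2
      (algebraMap (Kt L p κ) (F0 L M) (tK L p κ))) : F0 L N) : LaurentSeries L)
    rw [h1]
    rfl
  · refine ⟨e, he, fun P hP i => hind P ?_ i⟩
    rw [toK_tS] at hP
    exact hP

end Data

end Fermat.Agent.LG
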