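import Mathlib
import Fermat.Agent.LG.LevelQ2
import Fermat.Agent.Geo.SplitVal

/-!
Totally split extensions from density.
-/

set_option autoImplicit false
set_option linter.unusedSectionVars false

open IsLocalRing Polynomial Fermat.Agent.Geo ModularCurve

noncomputable section

universe u

namespace Fermat.Agent.LG

section Dense

variable {O L F E : Type u} [CommRing O] [IsDomain O] [IsDiscreteValuationRing O]
  [Field L] [Algebra O L] [IsFractionRing O L] [Field F] [Field E] [Algebra O F] [Algebra O E]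
  [Algebra F E] [IsScalarTower O F E]
  {θ : E →+* LaurentSeries L} {hθ : ∀ x, θ x ∈ gK O L} {π : O}

theorem gW_separated (hC : ∀ a : O, θ (algebraMap O E a) = HahnSeries.C (algebraMap O L a))
    (hπ : Irreducible π) {x : E} (h : ∀ n : ℕ, ∃ y ∈ gW θ hθ, x = algebraMap O E π ^ n * y) :
    x = 0 := by
  by_contra hx0
  have hθx : θ x ≠ 0 := (_root_.map_ne_zero _).mpr hx0
  obtain ⟨k, u, hu, hu1, hxu⟩ := exists_zpow_mul hπ (hθ x) hθx
  set c : LaurentSeries L := HahnSeries.C (algebraMap O L π) with hc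
  have hc0 : c ≠ 0 := by
    rw [hc, Ne, ← map_zero (HahnSeries.C : L →+* LaurentSeries L)]
    intro h0
    have := HahnSeries.C_injective h0
    rw [IsFractionRing.to_map_eq_zero_iff] at this
    exact hπ.ne_zero this
  obtain ⟨y, hy, hxy⟩ := h (k.toNat + 1)
  have h1 : c ^ k * u = c ^ ((k.toNat + 1 : ℕ) : ℤ) * θ y := by
    rw [← hxu, hxy, map_mul, map_pow, hC, zpow_natCast]
  have hk : k ≤ k.toNat := Int.self_le_toNat k
  obtain ⟨j, hj⟩ : ∃ j : ℕ, ((k.toNat + 1 : ℕ) : ℤ) = k + (j + 1 : ℕ) := by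
    refine ⟨((k.toNat : ℤ) - k).toNat, ?_⟩
    have h3 := Int.toNat_of_nonneg (sub_nonneg.mpr hk)
    push_cast
    omega
  rw [hj, zpow_add₀ hc0, mul_assoc, zpow_natCast] at h1
  have h2 : u = c ^ (j + 1) * θ y := mul_left_cancel₀ (zpow_ne_zero _ hc0) h1
  apply hu1
  rw [gR_eq_zero_iff hπ]
  refine ⟨c ^ j * θ y, mul_mem (pow_mem (C_mem_gV π) j) hy, ?_⟩
  change u = _
  rw [h2, pow_succ']
  ring

variable (hC : ∀ a : O, θ (algebraMap O E a) = HahnSeries.C (algebraMap O L a))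
  (hπ : Irreducible π)
  (hres : ∀ x ∈ gW θ hθ, ∃ f : F, x - algebraMap F E f ∈ (gW θ hθ).nonunits)

include hC hπ hres

theorem exists_approx (n : ℕ) {x : E} (hx : x ∈ gW θ hθ) :
    ∃ f : F, ∃ y ∈ gW θ hθ, x = algebraMap F E f + algebraMap O E π ^ n * y := by
  induction n with
  | zero => exact ⟨0, x, hx, by rw [map_zero, pow_zero, one_mul, zero_add]⟩
  | succ n ih =>
    obtain ⟨f, y, hy, hxy⟩ := ih
    obtain ⟨g, hg⟩ := hres y hy
    obtain ⟨y', hy', hyy'⟩ := exists_smul_of_mem_nonunits hC hπ hg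
    refine ⟨f + algebraMap O F π ^ n * g, y', hy', ?_⟩
    rw [Algebra.smul_def] at hyy'
    have h1 : y = algebraMap F E g + algebraMap O E π * y' := by rw [← hyy']; ring
    rw [hxy, h1, map_add, map_mul, map_pow, ← IsScalarTower.algebraMap_apply]
    ring

theorem stab_trivial (σ : E ≃ₐ[F] E) (hσ : (gW θ hθ).comap (σ : E →+* E) = gW θ hθ) : σ = 1 := by
  have hσ' : ∀ x, σ x ∈ gW θ hθ ↔ x ∈ gW θ hθ := by
    intro x
    conv_rhs => rw [← hσ]
    rfl
  have h1 : ∀ x ∈ gW θ hθ, σ x = x := by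
    intro x hx
    rw [← sub_eq_zero]
    refine gW_separated (hθ := hθ) hC hπ fun n => ?_
    obtain ⟨f, y, hy, hxy⟩ := exists_approx hC hπ hres n hx
    refine ⟨σ y - y, sub_mem ((hσ' y).mpr hy) hy, ?_⟩
    rw [hxy, map_add, AlgEquiv.commutes, map_mul, map_pow,
      IsScalarTower.algebraMap_apply O F E, AlgEquiv.commutes]
    ring
  ext x
  rw [AlgEquiv.one_apply]
  rcases (gW θ hθ).mem_or_inv_mem x with h | h
  · exact h1 x h
  · have := h1 _ h
    rw [map_inv₀] at this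
    exact inv_injective this

variable {V : ValuationSubring F} [IsDiscreteValuationRing V] [FiniteDimensional F E]
  [IsGalois F E]

omit hπ in
theorem unr_of_dense (hVπ : ∃ ϖ : V, Irreducible ϖ ∧ (ϖ : F) = algebraMap O F π)
    (hπ : Irreducible π)
    (hW : Over V (algebraMap O F π) (gW θ hθ)) : Unr V.toSubring E := by
  classical
  obtain ⟨ϖ, hϖ, hϖπ⟩ := hVπ
  have hW' : Over V (ϖ : F) (gW θ hθ) := by rw [hϖπ]; exact hW
  have hsplit : ∀ σ : E ≃ₐ[F] E, σ ≠ 1 → (gW θ hθ).comap (σ : E →+* E) ≠ gW θ hθ :=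
    fun σ hσ h => hσ (stab_trivial hC hπ hres σ h)
  have hsr := split_residue hϖ hW' hsplit
  have hinj := comap_injective_of_split hsplit
  let Wf : (E ≃ₐ[F] E) → ValuationSubring E := fun σ => (gW θ hθ).comap (σ : E →+* E)
  have hWf : ∀ σ, Over V (ϖ : F) (Wf σ) := fun σ => hW'.comap σ
  refine unr_of_list hϖ Wf hinj (fun σ => (hWf σ).1) (fun σ => (hWf σ).2) ?_
    (fun _ => 1) (fun _ _ => 1) (fun _ _ => one_mem _) ?_ ?_
  · intro σ x hx
    obtain ⟨f, hf, hxf⟩ := hsr.1 (σ x) hx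
    refine ⟨X - C ⟨f, hf⟩, ?_, ?_⟩
    · rw [Polynomial.map_sub, Polynomial.map_X, map_C]
      exact separable_X_sub_C
    · rw [eval₂_sub, eval₂_X, eval₂_C, mem_nonunits_comap, map_sub]
      change σ x - σ (algebraMap F E f) ∈ _
      rw [AlgEquiv.commutes]
      exact hxf
  · intro σ c hc h j
    rw [Fin.sum_univ_one, Algebra.smul_def, mul_one, (hWf σ).mem_nonunits_iff hϖ] at h
    rwa [Fin.eq_zero j]
  · rw [Finset.sum_const, smul_eq_mul, mul_one, Finset.card_univ, ← Nat.card_eq_fintype_card,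
      IsGalois.card_aut_eq_finrank]

end Dense

end Fermat.Agent.LG
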