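import Mathlib
import Fermat.Agent.LG.LevelQ4
import Fermat.Agent.LG.Dense
import Fermat.Agent.LG.Core2

/-!
The action of inertia and of the square of Frobenius on a totally split covering.
-/

set_option autoImplicit false
set_option linter.unusedSectionVars false

open IsLocalRing Polynomial Fermat.Agent.Geo ModularCurve

noncomputable section

universe u

namespace Fermat.Agent.LG

section Data

variable {O L K₁ M K F E : Type u} [CommRing O] [IsDomain O] [IsDiscreteValuationRing O]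
  [Field L] [Algebra O L] [IsFractionRing O L] [Field K₁] [Field M] [Field K] [Field F] [Field E]
  [Algebra O K₁] [Algebra O M] [Algebra O K] [Algebra O F] [Algebra O E]
  [Algebra K₁ M] [Algebra M F] [Algebra K F] [Algebra K E] [Algebra F E]
  {q : ℕ} [NeZero q] {t : K₁} {z : K} {T : LaurentSeries O}
  {θ : F →+* LaurentSeries L} {w : F ≃+* F} {π : O}
  [IsScalarTower O K F] [IsScalarTower O K₁ M] [IsScalarTower O M F]
  [IsScalarTower O K E] [IsScalarTower O F E] [IsScalarTower K F E]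

/-- A covering, totally split over the two components. -/
structure EData (h : LData M q t z T θ w) (θ₁ θ₂ : E →+* LaurentSeries L) : Prop where
  gK₁ : ∀ x, θ₁ x ∈ gK O L
  gK₂ : ∀ x, θ₂ x ∈ gK O L
  r₁ : ∀ x : F, θ₁ (algebraMap F E x) = θ x
  r₂ : ∀ x : F, θ₂ (algebraMap F E x) = θ (w x)
  res₁ : ∀ x ∈ gW θ₁ gK₁, ∃ f : F, x - algebraMap F E f ∈ (gW θ₁ gK₁).nonunits
  res₂ : ∀ x ∈ gW θ₂ gK₂, ∃ f : F, x - algebraMap F E f ∈ (gW θ₂ gK₂).nonunits

variable {h : LData M q t z T θ w} {θ₁ θ₂ : E →+* LaurentSeries L}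

theorem EData.C₁ (e : EData h θ₁ θ₂) (a : O) :
    θ₁ (algebraMap O E a) = HahnSeries.C (algebraMap O L a) := by
  rw [IsScalarTower.algebraMap_apply O F E, e.r₁, h.θC]

theorem EData.C₂ (e : EData h θ₁ θ₂) (a : O) :
    θ₂ (algebraMap O E a) = HahnSeries.C (algebraMap O L a) := by
  rw [IsScalarTower.algebraMap_apply O F E, e.r₂, h.wC, h.θC]

variable [FiniteDimensional K F] [Algebra.IsSeparable K F] [FiniteDimensional K₁ M]
  [Algebra.IsSeparable K₁ M] [CharZero O] [FiniteDimensional K E] [FiniteDimensional F E]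
  [Algebra.IsSeparable K E] [IsGalois F E]
variable {ht : IsParam O t} {hz : IsParam O z} {hπ : Prime π}

theorem EData.over₁ (e : EData h θ₁ θ₂) (hz : IsParam O z) (hπ : Prime π) :
    Over h.P₁ (algebraMap O F π) (gW θ₁ e.gK₁) := by
  refine ⟨fun x hx => ?_, ?_⟩
  · rw [mem_gW, e.r₁]
    exact hx
  · rw [← IsScalarTower.algebraMap_apply]
    refine C_mul_mem_nonunits hπ.irreducible (y := 1) ?_ ?_
    · rw [map_one]; exact one_mem _
    · rw [e.C₁, map_one, mul_one]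

theorem EData.over₂ (e : EData h θ₁ θ₂) (hz : IsParam O z) (hπ : Prime π) :
    Over h.P₂ (algebraMap O F π) (gW θ₂ e.gK₂) := by
  refine ⟨fun x hx => ?_, ?_⟩
  · rw [mem_gW, e.r₂]
    exact hx
  · rw [← IsScalarTower.algebraMap_apply]
    refine C_mul_mem_nonunits hπ.irreducible (y := 1) ?_ ?_
    · rw [map_one]; exact one_mem _
    · rw [e.C₂, map_one, mul_one]

theorem LData.unif₁ (h : LData M q t z T θ w) (hz : IsParam O z) (hπ : Prime π) :
    IsDiscreteValuationRing h.P₁ ∧ ∃ ϖ : h.P₁, Irreducible ϖ ∧ (ϖ : F) = algebraMap O F π := by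
  have := isDiscreteValuationRing_gaussVal hz hπ
  obtain ⟨ϖ, hϖ, hϖπ⟩ := exists_gauss_unif hz hπ
  have hov : Over (gaussVal hz hπ) (ϖ : K) h.P₁ := by rw [hϖπ]; exact h.over₁ hz hπ
  obtain ⟨h1, h2⟩ := isDVR_of_unif hϖ hov fun x hx => by
    obtain ⟨y, hy, hxy⟩ := exists_smul_of_mem_nonunits (hθ := h.hgK) h.θC hπ.irreducible hx
    refine ⟨y, hy, ?_⟩
    rw [hxy, hϖπ, algebraMap_smul]
  refine ⟨h1, _, h2, ?_⟩
  change algebraMap K F (ϖ : K) = _
  rw [hϖπ, ← IsScalarTower.algebraMap_apply]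

theorem LData.unif₂ (h : LData M q t z T θ w) (hz : IsParam O z) (hπ : Prime π) :
    IsDiscreteValuationRing h.P₂ ∧ ∃ ϖ : h.P₂, Irreducible ϖ ∧ (ϖ : F) = algebraMap O F π := by
  have := isDiscreteValuationRing_gaussVal hz hπ
  obtain ⟨ϖ, hϖ, hϖπ⟩ := exists_gauss_unif hz hπ
  have hov : Over (gaussVal hz hπ) (ϖ : K) h.P₂ := by rw [hϖπ]; exact h.over₂ hz hπ
  obtain ⟨h1, h2⟩ := isDVR_of_unif hϖ hov fun x hx => by
    obtain ⟨y, hy, hxy⟩ := exists_smul_of_mem_nonunits (hθ := h.gK₂) h.isEmb₂.map_C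
      hπ.irreducible hx
    refine ⟨y, hy, ?_⟩
    rw [hxy, hϖπ, algebraMap_smul]
  refine ⟨h1, _, h2, ?_⟩
  change algebraMap K F (ϖ : K) = _
  rw [hϖπ, ← IsScalarTower.algebraMap_apply]

theorem EData.stab₁ (e : EData h θ₁ θ₂) (hπ : Prime π) (σ : E ≃ₐ[F] E)
    (hσ : (gW θ₁ e.gK₁).comap (σ : E →+* E) = gW θ₁ e.gK₁) : σ = 1 :=
  stab_trivial e.C₁ hπ.irreducible e.res₁ σ hσ

theorem EData.stab₂ (e : EData h θ₁ θ₂) (hπ : Prime π) (σ : E ≃ₐ[F] E)
    (hσ : (gW θ₂ e.gK₂).comap (σ : E →+* E) = gW θ₂ e.gK₂) : σ = 1 :=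
  stab_trivial e.C₂ hπ.irreducible e.res₂ σ hσ

theorem EData.unr₁ (e : EData h θ₁ θ₂) (hz : IsParam O z) (hπ : Prime π) :
    Unr h.P₁.toSubring E := by
  obtain ⟨h1, h2⟩ := h.unif₁ hz hπ
  exact unr_of_dense e.C₁ e.res₁ h2 hπ.irreducible (e.over₁ hz hπ)

theorem EData.unr₂ (e : EData h θ₁ θ₂) (hz : IsParam O z) (hπ : Prime π) :
    Unr h.P₂.toSubring E := by
  obtain ⟨h1, h2⟩ := h.unif₂ hz hπ
  exact unr_of_dense e.C₂ e.res₂ h2 hπ.irreducible (e.over₂ hz hπ)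

/-- all the extensions of `P₁` -/
theorem EData.conj₁ (e : EData h θ₁ θ₂) (hz : IsParam O z) (hπ : Prime π)
    {W : ValuationSubring E} (hW : Over h.P₁ (algebraMap O F π) W) :
    ∃ σ : E ≃ₐ[F] E, W = (gW θ₁ e.gK₁).comap (σ : E →+* E) := by
  obtain ⟨h1, ϖ, hϖ, hϖπ⟩ := h.unif₁ hz hπ
  have hov : Over h.P₁ (ϖ : F) (gW θ₁ e.gK₁) := by rw [hϖπ]; exact e.over₁ hz hπ
  exact (split_residue hϖ hov fun σ hσ hh => hσ (e.stab₁ hπ σ hh)).2.1 W (by rw [hϖπ]; exact hW)

theorem EData.conj₂ (e : EData h θ₁ θ₂) (hz : IsParam O z) (hπ : Prime π)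
    {W : ValuationSubring E} (hW : Over h.P₂ (algebraMap O F π) W) :
    ∃ σ : E ≃ₐ[F] E, W = (gW θ₂ e.gK₂).comap (σ : E →+* E) := by
  obtain ⟨h1, ϖ, hϖ, hϖπ⟩ := h.unif₂ hz hπ
  have hov : Over h.P₂ (ϖ : F) (gW θ₂ e.gK₂) := by rw [hϖπ]; exact e.over₂ hz hπ
  exact (split_residue hϖ hov fun σ hσ hh => hσ (e.stab₂ hπ σ hh)).2.1 W (by rw [hϖπ]; exact hW)

theorem stab_comap {W : ValuationSubring E} (hW : ∀ σ : E ≃ₐ[F] E, W.comap (σ : E →+* E) = W →
    σ = 1) (τ σ : E ≃ₐ[F] E)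
    (hσ : (W.comap (τ : E →+* E)).comap (σ : E →+* E) = W.comap (τ : E →+* E)) : σ = 1 := by
  have h1 : τ * σ * τ⁻¹ = 1 := by
    apply hW
    ext x
    have h2 := congrArg (fun U : ValuationSubring E => τ⁻¹ x ∈ U) hσ
    have h3 : τ (τ⁻¹ x) = x := by
      rw [← AlgEquiv.mul_apply, mul_inv_cancel, AlgEquiv.one_apply]
    have h4 : (τ⁻¹ x ∈ W.comap (τ : E →+* E)) = (τ (τ⁻¹ x) ∈ W) := rfl
    have h5 : (τ⁻¹ x ∈ (W.comap (τ : E →+* E)).comap (σ : E →+* E)) = (τ (σ (τ⁻¹ x)) ∈ W) := rfl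
    simp only [h4, h5, h3] at h2
    exact iff_of_eq h2
  have h2 : τ * σ = τ := by
    have := congrArg (· * τ) h1
    simpa [mul_assoc] using this
  exact mul_left_cancel (a := τ) (by rw [h2, mul_one])

variable [PerfectField (ResidueField O)] [IsAlgClosed (ResidueField O)]
  [ExpChar (ResidueField O) q]

/-- At most one component over each component of the base through each point. -/
theorem EData.hone (e : EData h θ₁ θ₂) (hg : LGood h ht hz hπ) {dφ : O ≃+* O} {Φ : F ≃+* F}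
    (hΦ : LAct h dφ Φ) (hφ : ∀ a, dbar dφ a = a ^ q) (hgen : UnrGen O π F E)
    (W W' : ValuationSubring E) (hW : Over (gaussVal hz hπ) (algebraMap O K π) W)
    (hW' : Over (gaussVal hz hπ) (algebraMap O K π) W')
    (hWW : W.comap (algebraMap F E) = W'.comap (algebraMap F E))
    (u : E) (y : Ideal (chart O u)) (hy : IsPt z u y) (hm : Meets y W) (hm' : Meets y W') :
    W = W' := by
  refine (h.semiStable hg hΦ hφ).eq_of_meets hgen (e.unr₁ hz hπ) (e.unr₂ hz hπ) ?_ ?_ hW hW' hWW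
    hy.1 hy.2 hm hm'
  · intro W hW σ hσ hh
    obtain ⟨τ, rfl⟩ := e.conj₁ hz hπ hW
    exact hσ (stab_comap (e.stab₁ hπ) τ σ hh)
  · intro W hW σ hσ hh
    obtain ⟨τ, rfl⟩ := e.conj₂ hz hπ hW
    exact hσ (stab_comap (e.stab₂ hπ) τ σ hh)

theorem EData.over_of_comap {W : ValuationSubring E} {V : ValuationSubring F}
    (hW : Over (gaussVal hz hπ) (algebraMap O K π) W) (hWV : W.comap (algebraMap F E) = V) :
    Over V (algebraMap O F π) W := by
  subst hWV
  refine ⟨fun x hx => hx, ?_⟩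
  rw [← IsScalarTower.algebraMap_apply, IsScalarTower.algebraMap_apply O K E]
  exact hW.2

/-- The residue field of every component is that of the base. -/
theorem EData.hres (e : EData h θ₁ θ₂) (W : ValuationSubring E)
    (hW : Over (gaussVal hz hπ) (algebraMap O K π) W) (x : E) (hx : x ∈ W) :
    ∃ f : F, x - algebraMap F E f ∈ W.nonunits := by
  rcases h.complete hz hπ _ hW.restrict with h1 | h1
  · obtain ⟨σ, rfl⟩ := e.conj₁ hz hπ (EData.over_of_comap hW h1)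
    obtain ⟨f, hf⟩ := e.res₁ (σ x) hx
    refine ⟨f, ?_⟩
    rw [mem_nonunits_comap, map_sub, AlgEquiv.commutes]
    exact hf
  · obtain ⟨σ, rfl⟩ := e.conj₂ hz hπ (EData.over_of_comap hW h1)
    obtain ⟨f, hf⟩ := e.res₂ (σ x) hx
    refine ⟨f, ?_⟩
    rw [mem_nonunits_comap, map_sub, AlgEquiv.commutes]
    exact hf

/-- **The action commutes with the Galois group.** -/
theorem EData.comm (e : EData h θ₁ θ₂) (hg : LGood h ht hz hπ) {dφ : O ≃+* O} {Φ : F ≃+* F}
    (hΦ : LAct h dφ Φ) (hφ : ∀ a, dbar dφ a = a ^ q) (hgen : UnrGen O π F E)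
    (hO : ∀ x : E, IsIntegral O x → ∃ o : O, algebraMap O E o = x)
    {d : O ≃+* O} {δ : F ≃+* F} (hA : LAct h d δ) {δE : E ≃+* E}
    (hδE : ∀ x : F, δE (algebraMap F E x) = algebraMap F E (δ x))
    (hδθ : ∀ x : E, θ₁ (δE x) = coeffMap (dL L d : L →+* L) (θ₁ x))
    (hcase : (∀ a, dbar d a = a) ∨ (∀ x, δ x = Φ (Φ x))) (g : E ≃ₐ[F] E) (x : E) :
    δE (g x) = g (δE x) := by
  have hzE : algebraMap K E z = algebraMap F E (algebraMap K F z) :=
    IsScalarTower.algebraMap_apply K F E z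
  let D : SemiAut O (K := K) (E := E) z :=
    { d := d
      δ := δE
      map_C := fun a => by
        rw [IsScalarTower.algebraMap_apply O F E, hδE, hA.δO, ← IsScalarTower.algebraMap_apply]
      map_z := by rw [hzE, hδE, hA.δz] }
  have hinj : Function.Injective (algebraMap O E) := by
    intro a b hab
    have h1 := congrArg θ₁ hab
    rw [e.C₁, e.C₁] at h1
    exact IsFractionRing.injective O L (HahnSeries.C_injective h1)
  set W₁ := gW θ₁ e.gK₁ with hW₁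
  have hsymm : ∀ y, coeffMap (dL L d : L →+* L) y ∈ gV O L ↔ y ∈ gV O L := by
    intro y
    refine ⟨fun hy => ?_, coeffMap_mem_gV d⟩
    have h1 := coeffMap_mem_gV d.symm hy
    have h2 : coeffMap (dL L d.symm : L →+* L) (coeffMap (dL L d : L →+* L) y) = y := by
      ext n
      rw [coeffMap_coeff, coeffMap_coeff]
      exact dL_symm d _
    rwa [h2] at h1
  have hfix : W₁.comap (δE : E →+* E) = W₁ := by
    ext x
    rw [ValuationSubring.mem_comap]
    change θ₁ (δE x) ∈ gV O L ↔ θ₁ x ∈ gV O L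
    rw [hδθ, hsymm]
  have hW₁o : Over (gaussVal hz hπ) (algebraMap O K π) W₁ := by
    refine ⟨fun x hx => ?_, ?_⟩
    · rw [IsScalarTower.algebraMap_apply K F E]
      exact (e.over₁ hz hπ).1 _ ((h.over₁ hz hπ).1 _ hx)
    · have := (e.over₁ hz hπ).2
      rwa [← IsScalarTower.algebraMap_apply, IsScalarTower.algebraMap_apply O K E] at this
  have hP : ∀ W : ValuationSubring E, Over (gaussVal hz hπ) (algebraMap O K π) W →
      W.comap (algebraMap F E) = h.P₁ ∨ W.comap (algebraMap F E) = h.P₂ :=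
    fun W hW => h.complete hz hπ _ hW.restrict
  -- the action on the two components
  have hδ₁ : ∀ x, δ x ∈ h.P₁ ↔ x ∈ h.P₁ := by
    intro x
    change θ (δ x) ∈ gV O L ↔ θ x ∈ gV O L
    rw [hA.θδ, hsymm]
  have hδ₂ : ∀ x, δ x ∈ h.P₂ ↔ x ∈ h.P₂ := by
    intro x
    rw [h.mem_P₂, h.mem_P₂, hA.wδ, hδ₁]
  have hδP : ∀ W : ValuationSubring E, Over (gaussVal hz hπ) (algebraMap O K π) W →
      (W.comap (D.δ : E →+* E)).comap (algebraMap F E) = W.comap (algebraMap F E) := by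
    intro W hW
    have h1 : ∀ x : F, x ∈ (W.comap (D.δ : E →+* E)).comap (algebraMap F E) ↔
        δ x ∈ W.comap (algebraMap F E) := by
      intro x
      rw [ValuationSubring.mem_comap, ValuationSubring.mem_comap, ValuationSubring.mem_comap]
      change δE (algebraMap F E x) ∈ W ↔ _
      rw [hδE]
    ext x
    rw [h1]
    rcases hP W hW with h2 | h2
    · rw [h2, hδ₁]
    · rw [h2, hδ₂]
  have hfixall := comap_eq_of_two D hz hπ hinj hO h.P₁ h.P₂ hP hδP
    (fun W W' hW hW' hWW u y hy hm hm' => e.hone hg hΦ hφ hgen W W' hW hW' hWW u y hy hm hm')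
    (fun W hW x hx => e.hres W hW x hx)
    (fun w hw p hp hpw => h.normal₁ hg hw p hp hpw)
    (fun w hw p hp hpw => h.normal₂ hg hw p hp hpw)
    (by
      obtain ⟨s, hs, b₁, hb₁, b₂, hb₂, h1, h2, h3⟩ := h.rad_inf hg
      exact ⟨s, hs, b₁, b₂, hb₁, hb₂, h1, h2, h3⟩)
    (fun b hb => by
      refine ⟨δ b, hA.mem_chart hA.δz hb, hδE b, ?_⟩
      rcases hcase with hin | hsq
      · obtain ⟨b₁, hb₁, b₂, hb₂, h1, h2, h3⟩ := hA.inert hg hin ⟨b, hb⟩
        exact ⟨1, b₁, b₂, hb₁, hb₂, h1, h2, by rw [pow_one]; exact h3⟩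
      · obtain ⟨b₁, hb₁, b₂, hb₂, h1, h2, h3⟩ := hΦ.frob_sq hg hφ ⟨b, hb⟩
        refine ⟨q * q, b₁, b₂, hb₁, hb₂, h1, h2, ?_⟩
        rw [hsq]
        exact h3)
    hW₁o hfix
  refine comm_of_comap_eq δE (fun a => ⟨_, hδE a⟩) (fun a => ⟨δ.symm a, ?_⟩) hfix
    (fun g hg' => e.stab₁ hπ g hg') (fun g => hfixall _ ?_) g x
  · rw [RingEquiv.symm_apply_eq, hδE, RingEquiv.apply_symm_apply]
  · refine ⟨fun x hx => ?_, ?_⟩
    · rw [IsScalarTower.algebraMap_apply K F E]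
      exact ((e.over₁ hz hπ).comap g).1 _ ((h.over₁ hz hπ).1 _ hx)
    · have := ((e.over₁ hz hπ).comap g).2
      rwa [← IsScalarTower.algebraMap_apply, IsScalarTower.algebraMap_apply O K E] at this

end Data

end Fermat.Agent.LG
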