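import Mathlib
import Fermat.Agent.LG.LevelQ4
import Fermat.Agent.Geo.SplitVal

/-!
Totally split extensions from density, second version: for all extensions.
-/

set_option autoImplicit false
set_option linter.unusedSectionVars false

open IsLocalRing Polynomial Fermat.Agent.Geo ModularCurve

noncomputable section

universe u

namespace Fermat.Agent.LG

section Dense

variable {F E : Type u} [Field F] [Field E] [Algebra F E]

/-- `F` is dense in `E` for `W`. -/
def IsDenseAt (F : Type u) {E : Type u} [Field F] [Field E] [Algebra F E] (ϖ : F)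
    (W : ValuationSubring E) : Prop :=
  ∀ x : E, ∀ n : ℕ, ∃ f : F, ∃ y ∈ W, x = algebraMap F E f + algebraMap F E ϖ ^ n * y

variable {V : ValuationSubring F} [IsDiscreteValuationRing V] [FiniteDimensional F E]
  {ϖ : V} (hϖ : Irreducible ϖ) {W : ValuationSubring E} (hW : Over V (ϖ : F) W)

include hϖ hW

theorem over_separated {x : E} (h : ∀ n : ℕ, ∃ y ∈ W, x = algebraMap F E ϖ ^ n * y) : x = 0 := by
  let _ : Algebra V E := ((algebraMap F E).comp V.toSubring.subtype).toAlgebra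
  have : IsScalarTower V F E := IsScalarTower.of_algebraMap_eq fun a => rfl
  by_contra hx0
  obtain ⟨a, ha0, ha⟩ := exists_smul_isIntegral (A := V) F x⁻¹
  obtain ⟨m, u, rfl⟩ := IsDiscreteValuationRing.eq_unit_mul_pow_irreducible ha0 hϖ
  have h1 : ((u : V) * ϖ ^ m) • x⁻¹ ∈ W :=
    mem_valuationSubring_of_isIntegralElem W ((algebraMap F E).comp V.toSubring.subtype)
      (fun v => hW.1 _ v.2) ha
  have h2 : algebraMap F E ϖ ^ m * x⁻¹ ∈ W := by
    have h3 : algebraMap F E ϖ ^ m * x⁻¹ = algebraMap F E ((u⁻¹ : Vˣ) : V) *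
        (((u : V) * ϖ ^ m) • x⁻¹) := by
      rw [Algebra.smul_def]
      change algebraMap F E ϖ ^ m * x⁻¹ = algebraMap F E ((u⁻¹ : Vˣ) : V) *
        (algebraMap F E (((u : V) * ϖ ^ m : V) : F) * x⁻¹)
      have h4 : ((((u⁻¹ : Vˣ) : V) : F)) * (((u : V) * ϖ ^ m : V) : F) = (ϖ : F) ^ m := by
        have : ((u⁻¹ : Vˣ) : V) * ((u : V) * ϖ ^ m) = ϖ ^ m := by
          rw [← mul_assoc, Units.inv_mul, one_mul]
        exact congrArg Subtype.val this
      rw [← mul_assoc, ← map_mul, h4, map_pow]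
    rw [h3]
    exact mul_mem (hW.1 _ (((u⁻¹ : Vˣ) : V)).2) h1
  obtain ⟨y, hy, hxy⟩ := h (m + 1)
  have hϖ0 : algebraMap F E ϖ ≠ 0 := by
    intro h0
    rw [map_eq_zero] at h0
    exact hϖ.ne_zero (Subtype.ext h0)
  have hy0 : y ≠ 0 := by
    rintro rfl
    rw [mul_zero] at hxy
    exact hx0 hxy
  apply notMem_nonunits_one W
  have h5 : (1 : E) = (algebraMap F E ϖ ^ m * x⁻¹) * (y * algebraMap F E ϖ) := by
    rw [hxy, pow_succ]
    field_simp
  rw [h5]
  exact mul_mem_nonunits h2 (mul_mem_nonunits hy hW.2)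

theorem residue_of_dense (hd : IsDenseAt F (ϖ : F) W) {x : E} (hx : x ∈ W) :
    ∃ f ∈ V, x - algebraMap F E f ∈ W.nonunits := by
  obtain ⟨f, y, hy, hxy⟩ := hd x 1
  have h1 : x - algebraMap F E f ∈ W.nonunits := by
    have : x - algebraMap F E f = y * algebraMap F E ϖ := by rw [hxy]; ring
    rw [this]
    exact mul_mem_nonunits hy hW.2
  refine ⟨f, ?_, h1⟩
  rw [← hW.mem_iff hϖ]
  have := sub_mem hx (ValuationSubring.nonunits_subset h1)
  rwa [sub_sub_cancel] at this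

theorem stab_of_dense (hd : IsDenseAt F (ϖ : F) W) (σ : E ≃ₐ[F] E)
    (hσ : W.comap (σ : E →+* E) = W) : σ = 1 := by
  have hσ' : ∀ x, σ x ∈ W ↔ x ∈ W := by
    intro x
    conv_rhs => rw [← hσ]
    rfl
  ext x
  rw [AlgEquiv.one_apply, ← sub_eq_zero]
  refine over_separated hϖ hW fun n => ?_
  obtain ⟨f, y, hy, hxy⟩ := hd x n
  refine ⟨σ y - y, sub_mem ((hσ' y).mpr hy) hy, ?_⟩
  rw [hxy, map_add, AlgEquiv.commutes, map_mul, map_pow, AlgEquiv.commutes]
  ring

theorem isUnrExt_of_dense (hd : IsDenseAt F (ϖ : F) W) : IsUnrExt V W (ϖ : F) where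
  le := hW.1
  nonunit := hW.2
  unif x hx := by
    obtain ⟨f, y, hy, hxy⟩ := hd x 1
    have hf : algebraMap F E f ∈ W.nonunits := by
      have : algebraMap F E f = x - y * algebraMap F E ϖ := by rw [hxy]; ring
      rw [this]
      exact sub_mem hx (mul_mem_nonunits hy hW.2)
    rw [hW.mem_nonunits_iff hϖ] at hf
    obtain ⟨hfV, hfm⟩ := ValuationSubring.mem_nonunits_iff_exists_mem_maximalIdeal.mp hf
    rw [hϖ.maximalIdeal_eq, Ideal.mem_span_singleton] at hfm
    obtain ⟨c, hc⟩ := hfm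
    have hfc : f = (ϖ : F) * c := congrArg Subtype.val hc
    refine ⟨algebraMap F E c + y, add_mem (hW.1 _ c.2) hy, ?_⟩
    rw [Algebra.smul_def, hxy, hfc, map_mul]
    ring
  sep x hx := by
    obtain ⟨f, hf, hxf⟩ := residue_of_dense hϖ hW hd hx
    refine ⟨X - C ⟨f, hf⟩, ?_, ?_⟩
    · rw [Polynomial.map_sub, Polynomial.map_X, map_C]
      exact separable_X_sub_C
    · rw [eval₂_sub, eval₂_X, eval₂_C]
      exact hxf

end Dense

section Kummer

variable {F E : Type u} [Field F] [Field E] [Algebra F E]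

/-- One of the factors is small. -/
theorem exists_small {ι : Type*} (S : Finset ι) (a : ι → E) {W : ValuationSubring E} {c : E}
    (hc : c ≠ 0) (h : ∃ y ∈ W, ∏ i ∈ S, a i = c ^ S.card * y) (hS : S.Nonempty) :
    ∃ i ∈ S, ∃ y ∈ W, a i = c * y := by
  by_contra hcon
  push Not at hcon
  have h1 : ∀ i ∈ S, a i ≠ 0 ∧ c / a i ∈ W.nonunits := by
    intro i hi
    have hai : a i ≠ 0 := by
      intro h0
      exact hcon i hi 0 (zero_mem _) (by rw [h0, mul_zero])
    refine ⟨hai, ?_⟩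
    rw [ValuationSubring.mem_nonunits_iff_or]
    right
    rw [inv_div]
    intro hmem
    exact hcon i hi _ hmem (by field_simp)
  obtain ⟨y, hy, hprod⟩ := h
  have h2 : ∏ i ∈ S, (c / a i) ∈ W.nonunits := by
    obtain ⟨i₀, hi₀⟩ := hS
    classical
    rw [← Finset.mul_prod_erase S _ hi₀, mul_comm]
    exact mul_mem_nonunits (prod_mem fun i hi =>
      ValuationSubring.nonunits_subset (h1 i (Finset.mem_of_mem_erase hi)).2) (h1 i₀ hi₀).2
  apply notMem_nonunits_one W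
  have h3 : (1 : E) = y * ∏ i ∈ S, (c / a i) := by
    rw [Finset.prod_div_distrib, Finset.prod_const, hprod]
    have hy0 : y ≠ 0 := by
      rintro rfl
      rw [mul_zero, Finset.prod_eq_zero_iff] at hprod
      obtain ⟨i, hi, h0⟩ := hprod
      exact (h1 i hi).1 h0
    have := pow_ne_zero S.card hc
    field_simp
  rw [h3]
  exact mul_mem_nonunits hy h2

variable {V : ValuationSubring F} [IsDiscreteValuationRing V]

theorem exists_pow_mul_mem_val {ϖ : V} (hϖ : Irreducible ϖ) (g : F) :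
    ∃ N : ℕ, (ϖ : F) ^ N * g ∈ V := by
  rcases V.mem_or_inv_mem g with h | h
  · exact ⟨0, by rw [pow_zero, one_mul]; exact h⟩
  · by_cases hg : g = 0
    · exact ⟨0, by rw [hg, mul_zero]; exact zero_mem _⟩
    have hg' : (⟨g⁻¹, h⟩ : V) ≠ 0 := fun h0 => inv_ne_zero hg (congrArg Subtype.val h0)
    obtain ⟨N, u, hu⟩ := IsDiscreteValuationRing.eq_unit_mul_pow_irreducible hg' hϖ
    refine ⟨N, ?_⟩
    have h1 : g⁻¹ = (u : V) * (ϖ : F) ^ N := congrArg Subtype.val hu
    have h2 : ((u : V) : F) * (((u⁻¹ : Vˣ) : V) : F) = 1 := congrArg Subtype.val (Units.mul_inv u)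
    have h3 : (ϖ : F) ^ N * g = (((u⁻¹ : Vˣ) : V) : F) := by
      have h4 : g⁻¹ * g = 1 := inv_mul_cancel₀ hg
      rw [h1] at h4
      have h5 : ((u : V) : F) ≠ 0 := left_ne_zero_of_mul_eq_one h2
      apply mul_left_cancel₀ h5
      rw [← mul_assoc, h4, h2]
    rw [h3]
    exact (((u⁻¹ : Vˣ) : V)).2

/-- Kummer elements of classes which are locally trivial are in the closure. -/
theorem dense_kummer {ϖ : V} (hϖ : Irreducible ϖ) {m : ℕ} (hm : 0 < m) {ζ : F}
    (hζ : IsPrimitiveRoot ζ m)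
    {W : ValuationSubring E} (hW : Over V (ϖ : F) W) {h : F} {y : E}
    (hy : y ^ m = algebraMap F E h)
    (hsp : ∀ n : ℕ, ∃ f : F, f ≠ 0 ∧ ∃ v ∈ V, f ^ m * h = 1 + (ϖ : F) ^ n * v) (n : ℕ) :
    ∃ f : F, ∃ y' ∈ W, y = algebraMap F E f + algebraMap F E ϖ ^ n * y' := by
  have hϖ0 : (ϖ : F) ≠ 0 := fun h0 => hϖ.ne_zero (Subtype.ext h0)
  have hϖE : algebraMap F E ϖ ≠ 0 := (_root_.map_ne_zero _).mpr hϖ0
  have hζE : IsPrimitiveRoot (algebraMap F E ζ) m := hζ.map_of_injective (algebraMap F E).injective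
  have : NeZero m := ⟨hm.ne'⟩
  by_cases hy0 : y = 0
  · exact ⟨0, 0, zero_mem _, by rw [hy0, map_zero, mul_zero, add_zero]⟩
  -- choose `f` with `(f y)^m = 1 + ϖ^(m (n' ))`
  have key : ∀ k : ℕ, ∃ f : F, f ≠ 0 ∧ ∃ y' ∈ W, algebraMap F E f * y = 1 +
      algebraMap F E ϖ ^ k * y' := by
    intro k
    obtain ⟨f, hf, v, hv, hfv⟩ := hsp (m * k)
    have h1 : (algebraMap F E f * y) ^ m - 1 ^ m =
        (algebraMap F E ϖ ^ k) ^ m * algebraMap F E v := by
      rw [mul_pow, hy, ← map_pow, ← map_mul, hfv, map_add, map_one, map_mul, map_pow, one_pow,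
        ← pow_mul, mul_comm k m]
      ring
    rw [hζE.pow_sub_pow_eq_prod_sub_mul _ _ hm] at h1
    have hcard : (Polynomial.nthRootsFinset m (1 : E)).card = m := hζE.card_nthRootsFinset
    have hne : (Polynomial.nthRootsFinset m (1 : E)).Nonempty := by
      rw [← Finset.card_pos, hcard]; exact hm
    obtain ⟨ξ, hξ, y', hy', hξy⟩ := exists_small (Polynomial.nthRootsFinset m (1 : E))
      (fun ξ => algebraMap F E f * y - ξ * 1) (W := W) (pow_ne_zero k hϖE)
      ⟨algebraMap F E v, hW.1 _ hv, by rw [hcard]; exact h1⟩ hne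
    have hξ1 : ξ ^ m = 1 := (Polynomial.mem_nthRootsFinset hm _).mp hξ
    obtain ⟨i, -, hi⟩ := hζE.eq_pow_of_pow_eq_one hξ1
    have hξ0 : ξ ≠ 0 := by
      rintro rfl
      rw [zero_pow hm.ne'] at hξ1
      exact zero_ne_one hξ1
    have hζi : ζ ^ i ≠ 0 := pow_ne_zero _ (hζ.ne_zero hm.ne')
    have hξF : ξ = algebraMap F E (ζ ^ i) := by rw [map_pow]; exact hi.symm
    have hξW : ξ⁻¹ ∈ W := by
      have h2 : (ξ⁻¹) ^ m = 1 := by rw [inv_pow, hξ1, inv_one]
      rcases W.mem_or_inv_mem ξ⁻¹ with h3 | h3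
      · exact h3
      · rw [inv_inv] at h3
        have h4 : ξ⁻¹ = ξ ^ (m - 1) := by
          symm
          apply eq_inv_of_mul_eq_one_left
          rw [← pow_succ, Nat.sub_add_cancel hm, hξ1]
        rw [h4]
        exact pow_mem h3 _
    refine ⟨f / ζ ^ i, div_ne_zero hf hζi, ξ⁻¹ * y', mul_mem hξW hy', ?_⟩
    rw [map_div₀, ← hξF]
    have h5 : algebraMap F E f * y = ξ + algebraMap F E ϖ ^ k * y' := by
      linear_combination hξy
    rw [div_mul_eq_mul_div, h5]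
    field_simp
  -- `f⁻¹ / y` is a unit
  have hunit : ∀ {k : ℕ} {f : F} {y' : E}, 1 ≤ k → f ≠ 0 → y' ∈ W →
      algebraMap F E f * y = 1 + algebraMap F E ϖ ^ k * y' →
      (algebraMap F E f * y) ∈ W ∧ (algebraMap F E f * y)⁻¹ ∈ W := by
    intro k f y' hk hf hy' h
    obtain ⟨k, rfl⟩ := Nat.exists_eq_succ_of_ne_zero (Nat.one_le_iff_ne_zero.mp hk)
    have h1 : algebraMap F E ϖ ^ (k + 1) * y' ∈ W.nonunits := by
      rw [pow_succ, mul_comm, ← mul_assoc]
      exact mul_mem_nonunits (mul_mem hy' (pow_mem (ValuationSubring.nonunits_subset hW.2) _)) hW.2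
    have h2 : algebraMap F E f * y ∈ W := by
      rw [h]
      exact add_mem (one_mem _) (ValuationSubring.nonunits_subset h1)
    refine ⟨h2, inv_mem_of_notMem_nonunits fun h3 => notMem_nonunits_one W ?_⟩
    have h4 : (1 : E) = algebraMap F E f * y - algebraMap F E ϖ ^ (k + 1) * y' := by
      rw [h, add_sub_cancel_right]
    rw [h4]
    exact sub_mem h3 h1
  -- bound the size of `f`
  obtain ⟨f₀, hf₀, y₀, hy₀, hfy₀⟩ := key 1
  obtain ⟨N, hN⟩ := exists_pow_mul_mem_val hϖ f₀⁻¹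
  obtain ⟨f, hf, y', hy', hfy⟩ := key (n + N + 1)
  have h1 := hunit le_rfl hf₀ hy₀ hfy₀
  have h2 := hunit (by omega) hf hy' hfy
  have hfE : algebraMap F E f ≠ 0 := (_root_.map_ne_zero _).mpr hf
  have hf₀E : algebraMap F E f₀ ≠ 0 := (_root_.map_ne_zero _).mpr hf₀
  have h3 : algebraMap F E ϖ ^ N * algebraMap F E f⁻¹ ∈ W := by
    have h4 : algebraMap F E ϖ ^ N * algebraMap F E f⁻¹ = algebraMap F E ((ϖ : F) ^ N * f₀⁻¹) *
        ((algebraMap F E f₀ * y) * (algebraMap F E f * y)⁻¹) := by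
      rw [map_mul, map_pow, map_inv₀, map_inv₀]
      field_simp
    rw [h4]
    exact mul_mem (hW.1 _ hN) (mul_mem h1.1 h2.2)
  refine ⟨f⁻¹, algebraMap F E ϖ * ((algebraMap F E ϖ ^ N * algebraMap F E f⁻¹) * y'),
    mul_mem (ValuationSubring.nonunits_subset hW.2) (mul_mem h3 hy'), ?_⟩
  have h4 : y = algebraMap F E f⁻¹ * (algebraMap F E f * y) := by
    rw [map_inv₀, ← mul_assoc, inv_mul_cancel₀ hfE, one_mul]
  rw [h4, hfy, pow_succ, pow_add]
  ring

end Kummer

end Fermat.Agent.LG
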