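import Mathlib
import Fermat.Agent.LG.Dense2
import Fermat.Agent.LG.TFun
import Fermat.Agent.Geo.CenterLE

/-!
The point at infinity.
-/

set_option autoImplicit false
set_option linter.unusedSectionVars false

open IsLocalRing Polynomial Fermat.Agent.Geo ModularCurve

noncomputable section

universe u

namespace Fermat.Agent.LG

section CR

variable (O L : Type u) [CommRing O] [IsDomain O] [IsDiscreteValuationRing O]
  [Field L] [Algebra O L] [IsFractionRing O L]

/-- The composite valuation ring: regular at `q = 0`, with integral value. -/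
def cR : ValuationSubring (LaurentSeries L) where
  carrier := {x | (∀ n < 0, x.coeff n = 0) ∧ ∃ a : O, x.coeff 0 = algebraMap O L a}
  mul_mem' := by
    rintro x y ⟨hx, a, ha⟩ ⟨hy, b, hb⟩
    have h1 := coeff_mul_of_lt hx hy
    refine ⟨fun n hn => h1.1 n (by simpa using hn), a * b, ?_⟩
    have h2 := h1.2
    rw [add_zero] at h2
    rw [h2, ha, hb, map_mul]
  one_mem' := ⟨fun n hn => by rw [HahnSeries.coeff_one, if_neg hn.ne], 1, by simp⟩
  add_mem' := by
    rintro x y ⟨hx, a, ha⟩ ⟨hy, b, hb⟩
    refine ⟨fun n hn => by rw [HahnSeries.coeff_add, hx n hn, hy n hn, add_zero], a + b, ?_⟩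
    rw [HahnSeries.coeff_add, ha, hb, map_add]
  zero_mem' := ⟨fun n _ => HahnSeries.coeff_zero, 0, by simp⟩
  neg_mem' := by
    rintro x ⟨hx, a, ha⟩
    refine ⟨fun n hn => by rw [HahnSeries.coeff_neg, hx n hn, neg_zero], -a, ?_⟩
    rw [HahnSeries.coeff_neg, ha, map_neg]
  mem_or_inv_mem' := by
    intro x
    by_cases hx : x = 0
    · left
      rw [hx]
      exact ⟨fun n _ => HahnSeries.coeff_zero, 0, by simp⟩
    have hxi : x⁻¹ ≠ 0 := inv_ne_zero hx
    have h1 : x * x⁻¹ = 1 := mul_inv_cancel₀ hx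
    have h2 : x.order + x⁻¹.order = 0 := by
      rw [← HahnSeries.order_mul hx hxi, h1, HahnSeries.order_one]
    have h3 : x.coeff x.order * x⁻¹.coeff x⁻¹.order = 1 := by
      have := HahnSeries.coeff_mul_order_add_order x x⁻¹
      rw [h2, h1, HahnSeries.coeff_one, if_pos rfl, HahnSeries.leadingCoeff_eq,
        HahnSeries.leadingCoeff_eq] at this
      exact this.symm
    rcases lt_trichotomy x.order 0 with h | h | h
    · right
      refine ⟨fun n hn => HahnSeries.coeff_eq_zero_of_lt_order (by omega), 0, ?_⟩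
      rw [map_zero]
      exact HahnSeries.coeff_eq_zero_of_lt_order (by omega)
    · rw [h, zero_add] at h2
      rw [h, h2] at h3
      rcases IsDiscreteValuationRing.exists_irreducible O with ⟨ϖ, hϖ⟩
      obtain ⟨a, ha⟩ | ⟨a, ha⟩ := (ValuationRing.isInteger_or_isInteger O (x.coeff 0)
        : IsLocalization.IsInteger O (x.coeff 0) ∨ IsLocalization.IsInteger O (x.coeff 0)⁻¹)
      · left
        exact ⟨fun n hn => HahnSeries.coeff_eq_zero_of_lt_order (by omega), a, ha.symm⟩
      · right
        refine ⟨fun n hn => HahnSeries.coeff_eq_zero_of_lt_order (by omega), a, ?_⟩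
        rw [ha]
        exact eq_inv_of_mul_eq_one_right h3
    · left
      refine ⟨fun n hn => HahnSeries.coeff_eq_zero_of_lt_order (by omega), 0, ?_⟩
      rw [map_zero]
      exact HahnSeries.coeff_eq_zero_of_lt_order (by omega)

variable {O L}

theorem mem_cR {x : LaurentSeries L} : x ∈ cR O L ↔
    (∀ n < 0, x.coeff n = 0) ∧ ∃ a : O, x.coeff 0 = algebraMap O L a := Iff.rfl

theorem mem_cR_nonunits {x : LaurentSeries L} : x ∈ (cR O L).nonunits ↔
    (∀ n < 0, x.coeff n = 0) ∧ ∃ a ∈ maximalIdeal O, x.coeff 0 = algebraMap O L a := by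
  constructor
  · intro h
    obtain ⟨h1, a, ha⟩ := ValuationSubring.nonunits_subset h
    refine ⟨h1, a, ?_, ha⟩
    rw [mem_maximalIdeal, mem_nonunits_iff]
    intro hu
    obtain ⟨b, hb⟩ := hu.exists_right_inv
    have hx0 : x.coeff 0 ≠ 0 := by
      intro h0
      rw [h0] at ha
      have := (IsFractionRing.to_map_eq_zero_iff (K := L)).mp ha.symm
      rw [this, zero_mul] at hb
      exact zero_ne_one hb
    have hx : x ≠ 0 := by
      rintro rfl
      exact hx0 HahnSeries.coeff_zero
    have ho : x.order = 0 := by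
      refine le_antisymm (HahnSeries.order_le_of_coeff_ne_zero hx0) ?_
      by_contra hlt
      rw [not_le] at hlt
      exact (HahnSeries.leadingCoeff_ne_zero.mpr hx) (by
        rw [HahnSeries.leadingCoeff_eq]; exact h1 _ hlt)
    rw [ValuationSubring.mem_nonunits_iff_or] at h
    rcases h with h | h
    · exact hx h
    · apply h
      have hxi : x⁻¹ ≠ 0 := inv_ne_zero hx
      have h1 : x * x⁻¹ = 1 := mul_inv_cancel₀ hx
      have h2 : x.order + x⁻¹.order = 0 := by
        rw [← HahnSeries.order_mul hx hxi, h1, HahnSeries.order_one]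
      have h3 : x.coeff x.order * x⁻¹.coeff x⁻¹.order = 1 := by
        have := HahnSeries.coeff_mul_order_add_order x x⁻¹
        rw [h2, h1, HahnSeries.coeff_one, if_pos rfl, HahnSeries.leadingCoeff_eq,
          HahnSeries.leadingCoeff_eq] at this
        exact this.symm
      rw [ho, zero_add] at h2
      rw [ho, h2, ha] at h3
      refine ⟨fun n hn => HahnSeries.coeff_eq_zero_of_lt_order (by omega), b, ?_⟩
      have h4 : algebraMap O L a * algebraMap O L b = 1 := by rw [← map_mul, hb, map_one]
      have h5 : algebraMap O L a ≠ 0 := left_ne_zero_of_mul_eq_one h4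
      exact mul_left_cancel₀ h5 (h3.trans h4.symm)
  · rintro ⟨h1, a, ha, hxa⟩
    rw [ValuationSubring.mem_nonunits_iff_or]
    by_contra hcon
    rw [not_or, not_not] at hcon
    obtain ⟨hx, h2, b, hb⟩ := hcon
    have h3 := (coeff_mul_of_lt h1 h2).2
    rw [add_zero, mul_inv_cancel₀ hx, HahnSeries.coeff_one, if_pos rfl, hxa, hb, ← map_mul] at h3
    have h4 : a * b = 1 := IsFractionRing.injective O L (by rw [← h3, map_one])
    exact ha (IsUnit.of_mul_eq_one _ h4)

theorem cR_coeffMap (d : O ≃+* O) {x : LaurentSeries L} :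
    coeffMap (dL L d : L →+* L) x ∈ cR O L ↔ x ∈ cR O L := by
  have h1 : ∀ (d : O ≃+* O) (x : LaurentSeries L), x ∈ cR O L →
      coeffMap (dL L d : L →+* L) x ∈ cR O L := by
    rintro d x ⟨h1, a, ha⟩
    refine ⟨fun n hn => ?_, d a, ?_⟩
    · rw [coeffMap_coeff, h1 n hn, map_zero]
    · rw [coeffMap_coeff, ha]
      exact dL_algebraMap d a
  refine ⟨fun h => ?_, h1 d x⟩
  have h2 := h1 d.symm _ h
  have h3 : coeffMap (dL L d.symm : L →+* L) (coeffMap (dL L d : L →+* L) x) = x := by
    ext n
    rw [coeffMap_coeff, coeffMap_coeff]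
    exact dL_symm d _
  rwa [h3] at h2

/-- Elements of `gK` which are integral over the power series ring are power series. -/
theorem exists_powerSeries {x : LaurentSeries L} (hx : x ∈ gK O L)
    (φ : PowerSeries O →+* LaurentSeries L)
    (hφ : ∀ P, φ P = toL O L (HahnSeries.ofPowerSeries ℤ O P)) (hint : φ.IsIntegralElem x) :
    ∃ P : PowerSeries O, x = toL O L (HahnSeries.ofPowerSeries ℤ O P) := by
  obtain ⟨a, b, hb, hab⟩ := hx
  -- make `a` and `b` power series
  obtain ⟨A, B, hB, hAB⟩ : ∃ A B : PowerSeries O, B ≠ 0 ∧ φ B * x = φ A := by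
    obtain ⟨n, A, hA⟩ : ∃ (n : ℕ) (A : PowerSeries O), HahnSeries.single (n : ℤ) (1 : O) * a =
        HahnSeries.ofPowerSeries ℤ O A := by
      obtain ⟨n, hn⟩ : ∃ n : ℕ, -(n : ℤ) ≤ a.order := ⟨(-a.order).toNat, by omega⟩
      refine ⟨n, PowerSeries.mk fun k => a.coeff ((k : ℤ) - n), ?_⟩
      ext k
      have hk : k = (k - n) + n := by ring
      conv_lhs => rw [hk, HahnSeries.coeff_single_mul_add, one_mul]
      rw [PowerSeries.coeff_coe]
      split_ifs with h
      · exact HahnSeries.coeff_eq_zero_of_lt_order (by omega)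
      · rw [PowerSeries.coeff_mk]
        congr 1
        omega
    obtain ⟨m, B, hB⟩ : ∃ (m : ℕ) (B : PowerSeries O), HahnSeries.single (m : ℤ) (1 : O) * b =
        HahnSeries.ofPowerSeries ℤ O B := by
      obtain ⟨n, hn⟩ : ∃ n : ℕ, -(n : ℤ) ≤ b.order := ⟨(-b.order).toNat, by omega⟩
      refine ⟨n, PowerSeries.mk fun k => b.coeff ((k : ℤ) - n), ?_⟩
      ext k
      have hk : k = (k - n) + n := by ring
      conv_lhs => rw [hk, HahnSeries.coeff_single_mul_add, one_mul]
      rw [PowerSeries.coeff_coe]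
      split_ifs with h
      · exact HahnSeries.coeff_eq_zero_of_lt_order (by omega)
      · rw [PowerSeries.coeff_mk]
        congr 1
        omega
    refine ⟨PowerSeries.X ^ m * A, PowerSeries.X ^ n * B, ?_, ?_⟩
    · refine mul_ne_zero (pow_ne_zero _ PowerSeries.X_ne_zero) ?_
      rintro rfl
      rw [map_zero] at hB
      have h1 : (HahnSeries.single (m : ℤ) (1 : O) : LaurentSeries O) ≠ 0 := by simp
      exact mul_ne_zero h1 hb hB
    · have hXn : ∀ k : ℕ, HahnSeries.ofPowerSeries ℤ O (PowerSeries.X ^ k) =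
          HahnSeries.single (k : ℤ) (1 : O) := by
        intro k
        exact HahnSeries.ofPowerSeries_X_pow k
      have e1 : HahnSeries.ofPowerSeries ℤ O (PowerSeries.X ^ n * B) =
          HahnSeries.single (n : ℤ) (1 : O) * (HahnSeries.single (m : ℤ) (1 : O) * b) := by
        rw [map_mul, hXn, hB]
      have e2 : HahnSeries.ofPowerSeries ℤ O (PowerSeries.X ^ m * A) =
          HahnSeries.single (m : ℤ) (1 : O) * (HahnSeries.single (n : ℤ) (1 : O) * a) := by
        rw [map_mul, hXn, hA]
      rw [hφ, hφ, e1, e2, map_mul, map_mul, map_mul, map_mul, ← hab]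
      ring
  -- the fraction field
  have hφinj : Function.Injective φ := by
    rw [injective_iff_map_eq_zero]
    intro P hP
    rw [hφ] at hP
    have h1 : HahnSeries.ofPowerSeries ℤ O P = 0 := toL_injective O L (by rw [hP, map_zero])
    exact HahnSeries.ofPowerSeries_injective (by rw [h1, map_zero])
  let j : FractionRing (PowerSeries O) →+* LaurentSeries L := IsFractionRing.lift hφinj
  have hj : ∀ P, j (algebraMap (PowerSeries O) _ P) = φ P := fun P =>
    IsFractionRing.lift_algebraMap hφinj P
  set y : FractionRing (PowerSeries O) := algebraMap (PowerSeries O) _ A / algebraMap _ _ B with hy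
  have hjy : j y = x := by
    have hB' : φ B ≠ 0 := (map_ne_zero_iff _ hφinj).mpr hB
    rw [hy, map_div₀, hj, hj, ← hAB, mul_div_cancel_left₀ _ hB']
  have hyint : IsIntegral (PowerSeries O) y := by
    obtain ⟨p, hp, hpx⟩ := hint
    refine ⟨p, hp, j.injective ?_⟩
    rw [map_zero, hom_eval₂, hjy, ← hpx]
    congr 1
    exact RingHom.ext fun P => hj P
  obtain ⟨P, hP⟩ := IsIntegrallyClosed.isIntegral_iff.mp hyint
  exact ⟨P, by rw [← hφ, ← hj, hP, hjy]⟩

end CR

end Fermat.Agent.LG
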