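import Mathlib
import Fermat.Agent.LG.ELevel
import Fermat.Agent.LG.Inf

/-!
The action of inertia and of the square of Frobenius on a covering, totally split over the two
components (density version).
-/

set_option autoImplicit false
set_option linter.unusedSectionVars false

open IsLocalRing Polynomial Fermat.Agent.Geo ModularCurve

noncomputable section

universe u

namespace Fermat.Agent.LG

section Data

variable {O L K₁ M K F E : Type u} [CommRing O] [IsDomain O] [IsDiscreteValuationRing O]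
  [Field L] [Algebra O L] [IsFractionRing O L] [Field K₁] [Field M] [Field K] [Field F] [Field E]
  [Algebra O K₁] [Algebra O M] [Algebra O K] [Algebra O F] [Algebra O E]
  [Algebra K₁ M] [Algebra M F] [Algebra K F] [Algebra K E] [Algebra F E]
  {q : ℕ} [NeZero q] {t : K₁} {z : K} {T : LaurentSeries O}
  {θ : F →+* LaurentSeries L} {w : F ≃+* F} {π : O}
  [IsScalarTower O K F] [IsScalarTower O K₁ M] [IsScalarTower O M F]
  [IsScalarTower O K E] [IsScalarTower O F E] [IsScalarTower K F E]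

/-- A covering, totally split over the two components. -/
structure EDense (h : LData M q t z T θ w) (π : O) (θE : E →+* LaurentSeries L) : Prop where
  r : ∀ x : F, θE (algebraMap F E x) = θ x
  zi : ∃ P : PowerSeries O, PowerSeries.constantCoeff P = 0 ∧
    θ (algebraMap K F z)⁻¹ = toL O L (HahnSeries.ofPowerSeries ℤ O P)
  hd₁ : ∀ W : ValuationSubring E, Over h.P₁ (algebraMap O F π) W →
    IsDenseAt F (algebraMap O F π) W
  hd₂ : ∀ W : ValuationSubring E, Over h.P₂ (algebraMap O F π) W →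
    IsDenseAt F (algebraMap O F π) W

variable {h : LData M q t z T θ w} {θE : E →+* LaurentSeries L}

theorem EDense.C (e : EDense h π θE) (a : O) :
    θE (algebraMap O E a) = HahnSeries.C (algebraMap O L a) := by
  rw [IsScalarTower.algebraMap_apply O F E, e.r, h.θC]

/-- Integral elements in the chart at infinity have integral expansions. -/
theorem EDense.exists_powerSeries (e : EDense h π θE) {b : F}
    (hb : b ∈ chart O (algebraMap K F z)⁻¹) :
    ∃ P : PowerSeries O, θ b = toL O L (HahnSeries.ofPowerSeries ℤ O P) := by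
  obtain ⟨Z, hZ0, hZ⟩ := e.zi
  let φ : PowerSeries O →+* LaurentSeries L := (toL O L).comp (HahnSeries.ofPowerSeries ℤ O)
  refine Fermat.Agent.LG.exists_powerSeries (h.hgK b) φ (fun P => rfl) ?_
  obtain ⟨p, hp, hpb⟩ := hb
  let ψ : O[X] →+* PowerSeries O := ((aeval Z : O[X] →ₐ[O] PowerSeries O) : O[X] →+* PowerSeries O)
  refine ⟨p.map ψ, hp.map _, ?_⟩
  have hC : ∀ a : O, φ (PowerSeries.C a) = HahnSeries.C (algebraMap O L a) := by
    intro a
    change toL O L (HahnSeries.ofPowerSeries ℤ O (PowerSeries.C a)) = _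
    rw [HahnSeries.ofPowerSeries_C]
    ext n
    rw [toL_coeff, HahnSeries.C_apply, HahnSeries.C_apply]
    rcases eq_or_ne n 0 with rfl | hn
    · rw [HahnSeries.coeff_single_same, HahnSeries.coeff_single_same]
    · rw [HahnSeries.coeff_single_of_ne hn, HahnSeries.coeff_single_of_ne hn, map_zero]
  have h1 : φ.comp ψ = θ.comp ((aeval (algebraMap K F z)⁻¹ : O[X] →ₐ[O] F) : O[X] →+* F) := by
    refine Polynomial.ringHom_ext (fun a => ?_) ?_
    · change φ (aeval Z (Polynomial.C a)) = θ (aeval _ (Polynomial.C a))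
      rw [aeval_C, aeval_C, h.θC]
      exact hC a
    · change φ (aeval Z X) = θ (aeval _ X)
      rw [aeval_X, aeval_X, hZ]
      rfl
  rw [eval₂_map, h1, ← hom_eval₂, hpb, map_zero]

/-- The reduction of the expansion. -/
theorem EDense.nonunits_of_chart (e : EDense h π θE) {b : F}
    (hb : b ∈ chart O (algebraMap K F z)⁻¹) (hb' : b ∈ h.P₁.nonunits) :
    θ b ∈ (cR O L).nonunits := by
  obtain ⟨P, hP⟩ := e.exists_powerSeries hb
  have hbV : θ b ∈ gV O L := by rw [hP]; exact toL_mem_gV _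
  have h1 := (mem_nonunits_iff_gR (hθ := h.hgK) hbV).mp hb'
  have h2 : gR (⟨θ b, hbV⟩ : gV O L) = toK O (HahnSeries.ofPowerSeries ℤ O P) := by
    rw [← gR_toL (L := L)]
    congr 1
    exact Subtype.ext hP
  rw [h2] at h1
  rw [mem_cR_nonunits, hP]
  refine ⟨fun n hn => ?_, P.coeff 0, ?_, ?_⟩
  · rw [toL_coeff, PowerSeries.coeff_coe, if_pos hn, map_zero]
  · have h3 := congrArg (fun x : LaurentSeries (ResidueField O) => x.coeff 0) h1
    simp only [toK_coeff, PowerSeries.coeff_coe, lt_self_iff_false, if_false, Int.natAbs_zero,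
      HahnSeries.coeff_zero] at h3
    rwa [residue_eq_zero_iff] at h3
  · rw [toL_coeff, PowerSeries.coeff_coe, if_neg (lt_irrefl _), Int.natAbs_zero]

theorem EDense.θE_zinv (e : EDense h π θE) :
    θE (algebraMap K E z)⁻¹ ∈ (cR O L).nonunits := by
  obtain ⟨Z, hZ0, hZ⟩ := e.zi
  have h1 : θE (algebraMap K E z)⁻¹ = θ (algebraMap K F z)⁻¹ := by
    rw [← e.r, map_inv₀ (algebraMap F E), ← IsScalarTower.algebraMap_apply]
  rw [h1, hZ, mem_cR_nonunits]
  refine ⟨fun n hn => ?_, Z.coeff 0, ?_, ?_⟩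
  · rw [toL_coeff, PowerSeries.coeff_coe, if_pos hn, map_zero]
  · have : PowerSeries.coeff 0 Z = 0 := by
      rw [PowerSeries.coeff_zero_eq_constantCoeff]
      exact hZ0
    rw [this]
    exact zero_mem _
  · rw [toL_coeff, PowerSeries.coeff_coe, if_neg (lt_irrefl _), Int.natAbs_zero]

theorem EDense.θE_C (e : EDense h π θE) (a : O) : θE (algebraMap O E a) ∈ cR O L := by
  rw [e.C, mem_cR]
  refine ⟨fun n hn => ?_, a, ?_⟩
  · rw [HahnSeries.C_apply, HahnSeries.coeff_single_of_ne hn.ne]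
  · rw [HahnSeries.C_apply, HahnSeries.coeff_single_same]

theorem EDense.θE_C_nonunits (e : EDense h π θE) {a : O} (ha : a ∈ maximalIdeal O) :
    θE (algebraMap O E a) ∈ (cR O L).nonunits := by
  rw [e.C, mem_cR_nonunits]
  refine ⟨fun n hn => ?_, a, ha, ?_⟩
  · rw [HahnSeries.C_apply, HahnSeries.coeff_single_of_ne hn.ne]
  · rw [HahnSeries.C_apply, HahnSeries.coeff_single_same]

theorem EDense.aeval_mem_cR (e : EDense h π θE) (p : O[X]) :
    θE (aeval (algebraMap K E z)⁻¹ p) ∈ cR O L := by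
  rw [aeval_eq_sum_range, map_sum]
  refine sum_mem fun i _ => ?_
  rw [Algebra.smul_def, map_mul, map_pow]
  exact mul_mem (e.θE_C _) (pow_mem (ValuationSubring.nonunits_subset e.θE_zinv) _)

theorem EDense.chart_mem_cR (e : EDense h π θE) {x : E}
    (hx : x ∈ chart O (algebraMap K E z)⁻¹) : θE x ∈ cR O L := by
  have h1 : x ∈ (cR O L).comap θE :=
    mem_valuationSubring_of_isIntegralElem ((cR O L).comap θE)
      ((aeval (algebraMap K E z)⁻¹ : O[X] →ₐ[O] E) : O[X] →+* E)
      (fun p => e.aeval_mem_cR p) hx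
  exact h1

/-- the inclusion -/
def EDense.inc (e : EDense h π θE) : chart O (algebraMap K E z)⁻¹ →+* cR O L :=
  (θE.comp (chart O (algebraMap K E z)⁻¹).val.toRingHom).codRestrict (cR O L).toSubring
    fun x => e.chart_mem_cR x.2

/-- The point at infinity. -/
def EDense.pt (e : EDense h π θE) : Ideal (chart O (algebraMap K E z)⁻¹) :=
  (maximalIdeal (cR O L)).comap e.inc

theorem EDense.mem_pt (e : EDense h π θE) {x : chart O (algebraMap K E z)⁻¹} :
    x ∈ e.pt ↔ θE (x : E) ∈ (cR O L).nonunits := by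
  rw [EDense.pt, Ideal.mem_comap, ValuationSubring.mem_nonunits_iff_exists_mem_maximalIdeal]
  exact ⟨fun h => ⟨e.chart_mem_cR x.2, h⟩, fun ⟨_, h⟩ => h⟩

theorem EDense.pt_isPrime (e : EDense h π θE) : e.pt.IsPrime := Ideal.IsPrime.comap _

/-- evaluation in the chart at infinity -/
def EDense.ev (_e : EDense h π θE) : O[X] →+* chart O (algebraMap K E z)⁻¹ :=
  ((aeval (algebraMap K E z)⁻¹ : O[X] →ₐ[O] E) : O[X] →+* E).codRestrict
    (chart O (algebraMap K E z)⁻¹).toSubring fun p => aeval_mem_chart _ p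

theorem EDense.pt_isMaximal (e : EDense h π θE) : e.pt.IsMaximal := by
  have h1 := e.pt_isPrime
  have hint : e.ev.IsIntegral := by
    rintro ⟨x, hx⟩
    obtain ⟨p, hp, hpx⟩ := hx
    refine ⟨p, hp, Subtype.ext ?_⟩
    have h2 : ((p.eval₂ e.ev ⟨x, ⟨p, hp, hpx⟩⟩ : chart O (algebraMap K E z)⁻¹) : E) =
        p.eval₂ ((chart O (algebraMap K E z)⁻¹).val.toRingHom.comp e.ev) x :=
      hom_eval₂ p e.ev (chart O (algebraMap K E z)⁻¹).val.toRingHom _
    rw [h2]
    exact hpx
  refine Ideal.isMaximal_of_isIntegral_of_isMaximal_comap' e.ev hint e.pt ?_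
  let φ : O[X] →+* ResidueField O := (residue O).comp constantCoeff
  have hφ : Function.Surjective φ := by
    intro a
    obtain ⟨b, rfl⟩ := residue_surjective a
    exact ⟨Polynomial.C b, by simp [φ]⟩
  have hker : (RingHom.ker φ).IsMaximal := RingHom.ker_isMaximal_of_surjective φ hφ
  have hle : RingHom.ker φ ≤ e.pt.comap e.ev := by
    intro p hp
    rw [Ideal.mem_comap, e.mem_pt]
    change θE (aeval (algebraMap K E z)⁻¹ p) ∈ _
    obtain ⟨r, hr⟩ : ∃ r, p = Polynomial.C (p.coeff 0) + X * r := by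
      have : X ∣ p - Polynomial.C (p.coeff 0) := by
        rw [X_dvd_iff, coeff_sub, coeff_C_zero, sub_self]
      obtain ⟨r, hr⟩ := this
      exact ⟨r, by rw [← hr]; ring⟩
    have h2 : p.coeff 0 ∈ maximalIdeal O := by
      have : residue O (p.coeff 0) = 0 := hp
      rwa [residue_eq_zero_iff] at this
    rw [hr, map_add, aeval_C, map_mul, aeval_X, map_add, map_mul, mul_comm]
    have h3 := e.θE_C_nonunits h2
    have h4 := mul_mem_nonunits (e.aeval_mem_cR r) e.θE_zinv
    rw [ValuationSubring.mem_nonunits_iff_exists_mem_maximalIdeal] at h3 h4 ⊢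
    obtain ⟨a, ha⟩ := h3
    obtain ⟨b, hb⟩ := h4
    exact ⟨add_mem a b, (maximalIdeal (cR O L)).add_mem ha hb⟩
  rw [← hker.eq_of_le (Ideal.comap_ne_top _ e.pt_isPrime.ne_top) hle]
  exact hker

theorem EDense.isPt (e : EDense h π θE) : IsPt z (algebraMap K E z)⁻¹ e.pt :=
  ⟨e.pt_isMaximal, Or.inr ⟨rfl, e.mem_pt.mpr e.θE_zinv⟩⟩

theorem EDense.map_mem_pt (e : EDense h π θE) {d : O ≃+* O} {δE : E ≃+* E}
    (hδθ : ∀ x : E, θE (δE x) = coeffMap (dL L d : L →+* L) (θE x))
    {x : E} (hx : x ∈ chart O (algebraMap K E z)⁻¹)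
    (hx' : δE x ∈ chart O (algebraMap K E z)⁻¹) :
    (⟨δE x, hx'⟩ : chart O (algebraMap K E z)⁻¹) ∈ e.pt ↔
    (⟨x, hx⟩ : chart O (algebraMap K E z)⁻¹) ∈ e.pt := by
  rw [e.mem_pt, e.mem_pt]
  change θE (δE x) ∈ _ ↔ θE x ∈ _
  rw [hδθ, ValuationSubring.mem_nonunits_iff_or, ValuationSubring.mem_nonunits_iff_or,
    ← map_inv₀ (coeffMap (dL L d : L →+* L)), cR_coeffMap, map_eq_zero]

variable [FiniteDimensional K F] [Algebra.IsSeparable K F] [FiniteDimensional K₁ M]
  [Algebra.IsSeparable K₁ M] [CharZero O] [FiniteDimensional K E] [FiniteDimensional F E]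
  [Algebra.IsSeparable K E] [IsGalois F E]
variable {ht : IsParam O t} {hz : IsParam O z} {hπ : Prime π}

theorem EDense.unr₁ (e : EDense h π θE) (hz : IsParam O z) (hπ : Prime π) :
    Unr h.P₁.toSubring E := by
  obtain ⟨h1, ϖ, h2, h3⟩ := h.unif₁ hz hπ
  refine unr_of_forall_isUnrExt h2 fun W hW1 hW2 => ?_
  refine isUnrExt_of_dense h2 ⟨hW1, hW2⟩ ?_
  rw [h3]
  exact e.hd₁ W ⟨hW1, by rw [← h3]; exact hW2⟩

theorem EDense.unr₂ (e : EDense h π θE) (hz : IsParam O z) (hπ : Prime π) :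
    Unr h.P₂.toSubring E := by
  obtain ⟨h1, ϖ, h2, h3⟩ := h.unif₂ hz hπ
  refine unr_of_forall_isUnrExt h2 fun W hW1 hW2 => ?_
  refine isUnrExt_of_dense h2 ⟨hW1, hW2⟩ ?_
  rw [h3]
  exact e.hd₂ W ⟨hW1, by rw [← h3]; exact hW2⟩

theorem EDense.stab₁ (e : EDense h π θE) (hz : IsParam O z) (hπ : Prime π)
    {W : ValuationSubring E} (hW : Over h.P₁ (algebraMap O F π) W) (σ : E ≃ₐ[F] E)
    (hσ : W.comap (σ : E →+* E) = W) : σ = 1 := by
  obtain ⟨h1, ϖ, h2, h3⟩ := h.unif₁ hz hπ
  exact stab_of_dense h2 (by rw [h3]; exact hW) (by rw [h3]; exact e.hd₁ W hW) σ hσ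

theorem EDense.stab₂ (e : EDense h π θE) (hz : IsParam O z) (hπ : Prime π)
    {W : ValuationSubring E} (hW : Over h.P₂ (algebraMap O F π) W) (σ : E ≃ₐ[F] E)
    (hσ : W.comap (σ : E →+* E) = W) : σ = 1 := by
  obtain ⟨h1, ϖ, h2, h3⟩ := h.unif₂ hz hπ
  exact stab_of_dense h2 (by rw [h3]; exact hW) (by rw [h3]; exact e.hd₂ W hW) σ hσ

variable [PerfectField (ResidueField O)] [IsAlgClosed (ResidueField O)]
  [ExpChar (ResidueField O) q]

theorem EDense.hres (e : EDense h π θE) (W : ValuationSubring E)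
    (hW : Over (gaussVal hz hπ) (algebraMap O K π) W) (x : E) (hx : x ∈ W) :
    ∃ f : F, x - algebraMap F E f ∈ W.nonunits := by
  rcases h.complete hz hπ _ hW.restrict with h1 | h1
  · have hW' := EData.over_of_comap hW h1
    obtain ⟨h2, ϖ, h3, h4⟩ := h.unif₁ hz hπ
    obtain ⟨f, -, hf⟩ := residue_of_dense h3 (by rw [h4]; exact hW')
      (by rw [h4]; exact e.hd₁ W hW') hx
    exact ⟨f, hf⟩
  · have hW' := EData.over_of_comap hW h1
    obtain ⟨h2, ϖ, h3, h4⟩ := h.unif₂ hz hπ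
    obtain ⟨f, -, hf⟩ := residue_of_dense h3 (by rw [h4]; exact hW')
      (by rw [h4]; exact e.hd₂ W hW') hx
    exact ⟨f, hf⟩

/-- At most one component over each component of the base through each point. -/
theorem EDense.hone (e : EDense h π θE) (hg : LGood h ht hz hπ) {dφ : O ≃+* O} {Φ : F ≃+* F}
    (hΦ : LAct h dφ Φ) (hφ : ∀ a, dbar dφ a = a ^ q) (hgen : UnrGen O π F E)
    (W W' : ValuationSubring E) (hW : Over (gaussVal hz hπ) (algebraMap O K π) W)
    (hW' : Over (gaussVal hz hπ) (algebraMap O K π) W')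
    (hWW : W.comap (algebraMap F E) = W'.comap (algebraMap F E))
    (u : E) (y : Ideal (chart O u)) (hy : IsPt z u y) (hm : Meets y W) (hm' : Meets y W') :
    W = W' := by
  refine (h.semiStable hg hΦ hφ).eq_of_meets hgen (e.unr₁ hz hπ) (e.unr₂ hz hπ) ?_ ?_ hW hW' hWW
    hy.1 hy.2 hm hm'
  · intro W hW σ hσ hh
    exact hσ (e.stab₁ hz hπ hW σ hh)
  · intro W hW σ hσ hh
    exact hσ (e.stab₂ hz hπ hW σ hh)

/-- a component over `P₁` through the point at infinity -/
theorem EDense.exists_meets (e : EDense h π θE) (hz : IsParam O z) (hπ : Prime π) :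
    ∃ W : ValuationSubring E, Over h.P₁ (algebraMap O F π) W ∧ Meets e.pt W := by
  obtain ⟨h1, ϖ, h2, h3⟩ := h.unif₁ hz hπ
  let _ : Algebra O[X] K := polyAlg O z⁻¹
  have _ : IsFractionRing O[X] K := hz.inv.isFractionRing
  let _ : Algebra O[X] F := polyAlg O (algebraMap K F z)⁻¹
  let _ : Algebra O[X] E := polyAlg O (algebraMap K E z)⁻¹
  have t1 : IsScalarTower O[X] K F := IsScalarTower.of_algebraMap_eq fun a => by
    change aeval (algebraMap K F z)⁻¹ a = algebraMap K F (aeval z⁻¹ a)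
    rw [← map_inv₀, aeval_algebraMap_apply]
  have t3 : IsScalarTower O[X] F E := IsScalarTower.of_algebraMap_eq fun a => by
    change aeval (algebraMap K E z)⁻¹ a = algebraMap F E (aeval (algebraMap K F z)⁻¹ a)
    rw [← aeval_algebraMap_apply, map_inv₀ (algebraMap F E), ← IsScalarTower.algebraMap_apply]
  let j : integralClosure O[X] E →+* chart O (algebraMap K E z)⁻¹ :=
    { toFun := fun e => ⟨e, e.2⟩
      map_one' := rfl
      map_mul' := fun _ _ => rfl
      map_zero' := rfl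
      map_add' := fun _ _ => rfl }
  have hp := e.pt_isPrime
  have hx' : (e.pt.comap j).IsPrime := Ideal.IsPrime.comap j
  have hc1 : ∀ a : O[X], algebraMap O[X] F a ∈ h.P₁ := by
    intro a
    change aeval (algebraMap K F z)⁻¹ a ∈ h.P₁
    have h4 : (algebraMap K F z)⁻¹ ∈ h.P₁ := by
      obtain ⟨P, -, hP⟩ := e.zi
      rw [h.mem_P₁, hP]
      exact toL_mem_gV _
    rw [aeval_eq_sum_range]
    refine sum_mem fun i _ => ?_
    rw [Algebra.smul_def]
    refine mul_mem ?_ (pow_mem h4 _)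
    rw [h.mem_P₁, h.θC]
    exact C_mem_gV _
  have hc2 : CenterLE h.P₁ ((e.pt.comap j).comap (icMap O[X] F E)) := by
    intro b hb
    rw [Ideal.mem_comap, Ideal.mem_comap, e.mem_pt]
    change θE (algebraMap F E (b : F)) ∈ (cR O L).nonunits
    rw [e.r]
    exact e.nonunits_of_chart b.2 hb
  obtain ⟨W, hW, hWc⟩ := exists_over_centerLE (A := O[X]) (K := K) (E := E) (W₂ := h.P₁) h2
    hc1 (e.pt.comap j) hc2
  refine ⟨W, by rw [← h3]; exact hW, fun x hx => ?_⟩
  exact hWc ⟨x, x.2⟩ hx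

/-- **The action commutes with the Galois group.** -/
theorem EDense.comm (e : EDense h π θE) (hg : LGood h ht hz hπ) {dφ : O ≃+* O} {Φ : F ≃+* F}
    (hΦ : LAct h dφ Φ) (hφ : ∀ a, dbar dφ a = a ^ q) (hgen : UnrGen O π F E)
    (hO : ∀ x : E, IsIntegral O x → ∃ o : O, algebraMap O E o = x)
    {d : O ≃+* O} {δ : F ≃+* F} (hA : LAct h d δ) {δE : E ≃+* E}
    (hδE : ∀ x : F, δE (algebraMap F E x) = algebraMap F E (δ x))
    (hδθ : ∀ x : E, θE (δE x) = coeffMap (dL L d : L →+* L) (θE x))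
    (hcase : (∀ a, dbar d a = a) ∨ (∀ x, δ x = Φ (Φ x))) (g : E ≃ₐ[F] E) (x : E) :
    δE (g x) = g (δE x) := by
  have hzE : algebraMap K E z = algebraMap F E (algebraMap K F z) :=
    IsScalarTower.algebraMap_apply K F E z
  let D : SemiAut O (K := K) (E := E) z :=
    { d := d
      δ := δE
      map_C := fun a => by
        rw [IsScalarTower.algebraMap_apply O F E, hδE, hA.δO, ← IsScalarTower.algebraMap_apply]
      map_z := by rw [hzE, hδE, hA.δz] }
  have hinj : Function.Injective (algebraMap O E) := by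
    intro a b hab
    have h1 := congrArg θE hab
    rw [e.C, e.C] at h1
    exact IsFractionRing.injective O L (HahnSeries.C_injective h1)
  have hsymm : ∀ y, coeffMap (dL L d : L →+* L) y ∈ gV O L ↔ y ∈ gV O L := by
    intro y
    refine ⟨fun hy => ?_, coeffMap_mem_gV d⟩
    have h1 := coeffMap_mem_gV d.symm hy
    have h2 : coeffMap (dL L d.symm : L →+* L) (coeffMap (dL L d : L →+* L) y) = y := by
      ext n
      rw [coeffMap_coeff, coeffMap_coeff]
      exact dL_symm d _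
    rwa [h2] at h1
  have hgauss : ∀ W : ValuationSubring E, Over h.P₁ (algebraMap O F π) W →
      Over (gaussVal hz hπ) (algebraMap O K π) W := by
    intro W hW
    refine ⟨fun x hx => ?_, ?_⟩
    · rw [IsScalarTower.algebraMap_apply K F E]
      exact hW.1 _ ((h.over₁ hz hπ).1 _ hx)
    · have := hW.2
      rwa [← IsScalarTower.algebraMap_apply, IsScalarTower.algebraMap_apply O K E] at this
  have hP : ∀ W : ValuationSubring E, Over (gaussVal hz hπ) (algebraMap O K π) W →
      W.comap (algebraMap F E) = h.P₁ ∨ W.comap (algebraMap F E) = h.P₂ :=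
    fun W hW => h.complete hz hπ _ hW.restrict
  -- the action on the two components
  have hδ₁ : ∀ x, δ x ∈ h.P₁ ↔ x ∈ h.P₁ := by
    intro x
    change θ (δ x) ∈ gV O L ↔ θ x ∈ gV O L
    rw [hA.θδ, hsymm]
  have hδ₂ : ∀ x, δ x ∈ h.P₂ ↔ x ∈ h.P₂ := by
    intro x
    rw [h.mem_P₂, h.mem_P₂, hA.wδ, hδ₁]
  have hδP : ∀ W : ValuationSubring E, Over (gaussVal hz hπ) (algebraMap O K π) W →
      (W.comap (D.δ : E →+* E)).comap (algebraMap F E) = W.comap (algebraMap F E) := by
    intro W hW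
    have h1 : ∀ x : F, x ∈ (W.comap (D.δ : E →+* E)).comap (algebraMap F E) ↔
        δ x ∈ W.comap (algebraMap F E) := by
      intro x
      rw [ValuationSubring.mem_comap, ValuationSubring.mem_comap, ValuationSubring.mem_comap]
      change δE (algebraMap F E x) ∈ W ↔ _
      rw [hδE]
    ext x
    rw [h1]
    rcases hP W hW with h2 | h2
    · rw [h2, hδ₁]
    · rw [h2, hδ₂]
  -- the fixed component
  obtain ⟨W₁, hW₁', hW₁m⟩ := e.exists_meets hz hπ
  have hW₁o : Over (gaussVal hz hπ) (algebraMap O K π) W₁ := hgauss W₁ hW₁'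
  have hDinf : D.δ (algebraMap K E z)⁻¹ = (algebraMap K E z)⁻¹ := by rw [map_inv₀, D.map_z]
  have hfix : W₁.comap (δE : E →+* E) = W₁ := by
    have h1 := D.over_comap hz hπ hW₁o
    refine e.hone hg hΦ hφ hgen _ _ h1 hW₁o (hδP W₁ hW₁o) _ e.pt e.isPt ?_ hW₁m
    intro x hx
    have hx2 : D.δ (x : E) ∈ chart O (algebraMap K E z)⁻¹ := D.mem_chart_of hDinf x.2
    have h2 : (⟨D.δ (x : E), hx2⟩ : chart O (algebraMap K E z)⁻¹) ∈ e.pt := by
      apply hW₁m
      exact (comap_mem_nonunits W₁ (δE : E →+* E) (x : E)).mp hx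
    exact (e.map_mem_pt hδθ x.2 hx2).mp h2
  have hfixall := comap_eq_of_two D hz hπ hinj hO h.P₁ h.P₂ hP hδP
    (fun W W' hW hW' hWW u y hy hm hm' => e.hone hg hΦ hφ hgen W W' hW hW' hWW u y hy hm hm')
    (fun W hW x hx => e.hres W hW x hx)
    (fun w hw p hp hpw => h.normal₁ hg hw p hp hpw)
    (fun w hw p hp hpw => h.normal₂ hg hw p hp hpw)
    (by
      obtain ⟨s, hs, b₁, hb₁, b₂, hb₂, h1, h2, h3⟩ := h.rad_inf hg
      exact ⟨s, hs, b₁, b₂, hb₁, hb₂, h1, h2, h3⟩)
    (fun b hb => by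
      refine ⟨δ b, hA.mem_chart hA.δz hb, hδE b, ?_⟩
      rcases hcase with hin | hsq
      · obtain ⟨b₁, hb₁, b₂, hb₂, h1, h2, h3⟩ := hA.inert hg hin ⟨b, hb⟩
        exact ⟨1, b₁, b₂, hb₁, hb₂, h1, h2, by rw [pow_one]; exact h3⟩
      · obtain ⟨b₁, hb₁, b₂, hb₂, h1, h2, h3⟩ := hΦ.frob_sq hg hφ ⟨b, hb⟩
        refine ⟨q * q, b₁, b₂, hb₁, hb₂, h1, h2, ?_⟩
        rw [hsq]
        exact h3)
    hW₁o hfix
  refine comm_of_comap_eq δE (fun a => ⟨_, hδE a⟩) (fun a => ⟨δ.symm a, ?_⟩) hfix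
    (fun g hg' => e.stab₁ hz hπ hW₁' g hg') (fun g => hfixall _ ?_) g x
  · rw [RingEquiv.symm_apply_eq, hδE, RingEquiv.apply_symm_apply]
  · exact hgauss _ (hW₁'.comap g)

end Data

end Fermat.Agent.LG
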