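import Mathlib
import Fermat.Agent.LG.Conc2
import Fermat.Agent.LG.ELevel2

/-!
The concrete data of level `qM`: good properties, the coefficient action.
-/

set_option autoImplicit false
set_option linter.unusedSectionVars false

open scoped MatrixGroups ModularForm Manifold
open UpperHalfPlane hiding I J
open Complex (I)
open Fermat.Agent.ModFun IntermediateField Fermat.Agent.Geo IsLocalRing
open Fermat.Agent.ESCore (HauptFn haupt2 haupt3 hdelta)
open ModularCurve (qExpand)

noncomputable section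

universe u

namespace Fermat.Agent.LG

section ZS

variable {R : Type*} [CommRing R] {q : ℕ} [NeZero q] {p : ℕ} [Fact p.Prime] {κ : ℤ}

theorem coeff_zS_neg (hq : 2 ≤ q) :
    (tS R p κ + qExpand R q (tS R p κ)).coeff (-q) = 1 := by
  rw [HahnSeries.coeff_add, coeff_tS_of_lt (by omega), zero_add]
  have h1 : (-(q : ℤ)) = (q : ℤ) * (-1) := by ring
  rw [h1, ModularCurve.qExpand_coeff_mul, coeff_tS_neg_one]

theorem coeff_zS_lt (hq : 2 ≤ q) {n : ℤ} (hn : n < -q) :
    (tS R p κ + qExpand R q (tS R p κ)).coeff n = 0 := by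
  rw [HahnSeries.coeff_add, coeff_tS_of_lt (by omega), zero_add]
  by_cases h : (q : ℤ) ∣ n
  · obtain ⟨m, rfl⟩ := h
    rw [ModularCurve.qExpand_coeff_mul]
    apply coeff_tS_of_lt
    have : (0 : ℤ) < q := by exact_mod_cast Nat.pos_of_ne_zero (NeZero.ne q)
    nlinarith
  · exact ModularCurve.qExpand_coeff_of_not_dvd q _ h

theorem exists_zS_inv (hq : 2 ≤ q) : ∃ Z : PowerSeries R, PowerSeries.constantCoeff Z = 0 ∧
    HahnSeries.ofPowerSeries ℤ R Z * (tS R p κ + qExpand R q (tS R p κ)) = 1 := by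
  set x : LaurentSeries R := tS R p κ + qExpand R q (tS R p κ) with hx
  obtain ⟨U, hU⟩ : ∃ U : PowerSeries R, HahnSeries.single (q : ℤ) (1 : R) * x =
      HahnSeries.ofPowerSeries ℤ R U := by
    refine ⟨PowerSeries.mk fun k => x.coeff ((k : ℤ) - q), ?_⟩
    ext k
    have hk : k = (k - q) + q := by ring
    conv_lhs => rw [hk, HahnSeries.coeff_single_mul_add, one_mul]
    rw [PowerSeries.coeff_coe]
    split_ifs with h
    · exact coeff_zS_lt hq (by omega)
    · rw [PowerSeries.coeff_mk]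
      congr 1
      omega
  have hU0 : PowerSeries.constantCoeff U = 1 := by
    have h1 := congrArg (fun y : LaurentSeries R => y.coeff 0) hU
    rw [PowerSeries.coeff_coe, if_neg (lt_irrefl _), Int.natAbs_zero,
      PowerSeries.coeff_zero_eq_constantCoeff] at h1
    have h2 : (0 : ℤ) = (-q) + q := by ring
    rw [← h1]
    conv_lhs => rw [h2, HahnSeries.coeff_single_mul_add, one_mul]
    exact coeff_zS_neg hq
  have hUu : IsUnit U := by
    rw [PowerSeries.isUnit_iff_constantCoeff, hU0]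
    exact isUnit_one
  obtain ⟨V, hV⟩ := hUu.exists_left_inv
  refine ⟨PowerSeries.X ^ q * V, ?_, ?_⟩
  · rw [map_mul, map_pow, PowerSeries.constantCoeff_X, zero_pow (NeZero.ne q), zero_mul]
  · rw [map_mul, HahnSeries.ofPowerSeries_X_pow, mul_comm (HahnSeries.single (q : ℤ) (1 : R)),
      mul_assoc, hU, ← map_mul, hV, map_one]

end ZS

section Data

variable {O L : Type u} [CommRing O] [IsDomain O] [IsDiscreteValuationRing O] [Field L]
  [Algebra O L] [IsFractionRing O L] {q : ℕ} [NeZero q] {p : ℕ} [Fact p.Prime] {κ : ℤ}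
  {M N : ℕ} [NeZero M] [NeZero N] {H : HauptFn p κ} {S : Set ℤ} {k : ℕ} {P : Polynomial ℤ}
  {π : O}

theorem transcendental_zS (hq : 2 ≤ q) : Transcendental L (zS L q p κ) := by
  apply transcendental_of_order_neg
  have h1 : (zS L q p κ).coeff (-q) ≠ 0 := by
    rw [zS, coeff_zS_neg hq]
    exact one_ne_zero
  have h2 := HahnSeries.order_le_of_coeff_ne_zero h1
  have h3 : (0 : ℤ) < q := by exact_mod_cast Nat.pos_of_ne_zero (NeZero.ne q)
  omega

variable (O) in
theorem isParam_zK (hq : 2 ≤ q) :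
    letI := algO O (Kz L q p κ)
    IsParam O (zK L q p κ) := isParam_adjoin (transcendental_zS hq)

theorem toL_zS : toL O L (tS O p κ + qExpand O q (tS O p κ)) = zS L q p κ := by
  rw [map_add, toL_tS, ← qExpand_toL, toL_tS, zS]

theorem exists_zi (hq : 2 ≤ q) : ∃ Z : PowerSeries O, PowerSeries.constantCoeff Z = 0 ∧
    (zS L q p κ)⁻¹ = toL O L (HahnSeries.ofPowerSeries ℤ O Z) := by
  obtain ⟨Z, hZ, h1⟩ := exists_zS_inv (R := O) (p := p) (κ := κ) hq
  refine ⟨Z, hZ, ?_⟩
  have h2 := congrArg (toL O L) h1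
  rw [map_mul, toL_zS, map_one] at h2
  exact inv_eq_of_mul_eq_one_left h2

/-- Integral elements are constant. -/
theorem exists_const (E : IntermediateField L (LaurentSeries L)) :
    letI := algO O E
    ∀ x : E, IsIntegral O x → ∃ o : O, algebraMap O E o = x := by
  let _ := algO O E
  rintro ⟨x, hx⟩ hint
  have t : IsScalarTower O L (LaurentSeries L) := inferInstance
  let φ : O →+* LaurentSeries L := HahnSeries.C.comp (algebraMap O L)
  obtain ⟨Q, hQ, hQx⟩ := hint
  have h1 : Q.eval₂ φ x = 0 := by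
    have h2 := congrArg (fun y : E => (y : LaurentSeries L)) hQx
    have h3 := Polynomial.hom_eval₂ Q (algebraMap O E) E.val.toRingHom ⟨x, hx⟩
    have h4 : E.val.toRingHom.comp (algebraMap O E) = φ := by
      ext1 a
      exact coe_algO O E a
    rw [h4] at h3
    exact h3.symm.trans h2
  have halg : IsAlgebraic L x := by
    refine ⟨Q.map (algebraMap O L), (hQ.map _).ne_zero, ?_⟩
    rw [Polynomial.aeval_def, Polynomial.eval₂_map, ← h1]
    congr 1
    ext1 a
    simp only [RingHom.comp_apply, φ]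
    rw [ModularCurve.algebraMap_laurentSeries_eq_single]
    rfl
  have hc := eq_C_of_isAlgebraic halg
  set c := x.coeff 0 with hc'
  have hci : IsIntegral O c := by
    refine ⟨Q, hQ, ?_⟩
    apply HahnSeries.C_injective (Γ := ℤ)
    rw [Polynomial.hom_eval₂, map_zero, ← h1, ← hc]
  obtain ⟨o, ho⟩ := IsIntegrallyClosed.isIntegral_iff.mp hci
  refine ⟨o, Subtype.ext ?_⟩
  rw [coe_algO, ho]
  exact hc.symm

theorem lGood (B : Bez q M) (hH : HautData H S k P) (ι : L →+* ℂ) {ζ : Lˣ}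
    (hζ : ι ζ = Complex.exp (2 * Real.pi * Complex.I / M)) (hMu : IsUnit (M : O)) (hπ : Prime π)
    (hS : ∀ c ∈ S, ∀ c' ∈ S, c ≠ c' → IsUnit ((c - c' : ℤ) : O))
    [PerfectField (ResidueField O)] [ExpChar (ResidueField O) q]
    (hq0 : (q : ResidueField O) = 0) (hq : q.Prime) (hqp : ¬ q ∣ p)
    (hN : N = q * M) (hqM : q.Coprime M) (hpM : p ∣ M) (hle1 : Kt L p κ ≤ F0 L M)
    (hle2 : F0 L M ≤ F0 L N) (hle4 : Kz L q p κ ≤ F0 L N) :
    letI := algO O (Kt L p κ)
    letI := algO O (F0 L M)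
    letI := algO O (Kz L q p κ)
    letI := algO O (F0 L N)
    letI := algI hle1
    letI := algI hle2
    letI := algI hle4
    ∃ ht : IsParam O (tK L p κ),
    LGood (lData (O := O) B hH ι hζ hMu hπ hS hq0 hq hqp hN hqM hpM hle1 hle2 hle4) ht
      (isParam_zK (L := L) (κ := κ) (p := p) O hq.two_le) hπ := by
  let _ := algO O (Kt L p κ)
  let _ := algO O (F0 L M)
  let _ := algO O (Kz L q p κ)
  let _ := algO O (F0 L N)
  let _ := algI hle1
  let _ := algI hle2
  let _ := algI hle4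
  obtain ⟨ht, hgr, hfin, -, -⟩ := goodRed_F0 ι hζ hMu hπ hpM hH hS hle1
  refine ⟨ht, ⟨_, hgr⟩, ?_⟩
  obtain ⟨c, hc, hrel⟩ := exists_mrel.{u} H hq hqp
  refine ⟨c, hc, ?_⟩
  have h1 := hrel ι
  have h2 : ((B.wF ι hq hN (algebraMap (F0 L M) (F0 L N) (algebraMap (Kt L p κ) (F0 L M)
      (tK L p κ))) : F0 L N) : LaurentSeries L) = qExpand L q (tS L p κ) :=
    B.wF_level (ι := ι) hq hN hle2 (algebraMap (Kt L p κ) (F0 L M) (tK L p κ))
  rw [MRel] at h1 ⊢
  apply Subtype.ext
  rw [ZeroMemClass.coe_zero, ← h1]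
  change (F0 L N).val.toRingHom _ = _
  rw [map_sum]
  refine Finset.sum_congr rfl fun i _ => ?_
  rw [map_mul, map_pow]
  congr 1
  · rw [aeval_int, aeval_int, Polynomial.hom_eval₂]
    congr 1
  · congr 1

theorem lAct (B : Bez q M) (hH : HautData H S k P) (ι : L →+* ℂ) {ζ : Lˣ}
    (hζ : ι ζ = Complex.exp (2 * Real.pi * Complex.I / M)) (hMu : IsUnit (M : O)) (hπ : Prime π)
    (hS : ∀ c ∈ S, ∀ c' ∈ S, c ≠ c' → IsUnit ((c - c' : ℤ) : O))
    [PerfectField (ResidueField O)] [ExpChar (ResidueField O) q]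
    (hq0 : (q : ResidueField O) = 0) (hq : q.Prime) (hqp : ¬ q ∣ p)
    (hN : N = q * M) (hqM : q.Coprime M) (hpM : p ∣ M) (hle1 : Kt L p κ ≤ F0 L M)
    (hle2 : F0 L M ≤ F0 L N) (hle4 : Kz L q p κ ≤ F0 L N) (d : O ≃+* O) :
    letI := algO O (Kt L p κ)
    letI := algO O (F0 L M)
    letI := algO O (Kz L q p κ)
    letI := algO O (F0 L N)
    letI := algI hle1
    letI := algI hle2
    letI := algI hle4
    LAct (lData (O := O) B hH ι hζ hMu hπ hS hq0 hq hqp hN hqM hpM hle1 hle2 hle4) d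
      (actF (dL L d) N) := by
  let _ := algO O (Kt L p κ)
  let _ := algO O (F0 L M)
  let _ := algO O (Kz L q p κ)
  let _ := algO O (F0 L N)
  let _ := algI hle1
  let _ := algI hle2
  let _ := algI hle4
  refine ⟨fun x => rfl, fun x => B.wF_actF hq hN _ x, ?_⟩
  apply Subtype.ext
  rw [coe_actF]
  exact coeffMap_tS' _

end Data

end Fermat.Agent.LG
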