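import Mathlib
import Fermat.Agent.LG.Conc3

/-!
The commutation theorem for `X₀(qM)`.
-/

set_option autoImplicit false
set_option linter.unusedSectionVars false

open Fermat.Agent.ModFun IntermediateField Fermat.Agent.Geo IsLocalRing
open Fermat.Agent.ESCore (HauptFn haupt2 haupt3 hdelta)
open ModularCurve (qExpand coeffMap)

noncomputable section

universe u

namespace Fermat.Agent.LG

section Span

variable {F E : Type u} [Field F] [Field E] [Algebra F E] {V : ValuationSubring F}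
  [IsDiscreteValuationRing V] [FiniteDimensional F E] {ϖ : V}

theorem isDenseAt_of_span (hϖ : Irreducible ϖ) {W : ValuationSubring E}
    (hW : Over V (ϖ : F) W) {ι : Type*} (y : ι → E)
    (hy : ∀ i n, ∃ f : F, ∃ y' ∈ W, y i = algebraMap F E f + algebraMap F E ϖ ^ n * y')
    (hspan : ∀ x : E, ∃ (s : Finset ι) (a : ι → F), x = ∑ i ∈ s, algebraMap F E (a i) * y i) :
    IsDenseAt F (ϖ : F) W := by
  intro x n
  obtain ⟨s, a, rfl⟩ := hspan x
  choose N hN using fun i => exists_pow_mul_mem_val hϖ (a i)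
  choose f y' hy' h using fun i => hy i (n + N i)
  refine ⟨∑ i ∈ s, a i * f i, ∑ i ∈ s, algebraMap F E ((ϖ : F) ^ N i * a i) * y' i,
    sum_mem fun i _ => mul_mem (hW.1 _ (hN i)) (hy' i), ?_⟩
  rw [map_sum, Finset.mul_sum, ← Finset.sum_add_distrib]
  refine Finset.sum_congr rfl fun i _ => ?_
  rw [h i, map_mul, map_mul, map_pow, pow_add]
  ring

end Span

section Conc

variable {O L : Type u} [CommRing O] [IsDomain O] [IsDiscreteValuationRing O] [Field L]
  [Algebra O L] [IsFractionRing O L] {q : ℕ} [NeZero q] {p : ℕ} [Fact p.Prime] {κ : ℤ}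
  {M N : ℕ} [NeZero M] [NeZero N] {H : HauptFn p κ} {S : Set ℤ} {k : ℕ} {P : Polynomial ℤ}
  {π : O}

/-- A function which is locally an `m`-th power, to all orders, along the component at infinity. -/
def Sp (π : O) (m : ℕ) (h : F0 L N) : Prop :=
  ∀ n : ℕ, ∃ f : F0 L N, f ≠ 0 ∧ ∃ v : F0 L N, (v : LaurentSeries L) ∈ gV O L ∧
    f ^ m * h = 1 + algebraMap L (F0 L N) (algebraMap O L π) ^ n * v

/-- The action of an automorphism of the coefficients on a field of Laurent series. -/
def actE (d : L ≃+* L) (E : IntermediateField L (LaurentSeries L))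
    (h1 : ∀ x ∈ E, coeffMap (d : L →+* L) x ∈ E)
    (h2 : ∀ x ∈ E, coeffMap (d.symm : L →+* L) x ∈ E) : E ≃+* E where
  toFun x := ⟨coeffMap (d : L →+* L) (x : LaurentSeries L), h1 x x.2⟩
  invFun x := ⟨coeffMap (d.symm : L →+* L) (x : LaurentSeries L), h2 x x.2⟩
  left_inv x := Subtype.ext (by
    change coeffMap (d.symm : L →+* L) (coeffMap (d : L →+* L) (x : LaurentSeries L)) =
      (x : LaurentSeries L)
    ext n
    simp)
  right_inv x := Subtype.ext (by
    change coeffMap (d : L →+* L) (coeffMap (d.symm : L →+* L) (x : LaurentSeries L)) =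
      (x : LaurentSeries L)
    ext n
    simp)
  map_mul' x y := Subtype.ext (map_mul (coeffMap (d : L →+* L)) _ _)
  map_add' x y := Subtype.ext (map_add (coeffMap (d : L →+* L)) _ _)

theorem sep_of_charZero {A B : Type*} [Field A] [Field B] [Algebra A B] (h : CharZero A)
    (h2 : FiniteDimensional A B) : Algebra.IsSeparable A B :=
  haveI := Algebra.IsAlgebraic.of_finite A B
  Algebra.IsAlgebraic.isSeparable_of_perfectField

theorem dL_comp {d dφ : O ≃+* O} (h : ∀ a, d a = dφ (dφ a)) (c : L) :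
    dL L d c = dL L dφ (dL L dφ c) := by
  obtain ⟨a, b, hb, rfl⟩ := IsFractionRing.div_surjective (A := O) c
  rw [map_div₀, map_div₀, map_div₀, dL_algebraMap, dL_algebraMap, dL_algebraMap, dL_algebraMap,
    dL_algebraMap, dL_algebraMap, h, h]

/-- **Commutation of inertia and of the square of Frobenius with the Galois group of a covering
which is totally split along the two components**, for `X₀(qM)`. -/
theorem comm_concrete (B : Bez q M) (hH : HautData H S k P) (ι : L →+* ℂ) {ζ : Lˣ}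
    (hζ : ι ζ = Complex.exp (2 * Real.pi * Complex.I / M)) (hMu : IsUnit (M : O)) (hπ : Prime π)
    (hS : ∀ c ∈ S, ∀ c' ∈ S, c ≠ c' → IsUnit ((c - c' : ℤ) : O))
    [IsAlgClosed (ResidueField O)] [ExpChar (ResidueField O) q] [CharZero O]
    (hq0 : (q : ResidueField O) = 0) (hq : q.Prime) (hqp : ¬ q ∣ p)
    (hN : N = q * M) (hqM : q.Coprime M) (hpM : p ∣ M)
    (E : IntermediateField L (LaurentSeries L)) (hE : F0 L N ≤ E)
    (hfd : letI := algI hE; FiniteDimensional (F0 L N) E)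
    (hgal : letI := algI hE; IsGalois (F0 L N) E)
    (hgen : letI := algO O (F0 L N); letI := algI hE; UnrGen O π (F0 L N) E)
    {m : ℕ} (hm : 0 < m) {ζm : L} (hζm : IsPrimitiveRoot ζm m)
    {X : Type*} (y : X → E) (h : X → F0 L N)
    (hy : ∀ x, (y x : LaurentSeries L) ^ m = (h x : LaurentSeries L))
    (hspan : ∀ x : E, ∃ (s : Finset X) (a : X → F0 L N),
      (x : LaurentSeries L) = ∑ i ∈ s, (a i : LaurentSeries L) * (y i : LaurentSeries L))
    (hsp₁ : ∀ x, Sp π m (h x)) (hsp₂ : ∀ x, Sp π m (B.wF ι hq hN (h x)))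
    {dφ : O ≃+* O} (hφ : ∀ a, dbar dφ a = a ^ q) {d : O ≃+* O}
    (hcase : (∀ a, dbar d a = a) ∨ (∀ a, d a = dφ (dφ a)))
    (h1 : ∀ x ∈ E, coeffMap (dL L d : L →+* L) x ∈ E)
    (h2 : ∀ x ∈ E, coeffMap ((dL L d).symm : L →+* L) x ∈ E) :
    letI := algI hE
    ∀ (g : E ≃ₐ[F0 L N] E) (x : E),
      coeffMap (dL L d : L →+* L) (g x : LaurentSeries L) =
        (g (actE (dL L d) E h1 h2 x) : LaurentSeries L) := by
  have _ : PerfectField (ResidueField O) := inferInstance
  have hle1 : Kt L p κ ≤ F0 L M := Kt_le_F0 H ι hpM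
  have hle2 : F0 L M ≤ F0 L N := F0_mono (dvd₂ hN dvd_rfl)
  have hle4 : Kz L q p κ ≤ F0 L N := Kz_le_F0 H ι hN hpM
  have hle5 : Kz L q p κ ≤ E := hle4.trans hE
  let _ := algO O (Kt L p κ)
  let _ := algO O (F0 L M)
  let _ := algO O (Kz L q p κ)
  let _ := algO O (F0 L N)
  let _ := algO O E
  let _ := algI hle1
  let _ := algI hle2
  let _ := algI hle4
  let _ := algI hE
  let _ := algI hle5
  have t1 : IsScalarTower O (Kz L q p κ) (F0 L N) := tower_O O hle4
  have t2 : IsScalarTower O (Kt L p κ) (F0 L M) := tower_O O hle1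
  have t3 : IsScalarTower O (F0 L M) (F0 L N) := tower_O O hle2
  have t4 : IsScalarTower O (Kz L q p κ) E := tower_O O hle5
  have t5 : IsScalarTower O (F0 L N) E := tower_O O hE
  have t6 : IsScalarTower (Kz L q p κ) (F0 L N) E := tower_I hle4 hE hle5
  have hld := lData (O := O) B hH ι hζ hMu hπ hS hq0 hq hqp hN hqM hpM hle1 hle2 hle4
  obtain ⟨ht, hg⟩ := lGood (O := O) B hH ι hζ hMu hπ hS hq0 hq hqp hN hqM hpM hle1 hle2 hle4
  obtain ⟨-, -, hfin, -, -⟩ := goodRed_F0 ι hζ hMu hπ hpM hH hS hle1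
  have hfF := (finrank_F0_le hH ι hq hqp hN hqM hpM hle1 hle4 hfin).1
  have hA := lAct (O := O) B hH ι hζ hMu hπ hS hq0 hq hqp hN hqM hpM hle1 hle2 hle4 d
  have hΦ := lAct (O := O) B hH ι hζ hMu hπ hS hq0 hq hqp hN hqM hpM hle1 hle2 hle4 dφ
  have hcL : CharZero L := (ι.charZero_iff ι.injective).mpr inferInstance
  have hcI : ∀ E' : IntermediateField L (LaurentSeries L), CharZero E' := fun E' =>
    charZero_of_injective_algebraMap (algebraMap L E').injective
  have hfE := (tower_bound t6 hfF hfd le_rfl le_rfl).1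
  have s1 : Algebra.IsSeparable (Kz L q p κ) (F0 L N) := sep_of_charZero (hcI _) hfF
  have s2 : Algebra.IsSeparable (Kz L q p κ) E := sep_of_charZero (hcI _) hfE
  have s3 : Algebra.IsSeparable (Kt L p κ) (F0 L M) := sep_of_charZero (hcI _) hfin
  have hz := isParam_zK (L := L) (κ := κ) (p := p) O hq.two_le
  have hπF : algebraMap O (F0 L N) π = algebraMap L (F0 L N) (algebraMap O L π) := rfl
  obtain ⟨hdvr₁, ϖ₁, hϖ₁, hϖ₁'⟩ := hld.unif₁ hz hπ
  obtain ⟨hdvr₂, ϖ₂, hϖ₂, hϖ₂'⟩ := hld.unif₂ hz hπ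
  have hζF : IsPrimitiveRoot (algebraMap L (F0 L N) ζm) m :=
    hζm.map_of_injective (algebraMap L (F0 L N)).injective
  have hyF : ∀ x, y x ^ m = algebraMap (F0 L N) E (h x) := fun x => Subtype.ext (hy x)
  have hspan' : ∀ x : E, ∃ (s : Finset X) (a : X → F0 L N),
      x = ∑ i ∈ s, algebraMap (F0 L N) E (a i) * y i := by
    intro x
    obtain ⟨s, a, hx⟩ := hspan x
    refine ⟨s, a, Subtype.ext ?_⟩
    rw [hx]
    change _ = E.val.toRingHom _
    rw [map_sum]
    rfl
  have he : EDense hld π (algebraMap E (LaurentSeries L)) := by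
    refine ⟨fun x => rfl, exists_zi hq.two_le, fun W hW => ?_, fun W hW => ?_⟩
    · rw [← hϖ₁']
      refine isDenseAt_of_span hϖ₁ (by rw [hϖ₁']; exact hW) y (fun x n => ?_) hspan'
      refine dense_kummer hϖ₁ hm hζF (by rw [hϖ₁']; exact hW) (hyF x) (fun n => ?_) n
      obtain ⟨f, hf, v, hv, hfv⟩ := hsp₁ x n
      refine ⟨f, hf, v, hv, ?_⟩
      rw [hϖ₁', hπF]
      exact hfv
    · rw [← hϖ₂']
      refine isDenseAt_of_span hϖ₂ (by rw [hϖ₂']; exact hW) y (fun x n => ?_) hspan'
      refine dense_kummer hϖ₂ hm hζF (by rw [hϖ₂']; exact hW) (hyF x) (fun n => ?_) n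
      obtain ⟨f, hf, v, hv, hfv⟩ := hsp₂ x n
      refine ⟨B.wF ι hq hN f, (map_ne_zero_iff _ (B.wF ι hq hN).injective).mpr hf,
        B.wF ι hq hN v, ?_, ?_⟩
      · rw [hld.mem_P₂, B.wF_wF]
        exact hv
      · rw [hϖ₂', hπF]
        have h3 := congrArg (B.wF ι hq hN) hfv
        rw [map_mul, map_pow, B.wF_wF, map_add, map_one, map_mul, map_pow, B.wF_C] at h3
        exact h3
  have hcase' : (∀ a, dbar d a = a) ∨
      (∀ x, actF (dL L d) N x = actF (dL L dφ) N (actF (dL L dφ) N x)) := by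
    refine hcase.imp id fun h3 x => ?_
    apply Subtype.ext
    ext n
    exact dL_comp h3 _
  intro g x
  have hfin := he.comm hg hΦ hφ hgen (exists_const E) hA (δE := actE (dL L d) E h1 h2)
    (fun x => rfl) (fun x => rfl) hcase' g x
  exact congrArg (fun z : E => (z : LaurentSeries L)) hfin

end Conc

end Fermat.Agent.LG
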