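import Mathlib
import Fermat.Agent.LG.Dense3
import Fermat.Agent.LG.Coef
import Fermat.Agent.LG.KX1

/-!
# Functions which are locally powers
-/

set_option autoImplicit false
set_option linter.unusedSectionVars false

open Fermat.Agent.ModFun IntermediateField Fermat.Agent.Geo IsLocalRing
open ModularCurve (qExpand)
open CongruenceSubgroup (Gamma0)
open Fermat.Agent.ESCore (heckeCharU heckeCharU_one)

noncomputable section

universe u

namespace Fermat.Agent.LG

theorem newton_step {F : Type*} [Field F] (G : Subring F) {p w μ : F} (hp : p ∈ G) (hw : w ∈ G)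
    (hμ : μ ∈ G) {m : ℕ} (hmμ : (m : F) * μ = 1) (n : ℕ) :
    ∃ w' ∈ G, (1 + p ^ (n + 1) * (-(w * μ))) ^ m * (1 + p ^ (n + 1) * w) =
      1 + p ^ (n + 2) * w' := by
  have hx : p ^ (n + 1) * (-(w * μ)) ∈ G := mul_mem (pow_mem hp _) (neg_mem (mul_mem hw hμ))
  obtain ⟨k, hk⟩ := Polynomial.powAddExpansion (1 : G) ⟨_, hx⟩ m
  have hk' : (1 + p ^ (n + 1) * (-(w * μ))) ^ m = 1 + (m : F) * (p ^ (n + 1) * (-(w * μ))) +
      (k : F) * (p ^ (n + 1) * (-(w * μ))) ^ 2 := by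
    have h1 := congrArg (fun z : G => (z : F)) hk
    simp only [one_pow, mul_one] at h1
    exact h1
  refine ⟨p ^ n * (-w ^ 2 + (k : F) * (w ^ 2 * μ ^ 2) * (1 + p ^ (n + 1) * w)), ?_, ?_⟩
  · exact mul_mem (pow_mem hp _) (add_mem (neg_mem (pow_mem hw _)) (mul_mem (mul_mem k.2
      (mul_mem (pow_mem hw _) (pow_mem hμ _))) (add_mem (one_mem _) (mul_mem (pow_mem hp _) hw))))
  · rw [hk']
    linear_combination (-(p ^ (n + 1) * w) * (1 + p ^ (n + 1) * w)) * hmμ

variable {O L : Type u} [CommRing O] [IsDomain O] [IsDiscreteValuationRing O] [Field L]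
  [Algebra O L] [IsFractionRing O L] {N : ℕ} [NeZero N] {π : O}

/-- the scalar `π` in the function field -/
def piF (π : O) : F0 L N := algebraMap L (F0 L N) (algebraMap O L π)

theorem piF_coe (π : O) : ((piF π : F0 L N) : LaurentSeries L) =
    HahnSeries.C (algebraMap O L π) := by
  change algebraMap L (LaurentSeries L) (algebraMap O L π) = _
  rw [ModularCurve.algebraMap_laurentSeries_eq_single]
  rfl

theorem piF_ne_zero (hπ : Prime π) : (piF π : F0 L N) ≠ 0 := by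
  rw [piF, Ne, map_eq_zero_iff _ (algebraMap L (F0 L N)).injective,
    map_eq_zero_iff _ (IsFractionRing.injective O L)]
  exact hπ.ne_zero

/-- the valuation ring of the component at infinity, in the function field -/
def gF (O : Type u) [CommRing O] [IsDomain O] [IsDiscreteValuationRing O] [Algebra O L]
    [IsFractionRing O L] : Subring (F0 L N) := (gV O L).comap (F0 L N).val.toRingHom

theorem mem_gF {v : F0 L N} : v ∈ gF (L := L) (N := N) O ↔ (v : LaurentSeries L) ∈ gV O L :=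
  Iff.rfl

theorem piF_mem : (piF π : F0 L N) ∈ gF (L := L) (N := N) O := by
  rw [mem_gF, piF_coe]
  exact C_mem_gV π

theorem C_mem_gF (c : O) : algebraMap L (F0 L N) (algebraMap O L c) ∈ gF (L := L) (N := N) O :=
  piF_mem (π := c)

/-- `π` in the Gauss valuation ring -/
def cG (L : Type u) [Field L] [Algebra O L] [IsFractionRing O L] (π : O) : gV O L :=
  ⟨HahnSeries.C (algebraMap O L π), C_mem_gV π⟩

theorem gR_cG (hπ : Irreducible π) : gR (cG L π) = 0 := by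
  rw [gR_eq_zero_iff hπ]
  exact ⟨1, one_mem _, by rw [mul_one]; rfl⟩

theorem gR_one_add (hπ : Irreducible π) (v : gV O L) (k : ℕ) :
    gR (1 + cG L π ^ (k + 1) * v) = 1 := by
  rw [map_add, map_one, map_mul, map_pow, gR_cG hπ, zero_pow (Nat.succ_ne_zero k), zero_mul,
    add_zero]

theorem unit_inv_ser (hπ : Irreducible π) (v : gV O L) (k : ℕ) :
    ((1 + cG L π ^ (k + 1) * v : gV O L) : LaurentSeries L) ≠ 0 ∧
      ((1 + cG L π ^ (k + 1) * v : gV O L) : LaurentSeries L)⁻¹ ∈ gV O L := by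
  have h2 : gR (1 + cG L π ^ (k + 1) * v) ≠ 0 := by
    rw [gR_one_add hπ]
    exact one_ne_zero
  refine ⟨fun h0 => h2 ?_, isUnit_of_gR_ne_zero h2⟩
  rw [Subtype.ext h0 (a2 := (0 : gV O L)), map_zero]

/-- being congruent to one -/
theorem unit_inv (hπ : Prime π) {v : F0 L N} (hv : v ∈ gF (L := L) (N := N) O) {n : ℕ}
    (hn : 1 ≤ n) : 1 + (piF π : F0 L N) ^ n * v ≠ 0 ∧
      (1 + (piF π : F0 L N) ^ n * v)⁻¹ ∈ gF (L := L) (N := N) O := by
  obtain ⟨k, rfl⟩ : ∃ k, n = k + 1 := ⟨n - 1, by omega⟩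
  obtain ⟨h1, h2⟩ := unit_inv_ser (L := L) hπ.irreducible ⟨_, mem_gF.mp hv⟩ k
  have h3 : ((1 + cG L π ^ (k + 1) * ⟨_, mem_gF.mp hv⟩ : gV O L) : LaurentSeries L) =
      ((1 + (piF π : F0 L N) ^ (k + 1) * v : F0 L N) : LaurentSeries L) := by
    change 1 + (HahnSeries.C (algebraMap O L π)) ^ (k + 1) * (v : LaurentSeries L) =
      1 + ((piF π : F0 L N) : LaurentSeries L) ^ (k + 1) * (v : LaurentSeries L)
    rw [piF_coe]
  rw [h3] at h1 h2
  exact ⟨fun h0 => h1 (congrArg (fun z : F0 L N => (z : LaurentSeries L)) h0), h2⟩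

theorem unit_inv' (hπ : Prime π) {v : F0 L N} (hv : v ∈ gF (L := L) (N := N) O) {n : ℕ}
    (hn : 1 ≤ n) : ∃ v' ∈ gF (L := L) (N := N) O, (1 + piF π ^ n * v)⁻¹ = 1 + piF π ^ n * v' := by
  obtain ⟨h1, h2⟩ := unit_inv hπ hv hn
  refine ⟨-(v * (1 + piF π ^ n * v)⁻¹), neg_mem (mul_mem hv h2), ?_⟩
  field_simp
  ring

theorem pow_one_unit {v : F0 L N} (hv : v ∈ gF (L := L) (N := N) O) {n : ℕ} (k : ℕ) :
    ∃ v' ∈ gF (L := L) (N := N) O,
      (1 + (piF π : F0 L N) ^ n * v) ^ k = 1 + (piF π : F0 L N) ^ n * v' := by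
  induction k with
  | zero => exact ⟨0, zero_mem _, by simp⟩
  | succ k ih =>
    obtain ⟨v', hv', h⟩ := ih
    refine ⟨v + v' + piF π ^ n * v * v', add_mem (add_mem hv hv')
      (mul_mem (mul_mem (pow_mem piF_mem n) hv) hv'), ?_⟩
    rw [pow_succ, h]
    ring

theorem zpow_one_unit (hπ : Prime π) {v : F0 L N} (hv : v ∈ gF (L := L) (N := N) O) {n : ℕ}
    (hn : 1 ≤ n) (k : ℤ) : ∃ v' ∈ gF (L := L) (N := N) O,
      (1 + (piF π : F0 L N) ^ n * v) ^ k = 1 + (piF π : F0 L N) ^ n * v' := by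
  cases k with
  | ofNat k =>
    rw [Int.ofNat_eq_natCast, zpow_natCast]
    exact pow_one_unit hv k
  | negSucc k =>
    rw [zpow_negSucc]
    obtain ⟨v', hv', h⟩ := pow_one_unit (π := π) hv (n := n) (k + 1)
    rw [h]
    exact unit_inv' hπ hv' hn

/-- reformulation of `Sp` -/
theorem sp_iff {m : ℕ} {h : F0 L N} : Sp π m h ↔ ∀ n : ℕ, ∃ f : F0 L N, f ≠ 0 ∧
    ∃ v ∈ gF (L := L) (N := N) O, f ^ m * h = 1 + piF π ^ n * v := Iff.rfl

theorem sp_of_pos {m : ℕ} {h : F0 L N} (H : ∀ n : ℕ, 1 ≤ n → ∃ f : F0 L N, f ≠ 0 ∧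
    ∃ v ∈ gF (L := L) (N := N) O, f ^ m * h = 1 + piF π ^ n * v) : Sp π m h := by
  rw [sp_iff]
  intro n
  obtain ⟨f, hf, v, hv, h1⟩ := H (n + 1) (by omega)
  exact ⟨f, hf, piF π * v, mul_mem piF_mem hv, by rw [h1, pow_succ, mul_assoc]⟩

theorem sp_one {m : ℕ} : Sp π m (1 : F0 L N) := by
  rw [sp_iff]
  exact fun n => ⟨1, one_ne_zero, 0, zero_mem _, by simp⟩

theorem Sp.mul {m : ℕ} {g h : F0 L N} (hg : Sp π m g) (hh : Sp π m h) : Sp π m (g * h) := by
  rw [sp_iff] at *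
  intro n
  obtain ⟨f, hf, v, hv, h1⟩ := hg n
  obtain ⟨f', hf', v', hv', h1'⟩ := hh n
  refine ⟨f * f', mul_ne_zero hf hf', v + v' + piF π ^ n * v * v',
    add_mem (add_mem hv hv') (mul_mem (mul_mem (pow_mem piF_mem n) hv) hv'), ?_⟩
  calc (f * f') ^ m * (g * h) = (f ^ m * g) * (f' ^ m * h) := by ring
    _ = _ := by rw [h1, h1']; ring

theorem Sp.inv (hπ : Prime π) {m : ℕ} {g : F0 L N} (hg : Sp π m g) : Sp π m g⁻¹ := by
  apply sp_of_pos
  intro n hn
  rw [sp_iff] at hg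
  obtain ⟨f, hf, v, hv, h1⟩ := hg n
  obtain ⟨v', hv', h2⟩ := unit_inv' hπ hv hn
  exact ⟨f⁻¹, inv_ne_zero hf, v', hv', by rw [← h2, ← h1, inv_pow, mul_inv]⟩

theorem sp_pow_self {m : ℕ} {g : F0 L N} (hg : g ≠ 0) : Sp π m (g ^ m) := by
  rw [sp_iff]
  refine fun n => ⟨g⁻¹, inv_ne_zero hg, 0, zero_mem _, ?_⟩
  rw [mul_zero, add_zero, ← mul_pow, inv_mul_cancel₀ hg, one_pow]

theorem Sp.pow {m : ℕ} {g : F0 L N} (hg : Sp π m g) (n : ℕ) : Sp π m (g ^ n) := by
  induction n with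
  | zero => rw [pow_zero]; exact sp_one
  | succ n ih => rw [pow_succ]; exact ih.mul hg

theorem Sp.zpow (hπ : Prime π) {m : ℕ} {g : F0 L N} (hg : Sp π m g) (n : ℤ) : Sp π m (g ^ n) := by
  cases n with
  | ofNat n => rw [Int.ofNat_eq_natCast, zpow_natCast]; exact hg.pow n
  | negSucc n => rw [zpow_negSucc]; exact (hg.pow _).inv hπ

theorem Sp.mul_pow_self {m : ℕ} {g h : F0 L N} (hg : g ≠ 0) (hh : Sp π m h) :
    Sp π m (g ^ m * h) := (sp_pow_self hg).mul hh

/-- One-units are locally powers, when the exponent is invertible. -/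
theorem sp_one_unit (hπ : Prime π) {m : ℕ} (hm : IsUnit (m : O)) {v : F0 L N}
    (hv : v ∈ gF (L := L) (N := N) O) : Sp π m (1 + piF π * v) := by
  obtain ⟨m', hm'⟩ := hm.exists_right_inv
  set μ : F0 L N := algebraMap L (F0 L N) (algebraMap O L m') with hμ
  have hμm : (m : F0 L N) * μ = 1 := by
    rw [hμ, ← map_natCast (algebraMap L (F0 L N)), ← map_natCast (algebraMap O L), ← map_mul,
      ← map_mul, hm', map_one, map_one]
  have hμg : μ ∈ gF (L := L) (N := N) O := C_mem_gF m'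
  have key : ∀ n : ℕ, ∃ f : F0 L N, f ≠ 0 ∧ ∃ w ∈ gF (L := L) (N := N) O,
      f ^ m * (1 + piF π * v) = 1 + piF π ^ (n + 1) * w := by
    intro n
    induction n with
    | zero => exact ⟨1, one_ne_zero, v, hv, by simp⟩
    | succ n ih =>
      obtain ⟨f, hf, w, hw, h1⟩ := ih
      have hwμ : -(w * μ) ∈ gF (L := L) (N := N) O := neg_mem (mul_mem hw hμg)
      have hne := (unit_inv hπ hwμ (n := n + 1) (by omega)).1
      obtain ⟨w', hw', h2⟩ := newton_step (gF (L := L) (N := N) O) piF_mem hw hμg hμm n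
      refine ⟨f * (1 + piF π ^ (n + 1) * (-(w * μ))), mul_ne_zero hf hne, w', hw', ?_⟩
      rw [← h2, mul_pow, ← h1]
      ring
  apply sp_of_pos
  intro n hn
  obtain ⟨f, hf, w, hw, h1⟩ := key (n - 1)
  refine ⟨f, hf, w, hw, ?_⟩
  rw [h1, Nat.sub_add_cancel hn]


/-- Units congruent to a scalar modulo `π` are locally powers. -/
theorem sp_unit_scalar (hπ : Prime π) {m : ℕ} (hm : IsUnit (m : O))
    [IsAlgClosed (ResidueField O)] {c : O} (hc : IsUnit c) :
    Sp π m (algebraMap L (F0 L N) (algebraMap O L c)) := by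
  have hm0 : 0 < m := Nat.pos_of_ne_zero (by
    rintro rfl
    rw [Nat.cast_zero] at hm
    exact not_isUnit_zero hm)
  obtain ⟨c', hc'⟩ := hc.exists_right_inv
  obtain ⟨a', ha'⟩ := IsAlgClosed.exists_pow_nat_eq (residue O c') hm0
  obtain ⟨a, rfl⟩ := residue_surjective a'
  have h1 : residue O (a ^ m * c - 1) = 0 := by
    rw [map_sub, map_mul, map_pow, ha', ← map_mul, mul_comm, hc', map_one, sub_self]
  rw [residue_eq_zero_iff, hπ.irreducible.maximalIdeal_eq, Ideal.mem_span_singleton] at h1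
  obtain ⟨b, hb⟩ := h1
  have h2 : a ^ m * c = 1 + π * b := by linear_combination hb
  have ha0 : a ≠ 0 := by
    rintro rfl
    rw [zero_pow hm0.ne', zero_mul] at h2
    have h3 : IsUnit π := IsUnit.of_mul_eq_one (-b) (by linear_combination h2)
    exact hπ.not_isUnit h3
  set φ : O →+* F0 L N := (algebraMap L (F0 L N)).comp (algebraMap O L) with hφ
  have hφi : Function.Injective φ :=
    (algebraMap L (F0 L N)).injective.comp (IsFractionRing.injective O L)
  have hφa : φ a ≠ 0 := (map_ne_zero_iff _ hφi).mpr ha0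
  have h3 : φ c = ((φ a)⁻¹) ^ m * (1 + piF π * φ b) := by
    have h4 := congrArg φ h2
    rw [map_mul, map_pow, map_add, map_one, map_mul] at h4
    have h5 : φ π = piF π := rfl
    rw [← h5, ← h4, inv_pow, inv_mul_cancel_left₀ (pow_ne_zero _ hφa)]
  change Sp π m (φ c)
  rw [h3]
  exact Sp.mul_pow_self (inv_ne_zero hφa) (sp_one_unit hπ hm (C_mem_gF b))

/-- elements with the same nonzero reduction -/
theorem div_eq_one_add (hπ : Prime π) {u w : F0 L N} (hu : (u : LaurentSeries L) ∈ gV O L)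
    (hw : (w : LaurentSeries L) ∈ gV O L) (hne : gR (⟨_, hw⟩ : gV O L) ≠ 0)
    (h : gR (⟨_, hu⟩ : gV O L) = gR (⟨_, hw⟩ : gV O L)) :
    ∃ v ∈ gF (L := L) (N := N) O, u / w = 1 + piF π * v := by
  have hir := hπ.irreducible
  have hw0 : w ≠ 0 := by
    rintro rfl
    apply hne
    have : (⟨_, hw⟩ : gV O L) = 0 := Subtype.ext rfl
    rw [this, map_zero]
  have h1 : gR ((⟨_, hu⟩ : gV O L) - ⟨_, hw⟩) = 0 := by rw [map_sub, h, sub_self]
  rw [gR_eq_zero_iff hir] at h1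
  obtain ⟨y, hy, hyu⟩ := h1
  have hwi := isUnit_of_gR_ne_zero hne
  refine ⟨(u - w) / piF π * w⁻¹, ?_, ?_⟩
  · refine mul_mem ?_ hwi
    rw [mem_gF]
    have h2 : (((u - w) / piF π : F0 L N) : LaurentSeries L) = y := by
      have h3 : (((u - w) / piF π : F0 L N) : LaurentSeries L) =
          ((u : LaurentSeries L) - w) / (piF π : F0 L N) := rfl
      rw [h3, piF_coe]
      have h4 : (HahnSeries.C (algebraMap O L π) : LaurentSeries L) ≠ 0 := by
        rw [← piF_coe (N := N)]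
        intro h5
        exact piF_ne_zero (N := N) (L := L) hπ (Subtype.ext h5)
      rw [div_eq_iff h4, mul_comm]
      exact hyu
    rw [h2]
    exact hy
  · have hp := piF_ne_zero (N := N) (L := L) hπ
    field_simp
    ring

/-- two functions with the same reduction differ by a local power -/
theorem sp_div_of_gR (hπ : Prime π) {m : ℕ} (hm : IsUnit (m : O)) {u w : F0 L N}
    (hu : (u : LaurentSeries L) ∈ gV O L) (hw : (w : LaurentSeries L) ∈ gV O L)
    (hne : gR (⟨_, hw⟩ : gV O L) ≠ 0) (h : gR (⟨_, hu⟩ : gV O L) = gR (⟨_, hw⟩ : gV O L)) :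
    Sp π m (u / w) := by
  obtain ⟨v, hv, h1⟩ := div_eq_one_add hπ hu hw hne h
  rw [h1]
  exact sp_one_unit hπ hm hv

theorem coeffMap_of_dbar {d : O ≃+* O} (hd : ∀ a, dbar d a = a)
    (x : LaurentSeries (ResidueField O)) : ModularCurve.coeffMap (dbar d) x = x := by
  ext n
  exact hd _

theorem gR_actF {d : O ≃+* O} (hd : ∀ a, dbar d a = a) {u : F0 L N}
    (hu : (u : LaurentSeries L) ∈ gV O L) :
    ∃ h : (actF (dL L d) N u : LaurentSeries L) ∈ gV O L,
      gR (⟨_, h⟩ : gV O L) = gR (⟨_, hu⟩ : gV O L) := by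
  refine ⟨coeffMap_mem_gV d hu, ?_⟩
  have h1 := gR_coeffMap d hu
  rw [coeffMap_of_dbar hd] at h1
  exact h1

/-- every nonzero function is a power of `π` times a unit -/
theorem exists_zpow_unit (hπ : Prime π) {u : F0 L N} (hu : u ≠ 0) :
    ∃ (n : ℤ) (u₁ : F0 L N) (h₁ : (u₁ : LaurentSeries L) ∈ gV O L),
      gR (⟨_, h₁⟩ : gV O L) ≠ 0 ∧ u = piF π ^ n * u₁ := by
  have hu0 : (u : LaurentSeries L) ≠ 0 := fun h => hu (Subtype.ext h)
  obtain ⟨n, u₁, hu₁, hne, huu⟩ := exists_zpow_mul hπ.irreducible (F0_le_gK (O := O) u.2) hu0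
  have hp := piF_ne_zero (L := L) (N := N) hπ
  have h1 : ((u / piF π ^ n : F0 L N) : LaurentSeries L) = u₁ := by
    have h2 : ((u / piF π ^ n : F0 L N) : LaurentSeries L) =
        (u : LaurentSeries L) / ((piF π : F0 L N) : LaurentSeries L) ^ n := by
      push_cast
      rfl
    rw [h2, huu, ← piF_coe (N := N), mul_comm, mul_div_cancel_right₀]
    exact zpow_ne_zero _ fun h => hp (Subtype.ext h)
  refine ⟨n, u / piF π ^ n, by rw [h1]; exact hu₁, ?_, ?_⟩
  · simpa only [h1] using hne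
  · rw [mul_div_cancel₀ _ (zpow_ne_zero _ hp)]

/-- **Inertia changes functions by local powers.** -/
theorem inertia_sp (hπ : Prime π) {m : ℕ} (hm : IsUnit (m : O)) [IsAlgClosed (ResidueField O)]
    {d : O ≃+* O} (hd : ∀ a, dbar d a = a) {u : F0 L N} (hu : u ≠ 0) :
    Sp π m (actF (dL L d) N u / u) := by
  obtain ⟨n, u₁, hu₁, hne, rfl⟩ := exists_zpow_unit hπ hu
  have hp := piF_ne_zero (L := L) (N := N) hπ
  have hu₁0 : u₁ ≠ 0 := by
    rintro rfl
    rw [mul_zero] at hu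
    exact hu rfl
  obtain ⟨h1, h2⟩ := gR_actF hd hu₁
  have h3 : Prime (d π) := (MulEquiv.prime_iff (d : O ≃* O)).mpr hπ
  obtain ⟨ε, hε⟩ := (IsDiscreteValuationRing.associated_of_irreducible O hπ.irreducible
    h3.irreducible)
  have h4 : actF (dL L d) N (piF π) = piF π * algebraMap L (F0 L N) (algebraMap O L ε) := by
    rw [piF, actF_C, dL_algebraMap, ← hε, map_mul, map_mul]
  have h5 : actF (dL L d) N (piF π ^ n * u₁) / (piF π ^ n * u₁) =
      (algebraMap L (F0 L N) (algebraMap O L ε)) ^ n * (actF (dL L d) N u₁ / u₁) := by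
    rw [map_mul, map_zpow₀, h4, mul_zpow]
    have h6 := zpow_ne_zero n hp
    field_simp
  rw [h5]
  exact ((sp_unit_scalar hπ hm ε.isUnit).zpow hπ n).mul (sp_div_of_gR hπ hm h1 hu₁ hne h2)

section U

open scoped IntermediateField.algebraAdjoinAdjoin

variable {ι : L →+* ℂ} {q : ℕ} [NeZero q]

/-- The norm operator preserves the function field. -/
theorem uN_mem_F0 (ι : L →+* ℂ) (hqN : q ∣ N) {ζ : Lˣ} (hζ : IsPrimitiveRoot ζ q)
    {x : LaurentSeries L} (hx : x ∈ F0 L N) : uN q ζ x ∈ F0 L N := by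
  have key : ∀ a : A0 L N, uN q ζ (a : LaurentSeries L) ∈ F0 L N := by
    intro a
    have h1 : XSer ι N 1 (a : LaurentSeries L) :=
      xSer_one_iff.mpr (Algebra.adjoin_le gens_subset_holC a.2)
    have h2 := h1.uN (NeZero.ne q) hqN hζ
    rw [heckeCharU_one] at h2
    exact h2.mem_F0
  obtain ⟨a, b, hb, hab⟩ := IsFractionRing.div_surjective (A := Algebra.adjoin L (gens L N))
      (⟨x, hx⟩ : IntermediateField.adjoin L (gens L N))
  have hb0 : b ≠ 0 := nonZeroDivisors.ne_zero hb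
  have hb1 : (b : LaurentSeries L) ≠ 0 := fun h => hb0 (Subtype.ext h)
  have h1 : x = (a : LaurentSeries L) / (b : LaurentSeries L) :=
    (congrArg (fun z : F0 L N => (z : LaurentSeries L)) hab).symm
  have h2 : uN q ζ x = uN q ζ (a : LaurentSeries L) / uN q ζ (b : LaurentSeries L) := by
    have h3 : uN q ζ (b : LaurentSeries L) ≠ 0 := by
      intro h0
      have h4 : uN q ζ ((b : LaurentSeries L) * (b : LaurentSeries L)⁻¹) = 0 := by
        rw [uN_mul hζ, h0, zero_mul]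
      rw [mul_inv_cancel₀ hb1, uN_one hζ] at h4
      exact one_ne_zero h4
    rw [eq_div_iff h3, ← uN_mul hζ, h1, div_mul_cancel₀ _ hb1]
  rw [h2]
  exact div_mem (key a) (key b)

/-- the norm operator on the function field -/
def uF (ι : L →+* ℂ) (hqN : q ∣ N) {ζ : Lˣ} (hζ : IsPrimitiveRoot ζ q) : F0 L N →*₀ F0 L N where
  toFun x := ⟨uN q ζ (x : LaurentSeries L), uN_mem_F0 ι hqN hζ x.2⟩
  map_zero' := Subtype.ext (uN_zero hζ)
  map_one' := Subtype.ext (uN_one hζ)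
  map_mul' _ _ := Subtype.ext (uN_mul hζ _ _)

theorem uF_coe (hqN : q ∣ N) {ζ : Lˣ} (hζ : IsPrimitiveRoot ζ q) (x : F0 L N) :
    (uF ι hqN hζ x : LaurentSeries L) = uN q ζ (x : LaurentSeries L) := rfl

theorem uF_actF (hqN : q ∣ N) {ζ : Lˣ} (hζ : IsPrimitiveRoot ζ q) (d : L ≃+* L) (x : F0 L N) :
    uF ι hqN hζ (actF d N x) = actF d N (uF ι hqN hζ x) :=
  Subtype.ext (coeffMap_uN_equiv hζ d (x : LaurentSeries L)).symm

variable [ExpChar (ResidueField O) q] {ζ : Oˣ}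

/-- Frobenius and the norm operator agree up to local powers. -/
theorem frob_sp (hq : q.Prime) (hq0 : (q : ResidueField O) = 0) (hqN : q ∣ N)
    (hζ : IsPrimitiveRoot ζ q) (hπ : Prime π) {m : ℕ} (hm : IsUnit (m : O)) {d : O ≃+* O}
    (hd : ∀ a, dbar d a = a ^ q) {u : F0 L N} (hu : (u : LaurentSeries L) ∈ gV O L)
    (hne : gR (⟨_, hu⟩ : gV O L) ≠ 0) :
    Sp π m (actF (dL L d) N u / uF ι hqN (zL_prim (L := L) hζ) u) := by
  have h1 := gR_coeffMap d hu
  have h2 := gR_uN hq hq0 hζ hu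
  have h3 : dbar d = frobenius (ResidueField O) q := RingHom.ext fun a => by
    rw [hd, frobenius_def]
  rw [h3] at h1
  refine sp_div_of_gR hπ hm (coeffMap_mem_gV d hu) (uN_mem_gV hq hq0 hζ hu) ?_ ?_
  · intro h0
    exact coeffMap_frob_ne_zero (q := q) hne (h2.symm.trans h0)
  · exact h1.trans h2.symm

theorem uF_contract (hq : q.Prime) (hq0 : (q : ResidueField O) = 0) (hqN : q ∣ N)
    (hζ : IsPrimitiveRoot ζ q) (hπ : Prime π) {w : F0 L N} (hw : w ∈ gF (L := L) (N := N) O)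
    (k : ℕ) : ∃ w' ∈ gF (L := L) (N := N) O,
      uF ι hqN (zL_prim (L := L) hζ) (1 + piF π ^ (k + 1) * w) = 1 + piF π ^ (k + 2) * w' := by
  obtain ⟨w', hw', h3⟩ := uN_contract (L := L) hq hq0 hζ hπ.irreducible (mem_gF.mp hw)
    (k := k + 1) (by omega)
  have hp := piF_ne_zero (L := L) (N := N) hπ
  set y := uF ι hqN (zL_prim (L := L) hζ) (1 + piF π ^ (k + 1) * w) with hy
  have h4 : (y : LaurentSeries L) = 1 + ((piF π : F0 L N) : LaurentSeries L) ^ (k + 2) * w' := by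
    rw [piF_coe, ← h3, ← piF_coe (N := N)]
    rfl
  have hp' : ((piF π : F0 L N) : LaurentSeries L) ≠ 0 := fun h => hp (Subtype.ext h)
  have h5 : (((y - 1) / piF π ^ (k + 2) : F0 L N) : LaurentSeries L) = w' := by
    have h6 : (((y - 1) / piF π ^ (k + 2) : F0 L N) : LaurentSeries L) =
        ((y : LaurentSeries L) - 1) / ((piF π : F0 L N) : LaurentSeries L) ^ (k + 2) := rfl
    rw [h6, h4, add_sub_cancel_left, mul_comm, mul_div_cancel_right₀ _ (pow_ne_zero _ hp')]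
  refine ⟨(y - 1) / piF π ^ (k + 2), ?_, ?_⟩
  · rw [mem_gF, h5]
    exact hw'
  · rw [mul_div_cancel₀ _ (pow_ne_zero _ hp)]
    ring

/-- **Contraction.** A one-unit which is congruent modulo powers to a power of its norm is locally
a power. -/
theorem contract_sp (hq : q.Prime) (hq0 : (q : ResidueField O) = 0) (hqN : q ∣ N)
    (hζ : IsPrimitiveRoot ζ q) (hπ : Prime π) {m : ℕ} {v f : F0 L N}
    (hv : v ∈ gF (L := L) (N := N) O) (hf : f ≠ 0) {ε : ℤ}
    (h : 1 + piF π * v = f ^ m * (uF ι hqN (zL_prim (L := L) hζ) (1 + piF π * v)) ^ ε) :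
    Sp π m (1 + piF π * v) := by
  obtain ⟨Φ, hΦ⟩ : ∃ Φ, Φ = uF ι hqN (zL_prim (L := L) hζ) := ⟨_, rfl⟩
  obtain ⟨x, hx⟩ : ∃ x : F0 L N, x = 1 + piF π * v := ⟨_, rfl⟩
  rw [← hx, ← hΦ] at h
  rw [← hx]
  have hx0 : x ≠ 0 := by
    have := (unit_inv hπ hv (n := 1) le_rfl).1
    rw [pow_one, ← hx] at this
    exact this
  have hΦ0 : ∀ y : F0 L N, y ≠ 0 → Φ y ≠ 0 := fun y hy => by rwa [Ne, map_eq_zero]
  -- iterate the norm
  have key : ∀ n : ℕ, ∃ (g : F0 L N) (k : ℤ) (f' y : F0 L N) (w : F0 L N),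
      w ∈ gF (L := L) (N := N) O ∧ g ≠ 0 ∧ f' ≠ 0 ∧ y = 1 + piF π ^ (n + 1) * w ∧
      x = g ^ m * y ^ k ∧ y = f' ^ m * (Φ y) ^ ε := by
    intro n
    induction n with
    | zero =>
      exact ⟨1, 1, f, x, v, hv, one_ne_zero, hf, by rw [zero_add, pow_one, hx], by simp, h⟩
    | succ n ih =>
      obtain ⟨g, k, f', y, w, hw, hg, hf', h1, h2, h3⟩ := ih
      obtain ⟨w', hw', h4⟩ := uF_contract (ι := ι) (L := L) hq hq0 hqN hζ hπ hw n
      rw [← h1, ← hΦ] at h4
      refine ⟨g * f' ^ k, ε * k, Φ f', Φ y, w', hw', mul_ne_zero hg (zpow_ne_zero _ hf'),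
        hΦ0 _ hf', h4, ?_, ?_⟩
      · conv_lhs => rw [h2, h3]
        rw [mul_zpow, mul_pow, ← zpow_natCast (f' ^ k), ← zpow_mul f' k, ← zpow_natCast f' m,
          ← zpow_mul f', zpow_mul (Φ y) ε k, mul_comm k (m : ℤ)]
        ring
      · conv_lhs => rw [h3]
        rw [map_mul, map_pow, map_zpow₀]
  apply sp_of_pos
  intro n hn
  obtain ⟨g, k, f', y, w, hw, hg, -, h1, h2, -⟩ := key n
  obtain ⟨w', hw', h3⟩ := zpow_one_unit hπ hw (n := n + 1) (by omega) k
  refine ⟨g⁻¹, inv_ne_zero hg, piF π * w', mul_mem piF_mem hw', ?_⟩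
  rw [h2, inv_pow, inv_mul_cancel_left₀ (pow_ne_zero _ hg), h1, h3, pow_succ, mul_assoc]

end U

end Fermat.Agent.LG
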