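import Mathlib
import Fermat.Agent.LG.SpL
import Fermat.Agent.LG.KX6

/-!
# Inertia and the square of Frobenius act through the cyclotomic character on classes which are
locally trivial along both components
-/

set_option autoImplicit false
set_option linter.unusedSectionVars false

open Fermat.Agent.ModFun IntermediateField Fermat.Agent.Geo IsLocalRing
open Fermat.Agent.ESCore (HauptFn haupt2 haupt3 hdelta)
open ModularCurve (qExpand)
open CongruenceSubgroup (Gamma0)

noncomputable section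

universe u

namespace Fermat.Agent.LG

section Cover

variable {L : Type u} [Field L] {ι : L →+* ℂ} {N : ℕ} [NeZero N]
  {X : Subgroup (Gamma0 N →* ℂˣ)} {y : X → LaurentSeries L}

theorem coverE_stable {m : ℕ} (hm : 0 < m) (hX : ∀ χ ∈ X, χ ^ m = 1) (hy0 : ∀ χ, y χ ≠ 0)
    (hy : ∀ χ : X, XSer ι N (χ : Gamma0 N →* ℂˣ) (y χ)) (d : L →+* L)
    (hact : ∀ χ : X, ∃ χ' : X, XSer ι N (χ' : Gamma0 N →* ℂˣ) (ModularCurve.coeffMap d (y χ)))
    {x : LaurentSeries L} (hx : x ∈ coverE N y) : ModularCurve.coeffMap d x ∈ coverE N y := by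
  induction hx using IntermediateField.adjoin_induction with
  | mem x hx =>
    rcases hx with hx | ⟨χ, rfl⟩
    · exact F0_le_coverE (coeffMap_mem_adjoin d hx)
    · obtain ⟨χ', h1⟩ := hact χ
      have h2 := XSer.div_mem hm (hX _ χ'.2) (hy χ') (hy0 χ') h1
      rw [← div_mul_cancel₀ (ModularCurve.coeffMap d (y χ)) (hy0 χ')]
      exact mul_mem (F0_le_coverE h2) (mem_coverE χ')
  | algebraMap a =>
    rw [ModularCurve.coeffMap_algebraMap]
    exact IntermediateField.algebraMap_mem _ _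
  | add x y _ _ hx hy => rw [map_add]; exact add_mem hx hy
  | mul x y _ _ hx hy => rw [map_mul]; exact mul_mem hx hy
  | inv x _ hx => rw [map_inv₀]; exact inv_mem hx

end Cover

section Star

variable {O L : Type u} [CommRing O] [IsDomain O] [IsDiscreteValuationRing O] [Field L]
  [Algebra O L] [IsFractionRing O L] {q : ℕ} [NeZero q] {p : ℕ} [Fact p.Prime] {κ : ℤ}
  {M N : ℕ} [NeZero M] [NeZero N] {H : HauptFn p κ} {S : Set ℤ} {k : ℕ} {P : Polynomial ℤ}
  {π : O} {X : Subgroup (Gamma0 N →* ℂˣ)} {y : X → LaurentSeries L}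

/-- **The action of inertia and of the square of Frobenius is cyclotomic.** -/
theorem cstar_abs (B : Bez q M) (hH : HautData H S k P) (ι : L →+* ℂ) {ζ : Lˣ}
    (hζ : ι ζ = Complex.exp (2 * Real.pi * Complex.I / M)) (hMu : IsUnit (M : O)) (hπ : Prime π)
    (hS : ∀ c ∈ S, ∀ c' ∈ S, c ≠ c' → IsUnit ((c - c' : ℤ) : O))
    [IsAlgClosed (ResidueField O)] [ExpChar (ResidueField O) q] [CharZero O]
    (hq0 : (q : ResidueField O) = 0) (hq : q.Prime) (hqp : ¬ q ∣ p)
    (hN : N = q * M) (hqM : q.Coprime M) (hpM : p ∣ M) (hNE : NoEll N)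
    {m : ℕ} (hm : 0 < m) {ζm : L} (hζm : IsPrimitiveRoot ζm m) [Finite X]
    (hX : ∀ χ ∈ X, χ ^ m = 1) (hXp : ∀ χ ∈ X, IsPar χ) (hy0 : ∀ χ, y χ ≠ 0)
    (hy : ∀ χ : X, XSer ι N (χ : Gamma0 N →* ℂˣ) (y χ))
    (hsp₁ : ∀ χ : X, Sp π m (⟨y χ ^ m, (hy χ).pow_mem_F0 (hX _ χ.2)⟩ : F0 L N))
    (hsp₂ : ∀ χ : X, Sp π m (B.wF ι hq hN ⟨y χ ^ m, (hy χ).pow_mem_F0 (hX _ χ.2)⟩))
    {dφ : O ≃+* O} (hφ : ∀ a, dbar dφ a = a ^ q) {d : O ≃+* O}
    (hcase : (∀ a, dbar d a = a) ∨ (∀ a, d a = dφ (dφ a)))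
    (hact : ∀ χ : X, ∃ χ' : X,
      XSer ι N (χ' : Gamma0 N →* ℂˣ) (ModularCurve.coeffMap (dL L d : L →+* L) (y χ)))
    (hact' : ∀ χ : X, ∃ χ' : X,
      XSer ι N (χ' : Gamma0 N →* ℂˣ) (ModularCurve.coeffMap ((dL L d).symm : L →+* L) (y χ)))
    {c : ℕ} (hc : dL L d ζm = ζm ^ c) {χ χ' : X}
    (hχ : XSer ι N (χ' : Gamma0 N →* ℂˣ) (ModularCurve.coeffMap (dL L d : L →+* L) (y χ))) :
    χ' = χ ^ c := by
  let _ := algO O (F0 L N)
  let _ := algI (F0_le_coverE (N := N) (y := y))
  have hcL : CharZero L := (ι.charZero_iff ι.injective).mpr inferInstance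
  have : CharZero (F0 L N) := charZero_of_injective_algebraMap (algebraMap L (F0 L N)).injective
  have hK := kumData hm hζm hX hy0 hy
  have h1 := fun x (hx : x ∈ coverE N y) => coverE_stable hm hX hy0 hy (dL L d : L →+* L) hact hx
  have h2 := fun x (hx : x ∈ coverE N y) =>
    coverE_stable hm hX hy0 hy ((dL L d).symm : L →+* L) hact' hx
  have hfin : Fintype X := Fintype.ofFinite X
  have hcomm := comm_concrete (O := O) B hH ι hζ hMu hπ hS hq0 hq hqp hN hqM hpM (coverE N y)
    F0_le_coverE hK.finiteDimensional hK.isGalois (unrGen_cover hπ hNE hm hζm hX hXp hy0 hy)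
    hm hζm (yE (N := N) y) (fun χ => (⟨y χ ^ m, (hy χ).pow_mem_F0 (hX _ χ.2)⟩ : F0 L N))
    (fun χ => rfl) (fun x => by
      obtain ⟨a, ha⟩ := hK.exists_sum x
      refine ⟨Finset.univ, a, ?_⟩
      have h3 := congrArg (fun z : coverE N y => (coverE N y).val.toRingHom z) ha
      simp only [map_sum] at h3
      exact h3) hsp₁ hsp₂ hφ hcase h1 h2
  -- the action on roots of unity
  have hroot : ∀ w : rootsOfUnity m (F0 L N),
      ModularCurve.coeffMap (dL L d : L →+* L) (((w : (F0 L N)ˣ) : F0 L N) : LaurentSeries L) =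
        (((w : (F0 L N)ˣ) : F0 L N) : LaurentSeries L) ^ c := by
    intro w
    have hm0 : NeZero m := ⟨hm.ne'⟩
    have h3 : ((w : (F0 L N)ˣ) : F0 L N) ^ m = 1 := by
      have := (mem_rootsOfUnity m (w : (F0 L N)ˣ)).mp w.2
      rw [← Units.val_pow_eq_pow_val, this, Units.val_one]
    obtain ⟨i, -, hi⟩ :=
      (hζm.map_of_injective (algebraMap L (F0 L N)).injective).eq_pow_of_pow_eq_one h3
    rw [← map_pow] at hi
    have h4 : (((w : (F0 L N)ˣ) : F0 L N) : LaurentSeries L) =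
        algebraMap L (LaurentSeries L) (ζm ^ i) := by
      rw [← hi]
      rfl
    rw [h4, ModularCurve.coeffMap_algebraMap, ← map_pow]
    congr 1
    change dL L d (ζm ^ i) = _
    rw [map_pow, hc, ← pow_mul, ← pow_mul, mul_comm]
  -- the relation
  have hdy0 : ModularCurve.coeffMap (dL L d : L →+* L) (y χ) ≠ 0 := by
    rw [Ne, _root_.map_eq_zero]
    exact hy0 χ
  have key : χ' * (χ ^ c)⁻¹ = 1 := by
    refine hK.eq_one_of_fixed fun g => ?_
    obtain ⟨w, hw⟩ := hK.exists_hom g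
    -- values of `w`
    have e1 : w χ' = w χ ^ c := by
      have e2 := hcomm g (yE (N := N) y χ)
      have e3 : ((g (yE (N := N) y χ) : coverE N y) : LaurentSeries L) =
          (((w χ : (F0 L N)ˣ) : F0 L N) : LaurentSeries L) * y χ := by
        rw [hw]
        rfl
      rw [e3, map_mul, hroot] at e2
      -- the image of `y χ`
      have e4 := XSer.div_mem hm (hX _ χ'.2) (hy χ') (hy0 χ') hχ
      have e5 : actE (dL L d) (coverE N y) h1 h2 (yE (N := N) y χ) =
          algebraMap (F0 L N) (coverE N y) ⟨_, e4⟩ * yE (N := N) y χ' := by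
        apply Subtype.ext
        change ModularCurve.coeffMap (dL L d : L →+* L) (y χ) =
          ModularCurve.coeffMap (dL L d : L →+* L) (y χ) / y χ' * y χ'
        rw [div_mul_cancel₀ _ (hy0 χ')]
      rw [e5, map_mul, AlgEquiv.commutes, hw] at e2
      have e6 : ((algebraMap (F0 L N) (coverE N y) ⟨_, e4⟩ *
          (algebraMap (F0 L N) (coverE N y) ((w χ' : (F0 L N)ˣ) : F0 L N) * yE (N := N) y χ') :
          coverE N y) : LaurentSeries L) = (((w χ' : (F0 L N)ˣ) : F0 L N) : LaurentSeries L) *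
          ModularCurve.coeffMap (dL L d : L →+* L) (y χ) := by
        change (ModularCurve.coeffMap (dL L d : L →+* L) (y χ) / y χ') *
          ((((w χ' : (F0 L N)ˣ) : F0 L N) : LaurentSeries L) * y χ') = _
        have := hy0 χ'
        field_simp
      rw [e6] at e2
      have e7 := mul_right_cancel₀ hdy0 e2
      apply Subtype.ext
      apply Units.ext
      apply Subtype.ext
      rw [Subgroup.coe_pow, Units.val_pow_eq_pow_val, SubmonoidClass.coe_pow]
      exact e7.symm
    rw [hw, map_mul, map_inv, map_pow, e1, mul_inv_cancel]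
    change algebraMap (F0 L N) (coverE N y) (((1 : rootsOfUnity m (F0 L N)) : (F0 L N)ˣ) : F0 L N) *
      _ = _
    rw [OneMemClass.coe_one, Units.val_one, map_one, one_mul]
  exact mul_inv_eq_one.mp key

end Star

end Fermat.Agent.LG
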