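import Mathlib
import Fermat.Agent.LG.CStar
import Fermat.Agent.LG.KX7
import Fermat.Agent.LG.GRConcrete

/-!
# The arithmetic setting
-/

set_option autoImplicit false
set_option linter.unusedSectionVars false

open Fermat.Agent.ModFun IntermediateField Fermat.Agent.Geo IsLocalRing Fermat.Agent.ESCore
open CongruenceSubgroup (Gamma0 Gamma0_mem)
open scoped MatrixGroups

noncomputable section

namespace Fermat.Agent.LG

/-- the valuation ring of `L` -/
abbrev OL (A : ValuationSubring Qb) (L : IntermediateField ℚ Qb) : ValuationSubring L :=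
  A.comap (algebraMap L Qb)

/-- The arithmetic setting: a discretely valued field, containing the inertia field, stable under
the decomposition group. -/
structure Ar (A : ValuationSubring Qb) (q : ℕ) (L : IntermediateField ℚ Qb) : Prop where
  hq : q.Prime
  hA : A.LiesOverPrime q
  le : KI A ≤ L
  dec : ∀ σ ∈ A.decompositionSubgroup ℚ, ∀ x ∈ L, σ x ∈ L
  dvr : IsDiscreteValuationRing (OL A L)

namespace Ar

variable {A : ValuationSubring Qb} {q : ℕ} {L : IntermediateField ℚ Qb}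

theorem exists_of_finset (hq : q.Prime) (hA : A.LiesOverPrime q) (S : Finset Qb) :
    ∃ L : IntermediateField ℚ Qb, Ar A q L ∧ ∀ x ∈ S, x ∈ L := by
  obtain ⟨L, h1, h2, h3, -, h5⟩ := exists_dvr_field A hq hA S
  exact ⟨L, ⟨hq, hA, h1, h3, h5⟩, h2⟩

variable (h : Ar A q L)

/-- restriction to `L` -/
def res {σ : GQ} (h : Ar A q L) (hσ : σ ∈ A.decompositionSubgroup ℚ) : L ≃+* L where
  toFun x := ⟨σ x, h.dec σ hσ x x.2⟩
  invFun x := ⟨σ⁻¹ x, h.dec σ⁻¹ (inv_mem hσ) x x.2⟩
  left_inv x := Subtype.ext (by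
    change σ⁻¹ (σ (x : Qb)) = x
    rw [← AlgEquiv.mul_apply, inv_mul_cancel, AlgEquiv.one_apply])
  right_inv x := Subtype.ext (by
    change σ (σ⁻¹ (x : Qb)) = x
    rw [← AlgEquiv.mul_apply, mul_inv_cancel, AlgEquiv.one_apply])
  map_mul' _ _ := Subtype.ext (map_mul σ _ _)
  map_add' _ _ := Subtype.ext (map_add σ _ _)

theorem coe_res {σ : GQ} (hσ : σ ∈ A.decompositionSubgroup ℚ) (x : L) :
    ((h.res hσ x : L) : Qb) = σ x := rfl

theorem mem_of_dec {σ : GQ} (hσ : σ ∈ A.decompositionSubgroup ℚ) {x : Qb} (hx : x ∈ A) :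
    σ x ∈ A := (decMap A hσ ⟨x, hx⟩).2

/-- restriction to the valuation ring -/
def resO {σ : GQ} (h : Ar A q L) (hσ : σ ∈ A.decompositionSubgroup ℚ) : OL A L ≃+* OL A L where
  toFun x := ⟨h.res hσ x, mem_of_dec hσ x.2⟩
  invFun x := ⟨(h.res hσ).symm x, mem_of_dec (inv_mem hσ) x.2⟩
  left_inv _ := Subtype.ext ((h.res hσ).symm_apply_apply _)
  right_inv _ := Subtype.ext ((h.res hσ).apply_symm_apply _)
  map_mul' _ _ := Subtype.ext (map_mul (h.res hσ) _ _)
  map_add' _ _ := Subtype.ext (map_add (h.res hσ) _ _)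

theorem dL_resO [IsDiscreteValuationRing (OL A L)] {σ : GQ} (hσ : σ ∈ A.decompositionSubgroup ℚ) :
    dL L (h.resO hσ) = h.res hσ := by
  apply RingEquiv.ext
  intro c
  obtain ⟨a, b, hb, rfl⟩ := IsFractionRing.div_surjective (A := OL A L) c
  rw [map_div₀, map_div₀, dL_algebraMap, dL_algebraMap]
  rfl

theorem residue_eq_zero {z : OL A L} (hz : residue A (⟨((z : L) : Qb), z.2⟩ : A) = 0) :
    residue (OL A L) z = 0 := by
  rw [residue_eq_zero_iff, mem_maximalIdeal, mem_nonunits_iff]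
  rw [residue_eq_zero_iff, mem_maximalIdeal, mem_nonunits_iff] at hz
  rintro ⟨u, rfl⟩
  apply hz
  refine IsUnit.of_mul_eq_one ⟨(((u⁻¹ : (OL A L)ˣ) : OL A L) : L), ((u⁻¹ : (OL A L)ˣ) : OL A L).2⟩ ?_
  apply Subtype.ext
  exact congrArg (fun w : OL A L => ((w : L) : Qb)) u.mul_inv

theorem dbar_inertia [IsDiscreteValuationRing (OL A L)] {σ : GQ} (hσ : σ ∈ A.inertiaSubgroupIn ℚ)
    (hσ' : σ ∈ A.decompositionSubgroup ℚ) (a : ResidueField (OL A L)) :
    dbar (h.resO hσ') a = a := by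
  obtain ⟨hd, hres⟩ := residue_decMap_inertia A hσ
  obtain ⟨x, rfl⟩ := residue_surjective a
  rw [dbar_residue, ← sub_eq_zero, ← map_sub]
  apply residue_eq_zero
  have h1 := hres ⟨((x : L) : Qb), x.2⟩
  rw [← sub_eq_zero, ← map_sub] at h1
  exact h1

theorem dbar_frob [IsDiscreteValuationRing (OL A L)] {σ : GQ} (hσ : A.IsFrobeniusAt σ q) (a : ResidueField (OL A L)) :
    dbar (h.resO hσ.mem_decompositionSubgroup) a = a ^ q := by
  obtain ⟨x, rfl⟩ := residue_surjective a
  rw [dbar_residue, ← map_pow, ← sub_eq_zero, ← map_sub]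
  apply residue_eq_zero
  have h1 := residue_decMap A hσ ⟨((x : L) : Qb), x.2⟩
  rw [← map_pow, ← sub_eq_zero, ← map_sub] at h1
  exact h1

theorem inertia_le {σ : GQ} (hσ : σ ∈ A.inertiaSubgroupIn ℚ) : σ ∈ A.decompositionSubgroup ℚ :=
  (residue_decMap_inertia A hσ).choose

include h in
theorem natCast_residue : (q : ResidueField (OL A L)) = 0 := by
  rw [← map_natCast (residue (OL A L))]
  apply residue_eq_zero
  obtain ⟨h3, h4⟩ := (ValuationSubring.mem_nonunits_iff_exists_mem_maximalIdeal (A := A)).1 h.hA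
  rw [residue_eq_zero_iff]
  have h5 : (⟨(((q : OL A L) : L) : Qb), (q : OL A L).2⟩ : A) = ⟨((q : ℕ) : Qb), h3⟩ :=
    Subtype.ext (by simp)
  rw [h5]
  exact h4

theorem charP_residue (h : Ar A q L) : CharP (ResidueField (OL A L)) q := by
  obtain ⟨c, hc⟩ := CharP.exists (ResidueField (OL A L))
  have h6 : c ∣ q := (CharP.cast_eq_zero_iff _ c q).1 h.natCast_residue
  rcases (Nat.dvd_prime h.hq).1 h6 with h7 | h7
  · subst h7
    exact absurd rfl (CharP.char_ne_one (ResidueField (OL A L)) 1)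
  · rw [← h7]
    exact hc

theorem expChar_residue (h : Ar A q L) : ExpChar (ResidueField (OL A L)) q :=
  have := h.charP_residue
  ExpChar.prime h.hq

theorem isUnit_natCast (h : Ar A q L) {n : ℕ} (hn : ¬ q ∣ n) : IsUnit (n : OL A L) := by
  have := h.charP_residue
  rw [← residue_ne_zero_iff_isUnit, map_natCast, Ne, CharP.cast_eq_zero_iff _ q]
  exact hn

theorem charZero (A : ValuationSubring Qb) (L : IntermediateField ℚ Qb) : CharZero (OL A L) := by
  refine ⟨fun a b hab => ?_⟩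
  have h1 : ((a : OL A L) : L) = ((b : OL A L) : L) := congrArg Subtype.val hab
  have h2 : (a : L) = (b : L) := by simpa using h1
  exact_mod_cast h2

theorem isAlgClosed (h : Ar A q L) : IsAlgClosed (ResidueField (OL A L)) :=
  isAlgClosed_residue A h.hq h.hA L h.le

end Ar

end Fermat.Agent.LG
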