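import Mathlib
import Fermat.Agent.LG.ArL

/-!
# Inertia and the square of Frobenius on locally trivial classes, arithmetic form
-/

set_option autoImplicit false
set_option linter.unusedSectionVars false

open Fermat.Agent.ModFun IntermediateField Fermat.Agent.Geo IsLocalRing Fermat.Agent.ESCore
open CongruenceSubgroup (Gamma0 Gamma0_mem)
open scoped MatrixGroups

noncomputable section

namespace Fermat.Agent.LG

theorem char_eq_one_iff {N m : ℕ} {χ : Gamma0 N →* ℂˣ} : χ ^ m = 1 ↔ ∀ g, χ g ^ m = 1 :=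
  ⟨fun h g => DFunLike.congr_fun h g, fun h => MonoidHom.ext h⟩

theorem char_mul_pow {N m : ℕ} {χ ψ : Gamma0 N →* ℂˣ} (h1 : χ ^ m = 1) (h2 : ψ ^ m = 1) :
    (χ * ψ) ^ m = 1 := by
  rw [char_eq_one_iff] at *
  intro g
  rw [MonoidHom.mul_apply, mul_pow, h1, h2, one_mul]

theorem char_one_pow {N m : ℕ} : (1 : Gamma0 N →* ℂˣ) ^ m = 1 := by
  rw [char_eq_one_iff]
  intro g
  rw [MonoidHom.one_apply, one_pow]

theorem char_pow_pow {N m : ℕ} {χ : Gamma0 N →* ℂˣ} (h1 : χ ^ m = 1) (k : ℕ) :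
    (χ ^ k) ^ m = 1 := by
  rw [char_eq_one_iff] at *
  intro g
  have : (χ ^ k) g = χ g ^ k := rfl
  rw [this, ← pow_mul, mul_comm, pow_mul, h1, one_pow]

theorem char_inv_eq {N m : ℕ} (hm : 0 < m) {χ : Gamma0 N →* ℂˣ} (h1 : χ ^ m = 1) :
    χ⁻¹ = χ ^ (m - 1) := by
  rw [char_eq_one_iff] at h1
  ext1 g
  have h2 : (χ ^ (m - 1)) g = χ g ^ (m - 1) := rfl
  rw [h2, MonoidHom.inv_apply, inv_eq_iff_mul_eq_one, ← pow_succ', Nat.sub_add_cancel hm, h1]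

theorem IsPar.mul {N : ℕ} {χ ψ : Gamma0 N →* ℂˣ} (h1 : IsPar χ) (h2 : IsPar ψ) : IsPar (χ * ψ) := by
  intro γ hγ
  rw [MonoidHom.mul_apply, h1 γ hγ, h2 γ hγ, one_mul]

theorem IsPar.inv {N : ℕ} {χ : Gamma0 N →* ℂˣ} (h1 : IsPar χ) : IsPar χ⁻¹ := by
  intro γ hγ
  rw [MonoidHom.inv_apply, h1 γ hγ, inv_one]

theorem IsPar.one {N : ℕ} : IsPar (1 : Gamma0 N →* ℂˣ) := fun _ _ => rfl

theorem IsPar.mem_XG {N : ℕ} {χ : Gamma0 N →* ℂˣ} (h1 : IsPar χ) {m : ℕ} (hm : χ ^ m = 1) :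
    χ ∈ XG N m := by
  refine ⟨hm, fun g hg => h1 g ?_⟩
  have hdet := (g : SL(2, ℤ)).det_coe
  rw [Matrix.det_fin_two] at hdet
  have hg' : (g : SL(2, ℤ)) 1 0 = 0 := hg
  rw [hg', mul_zero, sub_zero] at hdet
  rw [trS]
  rcases Int.isUnit_iff.mp (IsUnit.of_mul_eq_one _ hdet) with h | h
  · rw [h, one_mul] at hdet
    rw [h, hdet]
    norm_num
  · rw [h] at hdet
    have : (g : SL(2, ℤ)) 1 1 = -1 := by linarith
    rw [h, this]
    norm_num

/-- the complex embedding of `L` -/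
abbrev ιL (L : IntermediateField ℚ Qb) : L →+* ℂ := ιC.comp (algebraMap L Qb)

section Act

variable {O L : Type*} [CommRing O] [IsDomain O] [IsDiscreteValuationRing O] [Field L]
  [Algebra O L] [IsFractionRing O L]

end Act

universe u

section Act

variable {O L : Type u} [CommRing O] [IsDomain O] [IsDiscreteValuationRing O] [Field L]
  [Algebra O L] [IsFractionRing O L] {N : ℕ} [NeZero N] {π : O}

/-- `Sp` is stable under the action on the coefficients. -/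
theorem Sp.actF {m : ℕ} (hπ : Prime π) {g : F0 L N} (hg : Sp π m g) (d : O ≃+* O) :
    Sp π m (LG.actF (dL L d) N g) := by
  rw [sp_iff] at hg ⊢
  intro n
  obtain ⟨f, hf, v, hv, h1⟩ := hg n
  have h3 : Prime (d π) := (MulEquiv.prime_iff (d : O ≃* O)).mpr hπ
  obtain ⟨ε, hε⟩ := (IsDiscreteValuationRing.associated_of_irreducible O hπ.irreducible
    h3.irreducible)
  have h4 : LG.actF (dL L d) N (piF π) = piF π * algebraMap L (F0 L N) (algebraMap O L ε) := by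
    rw [piF, actF_C, dL_algebraMap, ← hε, map_mul, map_mul]
  refine ⟨LG.actF (dL L d) N f, (map_ne_zero_iff _ (LG.actF (dL L d) N).injective).mpr hf,
    (algebraMap L (F0 L N) (algebraMap O L ε)) ^ n * LG.actF (dL L d) N v,
    mul_mem (pow_mem (C_mem_gF _) n) ?_, ?_⟩
  · exact coeffMap_mem_gV d (mem_gF.mp hv)
  · rw [← map_pow, ← map_mul, h1, map_add, map_one, map_mul, map_pow, h4, mul_pow, mul_assoc]

end Act

section Ar

variable {A : ValuationSubring Qb} {q : ℕ} {L : IntermediateField ℚ Qb}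
  [IsDiscreteValuationRing (OL A L)] {M N : ℕ} [NeZero q] [NeZero M] [NeZero N] {m : ℕ}
  {π : OL A L}

/-- the class is locally trivial along both components -/
def LW (B : Bez q M) (hq : q.Prime) (hN : N = q * M) (π : OL A L) (m : ℕ)
    (χ : Gamma0 N →* ℂˣ) : Prop :=
  IsPar χ ∧ ∃ (hχ : χ ^ m = 1) (y : LaurentSeries L) (hy : XSer (ιL L) N χ y), y ≠ 0 ∧
    Sp π m (⟨y ^ m, hy.pow_mem_F0 hχ⟩ : F0 L N) ∧
    Sp π m (B.wF (ιL L) hq hN ⟨y ^ m, hy.pow_mem_F0 hχ⟩)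

variable {B : Bez q M} {hq : q.Prime} {hN : N = q * M}

theorem LW.one (hm : 0 < m) : LW B hq hN π m 1 := by
  have h1 : (1 : Gamma0 N →* ℂˣ) ^ m = 1 := char_one_pow
  refine ⟨IsPar.one, h1, 1, xSer_one, one_ne_zero, ?_, ?_⟩
  · have h2 : (⟨(1 : LaurentSeries L) ^ m, (xSer_one (ι := ιL L)).pow_mem_F0 h1⟩ : F0 L N) = 1 :=
      Subtype.ext (one_pow m)
    rw [h2]
    exact sp_one
  · have h2 : (⟨(1 : LaurentSeries L) ^ m, (xSer_one (ι := ιL L)).pow_mem_F0 h1⟩ : F0 L N) = 1 :=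
      Subtype.ext (one_pow m)
    rw [h2, map_one]
    exact sp_one

theorem LW.mul {χ ψ : Gamma0 N →* ℂˣ} (h1 : LW B hq hN π m χ) (h2 : LW B hq hN π m ψ) :
    LW B hq hN π m (χ * ψ) := by
  obtain ⟨p1, e1, y, hy, hy0, a1, a2⟩ := h1
  obtain ⟨p2, e2, z, hz, hz0, b1, b2⟩ := h2
  have h1 : (χ * ψ) ^ m = 1 := char_mul_pow e1 e2
  have h2 : (⟨(y * z) ^ m, (hy.mul hz).pow_mem_F0 h1⟩ : F0 L N) =
      ⟨y ^ m, hy.pow_mem_F0 e1⟩ * ⟨z ^ m, hz.pow_mem_F0 e2⟩ := Subtype.ext (mul_pow y z m)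
  refine ⟨p1.mul p2, h1, y * z, hy.mul hz, mul_ne_zero hy0 hz0, ?_, ?_⟩
  · rw [h2]
    exact a1.mul b1
  · rw [h2, map_mul]
    exact a2.mul b2

theorem LW.inv (hm : 0 < m) {χ : Gamma0 N →* ℂˣ} (h1 : LW B hq hN π m χ) :
    LW B hq hN π m χ⁻¹ := by
  obtain ⟨p1, e1, y, hy, hy0, a1, a2⟩ := h1
  have h0 : χ⁻¹ = χ ^ (m - 1) := char_inv_eq hm e1
  have h1 : (χ ^ (m - 1)) ^ m = 1 := char_pow_pow e1 _
  have h2 : (⟨(y ^ (m - 1)) ^ m, (hy.pow (m - 1)).pow_mem_F0 h1⟩ : F0 L N) =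
      ⟨y ^ m, hy.pow_mem_F0 e1⟩ ^ (m - 1) := Subtype.ext (by
    change (y ^ (m - 1)) ^ m = (y ^ m) ^ (m - 1)
    rw [← pow_mul, ← pow_mul, mul_comm])
  rw [h0]
  refine ⟨by rw [← h0]; exact p1.inv, h1, y ^ (m - 1), hy.pow (m - 1), pow_ne_zero _ hy0, ?_, ?_⟩
  · rw [h2]
    exact a1.pow _
  · rw [h2, map_pow]
    exact a2.pow _

variable (B hq hN π) in
/-- the group of locally trivial classes -/
def lwGroup (hm : 0 < m) : Subgroup (Gamma0 N →* ℂˣ) where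
  carrier := {χ | LW B hq hN π m χ}
  mul_mem' := LW.mul
  one_mem' := LW.one hm
  inv_mem' := LW.inv hm

/-- the series attached to a conjugate character -/
theorem xSer_res (h : Ar A q L) (hm : 0 < m) {σ : GQ} (hσ : σ ∈ A.decompositionSubgroup ℚ)
    (χ : XG N m) {y : LaurentSeries L} (hy : XSer (ιL L) N χ.1 y) :
    XSer (ιL L) N (galX N hm σ χ).1 (ModularCurve.coeffMap (h.res hσ : L →+* L) y) := by
  rw [← xSer_coeffMap_iff (ι' := ιC) (algebraMap L Qb) rfl]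
  have h1 := xSer_galX hm σ χ (hy.coeffMap (ι' := ιC) (algebraMap L Qb) rfl)
  rw [coeffMap_coeffMap] at h1 ⊢
  exact h1

theorem LW.gal (h : Ar A q L) (hNE : NoEll N) (hπ : Prime π) (hm : 0 < m) {σ : GQ}
    (hσ : σ ∈ A.decompositionSubgroup ℚ) {χ : XG N m} (h1 : LW B hq hN π m χ.1) :
    LW B hq hN π m (galX N hm σ χ).1 := by
  obtain ⟨p1, e1, y, hy, hy0, a1, a2⟩ := h1
  have e2 : (galX N hm σ χ).1 ^ m = 1 := (galX N hm σ χ).2.1
  have hy' := xSer_res h hm hσ χ hy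
  have h2 : (⟨ModularCurve.coeffMap (h.res hσ : L →+* L) y ^ m, hy'.pow_mem_F0 e2⟩ : F0 L N) =
      actF (dL L (h.resO hσ)) N ⟨y ^ m, hy.pow_mem_F0 e1⟩ := by
    apply Subtype.ext
    rw [h.dL_resO]
    exact (map_pow (ModularCurve.coeffMap (h.res hσ : L →+* L)) y m).symm
  refine ⟨isPar_galX hNE hm σ χ p1, e2, _, hy', ?_, ?_, ?_⟩
  · rw [Ne, _root_.map_eq_zero]
    exact hy0
  · rw [h2]
    exact a1.actF hπ _
  · rw [h2, B.wF_actF]
    exact a2.actF hπ _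

end Ar

end Fermat.Agent.LG
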