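import Mathlib

/-!
# Lifting of torsion line bundles along a complete discrete valuation ring: the algebraic core
-/

set_option autoImplicit false
set_option linter.unusedSectionVars false

namespace Fermat.Agent.LG

section Complete

variable {R : Type*} [CommRing R] {π : R} [IsAdicComplete (Ideal.span {π}) R]

theorem smodEq_iff {n : ℕ} {x y : R} :
    x ≡ y [SMOD (Ideal.span {π} ^ n • ⊤ : Submodule R R)] ↔ π ^ n ∣ x - y := by
  rw [SModEq.sub_mem, smul_eq_mul, Ideal.mul_top, Ideal.span_singleton_pow,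
    Ideal.mem_span_singleton]

theorem exists_lim {f : ℕ → R} (h : ∀ n, π ^ n ∣ f (n + 1) - f n) :
    ∃ g, ∀ n, π ^ n ∣ g - f n := by
  have h1 : ∀ {m n : ℕ}, m ≤ n → π ^ m ∣ f m - f n := by
    intro m n hmn
    induction n, hmn using Nat.le_induction with
    | base => rw [sub_self]; exact dvd_zero _
    | succ n hmn ih =>
      have e : f m - f (n + 1) = (f m - f n) - (f (n + 1) - f n) := by ring
      rw [e]
      exact dvd_sub ih ((pow_dvd_pow π hmn).trans (h n))
  obtain ⟨g, hg⟩ := IsPrecomplete.prec (I := Ideal.span {π}) (M := R) inferInstance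
    (f := f) (fun {m n} hmn => smodEq_iff.mpr (h1 hmn))
  refine ⟨g, fun n => ?_⟩
  rw [← neg_sub, dvd_neg]
  exact smodEq_iff.mp (hg n)

theorem eq_zero_of_dvd {f : R} (h : ∀ n, π ^ n ∣ f) : f = 0 :=
  IsHausdorff.haus (I := Ideal.span {π}) (M := R) inferInstance f fun n =>
    smodEq_iff.mpr (by rw [sub_zero]; exact h n)

/-- a closed additive subgroup, stable under multiplication by `π` -/
structure Cl (π : R) (S : AddSubgroup R) : Prop where
  pi : ∀ {f}, f ∈ S → π * f ∈ S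
  closed : ∀ {f}, (∀ r, ∃ l ∈ S, π ^ r ∣ f - l) → f ∈ S

theorem Cl.sum_mem {S : AddSubgroup R} (hS : Cl π S) {e : ℕ → R} (he : ∀ n, e n ∈ S) (n : ℕ) :
    ∑ j ∈ Finset.range n, π ^ j * e j ∈ S := by
  refine _root_.sum_mem fun j _ => ?_
  have : ∀ j : ℕ, ∀ x ∈ S, π ^ j * x ∈ S := by
    intro j
    induction j with
    | zero => intro x hx; simpa using hx
    | succ j ih =>
      intro x hx
      rw [pow_succ, mul_assoc]
      exact ih _ (hS.pi hx)
  exact this j _ (he j)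

theorem Cl.exists_series {S : AddSubgroup R} (hS : Cl π S) {e : ℕ → R} (he : ∀ n, e n ∈ S) :
    ∃ E ∈ S, ∀ n, π ^ n ∣ E - ∑ j ∈ Finset.range n, π ^ j * e j := by
  obtain ⟨E, hE⟩ := exists_lim (π := π) (f := fun n => ∑ j ∈ Finset.range n, π ^ j * e j)
    fun n => by
      rw [Finset.sum_range_succ, add_sub_cancel_left]
      exact dvd_mul_right _ _
  exact ⟨E, hS.closed fun r => ⟨_, hS.sum_mem he r, hE r⟩, hE⟩

/-- Successive approximation. -/
theorem nak {T S S' : AddSubgroup R}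
    (hT : ∀ f, π * f ∈ T → f ∈ T) (hS : Cl π S) (hS' : Cl π S') {a b : R}
    (hle : ∀ s ∈ S, ∀ s' ∈ S', a * s + b * s' ∈ T)
    (hsurj : ∀ f ∈ T, ∃ s ∈ S, ∃ s' ∈ S', π ∣ f - (a * s + b * s')) {f : R} (hf : f ∈ T) :
    ∃ s ∈ S, ∃ s' ∈ S', f = a * s + b * s' := by
  have key : ∀ f : T, ∃ (s : S) (s' : S') (f' : T), (f : R) = (a * s + b * s') + π * f' := by
    rintro ⟨f, hf⟩
    obtain ⟨s, hs, s', hs', h⟩ := hsurj f hf
    obtain ⟨f', hf'⟩ := h
    refine ⟨⟨s, hs⟩, ⟨s', hs'⟩, ⟨f', hT _ ?_⟩, ?_⟩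
    · rw [← hf']
      exact sub_mem hf (hle s hs s' hs')
    · change f = (a * s + b * s') + π * f'
      rw [← hf']
      ring
  choose s s' f' hff using key
  have hff' : ∀ x : T, (x : R) = (a * (s x : R) + b * (s' x : R)) + π * (f' x : R) := hff
  let F : ℕ → T := fun n => Nat.rec ⟨f, hf⟩ (fun _ g => f' g) n
  have hF0 : F 0 = ⟨f, hf⟩ := rfl
  have hFs : ∀ n, F (n + 1) = f' (F n) := fun n => rfl
  have hsum : ∀ n, f = (a * ∑ j ∈ Finset.range n, π ^ j * (s (F j) : R)) +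
      (b * ∑ j ∈ Finset.range n, π ^ j * (s' (F j) : R)) + π ^ n * Subtype.val (F n) := by
    intro n
    induction n with
    | zero => simp [hF0]
    | succ n ih =>
      rw [Finset.sum_range_succ, Finset.sum_range_succ, hFs]
      have h1 := hff' (F n)
      rw [h1] at ih
      rw [pow_succ]
      linear_combination ih
  obtain ⟨E, hE, hE'⟩ := hS.exists_series (e := fun n => (s (F n) : R)) fun n => (s (F n)).2
  obtain ⟨E₂, hE₂, hE₂'⟩ := hS'.exists_series (e := fun n => (s' (F n) : R)) fun n => (s' (F n)).2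
  refine ⟨E, hE, E₂, hE₂, ?_⟩
  rw [← sub_eq_zero]
  apply eq_zero_of_dvd (π := π)
  intro n
  have e : f - (a * E + b * E₂) = π ^ n * Subtype.val (F n) -
      a * (E - ∑ j ∈ Finset.range n, π ^ j * (s (F j) : R)) -
      b * (E₂ - ∑ j ∈ Finset.range n, π ^ j * (s' (F j) : R)) := by
    linear_combination hsum n
  rw [e]
  exact dvd_sub (dvd_sub (dvd_mul_right _ _) ((hE' n).mul_left _)) ((hE₂' n).mul_left _)

theorem isUnit_of_dvd_sub_one {u : R} (h : π ∣ u - 1) : IsUnit u := by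
  have h1 : u - 1 ∈ (⊥ : Ideal R).jacobson :=
    IsAdicComplete.le_jacobson_bot (Ideal.span {π}) (Ideal.mem_span_singleton.mpr h)
  have h2 := Ideal.mem_jacobson_bot.mp h1 1
  rwa [mul_one, sub_add_cancel] at h2

/-- a closed saturated subring -/
structure CSR (π : R) (S : Subring R) : Prop where
  pi : π ∈ S
  sat : ∀ {f}, π * f ∈ S → f ∈ S
  closed : ∀ {f}, (∀ r, ∃ l ∈ S, π ^ r ∣ f - l) → f ∈ S

theorem CSR.sat_pow {S : Subring R} (hS : CSR π S) {n : ℕ} {f : R} (h : π ^ n * f ∈ S) :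
    f ∈ S := by
  induction n with
  | zero => simpa using h
  | succ n ih =>
    apply ih
    apply hS.sat
    have e : π * (π ^ n * f) = π ^ (n + 1) * f := by ring
    rwa [e]

theorem CSR.cl {S : Subring R} (hS : CSR π S) : Cl π S.toAddSubgroup where
  pi h := S.mul_mem hS.pi h
  closed h := hS.closed h

/-- inverses of elements congruent to one -/
theorem CSR.inv_mem {S : Subring R} (hS : CSR π S) {u v : R} (hu : u ∈ S) (h1 : π ∣ u - 1)
    (huv : u * v = 1) : v ∈ S := by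
  apply hS.closed
  intro r
  refine ⟨∑ n ∈ Finset.range r, (1 - u) ^ n, sum_mem fun n _ =>
    pow_mem (sub_mem (one_mem _) hu) n, ?_⟩
  have h2 : v - ∑ n ∈ Finset.range r, (1 - u) ^ n = v * (1 - u) ^ r := by
    have h3 := geom_sum_mul (1 - u) r
    linear_combination (∑ n ∈ Finset.range r, (1 - u) ^ n) * huv + v * h3
  rw [h2]
  have h4 : π ∣ 1 - u := by rw [← neg_sub, dvd_neg]; exact h1
  exact (pow_dvd_pow_of_dvd h4 r).mul_left _

/-- roots of elements congruent to one -/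
theorem CSR.root_mem {S : Subring R} (hπ : ∀ f : R, π * f = 0 → f = 0) (hS : CSR π S)
    {m : ℕ} {μ : R} (hμ : μ ∈ S) (hm : (m : R) * μ = 1) {v : R} (hv : π ∣ v - 1)
    (hvm : v ^ m ∈ S) : v ∈ S := by
  have hπn : ∀ (n : ℕ) (f : R), π ^ n * f = 0 → f = 0 := by
    intro n
    induction n with
    | zero => intro f hf; simpa using hf
    | succ n ih =>
      intro f hf
      apply ih
      apply hπ
      have e : π * (π ^ n * f) = π ^ (n + 1) * f := by ring
      rwa [e]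
  have key : ∀ r : ℕ, ∃ w ∈ S, π ∣ w - 1 ∧ π ^ (r + 1) ∣ v - w := by
    intro r
    induction r with
    | zero => exact ⟨1, one_mem _, by rw [sub_self]; exact dvd_zero _, by simpa using hv⟩
    | succ r ih =>
      obtain ⟨w, hw, hw1, h, hh⟩ := ih
      obtain ⟨k, hk⟩ := Polynomial.powAddExpansion w (π ^ (r + 1) * h) m
      have hv' : v = w + π ^ (r + 1) * h := by rw [← hh]; ring
      rw [← hv'] at hk
      set e := (m : R) * w ^ (m - 1) * h + k * π ^ (r + 1) * h ^ 2 with he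
      have heS : e ∈ S := by
        apply hS.sat_pow (n := r + 1)
        have e1 : π ^ (r + 1) * e = v ^ m - w ^ m := by
          rw [he, hk]
          ring
        rw [e1]
        exact sub_mem hvm (pow_mem hw m)
      refine ⟨w + π ^ (r + 1) * (μ * e), add_mem hw (mul_mem (pow_mem hS.pi _) (mul_mem hμ heS)),
        ?_, ?_⟩
      · have e1 : w + π ^ (r + 1) * (μ * e) - 1 = (w - 1) + π * (π ^ r * (μ * e)) := by ring
        rw [e1]
        exact dvd_add hw1 (dvd_mul_right _ _)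
      · have h2 : π ∣ w ^ (m - 1) - 1 := by
          have := sub_dvd_pow_sub_pow w 1 (m - 1)
          rw [one_pow] at this
          exact hw1.trans this
        obtain ⟨g, hg⟩ := h2
        have e1 : v - (w + π ^ (r + 1) * (μ * e)) =
            π ^ (r + 1 + 1) * (-(g * h) - μ * k * π ^ r * h ^ 2) := by
          rw [hv', he]
          linear_combination (π ^ (r + 1) * h * (-(1 : R) - (w ^ (m - 1) - 1))) * hm +
            (-(π ^ (r + 1) * h)) * hg
        rw [e1]
        exact dvd_mul_right _ _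
  apply hS.closed
  intro r
  obtain ⟨w, hw, -, h⟩ := key r
  exact ⟨w, hw, (pow_dvd_pow π (Nat.le_succ r)).trans h⟩

end Complete

section Sys

variable {O R : Type*} [CommRing O] [CommRing R] [Algebra O R]

/-- A graded system of closed saturated lattices. -/
structure LSys (π : R) (LL : ℕ → Submodule O R) : Prop where
  one : 1 ∈ LL 0
  mul : ∀ {i j f g}, f ∈ LL i → g ∈ LL j → f * g ∈ LL (i + j)
  sat : ∀ {i f}, π * f ∈ LL i → f ∈ LL i
  closed : ∀ {i f}, (∀ r, ∃ l ∈ LL i, π ^ r ∣ f - l) → f ∈ LL i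

variable {π : R} {LL : ℕ → Submodule O R}

theorem LSys.pow (H : LSys π LL) {i : ℕ} {f : R} (hf : f ∈ LL i) (n : ℕ) : f ^ n ∈ LL (i * n) := by
  induction n with
  | zero => rw [pow_zero, mul_zero]; exact H.one
  | succ n ih =>
    rw [pow_succ, mul_add, mul_one]
    exact H.mul ih hf

theorem LSys.cl (H : LSys π LL) {ϖ : O} (hϖ : algebraMap O R ϖ = π) (i : ℕ) :
    Cl π (LL i).toAddSubgroup where
  pi {f} h := by
    rw [← hϖ, ← Algebra.smul_def]
    exact (LL i).smul_mem ϖ h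
  closed h := H.closed h

/-- the completed ring of the affine open set `a ≠ 0` -/
def Ah (H : LSys π LL) {d : ℕ} {a : R} (ha : a ∈ LL d) : Subring R where
  carrier := {f | ∀ r, ∃ s, ∃ l ∈ LL (d * s), π ^ r ∣ a ^ s * f - l}
  mul_mem' := by
    rintro f g hf hg r
    obtain ⟨s, l, hl, h⟩ := hf r
    obtain ⟨s', l', hl', h'⟩ := hg r
    refine ⟨s + s', l * l', by rw [mul_add]; exact H.mul hl hl', ?_⟩
    have e : a ^ (s + s') * (f * g) - l * l' =
        (a ^ s * f) * (a ^ s' * g - l') + (a ^ s * f - l) * l' := by ring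
    rw [e]
    exact dvd_add (h'.mul_left _) (h.mul_right _)
  one_mem' := fun r => ⟨0, 1, by rw [mul_zero]; exact H.one, by simp⟩
  add_mem' := by
    rintro f g hf hg r
    obtain ⟨s, l, hl, h⟩ := hf r
    obtain ⟨s', l', hl', h'⟩ := hg r
    refine ⟨s + s', a ^ s' * l + a ^ s * l', add_mem ?_ ?_, ?_⟩
    · rw [mul_add, add_comm]
      exact H.mul (H.pow ha s') hl
    · rw [mul_add]
      exact H.mul (H.pow ha s) hl'
    · have e : a ^ (s + s') * (f + g) - (a ^ s' * l + a ^ s * l') =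
          a ^ s' * (a ^ s * f - l) + a ^ s * (a ^ s' * g - l') := by ring
      rw [e]
      exact dvd_add (h.mul_left _) (h'.mul_left _)
  zero_mem' := fun r => ⟨0, 0, zero_mem _, by simp⟩
  neg_mem' := by
    rintro f hf r
    obtain ⟨s, l, hl, h⟩ := hf r
    refine ⟨s, -l, neg_mem hl, ?_⟩
    have e : a ^ s * -f - -l = -(a ^ s * f - l) := by ring
    rw [e, dvd_neg]
    exact h

variable {H : LSys π LL} {d : ℕ} {a : R} {ha : a ∈ LL d}

theorem mem_Ah {f : R} : f ∈ Ah H ha ↔ ∀ r, ∃ s, ∃ l ∈ LL (d * s), π ^ r ∣ a ^ s * f - l :=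
  Iff.rfl

theorem mem_Ah_of {f : R} {s : ℕ} (h : a ^ s * f ∈ LL (d * s)) : f ∈ Ah H ha :=
  fun r => ⟨s, _, h, by rw [sub_self]; exact dvd_zero _⟩

theorem algebraMap_mem_Ah (c : O) : algebraMap O R c ∈ Ah H ha := by
  refine mem_Ah_of (s := 0) ?_
  rw [pow_zero, one_mul, mul_zero, Algebra.algebraMap_eq_smul_one]
  exact (LL 0).smul_mem c H.one

/-- enlarging the open set -/
theorem Ah_le {d' : ℕ} {b : R} (hb : b ∈ LL d') {hab : a * b ∈ LL (d + d')} {f : R}
    (hf : f ∈ Ah H ha) : f ∈ Ah H hab := by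
  intro r
  obtain ⟨s, l, hl, h⟩ := hf r
  refine ⟨s, b ^ s * l, ?_, ?_⟩
  · rw [add_mul, add_comm]
    exact H.mul (H.pow hb s) hl
  · have e : (a * b) ^ s * f - b ^ s * l = b ^ s * (a ^ s * f - l) := by ring
    rw [e]
    exact h.mul_left _

theorem Ah_le' {d' : ℕ} {b : R} (hb : b ∈ LL d') {hab : b * a ∈ LL (d' + d)} {f : R}
    (hf : f ∈ Ah H ha) : f ∈ Ah H hab := by
  intro r
  obtain ⟨s, l, hl, h⟩ := hf r
  refine ⟨s, b ^ s * l, ?_, ?_⟩
  · rw [add_mul]
    exact H.mul (H.pow hb s) hl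
  · have e : (b * a) ^ s * f - b ^ s * l = b ^ s * (a ^ s * f - l) := by ring
    rw [e]
    exact h.mul_left _

theorem Ah_csr {ϖ : O} (hϖ : algebraMap O R ϖ = π) (hπ : ∀ f : R, π * f = 0 → f = 0) :
    CSR π (Ah H ha) where
  pi := by
    have h := algebraMap_mem_Ah (H := H) (ha := ha) ϖ
    rwa [hϖ] at h
  sat {f} h := by
    intro r
    obtain ⟨s, l, hl, h1⟩ := h (r + 1)
    obtain ⟨g, hg⟩ := h1
    have h2 : l = π * (a ^ s * f - π ^ r * g) := by
      have : l = a ^ s * (π * f) - π ^ (r + 1) * g := by rw [← hg]; ring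
      rw [this]
      ring
    refine ⟨s, a ^ s * f - π ^ r * g, H.sat (by rw [← h2]; exact hl), ?_⟩
    rw [sub_sub_cancel]
    exact dvd_mul_right _ _
  closed {f} h := by
    intro r
    obtain ⟨g, hg, h1⟩ := h r
    obtain ⟨s, l, hl, h2⟩ := hg r
    refine ⟨s, l, hl, ?_⟩
    have e : a ^ s * f - l = a ^ s * (f - g) + (a ^ s * g - l) := by ring
    rw [e]
    exact dvd_add (h1.mul_left _) h2

end Sys

section Main

variable {O R Rb : Type*} [CommRing O] [CommRing R] [Algebra O R] [CommRing Rb]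

/-- the setting -/
structure LRed (π : R) (LL : ℕ → Submodule O R) (red : R →+* Rb) (Lb : ℕ → Set Rb) : Prop where
  sys : LSys π LL
  nzd : ∀ f : R, π * f = 0 → f = 0
  exp : ∃ ϖ : O, algebraMap O R ϖ = π
  surj : Function.Surjective red
  ker : ∀ f, red f = 0 ↔ π ∣ f
  mem : ∀ i f, f ∈ Lb i ↔ ∃ l ∈ LL i, red l = f

variable {π : R} [IsAdicComplete (Ideal.span {π}) R] {LL : ℕ → Submodule O R} {red : R →+* Rb}
  {Lb : ℕ → Set Rb}

namespace LRed

variable (D : LRed π LL red Lb)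

include D

theorem dvd_iff {x y : R} : π ∣ x - y ↔ red x = red y := by
  rw [← D.ker, map_sub, sub_eq_zero]

theorem mul_mem {i j : ℕ} {f g : Rb} (hf : f ∈ Lb i) (hg : g ∈ Lb j) : f * g ∈ Lb (i + j) := by
  rw [D.mem] at *
  obtain ⟨l, hl, rfl⟩ := hf
  obtain ⟨l', hl', rfl⟩ := hg
  exact ⟨l * l', D.sys.mul hl hl', map_mul _ _ _⟩

theorem one_mem : (1 : Rb) ∈ Lb 0 := (D.mem _ _).mpr ⟨1, D.sys.one, map_one _⟩

theorem isUnit {x : R} (h : IsUnit (red x)) : IsUnit x := by
  obtain ⟨g, hg⟩ := h.exists_right_inv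
  obtain ⟨y, rfl⟩ := D.surj g
  have h1 : π ∣ x * y - 1 := by
    rw [D.dvd_iff, map_mul, map_one]; exact hg
  exact isUnit_of_mul_isUnit_left (isUnit_of_dvd_sub_one h1)

theorem csr {d : ℕ} {a : R} (ha : a ∈ LL d) : CSR π (Ah D.sys ha) := by
  obtain ⟨ϖ, hϖ⟩ := D.exp
  exact Ah_csr hϖ D.nzd

/-- reduction of the ring of an open set -/
theorem red_Ah {d : ℕ} {a : R} {ha : a ∈ LL d} {f : R} (hf : f ∈ Ah D.sys ha) :
    ∃ s, red a ^ s * red f ∈ Lb (d * s) := by
  obtain ⟨s, l, hl, h⟩ := hf 1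
  rw [pow_one, D.dvd_iff, map_mul, map_pow] at h
  exact ⟨s, by rw [h]; exact (D.mem _ _).mpr ⟨l, hl, rfl⟩⟩

theorem exists_Ah {d : ℕ} {a : R} {ha : a ∈ LL d} (hau : IsUnit a) {g : Rb} {s : ℕ}
    (hg : red a ^ s * g ∈ Lb (d * s)) : ∃ f ∈ Ah D.sys ha, red f = g := by
  obtain ⟨l, hl, h⟩ := (D.mem _ _).mp hg
  obtain ⟨u, hu⟩ := hau.pow s
  have h1 : a ^ s * (↑u⁻¹ * l) = l := by
    rw [← hu, ← mul_assoc, Units.mul_inv, one_mul]
  refine ⟨↑u⁻¹ * l, mem_Ah_of (s := s) (by rw [h1]; exact hl), ?_⟩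
  have h2 : red (a ^ s) * red (↑u⁻¹ * l) = red (a ^ s) * g := by
    rw [← map_mul, h1, h, map_pow]
  have h3 : IsUnit (red (a ^ s)) := (hau.pow s).map red
  exact h3.mul_left_cancel h2

end LRed

end Main

end Fermat.Agent.LG
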