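import Mathlib
import Fermat.Agent.LG.LiftA

/-!
# Lifting of torsion line bundles along a complete discrete valuation ring: the algebraic core,
main theorems
-/

set_option autoImplicit false
set_option linter.unusedSectionVars false

namespace Fermat.Agent.LG

namespace LRed

variable {O R Rb : Type*} [CommRing O] [CommRing R] [Algebra O R] [CommRing Rb]
variable {π : R} [IsAdicComplete (Ideal.span {π}) R] {LL : ℕ → Submodule O R} {red : R →+* Rb}
  {Lb : ℕ → Set Rb}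

variable (D : LRed π LL red Lb)

/-- the data of the reduction: two sections of a line bundle without common zeros -/
structure Pair (Lb : ℕ → Set Rb) (m d : ℕ) (u1 u2 : Rbˣ) : Prop where
  mon : ∀ j ≤ m, (u1 : Rb) ^ j * (u2 : Rb) ^ (m - j) ∈ Lb d
  h1 : ∀ e : Rb, (∃ s, ((u1 : Rb) ^ m * (u2 : Rb) ^ m) ^ s * e ∈ Lb ((d + d) * s)) →
    ∃ e1 e2, (∃ s, ((u1 : Rb) ^ m) ^ s * e1 ∈ Lb (d * s)) ∧
      (∃ s, ((u2 : Rb) ^ m) ^ s * e2 ∈ Lb (d * s)) ∧ (u1 : Rb) * e = u1 * e1 + u2 * e2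
  int : ∀ f : Rb, (∃ s, ((u1 : Rb) ^ m) ^ s * f ∈ Lb (d * (s + 1))) →
    (∃ s, ((u2 : Rb) ^ m) ^ s * f ∈ Lb (d * (s + 1))) → f ∈ Lb d

include D

/-- existence of roots in `R` -/
theorem exists_root {m : ℕ} (hm : IsUnit (m : O)) {a : R} {u : Rbˣ}
    (ha : red a = (u : Rb) ^ m) : ∃ x : R, x ^ m = a ∧ red x = u := by
  classical
  rcases Nat.eq_zero_or_pos m with rfl | hm0
  · -- trivial ring
    rw [Nat.cast_zero, isUnit_zero_iff] at hm
    have hR : Subsingleton R := by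
      have : (1 : R) = 0 := by
        rw [← map_one (algebraMap O R), ← hm, map_zero]
      exact subsingleton_of_zero_eq_one this.symm
    obtain ⟨x, hx⟩ := D.surj u
    exact ⟨x, Subsingleton.elim _ _, hx⟩
  obtain ⟨a₀, ha₀⟩ := D.surj u
  have hmR : IsUnit (m : R) := by
    have := hm.map (algebraMap O R)
    rwa [map_natCast] at this
  have hu₀ : IsUnit a₀ := D.isUnit (by rw [ha₀]; exact u.isUnit)
  have hH : HenselianRing R (Ideal.span {π}) := inferInstance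
  obtain ⟨x, hx, hx'⟩ := hH.is_henselian (Polynomial.X ^ m - Polynomial.C a)
    (Polynomial.monic_X_pow_sub_C a hm0.ne') a₀ (by
      rw [Polynomial.eval_sub, Polynomial.eval_pow, Polynomial.eval_X, Polynomial.eval_C,
        Ideal.mem_span_singleton, D.dvd_iff, map_pow, ha₀, ha]) (by
      rw [Polynomial.derivative_sub, Polynomial.derivative_C, sub_zero,
        Polynomial.derivative_X_pow, Polynomial.eval_mul, Polynomial.eval_pow, Polynomial.eval_X,
        Polynomial.eval_C]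
      exact (hmR.mul (hu₀.pow _)).map _)
  refine ⟨x, ?_, ?_⟩
  · rw [Polynomial.IsRoot, Polynomial.eval_sub, Polynomial.eval_pow, Polynomial.eval_X,
      Polynomial.eval_C, sub_eq_zero] at hx
    exact hx
  · rw [Ideal.mem_span_singleton, D.dvd_iff] at hx'
    rw [hx', ha₀]

/-- (LA, first part) the sections lift -/
theorem exists_lift {m : ℕ} (hm : IsUnit (m : O)) (hm0 : 0 < m) {d : ℕ} {u1 u2 : Rbˣ}
    (hP : Pair Lb m d u1 u2) :
    ∃ w1 w2 : R, red w1 = u1 ∧ red w2 = u2 ∧ ∀ j ≤ m, w1 ^ j * w2 ^ (m - j) ∈ LL d := by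
  obtain ⟨ϖ, hϖ⟩ := D.exp
  have hmR : IsUnit (m : R) := by
    have := hm.map (algebraMap O R)
    rwa [map_natCast] at this
  -- lifts of the two sections of the trivial bundle
  obtain ⟨a, ha, hau⟩ := (D.mem _ _).mp (hP.mon m le_rfl)
  obtain ⟨b, hb, hbu⟩ := (D.mem _ _).mp (hP.mon 0 (Nat.zero_le _))
  rw [Nat.sub_self, pow_zero, mul_one] at hau
  rw [Nat.sub_zero, pow_zero, one_mul] at hbu
  have hab : a * b ∈ LL (d + d) := D.sys.mul ha hb
  obtain ⟨m1, hm1, hm1u⟩ := D.exists_root hm hau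
  obtain ⟨m2, hm2, hm2u⟩ := D.exists_root hm hbu
  have U1 : IsUnit m1 := D.isUnit (by rw [hm1u]; exact u1.isUnit)
  have U2 : IsUnit m2 := D.isUnit (by rw [hm2u]; exact u2.isUnit)
  have Ua : IsUnit a := by rw [← hm1]; exact U1.pow m
  have Ub : IsUnit b := by rw [← hm2]; exact U2.pow m
  obtain ⟨n1, hn1⟩ := U1.exists_right_inv
  obtain ⟨n2, hn2⟩ := U2.exists_right_inv
  set A1 := Ah D.sys ha with hA1
  set A2 := Ah D.sys hb with hA2
  set A12 := Ah D.sys hab with hA12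
  have C1 : CSR π A1 := D.csr ha
  have C2 : CSR π A2 := D.csr hb
  have C12 : CSR π A12 := D.csr hab
  have L1 : ∀ f ∈ A1, f ∈ A12 := fun f hf => Ah_le hb hf
  have L2 : ∀ f ∈ A2, f ∈ A12 := fun f hf => Ah_le' ha hf
  have hred1 : red n1 = ((u1⁻¹ : Rbˣ) : Rb) := by
    have h := congrArg red hn1
    rw [map_mul, map_one, hm1u] at h
    rw [← Units.inv_mul_cancel_left u1 (red n1), h, mul_one]
  have hred2 : red n2 = ((u2⁻¹ : Rbˣ) : Rb) := by
    have h := congrArg red hn2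
    rw [map_mul, map_one, hm2u] at h
    rw [← Units.inv_mul_cancel_left u2 (red n2), h, mul_one]
  -- the transition function
  have habu : IsUnit (a * b) := Ua.mul Ub
  have hμ : ∃ μ ∈ A12, (m : R) * μ = 1 := by
    obtain ⟨c, hc⟩ := hm.exists_right_inv
    refine ⟨algebraMap O R c, algebraMap_mem_Ah c, ?_⟩
    rw [← map_natCast (algebraMap O R), ← map_mul, hc, map_one]
  obtain ⟨μ, hμ1, hμ2⟩ := hμ
  -- a general lemma for `x / y`
  have trans : ∀ (x nx y ny c e : R) (v w : Rbˣ), x * nx = 1 → y * ny = 1 → x ^ m = c →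
      y ^ m = e → c * e = a * b → c ∈ LL d → red x = v → red y = w →
      (v : Rb) * (w : Rb) ^ (m - 1) ∈ Lb d → (w : Rb) * (v : Rb) ^ (m - 1) ∈ Lb d →
      e ∈ LL d → x * ny ∈ A12 := by
    intro x nx y ny c e v w hx hy hxm hym hce hc hrx hry hvw hwv he
    have hrc : red c = (v : Rb) ^ m := by rw [← hxm, map_pow, hrx]
    have hre : red e = (w : Rb) ^ m := by rw [← hym, map_pow, hry]
    have hrab : red (a * b) = (v : Rb) ^ m * (w : Rb) ^ m := by
      rw [← hce, map_mul, hrc, hre]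
    have hrc' : (v : Rb) ^ m ∈ Lb d := (D.mem _ _).mpr ⟨c, hc, hrc⟩
    have hre' : (w : Rb) ^ m ∈ Lb d := (D.mem _ _).mpr ⟨e, he, hre⟩
    have hpm : ∀ z : Rb, z ^ m = z ^ (m - 1) * z := fun z => by
      rw [← pow_succ, Nat.sub_add_cancel hm0]
    -- a lift of `v / w`
    obtain ⟨ρ₀, hρ₀, hρ₀'⟩ := D.exists_Ah (ha := hab) habu (s := 1)
      (g := (v : Rb) * ((w⁻¹ : Rbˣ) : Rb)) (by
        rw [hrab, pow_one, mul_one]
        have e1 : (v : Rb) ^ m * (w : Rb) ^ m * ((v : Rb) * ((w⁻¹ : Rbˣ) : Rb)) =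
            (v : Rb) ^ m * ((v : Rb) * (w : Rb) ^ (m - 1)) := by
          rw [hpm (w : Rb)]
          have := w.mul_inv
          linear_combination ((v : Rb) ^ m * (w : Rb) ^ (m - 1) * (v : Rb)) * this
        rw [e1]
        exact D.mul_mem hrc' hvw)
    obtain ⟨σ₀, hσ₀, hσ₀'⟩ := D.exists_Ah (ha := hab) habu (s := 1)
      (g := (w : Rb) * ((v⁻¹ : Rbˣ) : Rb)) (by
        rw [hrab, pow_one, mul_one]
        have e1 : (v : Rb) ^ m * (w : Rb) ^ m * ((w : Rb) * ((v⁻¹ : Rbˣ) : Rb)) =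
            (w : Rb) ^ m * ((w : Rb) * (v : Rb) ^ (m - 1)) := by
          rw [hpm (v : Rb)]
          have := v.mul_inv
          linear_combination ((w : Rb) ^ m * (v : Rb) ^ (m - 1) * (w : Rb)) * this
        rw [e1]
        exact D.mul_mem hre' hwv)
    have h1 : π ∣ ρ₀ * σ₀ - 1 := by
      rw [D.dvd_iff, map_mul, hρ₀', hσ₀', map_one]
      have h2 := v.mul_inv
      have h3 := w.mul_inv
      linear_combination ((w : Rb) * ((w⁻¹ : Rbˣ) : Rb)) * h2 + h3
    -- the inverse of `ρ₀`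
    obtain ⟨τ, hτ⟩ := (isUnit_of_dvd_sub_one h1).exists_right_inv
    have hτm : τ ∈ A12 := C12.inv_mem (Subring.mul_mem _ hρ₀ hσ₀) h1 hτ
    have hσm : σ₀ * τ ∈ A12 := Subring.mul_mem _ hσ₀ hτm
    have hρσ : ρ₀ * (σ₀ * τ) = 1 := by rw [← mul_assoc]; exact hτ
    -- `c / e`
    have hce' : c * ny ^ m ∈ A12 := by
      refine mem_Ah_of (s := 1) ?_
      have hye : e * ny ^ m = 1 := by rw [← hym, ← mul_pow, hy, one_pow]
      have e1 : (a * b) ^ 1 * (c * ny ^ m) = c * c := by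
        rw [pow_one, ← hce]
        linear_combination (c * c) * hye
      rw [e1, mul_one]
      exact D.sys.mul hc hc
    -- the quotient
    have h4 : x * ny * (σ₀ * τ) ∈ A12 := by
      refine C12.root_mem D.nzd hμ1 hμ2 ?_ ?_
      · rw [D.dvd_iff, map_mul, map_mul, map_mul, hrx, map_one]
        have h5 : red ny = ((w⁻¹ : Rbˣ) : Rb) := by
          have h := congrArg red hy
          rw [map_mul, map_one, hry] at h
          rw [← Units.inv_mul_cancel_left w (red ny), h, mul_one]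
        have h6 := congrArg red hρσ
        rw [map_mul, map_mul, map_one, hρ₀'] at h6
        rw [h5]
        linear_combination h6
      · have e1 : (x * ny * (σ₀ * τ)) ^ m = (c * ny ^ m) * (σ₀ * τ) ^ m := by
          rw [mul_pow, mul_pow, hxm]
        rw [e1]
        exact Subring.mul_mem _ hce' (Subring.pow_mem _ hσm m)
    have e2 : x * ny = ρ₀ * (x * ny * (σ₀ * τ)) := by
      linear_combination (-(x * ny)) * hρσ
    rw [e2]
    exact Subring.mul_mem _ hρ₀ h4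
  have hmon1 : (u1 : Rb) * (u2 : Rb) ^ (m - 1) ∈ Lb d := by
    have := hP.mon 1 hm0
    rwa [pow_one] at this
  have hmon2 : (u2 : Rb) * (u1 : Rb) ^ (m - 1) ∈ Lb d := by
    have := hP.mon (m - 1) (Nat.sub_le _ _)
    rw [Nat.sub_sub_self hm0, pow_one] at this
    rwa [mul_comm]
  have T12 : m1 * n2 ∈ A12 := trans m1 n1 m2 n2 a b u1 u2 hn1 hn2 hm1 hm2 rfl ha hm1u hm2u
    hmon1 hmon2 hb
  have T21 : m2 * n1 ∈ A12 := trans m2 n2 m1 n1 b a u2 u1 hn2 hn1 hm2 hm1 (mul_comm _ _) hb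
    hm2u hm1u hmon2 hmon1 ha
  -- the sections over the intersection
  let T : AddSubgroup R :=
    { carrier := {f | n1 * f ∈ A12}
      add_mem' := fun {f g} hf hg => by
        change n1 * (f + g) ∈ A12
        rw [mul_add]; exact Subring.add_mem _ hf hg
      zero_mem' := by
        change n1 * 0 ∈ A12
        rw [mul_zero]; exact Subring.zero_mem _
      neg_mem' := fun {f} hf => by
        change n1 * (-f) ∈ A12
        rw [mul_neg]; exact Subring.neg_mem _ hf }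
  have hT1 : ∀ f ∈ A12, m1 * f ∈ T := by
    intro f hf
    change n1 * (m1 * f) ∈ A12
    have e : n1 * (m1 * f) = f := by linear_combination f * hn1
    rwa [e]
  have hT2 : ∀ f ∈ A12, m2 * f ∈ T := by
    intro f hf
    change n1 * (m2 * f) ∈ A12
    have e : n1 * (m2 * f) = m2 * n1 * f := by ring
    rw [e]
    exact Subring.mul_mem _ T21 hf
  have hTsat : ∀ f, π * f ∈ T → f ∈ T := by
    intro f hf
    change n1 * f ∈ A12
    apply C12.sat
    have e : π * (n1 * f) = n1 * (π * f) := by ring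
    rw [e]
    exact hf
  have hsurj : ∀ f ∈ T, ∃ s ∈ A1.toAddSubgroup, ∃ s' ∈ A2.toAddSubgroup,
      π ∣ f - (m1 * s + m2 * s') := by
    intro f hf
    obtain ⟨s, hs⟩ := D.red_Ah (ha := hab) hf
    rw [map_mul red a b, hau, hbu] at hs
    obtain ⟨e1, e2, ⟨s1, he1⟩, ⟨s2, he2⟩, he⟩ := hP.h1 _ ⟨s, hs⟩
    rw [← hau] at he1
    rw [← hbu] at he2
    obtain ⟨f1, hf1, rfl⟩ := D.exists_Ah (ha := ha) Ua he1
    obtain ⟨f2, hf2, rfl⟩ := D.exists_Ah (ha := hb) Ub he2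
    refine ⟨f1, hf1, f2, hf2, ?_⟩
    rw [D.dvd_iff, map_add, map_mul, map_mul, hm1u, hm2u, ← he, ← hm1u, ← map_mul]
    congr 1
    linear_combination (-f) * hn1
  have hle : ∀ s ∈ A1.toAddSubgroup, ∀ s' ∈ A2.toAddSubgroup, m1 * s + m2 * s' ∈ T :=
    fun s hs s' hs' => T.add_mem (hT1 s (L1 s hs)) (hT2 s' (L2 s' hs'))
  -- lifting of a global section
  have lift : ∀ z : Rb, (∃ s, ((u1 : Rb) ^ m) ^ s * (((u1⁻¹ : Rbˣ) : Rb) * z) ∈ Lb (d * s)) →
      (∃ s, ((u2 : Rb) ^ m) ^ s * (((u2⁻¹ : Rbˣ) : Rb) * z) ∈ Lb (d * s)) →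
      ∃ w g1 g2 : R, red w = z ∧ g1 ∈ A1 ∧ g2 ∈ A2 ∧ w = m1 * g1 ∧ w = m2 * g2 := by
    rintro z ⟨s1, hs1⟩ ⟨s2, hs2⟩
    rw [← hau] at hs1
    rw [← hbu] at hs2
    obtain ⟨p1, hp1, hp1'⟩ := D.exists_Ah (ha := ha) Ua hs1
    obtain ⟨p2, hp2, hp2'⟩ := D.exists_Ah (ha := hb) Ub hs2
    have hr1 : red (m1 * p1) = z := by
      rw [map_mul, hm1u, hp1', Units.mul_inv_cancel_left]
    have hr2 : red (m2 * p2) = z := by
      rw [map_mul, hm2u, hp2', Units.mul_inv_cancel_left]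
    obtain ⟨e, he⟩ : π ∣ m1 * p1 - m2 * p2 := by rw [D.dvd_iff, hr1, hr2]
    have heT : e ∈ T := hTsat e (by
      rw [← he]
      exact T.sub_mem (hT1 _ (L1 _ hp1)) (hT2 _ (L2 _ hp2)))
    obtain ⟨s, hs, s', hs', hess⟩ := nak hTsat C1.cl C2.cl hle hsurj heT
    refine ⟨m1 * p1 - π * (m1 * s), p1 - π * s, p2 + π * s', ?_,
      A1.sub_mem hp1 (A1.mul_mem C1.pi hs), A2.add_mem hp2 (A2.mul_mem C2.pi hs'), by ring, ?_⟩
    · rw [map_sub, hr1, (D.ker _).mpr (dvd_mul_right _ _), sub_zero]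
    · rw [hess] at he
      linear_combination he
  have hpm : ∀ z : Rb, z ^ m = z ^ (m - 1) * z := fun z => by
    rw [← pow_succ, Nat.sub_add_cancel hm0]
  obtain ⟨w1, g1, g2, hw1, hg1, hg2, hwg1, hwg2⟩ := lift u1 ⟨0, by
      rw [pow_zero, one_mul, Units.inv_mul, mul_zero]; exact D.one_mem⟩ ⟨1, by
      have e : ((u2 : Rb) ^ m) ^ 1 * (((u2⁻¹ : Rbˣ) : Rb) * u1) =
          (u1 : Rb) * (u2 : Rb) ^ (m - 1) := by
        rw [pow_one, hpm (u2 : Rb)]
        have := u2.mul_inv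
        linear_combination ((u2 : Rb) ^ (m - 1) * u1) * this
      rw [e, mul_one]
      exact hmon1⟩
  obtain ⟨w2, k1, k2, hw2, hk1, hk2, hwk1, hwk2⟩ := lift u2 ⟨1, by
      have e : ((u1 : Rb) ^ m) ^ 1 * (((u1⁻¹ : Rbˣ) : Rb) * u2) =
          (u2 : Rb) * (u1 : Rb) ^ (m - 1) := by
        rw [pow_one, hpm (u1 : Rb)]
        have := u1.mul_inv
        linear_combination ((u1 : Rb) ^ (m - 1) * u2) * this
      rw [e, mul_one]
      exact hmon2⟩ ⟨0, by
      rw [pow_zero, one_mul, Units.inv_mul, mul_zero]; exact D.one_mem⟩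
  refine ⟨w1, w2, hw1, hw2, fun j hj => ?_⟩
  -- global sections of the trivial bundle
  let T' : AddSubgroup R :=
    { carrier := {f | (∃ g ∈ A1, f = a * g) ∧ ∃ g ∈ A2, f = b * g}
      add_mem' := by
        rintro f f' ⟨⟨g, hg, rfl⟩, g', hg', h⟩ ⟨⟨k, hk, rfl⟩, k', hk', h'⟩
        exact ⟨⟨g + k, A1.add_mem hg hk, by ring⟩, g' + k', A2.add_mem hg' hk', by
          rw [h, h']; ring⟩
      zero_mem' := ⟨⟨0, A1.zero_mem, by ring⟩, 0, A2.zero_mem, by ring⟩
      neg_mem' := by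
        rintro f ⟨⟨g, hg, rfl⟩, g', hg', h⟩
        exact ⟨⟨-g, A1.neg_mem hg, by ring⟩, -g', A2.neg_mem hg', by rw [h]; ring⟩ }
  have hT'sat : ∀ f, π * f ∈ T' → f ∈ T' := by
    rintro f ⟨⟨g, hg, h⟩, g', hg', h'⟩
    obtain ⟨ia, hia⟩ := Ua.exists_right_inv
    obtain ⟨ib, hib⟩ := Ub.exists_right_inv
    refine ⟨⟨ia * f, ?_, ?_⟩, ib * f, ?_, ?_⟩
    · apply C1.sat
      have e : π * (ia * f) = g := by
        linear_combination ia * h + g * hia
      rwa [e]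
    · linear_combination (-f) * hia
    · apply C2.sat
      have e : π * (ib * f) = g' := by
        linear_combination ib * h' + g' * hib
      rwa [e]
    · linear_combination (-f) * hib
  have hLL : ∀ l ∈ LL d, l ∈ T' := by
    intro l hl
    obtain ⟨ia, hia⟩ := Ua.exists_right_inv
    obtain ⟨ib, hib⟩ := Ub.exists_right_inv
    refine ⟨⟨ia * l, mem_Ah_of (s := 1) ?_, ?_⟩, ib * l, mem_Ah_of (s := 1) ?_, ?_⟩
    · have e : a ^ 1 * (ia * l) = l := by linear_combination l * hia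
      rw [e, mul_one]; exact hl
    · linear_combination (-l) * hia
    · have e : b ^ 1 * (ib * l) = l := by linear_combination l * hib
      rw [e, mul_one]; exact hl
    · linear_combination (-l) * hib
  have hsurj' : ∀ f ∈ T', ∃ s ∈ (LL d).toAddSubgroup, ∃ s' ∈ (LL d).toAddSubgroup,
      π ∣ f - (1 * s + 0 * s') := by
    rintro f ⟨⟨g, hg, h⟩, g', hg', h'⟩
    obtain ⟨s, hs⟩ := D.red_Ah (ha := ha) hg
    obtain ⟨s', hs'⟩ := D.red_Ah (ha := hb) hg'
    obtain ⟨l, hl, hlf⟩ := (D.mem _ _).mp (hP.int (red f) ⟨s, by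
      rw [h, map_mul, hau]
      have e : ((u1 : Rb) ^ m) ^ s * ((u1 : Rb) ^ m * red g) =
          (u1 : Rb) ^ m * (((u1 : Rb) ^ m) ^ s * red g) := by ring
      rw [e, mul_add, mul_one, add_comm]
      rw [hau] at hs
      exact D.mul_mem ((D.mem _ _).mpr ⟨a, ha, hau⟩) hs⟩ ⟨s', by
      rw [h', map_mul, hbu]
      have e : ((u2 : Rb) ^ m) ^ s' * ((u2 : Rb) ^ m * red g') =
          (u2 : Rb) ^ m * (((u2 : Rb) ^ m) ^ s' * red g') := by ring
      rw [e, mul_add, mul_one, add_comm]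
      rw [hbu] at hs'
      exact D.mul_mem ((D.mem _ _).mpr ⟨b, hb, hbu⟩) hs'⟩)
    refine ⟨l, hl, 0, zero_mem _, ?_⟩
    rw [one_mul, mul_zero, add_zero, D.dvd_iff, hlf]
  have hcl := D.sys.cl hϖ d
  obtain ⟨s, hs, s', -, h⟩ := nak hT'sat hcl hcl (fun s hs s' hs' => by
    rw [one_mul, zero_mul, add_zero]
    exact hLL s hs) hsurj' (f := w1 ^ j * w2 ^ (m - j)) (by
    refine ⟨⟨g1 ^ j * k1 ^ (m - j), A1.mul_mem (A1.pow_mem hg1 j) (A1.pow_mem hk1 _), ?_⟩,
      g2 ^ j * k2 ^ (m - j), A2.mul_mem (A2.pow_mem hg2 j) (A2.pow_mem hk2 _), ?_⟩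
    · rw [hwg1, hwk1, ← hm1, mul_pow, mul_pow]
      have e : m1 ^ m = m1 ^ j * m1 ^ (m - j) := by rw [← pow_add, Nat.add_sub_cancel' hj]
      rw [e]
      ring
    · rw [hwg2, hwk2, ← hm2, mul_pow, mul_pow]
      have e : m2 ^ m = m2 ^ j * m2 ^ (m - j) := by rw [← pow_add, Nat.add_sub_cancel' hj]
      rw [e]
      ring)
  rw [h, one_mul, zero_mul, add_zero]
  exact hs

/-- (LA, second part) coprimality lifts -/
theorem cop {d k : ℕ} {a b : R} (ha : a ∈ LL d) (hb : b ∈ LL d)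
    (h : ∀ f ∈ Lb (k + d), ∃ g ∈ Lb k, ∃ g' ∈ Lb k, f = red a * g + red b * g') {f : R}
    (hf : f ∈ LL (k + d)) : ∃ g ∈ LL k, ∃ g' ∈ LL k, f = a * g + b * g' := by
  obtain ⟨ϖ, hϖ⟩ := D.exp
  have hcl := D.sys.cl hϖ k
  refine nak (T := (LL (k + d)).toAddSubgroup) (fun f hf => D.sys.sat hf) hcl hcl
    (fun s hs s' hs' => ?_) (fun f hf => ?_) hf
  · refine (LL (k + d)).add_mem ?_ ?_
    · rw [add_comm]; exact D.sys.mul ha hs
    · rw [add_comm]; exact D.sys.mul hb hs'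
  · obtain ⟨g, hg, g', hg', hfg⟩ := h (red f) ((D.mem _ _).mpr ⟨f, hf, rfl⟩)
    obtain ⟨l, hl, rfl⟩ := (D.mem _ _).mp hg
    obtain ⟨l', hl', rfl⟩ := (D.mem _ _).mp hg'
    refine ⟨l, hl, l', hl', ?_⟩
    rw [D.dvd_iff, hfg, map_add, map_mul, map_mul]

end LRed

end Fermat.Agent.LG
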