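import Mathlib
import Fermat.Agent.LG.WQ2

/-!
Involutions of the function field of `X₀(N)` given by transformations of the upper half plane
permuting the functions `J(dτ)`; the Atkin–Lehner involution `w_{q²}` of `X₀(q²M)`.
-/

set_option autoImplicit false
set_option linter.unusedSectionVars false

open Matrix.SpecialLinearGroup CongruenceSubgroup ModularGroup
open scoped MatrixGroups ModularForm Manifold
open UpperHalfPlane hiding I J
open Complex (I)
open Fermat.Agent.ModFun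

noncomputable section

namespace Fermat.Agent.LG

/-- `W` exchanges `J_d` and `J_e`. -/
def JSwap (W : ℍ → ℍ) (d e : ℕ) [NeZero d] [NeZero e] : Prop :=
  (∀ τ, Jd d (W τ) = Jd e τ) ∧ ∀ τ, Jd e (W τ) = Jd d τ

/-- `W` permutes the functions `J_d`. -/
structure WPerm (N : ℕ) (W : ℍ → ℍ) : Prop where
  perm : ∀ (d : ℕ) [NeZero d], d ∣ N → ∃ (e : ℕ) (_ : NeZero e), e ∣ N ∧ JSwap W d e

/-- composition with `W` -/
def compW (W : ℍ → ℍ) : (ℍ → ℂ) →+* (ℍ → ℂ) where
  toFun f := fun τ => f (W τ)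
  map_one' := rfl
  map_mul' _ _ := rfl
  map_zero' := rfl
  map_add' _ _ := rfl

theorem compW_apply (W : ℍ → ℍ) (f : ℍ → ℂ) (τ : ℍ) : compW W f τ = f (W τ) := rfl

theorem compW_Jd {W : ℍ → ℍ} {d e : ℕ} [NeZero d] [NeZero e] (h : JSwap W d e) :
    compW W (Jd d) = Jd e := funext h.1

section General

variable {K : Type*} [Field K] {ι : K →+* ℂ} {N : ℕ} [NeZero N] {W : ℍ → ℍ}

theorem WPerm.exists_A0 (hW : WPerm N W) (x : LaurentSeries K) (hx : x ∈ A0 K N) :
    ∃ (f : ℍ → ℂ) (y : LaurentSeries K), y ∈ A0 K N ∧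
      HasExp ι (qN 1) f x ∧ HasExp ι (qN 1) (compW W f) y := by
  induction hx using Algebra.adjoin_induction with
  | mem x hx =>
    obtain ⟨d, hd0, hd, rfl⟩ := hx
    obtain ⟨e, he0, he, hde⟩ := hW.perm d hd
    refine ⟨Jd d, ModularCurve.qExpand K e (ModularCurve.jqModC K),
      Algebra.subset_adjoin (gens_dvd he), hasExp_Jd ι, ?_⟩
    rw [compW_Jd hde]
    exact hasExp_Jd ι
  | algebraMap r =>
    refine ⟨fun _ => ι r, algebraMap K _ r, Subalgebra.algebraMap_mem _ _, ?_, ?_⟩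
    · rw [ModularCurve.algebraMap_laurentSeries_eq_single]
      exact HasExp.const r
    · rw [ModularCurve.algebraMap_laurentSeries_eq_single]
      exact HasExp.const r
  | add x y hx hy h1 h2 =>
    obtain ⟨f, x', h3, h4, h5⟩ := h1
    obtain ⟨g, y', h6, h7, h8⟩ := h2
    refine ⟨f + g, x' + y', add_mem h3 h6, h4.add h7, ?_⟩
    rw [map_add]
    exact h5.add h8
  | mul x y hx hy h1 h2 =>
    obtain ⟨f, x', h3, h4, h5⟩ := h1
    obtain ⟨g, y', h6, h7, h8⟩ := h2
    refine ⟨f * g, x' * y', mul_mem h3 h6, h4.mul h7, ?_⟩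
    rw [map_mul]
    exact h5.mul h8

theorem WPerm.exists_A0' (hW : WPerm N W) (F : A0 K N) :
    ∃ G : A0 K N, evA ι N G = compW W (evA ι N F) := by
  obtain ⟨f, y, hy, h1, h2⟩ := hW.exists_A0 (ι := ι) F F.2
  refine ⟨⟨y, hy⟩, ?_⟩
  rw [evA_eq (F := F) h1]
  exact evA_eq (F := ⟨y, hy⟩) h2

/-- The involution on the algebra. -/
def WPerm.wAf (hW : WPerm N W) (ι : K →+* ℂ) (F : A0 K N) : A0 K N :=
  (hW.exists_A0' (ι := ι) F).choose

theorem WPerm.evA_wAf (hW : WPerm N W) (F : A0 K N) :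
    evA ι N (hW.wAf ι F) = compW W (evA ι N F) := (hW.exists_A0' (ι := ι) F).choose_spec

/-- The involution on the algebra. -/
def WPerm.wA (hW : WPerm N W) (ι : K →+* ℂ) : A0 K N →+* A0 K N where
  toFun := hW.wAf ι
  map_one' := evA_injective (ι := ι) (by rw [hW.evA_wAf, map_one, map_one])
  map_mul' F G := evA_injective (ι := ι) (by
    rw [hW.evA_wAf, RingHom.map_mul, RingHom.map_mul, RingHom.map_mul, hW.evA_wAf, hW.evA_wAf])
  map_zero' := evA_injective (ι := ι) (by rw [hW.evA_wAf, map_zero, map_zero])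
  map_add' F G := evA_injective (ι := ι) (by
    rw [hW.evA_wAf, RingHom.map_add, RingHom.map_add, RingHom.map_add, hW.evA_wAf, hW.evA_wAf])

theorem WPerm.evA_wA (hW : WPerm N W) (F : A0 K N) :
    evA ι N (hW.wA ι F) = compW W (evA ι N F) := hW.evA_wAf F

theorem WPerm.wA_eq (hW : WPerm N W) {F : A0 K N} {f : ℍ → ℂ}
    {y : LaurentSeries K} (h1 : HasExp ι (qN 1) f (F : LaurentSeries K))
    (h2 : HasExp ι (qN 1) (compW W f) y) : (hW.wA ι F : LaurentSeries K) = y := by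
  have h3 := evA_hasExp (ι := ι) (hW.wA ι F)
  rw [hW.evA_wA, evA_eq h1] at h3
  exact h3.unique ι.injective (isParam_qN 1) h2

theorem WPerm.wA_C (hW : WPerm N W) (a : K) :
    hW.wA ι (algebraMap K _ a) = algebraMap K _ a := by
  have h1 : HasExp ι (qN 1) (fun _ => ι a) (algebraMap K (LaurentSeries K) a) := by
    rw [ModularCurve.algebraMap_laurentSeries_eq_single]
    exact HasExp.const a
  exact Subtype.ext (hW.wA_eq (F := algebraMap K _ a) h1 h1)

theorem WPerm.wA_gen (hW : WPerm N W) {d e : ℕ} [NeZero d] [NeZero e]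
    (hde : JSwap W d e) (h : ModularCurve.qExpand K d (ModularCurve.jqModC K) ∈ A0 K N) :
    (hW.wA ι ⟨_, h⟩ : LaurentSeries K) =
      ModularCurve.qExpand K e (ModularCurve.jqModC K) :=
  hW.wA_eq (F := ⟨_, h⟩) (hasExp_Jd ι) (by rw [compW_Jd hde]; exact hasExp_Jd ι)

theorem JSwap.symm {d e : ℕ} [NeZero d] [NeZero e] (h : JSwap W d e) : JSwap W e d :=
  ⟨h.2, h.1⟩

theorem WPerm.wA_wA (hW : WPerm N W) (F : A0 K N) : hW.wA ι (hW.wA ι F) = F := by
  have key : ∀ x (hx : x ∈ A0 K N), hW.wA ι (hW.wA ι ⟨x, hx⟩) = ⟨x, hx⟩ := by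
    intro x hx
    induction hx using Algebra.adjoin_induction with
    | mem x hx =>
      obtain ⟨d, hd0, hd, rfl⟩ := hx
      obtain ⟨e, he0, he, hde⟩ := hW.perm d hd
      have h1 : hW.wA ι ⟨_, Algebra.subset_adjoin (gens_dvd hd)⟩ =
        ⟨_, Algebra.subset_adjoin (gens_dvd (K := K) he)⟩ :=
        Subtype.ext (hW.wA_gen hde _)
      rw [h1]
      exact Subtype.ext (hW.wA_gen hde.symm _)
    | algebraMap r =>
      have h1 := hW.wA_C (ι := ι) r
      change hW.wA ι (hW.wA ι (algebraMap K _ r)) = algebraMap K _ r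
      rw [h1, h1]
    | add x y hx hy h1 h2 =>
      have h3 : (⟨x + y, add_mem hx hy⟩ : A0 K N) = ⟨x, hx⟩ + ⟨y, hy⟩ := rfl
      rw [h3, RingHom.map_add, RingHom.map_add, h1, h2]
    | mul x y hx hy h1 h2 =>
      have h3 : (⟨x * y, mul_mem hx hy⟩ : A0 K N) = ⟨x, hx⟩ * ⟨y, hy⟩ := rfl
      rw [h3, RingHom.map_mul, RingHom.map_mul, h1, h2]
  exact key F F.2

/-- the involution of the algebra -/
def WPerm.wAe (hW : WPerm N W) (ι : K →+* ℂ) : A0 K N ≃+* A0 K N where
  toFun := hW.wA ι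
  invFun := hW.wA ι
  left_inv := hW.wA_wA
  right_inv := hW.wA_wA
  map_mul' := RingHom.map_mul _
  map_add' := RingHom.map_add _

open scoped IntermediateField.algebraAdjoinAdjoin

/-- The involution of the function field. -/
def WPerm.wF (hW : WPerm N W) (ι : K →+* ℂ) : F0 K N ≃+* F0 K N :=
  IsFractionRing.ringEquivOfRingEquiv (hW.wAe ι)

theorem WPerm.wF_algebraMap (hW : WPerm N W) (F : A0 K N) :
    hW.wF ι (algebraMap _ (F0 K N) F) = algebraMap _ (F0 K N) (hW.wA ι F) :=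
  IsFractionRing.ringEquivOfRingEquiv_algebraMap _ _

theorem WPerm.wF_wF (hW : WPerm N W) (x : F0 K N) : hW.wF ι (hW.wF ι x) = x := by
  obtain ⟨a, b, hb, rfl⟩ := IsFractionRing.div_surjective (A := A0 K N) x
  rw [map_div₀, map_div₀, hW.wF_algebraMap, hW.wF_algebraMap, hW.wF_algebraMap,
    hW.wF_algebraMap, hW.wA_wA, hW.wA_wA]

theorem WPerm.wF_C (hW : WPerm N W) (a : K) :
    hW.wF ι (algebraMap K _ a) = algebraMap K _ a := by
  have h1 : algebraMap K (F0 K N) a =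
      algebraMap _ (F0 K N) (algebraMap K (A0 K N) a) := rfl
  rw [h1, hW.wF_algebraMap, hW.wA_C]

theorem WPerm.wF_gen (hW : WPerm N W) {d e : ℕ} [NeZero d] [NeZero e]
    (hde : JSwap W d e) (hd : d ∣ N)
    (h : ModularCurve.qExpand K d (ModularCurve.jqModC K) ∈ F0 K N) :
    (hW.wF ι ⟨_, h⟩ : LaurentSeries K) =
      ModularCurve.qExpand K e (ModularCurve.jqModC K) := by
  have h1 : ModularCurve.qExpand K d (ModularCurve.jqModC K) ∈ A0 K N :=
    Algebra.subset_adjoin (gens_dvd hd)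
  have h2 : (⟨_, h⟩ : F0 K N) = algebraMap (A0 K N) (F0 K N) ⟨_, h1⟩ := rfl
  rw [h2, hW.wF_algebraMap]
  exact hW.wA_gen hde h1

/-- The involution commutes with the coefficient action. -/
theorem WPerm.wF_actF (hW : WPerm N W) (d : K ≃+* K) (x : F0 K N) :
    hW.wF ι (actF d N x) = actF d N (hW.wF ι x) := by
  let f : F0 K N →+* F0 K N := (hW.wF ι : F0 K N →+* F0 K N).comp (actF d N : F0 K N →+* F0 K N)
  let g : F0 K N →+* F0 K N := (actF d N : F0 K N →+* F0 K N).comp (hW.wF ι : F0 K N →+* F0 K N)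
  have h : f = g := by
    apply ringHom_ext_adjoin
    · intro a
      change hW.wF ι (actF d N (algebraMap K _ a)) = actF d N (hW.wF ι (algebraMap K _ a))
      rw [actF_C, hW.wF_C, hW.wF_C, actF_C]
    · rintro x ⟨e, he0, he, rfl⟩
      change hW.wF ι (actF d N ⟨_, _⟩) = actF d N (hW.wF ι ⟨_, _⟩)
      rw [actF_gen]
      obtain ⟨c, hc0, hc, hec⟩ := hW.perm e he
      have h1 : hW.wF ι ⟨_, IntermediateField.subset_adjoin K _ (gens_dvd he)⟩ =
        ⟨_, IntermediateField.subset_adjoin K _ (gens_dvd hc)⟩ :=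
        Subtype.ext (hW.wF_gen hec he _)
      rw [h1, actF_gen]
  exact congrArg (fun φ : F0 K N →+* F0 K N => φ x) h

end General

section Square

variable {q M N : ℕ} [NeZero q] [NeZero M] [NeZero N] (B : Bez (q ^ 2) M)

/-- the middle matrix -/
def Bez.gm {q M : ℕ} (B : Bez (q ^ 2) M) : SL(2, ℤ) := ⟨!![q, B.y; M, q * B.w], by
  rw [Matrix.det_fin_two_of]
  have := B.det
  push_cast at this
  linarith⟩

theorem Bez.gm_mem : B.gm ∈ Gamma0 M := by
  rw [Gamma0_mem, ZMod.intCast_zmod_eq_zero_iff_dvd]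
  change (M : ℤ) ∣ M
  exact dvd_rfl

theorem Bez.W_eq_mid (τ : ℍ) : tri q 0 1 (B.W τ) = B.gm • tri q 0 1 τ := by
  apply UpperHalfPlane.ext
  have e1 := denom_SL_ne_zero B.g0 (tri (q ^ 2) 0 1 τ)
  have e2 := denom_SL_ne_zero B.gm (tri q 0 1 τ)
  have c1 := coe_smul_SL B.g0 (tri (q ^ 2) 0 1 τ)
  have c2 := coe_smul_SL B.gm (tri q 0 1 τ)
  rw [coe_tri] at e1 e2 c1 c2
  rw [Bez.W, coe_tri, c1, c2]
  have h1 : (B.g0 0 0 : ℂ) = 1 := by
    have : B.g0 0 0 = 1 := rfl
    rw [this]; norm_num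
  have h2 : (B.g0 0 1 : ℂ) = B.y := rfl
  have h3 : (B.g0 1 0 : ℂ) = M := by
    have : B.g0 1 0 = M := rfl
    rw [this]; norm_num
  have h4 : (B.g0 1 1 : ℂ) = (q : ℂ) ^ 2 * B.w := by
    have : B.g0 1 1 = ((q ^ 2 : ℕ) : ℤ) * B.w := rfl
    rw [this]; push_cast; ring
  have h5 : (B.gm 0 0 : ℂ) = q := by
    have : B.gm 0 0 = q := rfl
    rw [this]; norm_num
  have h6 : (B.gm 0 1 : ℂ) = B.y := rfl
  have h7 : (B.gm 1 0 : ℂ) = M := by
    have : B.gm 1 0 = M := rfl
    rw [this]; norm_num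
  have h8 : (B.gm 1 1 : ℂ) = q * B.w := by
    have : B.gm 1 1 = q * B.w := rfl
    rw [this]; push_cast; ring
  rw [h3, h4] at e1
  rw [h7, h8] at e2
  rw [h1, h2, h3, h4, h5, h6, h7, h8]
  have hq : (q : ℂ) ≠ 0 := by exact_mod_cast NeZero.ne q
  push_cast at e1 e2 ⊢
  have e3 : (M : ℂ) * (((q : ℂ) ^ 2 * τ + 0) / 1) + (q : ℂ) ^ 2 * B.w =
      q * (M * (((q : ℂ) * τ + 0) / 1) + q * B.w) := by ring
  rw [e3]
  field_simp
  ring

theorem tri_mul_one (a d : ℕ) [NeZero a] [NeZero d] (τ : ℍ) :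
    tri (a * d) 0 1 τ = tri d 0 1 (tri a 0 1 τ) := by
  apply UpperHalfPlane.ext
  rw [coe_tri, coe_tri, coe_tri]
  push_cast
  ring

theorem Bez.swap_mid {d : ℕ} [NeZero d] (hd : d ∣ M) : JSwap B.W (q * d) (q * d) := by
  have h : ∀ τ, Jd (q * d) (B.W τ) = Jd (q * d) τ := by
    intro τ
    rw [Jd, Jd, tri_mul_one, tri_mul_one, B.W_eq_mid]
    exact Jd_invariant hd B.gm_mem _
  exact ⟨h, h⟩

theorem Bez.swap_out {Q M : ℕ} [NeZero Q] [NeZero M] (B : Bez Q M) {d : ℕ} [NeZero d]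
    (hd : d ∣ M) : JSwap B.W d (Q * d) :=
  ⟨fun τ => congrFun (B.slash_Jd₁ hd) τ, fun τ => congrFun (B.slash_Jd₂ hd) τ⟩

theorem sq_dvd_cases {q M d : ℕ} (hq : q.Prime) (hd : d ∣ q ^ 2 * M) :
    d ∣ M ∨ (∃ e, e ∣ M ∧ d = q * e) ∨ ∃ e, e ∣ M ∧ d = q ^ 2 * e := by
  have h1 : d ∣ q * (q * M) := by rw [← mul_assoc, ← sq]; exact hd
  rcases dvd_cases hq h1 with h | ⟨e, he, rfl⟩
  · rcases dvd_cases hq h with h | ⟨e, he, rfl⟩
    · exact Or.inl h
    · exact Or.inr (Or.inl ⟨e, he, rfl⟩)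
  · rcases dvd_cases hq he with h | ⟨e', he', rfl⟩
    · exact Or.inr (Or.inl ⟨e, h, rfl⟩)
    · exact Or.inr (Or.inr ⟨e', he', by ring⟩)

theorem Bez.wPerm2 (hq : q.Prime) (hN : N = q ^ 2 * M) : WPerm N B.W where
  perm d hd0 hd := by
    subst hN
    rcases sq_dvd_cases hq hd with h | ⟨e, he, rfl⟩ | ⟨e, he, rfl⟩
    · exact ⟨q ^ 2 * d, inferInstance, mul_dvd_mul_left _ h, B.swap_out h⟩
    · have : NeZero e := ⟨by rintro rfl; exact NeZero.ne (q * 0) (Nat.mul_zero q)⟩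
      exact ⟨q * e, inferInstance, hd, B.swap_mid he⟩
    · have : NeZero e := ⟨by rintro rfl; exact NeZero.ne (q ^ 2 * 0) (Nat.mul_zero _)⟩
      exact ⟨e, inferInstance, he.trans (dvd_mul_left _ _), (B.swap_out he).symm⟩

variable {K : Type*} [Field K] {ι : K →+* ℂ}

theorem dvd_sq₁ (hN : N = q ^ 2 * M) : M ∣ N := hN ▸ dvd_mul_left M _

theorem dvd_sq₂ (hN : N = q ^ 2 * M) : q * M ∣ N := by
  rw [hN, sq, mul_assoc]
  exact dvd_mul_left _ _

/-- The Atkin–Lehner involution of the function field of `X₀(q²M)`. -/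
def Bez.wF2 (ι : K →+* ℂ) (hq : q.Prime) (hN : N = q ^ 2 * M) : F0 K N ≃+* F0 K N :=
  (B.wPerm2 hq hN).wF ι

theorem Bez.wF2_wF2 (hq : q.Prime) (hN : N = q ^ 2 * M) (x : F0 K N) :
    B.wF2 ι hq hN (B.wF2 ι hq hN x) = x := (B.wPerm2 hq hN).wF_wF x

theorem Bez.wF2_C (hq : q.Prime) (hN : N = q ^ 2 * M) (a : K) :
    B.wF2 ι hq hN (algebraMap K _ a) = algebraMap K _ a := (B.wPerm2 hq hN).wF_C a

theorem Bez.wF2_actF (hq : q.Prime) (hN : N = q ^ 2 * M) (d : K ≃+* K) (x : F0 K N) :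
    B.wF2 ι hq hN (actF d N x) = actF d N (B.wF2 ι hq hN x) := (B.wPerm2 hq hN).wF_actF d x

/-- functions of level `M` -/
theorem Bez.wF2_level (hq : q.Prime) (hN : N = q ^ 2 * M) (x : F0 K M) :
    (B.wF2 ι hq hN (IntermediateField.inclusion (F0_mono (dvd_sq₁ hN)) x) : LaurentSeries K) =
      ModularCurve.qExpand K (q ^ 2) (x : LaurentSeries K) := by
  let f : F0 K M →+* LaurentSeries K :=
    ((F0 K N).val.toRingHom.comp (B.wF2 ι hq hN : F0 K N →+* F0 K N)).comp
      (IntermediateField.inclusion (F0_mono (dvd_sq₁ hN))).toRingHom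
  let g : F0 K M →+* LaurentSeries K :=
    (ModularCurve.qExpand K (q ^ 2)).comp (F0 K M).val.toRingHom
  have h : f = g := by
    apply ringHom_ext_adjoin
    · intro a
      change ((B.wF2 ι hq hN (algebraMap K (F0 K N) a) : F0 K N) : LaurentSeries K) =
        ModularCurve.qExpand K (q ^ 2) (algebraMap K (LaurentSeries K) a)
      rw [B.wF2_C, ModularCurve.algebraMap_laurentSeries_eq_single]
      change algebraMap K (LaurentSeries K) a = _
      rw [ModularCurve.algebraMap_laurentSeries_eq_single, ModularCurve.qExpand_single, mul_zero]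
    · rintro x ⟨d, hd0, hd, rfl⟩
      change ((B.wF2 ι hq hN ⟨_, _⟩ : F0 K N) : LaurentSeries K) =
        ModularCurve.qExpand K (q ^ 2) (ModularCurve.qExpand K d (ModularCurve.jqModC K))
      rw [ModularCurve.qExpand_qExpand]
      exact (B.wPerm2 hq hN).wF_gen (B.swap_out hd) (hd.trans (dvd_sq₁ hN)) _
  exact congrArg (fun φ : F0 K M →+* LaurentSeries K => φ x) h

theorem qExpand_mem_F0_of_dvd {m M N : ℕ} [NeZero m] [NeZero M] [NeZero N] (h : m * M ∣ N)
    {x : LaurentSeries K} (hx : x ∈ F0 K M) : ModularCurve.qExpand K m x ∈ F0 K N := by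
  let T : IntermediateField K (LaurentSeries K) :=
    ((F0 K N).toSubfield.comap (ModularCurve.qExpand K m)).toIntermediateField (by
      intro a
      rw [Subfield.mem_comap, ModularCurve.algebraMap_laurentSeries_eq_single,
        ModularCurve.qExpand_single, mul_zero, ← ModularCurve.algebraMap_laurentSeries_eq_single]
      exact (F0 K N).algebraMap_mem _)
  have h1 : F0 K M ≤ T := by
    rw [IntermediateField.adjoin_le_iff]
    rintro x ⟨d, hd0, hd, rfl⟩
    change ModularCurve.qExpand K m _ ∈ F0 K N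
    rw [ModularCurve.qExpand_qExpand]
    exact IntermediateField.subset_adjoin _ _ (gens_dvd ((mul_dvd_mul_left m hd).trans h))
  exact h1 hx

/-- functions of level `M` in the middle -/
theorem Bez.wF2_mid (hq : q.Prime) (hN : N = q ^ 2 * M) (x : F0 K M) :
    B.wF2 ι hq hN ⟨ModularCurve.qExpand K q (x : LaurentSeries K),
      qExpand_mem_F0_of_dvd (dvd_sq₂ hN) x.2⟩ =
      ⟨ModularCurve.qExpand K q (x : LaurentSeries K),
      qExpand_mem_F0_of_dvd (dvd_sq₂ hN) x.2⟩ := by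
  let v : F0 K M →+* F0 K N :=
    ((ModularCurve.qExpand K q).comp (F0 K M).val.toRingHom).codRestrict (F0 K N).toSubring
      fun x => qExpand_mem_F0_of_dvd (dvd_sq₂ hN) x.2
  have h : (B.wF2 ι hq hN : F0 K N →+* F0 K N).comp v = v := by
    apply ringHom_ext_adjoin
    · intro a
      have h1 : v (algebraMap K _ a) = algebraMap K (F0 K N) a := by
        apply Subtype.ext
        change ModularCurve.qExpand K q (algebraMap K (LaurentSeries K) a) =
          algebraMap K (LaurentSeries K) a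
        rw [ModularCurve.algebraMap_laurentSeries_eq_single, ModularCurve.qExpand_single, mul_zero]
      rw [RingHom.comp_apply, h1]
      exact B.wF2_C hq hN a
    · rintro x ⟨d, hd0, hd, rfl⟩
      have hmem : ModularCurve.qExpand K (q * d) (ModularCurve.jqModC K) ∈ F0 K N :=
        IntermediateField.subset_adjoin _ _ (gens_dvd ((mul_dvd_mul_left q hd).trans (dvd_sq₂ hN)))
      have h1 : v ⟨ModularCurve.qExpand K d (ModularCurve.jqModC K),
          IntermediateField.subset_adjoin K _ (gens_dvd hd)⟩ = ⟨_, hmem⟩ := by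
        apply Subtype.ext
        change ModularCurve.qExpand K q (ModularCurve.qExpand K d _) = _
        rw [ModularCurve.qExpand_qExpand]
      rw [RingHom.comp_apply]
      change B.wF2 ι hq hN (v ⟨ModularCurve.qExpand K d (ModularCurve.jqModC K), _⟩) =
        v ⟨ModularCurve.qExpand K d (ModularCurve.jqModC K), _⟩
      rw [h1]
      exact Subtype.ext ((B.wPerm2 hq hN).wF_gen (B.swap_mid hd)
        ((mul_dvd_mul_left q hd).trans (dvd_sq₂ hN)) _)
  exact congrArg (fun φ : F0 K M →+* F0 K N => φ x) h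

end Square

end Fermat.Agent.LG
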