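import Mathlib
import Fermat.Agent.LG.W2
import Fermat.Agent.LG.Unorm

/-!
Expansions of the functions of level `q²M` at the cusp `1/(qM)`.
-/

set_option autoImplicit false
set_option linter.unusedSectionVars false

open Matrix.SpecialLinearGroup CongruenceSubgroup ModularGroup
open scoped MatrixGroups ModularForm Manifold
open UpperHalfPlane hiding I J
open Complex (I)
open Fermat.Agent.ModFun

noncomputable section

namespace Fermat.Agent.LG

section General

variable {K K' : Type*} [Field K] [Field K'] {i : K →+* K'} {ι : K →+* ℂ} {ι' : K' →+* ℂ}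
  {N : ℕ} [NeZero N] {α : ℍ → ℍ}

/-- The functions `J_d ∘ α` have expansions over `K'`. -/
structure WExp (i : K →+* K') (ι : K →+* ℂ) (ι' : K' →+* ℂ) (N : ℕ) [NeZero N] (α : ℍ → ℍ) :
    Prop where
  comp : ι'.comp i = ι
  surj : Function.Surjective α
  exp : ∀ (d : ℕ) [NeZero d], d ∣ N → ∃ y : LaurentSeries K', HasExp ι' (qN 1) (compW α (Jd d)) y

theorem WExp.exists_A0 (h : WExp i ι ι' N α) (x : LaurentSeries K) (hx : x ∈ A0 K N) :
    ∃ (f : ℍ → ℂ) (y : LaurentSeries K'), HasExp ι (qN 1) f x ∧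
      HasExp ι' (qN 1) (compW α f) y := by
  induction hx using Algebra.adjoin_induction with
  | mem x hx =>
    obtain ⟨d, hd0, hd, rfl⟩ := hx
    obtain ⟨y, hy⟩ := h.exp d hd
    exact ⟨Jd d, y, hasExp_Jd ι, hy⟩
  | algebraMap r =>
    refine ⟨fun _ => ι r, algebraMap K' _ (i r), ?_, ?_⟩
    · rw [ModularCurve.algebraMap_laurentSeries_eq_single]
      exact HasExp.const r
    · rw [ModularCurve.algebraMap_laurentSeries_eq_single]
      have h1 : ι r = ι' (i r) := by rw [← h.comp]; rfl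
      have h2 : compW α (fun _ => ι r) = fun _ => ι' (i r) := by
        funext τ
        rw [compW_apply, h1]
      rw [h2]
      exact HasExp.const (i r)
  | add x y hx hy h1 h2 =>
    obtain ⟨f, x', h4, h5⟩ := h1
    obtain ⟨g, y', h7, h8⟩ := h2
    refine ⟨f + g, x' + y', h4.add h7, ?_⟩
    rw [map_add]
    exact h5.add h8
  | mul x y hx hy h1 h2 =>
    obtain ⟨f, x', h4, h5⟩ := h1
    obtain ⟨g, y', h7, h8⟩ := h2
    refine ⟨f * g, x' * y', h4.mul h7, ?_⟩
    rw [map_mul]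
    exact h5.mul h8

theorem WExp.exists_A0' (h : WExp i ι ι' N α) (F : A0 K N) :
    ∃ y : LaurentSeries K', HasExp ι' (qN 1) (compW α (evA ι N F)) y := by
  obtain ⟨f, y, h1, h2⟩ := h.exists_A0 F F.2
  refine ⟨y, ?_⟩
  rw [evA_eq (F := F) h1]
  exact h2

/-- The expansion of `F ∘ α`. -/
def WExp.thf (h : WExp i ι ι' N α) (F : A0 K N) : LaurentSeries K' := (h.exists_A0' F).choose

theorem WExp.thf_spec (h : WExp i ι ι' N α) (F : A0 K N) :
    HasExp ι' (qN 1) (compW α (evA ι N F)) (h.thf F) := (h.exists_A0' F).choose_spec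

theorem WExp.thf_eq (h : WExp i ι ι' N α) {F : A0 K N} {y : LaurentSeries K'}
    (hy : HasExp ι' (qN 1) (compW α (evA ι N F)) y) : h.thf F = y :=
  (h.thf_spec F).unique ι'.injective (isParam_qN 1) hy

/-- The expansion of `F ∘ α`. -/
def WExp.thA (h : WExp i ι ι' N α) : A0 K N →+* LaurentSeries K' where
  toFun := h.thf
  map_one' := h.thf_eq (by rw [map_one, map_one]; exact hasExp_one)
  map_zero' := h.thf_eq (by rw [map_zero, map_zero]; exact hasExp_zero)
  map_mul' F G := h.thf_eq (by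
    rw [RingHom.map_mul, RingHom.map_mul]; exact (h.thf_spec F).mul (h.thf_spec G))
  map_add' F G := h.thf_eq (by
    rw [RingHom.map_add, RingHom.map_add]; exact (h.thf_spec F).add (h.thf_spec G))

theorem WExp.thA_injective (h : WExp i ι ι' N α) : Function.Injective h.thA := by
  rw [injective_iff_map_eq_zero]
  intro F hF
  apply evA_injective (ι := ι)
  rw [map_zero]
  have h1 := h.thf_spec F
  have h2 : h.thf F = 0 := hF
  rw [h2] at h1
  have h3 : compW α (evA ι N F) = 0 := h1.fun_unique (qN_ne_zero 1) hasExp_zero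
  funext τ
  obtain ⟨τ', rfl⟩ := h.surj τ
  exact congrFun h3 τ'

open scoped IntermediateField.algebraAdjoinAdjoin

/-- The expansion of `F ∘ α`. -/
def WExp.thF (h : WExp i ι ι' N α) : F0 K N →+* LaurentSeries K' :=
  IsFractionRing.lift (A := A0 K N) h.thA_injective

theorem WExp.thF_algebraMap (h : WExp i ι ι' N α) (F : A0 K N) :
    h.thF (algebraMap _ (F0 K N) F) = h.thA F := IsFractionRing.lift_algebraMap _ _

theorem WExp.thF_C (h : WExp i ι ι' N α) (a : K) :
    h.thF (algebraMap K _ a) = HahnSeries.C (i a) := by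
  have h1 : algebraMap K (F0 K N) a =
      algebraMap _ (F0 K N) (algebraMap K (A0 K N) a) := rfl
  rw [h1, h.thF_algebraMap]
  apply h.thf_eq
  have h2 : evA ι N (algebraMap K (A0 K N) a) = fun _ => ι a := by
    apply evA_eq
    change HasExp ι (qN 1) (fun _ => ι a) (algebraMap K (LaurentSeries K) a)
    rw [ModularCurve.algebraMap_laurentSeries_eq_single]
    exact HasExp.const a
  have h3 : ι a = ι' (i a) := by rw [← h.comp]; rfl
  rw [h2]
  have h4 : compW α (fun _ => ι a) = fun _ => ι' (i a) := by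
    funext τ
    rw [compW_apply, h3]
  rw [h4]
  exact HasExp.const (i a)

theorem WExp.thF_gen (h : WExp i ι ι' N α) {d : ℕ} [NeZero d] (hd : d ∣ N)
    {y : LaurentSeries K'} (hy : HasExp ι' (qN 1) (compW α (Jd d)) y)
    (hm : ModularCurve.qExpand K d (ModularCurve.jqModC K) ∈ F0 K N) :
    h.thF ⟨_, hm⟩ = y := by
  have h1 : ModularCurve.qExpand K d (ModularCurve.jqModC K) ∈ A0 K N :=
    Algebra.subset_adjoin (gens_dvd hd)
  have h2 : (⟨_, hm⟩ : F0 K N) = algebraMap (A0 K N) (F0 K N) ⟨_, h1⟩ := rfl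
  rw [h2, h.thF_algebraMap]
  apply h.thf_eq
  rw [evA_eq (F := (⟨_, h1⟩ : A0 K N)) (hasExp_Jd ι)]
  exact hy

end General

section Al

variable {q M : ℕ} [NeZero q] [NeZero M]

/-- the matrix `(1, 0; qMc, 1)` -/
def al (q M : ℕ) (c : ℤ) : SL(2, ℤ) := ⟨!![1, 0; q * M * c, 1], by
  rw [Matrix.det_fin_two_of]; ring⟩

theorem al_mem (q M : ℕ) (c : ℤ) : al q M c ∈ Gamma0 (q * M) := by
  rw [Gamma0_mem, ZMod.intCast_zmod_eq_zero_iff_dvd]
  refine ⟨c, ?_⟩
  change (q : ℤ) * M * c = _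
  push_cast
  ring

/-- The translation `τ ↦ τ + b / q`. -/
def shf (q : ℕ) [NeZero q] (b : ℤ) (τ : ℍ) : ℍ := tri q b q τ

theorem coe_shf (b : ℤ) (τ : ℍ) : (shf q b τ : ℂ) = τ + b / q := by
  have hq : (q : ℂ) ≠ 0 := by exact_mod_cast NeZero.ne q
  rw [shf, coe_tri]
  field_simp

theorem Jd_al {c b r : ℤ} (hcb : M * c * b - q * r = 1) {e : ℕ} [NeZero e] (he : e ∣ M)
    (τ : ℍ) : Jd (q ^ 2 * e) (al q M c • τ) = Jd e (shf q b τ) := by
  obtain ⟨f, hf⟩ := he
  have hf' : (M : ℤ) = e * f := by exact_mod_cast hf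
  let γ' : SL(2, ℤ) := ⟨!![(q : ℤ), -(e * b); c * f, -r], by
    rw [Matrix.det_fin_two_of]
    rw [hf'] at hcb
    linear_combination hcb⟩
  have h := Jd_smul (d := q ^ 2 * e) (γ := al q M c) (γ' := γ') (a := q * e) (d' := q)
    (b := e * b)
    (by
      change (q : ℤ) * ((q * e : ℕ) : ℤ) = ((q ^ 2 * e : ℕ) : ℤ) * 1
      push_cast; ring)
    (by
      change (q : ℤ) * (e * b) + -(e * b) * q = ((q ^ 2 * e : ℕ) : ℤ) * 0
      ring)
    (by
      change c * f * ((q * e : ℕ) : ℤ) = q * M * c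
      rw [hf']; push_cast; ring)
    (by
      change c * f * (e * b) + -r * q = 1
      rw [hf'] at hcb
      linear_combination hcb) τ
  rw [h, Jd]
  congr 1
  apply UpperHalfPlane.ext
  have hq : (q : ℂ) ≠ 0 := by exact_mod_cast NeZero.ne q
  rw [coe_tri, coe_tri, coe_shf]
  push_cast
  field_simp
  ring

theorem qN_shf (b : ℤ) (τ : ℍ) :
    qN 1 (shf q b τ) = Complex.exp (2 * Real.pi * Complex.I * b / q) * qN 1 τ := by
  rw [qN_apply, qN_apply, Function.Periodic.qParam, Function.Periodic.qParam, ← Complex.exp_add,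
    coe_shf]
  congr 1
  have hq : (q : ℂ) ≠ 0 := by exact_mod_cast NeZero.ne q
  push_cast
  field_simp
  ring

theorem al_surj (q M : ℕ) (c : ℤ) : Function.Surjective fun τ : ℍ => al q M c • τ :=
  fun τ => ⟨(al q M c)⁻¹ • τ, smul_inv_smul _ _⟩

variable {K K' : Type*} [Field K] [Field K'] {i : K →+* K'} {ι : K →+* ℂ} {ι' : K' →+* ℂ}
  {N : ℕ} [NeZero N]

theorem sq_dvd_cases' {q M d : ℕ} (hq : q.Prime) (hd : d ∣ q ^ 2 * M) :
    d ∣ q * M ∨ ∃ e, e ∣ M ∧ d = q ^ 2 * e := by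
  rcases sq_dvd_cases hq hd with h | ⟨e, he, rfl⟩ | h
  · exact Or.inl (h.trans (dvd_mul_left _ _))
  · exact Or.inl (mul_dvd_mul_left _ he)
  · exact Or.inr h

theorem hasExp_al_out {c b r : ℤ} (hcb : M * c * b - q * r = 1) {ζ : K'ˣ}
    (hζ : ι' ζ = Complex.exp (2 * Real.pi * Complex.I * b / q)) {e : ℕ} [NeZero e]
    (he : e ∣ M) : HasExp ι' (qN 1) (compW (fun τ => al q M c • τ) (Jd (q ^ 2 * e)))
      (twist ζ (ModularCurve.qExpand K' e (ModularCurve.jqModC K'))) := by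
  have h1 := (hasExp_Jd (d := e) ι').twist (s' := qN 1) ζ (shf q b) (by
    intro τ
    rw [qN_shf, hζ])
  exact h1.congr fun τ => (Jd_al hcb he τ).symm

theorem hasExp_al_in (c : ℤ) {d : ℕ} [NeZero d] (hd : d ∣ q * M) :
    HasExp ι' (qN 1) (compW (fun τ => al q M c • τ) (Jd d))
      (ModularCurve.qExpand K' d (ModularCurve.jqModC K')) :=
  (hasExp_Jd (d := d) ι').congr fun τ => (Jd_invariant hd (al_mem q M c) τ).symm

theorem wExp_al (hcomp : ι'.comp i = ι) (hq : q.Prime) (hN : N = q ^ 2 * M) {c b r : ℤ}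
    (hcb : M * c * b - q * r = 1) {ζ : K'ˣ}
    (hζ : ι' ζ = Complex.exp (2 * Real.pi * Complex.I * b / q)) :
    WExp i ι ι' N (fun τ => al q M c • τ) where
  comp := hcomp
  surj := al_surj q M c
  exp d hd0 hd := by
    subst hN
    rcases sq_dvd_cases' hq hd with h | ⟨e, he, rfl⟩
    · exact ⟨_, hasExp_al_in c h⟩
    · have : NeZero e := ⟨by rintro rfl; exact NeZero.ne (q ^ 2 * 0) (Nat.mul_zero _)⟩
      exact ⟨_, hasExp_al_out hcb hζ he⟩

theorem exists_theta_aux (hcomp : ι'.comp i = ι) (hq : q.Prime) (hqM : ¬ q ∣ M)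
    (hN : N = q ^ 2 * M) {ζ : K'ˣ} (hζ : IsPrimitiveRoot ζ q) :
    ∃ θ : F0 K N →+* LaurentSeries K',
      (∀ a, θ (algebraMap K _ a) = HahnSeries.C (i a)) ∧
      (∀ (d : ℕ) [NeZero d] (_ : d ∣ q * M)
        (h : ModularCurve.qExpand K d (ModularCurve.jqModC K) ∈ F0 K N),
        θ ⟨_, h⟩ = ModularCurve.qExpand K' d (ModularCurve.jqModC K')) ∧
      (∀ (e : ℕ) [NeZero e] (_ : e ∣ M)
        (h : ModularCurve.qExpand K (q ^ 2 * e) (ModularCurve.jqModC K) ∈ F0 K N),
        θ ⟨_, h⟩ = twist ζ (ModularCurve.qExpand K' e (ModularCurve.jqModC K'))) := by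
  -- the root of unity
  have hζ' : (ι' ζ) ^ q = 1 := by
    rw [← map_pow]
    have h1 : ((ζ : K')) ^ q = 1 := by
      have := hζ.pow_eq_one
      rw [← Units.val_pow_eq_pow_val, this, Units.val_one]
    rw [h1, map_one]
  have hprim : IsPrimitiveRoot (ι' (ζ : K')) q :=
    (IsPrimitiveRoot.coe_units_iff.mpr hζ).map_of_injective ι'.injective
  obtain ⟨n, hn, hcop, hexp⟩ := (Complex.isPrimitiveRoot_iff _ q (NeZero.ne q)).mp hprim
  -- the matrix
  have hco : IsCoprime ((M : ℤ) * n) (q : ℤ) := by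
    refine IsCoprime.mul_left ?_ (Nat.isCoprime_iff_coprime.mpr hcop)
    exact Nat.isCoprime_iff_coprime.mpr ((Nat.Prime.coprime_iff_not_dvd hq).mpr hqM).symm
  obtain ⟨c, s, hcs⟩ := hco
  have hcb : (M : ℤ) * c * n - q * (-s) = 1 := by linear_combination hcs
  have hζe : ι' (ζ : K') = Complex.exp (2 * Real.pi * Complex.I * ((n : ℤ) : ℂ) / q) := by
    rw [← hexp]
    congr 1
    push_cast
    ring
  have h := wExp_al (i := i) (ι := ι) hcomp hq hN hcb hζe
  refine ⟨h.thF, h.thF_C, fun d hd0 hd hm => ?_, fun e he0 he hm => ?_⟩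
  · exact h.thF_gen (hd.trans (dvd_sq₂ hN)) (hasExp_al_in c hd) hm
  · refine h.thF_gen (d := q ^ 2 * e) ?_ (hasExp_al_out hcb hζe he) hm
    rw [hN]
    exact mul_dvd_mul_left _ he

end Al

end Fermat.Agent.LG
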