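import Mathlib
import Fermat.Agent.LG.Th
import Fermat.Agent.LG.CDeg
import Fermat.Agent.Gamma0Comb.Psi
import Fermat.Agent.Gamma0Comb.Cusps

/-!
The embeddings of the function field of level `q²M` over the function field of level `qM`, and the
norm.
-/

set_option autoImplicit false
set_option linter.unusedSectionVars false

open Matrix.SpecialLinearGroup CongruenceSubgroup ModularGroup
open scoped MatrixGroups ModularForm Manifold
open UpperHalfPlane hiding I J
open Complex (I)
open Fermat.Agent.ModFun IntermediateField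

noncomputable section

universe u

namespace Fermat.Agent.LG

/-! ### norms and embeddings -/

/-- The norm is the product of sufficiently many embeddings. -/
theorem norm_eq_prod_of_card {F₁ F Ω : Type*} [Field F₁] [Field F] [Field Ω] [Algebra F₁ F]
    [FiniteDimensional F₁ F] [Algebra.IsSeparable F₁ F] (j : F₁ →+* Ω) {κ : Type*} [Fintype κ]
    (σ : κ → F →+* Ω) (hσ : ∀ k x, σ k (algebraMap F₁ F x) = j x) (hinj : Function.Injective σ)
    (hcard : Module.finrank F₁ F ≤ Fintype.card κ) (x : F) :
    j (Algebra.norm F₁ x) = ∏ k, σ k x := by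
  classical
  let Ω' := AlgebraicClosure Ω
  let _ : Algebra F₁ Ω' := ((algebraMap Ω Ω').comp j).toAlgebra
  let τ : κ → F →ₐ[F₁] Ω' := fun k =>
    { toRingHom := (algebraMap Ω Ω').comp (σ k)
      commutes' := fun r => by
        change algebraMap Ω Ω' (σ k (algebraMap F₁ F r)) = algebraMap Ω Ω' (j r)
        rw [hσ] }
  have hτ : Function.Injective τ := by
    intro a b hab
    apply hinj
    ext y
    apply (algebraMap Ω Ω').injective
    exact congrArg (fun f : F →ₐ[F₁] Ω' => f y) hab
  have hbij : Function.Bijective τ := by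
    rw [Fintype.bijective_iff_injective_and_card]
    refine ⟨hτ, le_antisymm (Fintype.card_le_of_injective _ hτ) ?_⟩
    rw [AlgHom.card F₁ F Ω']
    exact hcard
  have h1 := Algebra.norm_eq_prod_embeddings F₁ Ω' x
  rw [← hbij.prod_comp] at h1
  apply (algebraMap Ω Ω').injective
  rw [map_prod]
  exact h1

/-! ### the degree -/

section Degree

variable {K : Type u} [Field K]

/-- the field generated by `j` -/
def LJ (K : Type u) [Field K] : IntermediateField K (LaurentSeries K) :=
  IntermediateField.adjoin K {ModularCurve.jqModC K}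

theorem LJ_le_F0 (N : ℕ) [NeZero N] : LJ K ≤ F0 K N := by
  rw [LJ, IntermediateField.adjoin_simple_le_iff]
  exact subset_adjoin K _ jqModC_mem_gens

omit [Field K] in
theorem finrank_transport {K L : Type*} [Field K] [Field L] [Algebra K L]
    {E F : IntermediateField K L} (h : E ≤ F) (x : F)
    (hE : E = IntermediateField.adjoin K {(x : L)})
    (hfd : FiniteDimensional (IntermediateField.adjoin K {x}) F) :
    letI := (IntermediateField.inclusion h : E →+* F).toAlgebra
    FiniteDimensional E F ∧
      Module.finrank E F = Module.finrank (IntermediateField.adjoin K {x}) F := by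
  let _ := (IntermediateField.inclusion h : E →+* F).toAlgebra
  have hmap : (IntermediateField.adjoin K {x}).map F.val = E := by
    rw [IntermediateField.adjoin_map, Set.image_singleton, hE]
    rfl
  let e₁ : IntermediateField.adjoin K {x} ≃+* E :=
    ((IntermediateField.equivMap (IntermediateField.adjoin K {x}) F.val).trans
      (IntermediateField.equivOfEq hmap)).toRingEquiv
  have hc : (algebraMap E F).comp (e₁ : IntermediateField.adjoin K {x} →+* E) =
      ((RingEquiv.refl F : F ≃+* F) : F →+* F).comp
        (algebraMap (IntermediateField.adjoin K {x}) F) := by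
    ext x
    rfl
  have hfr : Module.finrank (IntermediateField.adjoin K {x}) F = Module.finrank E F :=
    Algebra.finrank_eq_of_equiv_equiv e₁ (RingEquiv.refl F) hc
  have hpos : 0 < Module.finrank E F := by
    rw [← hfr]
    exact Module.finrank_pos
  exact ⟨FiniteDimensional.of_finrank_pos hpos, by rw [← hfr]⟩

theorem finrank_LJ (ι : K →+* ℂ) (N : ℕ) [NeZero N] :
    letI := algI (LJ_le_F0 (K := K) N)
    FiniteDimensional (LJ K) (F0 K N) ∧
      Module.finrank (LJ K) (F0 K N) = ModularCurve.dedekindPsi N := by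
  have G := genSet_gens ι N
  have hfd := G.finiteDimensional
  have h1 := finrank_transport (LJ_le_F0 (K := K) N) G.jF rfl hfd
  have hcard : Module.finrank K⟮G.jF⟯ (F0 K N) = ModularCurve.dedekindPsi N := by
    rw [G.finrank_eq, ← Fermat.Agent.Gamma0Comb.index_Gamma0, Subgroup.index,
      Nat.card_eq_fintype_card]
  exact ⟨h1.1, h1.2.trans hcard⟩

variable {q M N : ℕ} [NeZero q] [NeZero M] [NeZero N]

theorem psi_sq (hq : q.Prime) (hqM : ¬ q ∣ M) :
    ModularCurve.dedekindPsi (q ^ 2 * M) = ModularCurve.dedekindPsi (q * M) * q := by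
  have hco : q.Coprime M := (Nat.Prime.coprime_iff_not_dvd hq).mpr hqM
  rw [Fermat.Agent.Gamma0Comb.dedekindPsi_mul (hco.pow_left 2),
    Fermat.Agent.Gamma0Comb.dedekindPsi_mul hco]
  have h1 := Fermat.Agent.Gamma0Comb.dedekindPsi_prime_pow hq 0
  have h2 := Fermat.Agent.Gamma0Comb.dedekindPsi_prime_pow hq 1
  rw [zero_add, pow_one] at h1
  rw [show q ^ 2 = q ^ (1 + 1) by norm_num, h1, h2]
  ring

theorem F0_le_sq (hN : N = q ^ 2 * M) : F0 K (q * M) ≤ F0 K N := F0_mono (dvd_sq₂ hN)

theorem finrank_quot {A B C : Type*} [Field A] [Field B] [Field C] [Algebra A B] [Algebra B C]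
    [Algebra A C] (t : IsScalarTower A B C) (h1 : FiniteDimensional A B)
    (h2 : FiniteDimensional A C) {a b : ℕ} (ha : Module.finrank A B = a)
    (hb : Module.finrank A C = a * b) : FiniteDimensional B C ∧ Module.finrank B C = b := by
  refine ⟨FiniteDimensional.right A B C, ?_⟩
  have h6 := Module.finrank_mul_finrank A B C
  rw [ha, hb] at h6
  have h7 : 0 < a := by
    rw [← ha]
    exact Module.finrank_pos
  exact Nat.eq_of_mul_eq_mul_left h7 h6

/-- the degree of `X₀(q²M)` over `X₀(qM)` -/
theorem finrank_sq (ι : K →+* ℂ) (hq : q.Prime) (hqM : ¬ q ∣ M) (hN : N = q ^ 2 * M) :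
    letI := algI (F0_le_sq (K := K) (q := q) (M := M) hN)
    FiniteDimensional (F0 K (q * M)) (F0 K N) ∧
      Module.finrank (F0 K (q * M)) (F0 K N) = q := by
  obtain ⟨h1, h2⟩ := finrank_LJ ι (q * M)
  obtain ⟨h3, h4⟩ := finrank_LJ ι N
  have t := tower_I (LJ_le_F0 (K := K) (q * M)) (F0_le_sq (K := K) (q := q) (M := M) hN)
    (LJ_le_F0 (K := K) N)
  have h5 : ModularCurve.dedekindPsi N = ModularCurve.dedekindPsi (q * M) * q := by
    rw [hN, psi_sq hq hqM]
  rw [h5] at h4
  exact @finrank_quot (LJ K) (F0 K (q * M)) (F0 K N) _ _ _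
    (algI (LJ_le_F0 (K := K) (q * M))) (algI (F0_le_sq (K := K) (q := q) (M := M) hN))
    (algI (LJ_le_F0 (K := K) N)) t h1 h3 _ _ h2 h4

end Degree

end Fermat.Agent.LG
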