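import Mathlib
import Fermat.Agent.LG.Th2

/-!
The expansions of the functions of level `q²M` at the cusps `1/(qM)`, and the norm to the level
`qM`.
-/

set_option autoImplicit false
set_option linter.unusedSectionVars false

open Matrix.SpecialLinearGroup CongruenceSubgroup ModularGroup
open scoped MatrixGroups ModularForm Manifold
open UpperHalfPlane hiding I J
open Complex (I)
open Fermat.Agent.ModFun IntermediateField

noncomputable section

universe u

namespace Fermat.Agent.LG

section Ser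

variable {R : Type*} [CommRing R]

theorem twist_qExpand_of_pow {q : ℕ} [NeZero q] {ζ : Rˣ} (hζ : ζ ^ q = 1) (x : LaurentSeries R) :
    twist ζ (ModularCurve.qExpand R q x) = ModularCurve.qExpand R q x := by
  ext n
  rw [twist_coeff]
  by_cases hn : (q : ℤ) ∣ n
  · obtain ⟨m, rfl⟩ := hn
    rw [zpow_mul, zpow_natCast, hζ, one_zpow, Units.val_one, one_mul]
  · rw [ModularCurve.qExpand_coeff_of_not_dvd q _ hn, mul_zero]

theorem coeffMap_qExpand' {S : Type*} [CommRing S] (f : R →+* S) (m : ℕ) [NeZero m]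
    (x : LaurentSeries R) : ModularCurve.coeffMap f (ModularCurve.qExpand R m x) =
      ModularCurve.qExpand S m (ModularCurve.coeffMap f x) := by
  ext n
  change f ((ModularCurve.qExpand R m x).coeff n) = _
  by_cases hn : (m : ℤ) ∣ n
  · obtain ⟨k, rfl⟩ := hn
    rw [ModularCurve.qExpand_coeff_mul, ModularCurve.qExpand_coeff_mul]
    rfl
  · rw [ModularCurve.qExpand_coeff_of_not_dvd m _ hn, ModularCurve.qExpand_coeff_of_not_dvd m _ hn,
      map_zero]

theorem coeffMap_jq {S : Type*} [CommRing S] (f : R →+* S) (m : ℕ) [NeZero m] :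
    ModularCurve.coeffMap f (ModularCurve.qExpand R m (ModularCurve.jqModC R)) =
      ModularCurve.qExpand S m (ModularCurve.jqModC S) := by
  rw [coeffMap_qExpand', coeffMap_jqModC]

theorem jqModC_coeff_neg_one : (ModularCurve.jqModC R).coeff (-1) = 1 := by
  have h := coeff_jqModC_pow_self' (R := R) 1
  rw [pow_one] at h
  exact_mod_cast h

end Ser

section Th

variable {K : Type u} {K' : Type*} [Field K] [Field K'] {i : K →+* K'} {q M N : ℕ} [NeZero q]
  [NeZero M] [NeZero N]

/-- `θ` is the expansion of the functions of level `q²M` at the cusp `1/(qM)` attached to `ζ`. -/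
structure IsTh (i : K →+* K') (q M N : ℕ) [NeZero q] [NeZero M] [NeZero N] (ζ : K'ˣ)
    (θ : F0 K N →+* LaurentSeries K') : Prop where
  C : ∀ a, θ (algebraMap K _ a) = HahnSeries.C (i a)
  low : ∀ (d : ℕ) [NeZero d] (_ : d ∣ q * M)
    (h : ModularCurve.qExpand K d (ModularCurve.jqModC K) ∈ F0 K N),
    θ ⟨_, h⟩ = ModularCurve.qExpand K' d (ModularCurve.jqModC K')
  out : ∀ (e : ℕ) [NeZero e] (_ : e ∣ M)
    (h : ModularCurve.qExpand K (q ^ 2 * e) (ModularCurve.jqModC K) ∈ F0 K N),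
    θ ⟨_, h⟩ = twist ζ (ModularCurve.qExpand K' e (ModularCurve.jqModC K'))

theorem exists_isTh {ι : K →+* ℂ} {ι' : K' →+* ℂ} (hcomp : ι'.comp i = ι) (hq : q.Prime)
    (hqM : ¬ q ∣ M) (hN : N = q ^ 2 * M) {ζ : K'ˣ} (hζ : IsPrimitiveRoot ζ q) :
    ∃ θ : F0 K N →+* LaurentSeries K', IsTh i q M N ζ θ := by
  obtain ⟨θ, h1, h2, h3⟩ := exists_theta_aux hcomp hq hqM hN hζ
  exact ⟨θ, h1, fun d _ => h2 d, fun e _ => h3 e⟩

/-- two homomorphisms which agree on the generators agree -/
theorem ringHom_ext_F0 {R : Type*} [Semiring R] [Nontrivial R] (hq : q.Prime)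
    (hN : N = q ^ 2 * M) {f g : F0 K N →+* R}
    (h0 : ∀ a, f (algebraMap K _ a) = g (algebraMap K _ a))
    (h1 : ∀ (e : ℕ) [NeZero e] (_ : e ∣ M)
      (h : ModularCurve.qExpand K e (ModularCurve.jqModC K) ∈ F0 K N), f ⟨_, h⟩ = g ⟨_, h⟩)
    (h2 : ∀ (e : ℕ) [NeZero e] (_ : e ∣ M)
      (h : ModularCurve.qExpand K (q * e) (ModularCurve.jqModC K) ∈ F0 K N), f ⟨_, h⟩ = g ⟨_, h⟩)
    (h3 : ∀ (e : ℕ) [NeZero e] (_ : e ∣ M)
      (h : ModularCurve.qExpand K (q ^ 2 * e) (ModularCurve.jqModC K) ∈ F0 K N),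
      f ⟨_, h⟩ = g ⟨_, h⟩) : f = g := by
  apply ringHom_ext_adjoin h0
  rintro x ⟨d, hd0, hd, rfl⟩
  have hd' : d ∣ q ^ 2 * M := hN ▸ hd
  rcases sq_dvd_cases hq hd' with h | ⟨e, he, rfl⟩ | ⟨e, he, rfl⟩
  · exact h1 d h _
  · have : NeZero e := ⟨by rintro rfl; exact NeZero.ne (q * 0) (Nat.mul_zero q)⟩
    exact h2 e he _
  · have : NeZero e := ⟨by rintro rfl; exact NeZero.ne (q ^ 2 * 0) (Nat.mul_zero _)⟩
    exact h3 e he _

theorem IsTh.unique (hq : q.Prime) (hN : N = q ^ 2 * M) {ζ : K'ˣ}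
    {θ θ' : F0 K N →+* LaurentSeries K'} (h : IsTh i q M N ζ θ) (h' : IsTh i q M N ζ θ') :
    θ = θ' := by
  apply ringHom_ext_F0 hq hN
  · intro a
    rw [h.C, h'.C]
  · intro e he0 he hm
    rw [h.low e (he.trans (dvd_mul_left _ _)) hm, h'.low e (he.trans (dvd_mul_left _ _)) hm]
  · intro e he0 he hm
    rw [h.low (q * e) (mul_dvd_mul_left _ he) hm, h'.low (q * e) (mul_dvd_mul_left _ he) hm]
  · intro e he0 he hm
    rw [h.out e he hm, h'.out e he hm]

/-- functions of level `qM` -/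
theorem IsTh.low_eq {ζ : K'ˣ} {θ : F0 K N →+* LaurentSeries K'} (h : IsTh i q M N ζ θ)
    (hN : N = q ^ 2 * M) (x : F0 K (q * M)) :
    θ (inclusion (F0_mono (dvd_sq₂ hN)) x) = ModularCurve.coeffMap i (x : LaurentSeries K) := by
  let f : F0 K (q * M) →+* LaurentSeries K' :=
    θ.comp (inclusion (F0_mono (K := K) (dvd_sq₂ hN))).toRingHom
  let g : F0 K (q * M) →+* LaurentSeries K' :=
    (ModularCurve.coeffMap i).comp (F0 K (q * M)).val.toRingHom
  have hfg : f = g := by
    apply ringHom_ext_adjoin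
    · intro a
      change θ (algebraMap K (F0 K N) a) = ModularCurve.coeffMap i (algebraMap K (LaurentSeries K) a)
      rw [h.C, ModularCurve.algebraMap_laurentSeries_eq_single, ModularCurve.coeffMap_single]
      rfl
    · rintro x ⟨d, hd0, hd, rfl⟩
      change θ ⟨_, _⟩ = ModularCurve.coeffMap i
        (ModularCurve.qExpand K d (ModularCurve.jqModC K))
      rw [coeffMap_jq]
      exact h.low d hd _
  exact congrArg (fun φ : F0 K (q * M) →+* LaurentSeries K' => φ x) hfg

/-- functions coming from the level `M` through the outer degeneracy map -/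
theorem IsTh.out_eq {ζ : K'ˣ} {θ : F0 K N →+* LaurentSeries K'} (h : IsTh i q M N ζ θ)
    (hN : N = q ^ 2 * M) (x : F0 K M) (hm : ModularCurve.qExpand K (q ^ 2) x ∈ F0 K N) :
    θ ⟨_, hm⟩ = twist ζ (ModularCurve.coeffMap i (x : LaurentSeries K)) := by
  have hdv : q ^ 2 * M ∣ N := hN ▸ dvd_rfl
  let v : F0 K M →+* F0 K N :=
    ((ModularCurve.qExpand K (q ^ 2)).comp (F0 K M).val.toRingHom).codRestrict
      (F0 K N).toSubring fun x => qExpand_mem_F0_of_dvd hdv x.2
  let g : F0 K M →+* LaurentSeries K' :=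
    ((twist ζ).comp (ModularCurve.coeffMap i)).comp (F0 K M).val.toRingHom
  have hfg : θ.comp v = g := by
    apply ringHom_ext_adjoin
    · intro a
      have h1 : v (algebraMap K _ a) = algebraMap K (F0 K N) a := by
        apply Subtype.ext
        change ModularCurve.qExpand K (q ^ 2) (algebraMap K (LaurentSeries K) a) =
          algebraMap K (LaurentSeries K) a
        rw [ModularCurve.algebraMap_laurentSeries_eq_single, ModularCurve.qExpand_single, mul_zero]
      rw [RingHom.comp_apply, h1, h.C]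
      change _ = twist ζ (ModularCurve.coeffMap i (algebraMap K (LaurentSeries K) a))
      rw [ModularCurve.algebraMap_laurentSeries_eq_single, ModularCurve.coeffMap_single]
      exact (twist_C ζ (i a)).symm
    · rintro x ⟨d, hd0, hd, rfl⟩
      have hmem : ModularCurve.qExpand K (q ^ 2 * d) (ModularCurve.jqModC K) ∈ F0 K N :=
        subset_adjoin _ _ (gens_dvd ((mul_dvd_mul_left (q ^ 2) hd).trans hdv))
      have h1 : v ⟨ModularCurve.qExpand K d (ModularCurve.jqModC K),
          subset_adjoin K _ (gens_dvd hd)⟩ = ⟨_, hmem⟩ := by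
        apply Subtype.ext
        change ModularCurve.qExpand K (q ^ 2) (ModularCurve.qExpand K d _) = _
        rw [ModularCurve.qExpand_qExpand]
      rw [RingHom.comp_apply]
      change θ (v ⟨ModularCurve.qExpand K d (ModularCurve.jqModC K), _⟩) =
        twist ζ (ModularCurve.coeffMap i (ModularCurve.qExpand K d (ModularCurve.jqModC K)))
      rw [h1, h.out d hd hmem, coeffMap_jq]
  exact congrArg (fun φ : F0 K M →+* LaurentSeries K' => φ x) hfg

/-- compatibility with the Atkin–Lehner involution -/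
theorem IsTh.wF2 {ζ : K'ˣ} {θ θ' : F0 K N →+* LaurentSeries K'} (h : IsTh i q M N ζ θ)
    (h' : IsTh i q M N ζ⁻¹ θ') (B : Bez (q ^ 2) M) (ι : K →+* ℂ) (hq : q.Prime)
    (hN : N = q ^ 2 * M) (hζ : ζ ^ q = 1) (x : F0 K N) :
    θ (B.wF2 ι hq hN x) = twist ζ (θ' x) := by
  have hfg : θ.comp (B.wF2 ι hq hN : F0 K N →+* F0 K N) = (twist ζ).comp θ' := by
    apply ringHom_ext_F0 hq hN
    · intro a
      rw [RingHom.comp_apply, RingHom.comp_apply, h'.C, twist_C]
      change θ (B.wF2 ι hq hN (algebraMap K _ a)) = _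
      rw [B.wF2_C, h.C]
    · intro e he0 he hm
      have hm2 : ModularCurve.qExpand K (q ^ 2 * e) (ModularCurve.jqModC K) ∈ F0 K N :=
        subset_adjoin _ _ (gens_dvd (hN ▸ mul_dvd_mul_left (q ^ 2) he))
      have h1 : B.wF2 ι hq hN ⟨_, hm⟩ = ⟨_, hm2⟩ :=
        Subtype.ext ((B.wPerm2 hq hN).wF_gen (B.swap_out he) (he.trans (dvd_sq₁ hN)) _)
      rw [RingHom.comp_apply, RingHom.comp_apply, h'.low e (he.trans (dvd_mul_left _ _)) hm]
      change θ (B.wF2 ι hq hN ⟨_, hm⟩) = _
      rw [h1, h.out e he hm2]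
    · intro e he0 he hm
      have h1 : B.wF2 ι hq hN ⟨_, hm⟩ = ⟨_, hm⟩ :=
        Subtype.ext ((B.wPerm2 hq hN).wF_gen (B.swap_mid he)
          ((mul_dvd_mul_left q he).trans (dvd_sq₂ hN)) _)
      rw [RingHom.comp_apply, RingHom.comp_apply, h'.low (q * e) (mul_dvd_mul_left _ he) hm]
      change θ (B.wF2 ι hq hN ⟨_, hm⟩) = _
      rw [h1, h.low (q * e) (mul_dvd_mul_left _ he) hm, ← ModularCurve.qExpand_qExpand,
        twist_qExpand_of_pow hζ]
    · intro e he0 he hm
      have hm2 : ModularCurve.qExpand K e (ModularCurve.jqModC K) ∈ F0 K N :=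
        subset_adjoin _ _ (gens_dvd (he.trans (dvd_sq₁ hN)))
      have h1 : B.wF2 ι hq hN ⟨_, hm⟩ = ⟨_, hm2⟩ :=
        Subtype.ext ((B.wPerm2 hq hN).wF_gen (B.swap_out he).symm
          (hN ▸ mul_dvd_mul_left (q ^ 2) he) _)
      rw [RingHom.comp_apply, RingHom.comp_apply, h'.out e he hm]
      change θ (B.wF2 ι hq hN ⟨_, hm⟩) = _
      rw [h1, h.low e (he.trans (dvd_mul_left _ _)) hm2, twist_twist, mul_inv_cancel, twist_one']
  exact congrArg (fun φ : F0 K N →+* LaurentSeries K' => φ x) hfg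

/-- the action on the coefficients -/
theorem IsTh.coeffMap {K'' : Type*} [Field K''] (σ : K' →+* K'') {ζ : K'ˣ}
    {θ : F0 K N →+* LaurentSeries K'} (h : IsTh i q M N ζ θ) :
    IsTh (σ.comp i) q M N (Units.map (σ : K' →* K'') ζ) ((ModularCurve.coeffMap σ).comp θ) where
  C a := by
    rw [RingHom.comp_apply, h.C]
    exact ModularCurve.coeffMap_single σ 0 (i a)
  low d _ hd hm := by
    rw [RingHom.comp_apply, h.low d hd hm, coeffMap_jq]
  out e _ he hm := by
    rw [RingHom.comp_apply, h.out e he hm, coeffMap_twist, coeffMap_jq]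

theorem IsTh.coeffMap_eq (hq : q.Prime) (hN : N = q ^ 2 * M) (σ : K' →+* K')
    (hσ : σ.comp i = i) {ζ : K'ˣ} {θ θ' : F0 K N →+* LaurentSeries K'} (h : IsTh i q M N ζ θ)
    (h' : IsTh i q M N (Units.map (σ : K' →* K') ζ) θ') (x : F0 K N) :
    ModularCurve.coeffMap σ (θ x) = θ' x := by
  have h1 := h.coeffMap σ
  rw [hσ] at h1
  have h2 := h1.unique hq hN h'
  exact congrArg (fun φ : F0 K N →+* LaurentSeries K' => φ x) h2

/-- precomposition with the action on the coefficients -/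
theorem IsTh.actF {ζ : K'ˣ} {θ : F0 K N →+* LaurentSeries K'} (h : IsTh i q M N ζ θ)
    (d : K ≃+* K) :
    IsTh (i.comp (d : K →+* K)) q M N ζ (θ.comp (LG.actF d N : F0 K N →+* F0 K N)) where
  C a := by
    rw [RingHom.comp_apply]
    change θ (LG.actF d N (algebraMap K _ a)) = _
    rw [actF_C, h.C]
    rfl
  low e _ he hm := by
    rw [RingHom.comp_apply]
    have h1 : LG.actF d N ⟨_, hm⟩ = ⟨_, hm⟩ := actF_gen ..
    change θ (LG.actF d N ⟨_, hm⟩) = _
    rw [h1, h.low e he hm]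
  out e _ he hm := by
    rw [RingHom.comp_apply]
    have h1 : LG.actF d N ⟨_, hm⟩ = ⟨_, hm⟩ := actF_gen ..
    change θ (LG.actF d N ⟨_, hm⟩) = _
    rw [h1, h.out e he hm]

end Th

section Norm

variable {K : Type u} {K' : Type*} [Field K] [Field K'] {i : K →+* K'} {q M N : ℕ} [NeZero q]
  [NeZero M] [NeZero N]

/-- the norm from the level `q²M` to the level `qM` -/
def nrm (hN : N = q ^ 2 * M) : F0 K N →* F0 K (q * M) :=
  letI := algI (F0_le_sq (K := K) (q := q) (M := M) hN)
  Algebra.norm (F0 K (q * M))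

theorem jq_mem (hN : N = q ^ 2 * M) :
    ModularCurve.qExpand K (q ^ 2) (ModularCurve.jqModC K) ∈ F0 K N :=
  subset_adjoin K _ (gens_dvd (hN ▸ dvd_mul_right (q ^ 2) M))

theorem jq_coeff_neg_one (hq : q.Prime) :
    (ModularCurve.qExpand K' (q ^ 2) (ModularCurve.jqModC K')).coeff (-1) = 0 := by
  apply ModularCurve.qExpand_coeff_of_not_dvd
  rw [Int.dvd_neg]
  intro h
  have h1 : q ^ 2 ∣ 1 := by exact_mod_cast h
  have h2 := Nat.dvd_one.mp h1
  have h3 : 1 < q ^ 2 := Nat.one_lt_pow (by norm_num) hq.one_lt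
  omega

theorem zeta_zpow_ne_zero (ζ : K'ˣ) (j : ℕ) : (((ζ ^ j) ^ (-1 : ℤ) : K'ˣ) : K') ≠ 0 :=
  Units.ne_zero _

/-- The norm is the product of the expansions at the cusps above. -/
theorem coeffMap_nrm (ι : K →+* ℂ) (hq : q.Prime) (hqM : ¬ q ∣ M) (hN : N = q ^ 2 * M)
    {ζ : K'ˣ} (hζ : IsPrimitiveRoot ζ q) (θ : ℕ → F0 K N →+* LaurentSeries K')
    (hθ : ∀ j, 0 < j → j < q → IsTh i q M N (ζ ^ j) (θ j)) (x : F0 K N) :
    ModularCurve.coeffMap i (nrm hN x : LaurentSeries K) =
      ModularCurve.coeffMap i (x : LaurentSeries K) * ∏ j ∈ Finset.Ioo 0 q, θ j x := by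
  have : CharZero K := ι.charZero
  let _ := algI (F0_le_sq (K := K) (q := q) (M := M) hN)
  obtain ⟨hfd, hfr⟩ := finrank_sq (K := K) ι hq hqM hN
  let c : F0 K N →+* LaurentSeries K' := (ModularCurve.coeffMap i).comp (F0 K N).val.toRingHom
  let j1 : F0 K (q * M) →+* LaurentSeries K' :=
    (ModularCurve.coeffMap i).comp (F0 K (q * M)).val.toRingHom
  let σ : Fin q → F0 K N →+* LaurentSeries K' := fun k => if (k : ℕ) = 0 then c else θ k
  have hσ : ∀ k y, σ k (algebraMap (F0 K (q * M)) (F0 K N) y) = j1 y := by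
    intro k y
    by_cases hk : (k : ℕ) = 0
    · simp only [σ, if_pos hk]
      rfl
    · simp only [σ, if_neg hk]
      exact (hθ k (Nat.pos_of_ne_zero hk) k.2).low_eq hN y
  have hcoef : ∀ k : Fin q, (σ k ⟨_, jq_mem hN⟩).coeff (-1) =
      if (k : ℕ) = 0 then 0 else (((ζ ^ (k : ℕ)) ^ (-1 : ℤ) : K'ˣ) : K') := by
    intro k
    by_cases hk : (k : ℕ) = 0
    · simp only [σ, if_pos hk]
      change (ModularCurve.coeffMap i
        (ModularCurve.qExpand K (q ^ 2) (ModularCurve.jqModC K))).coeff (-1) = 0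
      rw [coeffMap_jq]
      exact jq_coeff_neg_one hq
    · simp only [σ, if_neg hk]
      have hmem : ModularCurve.qExpand K (q ^ 2 * 1) (ModularCurve.jqModC K) ∈ F0 K N :=
        subset_adjoin K _ (gens_dvd (hN ▸ mul_dvd_mul_left (q ^ 2) (one_dvd M)))
      have h1 := (hθ k (Nat.pos_of_ne_zero hk) k.2).out 1 (one_dvd M) hmem
      have h2 : (⟨_, jq_mem hN⟩ : F0 K N) = ⟨_, hmem⟩ := by
        apply Subtype.ext
        change ModularCurve.qExpand K (q ^ 2) (ModularCurve.jqModC K) =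
          ModularCurve.qExpand K (q ^ 2 * 1) (ModularCurve.jqModC K)
        congr 2
        exact (mul_one _).symm
      rw [h2, h1, twist_coeff]
      have h3 : (ModularCurve.qExpand K' 1 (ModularCurve.jqModC K')).coeff (-1) = 1 := by
        have h4 := ModularCurve.qExpand_coeff_mul 1 (ModularCurve.jqModC K') (-1)
        rw [Nat.cast_one, one_mul] at h4
        rw [h4, jqModC_coeff_neg_one]
      rw [h3, mul_one]
  have hinj : Function.Injective σ := by
    intro a b hab
    have h1 := hcoef a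
    rw [hab, hcoef b] at h1
    by_cases ha : (a : ℕ) = 0 <;> by_cases hb : (b : ℕ) = 0
    · exact Fin.ext (ha.trans hb.symm)
    · rw [if_pos ha, if_neg hb] at h1
      exact absurd h1 (Units.ne_zero _)
    · rw [if_neg ha, if_pos hb] at h1
      exact absurd h1.symm (Units.ne_zero _)
    · rw [if_neg ha, if_neg hb] at h1
      have h2 : ζ ^ (b : ℕ) = ζ ^ (a : ℕ) := by
        have h3 := Units.ext h1
        rw [zpow_neg_one, zpow_neg_one] at h3
        exact inv_injective h3
      exact Fin.ext (hζ.pow_inj b.2 a.2 h2).symm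
  have h := norm_eq_prod_of_card j1 σ hσ hinj (by rw [hfr, Fintype.card_fin]) x
  change j1 (Algebra.norm (F0 K (q * M)) x) = _
  rw [h]
  obtain ⟨m, hm⟩ : ∃ m, q = m + 1 := ⟨q - 1, (Nat.succ_pred_eq_of_pos hq.pos).symm⟩
  have h5 : ∏ k : Fin q, σ k x = ∏ k ∈ Finset.range q, (if k = 0 then c else θ k) x :=
    (Finset.prod_range (fun k => (if k = 0 then c else θ k) x)).symm
  rw [h5]
  have h6 : Finset.range q = insert 0 (Finset.Ioo 0 q) := by
    ext k
    simp only [Finset.mem_range, Finset.mem_insert, Finset.mem_Ioo]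
    have := hq.pos
    omega
  rw [h6, Finset.prod_insert (by simp), if_pos rfl]
  congr 1
  refine Finset.prod_congr rfl fun k hk => ?_
  rw [Finset.mem_Ioo] at hk
  rw [if_neg hk.1.ne']

/-- The Atkin–Lehner transform of the norm is the product of the twists. -/
theorem coeffMap_wF2_nrm (B : Bez (q ^ 2) M) (ι : K →+* ℂ) (hq : q.Prime) (hqM : ¬ q ∣ M)
    (hN : N = q ^ 2 * M) {ζ : K'ˣ} (hζ : IsPrimitiveRoot ζ q) (x : F0 K N) :
    ModularCurve.coeffMap i
      (B.wF2 ι hq hN (inclusion (F0_mono (dvd_sq₂ hN)) (nrm hN x)) : LaurentSeries K) =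
      twN q ζ (ModularCurve.coeffMap i (B.wF2 ι hq hN x : LaurentSeries K)) := by
  have : CharZero K := ι.charZero
  let _ := algI (F0_le_sq (K := K) (q := q) (M := M) hN)
  obtain ⟨hfd, hfr⟩ := finrank_sq (K := K) ι hq hqM hN
  let c : F0 K N →+* LaurentSeries K' :=
    ((ModularCurve.coeffMap i).comp (F0 K N).val.toRingHom).comp
      (B.wF2 ι hq hN : F0 K N →+* F0 K N)
  let j1 : F0 K (q * M) →+* LaurentSeries K' := c.comp (algebraMap (F0 K (q * M)) (F0 K N))
  let σ : Fin q → F0 K N →+* LaurentSeries K' := fun k => (twist (ζ ^ (k : ℕ))).comp c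
  have hc : ∀ (k : ℕ) y, twist (ζ ^ k) (c (algebraMap (F0 K (q * M)) (F0 K N) y)) =
      c (algebraMap (F0 K (q * M)) (F0 K N) y) := by
    intro k y
    have hk : (ζ ^ k) ^ q = 1 := by rw [← pow_mul, mul_comm, pow_mul, hζ.pow_eq_one, one_pow]
    have h : ((twist (ζ ^ k)).comp c).comp (algebraMap (F0 K (q * M)) (F0 K N)) =
        c.comp (algebraMap (F0 K (q * M)) (F0 K N)) := by
      apply ringHom_ext_adjoin
      · intro a
        change twist (ζ ^ k) (ModularCurve.coeffMap i
          ((B.wF2 ι hq hN (algebraMap K (F0 K N) a) : F0 K N) : LaurentSeries K)) =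
          ModularCurve.coeffMap i
          ((B.wF2 ι hq hN (algebraMap K (F0 K N) a) : F0 K N) : LaurentSeries K)
        rw [B.wF2_C]
        change twist (ζ ^ k) (ModularCurve.coeffMap i (algebraMap K (LaurentSeries K) a)) =
          ModularCurve.coeffMap i (algebraMap K (LaurentSeries K) a)
        rw [ModularCurve.algebraMap_laurentSeries_eq_single, ModularCurve.coeffMap_single]
        exact twist_C _ _
      · rintro y ⟨d, hd0, hd, rfl⟩
        have hm1 : ModularCurve.qExpand K d (ModularCurve.jqModC K) ∈ F0 K N :=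
          subset_adjoin _ _ (gens_dvd (hd.trans (dvd_sq₂ hN)))
        have hmain : ∃ z : LaurentSeries K, ((B.wF2 ι hq hN ⟨_, hm1⟩ : F0 K N) : LaurentSeries K) =
            ModularCurve.qExpand K q z := by
          rcases dvd_cases hq hd with h1 | ⟨e, he, rfl⟩
          · refine ⟨ModularCurve.qExpand K (q * d) (ModularCurve.jqModC K), ?_⟩
            have h2 := (B.wPerm2 hq hN).wF_gen (ι := ι) (B.swap_out h1)
              (h1.trans (dvd_sq₁ hN)) hm1
            rw [ModularCurve.qExpand_qExpand]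
            refine Eq.trans h2 ?_
            congr 2
            ring
          · have : NeZero e := ⟨by rintro rfl; exact NeZero.ne (q * 0) (Nat.mul_zero q)⟩
            refine ⟨ModularCurve.qExpand K e (ModularCurve.jqModC K), ?_⟩
            have h2 := (B.wPerm2 hq hN).wF_gen (ι := ι) (B.swap_mid he)
              ((mul_dvd_mul_left q he).trans (dvd_sq₂ hN)) hm1
            rw [ModularCurve.qExpand_qExpand]
            exact h2
        obtain ⟨z, hz⟩ := hmain
        change twist (ζ ^ k) (ModularCurve.coeffMap i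
          ((B.wF2 ι hq hN ⟨_, hm1⟩ : F0 K N) : LaurentSeries K)) =
          ModularCurve.coeffMap i ((B.wF2 ι hq hN ⟨_, hm1⟩ : F0 K N) : LaurentSeries K)
        rw [hz, coeffMap_qExpand', twist_qExpand_of_pow hk]
    exact congrArg (fun φ : F0 K (q * M) →+* LaurentSeries K' => φ y) h
  have hσ : ∀ k y, σ k (algebraMap (F0 K (q * M)) (F0 K N) y) = j1 y := fun k y => hc k y
  have hcoef : ∀ k : Fin q, (σ k ⟨_, jq_mem hN⟩).coeff (-1) =
      (((ζ ^ (k : ℕ)) ^ (-1 : ℤ) : K'ˣ) : K') := by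
    intro k
    have hmem : ModularCurve.qExpand K (q ^ 2 * 1) (ModularCurve.jqModC K) ∈ F0 K N :=
      subset_adjoin K _ (gens_dvd (hN ▸ mul_dvd_mul_left (q ^ 2) (one_dvd M)))
    have h2 : (⟨_, jq_mem hN⟩ : F0 K N) = ⟨_, hmem⟩ := by
      apply Subtype.ext
      change ModularCurve.qExpand K (q ^ 2) (ModularCurve.jqModC K) =
        ModularCurve.qExpand K (q ^ 2 * 1) (ModularCurve.jqModC K)
      congr 2
      exact (mul_one _).symm
    have h3 := (B.wPerm2 hq hN).wF_gen (ι := ι) (B.swap_out (one_dvd M)).symm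
      (hN ▸ mul_dvd_mul_left (q ^ 2) (one_dvd M)) hmem
    change (twist (ζ ^ (k : ℕ)) (ModularCurve.coeffMap i
      ((B.wF2 ι hq hN ⟨_, jq_mem hN⟩ : F0 K N) : LaurentSeries K))).coeff (-1) = _
    rw [h2]
    have h4 : ((B.wF2 ι hq hN ⟨_, hmem⟩ : F0 K N) : LaurentSeries K) =
      ModularCurve.qExpand K 1 (ModularCurve.jqModC K) := h3
    rw [h4, coeffMap_jq, twist_coeff]
    have h5 : (ModularCurve.qExpand K' 1 (ModularCurve.jqModC K')).coeff (-1) = 1 := by
      have h4 := ModularCurve.qExpand_coeff_mul 1 (ModularCurve.jqModC K') (-1)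
      rw [Nat.cast_one, one_mul] at h4
      rw [h4, jqModC_coeff_neg_one]
    rw [h5, mul_one]
  have hinj : Function.Injective σ := by
    intro a b hab
    have h1 := hcoef a
    rw [hab, hcoef b] at h1
    have h2 : ζ ^ (b : ℕ) = ζ ^ (a : ℕ) := by
      have h3 := Units.ext h1
      rw [zpow_neg_one, zpow_neg_one] at h3
      exact inv_injective h3
    exact Fin.ext (hζ.pow_inj b.2 a.2 h2).symm
  have h := norm_eq_prod_of_card j1 σ hσ hinj (by rw [hfr, Fintype.card_fin]) x
  exact h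

end Norm

end Fermat.Agent.LG
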