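import Mathlib
import Fermat.Agent.LG.ArStar
import Fermat.Agent.GaloisBasics.FrobeniusExists
import Fermat.Agent.ESCore.ModP

/-!
# The cyclotomic action on locally trivial classes
-/

set_option autoImplicit false
set_option linter.unusedSectionVars false

open Fermat.Agent.ModFun IntermediateField Fermat.Agent.Geo IsLocalRing Fermat.Agent.ESCore
open CongruenceSubgroup (Gamma0 Gamma0_mem)
open scoped MatrixGroups

noncomputable section

namespace Fermat.Agent.LG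

/-- The auxiliary level. -/
def GoodLev (q M : ℕ) : Prop := (q ≠ 2 ∧ 4 ∣ M) ∨ (q = 2 ∧ 9 ∣ M)

theorem GoodLev.noEll {q M N : ℕ} (h : GoodLev q M) (hN : N = q * M) : NoEll N := by
  rcases h with ⟨-, h⟩ | ⟨-, h⟩
  · exact noEll_of_four_dvd (hN ▸ h.trans (dvd_mul_left M q))
  · exact noEll_of_nine_dvd (hN ▸ h.trans (dvd_mul_left M q))

theorem Ar.exists_zeta {A : ValuationSubring Qb} {q : ℕ} {L : IntermediateField ℚ Qb}
    (h : Ar A q L) {M : ℕ} [NeZero M] (hqM : ¬ q ∣ M) :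
    ∃ ζ : Lˣ, ιL L ζ = Complex.exp (2 * Real.pi * Complex.I / M) := by
  obtain ⟨ζ, hζ⟩ := exists_zeta_Qb M
  have h1 : (ζ : Qb) ^ M = 1 := by
    apply ιC.injective
    rw [map_pow, hζ, map_one, ← Complex.exp_nat_mul]
    have hM0 : (M : ℂ) ≠ 0 := by exact_mod_cast NeZero.ne M
    rw [mul_div_cancel₀ _ hM0, Complex.exp_two_pi_mul_I]
  have h2 : (ζ : Qb) ∈ L := h.le (root_mem_KI h.hq h.hA hqM h1)
  have h3 : (⟨(ζ : Qb), h2⟩ : L) ≠ 0 := fun h0 => ζ.ne_zero (congrArg Subtype.val h0)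
  exact ⟨Units.mk0 _ h3, hζ⟩

section

variable {A : ValuationSubring Qb} {q : ℕ} {L : IntermediateField ℚ Qb}
  [IsDiscreteValuationRing (OL A L)] {M N : ℕ} [NeZero q] [NeZero M] [NeZero N] {m : ℕ}
  {π : OL A L} {B : Bez q M} {hq : q.Prime} {hN : N = q * M}

/-- **Inertia and the square of Frobenius act through the cyclotomic character on locally trivial
classes.** -/
theorem cstar (h : Ar A q L) (hqM : ¬ q ∣ M) (hlev : GoodLev q M) (hm : 0 < m)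
    (hμ : ∀ ζ : Qb, ζ ^ m = 1 → ζ ∈ L) (hπ : Prime π) {χ : XG N m}
    (hχ : LW B hq hN π m χ.1) {σ : GQ} (hcase : σ ∈ A.inertiaSubgroupIn ℚ ∨
      ∃ φ : GQ, A.IsFrobeniusAt φ q ∧ σ = φ * φ) {c : ℕ} (hc : ∀ ζ : Qb, ζ ^ m = 1 → σ ζ = ζ ^ c) :
    galX N hm σ χ = χ ^ c := by
  have hm0 : NeZero m := ⟨hm.ne'⟩
  have hNE := hlev.noEll hN
  have i1 := h.isAlgClosed
  have i2 := h.expChar_residue
  have i3 := Ar.charZero A L
  obtain ⟨ζ, hζ⟩ := h.exists_zeta hqM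
  have hMu : IsUnit (M : OL A L) := h.isUnit_natCast hqM
  have hq0 := h.natCast_residue
  have hcop : q.Coprime M := (Nat.Prime.coprime_iff_not_dvd hq).mpr hqM
  obtain ⟨φ, hφ⟩ : ∃ φ : GQ, A.IsFrobeniusAt φ q ∧ (σ ∈ A.inertiaSubgroupIn ℚ ∨ σ = φ * φ) := by
    rcases hcase with h1 | ⟨φ, h1, h2⟩
    · obtain ⟨φ, h2⟩ := Fermat.Agent.GaloisBasics.exists_isFrobeniusAt hq A h.hA
      exact ⟨φ, h2, Or.inl h1⟩
    · exact ⟨φ, h1, Or.inr h2⟩
  obtain ⟨hφ, hcase⟩ := hφ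
  have hφd := hφ.mem_decompositionSubgroup
  have hσ : σ ∈ A.decompositionSubgroup ℚ := by
    rcases hcase with h1 | h1
    · exact Ar.inertia_le h1
    · rw [h1]
      exact mul_mem hφd hφd
  -- the root of unity
  obtain ⟨ζ₀, hζ₀⟩ : ∃ ζ₀ : Qb, IsPrimitiveRoot ζ₀ m := by
    have : NeZero (m : Qb) := ⟨by exact_mod_cast hm.ne'⟩
    exact HasEnoughRootsOfUnity.exists_primitiveRoot Qb m
  have hζ₀L : ζ₀ ∈ L := hμ _ hζ₀.pow_eq_one
  have hζm : IsPrimitiveRoot (⟨ζ₀, hζ₀L⟩ : L) m :=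
    IsPrimitiveRoot.of_map_of_injective (f := algebraMap L Qb) hζ₀ (algebraMap L Qb).injective
  -- the group and its series
  set X := lwGroup π B hq hN hm with hX
  have hXG : ∀ χ ∈ X, χ ∈ XG N m := fun χ hχ => by
    obtain ⟨p1, e1, -⟩ := hχ
    exact p1.mem_XG e1
  have hXfin : Finite X := by
    have : Finite (XG N m) := Fermat.Agent.ESCore.ModP.finite_XG N m
    exact Finite.of_injective (fun χ : X => (⟨χ.1, hXG χ.1 χ.2⟩ : XG N m)) fun a b hab =>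
      Subtype.ext (congrArg (fun z : XG N m => z.1) hab)
  have hXe : ∀ χ ∈ X, χ ^ m = 1 := fun χ hχ => hχ.2.choose
  choose y hy hy0 a1 a2 using fun χ : X => χ.2.2.choose_spec
  have hact : ∀ {τ : GQ} (hτ : τ ∈ A.decompositionSubgroup ℚ) (χ : X), ∃ χ' : X,
      XSer (ιL L) N (χ' : Gamma0 N →* ℂˣ) (ModularCurve.coeffMap (h.res hτ : L →+* L) (y χ)) := by
    intro τ hτ χ
    refine ⟨⟨(galX N hm τ ⟨χ.1, hXG χ.1 χ.2⟩).1, ?_⟩, ?_⟩
    · exact LW.gal (χ := ⟨χ.1, hXG χ.1 χ.2⟩) h hNE hπ hm hτ χ.2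
    · exact xSer_res h hm hτ ⟨χ.1, hXG χ.1 χ.2⟩ (hy χ)
  have hinv : ∀ {τ : GQ} (hτ : τ ∈ A.decompositionSubgroup ℚ),
      (h.res hτ).symm = h.res (inv_mem hτ) := by
    intro τ hτ
    apply RingEquiv.ext
    intro x
    rfl
  have hcd : (∀ a, dbar (h.resO hσ) a = a) ∨
      (∀ a, h.resO hσ a = h.resO hφd (h.resO hφd a)) := by
    rcases hcase with h1 | h1
    · exact Or.inl (h.dbar_inertia h1 hσ)
    · subst h1
      exact Or.inr fun a => rfl
  have hres := xSer_res h hm hσ χ (hy ⟨χ.1, hχ⟩)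
  have hfinal : (⟨(galX N hm σ χ).1, LW.gal h hNE hπ hm hσ hχ⟩ : X) = ⟨χ.1, hχ⟩ ^ c := by
    have hc' : dL L (h.resO hσ) ⟨ζ₀, hζ₀L⟩ = ⟨ζ₀, hζ₀L⟩ ^ c := by
      rw [h.dL_resO]
      exact Subtype.ext (hc _ hζ₀.pow_eq_one)
    rcases hlev with ⟨hq2, h4⟩ | ⟨hq2, h9⟩
    · refine cstar_abs (O := OL A L) B haut2 (ιL L) hζ hMu hπ
        (sep2 ((by norm_num : 2 ∣ 4).trans h4) hMu) hq0 hq ?_ hN hcop
        ((by norm_num : 2 ∣ 4).trans h4) hNE hm hζm hXe (fun χ hχ => hχ.1) hy0 hy a1 a2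
        (h.dbar_frob hφ) hcd ?_ ?_ hc' ?_
      · intro hd
        exact hq2 ((Nat.prime_dvd_prime_iff_eq hq Nat.prime_two).mp hd)
      · rw [h.dL_resO]
        exact hact hσ
      · rw [h.dL_resO, hinv hσ]
        exact hact (inv_mem hσ)
      · rw [h.dL_resO]
        exact hres
    · refine cstar_abs (O := OL A L) B haut3 (ιL L) hζ hMu hπ
        (sep3 ((by norm_num : 3 ∣ 9).trans h9) hMu) hq0 hq ?_ hN hcop
        ((by norm_num : 3 ∣ 9).trans h9) hNE hm hζm hXe (fun χ hχ => hχ.1) hy0 hy a1 a2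
        (h.dbar_frob hφ) hcd ?_ ?_ hc' ?_
      · intro hd
        rw [hq2] at hd
        revert hd
        decide
      · rw [h.dL_resO]
        exact hact hσ
      · rw [h.dL_resO, hinv hσ]
        exact hact (inv_mem hσ)
      · rw [h.dL_resO]
        exact hres
  exact Subtype.ext (congrArg (fun z : X => z.1) hfinal)

end

end Fermat.Agent.LG
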