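import Mathlib
import Fermat.Agent.LG.ArStar2
import Fermat.Agent.ESCore.Relation

/-!
# Consequences for the Galois action on characters of `Γ₀(qM)`
-/

set_option autoImplicit false
set_option linter.unusedSectionVars false

open Fermat.Agent.ModFun IntermediateField Fermat.Agent.Geo IsLocalRing Fermat.Agent.ESCore
open CongruenceSubgroup (Gamma0 Gamma0_mem)
open scoped MatrixGroups

noncomputable section

namespace Fermat.Agent.LG

section

variable {A : ValuationSubring Qb} {q : ℕ} {L : IntermediateField ℚ Qb}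
  [IsDiscreteValuationRing (OL A L)] {M N : ℕ} [NeZero q] [NeZero M] [NeZero N] {m : ℕ}
  {π : OL A L} {B : Bez q M} {hq : q.Prime} {hN : N = q * M}

theorem wF_ne_zero (B : Bez q M) (hq : q.Prime) (hN : N = q * M) {K : Type*} [Field K] (ι : K →+* ℂ)
    {x : F0 K N} (hx : x ≠ 0) : B.wF ι hq hN x ≠ 0 :=
  (map_ne_zero_iff _ (B.wF ι hq hN).injective).mpr hx

/-- criterion for local triviality -/
theorem lw_of {ψ : Gamma0 N →* ℂˣ} (hp : IsPar ψ) (hψ : ψ ^ m = 1) {y : LaurentSeries L}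
    (hy : XSer (ιL L) N ψ y) (hy0 : y ≠ 0) {u g : F0 L N} (hg : g ≠ 0)
    (h : (⟨y ^ m, hy.pow_mem_F0 hψ⟩ : F0 L N) = g ^ m * u) (h1 : Sp π m u)
    (h2 : Sp π m (B.wF (ιL L) hq hN u)) : LW B hq hN π m ψ := by
  refine ⟨hp, hψ, y, hy, hy0, ?_, ?_⟩
  · rw [h]
    exact Sp.mul_pow_self hg h1
  · rw [h, map_mul, map_pow]
    exact Sp.mul_pow_self (wF_ne_zero B hq hN (ιL L) hg) h2

end

/-- the quotient of a conjugate of a character by the character -/
theorem lg1 {A : ValuationSubring Qb} {q : ℕ} (hq : q.Prime) (hA : A.LiesOverPrime q) {M N : ℕ}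
    [NeZero M] [NeZero N] (hN : N = q * M) (hqM : ¬ q ∣ M) (hlev : GoodLev q M) {m : ℕ}
    (hm : 0 < m) (hqm : ¬ q ∣ m) {χ : XG N m} (hχ : IsPar χ.1) {σ τ : GQ}
    (hσ : σ ∈ A.inertiaSubgroupIn ℚ) (hτ : τ ∈ A.inertiaSubgroupIn ℚ) :
    galX N hm σ (galX N hm τ χ * χ⁻¹) = galX N hm τ χ * χ⁻¹ := by
  have hq0 : NeZero q := ⟨hq.ne_zero⟩
  have hcop : q.Coprime M := (Nat.Prime.coprime_iff_not_dvd hq).mpr hqM
  obtain ⟨B⟩ := nonempty_bez hcop
  obtain ⟨yQ, hyQ0, hyQ⟩ := exists_xSer hm χ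
  obtain ⟨S, hS⟩ := hyQ.finCoef hm χ.2.1
  obtain ⟨L, h, hL⟩ := Ar.exists_of_finset hq hA S
  have hdvr := h.dvr
  obtain ⟨π, hπ⟩ := IsDiscreteValuationRing.exists_prime (OL A L)
  obtain ⟨y, rfl, hy⟩ := hyQ.descend (L := L) (FinCoef.mem hS hL)
  have hy0 : y ≠ 0 := by
    rintro rfl
    exact hyQ0 (map_zero _)
  have i1 := h.isAlgClosed
  have hmu := h.isUnit_natCast hqm
  have hroot : ∀ ζ : Qb, ζ ^ m = 1 → ζ ∈ KI A := fun ζ hζ => root_mem_KI hq hA hqm hζ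
  have hτ' := Ar.inertia_le hτ
  have e1 : χ.1 ^ m = 1 := χ.2.1
  have hinv := char_inv_eq hm e1
  have hser : XSer (ιL L) N (galX N hm τ χ * χ⁻¹).1
      (ModularCurve.coeffMap (h.res hτ' : L →+* L) y * y ^ (m - 1)) := by
    have h1 := (xSer_res h hm hτ' χ hy).mul (hy.pow (m - 1))
    rw [← hinv] at h1
    exact h1
  have hch : (⟨y ^ m, hy.pow_mem_F0 e1⟩ : F0 L N) ≠ 0 := fun h0 =>
    pow_ne_zero m hy0 (congrArg Subtype.val h0)
  have hLW : LW B hq hN π m (galX N hm τ χ * χ⁻¹).1 := by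
    refine lw_of (u := actF (dL L (h.resO hτ')) N ⟨y ^ m, hy.pow_mem_F0 e1⟩ /
        ⟨y ^ m, hy.pow_mem_F0 e1⟩) (g := ⟨y ^ m, hy.pow_mem_F0 e1⟩)
      ((isPar_galX (hlev.noEll hN) hm τ χ hχ).mul hχ.inv) (galX N hm τ χ * χ⁻¹).2.1 hser ?_
      hch ?_ ?_ ?_
    · refine mul_ne_zero ?_ (pow_ne_zero _ hy0)
      rw [Ne, _root_.map_eq_zero]
      exact hy0
    · apply Subtype.ext
      change (ModularCurve.coeffMap (h.res hτ' : L →+* L) y * y ^ (m - 1)) ^ m = (y ^ m) ^ m *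
        (ModularCurve.coeffMap (dL L (h.resO hτ') : L →+* L) (y ^ m) / y ^ m)
      rw [h.dL_resO, map_pow, mul_pow, ← pow_mul, ← pow_mul]
      have h2 : (m - 1) * m + m = m * m := by
        obtain ⟨k, rfl⟩ : ∃ k, m = k + 1 := ⟨m - 1, by omega⟩
        rw [Nat.add_sub_cancel]
        ring
      rw [← h2, pow_add]
      have := pow_ne_zero m hy0
      field_simp
    · exact inertia_sp hπ hmu (h.dbar_inertia hτ hτ') hch
    · rw [map_div₀, B.wF_actF]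
      exact inertia_sp hπ hmu (h.dbar_inertia hτ hτ') (wF_ne_zero B hq hN (ιL L) hch)
  have h3 := cstar h hqM hlev hm (fun ζ hζ => h.le (hroot ζ hζ)) hπ hLW (σ := σ) (Or.inl hσ)
    (c := 1) (fun ζ hζ => by
      rw [pow_one]
      exact (mem_KI.mp (hroot ζ hζ)) σ hσ)
  rw [pow_one] at h3
  exact h3

end Fermat.Agent.LG
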