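import Mathlib
import Fermat.Agent.LG.LG1

/-!
# Consequences for the Galois action on characters of `Γ₀(qM)`, with eigenvalue conditions at `q`
-/

set_option autoImplicit false
set_option linter.unusedSectionVars false

open Fermat.Agent.ModFun IntermediateField Fermat.Agent.Geo IsLocalRing Fermat.Agent.ESCore
open CongruenceSubgroup (Gamma0 Gamma0_mem)
open scoped MatrixGroups

noncomputable section

namespace Fermat.Agent.LG

/-! ### Good series -/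

/-- A series for `χ` with good reduction at `A`. -/
theorem exists_good_series {N m : ℕ} [NeZero N] (hm : 0 < m) (A : ValuationSubring Qb)
    (χ : XG N m) : ∃ y : LaurentSeries Qb, y ≠ 0 ∧ XSer ιC N χ.1 y ∧
      ∃ a : LaurentSeries A, ModularCurve.coeffMap A.subtype a = y ^ m ∧
        ModularCurve.coeffMap (residue A) a ≠ 0 := by
  obtain ⟨F, hF, hF0, P, hP, R, hR1, hR2⟩ := exists_good_form hm (algForms hm) A χ
  have hFQ : Fermat.Agent.Eis16.HasQ 1 F (P.map ιC) := by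
    have h1 := Gal.hasQ_mform_G (T_mem_Gamma0 N) χ.2.2 hF
    rwa [hP] at h1
  have h1 := xSer_of_mform (ι := ιC) hF hFQ
  set dA : LaurentSeries A := ModularCurve.coeffMap (Int.castRingHom A) dInvSeries with hdA
  have hd1 : ModularCurve.coeffMap A.subtype dA = dInvSer Qb := by
    rw [hdA, coeffMap_coeffMap, dInvSer, RingHom.ext_int (A.subtype.comp (Int.castRingHom A))
      (Int.castRingHom Qb)]
  have hd2 : ModularCurve.coeffMap (residue A) dA = dInvSer (ResidueField A) := by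
    rw [hdA, coeffMap_coeffMap, dInvSer, RingHom.ext_int ((residue A).comp (Int.castRingHom A))
      (Int.castRingHom (ResidueField A))]
  have hd3 : dInvSer (ResidueField A) ≠ 0 := right_ne_zero_of_mul_eq_one dSer_mul_dInvSer
  have hd4 : dInvSer Qb ≠ 0 := right_ne_zero_of_mul_eq_one dSer_mul_dInvSer
  have hP0 : P ≠ 0 := by
    rintro rfl
    apply hR2
    have h2 : R.map A.subtype = (0 : PowerSeries A).map A.subtype := by
      rw [hR1, map_zero, zero_pow hm.ne']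
    have h3 : R = 0 := PowerSeries.map_injective _ Subtype.coe_injective h2
    rw [h3, map_zero]
  refine ⟨_, mul_ne_zero ?_ (pow_ne_zero _ hd4), h1,
    HahnSeries.ofPowerSeries ℤ A R * dA ^ (2 * m), ?_, ?_⟩
  · intro h
    exact hP0 (HahnSeries.ofPowerSeries_injective (h.trans (map_zero _).symm))
  · rw [map_mul, map_pow, hd1, coeffMap_ofPowerSeries', hR1, mul_pow, ← pow_mul, map_pow]
  · rw [map_mul, map_pow, hd2, coeffMap_ofPowerSeries']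
    refine mul_ne_zero ?_ (pow_ne_zero _ hd3)
    intro h
    exact hR2 (HahnSeries.ofPowerSeries_injective (h.trans (map_zero _).symm))

/-- descent of good reduction -/
theorem good_descend {A : ValuationSubring Qb} {L : IntermediateField ℚ Qb}
    [IsDiscreteValuationRing (OL A L)] {x : LaurentSeries L} {a : LaurentSeries A}
    (h : ModularCurve.coeffMap A.subtype a = ModularCurve.coeffMap (algebraMap L Qb) x)
    (ha : ModularCurve.coeffMap (residue A) a ≠ 0) :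
    ∃ hx : x ∈ gV (OL A L) L, gR (⟨x, hx⟩ : gV (OL A L) L) ≠ 0 := by
  have h1 : ∀ n, ((a.coeff n : A) : Qb) = ((x.coeff n : L) : Qb) := fun n =>
    congrArg (fun z : LaurentSeries Qb => z.coeff n) h
  have hmem : ∀ n, x.coeff n ∈ OL A L := by
    intro n
    change ((x.coeff n : L) : Qb) ∈ A
    rw [← h1]
    exact (a.coeff n).2
  let b : LaurentSeries (OL A L) := ⟨fun n => ⟨x.coeff n, hmem n⟩, x.isPWO_support.mono
    fun n hn => by
      rw [HahnSeries.mem_support]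
      intro h0
      apply hn
      exact Subtype.ext h0⟩
  have hb : toL (OL A L) L b = x := by
    ext n
    rfl
  have hbk : toK (OL A L) b ≠ 0 := by
    intro h0
    apply ha
    ext n
    have h2 : residue (OL A L) (b.coeff n) = 0 :=
      congrArg (fun z : LaurentSeries (ResidueField (OL A L)) => z.coeff n) h0
    change residue A (a.coeff n) = 0
    rw [residue_eq_zero_iff, mem_maximalIdeal, mem_nonunits_iff]
    rw [residue_eq_zero_iff, mem_maximalIdeal, mem_nonunits_iff] at h2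
    intro hu
    apply h2
    obtain ⟨w, hw⟩ := hu.exists_right_inv
    have h3 : ((a.coeff n : A) : Qb) * (w : Qb) = 1 := congrArg (fun z : A => (z : Qb)) hw
    rw [h1] at h3
    have h4 : ((x.coeff n : L) : Qb) ≠ 0 := left_ne_zero_of_mul_eq_one h3
    have h5 : ((x.coeff n : L)) ≠ 0 := fun h6 => h4 (by rw [h6]; rfl)
    have h6 : (((x.coeff n)⁻¹ : L) : Qb) = w := (eq_inv_of_mul_eq_one_right h3).symm
    have h7 : (x.coeff n)⁻¹ ∈ OL A L := by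
      change (((x.coeff n)⁻¹ : L) : Qb) ∈ A
      rw [h6]
      exact w.2
    exact IsUnit.of_mul_eq_one ⟨(x.coeff n)⁻¹, h7⟩ (Subtype.ext (mul_inv_cancel₀ h5))
  obtain ⟨b', hb', hbk'⟩ : ∃ b', toL (OL A L) L b' = x ∧ toK (OL A L) b' ≠ 0 := ⟨b, hb, hbk⟩
  clear_value b
  clear hb hbk
  subst hb'
  refine ⟨toL_mem_gV b', ?_⟩
  rw [gR_toL]
  exact hbk'

section Rel

variable {K : Type*} [Field K] {ι : K →+* ℂ} {N : ℕ} [NeZero N] {m : ℕ}

theorem char_mul_inv_cancel {χ : Gamma0 N →* ℂˣ} : χ⁻¹ * χ = 1 := by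
  ext g
  simp

/-- series whose characters are related by a sign -/
theorem rel_pow (hm : 0 < m) {χ ψ : Gamma0 N →* ℂˣ} (hχ : χ ^ m = 1) (hψ : ψ ^ m = 1)
    {y z : LaurentSeries K} (hy : XSer ι N χ y) (hy0 : y ≠ 0) (hz : XSer ι N ψ z) (hz0 : z ≠ 0)
    {ε : ℤ} (hε : (ε = 1 ∧ ψ = χ) ∨ (ε = -1 ∧ ψ = χ⁻¹)) :
    ∃ f : F0 K N, f ≠ 0 ∧ (⟨z ^ m, hz.pow_mem_F0 hψ⟩ : F0 K N) =
      f ^ m * (⟨y ^ m, hy.pow_mem_F0 hχ⟩ : F0 K N) ^ ε := by
  rcases hε with ⟨hh1, hh⟩ | ⟨hh1, hh⟩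
  · have h1 := XSer.div_mem hm hχ hy hy0 (hh ▸ hz)
    refine ⟨⟨_, h1⟩, fun h => div_ne_zero hz0 hy0 (congrArg Subtype.val h), ?_⟩
    rw [hh1, zpow_one]
    apply Subtype.ext
    change z ^ m = (z / y) ^ m * y ^ m
    rw [← mul_pow, div_mul_cancel₀ _ hy0]
  · have h1 := hz.mul hy
    rw [hh, char_mul_inv_cancel] at h1
    refine ⟨⟨_, h1.mem_F0⟩, fun h => mul_ne_zero hz0 hy0 (congrArg Subtype.val h), ?_⟩
    rw [hh1, zpow_neg_one]
    apply Subtype.ext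
    change z ^ m = (z * y) ^ m * (y ^ m)⁻¹
    have := pow_ne_zero m hy0
    rw [mul_pow]
    field_simp

end Rel

/-- roots of unity are in valuation rings -/
theorem root_mem_val (A : ValuationSubring Qb) {n : ℕ} (hn : 0 < n) {ζ : Qb} (hζ : ζ ^ n = 1) :
    ζ ∈ A := by
  have h0 : ζ ≠ 0 := by
    rintro rfl
    rw [zero_pow hn.ne'] at hζ
    exact zero_ne_one hζ
  rcases A.mem_or_inv_mem ζ with h | h
  · exact h
  · have h1 : ζ = (ζ⁻¹) ^ (n - 1) := by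
      obtain ⟨k, rfl⟩ : ∃ k, n = k + 1 := ⟨n - 1, by omega⟩
      rw [Nat.add_sub_cancel, inv_pow]
      rw [pow_succ] at hζ
      exact eq_inv_of_mul_eq_one_right hζ
    rw [h1]
    exact pow_mem h _

/-- The local data used below. -/
theorem exists_local_data {A : ValuationSubring Qb} {q : ℕ} (hq : q.Prime)
    (hA : A.LiesOverPrime q) {M N : ℕ} [NeZero q] [NeZero M] [NeZero N] (B : Bez q M)
    (hN : N = q * M) {m : ℕ} (hm : 0 < m) {χ : XG N m} (hχ : IsPar χ.1) {ε : ℤ}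
    (hε : ε = 1 ∨ ε = -1) (hqN : q ∣ N)
    (hU : heckeXU hq.ne_zero hqN m χ = χ ^ ε) (hW : B.wChar dvd_rfl hN χ.1 = (χ ^ (-ε)).1) :
    ∃ L : IntermediateField ℚ Qb, Ar A q L ∧ (∀ ζ : Qb, ζ ^ m = 1 → ζ ∈ L) ∧
      ∃ ζ : (OL A L)ˣ, IsPrimitiveRoot ζ q ∧
        ∃ (_ : IsDiscreteValuationRing (OL A L)) (y : LaurentSeries L)
          (hy : XSer (ιL L) N χ.1 y) (_ : y ≠ 0)
          (hx : y ^ m ∈ gV (OL A L) L), gR (⟨y ^ m, hx⟩ : gV (OL A L) L) ≠ 0 ∧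
        ∃ f f' : F0 L N, f ≠ 0 ∧ f' ≠ 0 ∧
          (∀ hζ : IsPrimitiveRoot (zL L ζ) q,
            uF (ιL L) hqN hζ ⟨y ^ m, hy.pow_mem_F0 χ.2.1⟩ =
              f ^ m * (⟨y ^ m, hy.pow_mem_F0 χ.2.1⟩ : F0 L N) ^ ε) ∧
          B.wF (ιL L) hq hN ⟨y ^ m, hy.pow_mem_F0 χ.2.1⟩ =
              f' ^ m * (⟨y ^ m, hy.pow_mem_F0 χ.2.1⟩ : F0 L N) ^ (-ε) := by
  classical
  have hm0 : NeZero m := ⟨hm.ne'⟩
  obtain ⟨yQ, hyQ0, hyQ, a, ha1, ha2⟩ := exists_good_series hm A χ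
  obtain ⟨zQ, hzQ, hzm⟩ := B.exists_wSer hq hN hχ hm χ.2.1 hyQ
  have hwm : (B.wChar dvd_rfl hN χ.1) ^ m = 1 := by
    rw [hW]
    exact (χ ^ (-ε)).2.1
  obtain ⟨S₁, hS₁⟩ := hyQ.finCoef hm χ.2.1
  obtain ⟨S₂, hS₂⟩ := hzQ.finCoef hm hwm
  obtain ⟨ζ₀, hζ₀⟩ : ∃ ζ₀ : Qb, IsPrimitiveRoot ζ₀ m := by
    have : NeZero (m : Qb) := ⟨by exact_mod_cast hm.ne'⟩
    exact HasEnoughRootsOfUnity.exists_primitiveRoot Qb m
  obtain ⟨ζ₁, hζ₁⟩ : ∃ ζ₁ : Qb, IsPrimitiveRoot ζ₁ q := by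
    have : NeZero (q : Qb) := ⟨by exact_mod_cast hq.ne_zero⟩
    exact HasEnoughRootsOfUnity.exists_primitiveRoot Qb q
  obtain ⟨L, h, hL⟩ := Ar.exists_of_finset hq hA (S₁ ∪ S₂ ∪ {ζ₀, ζ₁})
  have hdvr := h.dvr
  have hL1 : ∀ x ∈ S₁, x ∈ L := fun x hx => hL x (by simp [hx])
  have hL2 : ∀ x ∈ S₂, x ∈ L := fun x hx => hL x (by simp [hx])
  have hζ₀L : ζ₀ ∈ L := hL _ (by simp)
  have hζ₁L : ζ₁ ∈ L := hL _ (by simp)
  have hζ₁0 : ζ₁ ≠ 0 := hζ₁.ne_zero hq.ne_zero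
  obtain ⟨y, hyy, hy⟩ := hyQ.descend (L := L) (FinCoef.mem hS₁ hL1)
  obtain ⟨z, hzz, hz⟩ := hzQ.descend (L := L) (FinCoef.mem hS₂ hL2)
  have hy0 : y ≠ 0 := by
    rintro rfl
    exact hyQ0 (hyy.symm.trans (map_zero _))
  -- the root of unity
  have hζO : (⟨ζ₁, hζ₁L⟩ : L) ∈ OL A L := root_mem_val A hq.pos hζ₁.pow_eq_one
  have hζO' : (⟨ζ₁, hζ₁L⟩ : L)⁻¹ ∈ OL A L := by
    have h1 : ((⟨ζ₁, hζ₁L⟩ : L)⁻¹ : L) = (⟨ζ₁, hζ₁L⟩ : L) ^ (q - 1) := by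
      apply Subtype.ext
      change ζ₁⁻¹ = ζ₁ ^ (q - 1)
      apply inv_eq_of_mul_eq_one_right
      rw [← pow_succ', Nat.sub_add_cancel hq.one_lt.le, hζ₁.pow_eq_one]
    rw [h1]
    exact pow_mem hζO _
  have hζL0 : (⟨ζ₁, hζ₁L⟩ : L) ≠ 0 := fun h0 => hζ₁0 (congrArg Subtype.val h0)
  let ζ : (OL A L)ˣ := ⟨⟨_, hζO⟩, ⟨_, hζO'⟩, Subtype.ext (mul_inv_cancel₀ hζL0),
    Subtype.ext (inv_mul_cancel₀ hζL0)⟩
  have hζ : IsPrimitiveRoot ζ q := by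
    rw [← IsPrimitiveRoot.coe_units_iff]
    exact IsPrimitiveRoot.of_map_of_injective
      (f := ((algebraMap L Qb).comp (OL A L).subtype)) hζ₁
      ((algebraMap L Qb).injective.comp Subtype.coe_injective)
  obtain ⟨hx, hgx⟩ := good_descend (L := L) (x := y ^ m) (a := a) (by
    rw [ha1, map_pow, hyy]) ha2
  have hch : (⟨y ^ m, hy.pow_mem_F0 χ.2.1⟩ : F0 L N) ≠ 0 := fun h0 =>
    pow_ne_zero m hy0 (congrArg Subtype.val h0)
  -- the operator `w`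
  have hwrel : B.wF (ιL L) hq hN ⟨y ^ m, hy.pow_mem_F0 χ.2.1⟩ = ⟨z ^ m, hz.pow_mem_F0 hwm⟩ := by
    apply Subtype.ext
    apply RingHom.injective (ModularCurve.coeffMap (algebraMap L Qb))
    have h1 := B.wF_coeffMap hq hN (ιL L) ιC (algebraMap L Qb)
      (h := ⟨y ^ m, hy.pow_mem_F0 χ.2.1⟩) (h' := ⟨yQ ^ m, hyQ.pow_mem_F0 χ.2.1⟩) (by
        change ModularCurve.coeffMap (algebraMap L Qb) (y ^ m) = yQ ^ m
        rw [map_pow, hyy])
    rw [h1, ← hzm, ← hzz, ← map_pow]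
  have hz0 : z ≠ 0 := by
    rintro rfl
    have h2 := wF_ne_zero B hq hN (ιL L) hch
    rw [hwrel] at h2
    exact h2 (Subtype.ext (zero_pow hm.ne'))
  obtain ⟨f', hf', hf'2⟩ := rel_pow hm χ.2.1 hwm hy hy0 hz hz0 (ε := -ε) (by
    rw [hW]
    rcases hε with rfl | rfl
    · right
      exact ⟨rfl, by rw [zpow_neg_one]; rfl⟩
    · left
      exact ⟨rfl, by rw [neg_neg, zpow_one]⟩)
  -- the operator `U`
  have hzprim := zL_prim (L := L) hζ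
  have hu := hy.uN hq.ne_zero hqN hzprim
  have hU' : heckeCharU hq.ne_zero hqN χ.1 = (χ ^ ε).1 := congrArg Subtype.val hU
  have hum : (heckeCharU hq.ne_zero hqN χ.1) ^ m = 1 := by
    rw [hU']
    exact (χ ^ ε).2.1
  have hu0 : uN q (zL L ζ) y ≠ 0 := by
    intro h0
    have h4 : uN q (zL L ζ) (y * y⁻¹) = 0 := by rw [uN_mul hzprim, h0, zero_mul]
    rw [mul_inv_cancel₀ hy0, uN_one hzprim] at h4
    exact one_ne_zero h4
  obtain ⟨f, hf, hf2⟩ := rel_pow hm χ.2.1 hum hy hy0 hu hu0 (ε := ε) (by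
    rw [hU']
    rcases hε with rfl | rfl
    · left
      exact ⟨rfl, by rw [zpow_one]⟩
    · right
      exact ⟨rfl, by rw [zpow_neg_one]; rfl⟩)
  refine ⟨L, h, fun ξ hξ => ?_, ζ, hζ, hdvr, y, hy, hy0, hx, hgx, f, f', hf, hf', fun _ => ?_,
    hwrel.trans hf'2⟩
  · obtain ⟨i, -, rfl⟩ := hζ₀.eq_pow_of_pow_eq_one hξ
    exact pow_mem hζ₀L _
  · rw [← hf2]
    exact Subtype.ext (uN_pow hzprim y m)

section Alg

variable {K : Type*} [Field K] {m : ℕ} {ε : ℤ}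

theorem alg2a {f h sh uh : K} (hf : f ≠ 0) (hh : h ≠ 0) (hu : uh = f ^ m * h ^ ε) :
    sh * h ^ (-ε) = f ^ m * (sh / uh) := by
  rw [hu, zpow_neg]
  have := pow_ne_zero m hf
  have := zpow_ne_zero ε hh
  field_simp

theorem alg2b (s w : K ≃+* K) {f h : K} (hws : ∀ x, w (s x) = s (w x))
    (hw : w h = f ^ m * h ^ (-ε)) :
    w (s h * h ^ (-ε)) = (s f * f ^ (-ε)) ^ m * (s h * h ^ (-ε)) ^ (-ε) := by
  rw [map_mul, map_zpow₀, hws, hw, map_mul, map_pow, map_zpow₀, mul_zpow, mul_zpow,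
    mul_pow, ← zpow_mul h, ← zpow_natCast (f ^ (-ε)), ← zpow_mul f,
    ← zpow_natCast f m, ← zpow_mul f, mul_comm (m : ℤ) (-ε)]
  ring

theorem alg3a (hεε : ε * ε = 1) (s : K ≃+* K) (U : K →*₀ K) {f h : K} (hf : f ≠ 0) (hh : h ≠ 0)
    (hU : U h = f ^ m * h ^ ε) (hUs : U (s h) = s (U h)) :
    s h / h = ((f / s f) ^ ε) ^ m * (U (s h / h)) ^ ε := by
  have hsf : s f ≠ 0 := (map_ne_zero_iff _ s.injective).mpr hf
  have e1 : U (s h / h) = (s f / f) ^ m * (s h / h) ^ ε := by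
    rw [map_div₀, hUs, hU, map_mul, map_pow, map_zpow₀, div_pow, div_zpow]
    have := pow_ne_zero m hf
    have := zpow_ne_zero ε hh
    field_simp
  have e2 : ((f / s f) ^ ε) ^ m = ((s f / f) ^ m) ^ (-ε) := by
    rw [← zpow_natCast, ← zpow_natCast, ← zpow_mul, ← zpow_mul, ← inv_div (s f) f, inv_zpow',
      mul_comm (m : ℤ) (-ε), neg_mul]
  rw [e1, mul_zpow ((s f / f) ^ m), ← zpow_mul (s h / h), hεε, zpow_one, ← mul_assoc, e2,
    ← zpow_add₀ (pow_ne_zero m (div_ne_zero hsf hf)), neg_add_cancel, zpow_zero, one_mul]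

theorem alg3b (s w : K ≃+* K) {f h : K} (hf : f ≠ 0) (hh : h ≠ 0)
    (hws : ∀ x, w (s x) = s (w x)) (hw : w h = f ^ m * h ^ (-ε)) :
    w (s h / h) = (s f / f) ^ m * (s h / h) ^ (-ε) := by
  rw [map_div₀, hws, hw, map_mul, map_pow, map_zpow₀, div_pow, div_zpow]
  have := pow_ne_zero m hf
  have := zpow_ne_zero (-ε) hh
  field_simp

theorem alg4 (hm : 0 < m) {y z : K} (hy : y ≠ 0) :
    (z * y ^ (m - 1)) ^ m = (y ^ m) ^ m * (z ^ m / y ^ m) := by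
  rw [mul_pow, ← pow_mul, ← pow_mul]
  have h2 : (m - 1) * m + m = m * m := by
    obtain ⟨k, rfl⟩ : ∃ k, m = k + 1 := ⟨m - 1, by omega⟩
    rw [Nat.add_sub_cancel]
    ring
  rw [← h2, pow_add]
  have := pow_ne_zero m hy
  field_simp

end Alg

section Fin

variable {A : ValuationSubring Qb} {q : ℕ} {L : IntermediateField ℚ Qb}
  [IsDiscreteValuationRing (OL A L)] {M N : ℕ} [NeZero q] [NeZero M] [NeZero N] {m : ℕ}
  {π : OL A L} {B : Bez q M} {hq : q.Prime} {hN : N = q * M}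

/-- local triviality of the quotient of a conjugate by the character -/
theorem lw_quot (h : Ar A q L) (hlev : GoodLev q M) (hm : 0 < m) {χ : XG N m} (hχ : IsPar χ.1)
    {τ : GQ} (hτ' : τ ∈ A.decompositionSubgroup ℚ) {y : LaurentSeries L}
    (hy : XSer (ιL L) N χ.1 y) (hy0 : y ≠ 0)
    (h1 : Sp π m (actF (dL L (h.resO hτ')) N ⟨y ^ m, hy.pow_mem_F0 χ.2.1⟩ /
      ⟨y ^ m, hy.pow_mem_F0 χ.2.1⟩))
    (h2 : Sp π m (B.wF (ιL L) hq hN (actF (dL L (h.resO hτ')) N ⟨y ^ m, hy.pow_mem_F0 χ.2.1⟩ /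
      ⟨y ^ m, hy.pow_mem_F0 χ.2.1⟩))) : LW B hq hN π m (galX N hm τ χ * χ⁻¹).1 := by
  have hinv := char_inv_eq hm χ.2.1
  have hser : XSer (ιL L) N (galX N hm τ χ * χ⁻¹).1
      (ModularCurve.coeffMap (h.res hτ' : L →+* L) y * y ^ (m - 1)) := by
    have h1 := (xSer_res h hm hτ' χ hy).mul (hy.pow (m - 1))
    rw [← hinv] at h1
    exact h1
  have hch : (⟨y ^ m, hy.pow_mem_F0 χ.2.1⟩ : F0 L N) ≠ 0 := fun h0 =>
    pow_ne_zero m hy0 (congrArg Subtype.val h0)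
  refine lw_of ((isPar_galX (hlev.noEll hN) hm τ χ hχ).mul hχ.inv) (galX N hm τ χ * χ⁻¹).2.1
    hser ?_ hch ?_ h1 h2
  · refine mul_ne_zero ?_ (pow_ne_zero _ hy0)
    rw [Ne, _root_.map_eq_zero]
    exact hy0
  · apply Subtype.ext
    change (ModularCurve.coeffMap (h.res hτ' : L →+* L) y * y ^ (m - 1)) ^ m = (y ^ m) ^ m *
      (ModularCurve.coeffMap (dL L (h.resO hτ') : L →+* L) (y ^ m) / y ^ m)
    rw [h.dL_resO, map_pow, alg4 hm hy0]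

/-- local triviality of the product of a conjugate by the character -/
theorem lw_prod (h : Ar A q L) (hlev : GoodLev q M) (hm : 0 < m) {χ : XG N m} (hχ : IsPar χ.1)
    {τ : GQ} (hτ' : τ ∈ A.decompositionSubgroup ℚ) {y : LaurentSeries L}
    (hy : XSer (ιL L) N χ.1 y) (hy0 : y ≠ 0)
    (h1 : Sp π m (actF (dL L (h.resO hτ')) N ⟨y ^ m, hy.pow_mem_F0 χ.2.1⟩ *
      ⟨y ^ m, hy.pow_mem_F0 χ.2.1⟩))
    (h2 : Sp π m (B.wF (ιL L) hq hN (actF (dL L (h.resO hτ')) N ⟨y ^ m, hy.pow_mem_F0 χ.2.1⟩ *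
      ⟨y ^ m, hy.pow_mem_F0 χ.2.1⟩))) : LW B hq hN π m (galX N hm τ χ * χ).1 := by
  have hser : XSer (ιL L) N (galX N hm τ χ * χ).1
      (ModularCurve.coeffMap (h.res hτ' : L →+* L) y * y) := (xSer_res h hm hτ' χ hy).mul hy
  refine lw_of (g := 1) ((isPar_galX (hlev.noEll hN) hm τ χ hχ).mul hχ)
    (galX N hm τ χ * χ).2.1 hser (mul_ne_zero ?_ hy0) one_ne_zero ?_ h1 h2
  · rw [Ne, _root_.map_eq_zero]
    exact hy0
  · rw [one_pow, one_mul]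
    apply Subtype.ext
    change (ModularCurve.coeffMap (h.res hτ' : L →+* L) y * y) ^ m =
      ModularCurve.coeffMap (dL L (h.resO hτ') : L →+* L) (y ^ m) * y ^ m
    rw [h.dL_resO, map_pow, mul_pow]

end Fin

/-- **(LG2)** the action of Frobenius. -/
theorem lg2 {A : ValuationSubring Qb} {q : ℕ} (hq : q.Prime) (hA : A.LiesOverPrime q) {M N : ℕ}
    [NeZero q] [NeZero M] [NeZero N] (B : Bez q M) (hN : N = q * M) (hqM : ¬ q ∣ M)
    (hlev : GoodLev q M) {m : ℕ} (hm : 0 < m) (hqm : ¬ q ∣ m) {χ : XG N m} (hχ : IsPar χ.1)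
    {ε : ℤ} (hε : ε = 1 ∨ ε = -1) (hqN : q ∣ N) (hU : heckeXU hq.ne_zero hqN m χ = χ ^ ε)
    (hW : B.wChar dvd_rfl hN χ.1 = (χ ^ (-ε)).1) {φ : GQ} (hφ : A.IsFrobeniusAt φ q) :
    galX N hm (φ * φ) (galX N hm φ χ * χ ^ (-ε)) = (galX N hm φ χ * χ ^ (-ε)) ^ (q ^ 2) := by
  obtain ⟨L, h, hμ, ζ, hζ, hdvr, y, hy, hy0, hx, hgx, f, f', hf, hf', hUf, hWf⟩ :=
    exists_local_data hq hA B hN hm hχ hε hqN hU hW
  obtain ⟨π, hπ⟩ := IsDiscreteValuationRing.exists_prime (OL A L)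
  have hεε : ε * ε = 1 := by rcases hε with rfl | rfl <;> norm_num
  have i2 := h.expChar_residue
  have hmu := h.isUnit_natCast hqm
  have hφ' := hφ.mem_decompositionSubgroup
  obtain ⟨hc, hhc⟩ : ∃ hc : F0 L N, hc = ⟨y ^ m, hy.pow_mem_F0 χ.2.1⟩ := ⟨_, rfl⟩
  have hch : hc ≠ 0 := fun h0 => pow_ne_zero m hy0 (congrArg Subtype.val (hhc.symm.trans h0))
  obtain ⟨σF, hσF⟩ : ∃ σF, σF = actF (dL L (h.resO hφ')) N := ⟨_, rfl⟩
  obtain ⟨wf, hwf⟩ : ∃ wf, wf = B.wF (ιL L) hq hN := ⟨_, rfl⟩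
  have hUf' := hUf (zL_prim hζ)
  have h1 : Sp π m (σF hc * hc ^ (-ε)) := by
    have h2 := frob_sp (ι := ιL L) (π := π) hq h.natCast_residue hqN hζ hπ hmu (h.dbar_frob hφ)
      (u := ⟨y ^ m, hy.pow_mem_F0 χ.2.1⟩) hx hgx
    rw [← hhc, ← hσF] at h2
    rw [← hhc] at hUf'
    rw [alg2a hf hch hUf']
    exact Sp.mul_pow_self hf h2
  have hws : ∀ x, wf (σF x) = σF (wf x) := by
    intro x
    rw [hwf, hσF]
    exact B.wF_actF hq hN _ x
  rw [← hwf, ← hhc] at hWf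
  have h2 : Sp π m (wf (σF hc * hc ^ (-ε))) := by
    rw [alg2b σF wf hws hWf]
    refine Sp.mul_pow_self (mul_ne_zero ?_ (zpow_ne_zero _ hf')) (h1.zpow hπ _)
    exact (map_ne_zero_iff _ σF.injective).mpr hf'
  have hLW : LW B hq hN π m (galX N hm φ χ * χ ^ (-ε)).1 := by
    rw [hwf, hσF, hhc] at h2
    rw [hσF, hhc] at h1
    rcases hε with rfl | rfl
    · rw [zpow_neg_one]
      rw [zpow_neg_one, ← div_eq_mul_inv] at h1 h2
      exact lw_quot h hlev hm hχ hφ' hy hy0 h1 h2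
    · rw [neg_neg, zpow_one]
      rw [neg_neg, zpow_one] at h1 h2
      exact lw_prod h hlev hm hχ hφ' hy hy0 h1 h2
  refine cstar h hqM hlev hm hμ hπ hLW (Or.inr ⟨φ, hφ, rfl⟩) (c := q ^ 2) fun ξ hξ => ?_
  rw [AlgEquiv.mul_apply, frob_root hA hq hφ hqm hξ, map_pow, frob_root hA hq hφ hqm hξ,
    ← pow_mul, sq]

/-- contraction for the quotient of a conjugate -/
theorem contract_quot {O L : Type} [CommRing O] [IsDomain O] [IsDiscreteValuationRing O] [Field L]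
    [Algebra O L] [IsFractionRing O L] {N : ℕ} [NeZero N] {π : O} {q : ℕ} [NeZero q]
    [ExpChar (ResidueField O) q] (ι : L →+* ℂ) (hq : q.Prime) (hq0 : (q : ResidueField O) = 0)
    (hqN : q ∣ N) {ζ : Oˣ} (hζ : IsPrimitiveRoot ζ q) (hπ : Prime π) {m : ℕ} {ε : ℤ}
    (hεε : ε * ε = 1) {h f : F0 L N} (hf : f ≠ 0) (hx : (h : LaurentSeries L) ∈ gV O L)
    (hgx : gR (⟨_, hx⟩ : gV O L) ≠ 0) {d : O ≃+* O} (hd : ∀ a, dbar d a = a)
    (hU : uF ι hqN (zL_prim (L := L) hζ) h = f ^ m * h ^ ε) :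
    Sp π m (actF (dL L d) N h / h) := by
  have hch : h ≠ 0 := by
    rintro rfl
    apply hgx
    have : (⟨_, hx⟩ : gV O L) = 0 := Subtype.ext rfl
    rw [this, map_zero]
  obtain ⟨σF, hσF⟩ : ∃ σF, σF = actF (dL L d) N := ⟨_, rfl⟩
  obtain ⟨Φ, hΦ⟩ : ∃ Φ, Φ = uF ι hqN (zL_prim (L := L) hζ) := ⟨_, rfl⟩
  obtain ⟨hgσ, hgσ'⟩ := gR_actF hd (u := h) hx
  obtain ⟨v, hv, hv1⟩ := div_eq_one_add hπ hgσ hx hgx hgσ'
  have hΦσ : Φ (σF h) = σF (Φ h) := by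
    rw [hΦ, hσF]
    exact uF_actF hqN _ _ _
  rw [← hσF] at hv1 ⊢
  rw [← hΦ] at hU
  have hσf : σF f ≠ 0 := (map_ne_zero_iff _ σF.injective).mpr hf
  have e1 := alg3a hεε σF Φ hf hch hU hΦσ
  rw [hv1] at e1 ⊢
  rw [hΦ] at e1
  exact contract_sp (ι := ι) (L := L) hq hq0 hqN hζ hπ (m := m) hv
    (f := (f / σF f) ^ ε) (zpow_ne_zero _ (div_ne_zero hf hσf)) (ε := ε) e1

/-- **(LG3)** the action of inertia. -/
theorem lg3 {A : ValuationSubring Qb} {q : ℕ} (hq : q.Prime) (hA : A.LiesOverPrime q) {M N : ℕ}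
    [NeZero q] [NeZero M] [NeZero N] (B : Bez q M) (hN : N = q * M) (hqM : ¬ q ∣ M)
    (hlev : GoodLev q M) {m : ℕ} (hm : 0 < m) {χ : XG N m} (hχ : IsPar χ.1)
    {ε : ℤ} (hε : ε = 1 ∨ ε = -1) (hqN : q ∣ N) (hU : heckeXU hq.ne_zero hqN m χ = χ ^ ε)
    (hW : B.wChar dvd_rfl hN χ.1 = (χ ^ (-ε)).1) {σ τ : GQ} (hσ : σ ∈ A.inertiaSubgroupIn ℚ)
    (hτ : τ ∈ A.inertiaSubgroupIn ℚ) {c : ℕ} (hc : ∀ ζ : Qb, ζ ^ m = 1 → σ ζ = ζ ^ c) :
    galX N hm σ (galX N hm τ χ * χ⁻¹) = (galX N hm τ χ * χ⁻¹) ^ c := by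
  obtain ⟨L, h, hμ, ζ, hζ, hdvr, y, hy, hy0, hx, hgx, f, f', hf, hf', hUf, hWf⟩ :=
    exists_local_data hq hA B hN hm hχ hε hqN hU hW
  obtain ⟨π, hπ⟩ := IsDiscreteValuationRing.exists_prime (OL A L)
  have hεε : ε * ε = 1 := by rcases hε with rfl | rfl <;> norm_num
  have i2 := h.expChar_residue
  have hτ' := Ar.inertia_le hτ
  obtain ⟨hc', hhc⟩ : ∃ hc' : F0 L N, hc' = ⟨y ^ m, hy.pow_mem_F0 χ.2.1⟩ := ⟨_, rfl⟩
  have hch : hc' ≠ 0 := fun h0 => pow_ne_zero m hy0 (congrArg Subtype.val (hhc.symm.trans h0))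
  obtain ⟨σF, hσF⟩ : ∃ σF, σF = actF (dL L (h.resO hτ')) N := ⟨_, rfl⟩
  obtain ⟨wf, hwf⟩ : ∃ wf, wf = B.wF (ιL L) hq hN := ⟨_, rfl⟩
  have hUf' := hUf (zL_prim hζ)
  have h1 : Sp π m (σF hc' / hc') := by
    have h2 := contract_quot (ιL L) hq h.natCast_residue hqN hζ hπ hεε
      (h := ⟨y ^ m, hy.pow_mem_F0 χ.2.1⟩) hf hx hgx (h.dbar_inertia hτ hτ') hUf'
    rw [← hhc, ← hσF] at h2
    exact h2
  rw [← hwf, ← hhc] at hWf
  have hσf' : σF f' ≠ 0 := (map_ne_zero_iff _ σF.injective).mpr hf'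
  have hws : ∀ x, wf (σF x) = σF (wf x) := by
    intro x
    rw [hwf, hσF]
    exact B.wF_actF hq hN _ x
  have h2 : Sp π m (wf (σF hc' / hc')) := by
    rw [alg3b σF wf hf' hch hws hWf]
    exact Sp.mul_pow_self (div_ne_zero hσf' hf') (h1.zpow hπ _)
  rw [hwf, hσF, hhc] at h2
  rw [hσF, hhc] at h1
  exact cstar h hqM hlev hm hμ hπ (lw_quot h hlev hm hχ hτ' hy hy0 h1 h2) (Or.inl hσ) hc

end Fermat.Agent.LG
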