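import Mathlib
import Fermat.Agent.LG.LG2
import Fermat.Agent.Geo.UnrRel

/-!
Enlarging the field of coefficients.
-/

set_option autoImplicit false
set_option linter.unusedSectionVars false

open Fermat.Agent.ModFun IntermediateField Fermat.Agent.Geo IsLocalRing Fermat.Agent.ESCore
open CongruenceSubgroup (Gamma0 Gamma0_mem)
open ModularCurve (coeffMap)
open scoped MatrixGroups

noncomputable section

namespace Fermat.Agent.LG

section Field

variable {A : ValuationSubring Qb} {q : ℕ} {L : IntermediateField ℚ Qb}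

/-- Arbitrarily large extensions of `L` in the arithmetic setting. -/
theorem Ar.exists_ge (h : Ar A q L) (S : Finset Qb) :
    ∃ L₁ : IntermediateField ℚ Qb, L ≤ L₁ ∧ Ar A q L₁ ∧ ∀ x ∈ S, x ∈ L₁ := by
  obtain ⟨T, hST, hT⟩ := exists_stable S
  let M : IntermediateField L Qb := IntermediateField.adjoin L (T : Set Qb)
  have hM : FiniteDimensional L M :=
    IntermediateField.finiteDimensional_adjoin fun x _ => Algebra.IsIntegral.isIntegral x
  have hres : M.restrictScalars ℚ = IntermediateField.adjoin ℚ ((L : Set Qb) ∪ T) :=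
    IntermediateField.restrictScalars_adjoin (F := ℚ) L (T : Set Qb)
  have hdvr := h.dvr
  have hle : L ≤ M.restrictScalars ℚ := by
    rw [hres]
    intro x hx
    exact IntermediateField.subset_adjoin ℚ _ (Or.inl hx)
  refine ⟨M.restrictScalars ℚ, hle, ⟨h.hq, h.hA, h.le.trans hle, ?_, ?_⟩, ?_⟩
  · intro σ hσ x hx
    have h1 : (M.restrictScalars ℚ).map (σ : Qb →ₐ[ℚ] Qb) ≤ M.restrictScalars ℚ := by
      rw [hres, IntermediateField.adjoin_map, IntermediateField.adjoin_le_iff]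
      rintro _ ⟨y, hy, rfl⟩
      apply IntermediateField.subset_adjoin ℚ
      rcases hy with hy | hy
      · exact Or.inl (h.dec σ hσ y hy)
      · exact Or.inr (hT σ y hy)
    exact h1 ⟨x, hx, rfl⟩
  · obtain ⟨ϖ, hϖ⟩ := IsDiscreteValuationRing.exists_irreducible (OL A L)
    have hov : Over (OL A L) (ϖ : L) (A.comap (algebraMap M Qb)) := by
      refine ⟨fun x hx => hx, ?_⟩
      rw [comap_mem_nonunits]
      have h1 : (ϖ : L) ∈ (OL A L).nonunits := by
        rw [ValuationSubring.coe_mem_nonunits_iff, mem_maximalIdeal, mem_nonunits_iff]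
        exact hϖ.not_isUnit
      exact (comap_mem_nonunits A (algebraMap L Qb) (ϖ : L)).mp h1
    exact isDVR_of_over (F := M) hϖ hov
  · intro x hx
    rw [hres]
    exact IntermediateField.subset_adjoin ℚ _ (Or.inr (hST hx))

end Field

section Gen

universe u

variable {O L O₁ L₁ : Type u} [CommRing O] [IsDomain O] [IsDiscreteValuationRing O] [Field L]
  [Algebra O L] [IsFractionRing O L] [CommRing O₁] [IsDomain O₁] [IsDiscreteValuationRing O₁]
  [Field L₁] [Algebra O₁ L₁] [IsFractionRing O₁ L₁] {i : O →+* O₁} {j : L →+* L₁}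

theorem coeffMap_mem_gV_of (hij : ∀ x, j (algebraMap O L x) = algebraMap O₁ L₁ (i x))
    (hi : ∀ x, IsUnit (i x) ↔ IsUnit x) {x : LaurentSeries L} (hx : x ∈ gV O L) :
    coeffMap j x ∈ gV O₁ L₁ := by
  obtain ⟨a, b, hb, hab⟩ := hx
  have e1 : ∀ c : LaurentSeries O, coeffMap j (toL O L c) = toL O₁ L₁ (coeffMap i c) := fun c => by
    ext n
    exact hij _
  refine ⟨coeffMap i a, coeffMap i b, ?_, ?_⟩
  · intro h0
    apply hb
    ext n
    have h1 := congrArg (fun z : LaurentSeries (ResidueField O₁) => z.coeff n) h0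
    have h2 : residue O₁ (i (b.coeff n)) = 0 := h1
    change residue O (b.coeff n) = 0
    rw [residue_eq_zero_iff, mem_maximalIdeal, mem_nonunits_iff] at h2 ⊢
    rwa [hi] at h2
  · rw [← e1, ← e1, ← map_mul, hab]

variable {N m : ℕ} [NeZero N]

theorem Sp.map (hij : ∀ x, j (algebraMap O L x) = algebraMap O₁ L₁ (i x))
    (hi : ∀ x, IsUnit (i x) ↔ IsUnit x) {π : O} (hπ : Prime π) {π₁ : O₁} (hπ₁ : Prime π₁)
    {x : F0 L N} {x₁ : F0 L₁ N} (hx : coeffMap j (x : LaurentSeries L) = x₁)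
    (h : Sp π m x) : Sp π₁ m x₁ := by
  rw [sp_iff] at h ⊢
  intro n
  obtain ⟨f, hf, v, hv, h1⟩ := h n
  obtain ⟨r, hr⟩ : ∃ r, i π = π₁ * r := by
    have h1 : i π ∈ maximalIdeal O₁ := by
      rw [mem_maximalIdeal, mem_nonunits_iff, hi]
      exact hπ.not_unit
    rw [hπ₁.irreducible.maximalIdeal_eq, Ideal.mem_span_singleton] at h1
    exact h1
  obtain ⟨v₁, hv₁⟩ : ∃ v₁ : F0 L₁ N, v₁ = ⟨coeffMap j (v : LaurentSeries L),
    coeffMap_mem_adjoin _ v.2⟩ := ⟨_, rfl⟩
  have hv₁m : v₁ ∈ gF (L := L₁) (N := N) O₁ := by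
    rw [mem_gF, hv₁]
    exact coeffMap_mem_gV_of hij hi (mem_gF.mp hv)
  refine ⟨⟨coeffMap j (f : LaurentSeries L), coeffMap_mem_adjoin _ f.2⟩, ?_,
    algebraMap L₁ (F0 L₁ N) (algebraMap O₁ L₁ r) ^ n * v₁,
      mul_mem (pow_mem (C_mem_gF r) n) hv₁m, ?_⟩
  · intro h0
    apply hf
    have h2 : coeffMap j (f : LaurentSeries L) = 0 := congrArg Subtype.val h0
    exact Subtype.ext ((_root_.map_eq_zero (coeffMap j)).mp h2)
  · rw [hv₁]
    apply Subtype.ext
    have h2 := congrArg (fun z : F0 L N => coeffMap j (z : LaurentSeries L)) h1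
    have e1 : ∀ c : L, coeffMap j (algebraMap L (LaurentSeries L) c) =
        algebraMap L₁ (LaurentSeries L₁) (j c) := by
      intro c
      rw [ModularCurve.algebraMap_laurentSeries_eq_single,
        ModularCurve.algebraMap_laurentSeries_eq_single, ModularCurve.coeffMap_single]
    have h3 : coeffMap j ((f : LaurentSeries L) ^ m * (x : LaurentSeries L)) =
        coeffMap j (1 + algebraMap L (LaurentSeries L) (algebraMap O L π) ^ n *
          (v : LaurentSeries L)) := h2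
    rw [map_mul, map_pow, hx, map_add, map_one, map_mul, map_pow, e1, hij, hr, map_mul, map_mul,
      mul_pow, mul_assoc] at h3
    exact h3

end Gen

section Mono

variable {A : ValuationSubring Qb} {L L₁ : IntermediateField ℚ Qb}
  [IsDiscreteValuationRing (OL A L)] [IsDiscreteValuationRing (OL A L₁)]

/-- the inclusion of the constants -/
def incL (hle : L ≤ L₁) : L →+* L₁ := (IntermediateField.inclusion hle).toRingHom

theorem coe_incL (hle : L ≤ L₁) (x : L) : ((incL hle x : L₁) : Qb) = x := rfl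

theorem ιL_incL (hle : L ≤ L₁) : (ιL L₁).comp (incL hle) = ιL L := rfl

/-- the inclusion of the valuation rings -/
def incO (A : ValuationSubring Qb) (hle : L ≤ L₁) : OL A L →+* OL A L₁ :=
  ((incL hle).comp (OL A L).subtype).codRestrict (OL A L₁).toSubring fun x => x.2

theorem coe_incO (hle : L ≤ L₁) (x : OL A L) : ((incO A hle x : OL A L₁) : L₁) = incL hle x := rfl

theorem isUnit_incO_iff (hle : L ≤ L₁) (x : OL A L) : IsUnit (incO A hle x) ↔ IsUnit x := by
  have e1 : (incO A hle x : OL A L₁) ∈ maximalIdeal (OL A L₁) ↔ x ∈ maximalIdeal (OL A L) := by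
    rw [← ValuationSubring.coe_mem_nonunits_iff, ← ValuationSubring.coe_mem_nonunits_iff,
      comap_mem_nonunits A (algebraMap L₁ Qb), comap_mem_nonunits A (algebraMap L Qb)]
    rfl
  rw [mem_maximalIdeal, mem_maximalIdeal, mem_nonunits_iff, mem_nonunits_iff, not_iff_not] at e1
  exact e1

variable {M N m q : ℕ} [NeZero M] [NeZero N] [NeZero q]

theorem Sp.mono (hle : L ≤ L₁) {π : OL A L} (hπ : Prime π) {π₁ : OL A L₁} (hπ₁ : Prime π₁)
    {x : F0 L N} {x₁ : F0 L₁ N} (hx : coeffMap (incL hle) (x : LaurentSeries L) = x₁)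
    (h : Sp π m x) : Sp π₁ m x₁ :=
  h.map (i := incO A hle) (j := incL hle) (fun _ => rfl) (isUnit_incO_iff hle) hπ hπ₁ hx

variable {B : Bez q M} {hq : q.Prime} {hN : N = q * M}

theorem LW.mono (hle : L ≤ L₁) {π : OL A L} (hπ : Prime π) {π₁ : OL A L₁} (hπ₁ : Prime π₁)
    {χ : Gamma0 N →* ℂˣ} (h : LW B hq hN π m χ) : LW B hq hN π₁ m χ := by
  obtain ⟨p1, e1, y, hy, hy0, a1, a2⟩ := h
  have hy' : XSer (ιL L₁) N χ (coeffMap (incL hle) y) := hy.coeffMap (ι' := ιL L₁) (incL hle) rfl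
  have hx : coeffMap (incL hle) ((⟨y ^ m, hy.pow_mem_F0 e1⟩ : F0 L N) : LaurentSeries L) =
      ((⟨coeffMap (incL hle) y ^ m, hy'.pow_mem_F0 e1⟩ : F0 L₁ N) : LaurentSeries L₁) :=
    map_pow (coeffMap (incL hle)) y m
  refine ⟨p1, e1, coeffMap (incL hle) y, hy', ?_, a1.mono hle hπ hπ₁ hx,
    a2.mono hle hπ hπ₁ (B.wF_coeffMap hq hN (ιL L) (ιL L₁) (incL hle) hx)⟩
  rw [Ne, _root_.map_eq_zero]
  exact hy0

end Mono

section Coef

variable {q M N : ℕ} [NeZero q] [NeZero M] [NeZero N]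

/-- The field `L` contains the coefficients of series attached to all the parabolic characters of
order dividing `m`, together with their transforms under `w_q`. -/
def WCoef (B : Bez q M) (hq : q.Prime) (hN : N = q * M) (L : IntermediateField ℚ Qb) (m : ℕ) :
    Prop :=
  ∀ ψ : XG N m, IsPar ψ.1 → ∃ (y z : LaurentSeries L) (hy : XSer (ιL L) N ψ.1 y), y ≠ 0 ∧
    XSer (ιL L) N (B.wChar dvd_rfl hN ψ.1) z ∧
    z ^ m = (B.wF (ιL L) hq hN ⟨y ^ m, hy.pow_mem_F0 ψ.2.1⟩ : LaurentSeries L)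

theorem exists_wCoef {A : ValuationSubring Qb} {L : IntermediateField ℚ Qb} (h : Ar A q L)
    (B : Bez q M) (hq : q.Prime) (hN : N = q * M) {m : ℕ} (hm : 0 < m) :
    ∃ L₁ : IntermediateField ℚ Qb, L ≤ L₁ ∧ Ar A q L₁ ∧ WCoef B hq hN L₁ m := by
  classical
  have hm0 : NeZero m := ⟨hm.ne'⟩
  have hfin : Finite (XG N m) := Fermat.Agent.ESCore.ModP.finite_XG N m
  have : Fintype (XG N m) := Fintype.ofFinite _
  have key : ∀ ψ : XG N m, ∃ S : Finset Qb, IsPar ψ.1 → ∃ (y z : LaurentSeries Qb)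
      (hy : XSer ιC N ψ.1 y), y ≠ 0 ∧ XSer ιC N (B.wChar dvd_rfl hN ψ.1) z ∧
      z ^ m = (B.wF ιC hq hN ⟨y ^ m, hy.pow_mem_F0 ψ.2.1⟩ : LaurentSeries Qb) ∧
      (∀ n, y.coeff n ∈ IntermediateField.adjoin ℚ (S : Set Qb)) ∧
      (∀ n, z.coeff n ∈ IntermediateField.adjoin ℚ (S : Set Qb)) := by
    intro ψ
    by_cases hψ : IsPar ψ.1
    · obtain ⟨y, hy0, hy⟩ := exists_xSer hm ψ
      obtain ⟨z, hz, hzm⟩ := B.exists_wSer hq hN hψ hm ψ.2.1 hy
      have hwm : (B.wChar dvd_rfl hN ψ.1) ^ m = 1 := by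
        rw [← B.wChar_pow]
        have h1 : ψ.1 ^ m = 1 := ψ.2.1
        rw [h1, B.wChar_one]
      obtain ⟨S₁, hS₁⟩ := hy.finCoef hm ψ.2.1
      obtain ⟨S₂, hS₂⟩ := hz.finCoef hm hwm
      refine ⟨S₁ ∪ S₂, fun _ => ⟨y, z, hy, hy0, hz, hzm, fun n => ?_, fun n => ?_⟩⟩
      · exact IntermediateField.adjoin.mono ℚ _ _ (by simp) (hS₁ n)
      · exact IntermediateField.adjoin.mono ℚ _ _ (by simp) (hS₂ n)
    · exact ⟨∅, fun h => absurd h hψ⟩
  choose S hS using key
  obtain ⟨L₁, hle, h1, hL₁⟩ := h.exists_ge (Finset.univ.biUnion S)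
  refine ⟨L₁, hle, h1, fun ψ hψ => ?_⟩
  obtain ⟨y, z, hy, hy0, hz, hzm, hyS, hzS⟩ := hS ψ hψ
  have hadj : IntermediateField.adjoin ℚ ((S ψ : Finset Qb) : Set Qb) ≤ L₁ := by
    rw [IntermediateField.adjoin_le_iff]
    intro x hx
    exact hL₁ x (Finset.mem_biUnion.mpr ⟨ψ, Finset.mem_univ _, hx⟩)
  obtain ⟨y', hyy, hy'⟩ := hy.descend (L := L₁) fun n => hadj (hyS n)
  obtain ⟨z', hzz, hz'⟩ := hz.descend (L := L₁) fun n => hadj (hzS n)
  refine ⟨y', z', hy', ?_, hz', ?_⟩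
  · rintro rfl
    exact hy0 (hyy.symm.trans (map_zero _))
  · apply RingHom.injective (coeffMap (algebraMap L₁ Qb))
    have h2 := B.wF_coeffMap hq hN (ιL L₁) ιC (algebraMap L₁ Qb)
      (h := ⟨y' ^ m, hy'.pow_mem_F0 ψ.2.1⟩) (h' := ⟨y ^ m, hy.pow_mem_F0 ψ.2.1⟩) (by
        change coeffMap (algebraMap L₁ Qb) (y' ^ m) = y ^ m
        rw [map_pow, hyy])
    rw [h2, ← hzm, ← hzz, ← map_pow]

end Coef

end Fermat.Agent.LG
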