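import Mathlib
import Fermat.Agent.LG.Coef

/-!
Coefficients of roots of Laurent series.
-/

set_option autoImplicit false
set_option linter.unusedSectionVars false

open Fermat.Agent.ModFun

noncomputable section

namespace Fermat.Agent.LG

theorem exists_pow_decomp {R : Type*} [CommRing R] {n : ℕ} (hn : 0 < n) {z t w : PowerSeries R}
    (ht : PowerSeries.constantCoeff t = 1) (hz : z = t + PowerSeries.X ^ n * w) (k : ℕ) :
    ∃ v : PowerSeries R, z ^ k = t ^ k + PowerSeries.X ^ n * v ∧
      PowerSeries.constantCoeff v = k * PowerSeries.constantCoeff w := by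
  induction k with
  | zero => exact ⟨0, by simp, by simp⟩
  | succ k ih =>
    obtain ⟨v, hv, hv'⟩ := ih
    refine ⟨v * t + t ^ k * w + PowerSeries.X ^ n * (v * w), ?_, ?_⟩
    · rw [pow_succ, hv, hz]
      ring
    · have h0 : PowerSeries.constantCoeff (PowerSeries.X ^ n : PowerSeries R) = 0 := by
        rw [map_pow, PowerSeries.constantCoeff_X, zero_pow hn.ne']
      rw [map_add, map_add, map_mul, map_mul, map_mul, map_pow, ht, hv', h0]
      push_cast
      ring

/-- The coefficients of a root of a power series are in the field of the coefficients. -/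
theorem coeff_mem_of_pow {R : Type*} [Field R] [CharZero R] (S : Subfield R)
    {z : PowerSeries R} (h1 : PowerSeries.constantCoeff z = 1) {m : ℕ} (hm : 0 < m)
    (h : ∀ n, PowerSeries.coeff n (z ^ m) ∈ S) (n : ℕ) : PowerSeries.coeff n z ∈ S := by
  induction n using Nat.strong_induction_on with
  | h n ih =>
    rcases Nat.eq_zero_or_pos n with rfl | hn
    · rw [PowerSeries.coeff_zero_eq_constantCoeff_apply, h1]
      exact one_mem S
    · set t : PowerSeries R := PowerSeries.mk fun k => if k < n then PowerSeries.coeff k z else 0
        with ht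
      set w : PowerSeries R := PowerSeries.mk fun k => PowerSeries.coeff (n + k) z with hw
      have hz : z = t + PowerSeries.X ^ n * w := by
        ext k
        rw [map_add, ht, hw, PowerSeries.coeff_mk]
        by_cases hk : k < n
        · rw [if_pos hk, PowerSeries.coeff_X_pow_mul', if_neg (not_le.mpr hk), add_zero]
        · push Not at hk
          rw [if_neg (not_lt.mpr hk), PowerSeries.coeff_X_pow_mul', if_pos hk, zero_add,
            PowerSeries.coeff_mk, Nat.add_sub_cancel' hk]
      have ht1 : PowerSeries.constantCoeff t = 1 := by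
        rw [← PowerSeries.coeff_zero_eq_constantCoeff_apply, ht, PowerSeries.coeff_mk, if_pos hn,
          PowerSeries.coeff_zero_eq_constantCoeff_apply, h1]
      obtain ⟨v, hv, hv'⟩ := exists_pow_decomp hn ht1 hz m
      have hw0 : PowerSeries.constantCoeff w = PowerSeries.coeff n z := by
        rw [← PowerSeries.coeff_zero_eq_constantCoeff_apply, hw, PowerSeries.coeff_mk, add_zero]
      have h2 : PowerSeries.coeff n (z ^ m) = PowerSeries.coeff n (t ^ m) +
          m * PowerSeries.coeff n z := by
        rw [hv, map_add, PowerSeries.coeff_X_pow_mul', if_pos le_rfl, Nat.sub_self,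
          PowerSeries.coeff_zero_eq_constantCoeff_apply, hv', hw0]
      have ht2 : ∀ k, PowerSeries.coeff k t ∈ S := by
        intro k
        rw [ht, PowerSeries.coeff_mk]
        split
        · rename_i hk
          exact ih k hk
        · exact zero_mem S
      have ht3 : PowerSeries.coeff n (t ^ m) ∈ S := by
        set t' : PowerSeries S := PowerSeries.mk fun k => ⟨PowerSeries.coeff k t, ht2 k⟩ with ht'
        have h3 : t = PowerSeries.map S.subtype t' := by
          ext k
          have h5 : PowerSeries.coeff k t' = ⟨PowerSeries.coeff k t, ht2 k⟩ := by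
            rw [ht', PowerSeries.coeff_mk]
          rw [PowerSeries.coeff_map, h5]
          rfl
        rw [h3, ← map_pow, PowerSeries.coeff_map]
        exact (PowerSeries.coeff n (t' ^ m)).2
      have h4 : (m : R) * PowerSeries.coeff n z ∈ S := by
        have h5 := sub_mem (h n) ht3
        rwa [h2, add_sub_cancel_left] at h5
      have h6 : (m : R) ≠ 0 := Nat.cast_ne_zero.mpr hm.ne'
      have h7 := mul_mem (inv_mem (natCast_mem S m)) h4
      rwa [inv_mul_cancel_left₀ h6] at h7

theorem exists_lift_coeffMap {K R : Type*} [Field K] [Field R] (f : K →+* R)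
    {z : LaurentSeries R} (h : ∀ n, z.coeff n ∈ f.fieldRange) :
    ∃ z' : LaurentSeries K, ModularCurve.coeffMap f z' = z := by
  choose c hc using h
  refine ⟨⟨c, ?_⟩, ?_⟩
  · refine z.isPWO_support.mono fun n hn => ?_
    rw [Function.mem_support] at hn
    rw [HahnSeries.mem_support]
    intro h0
    apply hn
    apply f.injective
    rw [hc, h0, map_zero]
  · ext n
    exact hc n

/-- A root with leading coefficient `1` of a series over `K` is a series over `K`. -/
theorem exists_coeffMap_of_pow {K R : Type*} [Field K] [Field R] [CharZero R] (f : K →+* R)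
    {z : LaurentSeries R} (hz : z.coeff z.order = 1) {m : ℕ} (hm : 0 < m) {x : LaurentSeries K}
    (hx : z ^ m = ModularCurve.coeffMap f x) :
    ∃ z' : LaurentSeries K, ModularCurve.coeffMap f z' = z := by
  set P := z.powerSeriesPart with hP
  have hz1 : (HahnSeries.single z.order (1 : R) : LaurentSeries R) *
      HahnSeries.ofPowerSeries ℤ R P = z := z.single_order_mul_powerSeriesPart
  have hP1 : PowerSeries.constantCoeff P = 1 := by
    rw [← PowerSeries.coeff_zero_eq_constantCoeff_apply, hP,
      LaurentSeries.powerSeriesPart_coeff, Nat.cast_zero, add_zero, hz]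
  have hpow : (HahnSeries.single ((m : ℤ) * z.order) (1 : R) : LaurentSeries R) *
      HahnSeries.ofPowerSeries ℤ R (P ^ m) = z ^ m := by
    conv_rhs => rw [← hz1]
    rw [mul_pow, map_pow, HahnSeries.single_pow, one_pow, nsmul_eq_mul]
  have hcoef : ∀ n : ℕ, PowerSeries.coeff n (P ^ m) ∈ f.fieldRange := by
    intro n
    have h1 := congrArg (fun y : LaurentSeries R => y.coeff ((m : ℤ) * z.order + n))
      (hpow.trans hx)
    rw [HahnSeries.coeff_single_mul, one_mul, add_sub_cancel_left,
      HahnSeries.ofPowerSeries_apply_coeff, ModularCurve.coeffMap_coeff] at h1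
    exact ⟨_, h1.symm⟩
  have h2 := coeff_mem_of_pow f.fieldRange hP1 hm hcoef
  apply exists_lift_coeffMap
  intro n
  rw [← hz1, HahnSeries.coeff_single_mul, one_mul]
  rcases lt_or_ge (n - z.order) 0 with hn | hn
  · rw [ModularCurve.ofPowerSeries_coeff_of_neg _ hn]
    exact zero_mem _
  · obtain ⟨k, hk⟩ := Int.eq_ofNat_of_zero_le hn
    rw [hk, HahnSeries.ofPowerSeries_apply_coeff]
    exact h2 k

end Fermat.Agent.LG
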