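import Mathlib
import Fermat.Agent.LG.Th3
import Fermat.Agent.LG.PowRoot

/-!
Expansions of functions composed with `W` or with elements of `SL(2, ℤ)`, and the analytic
interpretation of the norm.
-/

set_option autoImplicit false
set_option linter.unusedSectionVars false

open Matrix.SpecialLinearGroup CongruenceSubgroup ModularGroup
open scoped MatrixGroups ModularForm Manifold
open UpperHalfPlane hiding I J
open Complex (I)
open Fermat.Agent.ModFun Fermat.Agent.ESCore Fermat.Agent.ESCore.Gal IntermediateField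

noncomputable section

universe u

namespace Fermat.Agent.LG

section Exp

open scoped IntermediateField.algebraAdjoinAdjoin

variable {K : Type*} [Field K] {ι : K →+* ℂ} {N : ℕ} [NeZero N]

/-- The elements of the function field are quotients. -/
theorem exists_quot (ι : K →+* ℂ) {f : ℍ → ℂ} {h : F0 K N}
    (hfh : HasExp ι (qN 1) f (h : LaurentSeries K)) :
    ∃ a b : A0 K N, b ≠ 0 ∧ h * algebraMap (A0 K N) (F0 K N) b = algebraMap (A0 K N) (F0 K N) a ∧
      evA ι N a = f * evA ι N b := by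
  obtain ⟨a, b, hb, hab⟩ := IsFractionRing.div_surjective (A := A0 K N) h
  have hb0 : b ≠ 0 := nonZeroDivisors.ne_zero hb
  have hb1 : algebraMap (A0 K N) (F0 K N) b ≠ 0 := by
    intro h
    exact hb0 ((IsFractionRing.to_map_eq_zero_iff (K := F0 K N)).mp h)
  rw [div_eq_iff hb1] at hab
  refine ⟨a, b, hb0, hab.symm, ?_⟩
  have h1 : (a : LaurentSeries K) = (h : LaurentSeries K) * (b : LaurentSeries K) :=
    congrArg (fun y : F0 K N => (y : LaurentSeries K)) hab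
  refine (evA_hasExp (ι := ι) a).fun_unique (qN_ne_zero 1) ?_
  rw [h1]
  exact hfh.mul (evA_hasExp (ι := ι) b)

/-- The expansion of `f ∘ α`. -/
theorem WExp.thF_hasExp {K' : Type*} [Field K'] {i : K →+* K'} {ι' : K' →+* ℂ} {α : ℍ → ℍ}
    (H : WExp i ι ι' N α) {f : ℍ → ℂ} {h : F0 K N}
    (hfh : HasExp ι (qN 1) f (h : LaurentSeries K)) {z : LaurentSeries ℂ}
    (hz : HasExp (RingHom.id ℂ) (qN 1) (compW α f) z) :
    ModularCurve.coeffMap ι' (H.thF h) = z := by
  obtain ⟨a, b, hb0, hab, hev⟩ := exists_quot ι hfh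
  have h3 := H.thf_spec a
  rw [hev, RingHom.map_mul] at h3
  have h4 := hz.mul ((H.thf_spec b).coeffMap ι' (RingHom.id_comp ι'))
  have h5 := (h3.coeffMap ι' (RingHom.id_comp ι')).unique Function.injective_id
    (isParam_qN 1) h4
  have h6 : H.thF h * H.thf b = H.thf a := by
    have h7 := congrArg H.thF hab
    rw [RingHom.map_mul, H.thF_algebraMap, H.thF_algebraMap] at h7
    exact h7
  have h8 := congrArg (ModularCurve.coeffMap ι') h6
  rw [RingHom.map_mul, h5] at h8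
  refine mul_right_cancel₀ ?_ h8
  intro h9
  have h10 : H.thA b = 0 :=
    (map_eq_zero_iff _ (RingHom.injective (ModularCurve.coeffMap ι'))).mp h9
  exact hb0 (H.thA_injective (h10.trans (map_zero _).symm))

/-- The expansion of `f ∘ W`. -/
theorem WPerm.wF_hasExp {W : ℍ → ℍ} (hW : WPerm N W) {f : ℍ → ℂ} {h : F0 K N}
    (hfh : HasExp ι (qN 1) f (h : LaurentSeries K)) {z : LaurentSeries ℂ}
    (hz : HasExp (RingHom.id ℂ) (qN 1) (compW W f) z) :
    ModularCurve.coeffMap ι (hW.wF ι h : LaurentSeries K) = z := by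
  obtain ⟨a, b, hb0, hab, hev⟩ := exists_quot ι hfh
  have h3 := evA_hasExp (ι := ι) (hW.wA ι a)
  rw [hW.evA_wA, hev, RingHom.map_mul, ← hW.evA_wA b] at h3
  have h4 := hz.mul ((evA_hasExp (ι := ι) (hW.wA ι b)).coeffMap ι (RingHom.id_comp ι))
  have h5 := (h3.coeffMap ι (RingHom.id_comp ι)).unique Function.injective_id (isParam_qN 1) h4
  have h6 : (hW.wF ι h : LaurentSeries K) * (hW.wA ι b : LaurentSeries K) =
      (hW.wA ι a : LaurentSeries K) := by
    have h7 := congrArg (hW.wF ι) hab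
    rw [map_mul, hW.wF_algebraMap, hW.wF_algebraMap] at h7
    exact congrArg (fun y : F0 K N => (y : LaurentSeries K)) h7
  have h8 := congrArg (ModularCurve.coeffMap ι) h6
  rw [map_mul, h5] at h8
  refine mul_right_cancel₀ ?_ h8
  intro h9
  have h10 := (map_eq_zero_iff _ (RingHom.injective (ModularCurve.coeffMap ι))).mp h9
  have h11 : hW.wA ι b = 0 := Subtype.ext h10
  have h12 := congrArg (hW.wA ι) h11
  rw [hW.wA_wA, map_zero] at h12
  exact hb0 h12

/-- the same, over `K` -/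
theorem WPerm.wF_hasExp' {W : ℍ → ℍ} (hW : WPerm N W) {f : ℍ → ℂ} {h : F0 K N}
    (hfh : HasExp ι (qN 1) f (h : LaurentSeries K)) {z : LaurentSeries ℂ}
    (hz : HasExp (RingHom.id ℂ) (qN 1) (compW W f) z) :
    HasExp ι (qN 1) (compW W f) (hW.wF ι h : LaurentSeries K) := by
  have h1 := hW.wF_hasExp hfh hz
  rw [← h1] at hz
  exact (hasExp_coeffMap_iff ι (RingHom.id_comp ι)).mp hz

end Exp

section W'

variable {q M N : ℕ} [NeZero q] [NeZero M] [NeZero N] (B : Bez (q ^ 2) M)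

/-- the Bézout data for `q` -/
def Bez.low : Bez q M := ⟨q * B.w, B.y, by
  have := B.det
  push_cast at this
  linear_combination this⟩

/-- functions of level `qM` -/
theorem Bez.wF2_low {K : Type*} [Field K] (ι : K →+* ℂ) (hq : q.Prime) (hN : N = q ^ 2 * M)
    (x : F0 K (q * M)) :
    (B.wF2 ι hq hN (inclusion (F0_mono (dvd_sq₂ hN)) x) : LaurentSeries K) =
      ModularCurve.qExpand K q (B.low.wF ι hq rfl x : LaurentSeries K) := by
  let f : F0 K (q * M) →+* LaurentSeries K :=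
    ((F0 K N).val.toRingHom.comp (B.wF2 ι hq hN : F0 K N →+* F0 K N)).comp
      (inclusion (F0_mono (K := K) (dvd_sq₂ hN))).toRingHom
  let g : F0 K (q * M) →+* LaurentSeries K :=
    ((ModularCurve.qExpand K q).comp (F0 K (q * M)).val.toRingHom).comp
      (B.low.wF ι hq rfl : F0 K (q * M) →+* F0 K (q * M))
  have h : f = g := by
    apply ringHom_ext_adjoin
    · intro a
      change ((B.wF2 ι hq hN (algebraMap K (F0 K N) a) : F0 K N) : LaurentSeries K) =
        ModularCurve.qExpand K q ((B.low.wF ι hq rfl (algebraMap K (F0 K (q * M)) a) :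
          F0 K (q * M)) : LaurentSeries K)
      rw [B.wF2_C, B.low.wF_C]
      change algebraMap K (LaurentSeries K) a =
        ModularCurve.qExpand K q (algebraMap K (LaurentSeries K) a)
      rw [ModularCurve.algebraMap_laurentSeries_eq_single, ModularCurve.qExpand_single, mul_zero]
    · rintro x ⟨d, hd0, hd, rfl⟩
      have hm1 : ModularCurve.qExpand K d (ModularCurve.jqModC K) ∈ F0 K N :=
        subset_adjoin _ _ (gens_dvd (hd.trans (dvd_sq₂ hN)))
      have hm2 : ModularCurve.qExpand K d (ModularCurve.jqModC K) ∈ F0 K (q * M) :=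
        subset_adjoin _ _ (gens_dvd hd)
      change ((B.wF2 ι hq hN ⟨_, hm1⟩ : F0 K N) : LaurentSeries K) =
        ModularCurve.qExpand K q ((B.low.wF ι hq rfl ⟨_, hm2⟩ : F0 K (q * M)) : LaurentSeries K)
      rcases dvd_cases hq hd with h1 | ⟨e, he, rfl⟩
      · have h2 := (B.wPerm2 hq hN).wF_gen (ι := ι) (B.swap_out h1) (h1.trans (dvd_sq₁ hN)) hm1
        rw [B.low.wF_gen₁ hq rfl h1 hm2, ModularCurve.qExpand_qExpand]
        refine Eq.trans h2 ?_
        congr 2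
        ring
      · have : NeZero e := ⟨by rintro rfl; exact NeZero.ne (q * 0) (Nat.mul_zero q)⟩
        have h2 := (B.wPerm2 hq hN).wF_gen (ι := ι) (B.swap_mid he)
          ((mul_dvd_mul_left q he).trans (dvd_sq₂ hN)) hm1
        rw [B.low.wF_gen₂ hq rfl he hm2, ModularCurve.qExpand_qExpand]
        exact h2
  exact congrArg (fun φ : F0 K (q * M) →+* LaurentSeries K => φ x) h

end W'

section Al

variable {q M N : ℕ} [NeZero q] [NeZero M] [NeZero N]

theorem al_entries (q M : ℕ) (a : ℤ) : (al q M a).1 0 0 = 1 ∧ (al q M a).1 0 1 = 0 ∧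
    (al q M a).1 1 0 = q * M * a ∧ (al q M a).1 1 1 = 1 := ⟨rfl, rfl, rfl, rfl⟩

theorem al_mul (q M : ℕ) (a b : ℤ) : al q M a * al q M b = al q M (a + b) := by
  obtain ⟨a0, a1, a2, a3⟩ := al_entries q M a
  obtain ⟨b0, b1, b2, b3⟩ := al_entries q M b
  obtain ⟨c0, c1, c2, c3⟩ := al_entries q M (a + b)
  apply Subtype.ext
  change (al q M a).1 * (al q M b).1 = (al q M (a + b)).1
  ext i j
  rw [Matrix.mul_apply, Fin.sum_univ_two]
  fin_cases i <;> fin_cases j
  · change (al q M a).1 0 0 * (al q M b).1 0 0 + (al q M a).1 0 1 * (al q M b).1 1 0 =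
      (al q M (a + b)).1 0 0
    rw [a0, a1, b0, c0]; ring
  · change (al q M a).1 0 0 * (al q M b).1 0 1 + (al q M a).1 0 1 * (al q M b).1 1 1 =
      (al q M (a + b)).1 0 1
    rw [a0, a1, b1, c1]; ring
  · change (al q M a).1 1 0 * (al q M b).1 0 0 + (al q M a).1 1 1 * (al q M b).1 1 0 =
      (al q M (a + b)).1 1 0
    rw [a2, a3, b0, b2, c2]; ring
  · change (al q M a).1 1 0 * (al q M b).1 0 1 + (al q M a).1 1 1 * (al q M b).1 1 1 =
      (al q M (a + b)).1 1 1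
    rw [a2, a3, b1, b3, c3]; ring

theorem al_zero (q M : ℕ) : al q M 0 = 1 := by
  have h := al_mul q M 0 0
  rw [add_zero] at h
  exact mul_eq_left.mp h

theorem al_inv (q M : ℕ) (a : ℤ) : (al q M a)⁻¹ = al q M (-a) := by
  rw [inv_eq_iff_mul_eq_one, al_mul, add_neg_cancel, al_zero]

theorem al_mem_iff {q M : ℕ} (hM : M ≠ 0) (hq : q ≠ 0) (a : ℤ) :
    al q M a ∈ Gamma0 (q ^ 2 * M) ↔ (q : ℤ) ∣ a := by
  rw [Gamma0_mem, ZMod.intCast_zmod_eq_zero_iff_dvd]
  change ((q ^ 2 * M : ℕ) : ℤ) ∣ (q : ℤ) * M * a ↔ _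
  have h1 : ((q ^ 2 * M : ℕ) : ℤ) = (q : ℤ) * M * q := by push_cast; ring
  rw [h1]
  exact mul_dvd_mul_iff_left (mul_ne_zero (by exact_mod_cast hq) (by exact_mod_cast hM))

/-- the representatives are distinct -/
theorem al_inj {q M : ℕ} (hM : M ≠ 0) (hq : q ≠ 0) {a b : Fin q}
    (h : al q M ((a : ℕ) : ℤ) * (al q M ((b : ℕ) : ℤ))⁻¹ ∈ Gamma0 (q ^ 2 * M)) : a = b := by
  rw [al_inv, al_mul, al_mem_iff hM hq, ← sub_eq_add_neg] at h
  have h5 : ((a : ℕ) : ZMod q) = ((b : ℕ) : ZMod q) := by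
    have := (ZMod.intCast_zmod_eq_zero_iff_dvd _ _).mpr h
    push_cast at this
    exact sub_eq_zero.mp this
  rw [ZMod.natCast_eq_natCast_iff', Nat.mod_eq_of_lt a.2, Nat.mod_eq_of_lt b.2] at h5
  exact Fin.ext h5

/-- the action of `Γ₀(qM)` on the representatives -/
theorem exists_al_perm (hq : q.Prime) (hN : N = q ^ 2 * M) {γ : SL(2, ℤ)}
    (hγ : γ ∈ Gamma0 (q * M)) : ∃ (γ' : Fin q → Gamma0 N) (s : Fin q → Fin q),
      Function.Bijective s ∧
      ∀ c : Fin q, al q M ((c : ℕ) : ℤ) * γ = (γ' c : SL(2, ℤ)) * al q M ((s c : ℕ) : ℤ) := by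
  subst hN
  have key : ∀ c : Fin q, ∃ s : Fin q,
      al q M ((c : ℕ) : ℤ) * γ * (al q M ((s : ℕ) : ℤ))⁻¹ ∈ Gamma0 (q ^ 2 * M) := by
    intro c
    have h1 : al q M ((c : ℕ) : ℤ) * γ ∈ Gamma0 (q * M) := mul_mem (al_mem q M _) hγ
    generalize al q M ((c : ℕ) : ℤ) * γ = δ at h1
    have h2 := h1
    rw [Gamma0_mem, ZMod.intCast_zmod_eq_zero_iff_dvd] at h2
    obtain ⟨e, he⟩ := h2
    have hdet := δ.det_coe
    rw [Matrix.det_fin_two, he] at hdet
    have hco : IsCoprime (δ 1 1) (q : ℤ) := ⟨δ 0 0, -(δ 0 1 * (M * e)), by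
      push_cast at hdet
      linear_combination hdet⟩
    obtain ⟨u, v, huv⟩ := hco
    have hq0 : (0 : ℤ) < q := by exact_mod_cast hq.pos
    have hs0 : 0 ≤ (e * u) % (q : ℤ) := Int.emod_nonneg _ hq0.ne'
    have hs1 : (e * u) % (q : ℤ) < q := Int.emod_lt_of_pos _ hq0
    obtain ⟨s, hs⟩ := Int.eq_ofNat_of_zero_le hs0
    have hsq : s < q := by
      have : (s : ℤ) < q := by rw [← hs]; exact hs1
      exact_mod_cast this
    refine ⟨⟨s, hsq⟩, ?_⟩
    rw [al_inv, Gamma0_mem, ZMod.intCast_zmod_eq_zero_iff_dvd]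
    have h3 : (δ * al q M (-((s : ℕ) : ℤ))) 1 0 = δ 1 0 + δ 1 1 * (q * M * (-(s : ℤ))) := by
      obtain ⟨a0, a1, a2, a3⟩ := al_entries q M (-((s : ℕ) : ℤ))
      change (δ.1 * (al q M (-((s : ℕ) : ℤ))).1) 1 0 = _
      rw [Matrix.mul_apply, Fin.sum_univ_two, a0, a2, mul_one]
    change ((q ^ 2 * M : ℕ) : ℤ) ∣ (δ * al q M (-((s : ℕ) : ℤ))) 1 0
    rw [h3, he]
    have h4 : (s : ℤ) = e * u - q * (e * u / q) := by
      have := Int.emod_def (e * u) q
      rw [hs] at this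
      exact this
    have h5 : e - δ 1 1 * s = q * (e * v + δ 1 1 * (e * u / q)) := by
      rw [h4]
      linear_combination (-e) * huv
    refine ⟨e * v + δ 1 1 * (e * u / q), ?_⟩
    push_cast
    linear_combination (q * M : ℤ) * h5
  choose s hs using key
  have he : ∀ c : Fin q, al q M ((c : ℕ) : ℤ) * γ =
      (al q M ((c : ℕ) : ℤ) * γ * (al q M ((s c : ℕ) : ℤ))⁻¹) * al q M ((s c : ℕ) : ℤ) := by
    intro c
    rw [inv_mul_cancel_right]
  refine ⟨fun c => ⟨_, hs c⟩, s, ?_, he⟩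
  apply Finite.injective_iff_bijective.mp
  intro a b hab
  apply al_inj (NeZero.ne M) (NeZero.ne q)
  have h1 := mul_mem (hs a) (inv_mem (hs b))
  rw [hab] at h1
  have h2 : al q M ((a : ℕ) : ℤ) * γ * (al q M ((s b : ℕ) : ℤ))⁻¹ *
      (al q M ((b : ℕ) : ℤ) * γ * (al q M ((s b : ℕ) : ℤ))⁻¹)⁻¹ =
      al q M ((a : ℕ) : ℤ) * (al q M ((b : ℕ) : ℤ))⁻¹ := by group
  rwa [h2] at h1

/-- the transfer to the level `qM` is trivial -/
def TrOne (q M : ℕ) {N : ℕ} (χ : Gamma0 N →* ℂˣ) : Prop :=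
  ∀ γ ∈ Gamma0 (q * M), ∀ (γ' : Fin q → Gamma0 N) (s : Fin q → Fin q),
    (∀ c : Fin q, al q M ((c : ℕ) : ℤ) * γ = (γ' c : SL(2, ℤ)) * al q M ((s c : ℕ) : ℤ)) →
    ∏ c, χ (γ' c) = 1

/-- the product over the cosets -/
def trF (q M : ℕ) (f : ℍ → ℂ) : ℍ → ℂ := ∏ c : Fin q, fun τ => f (al q M ((c : ℕ) : ℤ) • τ)

theorem trF_apply (f : ℍ → ℂ) (τ : ℍ) :
    trF q M f τ = ∏ c : Fin q, f (al q M ((c : ℕ) : ℤ) • τ) := by
  rw [trF, Finset.prod_apply]

theorem trF_pow (f : ℍ → ℂ) (m : ℕ) : trF q M (f ^ m) = trF q M f ^ m := by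
  funext τ
  rw [trF_apply, Pi.pow_apply, trF_apply, ← Finset.prod_pow]
  rfl

theorem trF_mem_MB {f : ℍ → ℂ} (hf : f ∈ MB) : trF q M f ∈ MB :=
  MB_prod _ fun _ _ => MB_comp hf _

theorem trF_smul {χ : Gamma0 N →* ℂˣ} {f : ℍ → ℂ}
    (hf : ∀ (γ : Gamma0 N) (τ : ℍ), f ((γ : SL(2, ℤ)) • τ) = (χ γ : ℂ) * f τ) {γ : SL(2, ℤ)}
    {γ' : Fin q → Gamma0 N} {s : Fin q → Fin q} (hs : Function.Bijective s)
    (h : ∀ c : Fin q, al q M ((c : ℕ) : ℤ) * γ = (γ' c : SL(2, ℤ)) * al q M ((s c : ℕ) : ℤ))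
    (τ : ℍ) : trF q M f (γ • τ) = ((∏ c, χ (γ' c) : ℂˣ) : ℂ) * trF q M f τ := by
  rw [trF_apply, trF_apply, ← hs.prod_comp (fun c : Fin q => f (al q M ((c : ℕ) : ℤ) • τ)),
    Units.coe_prod, ← Finset.prod_mul_distrib]
  refine Finset.prod_congr rfl fun c _ => ?_
  rw [← mul_smul, h c, mul_smul, hf]

end Al

end Fermat.Agent.LG
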