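import Mathlib
import Fermat.Agent.LG.Pow

/-!
The norm of a function is the product of its conjugates; powers.
-/

set_option autoImplicit false
set_option linter.unusedSectionVars false

open Matrix.SpecialLinearGroup CongruenceSubgroup ModularGroup
open scoped MatrixGroups ModularForm Manifold
open UpperHalfPlane hiding I J
open Complex (I)
open Fermat.Agent.ModFun Fermat.Agent.ESCore Fermat.Agent.ESCore.Gal IntermediateField

noncomputable section

universe u

namespace Fermat.Agent.LG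

section Nrm

variable {K : Type u} [Field K] {q M N : ℕ} [NeZero q] [NeZero M] [NeZero N]

theorem exists_bz {q M : ℕ} (hq : q.Prime) (hqM : ¬ q ∣ M) {c : ℕ} (hc0 : c ≠ 0) (hcq : c < q) :
    ∃ b r : ℤ, (M : ℤ) * c * b - q * r = 1 := by
  have h1 : (M * c).Coprime q :=
    Nat.Coprime.mul_left ((Nat.Prime.coprime_iff_not_dvd hq).mpr hqM).symm
      (Nat.coprime_of_lt_prime hc0 hcq hq).symm
  obtain ⟨u, v, huv⟩ := Nat.isCoprime_iff_coprime.mpr h1
  refine ⟨u, -v, ?_⟩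
  push_cast at huv
  linear_combination huv

/-- the expansions of the conjugates exist -/
theorem wExp_alc (ι : K →+* ℂ) (hq : q.Prime) (hqM : ¬ q ∣ M) (hN : N = q ^ 2 * M) (c : Fin q) :
    WExp ι ι (RingHom.id ℂ) N (fun τ => al q M ((c : ℕ) : ℤ) • τ) := by
  by_cases hc : (c : ℕ) = 0
  · refine ⟨RingHom.id_comp ι, al_surj q M _, fun d hd0 hd => ?_⟩
    refine ⟨ModularCurve.qExpand ℂ d (ModularCurve.jqModC ℂ), ?_⟩
    rw [hc, Nat.cast_zero, al_zero]
    exact (hasExp_Jd (d := d) (RingHom.id ℂ)).congr fun τ => by rw [compW_apply, one_smul]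
  · obtain ⟨b, r, hbr⟩ := exists_bz hq hqM hc c.2
    exact wExp_al (K' := ℂ) (i := ι) (ι := ι) (ι' := RingHom.id ℂ) (RingHom.id_comp ι) hq hN
      (c := ((c : ℕ) : ℤ)) (b := b) (r := r) hbr
      (ζ := Units.mk0 (Complex.exp (2 * Real.pi * Complex.I * b / q)) (Complex.exp_ne_zero _)) rfl

theorem thc_low (ι : K →+* ℂ) (hq : q.Prime) (hqM : ¬ q ∣ M) (hN : N = q ^ 2 * M) (c : Fin q)
    (y : F0 K (q * M)) :
    (wExp_alc ι hq hqM hN c).thF (inclusion (F0_mono (dvd_sq₂ hN)) y) =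
      ModularCurve.coeffMap ι (y : LaurentSeries K) := by
  set H := wExp_alc ι hq hqM hN c with hH
  let f : F0 K (q * M) →+* LaurentSeries ℂ :=
    H.thF.comp (inclusion (F0_mono (K := K) (dvd_sq₂ hN))).toRingHom
  let g : F0 K (q * M) →+* LaurentSeries ℂ :=
    (ModularCurve.coeffMap ι).comp (F0 K (q * M)).val.toRingHom
  have hfg : f = g := by
    apply ringHom_ext_adjoin
    · intro a
      change H.thF (algebraMap K (F0 K N) a) =
        ModularCurve.coeffMap ι (algebraMap K (LaurentSeries K) a)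
      rw [H.thF_C, ModularCurve.algebraMap_laurentSeries_eq_single, ModularCurve.coeffMap_single]
      rfl
    · rintro x ⟨d, hd0, hd, rfl⟩
      change H.thF ⟨_, _⟩ = ModularCurve.coeffMap ι
        (ModularCurve.qExpand K d (ModularCurve.jqModC K))
      rw [coeffMap_jq]
      exact H.thF_gen (hd.trans (dvd_sq₂ hN)) (hasExp_al_in _ hd) _
  exact congrArg (fun φ : F0 K (q * M) →+* LaurentSeries ℂ => φ y) hfg

theorem thc_coeff_zero (ι : K →+* ℂ) (hq : q.Prime) (hqM : ¬ q ∣ M) (hN : N = q ^ 2 * M)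
    (c : Fin q) (hc : (c : ℕ) = 0) :
    ((wExp_alc ι hq hqM hN c).thF ⟨_, jq_mem hN⟩).coeff (-1) = 0 := by
  have h1 : HasExp (RingHom.id ℂ) (qN 1) (compW (fun τ => al q M ((c : ℕ) : ℤ) • τ)
      (Jd (q ^ 2))) (ModularCurve.qExpand ℂ (q ^ 2) (ModularCurve.jqModC ℂ)) := by
    rw [hc, Nat.cast_zero, al_zero]
    exact (hasExp_Jd (d := q ^ 2) (RingHom.id ℂ)).congr fun τ => by rw [compW_apply, one_smul]
  rw [(wExp_alc ι hq hqM hN c).thF_gen (d := q ^ 2) (hN ▸ dvd_mul_right (q ^ 2) M) h1]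
  exact jq_coeff_neg_one hq

theorem thc_coeff (ι : K →+* ℂ) (hq : q.Prime) (hqM : ¬ q ∣ M) (hN : N = q ^ 2 * M)
    (c : Fin q) (hc : (c : ℕ) ≠ 0) : ∃ b r : ℤ, (M : ℤ) * (c : ℕ) * b - q * r = 1 ∧
    ((wExp_alc ι hq hqM hN c).thF ⟨_, jq_mem hN⟩).coeff (-1) *
      Complex.exp (2 * Real.pi * Complex.I * b / q) = 1 := by
  obtain ⟨b, r, hbr⟩ := exists_bz hq hqM hc c.2
  refine ⟨b, r, hbr, ?_⟩
  set ζ : ℂˣ := Units.mk0 (Complex.exp (2 * Real.pi * Complex.I * b / q)) (Complex.exp_ne_zero _)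
    with hζ
  have hζ' : (RingHom.id ℂ) (ζ : ℂ) = Complex.exp (2 * Real.pi * Complex.I * b / q) := rfl
  have hmem : ModularCurve.qExpand K (q ^ 2 * 1) (ModularCurve.jqModC K) ∈ F0 K N :=
    subset_adjoin K _ (gens_dvd (hN ▸ mul_dvd_mul_left (q ^ 2) (one_dvd M)))
  have h2 : (⟨_, jq_mem hN⟩ : F0 K N) = ⟨_, hmem⟩ := by
    apply Subtype.ext
    change ModularCurve.qExpand K (q ^ 2) (ModularCurve.jqModC K) =
      ModularCurve.qExpand K (q ^ 2 * 1) (ModularCurve.jqModC K)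
    congr 2
    exact (mul_one _).symm
  have h1 := (wExp_alc ι hq hqM hN c).thF_gen (d := q ^ 2 * 1)
    (hN ▸ mul_dvd_mul_left (q ^ 2) (one_dvd M))
    (hasExp_al_out (ι' := RingHom.id ℂ) hbr hζ' (one_dvd M)) hmem
  rw [h2, h1, twist_coeff]
  have h3 : (ModularCurve.qExpand ℂ 1 (ModularCurve.jqModC ℂ)).coeff (-1) = 1 := by
    have h4 := ModularCurve.qExpand_coeff_mul 1 (ModularCurve.jqModC ℂ) (-1)
    rw [Nat.cast_one, one_mul] at h4
    rw [h4, jqModC_coeff_neg_one]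
  rw [h3, mul_one, zpow_neg_one]
  have h5 : Complex.exp (2 * Real.pi * Complex.I * b / q) = (ζ : ℂ) := rfl
  rw [h5, ← Units.val_mul, inv_mul_cancel, Units.val_one]

theorem exp_eq_imp {q : ℕ} (hq : q ≠ 0) {b b' : ℤ}
    (h : Complex.exp (2 * Real.pi * Complex.I * b / q) =
      Complex.exp (2 * Real.pi * Complex.I * b' / q)) : (q : ℤ) ∣ b - b' := by
  obtain ⟨n, hn⟩ := Complex.exp_eq_exp_iff_exists_int.mp h
  have hq0 : (q : ℂ) ≠ 0 := by exact_mod_cast hq
  have h1 : (b : ℂ) = b' + n * q := by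
    have h2 : (2 * Real.pi * Complex.I : ℂ) ≠ 0 := Complex.two_pi_I_ne_zero
    field_simp at hn
    linear_combination hn
  refine ⟨n, ?_⟩
  have h3 : b = b' + n * q := by exact_mod_cast h1
  rw [h3]
  ring

/-- **The norm is the product of the conjugates.** -/
theorem coeffMap_nrm_al (ι : K →+* ℂ) (hq : q.Prime) (hqM : ¬ q ∣ M) (hN : N = q ^ 2 * M)
    (x : F0 K N) : ModularCurve.coeffMap ι (nrm hN x : LaurentSeries K) =
      ∏ c : Fin q, (wExp_alc ι hq hqM hN c).thF x := by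
  have : CharZero K := ι.charZero
  let _ := algI (F0_le_sq (K := K) (q := q) (M := M) hN)
  obtain ⟨hfd, hfr⟩ := finrank_sq (K := K) ι hq hqM hN
  let j1 : F0 K (q * M) →+* LaurentSeries ℂ :=
    (ModularCurve.coeffMap ι).comp (F0 K (q * M)).val.toRingHom
  let σ : Fin q → F0 K N →+* LaurentSeries ℂ := fun c => (wExp_alc ι hq hqM hN c).thF
  have hσ : ∀ k y, σ k (algebraMap (F0 K (q * M)) (F0 K N) y) = j1 y :=
    fun k y => thc_low ι hq hqM hN k y
  have hinj : Function.Injective σ := by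
    intro a c hab
    have hab' : ((wExp_alc ι hq hqM hN a).thF ⟨_, jq_mem hN⟩).coeff (-1) =
        ((wExp_alc ι hq hqM hN c).thF ⟨_, jq_mem hN⟩).coeff (-1) :=
      congrArg (fun φ : F0 K N →+* LaurentSeries ℂ => (φ ⟨_, jq_mem hN⟩).coeff (-1)) hab
    by_cases ha : (a : ℕ) = 0 <;> by_cases hc : (c : ℕ) = 0
    · exact Fin.ext (ha.trans hc.symm)
    · obtain ⟨b, r, hbr, h1⟩ := thc_coeff ι hq hqM hN c hc
      rw [← hab', thc_coeff_zero ι hq hqM hN a ha, zero_mul] at h1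
      exact absurd h1 zero_ne_one
    · obtain ⟨b, r, hbr, h1⟩ := thc_coeff ι hq hqM hN a ha
      rw [hab', thc_coeff_zero ι hq hqM hN c hc, zero_mul] at h1
      exact absurd h1 zero_ne_one
    · obtain ⟨b, r, hbr, h1⟩ := thc_coeff ι hq hqM hN a ha
      obtain ⟨b', r', hbr', h2⟩ := thc_coeff ι hq hqM hN c hc
      rw [hab'] at h1
      have h3 := exp_eq_imp hq.ne_zero (mul_left_cancel₀ (left_ne_zero_of_mul_eq_one h1)
        (h1.trans h2.symm))
      obtain ⟨s, hs⟩ := h3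
      have h4 : (q : ℤ) ∣ ((a : ℕ) : ℤ) - ((c : ℕ) : ℤ) := by
        have hb : b = b' + q * s := by linear_combination hs
        refine ⟨-(M * ((a : ℕ) : ℤ) * ((c : ℕ) : ℤ) * s) + r * ((c : ℕ) : ℤ) -
          r' * ((a : ℕ) : ℤ), ?_⟩
        rw [hb] at hbr
        linear_combination ((c : ℕ) : ℤ) * hbr - ((a : ℕ) : ℤ) * hbr'
      apply al_inj (NeZero.ne M) (NeZero.ne q)
      rw [al_inv, al_mul, al_mem_iff (NeZero.ne M) (NeZero.ne q), ← sub_eq_add_neg]
      exact h4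
  exact norm_eq_prod_of_card j1 σ hσ hinj (by rw [hfr, Fintype.card_fin]) x

end Nrm

end Fermat.Agent.LG
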