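import Mathlib
import Fermat.Agent.LG.Pow2

/-!
The norm of a function with character whose transfer is trivial is a power.
-/

set_option autoImplicit false
set_option linter.unusedSectionVars false

open Matrix.SpecialLinearGroup CongruenceSubgroup ModularGroup
open scoped MatrixGroups ModularForm Manifold
open UpperHalfPlane hiding I J
open Complex (I)
open Fermat.Agent.ModFun Fermat.Agent.ESCore Fermat.Agent.ESCore.Gal IntermediateField

noncomputable section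

universe u

namespace Fermat.Agent.LG

section Lead

variable {K R : Type*} [Field K] [Field R]

theorem leadingCoeff_pow' (z : LaurentSeries R) (m : ℕ) :
    (z ^ m).leadingCoeff = z.leadingCoeff ^ m := by
  induction m with
  | zero => rw [pow_zero, pow_zero, HahnSeries.leadingCoeff_one]
  | succ m ih => rw [pow_succ, HahnSeries.leadingCoeff_mul, ih, pow_succ]

theorem leadingCoeff_coeffMap (f : K →+* R) (x : LaurentSeries K) :
    (ModularCurve.coeffMap f x).leadingCoeff = f x.leadingCoeff := by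
  have h1 : (ModularCurve.coeffMap f x).order = x.order := by
    rcases eq_or_ne x 0 with rfl | hx
    · rw [map_zero, HahnSeries.order_zero, HahnSeries.order_zero]
    · have hx' : ModularCurve.coeffMap f x ≠ 0 := by
        rwa [Ne, map_eq_zero_iff _ (RingHom.injective (ModularCurve.coeffMap f))]
      apply le_antisymm
      · apply HahnSeries.order_le_of_coeff_ne_zero
        rw [ModularCurve.coeffMap_coeff, Ne, _root_.map_eq_zero]
        exact HahnSeries.coeff_order_eq_zero.not.2 hx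
      · apply HahnSeries.order_le_of_coeff_ne_zero
        intro h
        have h2 : (ModularCurve.coeffMap f x).coeff (ModularCurve.coeffMap f x).order = 0 := by
          rw [ModularCurve.coeffMap_coeff, h, map_zero]
        exact hx' (HahnSeries.coeff_order_eq_zero.mp h2)
  rw [HahnSeries.leadingCoeff_eq, HahnSeries.leadingCoeff_eq, h1, ModularCurve.coeffMap_coeff]

/-- A root of a series over `K` is proportional to a series over `K`. -/
theorem exists_normalized [CharZero R] (f : K →+* R) {z : LaurentSeries R} (hz : z ≠ 0) {m : ℕ}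
    (hm : 0 < m) {x : LaurentSeries K} (hx : z ^ m = ModularCurve.coeffMap f x) :
    ∃ (z' : LaurentSeries K) (a : K), a ≠ 0 ∧ z' ≠ 0 ∧
      ModularCurve.coeffMap f z' = HahnSeries.C (z.leadingCoeff)⁻¹ * z ∧
      x = HahnSeries.C a * z' ^ m := by
  have hl : z.leadingCoeff ≠ 0 := HahnSeries.leadingCoeff_ne_zero.mpr hz
  have hl1 : f x.leadingCoeff = z.leadingCoeff ^ m := by
    rw [← leadingCoeff_coeffMap, ← hx, leadingCoeff_pow']
  have ha : x.leadingCoeff ≠ 0 := by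
    intro h0
    rw [h0, map_zero] at hl1
    exact pow_ne_zero m hl hl1.symm
  set y : LaurentSeries R := HahnSeries.C (z.leadingCoeff)⁻¹ * z with hy
  have hy1 : y.leadingCoeff = 1 := by
    rw [hy, HahnSeries.leadingCoeff_mul]
    have h2 : (HahnSeries.C (z.leadingCoeff)⁻¹ : LaurentSeries R).leadingCoeff =
      (z.leadingCoeff)⁻¹ := HahnSeries.leadingCoeff_of_single
    rw [h2, inv_mul_cancel₀ hl]
  have hym : y ^ m = ModularCurve.coeffMap f (HahnSeries.C (x.leadingCoeff)⁻¹ * x) := by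
    have h3 : ModularCurve.coeffMap f (HahnSeries.C (x.leadingCoeff)⁻¹ : LaurentSeries K) =
        HahnSeries.C (f (x.leadingCoeff)⁻¹) := ModularCurve.coeffMap_single f 0 _
    rw [RingHom.map_mul, h3, ← hx, hy, mul_pow, ← map_pow, map_inv₀, hl1, inv_pow]
  obtain ⟨z', hz'⟩ := exists_coeffMap_of_pow f (by rw [← HahnSeries.leadingCoeff_eq, hy1]) hm hym
  refine ⟨z', x.leadingCoeff, ha, ?_, hz', ?_⟩
  · rintro rfl
    rw [map_zero] at hz'
    rw [← hz', HahnSeries.leadingCoeff_zero] at hy1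
    exact zero_ne_one hy1
  · apply RingHom.injective (ModularCurve.coeffMap f)
    have h3 : ∀ c : K, ModularCurve.coeffMap f (HahnSeries.C c : LaurentSeries K) =
        HahnSeries.C (f c) := fun c => ModularCurve.coeffMap_single f 0 _
    rw [RingHom.map_mul, map_pow, hz', hym, RingHom.map_mul, h3, h3, ← mul_assoc, ← map_mul,
      ← map_mul, mul_inv_cancel₀ ha, map_one, map_one, one_mul]

end Lead

section Powers

open scoped IntermediateField.algebraAdjoinAdjoin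

variable {K : Type u} [Field K] {q M N : ℕ} [NeZero q] [NeZero M] [NeZero N]

/-- the norm is a power, up to a constant -/
def PowC (hN : N = q ^ 2 * M) (m : ℕ) (h : F0 K N) : Prop :=
  ∃ H : F0 K (q * M), H ≠ 0 ∧ ∃ a : K, a ≠ 0 ∧
    nrm hN h = algebraMap K (F0 K (q * M)) a * H ^ m

theorem al_conj_T (hN : N = q ^ 2 * M) (c : ℤ) :
    al q M c * ModularGroup.T * (al q M c)⁻¹ ∈ Gamma0 N := by
  subst hN
  obtain ⟨a0, a1, a2, a3⟩ := al_entries q M c
  obtain ⟨b0, b1, b2, b3⟩ := al_entries q M (-c)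
  rw [al_inv, Gamma0_mem, ZMod.intCast_zmod_eq_zero_iff_dvd]
  have h1 : (al q M c * ModularGroup.T * al q M (-c)) 1 0 =
      ((al q M c).1 * ModularGroup.T.1 * (al q M (-c)).1) 1 0 := rfl
  rw [h1, Matrix.mul_apply, Fin.sum_univ_two, Matrix.mul_apply, Matrix.mul_apply,
    Fin.sum_univ_two, Fin.sum_univ_two, a2, a3, b0, b2]
  have t0 : ModularGroup.T.1 0 0 = 1 := rfl
  have t1 : ModularGroup.T.1 0 1 = 1 := rfl
  have t2 : ModularGroup.T.1 1 0 = 0 := rfl
  have t3 : ModularGroup.T.1 1 1 = 1 := rfl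
  rw [t0, t1, t2, t3]
  refine ⟨-(M * c * c), ?_⟩
  push_cast
  ring

theorem nrm_ne_zero (ι : K →+* ℂ) (hq : q.Prime) (hqM : ¬ q ∣ M) (hN : N = q ^ 2 * M)
    {h : F0 K N} (h0 : h ≠ 0) : nrm hN h ≠ 0 := by
  intro h1
  have h2 := coeffMap_nrm_al ι hq hqM hN h
  rw [h1] at h2
  have h3 : ModularCurve.coeffMap ι ((0 : F0 K (q * M)) : LaurentSeries K) = 0 := map_zero _
  rw [h3] at h2
  obtain ⟨c, -, hc⟩ := Finset.prod_eq_zero_iff.mp h2.symm
  exact h0 ((map_eq_zero_iff _ (RingHom.injective _)).mp hc)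

/-- a function with a character having an expansion in the function field -/
theorem char_pow_of_mem {ι : K →+* ℂ} {f : ℍ → ℂ} (hf : f ∈ MB) {χ : Gamma0 N →* ℂˣ}
    (hfχ : ∀ (γ : Gamma0 N) (τ : ℍ), f ((γ : SL(2, ℤ)) • τ) = (χ γ : ℂ) * f τ) {m : ℕ}
    {h : F0 K N} (h0 : h ≠ 0) (hh : HasExp ι (qN 1) (f ^ m) (h : LaurentSeries K)) :
    χ ^ m = 1 := by
  have h1 : XSer ι N (χ ^ m) (h : LaurentSeries K) := by
    refine ⟨f ^ m, pow_mem hf m, fun γ τ => ?_, hh⟩
    rw [Pi.pow_apply, hfχ, mul_pow, MonoidHom.pow_apply, Units.val_pow_eq_pow_val, Pi.pow_apply]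
  exact h1.eq_one_of_mem (fun h2 => h0 (Subtype.ext h2)) h.2

/-- the expansion of the product of the conjugates -/
theorem hasExp_trF {ι : K →+* ℂ} (hq : q.Prime) (hqM : ¬ q ∣ M) (hN : N = q ^ 2 * M)
    {f : ℍ → ℂ} (hf : f ∈ MB) {χ : Gamma0 N →* ℂˣ}
    (hfχ : ∀ (γ : Gamma0 N) (τ : ℍ), f ((γ : SL(2, ℤ)) • τ) = (χ γ : ℂ) * f τ) {m : ℕ}
    {h : F0 K N} (h0 : h ≠ 0) (hh : HasExp ι (qN 1) (f ^ m) (h : LaurentSeries K)) :
    HasExp (RingHom.id ℂ) (qN 1) (trF q M f ^ m)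
      (ModularCurve.coeffMap ι (nrm hN h : LaurentSeries K)) := by
  have hχ := char_pow_of_mem hf hfχ h0 hh
  have hinv : ∀ (γ : Gamma0 N) (τ : ℍ), (f ^ m) ((γ : SL(2, ℤ)) • τ) = (f ^ m) τ := by
    intro γ τ
    have h1 : ((χ γ : ℂˣ) : ℂ) ^ m = 1 := by
      rw [← Units.val_pow_eq_pow_val, ← MonoidHom.pow_apply, hχ, MonoidHom.one_apply,
        Units.val_one]
    rw [Pi.pow_apply, hfχ, mul_pow, h1, one_mul, Pi.pow_apply]
  rw [← trF_pow, coeffMap_nrm_al ι hq hqM hN h, trF]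
  refine hasExp_finset_prod _ fun c _ => ?_
  obtain ⟨z, hz⟩ := exists_exp_of_MB (MB_comp (pow_mem hf m) (al q M ((c : ℕ) : ℤ))) 1
    fun τ => by
      have h3 : (((1 : ℕ) : ℝ) +ᵥ τ : ℍ) = ModularGroup.T • τ := by
        rw [modular_T_smul, Nat.cast_one]
      have h4 : al q M ((c : ℕ) : ℤ) • ModularGroup.T • τ =
          (al q M ((c : ℕ) : ℤ) * ModularGroup.T * (al q M ((c : ℕ) : ℤ))⁻¹) •
            al q M ((c : ℕ) : ℤ) • τ := by
        rw [← mul_smul, ← mul_smul, inv_mul_cancel_right]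
      rw [h3, h4]
      exact hinv ⟨_, al_conj_T hN _⟩ _
  have h5 := (wExp_alc ι hq hqM hN c).thF_hasExp hh (z := z) hz
  rw [coeffMap_id_apply] at h5
  rw [h5]
  exact hz

/-- **Trivial transfer implies that the norm is a power.** -/
theorem powC_of_trOne {ι : K →+* ℂ} (hq : q.Prime) (hqM : ¬ q ∣ M) (hN : N = q ^ 2 * M)
    {f : ℍ → ℂ} (hf : f ∈ MB) {χ : Gamma0 N →* ℂˣ}
    (hfχ : ∀ (γ : Gamma0 N) (τ : ℍ), f ((γ : SL(2, ℤ)) • τ) = (χ γ : ℂ) * f τ)
    (hT : TrOne q M χ) {m : ℕ} (hm : 0 < m)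
    {h : F0 K N} (h0 : h ≠ 0) (hh : HasExp ι (qN 1) (f ^ m) (h : LaurentSeries K)) :
    PowC hN m h := by
  have h1 := hasExp_trF hq hqM hN hf hfχ h0 hh
  set G := trF q M f with hG
  have hGM : G ∈ MB := trF_mem_MB hf
  have hinv : ∀ γ ∈ Gamma0 (q * M), ∀ τ : ℍ, G (γ • τ) = G τ := by
    intro γ hγ τ
    obtain ⟨γ', s, hs, h2⟩ := exists_al_perm hq hN hγ
    rw [hG, trF_smul hfχ hs h2, hT γ hγ γ' s h2, Units.val_one, one_mul]
  obtain ⟨Y, hY⟩ := exists_exp_of_MB hGM 1 fun τ => by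
    have h3 : (((1 : ℕ) : ℝ) +ᵥ τ : ℍ) = ModularGroup.T • τ := by
      rw [modular_T_smul, Nat.cast_one]
    rw [h3]
    refine hinv _ ?_ τ
    rw [← zpow_one ModularGroup.T, Gamma0_mem, ModularGroup.coe_T_zpow]
    simp
  have hYm : Y ^ m = ModularCurve.coeffMap ι (nrm hN h : LaurentSeries K) :=
    (hY.pow m).unique Function.injective_id (isParam_qN 1) h1
  have hn0 : (nrm hN h : LaurentSeries K) ≠ 0 := fun h2 =>
    nrm_ne_zero ι hq hqM hN h0 (Subtype.ext h2)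
  have hY0 : Y ≠ 0 := by
    rintro rfl
    rw [zero_pow hm.ne'] at hYm
    exact hn0 ((map_eq_zero_iff _ (RingHom.injective (ModularCurve.coeffMap ι))).mp hYm.symm)
  obtain ⟨z', a, ha, hz'0, hz', hx⟩ := exists_normalized ι hY0 hm hYm
  have hX : XSer (RingHom.id ℂ) (q * M) 1 (ModularCurve.coeffMap ι z') := by
    rw [hz']
    refine ⟨fun τ => (RingHom.id ℂ) (Y.leadingCoeff)⁻¹ * G τ, ?_, fun γ τ => ?_, hY.smul _⟩
    · have h2 : (fun _ : ℍ => (RingHom.id ℂ) (Y.leadingCoeff)⁻¹) ∈ MB := by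
        have h3 := xSer_one (ι := RingHom.id ℂ) (N := 1)
        refine mem_MB_of_modFun (N := 1) ?_ fun _ _ _ => rfl
        refine ⟨mdifferentiable_const, fun γ => ⟨_, HasExp.const _⟩⟩
      exact mul_mem h2 hGM
    · change (RingHom.id ℂ) (Y.leadingCoeff)⁻¹ * G ((γ : SL(2, ℤ)) • τ) =
        (((1 : Gamma0 (q * M) →* ℂˣ) γ : ℂˣ) : ℂ) * ((RingHom.id ℂ) (Y.leadingCoeff)⁻¹ * G τ)
      rw [hinv γ γ.2 τ, MonoidHom.one_apply, Units.val_one, one_mul]
  have hX' : XSer ι (q * M) 1 z' := (xSer_coeffMap_iff ι (RingHom.id_comp ι)).mp hX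
  refine ⟨⟨z', hX'.mem_F0⟩, fun h2 => hz'0 (congrArg Subtype.val h2), a, ha, ?_⟩
  apply Subtype.ext
  rw [hx]
  change _ = algebraMap K (LaurentSeries K) a * z' ^ m
  rw [ModularCurve.algebraMap_laurentSeries_eq_single]
  rfl

/-- the invariance of functions with expansion in the function field -/
theorem eq_one_of_smul {N : ℕ} [NeZero N] {G : ℍ → ℂ} {Y : LaurentSeries ℂ}
    (hY : HasExp (RingHom.id ℂ) (qN 1) G Y) (hY0 : Y ≠ 0) (hYF : Y ∈ F0 ℂ N) {γ : SL(2, ℤ)}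
    (hγ : γ ∈ Gamma0 N) {c : ℂ} (hc : ∀ τ : ℍ, G (γ • τ) = c * G τ) : c = 1 := by
  obtain ⟨a, b, hb0, hab, hev⟩ := exists_quot (N := N) (RingHom.id ℂ) (h := ⟨Y, hYF⟩) hY
  have ha0 : a ≠ 0 := by
    rintro rfl
    rw [map_zero] at hab
    rcases mul_eq_zero.mp hab with h1 | h1
    · exact hY0 (congrArg Subtype.val h1)
    · exact hb0 ((IsFractionRing.to_map_eq_zero_iff (K := F0 ℂ N)).mp h1)
  have ha1 : evA (RingHom.id ℂ) N a ≠ 0 := by
    intro h1
    exact ha0 (evA_injective (ι := RingHom.id ℂ) (h1.trans (map_zero _).symm))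
  have hinvA : ∀ x : A0 ℂ N, ∀ τ, evA (RingHom.id ℂ) N x (γ • τ) = evA (RingHom.id ℂ) N x τ := by
    intro x τ
    have hle : A0 ℂ N ≤ holC (RingHom.id ℂ) N := Algebra.adjoin_le gens_subset_holC
    obtain ⟨f, hf1, hf2, hf3⟩ := hle x.2
    rw [evA_eq hf3]
    exact hf2 γ hγ τ
  obtain ⟨τ, hτ⟩ := Function.ne_iff.mp ha1
  have h1 := congrFun hev (γ • τ)
  have h2 := congrFun hev τ
  rw [Pi.mul_apply] at h1 h2
  rw [hinvA, hinvA, hc, mul_assoc, ← h2] at h1
  exact (mul_right_cancel₀ hτ ((one_mul _).trans h1)).symm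

/-- **If the norm is a power then the transfer is trivial.** -/
theorem trOne_of_powC {ι : K →+* ℂ} (hq : q.Prime) (hqM : ¬ q ∣ M) (hN : N = q ^ 2 * M)
    {f : ℍ → ℂ} (hf : f ∈ MB) {χ : Gamma0 N →* ℂˣ} (hpar : IsPar χ)
    (hfχ : ∀ (γ : Gamma0 N) (τ : ℍ), f ((γ : SL(2, ℤ)) • τ) = (χ γ : ℂ) * f τ)
    {m : ℕ} (hm : 0 < m)
    {h : F0 K N} (h0 : h ≠ 0) (hh : HasExp ι (qN 1) (f ^ m) (h : LaurentSeries K))
    (hP : PowC hN m h) : TrOne q M χ := by
  obtain ⟨H, hH0, a, ha, hHa⟩ := hP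
  have h1 := hasExp_trF hq hqM hN hf hfχ h0 hh
  set G := trF q M f with hG
  have hGM : G ∈ MB := trF_mem_MB hf
  obtain ⟨Y, hY⟩ := exists_exp_of_MB hGM 1 fun τ => by
    have h3 : (((1 : ℕ) : ℝ) +ᵥ τ : ℍ) = ModularGroup.T • τ := by
      rw [modular_T_smul, Nat.cast_one]
    rw [h3, hG, trF_apply, trF_apply]
    refine Finset.prod_congr rfl fun c _ => ?_
    have h4 : al q M ((c : ℕ) : ℤ) • ModularGroup.T • τ =
        (al q M ((c : ℕ) : ℤ) * ModularGroup.T * (al q M ((c : ℕ) : ℤ))⁻¹) •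
          al q M ((c : ℕ) : ℤ) • τ := by
      rw [← mul_smul, ← mul_smul, inv_mul_cancel_right]
    have h5 := hfχ ⟨_, al_conj_T hN ((c : ℕ) : ℤ)⟩ (al q M ((c : ℕ) : ℤ) • τ)
    rw [hpar _ (by
      change trS (al q M ((c : ℕ) : ℤ) * ModularGroup.T * (al q M ((c : ℕ) : ℤ))⁻¹) ^ 2 = 4
      rw [trS_conj, ← zpow_one ModularGroup.T, trS_T_zpow]
      norm_num), Units.val_one, one_mul] at h5
    rw [h4]
    exact h5
  have hYm : Y ^ m = ModularCurve.coeffMap ι (nrm hN h : LaurentSeries K) :=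
    (hY.pow m).unique Function.injective_id (isParam_qN 1) h1
  have hn0 : (nrm hN h : LaurentSeries K) ≠ 0 := fun h2 =>
    nrm_ne_zero ι hq hqM hN h0 (Subtype.ext h2)
  have hY0 : Y ≠ 0 := by
    rintro rfl
    rw [zero_pow hm.ne'] at hYm
    exact hn0 ((map_eq_zero_iff _ (RingHom.injective (ModularCurve.coeffMap ι))).mp hYm.symm)
  -- `Y` is proportional to `H`
  obtain ⟨c₀, hc₀⟩ := IsAlgClosed.exists_pow_nat_eq (ι a) hm
  have hc₀0 : c₀ ≠ 0 := by
    rintro rfl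
    rw [zero_pow hm.ne'] at hc₀
    exact ha ((_root_.map_eq_zero ι).mp hc₀.symm)
  set H' : LaurentSeries ℂ := ModularCurve.coeffMap ι (H : LaurentSeries K) with hH'
  have hH'0 : H' ≠ 0 := by
    intro h2
    exact hH0 (Subtype.ext ((map_eq_zero_iff _
      (RingHom.injective (ModularCurve.coeffMap ι))).mp h2))
  have hCc : (HahnSeries.C c₀ : LaurentSeries ℂ) ≠ 0 := by
    rwa [Ne, map_eq_zero_iff _ HahnSeries.C_injective]
  have hZ : HahnSeries.C c₀ * H' ≠ 0 := mul_ne_zero hCc hH'0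
  have hpow : Y ^ m = (HahnSeries.C c₀ * H') ^ m := by
    have h3 : (nrm hN h : LaurentSeries K) = algebraMap K (LaurentSeries K) a *
        (H : LaurentSeries K) ^ m := congrArg Subtype.val hHa
    have h4 : (HahnSeries.C c₀ : LaurentSeries ℂ) ^ m = HahnSeries.C (ι a) := by
      rw [← map_pow, hc₀]
    rw [hYm, h3, RingHom.map_mul, map_pow, mul_pow, h4,
      ModularCurve.algebraMap_laurentSeries_eq_single, ModularCurve.coeffMap_single]
    rfl
  obtain ⟨ζ, hζ⟩ : ∃ ζ : ℂ, IsPrimitiveRoot ζ m := ⟨_, Complex.isPrimitiveRoot_exp m hm.ne'⟩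
  have hm0 : NeZero m := ⟨hm.ne'⟩
  have hζ' : IsPrimitiveRoot (HahnSeries.C ζ : LaurentSeries ℂ) m :=
    hζ.map_of_injective HahnSeries.C_injective
  have h2 : (Y / (HahnSeries.C c₀ * H')) ^ m = 1 := by
    rw [div_pow, hpow, div_self (pow_ne_zero _ hZ)]
  obtain ⟨i, -, hi⟩ := hζ'.eq_pow_of_pow_eq_one h2
  have h3 : Y = HahnSeries.C (ζ ^ i) * (HahnSeries.C c₀ * H') := by
    rw [map_pow, hi, div_mul_cancel₀ _ hZ]
  have hCmem : ∀ c : ℂ, (HahnSeries.C c : LaurentSeries ℂ) ∈ F0 ℂ (q * M) := by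
    intro c
    have h4 := (F0 ℂ (q * M)).algebraMap_mem c
    rw [ModularCurve.algebraMap_laurentSeries_eq_single] at h4
    exact h4
  have hYF : Y ∈ F0 ℂ (q * M) := by
    rw [h3]
    exact mul_mem (hCmem _) (mul_mem (hCmem _) (coeffMap_mem_adjoin ι H.2))
  intro γ hγ γ' s hs
  have hbij : Function.Bijective s := by
    apply Finite.injective_iff_bijective.mp
    intro x y hxy
    apply al_inj (NeZero.ne M) (NeZero.ne q)
    have e1 : al q M ((x : ℕ) : ℤ) * (al q M ((y : ℕ) : ℤ))⁻¹ =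
        (γ' x : SL(2, ℤ)) * ((γ' y : SL(2, ℤ)))⁻¹ := by
      have e2 := hs x
      have e3 := hs y
      rw [hxy] at e2
      have e4 : al q M ((x : ℕ) : ℤ) = (γ' x : SL(2, ℤ)) * al q M ((s y : ℕ) : ℤ) * γ⁻¹ := by
        rw [← e2, mul_inv_cancel_right]
      have e5 : al q M ((y : ℕ) : ℤ) = (γ' y : SL(2, ℤ)) * al q M ((s y : ℕ) : ℤ) * γ⁻¹ := by
        rw [← e3, mul_inv_cancel_right]
      rw [e4, e5]
      group
    rw [e1, ← hN]
    exact mul_mem (γ' x).2 (inv_mem (γ' y).2)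
  have h4 := eq_one_of_smul hY hY0 hYF hγ (c := ((∏ c, χ (γ' c) : ℂˣ) : ℂ))
    (trF_smul hfχ hbij hs)
  exact Units.ext h4

end Powers

end Fermat.Agent.LG
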