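import Mathlib
import Fermat.Agent.LG.Pow3
import Fermat.Agent.LG.ArStar

/-!
Characters with trivial transfer to the level `qM`: Galois stability.
-/

set_option autoImplicit false
set_option linter.unusedSectionVars false

open Matrix.SpecialLinearGroup CongruenceSubgroup ModularGroup
open scoped MatrixGroups ModularForm Manifold
open UpperHalfPlane hiding I J
open Complex (I)
open Fermat.Agent.ModFun Fermat.Agent.ESCore Fermat.Agent.ESCore.Gal IntermediateField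

noncomputable section

universe u

namespace Fermat.Agent.LG

section P

variable {K : Type u} [Field K] {q M N : ℕ} [NeZero q] [NeZero M] [NeZero N] {ι : K →+* ℂ}

/-- **(P)** -/
theorem XSer.powC (hq : q.Prime) (hqM : ¬ q ∣ M) (hN : N = q ^ 2 * M) {χ : Gamma0 N →* ℂˣ}
    {y : LaurentSeries K} (hy : XSer ι N χ y) (hy0 : y ≠ 0) {m : ℕ} (hm : 0 < m)
    (hχm : χ ^ m = 1) (hT : TrOne q M χ) : PowC hN m ⟨y ^ m, hy.pow_mem_F0 hχm⟩ := by
  have hy' := hy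
  obtain ⟨f, hf, hf', hfy⟩ := hy'
  exact powC_of_trOne hq hqM hN hf hf' hT hm
    (fun h => pow_ne_zero m hy0 (congrArg Subtype.val h)) (hfy.pow m)

/-- the converse of **(P)** -/
theorem XSer.trOne (hq : q.Prime) (hqM : ¬ q ∣ M) (hN : N = q ^ 2 * M) {χ : Gamma0 N →* ℂˣ}
    (hpar : IsPar χ) {y : LaurentSeries K} (hy : XSer ι N χ y) (hy0 : y ≠ 0) {m : ℕ} (hm : 0 < m)
    (hχm : χ ^ m = 1) (hP : PowC hN m ⟨y ^ m, hy.pow_mem_F0 hχm⟩) : TrOne q M χ := by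
  have hy' := hy
  obtain ⟨f, hf, hf', hfy⟩ := hy'
  have h0 : (⟨y ^ m, hy.pow_mem_F0 hχm⟩ : F0 K N) ≠ 0 :=
    fun h => pow_ne_zero m hy0 (congrArg Subtype.val h)
  exact trOne_of_powC hq hqM hN hf hpar hf' hm (h := ⟨y ^ m, hy.pow_mem_F0 hχm⟩) h0
    (hfy.pow m) hP

theorem hasExp_slash_pow (B : Bez (q ^ 2) M) (hq : q.Prime) (hN : N = q ^ 2 * M)
    {χ : Gamma0 N →* ℂˣ} {m : ℕ} {f : ℍ → ℂ} (hf : f ∈ MB)
    (hf' : ∀ (γ : Gamma0 N) (τ : ℍ), f ((γ : SL(2, ℤ)) • τ) = (χ γ : ℂ) * f τ)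
    (hχm : χ ^ m = 1) {h : F0 K N} (hh : HasExp ι (qN 1) (f ^ m) (h : LaurentSeries K)) :
    HasExp ι (qN 1) (B.slash f ^ m) (B.wF2 ι hq hN h : LaurentSeries K) := by
  have h1 := B.slash_smul dvd_rfl hN hf'
  have h2 : compW B.W (f ^ m) = B.slash f ^ m := rfl
  obtain ⟨z, hz⟩ := exists_exp_of_MB (pow_mem (B.slash_mem_MB hf) m) 1 fun τ => by
    have h3 : (((1 : ℕ) : ℝ) +ᵥ τ : ℍ) = ModularGroup.T • τ := by
      rw [modular_T_smul, Nat.cast_one]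
    have h4 := h1 ⟨ModularGroup.T, by
      rw [← zpow_one ModularGroup.T, Gamma0_mem, ModularGroup.coe_T_zpow]; simp⟩ τ
    have h5 : ∀ γ, ((B.wChar dvd_rfl hN χ γ : ℂˣ) : ℂ) ^ m = 1 := by
      intro γ
      rw [← Units.val_pow_eq_pow_val, ← MonoidHom.pow_apply, ← B.wChar_pow, hχm, B.wChar_one,
        MonoidHom.one_apply, Units.val_one]
    rw [h3, Pi.pow_apply, h4, mul_pow, h5, one_mul, Pi.pow_apply]
  have h3 := (B.wPerm2 hq hN).wF_hasExp' hh (z := z) hz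
  rw [h2] at h3
  exact h3

/-- **(P')** -/
theorem XSer.powC_w (B : Bez (q ^ 2) M) (hq : q.Prime) (hqM : ¬ q ∣ M) (hN : N = q ^ 2 * M)
    {χ : Gamma0 N →* ℂˣ} {y : LaurentSeries K} (hy : XSer ι N χ y) (hy0 : y ≠ 0) {m : ℕ}
    (hm : 0 < m) (hχm : χ ^ m = 1) (hT : TrOne q M (B.wChar dvd_rfl hN χ)) :
    PowC hN m (B.wF2 ι hq hN ⟨y ^ m, hy.pow_mem_F0 hχm⟩) := by
  have hy' := hy
  obtain ⟨f, hf, hf', hfy⟩ := hy'
  have h0 : (⟨y ^ m, hy.pow_mem_F0 hχm⟩ : F0 K N) ≠ 0 :=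
    fun h => pow_ne_zero m hy0 (congrArg Subtype.val h)
  refine powC_of_trOne hq hqM hN (B.slash_mem_MB hf) (B.slash_smul dvd_rfl hN hf') hT hm ?_
    (hasExp_slash_pow B hq hN hf hf' hχm (hfy.pow m))
  exact (map_ne_zero_iff (B.wF2 ι hq hN) (B.wF2 ι hq hN).injective).mpr h0

/-- the converse of **(P')** -/
theorem XSer.trOne_w (B : Bez (q ^ 2) M) (hq : q.Prime) (hqM : ¬ q ∣ M) (hN : N = q ^ 2 * M)
    {χ : Gamma0 N →* ℂˣ} (hpar : IsPar χ) {y : LaurentSeries K} (hy : XSer ι N χ y) (hy0 : y ≠ 0)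
    {m : ℕ} (hm : 0 < m) (hχm : χ ^ m = 1)
    (hP : PowC hN m (B.wF2 ι hq hN ⟨y ^ m, hy.pow_mem_F0 hχm⟩)) :
    TrOne q M (B.wChar dvd_rfl hN χ) := by
  have hy' := hy
  obtain ⟨f, hf, hf', hfy⟩ := hy'
  have h0 : (⟨y ^ m, hy.pow_mem_F0 hχm⟩ : F0 K N) ≠ 0 :=
    fun h => pow_ne_zero m hy0 (congrArg Subtype.val h)
  have h1 := hasExp_slash_pow B hq hN hf hf' hχm (h := ⟨y ^ m, hy.pow_mem_F0 hχm⟩) (hfy.pow m)
  have h2 : B.wF2 ι hq hN ⟨y ^ m, hy.pow_mem_F0 hχm⟩ ≠ 0 :=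
    (map_ne_zero_iff (B.wF2 ι hq hN) (B.wF2 ι hq hN).injective).mpr h0
  exact trOne_of_powC hq hqM hN (B.slash_mem_MB hf) (B.wChar_isPar dvd_rfl hN hpar)
    (B.slash_smul dvd_rfl hN hf') hm h2 h1 hP

/-- the norm commutes with the action on the coefficients -/
theorem nrm_actF (hN : N = q ^ 2 * M) (d : K ≃+* K) (h : F0 K N) :
    nrm hN (actF d N h) = actF d (q * M) (nrm hN h) := by
  have h1 := @Algebra.norm_eq_of_equiv_equiv (F0 K (q * M)) (F0 K N) (F0 K (q * M)) (F0 K N)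
    _ _ _ _ (algI (F0_le_sq (K := K) (q := q) (M := M) hN))
    (algI (F0_le_sq (K := K) (q := q) (M := M) hN)) (actF d (q * M)) (actF d N) (by
      ext x
      rfl) h
  rw [nrm]
  apply (actF d (q * M)).symm.injective
  rw [RingEquiv.symm_apply_apply]
  exact h1.symm

theorem PowC.actF {hN : N = q ^ 2 * M} {m : ℕ} {h : F0 K N} (hP : PowC hN m h) (d : K ≃+* K) :
    PowC hN m (LG.actF d N h) := by
  obtain ⟨H, hH0, a, ha, hHa⟩ := hP
  refine ⟨LG.actF d (q * M) H, ?_, d a, ?_, ?_⟩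
  · exact (map_ne_zero_iff _ (LG.actF d (q * M)).injective).mpr hH0
  · exact (map_ne_zero_iff _ d.injective).mpr ha
  · rw [nrm_actF, hHa, map_mul, map_pow, actF_C]

end P

section Gal

variable {q M N : ℕ} [NeZero q] [NeZero M] [NeZero N]

/-- **The triviality of the transfer is Galois stable.** -/
theorem trOne_galX (hNE : NoEll N) (hq : q.Prime) (hqM : ¬ q ∣ M) (hN : N = q ^ 2 * M) {m : ℕ}
    (hm : 0 < m) (σ : GQ) (χ : XG N m) (hpar : IsPar χ.1) (h : TrOne q M χ.1) :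
    TrOne q M (galX N hm σ χ).1 := by
  obtain ⟨y, hy0, hy⟩ := exists_xSer hm χ
  have h1 := hy.powC hq hqM hN hy0 hm χ.2.1 h
  have h2 := h1.actF σ.toRingEquiv
  have hy' := xSer_galX hm σ χ hy
  have hy'0 : ModularCurve.coeffMap (σ.toRingEquiv.toRingHom : Qb →+* Qb) y ≠ 0 := by
    rwa [Ne, _root_.map_eq_zero]
  refine hy'.trOne hq hqM hN (isPar_galX hNE hm σ χ hpar) hy'0 hm (galX N hm σ χ).2.1 ?_
  convert h2 using 1
  apply Subtype.ext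
  exact (map_pow (ModularCurve.coeffMap (σ.toRingEquiv.toRingHom : Qb →+* Qb)) y m).symm

/-- **The triviality of the transfer of the transform by `W` is Galois stable.** -/
theorem trOne_w_galX (B : Bez (q ^ 2) M) (hNE : NoEll N) (hq : q.Prime) (hqM : ¬ q ∣ M)
    (hN : N = q ^ 2 * M) {m : ℕ} (hm : 0 < m) (σ : GQ) (χ : XG N m) (hpar : IsPar χ.1)
    (h : TrOne q M (B.wChar dvd_rfl hN χ.1)) :
    TrOne q M (B.wChar dvd_rfl hN (galX N hm σ χ).1) := by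
  obtain ⟨y, hy0, hy⟩ := exists_xSer hm χ
  have h1 := hy.powC_w B hq hqM hN hy0 hm χ.2.1 h
  have h2 := h1.actF σ.toRingEquiv
  have hy' := xSer_galX hm σ χ hy
  have hy'0 : ModularCurve.coeffMap (σ.toRingEquiv.toRingHom : Qb →+* Qb) y ≠ 0 := by
    rwa [Ne, _root_.map_eq_zero]
  refine hy'.trOne_w B hq hqM hN (isPar_galX hNE hm σ χ hpar) hy'0 hm (galX N hm σ χ).2.1 ?_
  rw [← B.wF2_actF] at h2
  convert h2 using 2
  apply Subtype.ext
  exact (map_pow (ModularCurve.coeffMap (σ.toRingEquiv.toRingHom : Qb →+* Qb)) y m).symm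

theorem TrOne.mul {χ ψ : Gamma0 N →* ℂˣ} (h1 : TrOne q M χ) (h2 : TrOne q M ψ) :
    TrOne q M (χ * ψ) := by
  intro γ hγ γ' s hs
  have h3 : ∀ c, (χ * ψ) (γ' c) = χ (γ' c) * ψ (γ' c) := fun _ => rfl
  rw [Finset.prod_congr rfl fun c _ => h3 c, Finset.prod_mul_distrib, h1 γ hγ γ' s hs,
    h2 γ hγ γ' s hs, one_mul]

theorem TrOne.inv {χ : Gamma0 N →* ℂˣ} (h1 : TrOne q M χ) : TrOne q M χ⁻¹ := by
  intro γ hγ γ' s hs
  have h3 : ∀ c, (χ⁻¹) (γ' c) = (χ (γ' c))⁻¹ := fun _ => rfl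
  rw [Finset.prod_congr rfl fun c _ => h3 c, Finset.prod_inv_distrib, h1 γ hγ γ' s hs, inv_one]

theorem TrOne.one : TrOne q M (1 : Gamma0 N →* ℂˣ) := by
  intro γ hγ γ' s hs
  exact Finset.prod_eq_one fun c _ => rfl

end Gal

end Fermat.Agent.LG
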