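import Fermat.Agent.LG.R36b
import Fermat.Agent.ESCore.S34Final
import Fermat.Agent.ESCore.AssemblyAdic

set_option autoImplicit false

/-!
# S36 from the vanishing theorem for the characters fixed by inertia
-/

open IsLocalRing CongruenceSubgroup Matrix.SpecialLinearGroup Polynomial
open scoped MatrixGroups

noncomputable section

namespace Fermat.Agent.LG

open ESCore ESCore.ModP ESCore.Tower ESCore.Univ UnivDef Fermat.Agent.NF

section Mat

variable {R : Type*} [CommRing R] [IsDomain R]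

/-- two nilpotent matrices whose product has trace zero -/
theorem nil_mul {a b : Matrix (Fin 2) (Fin 2) R} (ha : a.trace = 0) (ha' : a.det = 0)
    (hb : b.trace = 0) (hb' : b.det = 0) (hab : (a * b).trace = 0) : a * b = 0 := by
  rw [Matrix.trace_fin_two] at ha hb hab
  rw [Matrix.det_fin_two] at ha' hb'
  simp only [Matrix.mul_apply, Fin.sum_univ_two] at hab
  obtain ⟨x, y, z, w, rfl⟩ : ∃ x y z w, a = !![x, y; z, w] :=
    ⟨a 0 0, a 0 1, a 1 0, a 1 1, by ext i j; fin_cases i <;> fin_cases j <;> rfl⟩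
  obtain ⟨x', y', z', w', rfl⟩ : ∃ x y z w, b = !![x, y; z, w] :=
    ⟨b 0 0, b 0 1, b 1 0, b 1 1, by ext i j; fin_cases i <;> fin_cases j <;> rfl⟩
  simp only [Matrix.of_apply, Matrix.cons_val', Matrix.cons_val_zero, Matrix.cons_val_one,
    Matrix.cons_val_fin_one] at ha hb hab ha' hb'
  obtain rfl : w = -x := by linear_combination ha
  obtain rfl : w' = -x' := by linear_combination hb
  have h1 : x * y' - y * x' = 0 := by
    rw [← pow_eq_zero_iff (two_ne_zero)]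
    linear_combination (-y' ^ 2) * ha' - y ^ 2 * hb' - y * y' * hab
  have h2 : z * x' - x * z' = 0 := by
    rw [← pow_eq_zero_iff (two_ne_zero)]
    linear_combination (-z' ^ 2) * ha' - z ^ 2 * hb' - z * z' * hab
  have h3 : x * x' + y * z' = 0 := by
    rw [← pow_eq_zero_iff (two_ne_zero)]
    linear_combination (x * x' + y * z') * hab - (x' * -x' - y' * z') * ha' -
      (x * y' - y * x') * h2
  have h4 : z * y' + x * x' = 0 := by linear_combination hab - h3
  ext i j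
  fin_cases i <;> fin_cases j
  · simp [Matrix.mul_apply, Fin.sum_univ_two]
    linear_combination h3
  · simp [Matrix.mul_apply, Fin.sum_univ_two]
    linear_combination h1
  · simp [Matrix.mul_apply, Fin.sum_univ_two]
    linear_combination h2
  · simp [Matrix.mul_apply, Fin.sum_univ_two]
    linear_combination h4

theorem slot {A : Type*} [CommRing A] {G : Type*} {r : G → Matrix (Fin 2) (Fin 2) A}
    (hr : Submodule.span A (Set.range r) = ⊤) (P : Matrix (Fin 2) (Fin 2) A → A)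
    (h0 : P 0 = 0) (hadd : ∀ X Y, P (X + Y) = P X + P Y) (hsmul : ∀ (c : A) X, P (c • X) = c * P X)
    (h : ∀ g, P (r g) = 0) (X : Matrix (Fin 2) (Fin 2) A) : P X = 0 := by
  have hX : X ∈ Submodule.span A (Set.range r) := by rw [hr]; trivial
  induction hX using Submodule.span_induction with
  | mem x hx =>
    obtain ⟨g, rfl⟩ := hx
    exact h g
  | zero => exact h0
  | add x y _ _ hx hy => rw [hadd, hx, hy, add_zero]
  | smul c x _ hx => rw [hsmul, hx, mul_zero]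

/-- existence of elements with non-vanishing trace of commutators -/
theorem exists_comm_trace {A : Type*} [CommRing A] [Nontrivial A] {G : Type*} [Group G]
    (r : G →* Matrix (Fin 2) (Fin 2) A) (hr : Submodule.span A (Set.range r) = ⊤) :
    ∃ a b k a' b' : G, (r (a * b * k * (a' * b'))).trace - (r (a * b * k * (b' * a'))).trace -
      (r (b * a * k * (a' * b'))).trace + (r (b * a * k * (b' * a'))).trace ≠ 0 := by
  by_contra hcon
  push Not at hcon
  let P : Matrix (Fin 2) (Fin 2) A → Matrix (Fin 2) (Fin 2) A → Matrix (Fin 2) (Fin 2) A →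
    Matrix (Fin 2) (Fin 2) A → Matrix (Fin 2) (Fin 2) A → A := fun X Y Z X' Y' =>
    ((X * Y - Y * X) * Z * (X' * Y' - Y' * X')).trace
  have h0 : ∀ a b k a' b' : G, P (r a) (r b) (r k) (r a') (r b') = 0 := by
    intro a b k a' b'
    rw [← hcon a b k a' b', ← Matrix.trace_sub, ← Matrix.trace_sub, ← Matrix.trace_add]
    simp only [P, map_mul]
    congr 1
    noncomm_ring
  have h1 : ∀ X (b k a' b' : G), P X (r b) (r k) (r a') (r b') = 0 := by
    intro X b k a' b'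
    refine slot hr (fun X => P X (r b) (r k) (r a') (r b')) ?_ ?_ ?_ (fun g => h0 g b k a' b') X
    · simp [P]
    · intro X Y
      simp only [P]
      rw [← Matrix.trace_add]
      congr 1
      noncomm_ring
    · intro c X
      simp only [P, smul_mul_assoc, mul_smul_comm, ← smul_sub, Matrix.trace_smul, smul_eq_mul]
  have h2 : ∀ X Y (k a' b' : G), P X Y (r k) (r a') (r b') = 0 := by
    intro X Y k a' b'
    refine slot hr (fun Y => P X Y (r k) (r a') (r b')) ?_ ?_ ?_ (fun g => h1 X g k a' b') Y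
    · simp [P]
    · intro Y Y'
      simp only [P]
      rw [← Matrix.trace_add]
      congr 1
      noncomm_ring
    · intro c Y
      simp only [P, smul_mul_assoc, mul_smul_comm, ← smul_sub, Matrix.trace_smul, smul_eq_mul]
  have h3 : ∀ X Y Z (a' b' : G), P X Y Z (r a') (r b') = 0 := by
    intro X Y Z a' b'
    refine slot hr (fun Z => P X Y Z (r a') (r b')) ?_ ?_ ?_ (fun g => h2 X Y g a' b') Z
    · simp [P]
    · intro Y Y'
      simp only [P]
      rw [← Matrix.trace_add]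
      congr 1
      noncomm_ring
    · intro c Y
      simp only [P, smul_mul_assoc, mul_smul_comm, ← smul_sub, Matrix.trace_smul, smul_eq_mul]
  have h4 : ∀ X Y Z X' (b' : G), P X Y Z X' (r b') = 0 := by
    intro X Y Z X' b'
    refine slot hr (fun X' => P X Y Z X' (r b')) ?_ ?_ ?_ (fun g => h3 X Y Z g b') X'
    · simp [P]
    · intro Y Y'
      simp only [P]
      rw [← Matrix.trace_add]
      congr 1
      noncomm_ring
    · intro c Y
      simp only [P, smul_mul_assoc, mul_smul_comm, ← smul_sub, Matrix.trace_smul, smul_eq_mul]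
  have h5 : ∀ X Y Z X' Y', P X Y Z X' Y' = 0 := by
    intro X Y Z X' Y'
    refine slot hr (fun Y' => P X Y Z X' Y') ?_ ?_ ?_ (fun g => h4 X Y Z X' g) Y'
    · simp [P]
    · intro Y Y'
      simp only [P]
      rw [← Matrix.trace_add]
      congr 1
      noncomm_ring
    · intro c Y
      simp only [P, smul_mul_assoc, mul_smul_comm, ← smul_sub, Matrix.trace_smul, smul_eq_mul]
  have h6 := h5 !![0, 1; 0, 0] !![0, 0; 1, 0] !![1, 0; 0, 0] !![0, 1; 0, 0] !![0, 0; 1, 0]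
  simp [P, Matrix.trace_fin_two, Matrix.mul_apply, Fin.sum_univ_two] at h6

end Mat

/-- **(CAR)**: the vanishing theorem for the characters fixed by inertia. -/
def CARProp : Prop :=
  ∀ {q M N m : ℕ} [NeZero q] [NeZero M] [NeZero N] (_ : q.Prime) (_ : ¬ q ∣ M)
    (_ : GoodLev q M) (hN : N = q ^ 2 * M) (hm : 0 < m) (_ : ¬ q ∣ m)
    {A : ValuationSubring Qb} (_ : A.LiesOverPrime q) (B : Bez (q ^ 2) M) (χ : XG N m),
    IsPar χ.1 → (∀ σ ∈ A.inertiaSubgroupIn ℚ, galX N hm σ χ = χ) → TrOne q M χ.1 →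
    TrOne q M (B.wChar dvd_rfl hN χ.1) → χ ^ ((q ^ 2 - 1) ^ 2) = 1

section Gd

variable {q M N : ℕ} [NeZero q] [NeZero M] [NeZero N]

/-- the characters with trivial transfers -/
def gd (B : Bez (q ^ 2) M) (hN : N = q ^ 2 * M) (m : ℕ) : Subgroup (XG N m) where
  carrier := {χ | IsPar χ.1 ∧ TrOne q M χ.1 ∧ TrOne q M (B.wChar dvd_rfl hN χ.1)}
  mul_mem' := by
    rintro χ ψ ⟨h1, h2, h3⟩ ⟨h4, h5, h6⟩
    refine ⟨h1.mul h4, h2.mul h5, ?_⟩
    have h7 := h3.mul h6
    rw [← B.wChar_mul] at h7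
    exact h7
  one_mem' := by
    refine ⟨IsPar.one, TrOne.one, ?_⟩
    have h7 : TrOne q M (1 : Gamma0 N →* ℂˣ) := TrOne.one
    rw [← B.wChar_one dvd_rfl hN] at h7
    exact h7
  inv_mem' := by
    rintro χ ⟨h1, h2, h3⟩
    refine ⟨h1.inv, h2.inv, ?_⟩
    have h4 : B.wChar dvd_rfl hN (χ⁻¹).1 = (B.wChar dvd_rfl hN χ.1)⁻¹ := by
      rw [eq_inv_iff_mul_eq_one, ← B.wChar_mul]
      have h5 : (χ⁻¹).1 * χ.1 = 1 := congrArg Subtype.val (inv_mul_cancel χ)
      rw [h5, B.wChar_one]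
    change TrOne q M (B.wChar dvd_rfl hN (χ⁻¹).1)
    rw [h4]
    exact h3.inv

theorem noEll_sq (hlev : GoodLev q M) (hN : N = q ^ 2 * M) : NoEll N := by
  rcases hlev with ⟨-, h⟩ | ⟨-, h⟩
  · exact noEll_of_four_dvd (hN ▸ h.trans (dvd_mul_left _ _))
  · exact noEll_of_nine_dvd (hN ▸ h.trans (dvd_mul_left _ _))

theorem gd_galX (B : Bez (q ^ 2) M) (hq : q.Prime) (hqM : ¬ q ∣ M) (hlev : GoodLev q M)
    (hN : N = q ^ 2 * M) {m : ℕ} (hm : 0 < m) (σ : GQ) {χ : XG N m} (hχ : χ ∈ gd B hN m) :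
    galX N hm σ χ ∈ gd B hN m :=
  ⟨isPar_galX (noEll_sq hlev hN) hm σ χ hχ.1,
    trOne_galX (noEll_sq hlev hN) hq hqM hN hm σ χ hχ.1 hχ.2.1,
    trOne_w_galX B (noEll_sq hlev hN) hq hqM hN hm σ χ hχ.1 hχ.2.2⟩

end Gd

section Rep

variable {N : ℕ} [NeZero N] {S : Finset ℕ}

/-- trace and determinant from the characteristic polynomial -/
theorem trace_det_of_charpoly {O : Type} [CommRing O] [IsLocalRing O] {ρ : GaloisRepAdic O}
    (b : Module.Basis (Fin 2) O ρ.V) {σ : GQ} {x y : O}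
    (h : LinearMap.charpoly (ρ.ρ σ) = X ^ 2 - C x * X + C y) :
    (matOf ρ b σ).trace = x ∧ (matOf ρ b σ).det = y := by
  rw [← LinearMap.charpoly_toMatrix (ρ.ρ σ) b] at h
  change (matOf ρ b σ).charpoly = _ at h
  nontriviality O
  rw [Matrix.charpoly_fin_two] at h
  constructor
  · have h3 := congrArg (fun P : Polynomial O => P.coeff 1) h
    simp only [Polynomial.coeff_add, Polynomial.coeff_sub, Polynomial.coeff_X_pow,
      Polynomial.coeff_C_mul, Polynomial.coeff_X_one, Polynomial.coeff_C_succ, mul_one,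
      add_zero] at h3
    simpa using h3
  · have h3 := congrArg (fun P : Polynomial O => P.coeff 0) h
    simpa using h3

/-- **The representation attached to a newform is not unipotent on the inertia at `q` if
`q²` exactly divides the level.** -/
theorem not_unipotent_of_car (hCAR : CARProp) {g : CuspForm (Gamma0 N) 2} (hg : g.IsNewform)
    {p : ℕ} (hp : p.Prime)
    (hpS : p ∈ S) (hNS : ∀ q : ℕ, q.Prime → q ∣ N → q ∈ S)
    (hKL : ∀ l : ℕ, l.Prime → ¬ l ∣ N → l ≠ p → ∀ B : ValuationSubring Qb,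
      B.LiesOverPrime l → ∀ n, KLProp N (p ^ n) B)
    {O : Type} [CommRing O] [IsDomain O] [IsDiscreteValuationRing O]
    [IsAdicComplete (maximalIdeal O) O] [Finite (ResidueField O)]
    [CharZero O] (hpO : (p : O) ∈ maximalIdeal O)
    (chi : CuspForm.heckeAlgebra N 2 (↑S : Set ℕ) →+* ℂ)
    (hchi : ∀ (l : ℕ) (hl : l.Prime) (hlN : ¬ l ∣ N) (hlS : l ∉ (↑S : Set ℕ)),
      chi (CuspForm.heckeAlgebra.T hl hlN hlS) = ModularFormClass.qCoeff g l)
    (iota : chi.range →+* O)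
    {c : ℕ} {t : GQ → O} {ε : GQ →* Oˣ}
    (ht : ∀ σ, ∀ f ∈ algP (TxS N S p) (TtS N S), ∀ n m, n + c ≤ m →
        f.1 m = ESCore.trS (rhoT N hp.pos m) (chiT N hp.pos m) σ →
        t σ - (iota.comp chi.rangeRestrict) f.2 ∈ Ideal.span {(p : O) ^ n})
    {ρ : GaloisRepAdic O} (hρ : ∀ σ, LinearMap.charpoly (ρ.ρ σ) =
        X ^ 2 - C (t σ) * X + C (ε σ : O))
    (habs : ρ.residual.IsAbsolutelyIrreducible)
    {q : ℕ} (hq : q.Prime) (hqp : q ≠ p) (hqN : N.factorization q = 2) :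
    ¬ ρ.IsUnipotentOnInertiaAt q := by
  intro huni
  obtain ⟨A, hA⟩ := GaloisBasics.exists_liesOverPrime hq
  let b : Module.Basis (Fin 2) O ρ.V :=
    (Module.finBasis O ρ.V).reindex (finCongr ρ.finrank_eq)
  have htd : ∀ σ, (matOf ρ b σ).trace = t σ ∧ (matOf ρ b σ).det = ε σ := fun σ =>
    trace_det_of_charpoly b (hρ σ)
  -- inertia
  have hin : ∀ σ ∈ A.inertiaSubgroupIn ℚ, (matOf ρ b σ).trace = 2 ∧ (matOf ρ b σ).det = 1 := by
    intro σ hσ
    refine trace_det_of_charpoly b ?_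
    rw [huni A hA σ hσ]
    simp only [map_ofNat, map_one]
    ring
  have hnil : ∀ σ ∈ A.inertiaSubgroupIn ℚ, (matOf ρ b σ - 1).trace = 0 ∧
      (matOf ρ b σ - 1).det = 0 := by
    intro σ hσ
    obtain ⟨h1, h2⟩ := hin σ hσ
    rw [Matrix.trace_fin_two] at h1
    rw [Matrix.det_fin_two] at h2
    constructor
    · rw [Matrix.trace_fin_two]
      simp only [Matrix.sub_apply, Matrix.one_apply_eq]
      linear_combination h1
    · rw [Matrix.det_fin_two]
      simp only [Matrix.sub_apply, Matrix.one_apply_eq, Matrix.one_apply_ne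
        (show (0 : Fin 2) ≠ 1 by decide), Matrix.one_apply_ne (show (1 : Fin 2) ≠ 0 by decide)]
      linear_combination h2 - h1
  have hmul : ∀ σ ∈ A.inertiaSubgroupIn ℚ, ∀ τ ∈ A.inertiaSubgroupIn ℚ,
      (matOf ρ b τ - 1) * (matOf ρ b σ - 1) = 0 := by
    intro σ hσ τ hτ
    refine nil_mul (hnil τ hτ).1 (hnil τ hτ).2 (hnil σ hσ).1 (hnil σ hσ).2 ?_
    have h1 : (matOf ρ b τ - 1) * (matOf ρ b σ - 1) =
        matOf ρ b (τ * σ) - matOf ρ b τ - matOf ρ b σ + 1 := by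
      rw [map_mul]
      noncomm_ring
    rw [h1, Matrix.trace_add, Matrix.trace_sub, Matrix.trace_sub,
      (hin _ ((A.inertiaSubgroupIn ℚ).mul_mem hτ hσ)).1, (hin _ hτ).1, (hin _ hσ).1,
      Matrix.trace_one, Fintype.card_fin]
    norm_num
  have hU : ∀ σ ∈ A.inertiaSubgroupIn ℚ, ∀ τ ∈ A.inertiaSubgroupIn ℚ, ∀ g,
      t (τ * σ * g) - t (τ * g) - t (σ * g) + t g = 0 := by
    intro σ hσ τ hτ g
    rw [← (htd _).1, ← (htd _).1, ← (htd _).1, ← (htd _).1, ← Matrix.trace_sub,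
      ← Matrix.trace_sub, ← Matrix.trace_add]
    have h1 : matOf ρ b (τ * σ * g) - matOf ρ b (τ * g) - matOf ρ b (σ * g) + matOf ρ b g =
        (matOf ρ b τ - 1) * (matOf ρ b σ - 1) * matOf ρ b g := by
      simp only [map_mul]
      noncomm_ring
    rw [h1, hmul σ hσ τ hτ, zero_mul, Matrix.trace_zero]
  -- commutators
  obtain ⟨a, b₁, k, a', b', hD⟩ := exists_comm_trace (matOf ρ b) (span_matOf_eq_top ρ habs b)
  rw [(htd _).1, (htd _).1, (htd _).1, (htd _).1] at hD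
  -- the level
  obtain ⟨K, hK, hqK⟩ : ∃ K, N = q ^ 2 * K ∧ ¬ q ∣ K := by
    refine ⟨N / q ^ N.factorization q, ?_, Nat.not_dvd_ordCompl hq (NeZero.ne N)⟩
    have h1 := Nat.ordProj_mul_ordCompl_eq_self N q
    rw [hqN] at h1 ⊢
    exact h1.symm
  have hK0 : K ≠ 0 := by
    rintro rfl
    exact NeZero.ne N (by rw [hK, mul_zero])
  have hq0 : NeZero q := ⟨hq.ne_zero⟩
  have hM : NeZero (auxLev q * K) := ⟨mul_ne_zero (auxLev_pos q).ne' hK0⟩
  have hN' : NeZero (q ^ 2 * (auxLev q * K)) := ⟨mul_ne_zero (pow_ne_zero 2 hq.ne_zero) hM.out⟩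
  have hqM : ¬ q ∣ auxLev q * K := by
    intro h
    rcases hq.dvd_mul.mp h with h | h
    · exact not_dvd_auxLev hq h
    · exact hqK h
  have hlev : GoodLev q (auxLev q * K) := goodLev_aux q K
  have hNN : N ∣ q ^ 2 * (auxLev q * K) := ⟨auxLev q, by rw [hK]; ring⟩
  obtain ⟨B⟩ := nonempty_bez (q := q ^ 2) (M := auxLev q * K)
    (((Nat.Prime.coprime_iff_not_dvd hq).mpr hqM).pow_left 2)
  -- the vector
  obtain ⟨v, φ, v₀, f₀, hv, hvT, hNC, hchar⟩ := exists_intVec_gen hg chi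
    (chi_eq hg.1 hNS chi hchi) iota
  refine false_of_car (N' := q ^ 2 * (auxLev q * K)) hp hpS hNS hKL hNN
    (I := A.inertiaSubgroupIn ℚ) hpO (π := iota.comp chi.rangeRestrict) hv hvT ht hU hD
    (E := (q ^ 2 - 1) ^ 2) ?_ (fun m => gd B rfl (p ^ m)) ?_ ?_ ?_
  · have h2 : 2 ≤ q := hq.two_le
    have h3 : 4 ≤ q ^ 2 := by nlinarith
    exact pow_ne_zero 2 (by omega)
  · intro m σ χ hχ
    exact gd_galX B hq hqM hlev rfl _ σ hχ
  · intro m ψ hψ
    refine ⟨(parC_lat _).res hNN, ?_, ?_⟩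
    · exact trOne_oChar hg hNC hchar hq hK (dvd_mul_left _ _) hqM rfl hNN ψ
    · exact trOne_w_oChar hg hNC hchar hq hK (dvd_mul_left _ _) hqM rfl hNN B ψ
  · intro m χ hχ hfix
    exact hCAR hq hqM hlev rfl (pow_pos hp.pos m)
      (fun h => hqp ((Nat.prime_dvd_prime_iff_eq hq hp).mp (hq.dvd_of_dvd_pow h))) hA B χ
      hχ.1 hfix hχ.2.1 hχ.2.2

/-- **S36** from (CAR). -/
theorem exists_rep_S36 (hCAR : CARProp) {g : CuspForm (Gamma0 N) 2} (hg : g.IsNewform)
    {p : ℕ} (hp : p.Prime)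
    (hpS : p ∈ S) (hNS : ∀ q : ℕ, q.Prime → q ∣ N → q ∈ S)
    (hKL : ∀ l : ℕ, l.Prime → ¬ l ∣ N → l ≠ p → ∀ B : ValuationSubring Qb,
      B.LiesOverPrime l → ∀ n, KLProp N (p ^ n) B)
    {O : Type} [CommRing O] [IsDomain O] [IsDiscreteValuationRing O]
    [IsAdicComplete (maximalIdeal O) O] [Finite (ResidueField O)]
    [CharZero O] (hpO : (p : O) ∈ maximalIdeal O)
    (chi : CuspForm.heckeAlgebra N 2 (↑S : Set ℕ) →+* ℂ)
    (hchi : ∀ (l : ℕ) (hl : l.Prime) (hlN : ¬ l ∣ N) (hlS : l ∉ (↑S : Set ℕ)),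
      chi (CuspForm.heckeAlgebra.T hl hlN hlS) = ModularFormClass.qCoeff g l)
    (iota : chi.range →+* O)
    (habs : ∀ ρ : GaloisRepAdic O,
      (∀ (ℓ : ℕ) (hℓ : ℓ.Prime) (hℓN : ¬ ℓ ∣ N) (hℓS : ℓ ∉ (↑S : Set ℕ)),
          ∀ A : ValuationSubring (AlgebraicClosure ℚ), A.LiesOverPrime ℓ →
            ∀ σ : AlgebraicClosure ℚ ≃ₐ[ℚ] AlgebraicClosure ℚ, A.IsFrobeniusAt σ ℓ →
              LinearMap.charpoly (ρ.ρ σ) =
                X ^ 2 - C ((iota.comp chi.rangeRestrict) (CuspForm.heckeAlgebra.T hℓ hℓN hℓS)) * X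
                  + C ((ℓ : O))) → ρ.residual.IsAbsolutelyIrreducible) :
    ∃ ρ : GaloisRepAdic O,
        (∀ (ℓ : ℕ) (hℓ : ℓ.Prime) (hℓN : ¬ ℓ ∣ N) (hℓS : ℓ ∉ (↑S : Set ℕ)),
          ∀ A : ValuationSubring (AlgebraicClosure ℚ), A.LiesOverPrime ℓ →
            ∀ σ : AlgebraicClosure ℚ ≃ₐ[ℚ] AlgebraicClosure ℚ, A.IsFrobeniusAt σ ℓ →
              LinearMap.charpoly (ρ.ρ σ) =
                X ^ 2 - C ((iota.comp chi.rangeRestrict) (CuspForm.heckeAlgebra.T hℓ hℓN hℓS)) * X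
                  + C ((ℓ : O))) ∧
        (∀ q : ℕ, q.Prime → q ≠ p → N.factorization q = 2 → ¬ ρ.IsUnipotentOnInertiaAt q) := by
  obtain ⟨c, t, ε, hps, h1, h1', h2, h3, -, h4⟩ := exists_pseudo_full hp hpS hNS hKL hpO
    (iota.comp chi.rangeRestrict)
  obtain ⟨ρ, h5, -⟩ := exists_adic_rep hpO hps (fun n => by
    obtain ⟨L, hL, h⟩ := h3 n
    exact ⟨L, hL, fun σ hσ => (h σ hσ).1⟩) h4
  have h6 : ∀ (ℓ : ℕ) (hℓ : ℓ.Prime) (hℓN : ¬ ℓ ∣ N) (hℓS : ℓ ∉ (↑S : Set ℕ)),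
          ∀ A : ValuationSubring (AlgebraicClosure ℚ), A.LiesOverPrime ℓ →
            ∀ σ : AlgebraicClosure ℚ ≃ₐ[ℚ] AlgebraicClosure ℚ, A.IsFrobeniusAt σ ℓ →
              LinearMap.charpoly (ρ.ρ σ) =
                X ^ 2 - C ((iota.comp chi.rangeRestrict) (CuspForm.heckeAlgebra.T hℓ hℓN hℓS)) * X
                  + C ((ℓ : O)) := by
    intro ℓ hℓ hℓN hℓS A hA σ hσ
    obtain ⟨h7, h8⟩ := h2 ℓ hℓ hℓN hℓS A hA σ hσ
    rw [h5, h7, h8]
  exact ⟨ρ, h6, fun q hq hqp hqN => not_unipotent_of_car hCAR hg hp hpS hNS hKL hpO chi hchi iota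
    h1 h5 (habs ρ h6) hq hqp hqN⟩

end Rep

end Fermat.Agent.LG
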