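import Mathlib
import Fermat.Agent.LG.Core2

/-!
An automorphism exchanging the two components of a curve, and fixing the crossing points, acts by
inversion on the Galois group of an abelian cover which is totally split along both components.
-/

set_option autoImplicit false
set_option linter.unusedSectionVars false

open IsLocalRing Polynomial

universe u

namespace Fermat.Agent.LG

open Fermat.Agent.Geo

section Points

variable {O F E : Type u} [CommRing O] [Field F] [Field E] [Algebra O F] [Algebra O E]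
  [Algebra F E] [IsScalarTower O F E]

theorem mem_chart_aut {v : F} {u : E} (hu : algebraMap F E v = u) (g : E ≃ₐ[F] E) {x : E}
    (hx : x ∈ chart O u) : g x ∈ chart O u := by
  obtain ⟨P, hP, hPx⟩ := hx
  refine ⟨P, hP, ?_⟩
  have h1 : ((aeval u : O[X] →ₐ[O] E) : O[X] →+* E) =
      (g : E →+* E).comp ((aeval u : O[X] →ₐ[O] E) : O[X] →+* E) := by
    ext a
    · simp [IsScalarTower.algebraMap_apply O F E]
    · simp [← hu]
  have h2 : g x = (g : E →+* E) x := rfl
  rw [h1, h2, ← hom_eval₂, hPx, map_zero]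

/-- Elements of `F` which lie in the chart of `E`. -/
theorem mem_chart_of_algebraMap {v : F} {u : E} (hu : algebraMap F E v = u) {b : F}
    (hb : algebraMap F E b ∈ chart O u) : b ∈ chart O v := by
  obtain ⟨P, hP, hPb⟩ := hb
  refine ⟨P, hP, ?_⟩
  apply (algebraMap F E).injective
  rw [hom_eval₂, map_zero]
  have h1 : (algebraMap F E).comp ((aeval v : O[X] →ₐ[O] F) : O[X] →+* F) =
      ((aeval u : O[X] →ₐ[O] E) : O[X] →+* E) := by
    ext a
    · simp [← IsScalarTower.algebraMap_apply]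
    · simp [hu]
  rw [h1]
  exact hPb

/-- The Galois group acts transitively on the points over a given point. -/
theorem exists_conj_pt [FiniteDimensional F E] [IsGalois F E] {v : F} {u : E}
    (hu : algebraMap F E v = u) (y y' : Ideal (chart O u)) (hy : y.IsMaximal) (hy' : y'.IsMaximal)
    (h : ∀ (b : F) (hb : algebraMap F E b ∈ chart O u),
      (⟨_, hb⟩ : chart O u) ∈ y' → (⟨_, hb⟩ : chart O u) ∈ y) :
    ∃ g : E ≃ₐ[F] E, ∀ (x : E) (hx : x ∈ chart O u) (hgx : g x ∈ chart O u),
      (⟨x, hx⟩ : chart O u) ∈ y' ↔ (⟨g x, hgx⟩ : chart O u) ∈ y := by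
  classical
  -- the action on the chart
  let act : (E ≃ₐ[F] E) → (chart O u →+* chart O u) := fun g =>
    ((g : E →+* E).comp (chart O u).val.toRingHom).codRestrict (chart O u).toSubring
      fun x => mem_chart_aut hu g x.2
  have hact : ∀ g (x : chart O u), ((act g x : chart O u) : E) = g x := fun g x => rfl
  by_contra hcon
  -- no conjugate of `y` contains `y'`
  have hne : ∀ g : E ≃ₐ[F] E, ¬ y' ≤ y.comap (act g) := by
    intro g hle
    have hp : (y.comap (act g)).IsPrime := by
      have := hy.isPrime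
      exact Ideal.IsPrime.comap _
    have heq : y' = y.comap (act g) := hy'.eq_of_le hp.ne_top hle
    refine hcon ⟨g, fun x hx hgx => ?_⟩
    rw [heq, Ideal.mem_comap]
    rfl
  have hpr : ∀ g ∈ (Finset.univ : Finset (E ≃ₐ[F] E)), (y.comap (act g)).IsPrime := by
    intro g _
    have := hy.isPrime
    exact Ideal.IsPrime.comap _
  obtain ⟨x, hxy', hx⟩ : ∃ x ∈ y', ∀ g : E ≃ₐ[F] E, x ∉ y.comap (act g) := by
    by_contra hcon2
    push Not at hcon2
    have h1 : (y' : Set (chart O u)) ⊆ ⋃ g ∈ ((Finset.univ : Finset (E ≃ₐ[F] E)) : Set (E ≃ₐ[F] E)),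
        (y.comap (act g) : Set (chart O u)) := by
      intro x hx
      obtain ⟨g, hg⟩ := hcon2 x hx
      simp only [Finset.coe_univ, Set.mem_univ, Set.iUnion_true, Set.mem_iUnion]
      exact ⟨g, hg⟩
    rw [Ideal.subset_union_prime 1 1 fun g hg _ _ => hpr g hg] at h1
    obtain ⟨g, -, hg⟩ := h1
    exact hne g hg
  -- the norm
  set n : chart O u := ∏ g : E ≃ₐ[F] E, act g x with hn
  have hnE : (n : E) = algebraMap F E (Algebra.norm F (x : E)) := by
    rw [Algebra.norm_eq_prod_automorphisms, hn]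
    change (chart O u).val _ = _
    rw [map_prod]
    rfl
  have hny' : n ∈ y' := by
    have h1 : act 1 x = x := rfl
    rw [hn, ← Finset.mul_prod_erase _ _ (Finset.mem_univ (1 : E ≃ₐ[F] E)), h1]
    exact Ideal.mul_mem_right _ _ hxy'
  have hmem : algebraMap F E (Algebra.norm F (x : E)) ∈ chart O u := by
    rw [← hnE]
    exact n.2
  have h2 : n = ⟨_, hmem⟩ := Subtype.ext hnE
  have h3 : n ∈ y := by
    rw [h2] at hny' ⊢
    exact h _ hmem hny'
  rw [hn] at h3
  obtain ⟨g, -, hg⟩ := (hy.isPrime.prod_mem_iff).mp h3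
  exact hx g hg

end Points

section Two

variable {O K F E : Type u} [CommRing O] [IsDomain O] [IsDiscreteValuationRing O]
  [Field K] [Field F] [Field E] [Algebra O K] [Algebra O F] [Algebra O E] [Algebra K F]
  [Algebra K E] [Algebra F E] [IsScalarTower O K E] [IsScalarTower O K F] [IsScalarTower K F E]
  [IsScalarTower O F E]
  {z : K} {π : O} [FiniteDimensional K E] [Algebra.IsSeparable K E]

/-- Conjugation by a semilinear automorphism. -/
def tauHom (δE : E ≃+* E) (δ : F ≃+* F)
    (hδ : ∀ x, δE (algebraMap F E x) = algebraMap F E (δ x)) :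
    (E ≃ₐ[F] E) →* (E ≃ₐ[F] E) where
  toFun g := AlgEquiv.ofRingEquiv (f := δE.trans ((g : E ≃+* E).trans δE.symm)) (by
    intro a
    change δE.symm (g (δE (algebraMap F E a))) = _
    rw [hδ, AlgEquiv.commutes, ← hδ, RingEquiv.symm_apply_apply])
  map_one' := by
    ext x
    exact δE.symm_apply_apply x
  map_mul' g h := by
    ext x
    change δE.symm (g (h (δE x))) = δE.symm (g (δE (δE.symm (h (δE x)))))
    rw [RingEquiv.apply_symm_apply]

theorem tauHom_apply {δE : E ≃+* E} {δ : F ≃+* F}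
    {hδ : ∀ x, δE (algebraMap F E x) = algebraMap F E (δ x)} (g : E ≃ₐ[F] E) (x : E) :
    tauHom δE δ hδ g x = δE.symm (g (δE x)) := rfl

theorem comap_tau {δE : E ≃+* E} {δ : F ≃+* F}
    {hδ : ∀ x, δE (algebraMap F E x) = algebraMap F E (δ x)} (g : E ≃ₐ[F] E)
    (W : ValuationSubring E) : (W.comap (g : E →+* E)).comap (δE : E →+* E) =
      (W.comap (δE : E →+* E)).comap ((tauHom δE δ hδ g : E ≃ₐ[F] E) : E →+* E) := by
  ext x
  change g (δE x) ∈ W ↔ δE (δE.symm (g (δE x))) ∈ W
  rw [RingEquiv.apply_symm_apply]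

theorem comap_comap_mul (W : ValuationSubring E) (g h : E ≃ₐ[F] E) :
    (W.comap (g : E →+* E)).comap (h : E →+* E) = W.comap ((g * h : E ≃ₐ[F] E) : E →+* E) := rfl

/-- **The swap theorem.** -/
theorem swap_of_two (D : SemiAut O (K := K) (E := E) z) (ht : IsParam O z)
    (hπ : Prime π) (hinj : Function.Injective (algebraMap O E))
    (hO : ∀ x : E, IsIntegral O x → ∃ o : O, algebraMap O E o = x)
    [FiniteDimensional F E] [IsGalois F E]
    (hab : ∀ g h : E ≃ₐ[F] E, g * h = h * g)
    (δ : F ≃+* F) (hδ : ∀ x, D.δ (algebraMap F E x) = algebraMap F E (δ x))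
    (P₁ P₂ : ValuationSubring F) (hP12 : P₁ ≠ P₂)
    (hP : ∀ W : ValuationSubring E, Over (gaussVal ht hπ) (algebraMap O K π) W →
      W.comap (algebraMap F E) = P₁ ∨ W.comap (algebraMap F E) = P₂)
    (hδ₁ : ∀ x, δ x ∈ P₂ ↔ x ∈ P₁) (hδ₂ : ∀ x, δ x ∈ P₁ ↔ x ∈ P₂)
    (hone : ∀ W W' : ValuationSubring E, Over (gaussVal ht hπ) (algebraMap O K π) W →
      Over (gaussVal ht hπ) (algebraMap O K π) W' →
      W.comap (algebraMap F E) = W'.comap (algebraMap F E) →
      ∀ (u : E) (y : Ideal (chart O u)), IsPt z u y → Meets y W → Meets y W' → W = W')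
    (hstab : ∀ W : ValuationSubring E, Over (gaussVal ht hπ) (algebraMap O K π) W →
      ∀ g : E ≃ₐ[F] E, W.comap (g : E →+* E) = W → g = 1)
    (hconj : ∀ W W' : ValuationSubring E, Over (gaussVal ht hπ) (algebraMap O K π) W →
      Over (gaussVal ht hπ) (algebraMap O K π) W' →
      W.comap (algebraMap F E) = W'.comap (algebraMap F E) →
      ∃ g : E ≃ₐ[F] E, W' = W.comap (g : E →+* E))
    (hinf : ∃ s : O[X], IsUnit (s.coeff 0) ∧ ∃ b₁ b₂ : F,
      b₁ ∈ chart O (algebraMap K F z)⁻¹ ∧ b₂ ∈ chart O (algebraMap K F z)⁻¹ ∧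
      b₁ ∈ P₁.nonunits ∧ b₂ ∈ P₂.nonunits ∧ b₁ + b₂ = aeval (algebraMap K F z)⁻¹ s)
    (hnode : ∀ b ∈ chart O (algebraMap K F z), ∃ k : ℕ, 0 < k ∧ ∃ b₁ b₂ : F,
      b₁ ∈ chart O (algebraMap K F z) ∧ b₂ ∈ chart O (algebraMap K F z) ∧
      b₁ ∈ P₁.nonunits ∧ b₂ ∈ P₂.nonunits ∧ δ b - b ^ k = b₁ + b₂)
    {W₀ : ValuationSubring E} (hW₀ : Over (gaussVal ht hπ) (algebraMap O K π) W₀)
    (h₀ : W₀.comap (algebraMap F E) = P₁) (g : E ≃ₐ[F] E) (x : E) :
    D.δ (g x) = g⁻¹ (D.δ x) := by
  have hzE : algebraMap F E (algebraMap K F z) = algebraMap K E z :=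
    (IsScalarTower.algebraMap_apply K F E z).symm
  let τ := tauHom D.δ δ hδ
  -- the action on the types
  have hcomapF : ∀ W : ValuationSubring E, ∀ x : F,
      x ∈ (W.comap (D.δ : E →+* E)).comap (algebraMap F E) ↔ δ x ∈ W.comap (algebraMap F E) := by
    intro W x
    rw [ValuationSubring.mem_comap, ValuationSubring.mem_comap, ValuationSubring.mem_comap]
    change D.δ (algebraMap F E x) ∈ W ↔ _
    rw [hδ]
  have ht₁ : ∀ W : ValuationSubring E, W.comap (algebraMap F E) = P₁ →
      (W.comap (D.δ : E →+* E)).comap (algebraMap F E) = P₂ := by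
    intro W hW
    ext x
    rw [hcomapF, hW, hδ₂]
  have ht₂ : ∀ W : ValuationSubring E, W.comap (algebraMap F E) = P₂ →
      (W.comap (D.δ : E →+* E)).comap (algebraMap F E) = P₁ := by
    intro W hW
    ext x
    rw [hcomapF, hW, hδ₁]
  have htg : ∀ (W : ValuationSubring E) (g : E ≃ₐ[F] E),
      (W.comap (g : E →+* E)).comap (algebraMap F E) = W.comap (algebraMap F E) := by
    intro W g
    ext x
    change g (algebraMap F E x) ∈ W ↔ algebraMap F E x ∈ W
    rw [AlgEquiv.commutes]
  have hog : ∀ (W : ValuationSubring E) (g : E ≃ₐ[F] E),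
      Over (gaussVal ht hπ) (algebraMap O K π) W →
      Over (gaussVal ht hπ) (algebraMap O K π) (W.comap (g : E →+* E)) := by
    intro W g hW
    refine ⟨fun x hx => ?_, ?_⟩
    · change g (algebraMap K E x) ∈ W
      rw [IsScalarTower.algebraMap_apply K F E, AlgEquiv.commutes,
        ← IsScalarTower.algebraMap_apply]
      exact hW.1 x hx
    · rw [comap_mem_nonunits]
      change g (algebraMap K E (algebraMap O K π)) ∈ _
      rw [IsScalarTower.algebraMap_apply K F E, AlgEquiv.commutes,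
        ← IsScalarTower.algebraMap_apply]
      exact hW.2
  have hfree : ∀ (W : ValuationSubring E), Over (gaussVal ht hπ) (algebraMap O K π) W →
      ∀ g h : E ≃ₐ[F] E, W.comap (g : E →+* E) = W.comap (h : E →+* E) → g = h := by
    intro W hW g h hgh
    have h1 : W.comap ((g * h⁻¹ : E ≃ₐ[F] E) : E →+* E) = W := by
      rw [← comap_comap_mul, hgh, comap_comap_mul, mul_inv_cancel]
      rfl
    exact mul_inv_eq_one.mp (hstab W hW _ h1)
  set V₀ := W₀.comap (D.δ : E →+* E) with hV₀def
  have hV₀ : Over (gaussVal ht hπ) (algebraMap O K π) V₀ := D.over_comap ht hπ hW₀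
  have hV₀t : V₀.comap (algebraMap F E) = P₂ := ht₁ W₀ h₀
  obtain ⟨c, hc⟩ := hconj W₀ (V₀.comap (D.δ : E →+* E)) hW₀ (D.over_comap ht hπ hV₀)
    (by rw [h₀, ht₂ V₀ hV₀t])
  -- the key relation
  have key : ∀ (a b : E ≃ₐ[F] E) (u : E) (y : Ideal (chart O u)), IsPt z u y →
      Meets y (W₀.comap (a : E →+* E)) → Meets y (V₀.comap (b : E →+* E)) →
      τ a * a = c * (τ b * b) := by
    intro a b u y hy hma hmb
    have hyp : y.IsPrime := hy.1.isPrime
    have hcen : ∀ b₁ b₂ : F, ∀ (h1 : algebraMap F E b₁ ∈ chart O u)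
        (h2 : algebraMap F E b₂ ∈ chart O u), b₁ ∈ P₁.nonunits → b₂ ∈ P₂.nonunits →
        (⟨_, h1⟩ : chart O u) ∈ y ∧ (⟨_, h2⟩ : chart O u) ∈ y := by
      intro b₁ b₂ h1 h2 hb₁ hb₂
      refine ⟨hma ⟨_, h1⟩ ?_, hmb ⟨_, h2⟩ ?_⟩
      · rw [← h₀, ← htg W₀ a] at hb₁
        exact mem_nonunits_comap'.mp hb₁
      · rw [← hV₀t, ← htg V₀ b] at hb₂
        exact mem_nonunits_comap'.mp hb₂
    obtain ⟨hyM, rfl | ⟨rfl, hyz⟩⟩ := hy
    · -- the finite chart
      have hδu : D.δ (algebraMap K E z) = algebraMap K E z := D.map_z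
      -- the action on the chart
      let act : chart O (algebraMap K E z) →+* chart O (algebraMap K E z) :=
        ((D.δ : E →+* E).comp (chart O (algebraMap K E z)).val.toRingHom).codRestrict
          (chart O (algebraMap K E z)).toSubring fun x => D.mem_chart_of hδu x.2
      have hy' : (y.comap act).IsMaximal := by
        have hsurj : Function.Surjective act := by
          intro x
          refine ⟨⟨D.δ.symm x, ?_⟩, Subtype.ext (D.δ.apply_symm_apply (x : E))⟩
          rw [← D.mem_chart_iff_of hδu, RingEquiv.apply_symm_apply]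
          exact x.2
        exact Ideal.comap_isMaximal_of_surjective act hsurj
      obtain ⟨g, hg⟩ := exists_conj_pt (F := F) hzE y (y.comap act) hyM hy' (by
        intro b hb hby
        have hbc : b ∈ chart O (algebraMap K F z) := mem_chart_of_algebraMap hzE hb
        obtain ⟨k, hk, b₁, b₂, hb₁c, hb₂c, hb₁, hb₂, hbk⟩ := hnode b hbc
        have mc : ∀ {c : F}, c ∈ chart O (algebraMap K F z) →
            algebraMap F E c ∈ chart O (algebraMap K E z) := by
          intro c hc
          rw [← hzE]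
          exact mem_chart_algebraMap hc
        have hc := hcen b₁ b₂ (mc hb₁c) (mc hb₂c) hb₁ hb₂
        rw [Ideal.mem_comap] at hby
        apply hyp.mem_of_pow_mem k
        have h1 := y.sub_mem hby (y.add_mem hc.1 hc.2)
        convert h1 using 1
        apply Subtype.ext
        change algebraMap F E b ^ k = D.δ (algebraMap F E b) -
          (algebraMap F E b₁ + algebraMap F E b₂)
        rw [hδ, ← map_add, ← hbk, map_sub, map_pow]
        ring)
      -- the point `y'' = g y = δ y`
      have hy'' : IsPt z (algebraMap K E z) (y.comap act) := ⟨hy', Or.inl rfl⟩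
      have hmδ : ∀ W : ValuationSubring E, Meets y W →
          Meets (y.comap act) (W.comap (D.δ : E →+* E)) := by
        intro W hW x hx
        rw [Ideal.mem_comap]
        apply hW
        exact (comap_mem_nonunits W (D.δ : E →+* E) _).mp hx
      have hmg : ∀ W : ValuationSubring E, Meets y W →
          Meets (y.comap act) (W.comap (g : E →+* E)) := by
        rintro W hW ⟨x, hx⟩ hxn
        have hgx := mem_chart_aut hzE g hx
        rw [hg x hx hgx]
        apply hW
        exact (comap_mem_nonunits W (g : E →+* E) _).mp hxn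
      have e1 : (W₀.comap (a : E →+* E)).comap (D.δ : E →+* E) =
          (V₀.comap (b : E →+* E)).comap (g : E →+* E) := by
        refine hone _ _ (D.over_comap ht hπ (hog _ _ hW₀)) (hog _ _ (hog _ _ hV₀)) ?_ _ _ hy''
          (hmδ _ hma) (hmg _ hmb)
        rw [ht₁ _ ((htg _ _).trans h₀), htg, htg, hV₀t]
      have e2 : (V₀.comap (b : E →+* E)).comap (D.δ : E →+* E) =
          (W₀.comap (a : E →+* E)).comap (g : E →+* E) := by
        refine hone _ _ (D.over_comap ht hπ (hog _ _ hV₀)) (hog _ _ (hog _ _ hW₀)) ?_ _ _ hy''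
          (hmδ _ hmb) (hmg _ hma)
        rw [ht₂ _ ((htg _ _).trans hV₀t), htg, htg, h₀]
      rw [comap_tau (hδ := hδ), comap_comap_mul] at e1 e2
      rw [hc, comap_comap_mul] at e2
      have e3 : τ a = b * g := hfree V₀ hV₀ _ _ e1
      have e4 : c * τ b = a * g := hfree W₀ hW₀ _ _ e2
      rw [e3, ← mul_assoc, e4, mul_assoc, hab g a, ← mul_assoc, hab b a, mul_assoc a b g, hab b g,
        ← mul_assoc]
    · -- no crossing point at infinity
      exfalso
      obtain ⟨s, hs, b₁, b₂, hb₁c, hb₂c, hb₁, hb₂, hsum⟩ := hinf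
      have mc : ∀ {c : F}, c ∈ chart O (algebraMap K F z)⁻¹ →
          algebraMap F E c ∈ chart O (algebraMap K E z)⁻¹ := by
        intro c hc
        have := mem_chart_algebraMap (E := E) hc
        rwa [map_inv₀, hzE] at this
      have hc := hcen b₁ b₂ (mc hb₁c) (mc hb₂c) hb₁ hb₂
      have h1 := y.add_mem hc.1 hc.2
      obtain ⟨r, hr⟩ := X_dvd_sub_C (p := s)
      have hs' : s = C (s.coeff 0) + X * r := by
        rw [← hr]; ring
      have h2 := y.mul_mem_left ⟨_, aeval_mem_chart (O := O) (algebraMap K E z)⁻¹ r⟩ hyz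
      have h3 := y.sub_mem h1 h2
      apply hyM.ne_top
      refine Ideal.eq_top_of_isUnit_mem _ h3 ?_
      have h4 : (⟨algebraMap F E b₁, mc hb₁c⟩ + ⟨algebraMap F E b₂, mc hb₂c⟩ -
          ⟨_, aeval_mem_chart (O := O) (algebraMap K E z)⁻¹ r⟩ *
            ⟨(algebraMap K E z)⁻¹, self_mem_chart _⟩ : chart O (algebraMap K E z)⁻¹) =
          algebraMap O _ (s.coeff 0) := by
        apply Subtype.ext
        change algebraMap F E b₁ + algebraMap F E b₂ -
          aeval (algebraMap K E z)⁻¹ r * (algebraMap K E z)⁻¹ = algebraMap O E (s.coeff 0)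
        rw [← map_add, hsum, ← aeval_algebraMap_apply, map_inv₀, hzE]
        conv_lhs => rw [hs']
        rw [map_add, map_mul, aeval_X, aeval_C]
        ring
      rw [h4]
      exact hs.map _
  -- connectedness
  have hall : ∀ g : E ≃ₐ[F] E, τ g * g = 1 := by
    by_contra hcon
    push Not at hcon
    obtain ⟨g, hg⟩ := hcon
    let S : Set (ValuationSubring E) := {W | (∃ a : E ≃ₐ[F] E, τ a * a = 1 ∧
      W = W₀.comap (a : E →+* E)) ∨ (∃ b : E ≃ₐ[F] E, c * (τ b * b) = 1 ∧
      W = V₀.comap (b : E →+* E))}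
    have hS1 : W₀ ∈ S := Or.inl ⟨1, by rw [map_one, mul_one], rfl⟩
    have hS2 : W₀.comap (g : E →+* E) ∉ S := by
      rintro (⟨a, ha, h1⟩ | ⟨b, hb, h1⟩)
      · rw [hfree W₀ hW₀ _ _ h1] at hg
        exact hg ha
      · have h2 := congrArg (fun W : ValuationSubring E => W.comap (algebraMap F E)) h1
        simp only [htg, h₀, hV₀t] at h2
        exact hP12 h2
    obtain ⟨W, hW, W', hW', hWo, hWo', u, y, hy, hm, hm'⟩ := connected' ht hπ hinj hO S hW₀
      (hog _ _ hW₀) hS1 hS2
    have hcl₁ : ∀ W : ValuationSubring E, Over (gaussVal ht hπ) (algebraMap O K π) W →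
        W.comap (algebraMap F E) = P₁ → ∃ a : E ≃ₐ[F] E, W = W₀.comap (a : E →+* E) :=
      fun W hW h => hconj W₀ W hW₀ hW (h₀.trans h.symm)
    have hcl₂ : ∀ W : ValuationSubring E, Over (gaussVal ht hπ) (algebraMap O K π) W →
        W.comap (algebraMap F E) = P₂ → ∃ a : E ≃ₐ[F] E, W = V₀.comap (a : E →+* E) :=
      fun W hW h => hconj V₀ W hV₀ hW (hV₀t.trans h.symm)
    apply hW'
    rcases hW with ⟨a, ha, rfl⟩ | ⟨b, hb, rfl⟩
    · rcases hP W' hWo' with h1 | h1
      · have h2 := hone _ _ hWo hWo' (by rw [htg, h₀, h1]) u y hy hm hm'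
        rw [← h2]
        exact Or.inl ⟨a, ha, rfl⟩
      · obtain ⟨b, rfl⟩ := hcl₂ W' hWo' h1
        have h2 := key a b u y hy hm hm'
        exact Or.inr ⟨b, by rw [← h2, ha], rfl⟩
    · rcases hP W' hWo' with h1 | h1
      · obtain ⟨a, rfl⟩ := hcl₁ W' hWo' h1
        have h2 := key a b u y hy hm' hm
        exact Or.inl ⟨a, by rw [h2, hb], rfl⟩
      · have h2 := hone _ _ hWo hWo' (by rw [htg, hV₀t, h1]) u y hy hm hm'
        rw [← h2]
        exact Or.inr ⟨b, hb, rfl⟩
  have h1 := congrArg (fun f : E ≃ₐ[F] E => D.δ (f x)) (hall g)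
  have h2 : D.δ (τ g (g x)) = g (D.δ (g x)) := by
    change D.δ (D.δ.symm (g (D.δ (g x)))) = _
    rw [RingEquiv.apply_symm_apply]
  have h3 : g (D.δ (g x)) = D.δ x := h2.symm.trans h1
  rw [← h3, ← AlgEquiv.mul_apply, inv_mul_cancel, AlgEquiv.one_apply]

end Two

end Fermat.Agent.LG
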