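import Mathlib
import Fermat.Agent.LG.Swap1
import Fermat.Agent.LG.ELevel2
import Fermat.Agent.LG.KX5

/-!
The composition of Frobenius with the involution `w` acts by inversion on the Galois group of a
cover which is totally split along the two components.
-/

set_option autoImplicit false
set_option linter.unusedSectionVars false

open IsLocalRing Polynomial Fermat.Agent.Geo ModularCurve

noncomputable section

universe u

namespace Fermat.Agent.LG

/-! ### Extension of automorphisms to Kummer extensions -/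

section Lift

/-- Embedding of a Kummer extension in a field of the same degree. -/
theorem exists_hom_kummer {F E E₂ : Type*} [Field F] [Field E] [Field E₂] [Algebra F E]
    [Algebra F E₂] [FiniteDimensional F E] {m : ℕ} (hm : 0 < m) {ζ : F}
    (hζ : IsPrimitiveRoot ζ m) {X : Type*} (y : X → E)
    (htop : IntermediateField.adjoin F (Set.range y) = ⊤) (a : X → F)
    (ha : ∀ x, y x ^ m = algebraMap F E (a x))
    (h2 : ∀ x, ∃ v : E₂, v ^ m = algebraMap F E₂ (a x))
    (hfr : Module.finrank F E = Module.finrank F E₂) :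
    ∃ f : E →+* E₂, Function.Bijective f ∧ ∀ b : F, f (algebraMap F E b) = algebraMap F E₂ b := by
  have key : Nonempty (E →ₐ[F] E₂) := by
    refine IntermediateField.nonempty_algHom_of_adjoin_splits (S := Set.range y) ?_ htop
    rintro _ ⟨x, rfl⟩
    have hint : IsIntegral F (y x) := Algebra.IsIntegral.isIntegral _
    refine ⟨hint, ?_⟩
    obtain ⟨v, hv⟩ := h2 x
    have h1 : minpoly F (y x) ∣ Polynomial.X ^ m - Polynomial.C (a x) := minpoly.dvd F _ (by
      rw [map_sub, map_pow, aeval_X, aeval_C, ha, sub_self])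
    have h2 : ((Polynomial.X ^ m - Polynomial.C (a x) : Polynomial F).map
        (algebraMap F E₂)).Splits := by
      rw [Polynomial.map_sub, Polynomial.map_pow, Polynomial.map_X, Polynomial.map_C]
      exact X_pow_sub_C_splits_of_isPrimitiveRoot
        (hζ.map_of_injective (algebraMap F E₂).injective) hv
    refine h2.of_dvd ?_ (Polynomial.map_dvd _ h1)
    exact (Polynomial.map_ne_zero_iff (algebraMap F E₂).injective).mpr
      (Polynomial.X_pow_sub_C_ne_zero hm (a x))
  obtain ⟨f⟩ := key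
  have hinj : Function.Injective f := f.toRingHom.injective
  have hfd : FiniteDimensional F E₂ := Module.finite_of_finrank_pos (by
    rw [← hfr]
    exact Module.finrank_pos)
  exact ⟨f.toRingHom, ⟨hinj, (LinearMap.injective_iff_surjective_of_finrank_eq_finrank
    (f := f.toLinearMap) hfr).mp hinj⟩, fun b => f.commutes b⟩

/-- Extension of an automorphism to a Kummer extension. -/
theorem exists_lift_aut {F E : Type*} [Field F] [Field E] [Algebra F E] [FiniteDimensional F E]
    {m : ℕ} (hm : 0 < m) {ζ : F} (hζ : IsPrimitiveRoot ζ m) {X : Type*} (y : X → E)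
    (htop : IntermediateField.adjoin F (Set.range y) = ⊤) (a : X → F)
    (ha : ∀ x, y x ^ m = algebraMap F E (a x)) (δ : F ≃+* F)
    (hδ : ∀ x, ∃ v : E, v ^ m = algebraMap F E (δ (a x))) :
    ∃ δE : E ≃+* E, ∀ b : F, δE (algebraMap F E b) = algebraMap F E (δ b) := by
  obtain ⟨f, hf, h1⟩ := @exists_hom_kummer F E E _ _ _ _
    ((algebraMap F E).comp (δ : F →+* F)).toAlgebra _ m hm ζ hζ X y htop a ha hδ
    (@Algebra.finrank_eq_of_equiv_equiv F E _ _
      ((algebraMap F E).comp (δ : F →+* F)).toAlgebra F E _ _ _ δ (RingEquiv.refl E) rfl).symm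
  exact ⟨RingEquiv.ofBijective f hf, h1⟩

/-- Kummer theory: the Galois group is commutative. -/
theorem KumData.comm_aut {F E X : Type*} [Field F] [Field E] [Algebra F E] [CommGroup X] {m : ℕ}
    {ζ : F} {y : X → E} [Finite X] (h : KumData m ζ y) (g k : E ≃ₐ[F] E) : g * k = k * g := by
  have : Fintype X := Fintype.ofFinite X
  obtain ⟨w, hw⟩ := h.exists_hom g
  obtain ⟨v, hv⟩ := h.exists_hom k
  ext x
  obtain ⟨a, rfl⟩ := h.exists_sum x
  rw [map_sum, map_sum]
  refine Finset.sum_congr rfl fun χ _ => ?_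
  have e : ∀ (g : E ≃ₐ[F] E) (b : F) (x : E), g (algebraMap F E b * x) = algebraMap F E b * g x :=
    fun g b x => by rw [map_mul, AlgEquiv.commutes]
  rw [AlgEquiv.mul_apply, AlgEquiv.mul_apply, e, e, e, e, hw, hv, e, e, hw, hv]
  ring

end Lift

section Data

variable {O L K₁ M K F E : Type u} [CommRing O] [IsDomain O] [IsDiscreteValuationRing O]
  [Field L] [Algebra O L] [IsFractionRing O L] [Field K₁] [Field M] [Field K] [Field F] [Field E]
  [Algebra O K₁] [Algebra O M] [Algebra O K] [Algebra O F] [Algebra O E]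
  [Algebra K₁ M] [Algebra M F] [Algebra K F] [Algebra K E] [Algebra F E]
  {q : ℕ} [NeZero q] {t : K₁} {z : K} {T : LaurentSeries O}
  {θ : F →+* LaurentSeries L} {w : F ≃+* F} {π : O}
  [IsScalarTower O K F] [IsScalarTower O K₁ M] [IsScalarTower O M F]
  [IsScalarTower O K E] [IsScalarTower O F E] [IsScalarTower K F E]
  {h : LData M q t z T θ w} {θE : E →+* LaurentSeries L}
  [FiniteDimensional K F] [Algebra.IsSeparable K F] [FiniteDimensional K₁ M]
  [Algebra.IsSeparable K₁ M] [CharZero O] [FiniteDimensional K E] [FiniteDimensional F E]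
  [Algebra.IsSeparable K E] [IsGalois F E]
  {ht : IsParam O t} {hz : IsParam O z} {hπ : Prime π}
  [PerfectField (ResidueField O)] [IsAlgClosed (ResidueField O)]
  [ExpChar (ResidueField O) q]

/-- Frobenius composed with `w`, modulo the crossing points. -/
theorem LAct.frob_node {d : O ≃+* O} {δ : F ≃+* F} (hA : LAct h d δ) (hg : LGood h ht hz hπ)
    (hd : ∀ a, dbar d a = a ^ q) (b : chart O (algebraMap K F z)) :
    (⟨w (δ b), h.w_mem_chart h.wz (hA.mem_chart hA.δz b.2)⟩ : chart O (algebraMap K F z)) -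
      b ^ q ∈ h.J hz hπ := by
  obtain ⟨f₀, hf₀, hbf⟩ := h.exists_chartM_of_chart hg b.2
  have hf₀F := h.memF hg hf₀
  set f : chart O (algebraMap K F z) := ⟨algebraMap M F f₀, hf₀F⟩ with hf
  have hf1 : algebraMap M F f₀ ∈ h.P₁ := h.chart_mem₁ hz hπ hf₀F
  have e1 : b - f ∈ h.J hz hπ := LData.mem_J₁ hbf
  set g : chart O (algebraMap K F z) := ⟨w (δ (algebraMap M F f₀)),
    h.w_mem_chart h.wz (hA.mem_chart hA.δz hf₀F)⟩ with hg'
  have e2 : g - f ^ q ∈ h.J hz hπ := LData.mem_J₁ (hA.frob hd hf1)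
  have e3 : (⟨w (δ b), h.w_mem_chart h.wz (hA.mem_chart hA.δz b.2)⟩ :
      chart O (algebraMap K F z)) - g ∈ h.J hz hπ := by
    apply LData.mem_J₂
    change w (δ b) - w (δ (algebraMap M F f₀)) ∈ h.P₂.nonunits
    rw [← map_sub, ← map_sub, h.mem_P₁_nonunits']
    exact hA.nonunits₁ hbf
  rw [← Ideal.Quotient.eq_zero_iff_mem, map_sub, sub_eq_zero] at e1 e2 e3 ⊢
  rw [e3, e2, map_pow, map_pow, e1]

/-- **The swap theorem** for the curve of level `qM`. -/
theorem EDense.swap (e : EDense h π θE) (hg : LGood h ht hz hπ) {dφ : O ≃+* O} {Φ : F ≃+* F}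
    (hΦ : LAct h dφ Φ) (hφ : ∀ a, dbar dφ a = a ^ q) (hgen : UnrGen O π F E)
    (hO : ∀ x : E, IsIntegral O x → ∃ o : O, algebraMap O E o = x)
    (hab : ∀ g h : E ≃ₐ[F] E, g * h = h * g) {δE : E ≃+* E}
    (hδE : ∀ x : F, δE (algebraMap F E x) = algebraMap F E (w (Φ x))) (g : E ≃ₐ[F] E) (x : E) :
    δE (g x) = g⁻¹ (δE x) := by
  have hzE : algebraMap K E z = algebraMap F E (algebraMap K F z) :=
    IsScalarTower.algebraMap_apply K F E z
  let D : SemiAut O (K := K) (E := E) z :=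
    { d := dφ
      δ := δE
      map_C := fun a => by
        rw [IsScalarTower.algebraMap_apply O F E, hδE, hΦ.δO, h.wC,
          ← IsScalarTower.algebraMap_apply]
      map_z := by rw [hzE, hδE, hΦ.δz, h.wz] }
  have hinj : Function.Injective (algebraMap O E) := by
    intro a b hab
    have h1 := congrArg θE hab
    rw [e.C, e.C] at h1
    exact IsFractionRing.injective O L (HahnSeries.C_injective h1)
  have hsymm : ∀ y, coeffMap (dL L dφ : L →+* L) y ∈ gV O L ↔ y ∈ gV O L := by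
    intro y
    refine ⟨fun hy => ?_, coeffMap_mem_gV dφ⟩
    have h1 := coeffMap_mem_gV dφ.symm hy
    have h2 : coeffMap (dL L dφ.symm : L →+* L) (coeffMap (dL L dφ : L →+* L) y) = y := by
      ext n
      rw [coeffMap_coeff, coeffMap_coeff]
      exact dL_symm dφ _
    rwa [h2] at h1
  have hgauss₁ : ∀ W : ValuationSubring E, Over h.P₁ (algebraMap O F π) W →
      Over (gaussVal hz hπ) (algebraMap O K π) W := by
    intro W hW
    refine ⟨fun x hx => ?_, ?_⟩
    · rw [IsScalarTower.algebraMap_apply K F E]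
      exact hW.1 _ ((h.over₁ hz hπ).1 _ hx)
    · have := hW.2
      rwa [← IsScalarTower.algebraMap_apply, IsScalarTower.algebraMap_apply O K E] at this
  have hP : ∀ W : ValuationSubring E, Over (gaussVal hz hπ) (algebraMap O K π) W →
      W.comap (algebraMap F E) = h.P₁ ∨ W.comap (algebraMap F E) = h.P₂ :=
    fun W hW => h.complete hz hπ _ hW.restrict
  have hΦ₁ : ∀ x, Φ x ∈ h.P₁ ↔ x ∈ h.P₁ := by
    intro x
    change θ (Φ x) ∈ gV O L ↔ θ x ∈ gV O L
    rw [hΦ.θδ, hsymm]
  obtain ⟨W₁, hW₁', hW₁m⟩ := e.exists_meets hz hπ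
  have hW₁o : Over (gaussVal hz hπ) (algebraMap O K π) W₁ := hgauss₁ W₁ hW₁'
  have hss := h.semiStable hg hΦ hφ
  obtain ⟨i1, ϖ₁, hϖ₁, hϖ₁'⟩ := h.unif₁ hz hπ
  obtain ⟨i2, ϖ₂, hϖ₂, hϖ₂'⟩ := h.unif₂ hz hπ
  have hstab : ∀ W : ValuationSubring E, Over (gaussVal hz hπ) (algebraMap O K π) W →
      ∀ g : E ≃ₐ[F] E, W.comap (g : E →+* E) = W → g = 1 := by
    intro W hW g hgW
    rcases hP W hW with h1 | h1
    · exact e.stab₁ hz hπ (EData.over_of_comap hW h1) g hgW
    · exact e.stab₂ hz hπ (EData.over_of_comap hW h1) g hgW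
  refine swap_of_two D hz hπ hinj hO hab (Φ.trans w) hδE h.P₁ h.P₂ hss.ne hP ?_ ?_
    (fun W W' hW hW' hWW u y hy hm hm' => e.hone hg hΦ hφ hgen W W' hW hW' hWW u y hy hm hm')
    hstab ?_
    (by
      obtain ⟨s, hs, b₁, hb₁, b₂, hb₂, h1, h2, h3⟩ := h.rad_inf hg
      exact ⟨s, hs, b₁, b₂, hb₁, hb₂, h1, h2, h3⟩)
    (fun b hb => by
      obtain ⟨b₁, hb₁, b₂, hb₂, h1, h2, h3⟩ := hΦ.frob_node hg hφ ⟨b, hb⟩
      exact ⟨q, NeZero.pos q, b₁, b₂, hb₁, hb₂, h1, h2, h3⟩)
    hW₁o ?_ g x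
  · intro x
    rw [h.mem_P₂]
    change w (w (Φ x)) ∈ h.P₁ ↔ _
    rw [h.ww, hΦ₁]
  · intro x
    change w (Φ x) ∈ h.P₁ ↔ _
    rw [hΦ.wδ, hΦ₁, h.mem_P₂]
  · intro W W' hW hW' hWW
    rcases hP W hW with h1 | h1
    · exact (split_residue hϖ₁ (by rw [hϖ₁']; exact EData.over_of_comap hW h1)
        fun σ hσ hh => hσ (hstab W hW σ hh)).2.1 W'
        (by rw [hϖ₁']; exact EData.over_of_comap hW' (hWW ▸ h1))
    · exact (split_residue hϖ₂ (by rw [hϖ₂']; exact EData.over_of_comap hW h1)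
        fun σ hσ hh => hσ (hstab W hW σ hh)).2.1 W'
        (by rw [hϖ₂']; exact EData.over_of_comap hW' (hWW ▸ h1))
  · rcases hP W₁ hW₁o with h1 | h1
    · exact h1
    · exfalso
      rw [← hϖ₁'] at hW₁'
      apply hss.ne
      rw [← h1]
      ext x
      exact (hW₁'.mem_iff hϖ₁).symm

end Data

end Fermat.Agent.LG
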