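import Mathlib
import Fermat.Agent.LG.Swap2
import Fermat.Agent.LG.CStar

/-!
The swap theorem for `X₀(qM)`.
-/

set_option autoImplicit false
set_option linter.unusedSectionVars false

open Fermat.Agent.ModFun IntermediateField Fermat.Agent.Geo IsLocalRing
open Fermat.Agent.ESCore (HauptFn haupt2 haupt3 hdelta)
open ModularCurve (qExpand coeffMap)
open CongruenceSubgroup (Gamma0)

noncomputable section

universe u

namespace Fermat.Agent.LG

section Conc

variable {O L : Type u} [CommRing O] [IsDomain O] [IsDiscreteValuationRing O] [Field L]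
  [Algebra O L] [IsFractionRing O L] {q : ℕ} [NeZero q] {p : ℕ} [Fact p.Prime] {κ : ℤ}
  {M N : ℕ} [NeZero M] [NeZero N] {H : HauptFn p κ} {S : Set ℤ} {k : ℕ} {P : Polynomial ℤ}
  {π : O}

/-- **Frobenius composed with `w_q` acts by inversion on the Galois group of an abelian covering
which is totally split along the two components**, for `X₀(qM)`. -/
theorem swap_concrete (B : Bez q M) (hH : HautData H S k P) (ι : L →+* ℂ) {ζ : Lˣ}
    (hζ : ι ζ = Complex.exp (2 * Real.pi * Complex.I / M)) (hMu : IsUnit (M : O)) (hπ : Prime π)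
    (hS : ∀ c ∈ S, ∀ c' ∈ S, c ≠ c' → IsUnit ((c - c' : ℤ) : O))
    [IsAlgClosed (ResidueField O)] [ExpChar (ResidueField O) q] [CharZero O]
    (hq0 : (q : ResidueField O) = 0) (hq : q.Prime) (hqp : ¬ q ∣ p)
    (hN : N = q * M) (hqM : q.Coprime M) (hpM : p ∣ M)
    (E : IntermediateField L (LaurentSeries L)) (hE : F0 L N ≤ E)
    (hfd : letI := algI hE; FiniteDimensional (F0 L N) E)
    (hgal : letI := algI hE; IsGalois (F0 L N) E)
    (hgen : letI := algO O (F0 L N); letI := algI hE; UnrGen O π (F0 L N) E)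
    {m : ℕ} (hm : 0 < m) {ζm : L} (hζm : IsPrimitiveRoot ζm m)
    {X : Type*} (y : X → E) (h : X → F0 L N)
    (hy : ∀ x, (y x : LaurentSeries L) ^ m = (h x : LaurentSeries L))
    (hspan : ∀ x : E, ∃ (s : Finset X) (a : X → F0 L N),
      (x : LaurentSeries L) = ∑ i ∈ s, (a i : LaurentSeries L) * (y i : LaurentSeries L))
    (hsp₁ : ∀ x, Sp π m (h x)) (hsp₂ : ∀ x, Sp π m (B.wF ι hq hN (h x)))
    {dφ : O ≃+* O} (hφ : ∀ a, dbar dφ a = a ^ q)
    (hab : letI := algI hE; ∀ g k : E ≃ₐ[F0 L N] E, g * k = k * g) (δE : E ≃+* E)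
    (hδE : letI := algI hE; ∀ b : F0 L N, δE (algebraMap (F0 L N) E b) =
      algebraMap (F0 L N) E (B.wF ι hq hN (actF (dL L dφ) N b))) :
    letI := algI hE
    ∀ (g : E ≃ₐ[F0 L N] E) (x : E), δE (g x) = g⁻¹ (δE x) := by
  have _ : PerfectField (ResidueField O) := inferInstance
  have hle1 : Kt L p κ ≤ F0 L M := Kt_le_F0 H ι hpM
  have hle2 : F0 L M ≤ F0 L N := F0_mono (dvd₂ hN dvd_rfl)
  have hle4 : Kz L q p κ ≤ F0 L N := Kz_le_F0 H ι hN hpM
  have hle5 : Kz L q p κ ≤ E := hle4.trans hE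
  let _ := algO O (Kt L p κ)
  let _ := algO O (F0 L M)
  let _ := algO O (Kz L q p κ)
  let _ := algO O (F0 L N)
  let _ := algO O E
  let _ := algI hle1
  let _ := algI hle2
  let _ := algI hle4
  let _ := algI hE
  let _ := algI hle5
  have t1 : IsScalarTower O (Kz L q p κ) (F0 L N) := tower_O O hle4
  have t2 : IsScalarTower O (Kt L p κ) (F0 L M) := tower_O O hle1
  have t3 : IsScalarTower O (F0 L M) (F0 L N) := tower_O O hle2
  have t4 : IsScalarTower O (Kz L q p κ) E := tower_O O hle5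
  have t5 : IsScalarTower O (F0 L N) E := tower_O O hE
  have t6 : IsScalarTower (Kz L q p κ) (F0 L N) E := tower_I hle4 hE hle5
  have hld := lData (O := O) B hH ι hζ hMu hπ hS hq0 hq hqp hN hqM hpM hle1 hle2 hle4
  obtain ⟨ht, hg⟩ := lGood (O := O) B hH ι hζ hMu hπ hS hq0 hq hqp hN hqM hpM hle1 hle2 hle4
  obtain ⟨-, -, hfin, -, -⟩ := goodRed_F0 ι hζ hMu hπ hpM hH hS hle1
  have hfF := (finrank_F0_le hH ι hq hqp hN hqM hpM hle1 hle4 hfin).1
  have hΦ := lAct (O := O) B hH ι hζ hMu hπ hS hq0 hq hqp hN hqM hpM hle1 hle2 hle4 dφ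
  have hcL : CharZero L := (ι.charZero_iff ι.injective).mpr inferInstance
  have hcI : ∀ E' : IntermediateField L (LaurentSeries L), CharZero E' := fun E' =>
    charZero_of_injective_algebraMap (algebraMap L E').injective
  have hfE := (tower_bound t6 hfF hfd le_rfl le_rfl).1
  have s1 : Algebra.IsSeparable (Kz L q p κ) (F0 L N) := sep_of_charZero (hcI _) hfF
  have s2 : Algebra.IsSeparable (Kz L q p κ) E := sep_of_charZero (hcI _) hfE
  have s3 : Algebra.IsSeparable (Kt L p κ) (F0 L M) := sep_of_charZero (hcI _) hfin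
  have hz := isParam_zK (L := L) (κ := κ) (p := p) O hq.two_le
  have hπF : algebraMap O (F0 L N) π = algebraMap L (F0 L N) (algebraMap O L π) := rfl
  obtain ⟨hdvr₁, ϖ₁, hϖ₁, hϖ₁'⟩ := hld.unif₁ hz hπ
  obtain ⟨hdvr₂, ϖ₂, hϖ₂, hϖ₂'⟩ := hld.unif₂ hz hπ
  have hζF : IsPrimitiveRoot (algebraMap L (F0 L N) ζm) m :=
    hζm.map_of_injective (algebraMap L (F0 L N)).injective
  have hyF : ∀ x, y x ^ m = algebraMap (F0 L N) E (h x) := fun x => Subtype.ext (hy x)
  have hspan' : ∀ x : E, ∃ (s : Finset X) (a : X → F0 L N),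
      x = ∑ i ∈ s, algebraMap (F0 L N) E (a i) * y i := by
    intro x
    obtain ⟨s, a, hx⟩ := hspan x
    refine ⟨s, a, Subtype.ext ?_⟩
    rw [hx]
    change _ = E.val.toRingHom _
    rw [map_sum]
    rfl
  have he : EDense hld π (algebraMap E (LaurentSeries L)) := by
    refine ⟨fun x => rfl, exists_zi hq.two_le, fun W hW => ?_, fun W hW => ?_⟩
    · rw [← hϖ₁']
      refine isDenseAt_of_span hϖ₁ (by rw [hϖ₁']; exact hW) y (fun x n => ?_) hspan'
      refine dense_kummer hϖ₁ hm hζF (by rw [hϖ₁']; exact hW) (hyF x) (fun n => ?_) n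
      obtain ⟨f, hf, v, hv, hfv⟩ := hsp₁ x n
      refine ⟨f, hf, v, hv, ?_⟩
      rw [hϖ₁', hπF]
      exact hfv
    · rw [← hϖ₂']
      refine isDenseAt_of_span hϖ₂ (by rw [hϖ₂']; exact hW) y (fun x n => ?_) hspan'
      refine dense_kummer hϖ₂ hm hζF (by rw [hϖ₂']; exact hW) (hyF x) (fun n => ?_) n
      obtain ⟨f, hf, v, hv, hfv⟩ := hsp₂ x n
      refine ⟨B.wF ι hq hN f, (map_ne_zero_iff _ (B.wF ι hq hN).injective).mpr hf,
        B.wF ι hq hN v, ?_, ?_⟩
      · rw [hld.mem_P₂, B.wF_wF]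
        exact hv
      · rw [hϖ₂', hπF]
        have h3 := congrArg (B.wF ι hq hN) hfv
        rw [map_mul, map_pow, B.wF_wF, map_add, map_one, map_mul, map_pow, B.wF_C] at h3
        exact h3
  intro g x
  exact he.swap hg hΦ hφ hgen (exists_const E) hab (δE := δE) hδE g x

end Conc

/-- The relation between the characters. -/
theorem KumData.swap_rel {F E X : Type*} [Field F] [CharZero F] [Field E] [Algebra F E]
    [CommGroup X] [Finite X] {m : ℕ} {ζ : F} {y : X → E} (hK : KumData m ζ y) {δE : E ≃+* E}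
    {δ : F ≃+* F} (hδE : ∀ b, δE (algebraMap F E b) = algebraMap F E (δ b))
    (hswap : ∀ (g : E ≃ₐ[F] E) (x : E), δE (g x) = g⁻¹ (δE x)) {c : ℕ} (hc : δ ζ = ζ ^ c)
    {χ χ' : X} {a f : F} (ha : y χ ^ m = algebraMap F E a)
    (hχ : algebraMap F E (δ a) = (algebraMap F E f * y χ') ^ m) : χ' * χ ^ c = 1 := by
  have hm0 : NeZero m := ⟨hK.hm.ne'⟩
  have hy := hK.ne_zero χ
  have hy' := hK.ne_zero χ'
  have h1 : δE (y χ) ^ m = (algebraMap F E f * y χ') ^ m := by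
    rw [← map_pow, ha, hδE, hχ]
  have hf0 : f ≠ 0 := by
    rintro rfl
    rw [map_zero, zero_mul, zero_pow hK.hm.ne'] at h1
    exact hy ((map_eq_zero_iff δE δE.injective).mp (pow_eq_zero_iff hK.hm.ne' |>.mp h1))
  have hfy : algebraMap F E f * y χ' ≠ 0 := mul_ne_zero (by rwa [Ne, _root_.map_eq_zero]) hy'
  have h2 : (δE (y χ) / (algebraMap F E f * y χ')) ^ m = 1 := by
    rw [div_pow, h1, div_self (pow_ne_zero _ hfy)]
  obtain ⟨i, -, hi⟩ :=
    (hK.prim.map_of_injective (algebraMap F E).injective).eq_pow_of_pow_eq_one h2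
  obtain ⟨f', hf'0, hf'⟩ : ∃ f' : F, f' ≠ 0 ∧ δE (y χ) = algebraMap F E f' * y χ' := by
    refine ⟨ζ ^ i * f, mul_ne_zero (pow_ne_zero _ (hK.prim.ne_zero hK.hm.ne')) hf0, ?_⟩
    rw [map_mul, map_pow, mul_assoc, hi, div_mul_cancel₀ _ hfy]
  refine hK.eq_one_of_fixed fun g => ?_
  obtain ⟨w, hw⟩ := hK.exists_hom g
  have hroot : δ ((w χ : Fˣ) : F) = ((w χ : Fˣ) : F) ^ c := by
    have h3 : ((w χ : Fˣ) : F) ^ m = 1 := by
      have := (mem_rootsOfUnity m (w χ : Fˣ)).mp (w χ).2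
      rw [← Units.val_pow_eq_pow_val, this, Units.val_one]
    obtain ⟨j, -, hj⟩ := hK.prim.eq_pow_of_pow_eq_one h3
    rw [← hj, map_pow, hc, ← pow_mul, ← pow_mul, mul_comm]
  have e1 : w χ' * w χ ^ c = 1 := by
    have e2 := hswap g (y χ)
    rw [hw, map_mul, hδE, hroot, hf'] at e2
    have e3 := congrArg g e2
    rw [← AlgEquiv.mul_apply, mul_inv_cancel, AlgEquiv.one_apply, map_mul, map_mul,
      AlgEquiv.commutes, AlgEquiv.commutes, hw, map_pow] at e3
    have hne : algebraMap F E f' * y χ' ≠ 0 := mul_ne_zero (by rwa [Ne, _root_.map_eq_zero]) hy'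
    have e4 : algebraMap F E (((w χ' : Fˣ) : F) * ((w χ : Fˣ) : F) ^ c) *
        (algebraMap F E f' * y χ') = algebraMap F E f' * y χ' := by
      rw [map_mul, map_pow]
      refine Eq.trans ?_ e3
      ring
    have e5 : algebraMap F E (((w χ' : Fˣ) : F) * ((w χ : Fˣ) : F) ^ c) = 1 :=
      mul_right_cancel₀ hne (e4.trans (one_mul _).symm)
    have e6 : ((w χ' : Fˣ) : F) * ((w χ : Fˣ) : F) ^ c = 1 := by
      apply (algebraMap F E).injective
      rw [e5, map_one]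
    apply Subtype.ext
    apply Units.ext
    rw [Subgroup.coe_mul, Subgroup.coe_pow, Units.val_mul, Units.val_pow_eq_pow_val]
    exact e6
  rw [hw, map_mul, map_pow, e1]
  change algebraMap F E (((1 : rootsOfUnity m F) : Fˣ) : F) * _ = _
  rw [OneMemClass.coe_one, Units.val_one, map_one, one_mul]

section Star

variable {O L : Type u} [CommRing O] [IsDomain O] [IsDiscreteValuationRing O] [Field L]
  [Algebra O L] [IsFractionRing O L] {q : ℕ} [NeZero q] {p : ℕ} [Fact p.Prime] {κ : ℤ}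
  {M N : ℕ} [NeZero M] [NeZero N] {H : HauptFn p κ} {S : Set ℤ} {k : ℕ} {P : Polynomial ℤ}
  {π : O} {X : Subgroup (Gamma0 N →* ℂˣ)} {y : X → LaurentSeries L}

/-- **The action of Frobenius composed with `w_q`.** -/
theorem swap_abs (B : Bez q M) (hH : HautData H S k P) (ι : L →+* ℂ) {ζ : Lˣ}
    (hζ : ι ζ = Complex.exp (2 * Real.pi * Complex.I / M)) (hMu : IsUnit (M : O)) (hπ : Prime π)
    (hS : ∀ c ∈ S, ∀ c' ∈ S, c ≠ c' → IsUnit ((c - c' : ℤ) : O))
    [IsAlgClosed (ResidueField O)] [ExpChar (ResidueField O) q] [CharZero O]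
    (hq0 : (q : ResidueField O) = 0) (hq : q.Prime) (hqp : ¬ q ∣ p)
    (hN : N = q * M) (hqM : q.Coprime M) (hpM : p ∣ M) (hNE : NoEll N)
    {m : ℕ} (hm : 0 < m) {ζm : L} (hζm : IsPrimitiveRoot ζm m) [Finite X]
    (hX : ∀ χ ∈ X, χ ^ m = 1) (hXp : ∀ χ ∈ X, IsPar χ) (hy0 : ∀ χ, y χ ≠ 0)
    (hy : ∀ χ : X, XSer ι N (χ : Gamma0 N →* ℂˣ) (y χ))
    (hsp₁ : ∀ χ : X, Sp π m (⟨y χ ^ m, (hy χ).pow_mem_F0 (hX _ χ.2)⟩ : F0 L N))
    (hsp₂ : ∀ χ : X, Sp π m (B.wF ι hq hN ⟨y χ ^ m, (hy χ).pow_mem_F0 (hX _ χ.2)⟩))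
    {dφ : O ≃+* O} (hφ : ∀ a, dbar dφ a = a ^ q)
    (hact : ∀ χ : X, ∃ χ' : X, ∃ f : F0 L N,
      (B.wF ι hq hN (actF (dL L dφ) N ⟨y χ ^ m, (hy χ).pow_mem_F0 (hX _ χ.2)⟩) :
        LaurentSeries L) = ((f : LaurentSeries L) * y χ') ^ m)
    {c : ℕ} (hc : dL L dφ ζm = ζm ^ c) {χ χ' : X} {f : F0 L N}
    (hχ : (B.wF ι hq hN (actF (dL L dφ) N ⟨y χ ^ m, (hy χ).pow_mem_F0 (hX _ χ.2)⟩) :
        LaurentSeries L) = ((f : LaurentSeries L) * y χ') ^ m) :
    χ' * χ ^ c = 1 := by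
  let _ := algO O (F0 L N)
  let _ := algI (F0_le_coverE (N := N) (y := y))
  have hcL : CharZero L := (ι.charZero_iff ι.injective).mpr inferInstance
  have : CharZero (F0 L N) := charZero_of_injective_algebraMap (algebraMap L (F0 L N)).injective
  have hK := kumData hm hζm hX hy0 hy
  have hfin : Fintype X := Fintype.ofFinite X
  have hfd := hK.finiteDimensional
  obtain ⟨δE, hδE⟩ := exists_lift_aut hm hK.prim (yE (N := N) y) hK.top
    (fun χ => (⟨y χ ^ m, (hy χ).pow_mem_F0 (hX _ χ.2)⟩ : F0 L N)) (fun χ => rfl)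
    ((actF (dL L dφ) N).trans (B.wF ι hq hN)) (fun χ => by
      obtain ⟨χ', f, hf⟩ := hact χ
      exact ⟨algebraMap (F0 L N) (coverE N y) f * yE (N := N) y χ', Subtype.ext hf.symm⟩)
  have hsw := swap_concrete (O := O) B hH ι hζ hMu hπ hS hq0 hq hqp hN hqM hpM (coverE N y)
    F0_le_coverE hK.finiteDimensional hK.isGalois (unrGen_cover hπ hNE hm hζm hX hXp hy0 hy)
    hm hζm (yE (N := N) y) (fun χ => (⟨y χ ^ m, (hy χ).pow_mem_F0 (hX _ χ.2)⟩ : F0 L N))
    (fun χ => rfl) (fun x => by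
      obtain ⟨a, ha⟩ := hK.exists_sum x
      refine ⟨Finset.univ, a, ?_⟩
      have h3 := congrArg (fun z : coverE N y => (coverE N y).val.toRingHom z) ha
      simp only [map_sum] at h3
      exact h3) hsp₁ hsp₂ hφ hK.comm_aut δE hδE
  refine hK.swap_rel (a := ⟨y χ ^ m, (hy χ).pow_mem_F0 (hX _ χ.2)⟩) (f := f) hδE hsw ?_ rfl ?_
  · change B.wF ι hq hN (actF (dL L dφ) N (algebraMap L (F0 L N) ζm)) = _
    rw [actF_C, B.wF_C, hc, map_pow]
  · exact Subtype.ext hχ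

end Star

end Fermat.Agent.LG
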