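import Mathlib
import Fermat.Agent.LG.Swap3
import Fermat.Agent.LG.Swap4

/-!
# Frobenius and `w_q` on locally trivial classes

For a class `χ` which is locally trivial along both components of `X₀(qM)` at `q`, the class
`w_q(φ χ)`, `φ` a Frobenius element at `q`, is the inverse of `χ ^ c`, where `φ` acts on the
`m`-th roots of unity through `c`.
-/

set_option autoImplicit false
set_option linter.unusedSectionVars false

open Fermat.Agent.ModFun IntermediateField Fermat.Agent.Geo IsLocalRing Fermat.Agent.ESCore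
open CongruenceSubgroup (Gamma0 Gamma0_mem)
open ModularCurve (coeffMap)
open scoped MatrixGroups

noncomputable section

namespace Fermat.Agent.LG

section

variable {A : ValuationSubring Qb} {q : ℕ} {L : IntermediateField ℚ Qb}
  [IsDiscreteValuationRing (OL A L)] {M N : ℕ} [NeZero q] [NeZero M] [NeZero N] {m : ℕ}
  {π : OL A L} {B : Bez q M} {hq : q.Prime} {hN : N = q * M}

/-- local triviality does not depend on the series -/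
theorem LW.sp_of (hm : 0 < m) {χ : Gamma0 N →* ℂˣ} (h : LW B hq hN π m χ) (e : χ ^ m = 1)
    {y₀ : LaurentSeries L} (hy₀ : XSer (ιL L) N χ y₀) (h0 : y₀ ≠ 0) :
    Sp π m (⟨y₀ ^ m, hy₀.pow_mem_F0 e⟩ : F0 L N) ∧
      Sp π m (B.wF (ιL L) hq hN ⟨y₀ ^ m, hy₀.pow_mem_F0 e⟩) := by
  obtain ⟨p1, e1, y, hy, hy0, a1, a2⟩ := h
  have h1 := XSer.div_mem hm e hy hy0 hy₀
  obtain ⟨g, hg⟩ : ∃ g : F0 L N, g = ⟨_, h1⟩ := ⟨_, rfl⟩
  have hg0 : g ≠ 0 := by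
    rw [hg]
    intro h2
    exact div_ne_zero h0 hy0 (congrArg Subtype.val h2)
  have h2 : (⟨y₀ ^ m, hy₀.pow_mem_F0 e⟩ : F0 L N) = g ^ m * ⟨y ^ m, hy.pow_mem_F0 e1⟩ := by
    rw [hg]
    apply Subtype.ext
    change y₀ ^ m = (y₀ / y) ^ m * y ^ m
    rw [← mul_pow, div_mul_cancel₀ _ hy0]
  rw [h2]
  refine ⟨Sp.mul_pow_self hg0 a1, ?_⟩
  rw [map_mul, map_pow]
  exact Sp.mul_pow_self (wF_ne_zero B hq hN (ιL L) hg0) a2

/-- local triviality is stable under `w_q` -/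
theorem LW.wChar (hm : 0 < m) (hW : WCoef B hq hN L m) {χ : Gamma0 N →* ℂˣ}
    (h : LW B hq hN π m χ) : LW B hq hN π m (B.wChar dvd_rfl hN χ) := by
  have p1 := h.1
  have e1 : χ ^ m = 1 := h.2.choose
  obtain ⟨y, z, hy, hy0, hz, hzm⟩ := hW ⟨χ, p1.mem_XG e1⟩ p1
  have hwm : (B.wChar dvd_rfl hN χ) ^ m = 1 := by
    rw [← B.wChar_pow, e1, B.wChar_one]
  obtain ⟨a1, a2⟩ := h.sp_of hm e1 hy hy0
  have h1 : (⟨z ^ m, hz.pow_mem_F0 hwm⟩ : F0 L N) =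
      B.wF (ιL L) hq hN ⟨y ^ m, hy.pow_mem_F0 e1⟩ := Subtype.ext hzm
  refine ⟨B.wChar_isPar dvd_rfl hN p1, hwm, z, hz, ?_, ?_, ?_⟩
  · rintro rfl
    have h2 : (⟨y ^ m, hy.pow_mem_F0 e1⟩ : F0 L N) ≠ 0 := fun h0 =>
      pow_ne_zero m hy0 (congrArg Subtype.val h0)
    apply wF_ne_zero B hq hN (ιL L) h2
    rw [← h1]
    exact Subtype.ext (zero_pow hm.ne')
  · rw [h1]
    exact a2
  · rw [h1, B.wF_wF]
    exact a1

/-- **Frobenius and `w_q` on locally trivial classes** (when `L` is large enough). -/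
theorem cstar_swap_aux (h : Ar A q L) (hqM : ¬ q ∣ M) (hlev : GoodLev q M) (hm : 0 < m)
    (hμ : ∀ ζ : Qb, ζ ^ m = 1 → ζ ∈ L) (hπ : Prime π) (hW : WCoef B hq hN L m) {χ : XG N m}
    (hχ : LW B hq hN π m χ.1) {φ : GQ} (hφ : A.IsFrobeniusAt φ q) {c : ℕ}
    (hc : ∀ ζ : Qb, ζ ^ m = 1 → φ ζ = ζ ^ c) :
    B.wChar dvd_rfl hN (galX N hm φ χ).1 * χ.1 ^ c = 1 := by
  have hm0 : NeZero m := ⟨hm.ne'⟩
  have hNE := hlev.noEll hN
  have i1 := h.isAlgClosed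
  have i2 := h.expChar_residue
  have i3 := Ar.charZero A L
  obtain ⟨ζ, hζ⟩ := h.exists_zeta hqM
  have hMu : IsUnit (M : OL A L) := h.isUnit_natCast hqM
  have hq0 := h.natCast_residue
  have hcop : q.Coprime M := (Nat.Prime.coprime_iff_not_dvd hq).mpr hqM
  have hφd := hφ.mem_decompositionSubgroup
  -- the root of unity
  obtain ⟨ζ₀, hζ₀⟩ : ∃ ζ₀ : Qb, IsPrimitiveRoot ζ₀ m := by
    have : NeZero (m : Qb) := ⟨by exact_mod_cast hm.ne'⟩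
    exact HasEnoughRootsOfUnity.exists_primitiveRoot Qb m
  have hζ₀L : ζ₀ ∈ L := hμ _ hζ₀.pow_eq_one
  have hζm : IsPrimitiveRoot (⟨ζ₀, hζ₀L⟩ : L) m :=
    IsPrimitiveRoot.of_map_of_injective (f := algebraMap L Qb) hζ₀ (algebraMap L Qb).injective
  -- the group and its series
  set X := lwGroup π B hq hN hm with hX
  have hXG : ∀ χ ∈ X, χ ∈ XG N m := fun χ hχ => by
    obtain ⟨p1, e1, -⟩ := hχ
    exact p1.mem_XG e1
  have hXfin : Finite X := by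
    have : Finite (XG N m) := Fermat.Agent.ESCore.ModP.finite_XG N m
    exact Finite.of_injective (fun χ : X => (⟨χ.1, hXG χ.1 χ.2⟩ : XG N m)) fun a b hab =>
      Subtype.ext (congrArg (fun z : XG N m => z.1) hab)
  have hXe : ∀ χ ∈ X, χ ^ m = 1 := fun χ hχ => hχ.2.choose
  choose y z hy hy0 hz hzm using fun χ : X => hW ⟨χ.1, hXG χ.1 χ.2⟩ χ.2.1
  -- the action
  let Gφ : X → X := fun χ => ⟨(galX N hm φ ⟨χ.1, hXG χ.1 χ.2⟩).1,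
    LW.gal (χ := ⟨χ.1, hXG χ.1 χ.2⟩) h hNE hπ hm hφd χ.2⟩
  let Wφ : X → X := fun χ => ⟨B.wChar dvd_rfl hN (Gφ χ).1, LW.wChar hm hW (Gφ χ).2⟩
  have hact : ∀ χ : X, ∃ f : F0 L N,
      (B.wF (ιL L) hq hN (actF (dL L (h.resO hφd)) N ⟨y χ ^ m, (hy χ).pow_mem_F0 (hXe _ χ.2)⟩) :
        LaurentSeries L) = ((f : LaurentSeries L) * y (Wφ χ)) ^ m := by
    intro χ
    have h1 := xSer_res h hm hφd ⟨χ.1, hXG χ.1 χ.2⟩ (hy χ)
    have h2 := XSer.div_mem hm (hXe _ (Gφ χ).2) (hy (Gφ χ)) (hy0 (Gφ χ)) h1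
    obtain ⟨g, hg⟩ : ∃ g : F0 L N, g = ⟨_, h2⟩ := ⟨_, rfl⟩
    have h3 : actF (dL L (h.resO hφd)) N ⟨y χ ^ m, (hy χ).pow_mem_F0 (hXe _ χ.2)⟩ =
        g ^ m * ⟨y (Gφ χ) ^ m, (hy (Gφ χ)).pow_mem_F0 (hXe _ (Gφ χ).2)⟩ := by
      rw [hg, h.dL_resO]
      apply Subtype.ext
      change coeffMap (h.res hφd : L →+* L) (y χ ^ m) =
        (coeffMap (h.res hφd : L →+* L) (y χ) / y (Gφ χ)) ^ m * y (Gφ χ) ^ m
      rw [← mul_pow, div_mul_cancel₀ _ (hy0 _), map_pow]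
    have h4 := XSer.div_mem hm (hXe _ (Wφ χ).2) (hy (Wφ χ)) (hy0 (Wφ χ)) (hz (Gφ χ))
    refine ⟨B.wF (ιL L) hq hN g * ⟨_, h4⟩, ?_⟩
    rw [h3, map_mul, map_pow]
    change (B.wF (ιL L) hq hN g : LaurentSeries L) ^ m * (B.wF (ιL L) hq hN ⟨y (Gφ χ) ^ m,
      (hy (Gφ χ)).pow_mem_F0 (hXe _ (Gφ χ).2)⟩ : LaurentSeries L) =
      ((B.wF (ιL L) hq hN g : LaurentSeries L) * (z (Gφ χ) / y (Wφ χ)) * y (Wφ χ)) ^ m
    rw [mul_assoc, div_mul_cancel₀ _ (hy0 _), mul_pow, hzm]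
  have hc' : dL L (h.resO hφd) ⟨ζ₀, hζ₀L⟩ = ⟨ζ₀, hζ₀L⟩ ^ c := by
    rw [h.dL_resO]
    exact Subtype.ext (hc _ hζ₀.pow_eq_one)
  have hsp : ∀ χ : X, Sp π m (⟨y χ ^ m, (hy χ).pow_mem_F0 (hXe _ χ.2)⟩ : F0 L N) ∧
      Sp π m (B.wF (ιL L) hq hN ⟨y χ ^ m, (hy χ).pow_mem_F0 (hXe _ χ.2)⟩) := fun χ =>
    LW.sp_of hm χ.2 (hXe _ χ.2) (hy χ) (hy0 χ)
  obtain ⟨f, hf⟩ := hact ⟨χ.1, hχ⟩
  have hfinal : Wφ ⟨χ.1, hχ⟩ * ⟨χ.1, hχ⟩ ^ c = 1 := by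
    rcases hlev with ⟨hq2, h4⟩ | ⟨hq2, h9⟩
    · refine swap_abs (O := OL A L) B haut2 (ιL L) hζ hMu hπ
        (sep2 ((by norm_num : 2 ∣ 4).trans h4) hMu) hq0 hq ?_ hN hcop
        ((by norm_num : 2 ∣ 4).trans h4) hNE hm hζm hXe (fun χ hχ => hχ.1) hy0 hy
        (fun χ => (hsp χ).1) (fun χ => (hsp χ).2)
        (h.dbar_frob hφ) (fun χ => ⟨Wφ χ, hact χ⟩) hc' hf
      intro hd
      exact hq2 ((Nat.prime_dvd_prime_iff_eq hq Nat.prime_two).mp hd)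
    · refine swap_abs (O := OL A L) B haut3 (ιL L) hζ hMu hπ
        (sep3 ((by norm_num : 3 ∣ 9).trans h9) hMu) hq0 hq ?_ hN hcop
        ((by norm_num : 3 ∣ 9).trans h9) hNE hm hζm hXe (fun χ hχ => hχ.1) hy0 hy
        (fun χ => (hsp χ).1) (fun χ => (hsp χ).2)
        (h.dbar_frob hφ) (fun χ => ⟨Wφ χ, hact χ⟩) hc' hf
      intro hd
      rw [hq2] at hd
      revert hd
      decide
  exact congrArg (fun z : X => z.1) hfinal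

/-- **Frobenius and `w_q` on locally trivial classes.** -/
theorem cstar_swap (h : Ar A q L) (hqM : ¬ q ∣ M) (hlev : GoodLev q M) (hm : 0 < m)
    (hμ : ∀ ζ : Qb, ζ ^ m = 1 → ζ ∈ L) (hπ : Prime π) {χ : XG N m}
    (hχ : LW B hq hN π m χ.1) {φ : GQ} (hφ : A.IsFrobeniusAt φ q) {c : ℕ}
    (hc : ∀ ζ : Qb, ζ ^ m = 1 → φ ζ = ζ ^ c) :
    B.wChar dvd_rfl hN (galX N hm φ χ).1 * χ.1 ^ c = 1 := by
  obtain ⟨L₁, hle, h₁, hW⟩ := exists_wCoef h B hq hN hm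
  have hdvr := h₁.dvr
  obtain ⟨π₁, hπ₁⟩ := IsDiscreteValuationRing.exists_prime (OL A L₁)
  exact cstar_swap_aux h₁ hqM hlev hm (fun ζ hζ => hle (hμ ζ hζ)) hπ₁ hW
    (hχ.mono hle hπ hπ₁) hφ hc

/-- the same, when the characteristic does not divide the order -/
theorem cstar_swap' (h : Ar A q L) (hqM : ¬ q ∣ M) (hlev : GoodLev q M) (hm : 0 < m)
    (hqm : ¬ q ∣ m) (hπ : Prime π) {χ : XG N m} (hχ : LW B hq hN π m χ.1) {φ : GQ}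
    (hφ : A.IsFrobeniusAt φ q) : B.wChar dvd_rfl hN (galX N hm φ χ).1 * χ.1 ^ q = 1 :=
  cstar_swap h hqM hlev hm (fun _ hζ => h.le (root_mem_KI h.hq h.hA hqm hζ)) hπ hχ hφ
    fun _ hζ => frob_root h.hA h.hq hφ hqm hζ

end

end Fermat.Agent.LG
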