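import Mathlib
import Fermat.Agent.LG.LG2

/-!
# The geometric statements for the level `N = q M`, `q` prime to `M`
-/

set_option autoImplicit false

open CongruenceSubgroup

noncomputable section

namespace Fermat.Agent.LG

open ESCore

local notation "Qb" => AlgebraicClosure ℚ

/-- **(MZc)** the characters of level `qM` fixed by inertia at `q` which are eigenvectors of
`U_q` and `w_q` are killed by a fixed exponent, up to characters on which the square of Frobenius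
acts by `q²`. -/
def MZcProp : Prop :=
  ∀ {q M N : ℕ} [NeZero q] [NeZero M] [NeZero N] (hq : q.Prime) (_ : ¬ q ∣ M)
    (_ : GoodLev q M) (hN : N = q * M) (hqN : q ∣ N), ∃ e : ℕ, 0 < e ∧
    ∀ {m : ℕ} (hm : 0 < m) (_ : ¬ q ∣ m) {A : ValuationSubring Qb} (_ : A.LiesOverPrime q)
      (B : Bez q M) (χ : XG N m) (ε : ℤ), (ε = 1 ∨ ε = -1) → IsPar χ.1 →
      heckeXU hq.ne_zero hqN m χ = χ ^ ε → B.wChar dvd_rfl hN χ.1 = (χ ^ (-ε)).1 →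
      (∀ σ ∈ A.inertiaSubgroupIn ℚ, galX N hm σ χ = χ) →
      ∀ φ, A.IsFrobeniusAt φ q → galX N hm (φ * φ) (χ ^ e) = (χ ^ e) ^ (q ^ 2)

/-- **(MZc), second form**: for the characters of the form `T_l ψ / ψ ^ (l + 1)`. -/
def MZcPropT : Prop :=
  ∀ {q M N : ℕ} [NeZero q] [NeZero M] [NeZero N] (hq : q.Prime) (_ : ¬ q ∣ M)
    (_ : GoodLev q M) (hN : N = q * M) (hqN : q ∣ N), ∃ e : ℕ, 0 < e ∧
    ∀ {m : ℕ} (hm : 0 < m) (_ : ¬ q ∣ m) {A : ValuationSubring Qb} (_ : A.LiesOverPrime q)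
      (B : Bez q M) (χ : XG N m) (ε : ℤ), (ε = 1 ∨ ε = -1) → IsPar χ.1 →
      heckeXU hq.ne_zero hqN m χ = χ ^ ε → B.wChar dvd_rfl hN χ.1 = (χ ^ (-ε)).1 →
      (∀ σ ∈ A.inertiaSubgroupIn ℚ, galX N hm σ χ = χ) →
      -- `χ = T_l ψ / ψ ^ (l + 1)`
      (∃ (l : ℕ) (hl : l.Prime) (hlN : ¬ l ∣ N) (ψ : XG N m), IsPar ψ.1 ∧
        (∀ σ ∈ A.inertiaSubgroupIn ℚ, galX N hm σ ψ = ψ) ∧
        χ = heckeX hl hlN m ψ * (ψ ^ (l + 1))⁻¹) →
      ∀ φ, A.IsFrobeniusAt φ q → galX N hm (φ * φ) (χ ^ e) = (χ ^ e) ^ (q ^ 2)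

/-- **(MZb)** Mazur's principle modulo `p`: for an eigenclass `χ` of level `qM` fixed by inertia
at `q` whose eigenvalues are not Eisenstein and do not occur at level `M`, Frobenius acts by
`φ χ = (w χ) ^ (-q)`. -/
def MZbProp : Prop :=
  ∀ {q M N p : ℕ} [NeZero q] [NeZero M] [NeZero N] (_ : q.Prime) (_ : ¬ q ∣ M)
    (hp : p.Prime) (_ : 5 ≤ p) (_ : q ≠ p) (hN : N = q * M)
    {A : ValuationSubring Qb} (_ : A.LiesOverPrime q) (B : Bez q M) (S : Finset ℕ) (a : ℕ → ℤ)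
    (_ : q ∈ S)
    -- the eigenvalues do not occur at level `M`
    (_ : ∀ χ' : XG M p, IsPar χ'.1 →
      (∀ (l : ℕ) (hl : l.Prime) (hlM : ¬ l ∣ M), l ∉ S → heckeX hl hlM p χ' = χ' ^ (a l)) →
      χ' = 1)
    -- they are not Eisenstein
    (_ : ∃ l : ℕ, l.Prime ∧ ¬ l ∣ N ∧ l ≠ p ∧ l ∉ S ∧ ¬ (p : ℤ) ∣ a l - (1 + l))
    (χ : XG N p), IsPar χ.1 →
    (∀ (l : ℕ) (hl : l.Prime) (hlN : ¬ l ∣ N), l ∉ S → heckeX hl hlN p χ = χ ^ (a l)) →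
    (∀ σ ∈ A.inertiaSubgroupIn ℚ, galX N hp.pos σ χ = χ) →
    ∀ φ, A.IsFrobeniusAt φ q →
      B.wChar dvd_rfl hN (galX N hp.pos φ χ).1 * χ.1 ^ q = 1

end Fermat.Agent.LG
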