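import Mathlib

set_option autoImplicit false

/-!
# The inertia field at a finite level is unramified
-/

namespace Fermat.Agent.LG

open scoped Pointwise NumberField
open Ideal IsDedekindDomain

theorem ram_one {E L G : Type*} [Field L] [NumberField L] [Field E] [NumberField E] [Algebra E L]
    [IsGalois ℚ L] (P : Ideal (𝓞 L)) [P.IsPrime]
    [Group G] [Finite G] [MulSemiringAction G L] [hG : IsGaloisGroup G E L]
    (hcard : Nat.card G = Nat.card (P.inertia (L ≃ₐ[ℚ] L)))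
    (hin : ∀ g : G, ∀ y : 𝓞 L, g • y - y ∈ P) :
    (P.under (𝓞 E)).ramificationIdx ℤ = 1 := by
  set Q : Ideal (𝓞 E) := P.under (𝓞 E) with hQ
  have h1 := Ideal.card_inertia_eq_ramificationIdxIn (G := G) Q P
  have h2 := Ideal.card_inertia_eq_ramificationIdxIn (G := L ≃ₐ[ℚ] L) (P.under ℤ) P
  rw [Ideal.ramificationIdxIn_eq_ramificationIdx (P.under ℤ) P (L ≃ₐ[ℚ] L)] at h2
  rw [Ideal.ramificationIdxIn_eq_ramificationIdx Q P G] at h1
  have h3 : Nat.card (P.inertia G) = Nat.card G := by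
    have : P.inertia G = ⊤ := by
      rw [eq_top_iff]
      intro g _ y
      exact hin g y
    rw [this, Subgroup.card_top]
  have h4 := Ideal.ramificationIdx_tower (R := ℤ) Q P
  rw [← h1, h3, hcard, h2] at h4
  have h5 : P.ramificationIdx ℤ ≠ 0 := (ramificationIdx_pos P ℤ).ne'
  exact (right_eq_mul₀ h5).mp h4

theorem exists_unit_mul {E : Type*} [Field E] [NumberField E] (Q : Ideal (𝓞 E)) [hQp : Q.IsPrime]
    {q : ℕ} (hq : q.Prime) (hqQ : (q : 𝓞 E) ∈ Q) (hram : Q.ramificationIdx ℤ = 1) (x : E)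
    (hx : x ≠ 0) : ∃ (n : ℤ) (a b : 𝓞 E), a ∉ Q ∧ b ∉ Q ∧ x * (b : E) = (a : E) * (q : E) ^ n := by
  have hQ0 : Q ≠ ⊥ := by
    rintro rfl
    rw [Ideal.mem_bot] at hqQ
    exact hq.ne_zero (by exact_mod_cast hqQ)
  have hqi : Prime (q : ℤ) := Nat.prime_iff_prime_int.mp hq
  let w : HeightOneSpectrum (𝓞 E) := ⟨Q, hQp, hQ0⟩
  let v : HeightOneSpectrum ℤ := ⟨Ideal.span {(q : ℤ)}, (Ideal.span_singleton_prime hqi.ne_zero).mpr hqi,
    by rw [Ne, Ideal.span_singleton_eq_bot]; exact hqi.ne_zero⟩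
  have hover : Q.LiesOver (Ideal.span {(q : ℤ)}) := by
    constructor
    have hmax : (Ideal.span {(q : ℤ)}).IsMaximal :=
      PrincipalIdealRing.isMaximal_of_irreducible hqi.irreducible
    refine hmax.eq_of_le ?_ ?_
    · exact (Ideal.IsPrime.under ℤ Q).ne_top
    · rw [Ideal.span_singleton_le_iff_mem, Ideal.mem_comap]
      simpa using hqQ
  have hover' : w.asIdeal.LiesOver v.asIdeal := hover
  have h1 := HeightOneSpectrum.valuation_liesOver (K := ℚ) E v w (q : ℚ)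
  have h2 : v.asIdeal.ramificationIdx' w.asIdeal = 1 := by
    rw [Ideal.ramificationIdx'_eq_ramificationIdx v.asIdeal w.asIdeal]
    · exact hram
    · exact v.ne_bot
  rw [h2, pow_one] at h1
  have h3 : v.valuation ℚ (q : ℚ) = WithZero.exp (-1 : ℤ) := by
    have := HeightOneSpectrum.valuation_of_algebraMap (K := ℚ) v (q : ℤ)
    rw [show ((q : ℚ)) = algebraMap ℤ ℚ (q : ℤ) by simp, this]
    exact HeightOneSpectrum.intValuation_singleton v hqi.ne_zero rfl
  rw [h3] at h1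
  have h1' : w.valuation E (q : E) = WithZero.exp (-1 : ℤ) := by
    rw [h1]; simp
  have hx' : w.valuation E x ≠ 0 := (Valuation.ne_zero_iff _).mpr hx
  obtain ⟨m, hm⟩ : ∃ m : ℤ, w.valuation E x = WithZero.exp m := by
    exact ⟨WithZero.log (w.valuation E x), (WithZero.exp_log hx').symm⟩
  set y : E := x * (q : E) ^ m with hy
  have hqE : (q : E) ≠ 0 := by exact_mod_cast hq.ne_zero
  have hy1 : w.valuation E y = 1 := by
    rw [hy, map_mul, map_zpow₀, h1', hm]
    rw [← WithZero.exp_zsmul, ← WithZero.exp_add]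
    simp
  obtain ⟨a, b, hab⟩ := HeightOneSpectrum.exists_primeCompl_mul_eq_of_integer w y hy1.le
  refine ⟨-m, a, b.1, ?_, b.2, ?_⟩
  · intro ha
    have h4 := congrArg (w.valuation E) hab
    rw [map_mul, hy1, one_mul] at h4
    have h5 : w.valuation E (algebraMap (𝓞 E) E a) < 1 := by
      rw [HeightOneSpectrum.valuation_lt_one_iff_mem]
      exact ha
    have h6 : w.valuation E (algebraMap (𝓞 E) E b) = 1 := by
      rw [HeightOneSpectrum.valuation_eq_one_iff_notMem]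
      exact b.2
    rw [← h4, h6] at h5
    exact lt_irrefl _ h5
  · have h7 : (x * (q : E) ^ m) * (b.1 : E) = (a : E) := hab
    rw [zpow_neg, ← h7]
    field_simp

theorem inertia_field_unram {L : Type*} [Field L] [NumberField L] [IsGalois ℚ L] (P : Ideal (𝓞 L))
    [P.IsPrime] {q : ℕ} (hq : q.Prime) (hqP : (q : 𝓞 L) ∈ P) (x : L) (hx0 : x ≠ 0)
    (hx : ∀ g : L ≃ₐ[ℚ] L, (∀ y : 𝓞 L, g • y - y ∈ P) → g x = x) :
    ∃ (n : ℤ) (a b : 𝓞 L), a ∉ P ∧ b ∉ P ∧ x * (b : L) = (a : L) * (q : L) ^ n := by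
  let I : Subgroup (L ≃ₐ[ℚ] L) := P.inertia (L ≃ₐ[ℚ] L)
  let E : IntermediateField ℚ L := FixedPoints.intermediateField I
  have hG : IsGaloisGroup I E L := IsGaloisGroup.subgroup (L ≃ₐ[ℚ] L) ℚ L I
  have h1 : (P.under (𝓞 E)).ramificationIdx ℤ = 1 :=
    ram_one (G := I) P rfl (fun g y => g.2 y)
  have hxE : x ∈ E := by
    intro g
    exact hx g.1 g.2
  have hqE : (q : 𝓞 E) ∈ P.under (𝓞 E) := by
    rw [Ideal.mem_comap, map_natCast]
    exact hqP
  obtain ⟨n, a, b, ha, hb, hab⟩ := exists_unit_mul (P.under (𝓞 E)) hq hqE h1 ⟨x, hxE⟩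
    (fun h => hx0 (congrArg Subtype.val h))
  refine ⟨n, algebraMap (𝓞 E) (𝓞 L) a, algebraMap (𝓞 E) (𝓞 L) b, ha, hb, ?_⟩
  have := congrArg (algebraMap E L) hab
  rw [map_mul, map_mul, map_zpow₀, map_natCast] at this
  exact this

end Fermat.Agent.LG
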