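import Mathlib
import Fermat.Agent.LG.LiftA2
import Fermat.Agent.CD.PsComplete

/-!
# Lattices of power series over a discrete valuation ring and over its completion
-/

set_option autoImplicit false
set_option linter.unusedSectionVars false

open Fermat.Agent.CD

noncomputable section

namespace Fermat.Agent.LG

section FG

/-- a lattice in a finite dimensional space of power series is finitely generated -/
theorem fg_lattice {O₀ K : Type*} [CommRing O₀] [IsNoetherianRing O₀] [Field K] {i₀ : O₀ →+* K}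
    (hinj : Function.Injective i₀) (V : Submodule K (PowerSeries K)) [FiniteDimensional K V]
    (L : Submodule O₀ (PowerSeries O₀)) (hL : ∀ f ∈ L, PowerSeries.map i₀ f ∈ V) : L.FG := by
  let W : ℕ →o (Submodule K V)ᵒᵈ :=
    { toFun := fun n => OrderDual.toDual
        { carrier := {v | ∀ m < n, PowerSeries.coeff m (v : PowerSeries K) = 0}
          zero_mem' := fun m _ => by simp
          add_mem' := fun {a b} ha hb m hm => by
            have h1 := ha m hm
            have h2 := hb m hm
            rw [Submodule.coe_add, map_add, h1, h2, add_zero]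
          smul_mem' := fun c a ha m hm => by
            have h1 := ha m hm
            rw [Submodule.coe_smul, map_smul, h1, smul_zero] }
      monotone' := fun a b hab v hv m hm => hv m (lt_of_lt_of_le hm hab) }
  obtain ⟨N, hN⟩ := IsArtinian.monotone_stabilizes W
  have hW : ∀ (n : ℕ) (v : V), v ∈ (OrderDual.ofDual (W n)) ↔
      ∀ m < n, PowerSeries.coeff m (v : PowerSeries K) = 0 := fun n v => Iff.rfl
  have h0 : ∀ v : V, (∀ m < N, PowerSeries.coeff m (v : PowerSeries K) = 0) → v = 0 := by
    intro v hv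
    apply Subtype.ext
    ext m
    change PowerSeries.coeff m (v : PowerSeries K) = PowerSeries.coeff m 0
    rw [map_zero]
    rcases lt_or_ge m N with h | h
    · exact hv m h
    · have h1 : v ∈ OrderDual.ofDual (W N) := (hW N v).mpr hv
      rw [hN (m + 1) (by omega)] at h1
      exact (hW _ v).mp h1 m (Nat.lt_succ_self m)
  let φ : L →ₗ[O₀] (Fin N → O₀) :=
    { toFun := fun f m => PowerSeries.coeff (m : ℕ) (f : PowerSeries O₀)
      map_add' := fun a b => by
        funext m
        rw [Submodule.coe_add, map_add]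
        rfl
      map_smul' := fun c a => by
        funext m
        rw [Submodule.coe_smul, map_smul]
        rfl }
  have hφ : Function.Injective φ := by
    rw [injective_iff_map_eq_zero]
    intro f hf
    have h1 : (⟨PowerSeries.map i₀ (f : PowerSeries O₀), hL _ f.2⟩ : V) = 0 := by
      apply h0
      intro m hm
      change PowerSeries.coeff m (PowerSeries.map i₀ (f : PowerSeries O₀)) = 0
      rw [PowerSeries.coeff_map]
      have h2 : PowerSeries.coeff m (f : PowerSeries O₀) = 0 := congrFun hf ⟨m, hm⟩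
      rw [h2, map_zero]
    have h2 : PowerSeries.map i₀ (f : PowerSeries O₀) = 0 := congrArg Subtype.val h1
    apply Subtype.ext
    ext m
    have h3 := congrArg (PowerSeries.coeff m) h2
    rw [PowerSeries.coeff_map, map_zero] at h3
    change PowerSeries.coeff m (f : PowerSeries O₀) = PowerSeries.coeff m 0
    rw [map_zero]
    exact (map_eq_zero_iff i₀ hinj).mp h3
  have := isNoetherian_of_injective φ hφ
  exact (isNoetherian_submodule.mp this) L le_rfl

end FG

section Lat

variable {O₀ O : Type*} [CommRing O₀] [CommRing O] {π : O₀} {inc : O₀ →+* O}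

/-- The closure of a lattice. -/
def LLc (happ : ∀ (n : ℕ) (x : O), ∃ a, inc π ^ n ∣ x - inc a)
    (L0 : ℕ → Submodule O₀ (PowerSeries O₀)) (i : ℕ) : Submodule O (PowerSeries O) where
  carrier := {f | ∀ r, ∃ l ∈ L0 i, PowerSeries.C (inc π) ^ r ∣ f - PowerSeries.map inc l}
  zero_mem' := fun r => ⟨0, zero_mem _, by simp⟩
  add_mem' := fun {f g} hf hg r => by
    obtain ⟨l, hl, h⟩ := hf r
    obtain ⟨l', hl', h'⟩ := hg r
    refine ⟨l + l', add_mem hl hl', ?_⟩
    have e : f + g - PowerSeries.map inc (l + l') =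
        (f - PowerSeries.map inc l) + (g - PowerSeries.map inc l') := by
      rw [map_add]; ring
    rw [e]
    exact dvd_add h h'
  smul_mem' := fun c f hf r => by
    obtain ⟨l, hl, h⟩ := hf r
    obtain ⟨a, ha⟩ := happ r c
    refine ⟨a • l, Submodule.smul_mem _ _ hl, ?_⟩
    have e : c • f - PowerSeries.map inc (a • l) =
        PowerSeries.C c * (f - PowerSeries.map inc l) +
          PowerSeries.C (c - inc a) * PowerSeries.map inc l := by
      rw [PowerSeries.smul_eq_C_mul, PowerSeries.smul_eq_C_mul, map_mul, PowerSeries.map_C, map_sub]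
      ring
    rw [e]
    refine dvd_add (Dvd.dvd.mul_left h _) (Dvd.dvd.mul_right ?_ _)
    rw [← map_pow]
    exact map_dvd _ ha

variable {happ : ∀ (n : ℕ) (x : O), ∃ a, inc π ^ n ∣ x - inc a}
  {L0 : ℕ → Submodule O₀ (PowerSeries O₀)}

theorem mem_LLc {i : ℕ} {f : PowerSeries O} : f ∈ LLc happ L0 i ↔
    ∀ r, ∃ l ∈ L0 i, PowerSeries.C (inc π) ^ r ∣ f - PowerSeries.map inc l := Iff.rfl

theorem map_mem_LLc {i : ℕ} {l : PowerSeries O₀} (hl : l ∈ L0 i) :
    PowerSeries.map inc l ∈ LLc happ L0 i := fun r => ⟨l, hl, by rw [sub_self]; exact dvd_zero _⟩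

/-- Hypotheses on a system of lattices over the small ring. -/
structure Lat0 (π : O₀) (L0 : ℕ → Submodule O₀ (PowerSeries O₀)) : Prop where
  one : 1 ∈ L0 0
  mul : ∀ {i j f g}, f ∈ L0 i → g ∈ L0 j → f * g ∈ L0 (i + j)
  sat : ∀ {i f}, PowerSeries.C π * f ∈ L0 i → f ∈ L0 i

theorem Lat0.sat_pow (H : Lat0 π L0) {i n : ℕ} {f : PowerSeries O₀}
    (h : PowerSeries.C π ^ n * f ∈ L0 i) : f ∈ L0 i := by
  induction n with
  | zero => simpa using h
  | succ n ih =>
    rw [pow_succ, mul_comm (PowerSeries.C π ^ n), mul_assoc] at h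
    exact ih (H.sat h)

theorem C_pow_dvd_map (hdvd : ∀ (n : ℕ) (a : O₀), inc π ^ n ∣ inc a ↔ π ^ n ∣ a) {n : ℕ}
    {f : PowerSeries O₀} : PowerSeries.C (inc π) ^ n ∣ PowerSeries.map inc f ↔
      PowerSeries.C π ^ n ∣ f := by
  rw [C_pow_dvd_iff, C_pow_dvd_iff]
  simp only [PowerSeries.coeff_map, hdvd]

theorem Lat0.sys (H : Lat0 π L0) (hdvd : ∀ (n : ℕ) (a : O₀), inc π ^ n ∣ inc a ↔ π ^ n ∣ a)
    (hnz : ∀ x : O, inc π * x = 0 → x = 0) : LSys (PowerSeries.C (inc π)) (LLc happ L0) where
  one := fun r => ⟨1, H.one, by rw [map_one, sub_self]; exact dvd_zero _⟩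
  mul := by
    intro i j f g hf hg r
    obtain ⟨l, hl, h⟩ := hf r
    obtain ⟨l', hl', h'⟩ := hg r
    refine ⟨l * l', H.mul hl hl', ?_⟩
    have e : f * g - PowerSeries.map inc (l * l') =
        (f - PowerSeries.map inc l) * g + PowerSeries.map inc l * (g - PowerSeries.map inc l') := by
      rw [map_mul]; ring
    rw [e]
    exact dvd_add (Dvd.dvd.mul_right h _) (Dvd.dvd.mul_left h' _)
  sat := by
    intro i f hf r
    obtain ⟨l, hl, h⟩ := hf (r + 1)
    have h1 : PowerSeries.C (inc π) ^ 1 ∣ PowerSeries.map inc l := by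
      have h2 : PowerSeries.C (inc π) ∣ PowerSeries.C (inc π) * f - PowerSeries.map inc l :=
        (dvd_pow_self _ (Nat.succ_ne_zero r)).trans h
      rw [pow_one]
      exact (dvd_sub_right (dvd_mul_right _ _)).mp h2
    rw [C_pow_dvd_map hdvd, pow_one] at h1
    obtain ⟨l', rfl⟩ := h1
    refine ⟨l', H.sat hl, ?_⟩
    obtain ⟨g, hg⟩ := h
    refine ⟨g, ?_⟩
    have h3 : PowerSeries.C (inc π) * (f - PowerSeries.map inc l' -
        PowerSeries.C (inc π) ^ r * g) = 0 := by
      rw [map_mul, PowerSeries.map_C] at hg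
      linear_combination hg
    exact sub_eq_zero.mp (ps_nzd hnz _ h3)
  closed := by
    intro i f hf r
    obtain ⟨g, hg, h⟩ := hf r
    obtain ⟨l, hl, h'⟩ := hg r
    refine ⟨l, hl, ?_⟩
    have e : f - PowerSeries.map inc l = (f - g) + (g - PowerSeries.map inc l) := by ring
    rw [e]
    exact dvd_add h h'

theorem Lat0.lred (H : Lat0 π L0) (hdvd : ∀ (n : ℕ) (a : O₀), inc π ^ n ∣ inc a ↔ π ^ n ∣ a)
    (hnz : ∀ x : O, inc π * x = 0 → x = 0) {k : Type*} [Field k] {red : O →+* k}
    (hrs : Function.Surjective red) (hrk : ∀ x, red x = 0 ↔ inc π ∣ x)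
    {Lb : ℕ → Set (PowerSeries k)}
    (hLb : ∀ i f, f ∈ Lb i ↔ ∃ l ∈ L0 i, PowerSeries.map (red.comp inc) l = f) :
    LRed (PowerSeries.C (inc π)) (LLc happ L0) (PowerSeries.map red) Lb where
  sys := H.sys hdvd hnz
  nzd := fun f hf => ps_nzd hnz f hf
  exp := ⟨inc π, rfl⟩
  surj := ps_surj hrs
  ker := fun f => ps_red red hrk f
  mem := by
    intro i f
    rw [hLb]
    constructor
    · rintro ⟨l, hl, rfl⟩
      refine ⟨PowerSeries.map inc l, map_mem_LLc hl, ?_⟩
      ext n
      simp
    · rintro ⟨g, hg, rfl⟩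
      obtain ⟨l, hl, h⟩ := hg 1
      refine ⟨l, hl, ?_⟩
      rw [pow_one, ← ps_red red hrk, map_sub, sub_eq_zero] at h
      rw [h]
      ext n
      simp

/-- the closure of a finitely generated saturated lattice is its span -/
theorem Lat0.mem_span [IsAdicComplete (Ideal.span {inc π}) O] (H : Lat0 π L0)
    (hdvd : ∀ (n : ℕ) (a : O₀), inc π ^ n ∣ inc a ↔ π ^ n ∣ a) {i : ℕ} (hfg : (L0 i).FG)
    {f : PowerSeries O} (hf : f ∈ LLc happ L0 i) :
    f ∈ Submodule.span O (PowerSeries.map inc '' (L0 i : Set (PowerSeries O₀))) := by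
  classical
  obtain ⟨S, hS⟩ := hfg
  have hSL : ∀ s ∈ S, s ∈ L0 i := fun s hs => by
    rw [← hS]
    exact Submodule.subset_span hs
  choose l hl hfl using hf
  have h1 : ∀ r, ∃ l' ∈ L0 i, l (r + 1) - l r = PowerSeries.C π ^ r * l' := by
    intro r
    have h2 : PowerSeries.C (inc π) ^ r ∣ PowerSeries.map inc (l (r + 1) - l r) := by
      have e : PowerSeries.map inc (l (r + 1) - l r) =
          (f - PowerSeries.map inc (l r)) - (f - PowerSeries.map inc (l (r + 1))) := by
        rw [map_sub]; ring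
      rw [e]
      exact dvd_sub (hfl r) ((pow_dvd_pow _ (Nat.le_succ r)).trans (hfl (r + 1)))
    rw [C_pow_dvd_map hdvd] at h2
    obtain ⟨l', hl'⟩ := h2
    exact ⟨l', H.sat_pow (hl' ▸ sub_mem (hl (r + 1)) (hl r)), hl'⟩
  choose l' hl' hll' using h1
  have h2 : ∀ g ∈ L0 i, ∃ c : PowerSeries O₀ → O₀, g = ∑ s ∈ S, c s • s := by
    intro g hg
    rw [← hS, Submodule.mem_span_finset] at hg
    obtain ⟨c, -, hc⟩ := hg
    exact ⟨c, hc.symm⟩
  choose! c hc using h2
  have h3 : ∀ s, ∃ d : O, ∀ n, inc π ^ n ∣ d -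
      (inc (c (l 0) s) + ∑ r ∈ Finset.range n, inc π ^ r * inc (c (l' r) s)) := by
    intro s
    apply exists_lim (π := inc π)
      (f := fun n => inc (c (l 0) s) + ∑ r ∈ Finset.range n, inc π ^ r * inc (c (l' r) s))
    intro n
    rw [Finset.sum_range_succ]
    exact ⟨inc (c (l' n) s), by ring⟩
  choose d hd using h3
  have h4 : f = ∑ s ∈ S, d s • PowerSeries.map inc s := by
    rw [← sub_eq_zero]
    have := isAdicComplete_ps (π := inc π)
    apply eq_zero_of_dvd (π := PowerSeries.C (inc π))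
    intro n
    have h5 : l n = l 0 + ∑ r ∈ Finset.range n, PowerSeries.C π ^ r * l' r := by
      induction n with
      | zero => simp
      | succ n ih => rw [Finset.sum_range_succ, ← hll', ← add_assoc, ← ih]; ring
    have h6 : PowerSeries.map inc (l n) = ∑ s ∈ S,
        (inc (c (l 0) s) + ∑ r ∈ Finset.range n, inc π ^ r * inc (c (l' r) s)) •
          PowerSeries.map inc s := by
      have h7 : ∀ g ∈ L0 i, PowerSeries.map inc g =
          ∑ s ∈ S, inc (c g s) • PowerSeries.map inc s := by
        intro g hg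
        conv_lhs => rw [hc g hg]
        rw [map_sum]
        refine Finset.sum_congr rfl fun s _ => ?_
        rw [PowerSeries.smul_eq_C_mul, PowerSeries.smul_eq_C_mul, map_mul, PowerSeries.map_C]
      rw [h5, map_add, map_sum, h7 _ (hl 0)]
      simp only [add_smul, Finset.sum_add_distrib, Finset.sum_smul]
      congr 1
      rw [Finset.sum_comm]
      refine Finset.sum_congr rfl fun r _ => ?_
      rw [map_mul, map_pow, PowerSeries.map_C, h7 _ (hl' r), Finset.mul_sum]
      refine Finset.sum_congr rfl fun s _ => ?_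
      rw [PowerSeries.smul_eq_C_mul, PowerSeries.smul_eq_C_mul, map_mul, map_pow]
      ring
    have e : f - ∑ s ∈ S, d s • PowerSeries.map inc s = (f - PowerSeries.map inc (l n)) -
        ∑ s ∈ S, (d s - (inc (c (l 0) s) + ∑ r ∈ Finset.range n,
          inc π ^ r * inc (c (l' r) s))) • PowerSeries.map inc s := by
      rw [h6]
      simp only [sub_smul, Finset.sum_sub_distrib]
      ring
    rw [e]
    refine dvd_sub (hfl n) (Finset.dvd_sum fun s _ => ?_)
    rw [PowerSeries.smul_eq_C_mul, ← map_pow]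
    exact Dvd.dvd.mul_right (map_dvd _ (hd s n)) _
  rw [h4]
  refine Submodule.sum_mem _ fun s hs => Submodule.smul_mem _ _ (Submodule.subset_span ?_)
  exact ⟨s, hSL s hs, rfl⟩

end Lat

end Fermat.Agent.LG
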