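import Mathlib

/-!
Vectors killed by a relation in a module with a Cayley–Hamilton action.
-/

set_option autoImplicit false

namespace Fermat.Agent.LG

section Alg

variable {G E V : Type*} [Group G] [Ring E] [AddCommGroup V] [Module E V]

/-- An action of a group satisfying the Cayley–Hamilton relations. -/
structure CHData (P X : G →* E) (T : G → E) : Prop where
  T_eq : ∀ g, T g = P g + X g * P g⁻¹
  X_comm : ∀ g (e : E), X g * e = e * X g
  T_comm : ∀ g h, T g * P h = P h * T g

variable {P X : G →* E} {T : G → E}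

/-- polarization of the Cayley–Hamilton relation -/
theorem CHData.polar (h : CHData P X T) (a b : G) :
    P a * P b + P b * P a = T a * P b + T b * P a - T a * T b + T (a * b) := by
  have e0 : X b * (P b⁻¹ * T a) = X b * (P b⁻¹ * P a) + X b * X a * (P b⁻¹ * P a⁻¹) := by
    rw [h.T_eq a, mul_add, mul_add, ← mul_assoc (P b⁻¹) (X a), ← h.X_comm a (P b⁻¹),
      mul_assoc (X a), ← mul_assoc (X b) (X a)]
  have e1 : T a * T b = T a * P b + X b * (P b⁻¹ * P a) + X b * X a * (P b⁻¹ * P a⁻¹) := by
    rw [add_assoc, ← e0, h.T_eq b, mul_add, ← mul_assoc (T a) (X b), ← h.X_comm b (T a),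
      mul_assoc (X b), h.T_comm a b⁻¹]
  have e2 : T b * P a = P b * P a + X b * (P b⁻¹ * P a) := by
    rw [h.T_eq b, add_mul, mul_assoc]
  have e3 : T (a * b) = P a * P b + X b * X a * (P b⁻¹ * P a⁻¹) := by
    rw [h.T_eq (a * b), map_mul, map_mul, mul_inv_rev, map_mul, h.X_comm a (X b)]
  rw [e1, e2, e3]
  abel

theorem CHData.T_T (h : CHData P X T) (a b : G) : T a * T b = T b * T a := by
  rw [h.T_eq b, mul_add, add_mul, h.T_comm a b, ← mul_assoc, ← h.X_comm b (T a), mul_assoc,
    h.T_comm a, ← mul_assoc]

theorem CHData.T_mul_comm (h : CHData P X T) (a b : G) : T (a * b) = T (b * a) := by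
  have e1 := h.polar a b
  have e2 := h.polar b a
  have e3 := h.T_T a b
  have e4 : T a * P b + T b * P a - T a * T b + T (a * b) =
      T b * P a + T a * P b - T b * T a + T (b * a) := by
    rw [← e1, ← e2, add_comm]
  rw [e3] at e4
  have e5 : T a * P b + T b * P a - T b * T a = T b * P a + T a * P b - T b * T a := by abel
  rw [e5] at e4
  exact add_left_cancel e4

/-- the vectors killed by `T (r g)` for all `g`, where `r = (τ - 1) (σ - 1)` -/
def Good (T : G → E) (σ τ : G) (v : V) : Prop :=
  ∀ g, T (τ * σ * g) • v - T (τ * g) • v - T (σ * g) • v + T g • v = 0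

theorem CHData.good_P (h : CHData P X T) {σ τ : G} {v : V} (hv : Good T σ τ v) (k : G) :
    Good T σ τ (P k • v) := by
  intro g
  have h1 : ∀ x, T x • P k • v = P k • T x • v := fun x => by
    rw [← mul_smul, h.T_comm, mul_smul]
  rw [h1, h1, h1, h1, ← smul_sub, ← smul_sub, ← smul_add, hv g, smul_zero]

theorem CHData.good_T (h : CHData P X T) {σ τ : G} {v : V} (hv : Good T σ τ v) (k : G) :
    Good T σ τ (T k • v) := by
  intro g
  have h1 : ∀ x, T x • T k • v = T k • T x • v := fun x => by
    rw [← mul_smul, h.T_T, mul_smul]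
  rw [h1, h1, h1, h1, ← smul_sub, ← smul_sub, ← smul_add, hv g, smul_zero]

/-- the element `r = (τ - 1) (σ - 1)` -/
def rEl (P : G →* E) (σ τ : G) : E := P τ * P σ - P τ - P σ + 1

theorem CHData.r_P (h : CHData P X T) {σ τ : G} {v : V} (hv : Good T σ τ v) (g : G) :
    rEl P σ τ • P g • v + P g • rEl P σ τ • v = T g • rEl P σ τ • v := by
  have e1 := h.polar (τ * σ) g
  have e2 := h.polar τ g
  have e3 := h.polar σ g
  have e4 := h.polar 1 g
  have key : rEl P σ τ * P g + P g * rEl P σ τ = T g * rEl P σ τ +
      P g * (T (τ * σ * 1) - T (τ * 1) - T (σ * 1) + T 1) -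
      T g * (T (τ * σ * 1) - T (τ * 1) - T (σ * 1) + T 1) +
      (T (τ * σ * g) - T (τ * g) - T (σ * g) + T g) := by
    have c1 := h.T_comm (τ * σ) g
    have c2 := h.T_comm τ g
    have c3 := h.T_comm σ g
    have c4 := h.T_comm 1 g
    have d1 := h.T_T (τ * σ) g
    have d2 := h.T_T τ g
    have d3 := h.T_T σ g
    have d4 := h.T_T 1 g
    rw [c1, d1, map_mul] at e1
    rw [c2, d2] at e2
    rw [c3, d3] at e3
    rw [c4, d4, map_one, one_mul g] at e4
    rw [rEl]
    simp only [mul_one]
    have e5 : (P τ * P σ - P τ - P σ + 1) * P g + P g * (P τ * P σ - P τ - P σ + 1) =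
        (P τ * P σ * P g + P g * (P τ * P σ)) - (P τ * P g + P g * P τ) -
          (P σ * P g + P g * P σ) + (1 * P g + P g * 1) := by noncomm_ring
    rw [e5, e1, e2, e3, e4]
    noncomm_ring
  have hg := hv g
  have h1 := hv 1
  have key' := congrArg (fun e : E => e • v) key
  simp only [add_smul, sub_smul, mul_smul] at key'
  simp only [mul_one] at h1
  simp only [mul_one] at key'
  rw [key', h1, hg, smul_zero, smul_zero, add_zero, sub_zero, add_zero]

/-- commutators kill `r v` -/
theorem CHData.comm_r (h : CHData P X T) {σ τ : G} {v : V} (hv : Good T σ τ v) (a b : G) :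
    P a • P b • rEl P σ τ • v = P b • P a • rEl P σ τ • v := by
  have e1 := h.r_P hv (a * b)
  have e2 := h.r_P (h.good_P hv b) a
  have e3 := h.r_P hv b
  have e4 := congrArg (fun e : E => e • rEl P σ τ • v) (h.polar a b)
  simp only [add_smul, sub_smul, mul_smul] at e4
  rw [map_mul, mul_smul, mul_smul] at e1
  set u := rEl P σ τ • v with hu
  have e5 : rEl P σ τ • P b • v = T b • u - P b • u := eq_sub_of_add_eq e3
  rw [e5] at e2
  have e6 : rEl P σ τ • P a • P b • v =
      T a • (T b • u - P b • u) - P a • (T b • u - P b • u) := eq_sub_of_add_eq e2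
  rw [e6] at e1
  simp only [smul_sub] at e1
  have e7 : P a • T b • u = T b • P a • u := by rw [← mul_smul, ← h.T_comm, mul_smul]
  rw [e7] at e1
  have e8 : P b • P a • u = P a • P b • u := by
    have e9 : P b • P a • u = T a • P b • u + T b • P a • u - T a • T b • u + T (a * b) • u -
        P a • P b • u := by
      rw [← e4]
      abel
    rw [e9, ← e1]
    abel
  exact e8.symm

theorem CHData.comm_r' (h : CHData P X T) {σ τ : G} {v : V} (hv : Good T σ τ v) (a b k : G) :
    P a • P b • P k • rEl P σ τ • v = P b • P a • P k • rEl P σ τ • v := by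
  have e1 := h.comm_r hv a (b * k)
  have e2 := h.comm_r hv a k
  rw [map_mul, mul_smul, mul_smul] at e1
  rw [e1, e2]

/-- **The relation times a trace of commutators kills the vector.** -/
theorem CHData.kill (h : CHData P X T) {σ τ : G} {v : V} (hv : Good T σ τ v)
    (a b k a' b' : G) :
    T (a * b * k * (a' * b')) • rEl P σ τ • v - T (a * b * k * (b' * a')) • rEl P σ τ • v -
      T (b * a * k * (a' * b')) • rEl P σ τ • v + T (b * a * k * (b' * a')) • rEl P σ τ • v =
      0 := by
  set u := rEl P σ τ • v with hu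
  have p1 := congrArg (fun e : E => e • u) (h.polar (a * b * k) (a' * b'))
  have p2 := congrArg (fun e : E => e • u) (h.polar (a * b * k) (b' * a'))
  have p3 := congrArg (fun e : E => e • u) (h.polar (b * a * k) (a' * b'))
  have p4 := congrArg (fun e : E => e • u) (h.polar (b * a * k) (b' * a'))
  rw [h.T_mul_comm b' a'] at p2 p4
  simp only [add_smul, sub_smul, mul_smul, map_mul] at p1 p2 p3 p4
  have c1 := h.comm_r hv a' b'
  have c2 := h.comm_r' hv a b k
  rw [← hu] at c1 c2
  rw [← c1] at p2 p4
  rw [← c2] at p3 p4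
  have q1 : T (a * b * k * (a' * b')) • u = P a • P b • P k • P a' • P b' • u +
      P a' • P b' • P a • P b • P k • u - T (a * b * k) • P a' • P b' • u -
      T (a' * b') • P a • P b • P k • u + T (a * b * k) • T (a' * b') • u := by
    rw [p1]; abel
  have q2 : T (a * b * k * (b' * a')) • u = P a • P b • P k • P a' • P b' • u +
      P b' • P a' • P a • P b • P k • u - T (a * b * k) • P a' • P b' • u -
      T (a' * b') • P a • P b • P k • u + T (a * b * k) • T (a' * b') • u := by
    rw [p2]; abel
  have q3 : T (b * a * k * (a' * b')) • u = P b • P a • P k • P a' • P b' • u +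
      P a' • P b' • P a • P b • P k • u - T (b * a * k) • P a' • P b' • u -
      T (a' * b') • P a • P b • P k • u + T (b * a * k) • T (a' * b') • u := by
    rw [p3]; abel
  have q4 : T (b * a * k * (b' * a')) • u = P b • P a • P k • P a' • P b' • u +
      P b' • P a' • P a • P b • P k • u - T (b * a * k) • P a' • P b' • u -
      T (a' * b') • P a • P b • P k • u + T (b * a * k) • T (a' * b') • u := by
    rw [p4]; abel
  rw [q1, q2, q3, q4]
  abel

end Alg

end Fermat.Agent.LG
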