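import Fermat.Agent.LG.PsVec
import Fermat.Agent.ESCore.FrobMult

set_option autoImplicit false

/-!
# From characters fixed by inertia to ramification
-/

open IsLocalRing CongruenceSubgroup Matrix.SpecialLinearGroup Polynomial
open scoped MatrixGroups

noncomputable section

namespace Fermat.Agent.LG

open ESCore ESCore.ModP ESCore.Tower ESCore.Univ UnivDef

section

variable {N : ℕ} [NeZero N] {S : Finset ℕ} {p : ℕ}

/-- a functional composed with a scalar -/
def psiMul {O : Type} [CommRing O] (ψ : Multiplicative O →* ℂˣ) (D : O) :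
    Multiplicative O →* ℂˣ :=
  ψ.comp (AddMonoidHom.toMultiplicative (AddMonoidHom.mulLeft D))

theorem psiMul_apply {O : Type} [CommRing O] (ψ : Multiplicative O →* ℂˣ) (D x : O) :
    psiMul ψ D (Multiplicative.ofAdd x) = ψ (Multiplicative.ofAdd (D * x)) := rfl

theorem psiMul_pow {O : Type} [CommRing O] {ψ : Multiplicative O →* ℂˣ} (D : O) {m : ℕ}
    (hψ : ψ ^ m = 1) : psiMul ψ D ^ m = 1 := by
  refine MonoidHom.ext fun x => ?_
  exact DFunLike.congr_fun hψ (AddMonoidHom.toMultiplicative (AddMonoidHom.mulLeft D) x)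

theorem psi_eq_one_of_mem {O : Type} [CommRing O] {ψ : Multiplicative O →* ℂˣ} {m : ℕ}
    (hψ : ψ ^ m = 1) {x : O} (hx : x ∈ Ideal.span {(m : O)}) :
    ψ (Multiplicative.ofAdd x) = 1 := by
  obtain ⟨y, rfl⟩ := Ideal.mem_span_singleton.mp hx
  have h1 : (Multiplicative.ofAdd ((m : O) * y)) = (Multiplicative.ofAdd y) ^ m := by
    rw [← nsmul_eq_mul]
    rfl
  rw [h1, map_pow, ← MonoidHom.pow_apply, hψ]
  rfl

theorem char_pow_dvd {B : Type*} [MulOneClass B] {ψ : B →* ℂˣ} {a b : ℕ} (h : a ∣ b)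
    (hψ : ψ ^ a = 1) : ψ ^ b = 1 := by
  obtain ⟨k, rfl⟩ := h
  refine MonoidHom.ext fun x => ?_
  have h1 : ψ x ^ a = 1 := DFunLike.congr_fun hψ x
  rw [MonoidHom.pow_apply, pow_mul, h1, one_pow, MonoidHom.one_apply]

/-- the Cayley–Hamilton data of the Galois action on the characters -/
theorem chData (hp : p.Prime) (hpS : p ∈ S) (hNS : ∀ q : ℕ, q.Prime → q ∣ N → q ∈ S)
    (hKL : ∀ l : ℕ, l.Prime → ¬ l ∣ N → l ≠ p → ∀ B : ValuationSubring Qb,
      B.LiesOverPrime l → ∀ n, KLProp N (p ^ n) B) (m : ℕ) {f : GQ → TR N S p}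
    (hf : ∀ g, f g ∈ algP (TxS N S p) (TtS N S))
    (hfm : ∀ g, (f g).1 m = trS (rhoT N hp.pos m) (chiT N hp.pos m) g) :
    CHData (rhoT N hp.pos m) (chiT N hp.pos m) (fun g => (f g).1 m) where
  T_eq g := hfm g
  X_comm g e := by
    have : NeZero (p ^ m) := ⟨(pow_pos hp.pos m).ne'⟩
    change cycE N (p ^ m) g * e = e * cycE N (p ^ m) g
    rw [cycE_eq]
    exact Nat.cast_comm _ _
  T_comm g h := algP_commute (fun i => (galTower (N := N) hp hpS hNS hKL).ρcomm i m h) (hf g)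

/-- the action of the Hecke operators on the characters attached to `v` -/
theorem act_char {O : Type} [CommRing O]
    {π : CuspForm.heckeAlgebra N 2 (↑S : Set ℕ) →+* O} {v : LatM N (↑S : Set ℕ) →+ O}
    (hvT : ∀ (f : CuspForm.heckeAlgebra N 2 (↑S : Set ℕ)) x, v (f • x) = π f * v x) {m : ℕ}
    {F : TR N S p} (hF : F ∈ algP (TxS N S p) (TtS N S)) {y : O} {k : ℕ}
    (hy : y - π F.2 ∈ Ideal.span {(k : O)})
    {ψ : Multiplicative O →* ℂˣ} (hψk : ψ ^ k = 1) (hψ : ψ ^ (p ^ m) = 1) :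
    F.1 m (Additive.ofMul ⟨vChar v ψ, vChar_mem v hψ⟩) =
      Additive.ofMul ⟨vChar v (psiMul ψ y), vChar_mem v (psiMul_pow y hψ)⟩ := by
  apply Additive.toMul.injective
  apply Subtype.ext
  have h2 := algP_latX (perM N S) TxS_latX hF (ψ.comp (AddMonoidHom.toMultiplicative v))
    (Additive.ofMul ⟨vChar v ψ, vChar_mem v hψ⟩) (n := m) rfl
  rw [h2]
  refine MonoidHom.ext fun γ => ?_
  change ψ (AddMonoidHom.toMultiplicative v (smulHom _ F.2 (perM N S γ))) =
    psiMul ψ y (AddMonoidHom.toMultiplicative v (perM N S γ))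
  obtain ⟨x, hx⟩ : ∃ x : LatM N (↑S : Set ℕ), perM N S γ = Multiplicative.ofAdd x :=
    ⟨Multiplicative.toAdd (perM N S γ), rfl⟩
  rw [hx, smulHom_ofAdd]
  change ψ (Multiplicative.ofAdd (v (F.2 • x))) = ψ (Multiplicative.ofAdd (y * v x))
  rw [hvT]
  have h3 : ψ (Multiplicative.ofAdd ((y - π F.2) * v x)) = 1 :=
    psi_eq_one_of_mem hψk (Ideal.mul_mem_right _ _ hy)
  have h4 : y * v x = (y - π F.2) * v x + π F.2 * v x := by ring
  rw [h4, ofAdd_add, MonoidHom.map_mul ψ, h3, one_mul]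

theorem vChar_zero {O : Type} [CommRing O] {v : LatM N (↑S : Set ℕ) →+ O} {m : ℕ}
    {ψ : Multiplicative O →* ℂˣ} (hψ : ψ ^ (p ^ m) = 1) :
    (Additive.ofMul (⟨vChar v (psiMul ψ 0), vChar_mem v (psiMul_pow 0 hψ)⟩ :
      XG N (p ^ m))) = 0 := by
  apply Additive.toMul.injective
  apply Subtype.ext
  refine MonoidHom.ext fun γ => ?_
  change ψ (Multiplicative.ofAdd (0 * _)) = 1
  rw [zero_mul, ofAdd_zero, map_one]

set_option maxHeartbeats 1000000 in
/-- the relation on the characters attached to `v` -/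
theorem rEl_char (hp : p.Prime) (hpS : p ∈ S) (hNS : ∀ q : ℕ, q.Prime → q ∣ N → q ∈ S)
    (hKL : ∀ l : ℕ, l.Prime → ¬ l ∣ N → l ≠ p → ∀ B : ValuationSubring Qb,
      B.LiesOverPrime l → ∀ n, KLProp N (p ^ n) B)
    {O : Type} [CommRing O]
    {π : CuspForm.heckeAlgebra N 2 (↑S : Set ℕ) →+* O} {v : LatM N (↑S : Set ℕ) →+ O}
    (hvT : ∀ (f : CuspForm.heckeAlgebra N 2 (↑S : Set ℕ)) x, v (f • x) = π f * v x)
    {t : GQ → O} {m k : ℕ} {f : GQ → TR N S p}
    (hf : ∀ g, f g ∈ algP (TxS N S p) (TtS N S))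
    (hfm : ∀ g, (f g).1 m = trS (rhoT N hp.pos m) (chiT N hp.pos m) g)
    (h1 : ∀ g, t g - π (f g).2 ∈ Ideal.span {(k : O)})
    {σ τ : GQ} (hU : ∀ g, t (τ * σ * g) - t (τ * g) - t (σ * g) + t g = 0)
    (a b k' a' b' : GQ)
    {ψ : Multiplicative O →* ℂˣ} (hψk : ψ ^ k = 1) (hψ : ψ ^ (p ^ m) = 1) :
    rEl (rhoT N hp.pos m) σ τ • (Additive.ofMul (⟨vChar v (psiMul ψ
      (t (a * b * k' * (a' * b')) - t (a * b * k' * (b' * a')) -
      t (b * a * k' * (a' * b')) + t (b * a * k' * (b' * a')))),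
      vChar_mem v (psiMul_pow _ hψ)⟩ : XG N (p ^ m))) = 0 := by
  have CH := chData hp hpS hNS hKL m hf hfm
  set x : Additive (XG N (p ^ m)) :=
    Additive.ofMul ⟨vChar v ψ, vChar_mem v hψ⟩ with hx
  have hgood : Good (fun g => (f g).1 m) σ τ x := by
    intro g
    have hF : f (τ * σ * g) - f (τ * g) - f (σ * g) + f g ∈ algP (TxS N S p) (TtS N S) :=
      add_mem (sub_mem (sub_mem (hf _) (hf _)) (hf _)) (hf _)
    have h2 := act_char hvT hF (y := 0) (by
      have e2 : π (f (τ * σ * g) - f (τ * g) - f (σ * g) + f g).2 =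
          π (f (τ * σ * g)).2 - π (f (τ * g)).2 - π (f (σ * g)).2 + π (f g).2 := by
        rw [← map_sub, ← map_sub, ← map_add]
        rfl
      have e1 : (0 : O) - π (f (τ * σ * g) - f (τ * g) - f (σ * g) + f g).2 =
          (t (τ * σ * g) - π (f (τ * σ * g)).2) - (t (τ * g) - π (f (τ * g)).2) -
          (t (σ * g) - π (f (σ * g)).2) + (t g - π (f g).2) := by
        rw [e2]
        linear_combination -(hU g)
      rw [e1]
      exact add_mem (sub_mem (sub_mem (h1 _) (h1 _)) (h1 _)) (h1 _)) hψk hψ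
    rw [vChar_zero hψ] at h2
    exact h2
  have hkill := CH.kill hgood a b k' a' b'
  have hFD : f (a * b * k' * (a' * b')) - f (a * b * k' * (b' * a')) -
      f (b * a * k' * (a' * b')) + f (b * a * k' * (b' * a')) ∈
      algP (TxS N S p) (TtS N S) :=
    add_mem (sub_mem (sub_mem (hf _) (hf _)) (hf _)) (hf _)
  set FD := f (a * b * k' * (a' * b')) - f (a * b * k' * (b' * a')) -
      f (b * a * k' * (a' * b')) + f (b * a * k' * (b' * a')) with hFDdef
  have hxy := act_char hvT hFD (y := t (a * b * k' * (a' * b')) - t (a * b * k' * (b' * a')) -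
      t (b * a * k' * (a' * b')) + t (b * a * k' * (b' * a'))) (k := k) (by
    have e2 : π FD.2 = π (f (a * b * k' * (a' * b'))).2 - π (f (a * b * k' * (b' * a'))).2 -
        π (f (b * a * k' * (a' * b'))).2 + π (f (b * a * k' * (b' * a'))).2 := by
      rw [← map_sub, ← map_sub, ← map_add]
      rfl
    have e1 : t (a * b * k' * (a' * b')) - t (a * b * k' * (b' * a')) -
        t (b * a * k' * (a' * b')) + t (b * a * k' * (b' * a')) - π FD.2 =
        (t (a * b * k' * (a' * b')) - π (f (a * b * k' * (a' * b'))).2) -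
        (t (a * b * k' * (b' * a')) - π (f (a * b * k' * (b' * a'))).2) -
        (t (b * a * k' * (a' * b')) - π (f (b * a * k' * (a' * b'))).2) +
        (t (b * a * k' * (b' * a')) - π (f (b * a * k' * (b' * a'))).2) := by
      rw [e2]
      ring
    rw [e1]
    exact add_mem (sub_mem (sub_mem (h1 _) (h1 _)) (h1 _)) (h1 _)) hψk hψ
  have hcomm : ∀ h, Commute (FD.1 m) (rhoT N hp.pos m h) := fun h =>
    algP_commute (fun i => (galTower (N := N) hp hpS hNS hKL).ρcomm i m h) hFD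
  have hcr : Commute (FD.1 m) (rEl (rhoT N hp.pos m) σ τ) := by
    rw [rEl]
    exact ((((hcomm τ).mul_right (hcomm σ)).sub_right (hcomm τ)).sub_right
      (hcomm σ)).add_right (Commute.one_right _)
  have h5 : FD.1 m = (f (a * b * k' * (a' * b'))).1 m - (f (a * b * k' * (b' * a'))).1 m -
      (f (b * a * k' * (a' * b'))).1 m + (f (b * a * k' * (b' * a'))).1 m := rfl
  have h4 : FD.1 m • rEl (rhoT N hp.pos m) σ τ • x = 0 := by
    rw [h5, add_smul, sub_smul, sub_smul]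
    exact hkill
  rw [← mul_smul, hcr.eq, mul_smul] at h4
  rw [← hxy]
  exact h4

end

section

variable {N : ℕ} [NeZero N] {m : ℕ} {N' : ℕ} [NeZero N']

theorem group_calc {X : Type*} [CommGroup X] {u w z x : X} (h : u * w⁻¹ * z⁻¹ * x = 1) :
    u * w⁻¹ = z * x⁻¹ := by
  have h1 : u * w⁻¹ * (z⁻¹ * x) = 1 := by rw [← mul_assoc]; exact h
  have h2 := eq_inv_of_mul_eq_one_left h1
  rw [h2, mul_inv_rev, inv_inv, mul_comm]

/-- **(CAR) applied twice.** -/
theorem pow_eq_one_of_rel (hm : 0 < m) (hNN' : N ∣ N') {I : Subgroup GQ}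
    {E : ℕ} (Gd : Subgroup (XG N' m))
    (hGdgal : ∀ σ, ∀ χ ∈ Gd, galX N' hm σ χ ∈ Gd)
    (hCAR : ∀ χ ∈ Gd, (∀ σ ∈ I, galX N' hm σ χ = χ) → χ ^ E = 1)
    {χ : XG N m} (hχ : resX hNN' m χ ∈ Gd)
    (hr : ∀ σ ∈ I, ∀ τ ∈ I, galX N hm τ (galX N hm σ χ) *
            (galX N hm τ χ)⁻¹ * (galX N hm σ χ)⁻¹ * χ = 1) :
    resX hNN' m (χ ^ (E * E)) = 1 := by
  set χ' : XG N' m := resX hNN' m χ with hχ'
  have hfix : ∀ σ ∈ I, ∀ τ ∈ I,
      galX N' hm τ (galX N' hm σ χ' * χ'⁻¹) = galX N' hm σ χ' * χ'⁻¹ := by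
    intro σ hσ τ hτ
    have h6 := congrArg (resX hNN' m) (hr σ hσ τ hτ)
    rw [map_mul, map_mul, map_mul, map_inv, map_inv, map_one, ← galX_res, ← galX_res,
      ← galX_res] at h6
    rw [← hχ'] at h6
    rw [map_mul, map_inv]
    exact group_calc h6
  have hE1 : ∀ σ ∈ I, galX N' hm σ (χ' ^ E) = χ' ^ E := by
    intro σ hσ
    have h2 := hCAR _ (Gd.mul_mem (hGdgal σ χ' hχ) (Gd.inv_mem hχ)) (hfix σ hσ)
    rw [mul_pow, inv_pow, mul_inv_eq_one] at h2
    rw [map_pow, h2]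
  have hE2 := hCAR _ (Gd.pow_mem hχ E) hE1
  rw [← pow_mul, hχ', ← map_pow] at hE2
  exact hE2

end

section

variable {N : ℕ} [NeZero N] {S : Finset ℕ} {p : ℕ}

theorem rEl_toMul (hp : 0 < p) (m : ℕ) (σ τ : GQ) (y : Additive (XG N (p ^ m)))
    (h : rEl (rhoT N hp m) σ τ • y = 0) :
    galX N (pow_pos hp m) τ (galX N (pow_pos hp m) σ (Additive.toMul y)) *
      (galX N (pow_pos hp m) τ (Additive.toMul y))⁻¹ *
      (galX N (pow_pos hp m) σ (Additive.toMul y))⁻¹ * Additive.toMul y = 1 := by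
  have h4 := congrArg Additive.toMul h
  have h5 : Additive.toMul (rEl (rhoT N hp m) σ τ • y) =
      galX N (pow_pos hp m) τ (galX N (pow_pos hp m) σ (Additive.toMul y)) /
      galX N (pow_pos hp m) τ (Additive.toMul y) / galX N (pow_pos hp m) σ (Additive.toMul y) *
        Additive.toMul y := rfl
  rw [h5, div_eq_mul_inv, div_eq_mul_inv] at h4
  exact h4

/-- **The contradiction from (CAR).** -/
theorem false_of_car (hp : p.Prime) (hpS : p ∈ S) (hNS : ∀ q : ℕ, q.Prime → q ∣ N → q ∈ S)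
    (hKL : ∀ l : ℕ, l.Prime → ¬ l ∣ N → l ≠ p → ∀ B : ValuationSubring Qb,
      B.LiesOverPrime l → ∀ n, KLProp N (p ^ n) B)
    {N' : ℕ} [NeZero N'] (hNN' : N ∣ N') {I : Subgroup GQ}
    {O : Type} [CommRing O] [IsDomain O] [IsDiscreteValuationRing O] [Finite (ResidueField O)]
    [CharZero O] (hpO : (p : O) ∈ maximalIdeal O)
    {π : CuspForm.heckeAlgebra N 2 (↑S : Set ℕ) →+* O} {v : LatM N (↑S : Set ℕ) →+ O}
    (hv : v ≠ 0) (hvT : ∀ (f : CuspForm.heckeAlgebra N 2 (↑S : Set ℕ)) x, v (f • x) = π f * v x)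
    {c : ℕ} {t : GQ → O}
    (ht : ∀ σ, ∀ f ∈ algP (TxS N S p) (TtS N S), ∀ n m, n + c ≤ m →
        f.1 m = trS (rhoT N hp.pos m) (chiT N hp.pos m) σ →
        t σ - π f.2 ∈ Ideal.span {(p : O) ^ n})
    (hU : ∀ σ ∈ I, ∀ τ ∈ I, ∀ g, t (τ * σ * g) - t (τ * g) - t (σ * g) + t g = 0)
    {a b k a' b' : GQ} (hD : t (a * b * k * (a' * b')) - t (a * b * k * (b' * a')) -
      t (b * a * k * (a' * b')) + t (b * a * k * (b' * a')) ≠ 0)
    {E : ℕ} (hE : E ≠ 0) (Gd : ∀ m, Subgroup (XG N' (p ^ m)))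
    (hGdgal : ∀ m σ, ∀ χ ∈ Gd m, galX N' (pow_pos hp.pos m) σ χ ∈ Gd m)
    (hGdv : ∀ m (ψ : Multiplicative O →* ℂˣ) (hψ : ψ ^ (p ^ m) = 1),
      resX hNN' (p ^ m) ⟨vChar v ψ, vChar_mem v hψ⟩ ∈ Gd m)
    (hCAR : ∀ m, ∀ χ ∈ Gd m,
      (∀ σ ∈ I, galX N' (pow_pos hp.pos m) σ χ = χ) → χ ^ E = 1) :
    False := by
  obtain ⟨d, hd0, hd⟩ := exists_pow_res (N' := N') hNN'
  obtain ⟨x₀, hx₀⟩ : ∃ x, v x ≠ 0 := by
    by_contra hcon
    push Not at hcon
    exact hv (AddMonoidHom.ext hcon)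
  generalize hDdef : t (a * b * k * (a' * b')) - t (a * b * k * (b' * a')) -
      t (b * a * k * (a' * b')) + t (b * a * k * (b' * a')) = D at hD
  -- the main congruence
  have hmain : ∀ n : ℕ, ((E * E * d : ℕ) : O) * (D * v x₀) ∈ Ideal.span {(p : O) ^ n} := by
    intro n
    have hnm : p ^ n ∣ p ^ (n + c) := pow_dvd_pow _ (by omega)
    generalize hm : n + c = m at hnm
    choose f hf hfm using fun g => trS_mem (galTower (N := N) hp hpS hNS hKL) m g
    have h1 : ∀ g, t g - π (f g).2 ∈ Ideal.span {((p ^ n : ℕ) : O)} := fun g => by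
      rw [Nat.cast_pow]
      exact ht g (f g) (hf g) n m hm.le (hfm g)
    -- it remains to consider characters of `O`
    have hfin : Finite (O ⧸ Ideal.span {((p ^ n : ℕ) : O)}) :=
      finite_quotient_of_mem (Nat.cast_ne_zero.mpr (pow_ne_zero _ hp.ne_zero))
    have hgoal : ((E * E * d : ℕ) : O) * (D * v x₀) ∈ Ideal.span {((p ^ n : ℕ) : O)} := by
      refine mem_span_of_forall_char fun ψ hψ => ?_
      have hψm : ψ ^ (p ^ m) = 1 := char_pow_dvd hnm hψ
      -- the relation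
      have hr : ∀ σ ∈ I, ∀ τ ∈ I,
          rEl (rhoT N hp.pos m) σ τ • (Additive.ofMul (⟨vChar v (psiMul ψ D),
            vChar_mem v (psiMul_pow D hψm)⟩ : XG N (p ^ m))) = 0 := by
        intro σ hσ τ hτ
        have h2 := rEl_char hp hpS hNS hKL hvT hf hfm h1 (hU σ hσ τ hτ) a b k a' b' hψ hψm
        simp only [hDdef] at h2
        exact h2
      have h3 := pow_eq_one_of_rel (pow_pos hp.pos m) hNN' (Gd m) (hGdgal m) (hCAR m)
        (χ := ⟨vChar v (psiMul ψ D), vChar_mem v (psiMul_pow D hψm)⟩)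
        (hGdv m _ (psiMul_pow D hψm))
        (fun σ hσ τ hτ => rEl_toMul hp.pos m σ τ _ (hr σ hσ τ hτ))
      have h7 := hd _ (congrArg Subtype.val h3)
      obtain ⟨γ, hγ⟩ := perM_surjective (N := N) (S := S) (Multiplicative.ofAdd x₀)
      have h8 := DFunLike.congr_fun h7 γ
      have e1 : (ψ (Multiplicative.ofAdd (D * (v (Multiplicative.toAdd (perM N S γ)))))) ^
          (E * E * d) = 1 := by
        rw [pow_mul]
        exact h8
      rw [hγ, ← map_pow] at e1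
      rw [← e1]
      congr 1
      change _ = Multiplicative.ofAdd ((E * E * d) • (D * v x₀))
      rw [nsmul_eq_mul]
    rwa [Nat.cast_pow] at hgoal
  have h0 := eq_zero_of_forall_pow hpO hmain
  have h2 : ((E * E * d : ℕ) : O) ≠ 0 :=
    Nat.cast_ne_zero.mpr (mul_ne_zero (mul_ne_zero hE hE) hd0)
  rcases mul_eq_zero.mp h0 with h3 | h3
  · exact h2 h3
  · rcases mul_eq_zero.mp h3 with h4 | h4
    · exact hD h4
    · exact hx₀ h4

end

end Fermat.Agent.LG
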