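import Fermat.Agent.LG.R36
import Fermat.Agent.LG.Pow4
import Fermat.Agent.NF.IntVec
import Fermat.Agent.NF.New6

set_option autoImplicit false

/-!
# Integral vectors attached to newforms and the transfers
-/

open Matrix Matrix.SpecialLinearGroup CongruenceSubgroup ModularForm ModularFormClass CuspForm
open Fermat.Agent.ES Fermat.Agent.ESCore
open Multiplicative (toAdd ofAdd)
open scoped MatrixGroups

noncomputable section

namespace Fermat.Agent.NF

variable {N : ℕ} [NeZero N] {g : CuspForm (Gamma0 N) 2}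

/-- **Integral functionals attached to newforms**, with their origin. -/
theorem exists_intVec_gen (hg : g.IsNewform) {S : Finset ℕ}
    {O : Type} [CommRing O] [IsDomain O] [CharZero O]
    (chi : CuspForm.heckeAlgebra N 2 (↑S : Set ℕ) →+* ℂ)
    (hchi : ∀ t, chi t = eigenHomC hg.1 (↑S : Set ℕ) t) (iota : chi.range →+* O) :
    ∃ (v : LatM N (↑S : Set ℕ) →+ O)
      (φ : integralClosure ℤ ℂ →+* AlgebraicClosure (FractionRing O))
      (v₀ : LatM N ∅ →+ AlgebraicClosure (FractionRing O))
      (f₀ : AlgebraicClosure (FractionRing O) →+ FractionRing O), v ≠ 0 ∧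
      (∀ (t : CuspForm.heckeAlgebra N 2 (↑S : Set ℕ)) x,
        v (t • x) = iota (chi.rangeRestrict t) * v x) ∧
      NewChar g φ (vChar v₀) ∧
      (AddMonoidHom.toMultiplicative
        (algebraMap O (FractionRing O)).toAddMonoidHom).comp (oChar v) =
        (AddMonoidHom.toMultiplicative f₀).comp (vChar v₀) := by
  classical
  let F := FractionRing O
  let A := AlgebraicClosure F
  obtain ⟨φ, hφ⟩ := exists_phi hg.1 chi hchi iota
  obtain ⟨v₀, hv₀, hv₀T, hNC, hne⟩ := exists_newChar (A := A) hg.1 φ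
  obtain ⟨x₀, hx₀⟩ : ∃ x, v₀ x ≠ 0 := by
    by_contra hcon
    push Not at hcon
    exact hv₀ (AddMonoidHom.ext hcon)
  obtain ⟨μ, hμ⟩ : ∃ μ : Module.Dual F A, μ (v₀ x₀) ≠ 0 := by
    by_contra hcon
    push Not at hcon
    exact hx₀ ((Module.forall_dual_apply_eq_zero_iff F (v₀ x₀)).mp hcon)
  -- clear denominators
  have hfg : AddGroup.FG (perLat N) := (AddGroup.fg_iff_addSubgroup_fg _).mpr perLat_fg
  obtain ⟨s, hs⟩ := AddGroup.fg_def.mp hfg
  obtain ⟨D, hD⟩ := IsLocalization.exist_integer_multiples_of_finset (nonZeroDivisors O)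
    (s.image fun x : perLat N => μ (v₀ (show LatM N ∅ from x)))
  have hD' : ∀ x : perLat N, ∃ y : O, algebraMap O F y = (D : O) • μ (v₀ (show LatM N ∅ from x)) := by
    intro x
    have hx : x ∈ AddSubgroup.closure (s : Set (perLat N)) := by rw [hs]; trivial
    induction hx using AddSubgroup.closure_induction with
    | mem x hx =>
      obtain ⟨y, hy⟩ := hD _ (Finset.mem_image_of_mem _ hx)
      exact ⟨y, hy⟩
    | zero =>
      refine ⟨0, ?_⟩
      have : v₀ (show LatM N ∅ from (0 : perLat N)) = 0 := map_zero v₀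
      rw [this, map_zero, map_zero, smul_zero]
    | add x y _ _ hx hy =>
      obtain ⟨a, ha⟩ := hx
      obtain ⟨b, hb⟩ := hy
      refine ⟨a + b, ?_⟩
      have : v₀ (show LatM N ∅ from (x + y : perLat N)) = v₀ (show LatM N ∅ from x) +
        v₀ (show LatM N ∅ from y) := map_add v₀ _ _
      rw [this, map_add, map_add, smul_add, ha, hb]
    | neg x _ hx =>
      obtain ⟨a, ha⟩ := hx
      refine ⟨-a, ?_⟩
      have : v₀ (show LatM N ∅ from (-x : perLat N)) = -v₀ (show LatM N ∅ from x) := map_neg v₀ _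
      rw [this, map_neg, map_neg, smul_neg, ha]
  choose w hw using hD'
  have hinj : Function.Injective (algebraMap O F) := IsFractionRing.injective O F
  let f₀ : A →+ F := (DistribSMul.toAddMonoidHom F (D : O)).comp μ.toAddMonoidHom
  have hf₀ : ∀ a, f₀ a = (D : O) • μ a := fun a => rfl
  let v : LatM N (↑S : Set ℕ) →+ O :=
    { toFun := fun x => w x
      map_zero' := hinj (by
        have this : v₀ (show LatM N ∅ from (0 : perLat N)) = 0 := map_zero v₀
        exact (hw (0 : perLat N)).trans ((congrArg (fun z => (D : O) • μ z) this).trans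
          (by rw [map_zero, smul_zero, map_zero])))
      map_add' := fun x y => hinj (by
        have this : v₀ (show LatM N ∅ from (x + y : perLat N)) = v₀ (show LatM N ∅ from x) +
          v₀ (show LatM N ∅ from y) := map_add v₀ _ _
        refine (hw (x + y)).trans ((congrArg (fun z => (D : O) • μ z) this).trans ?_)
        have h3 : (D : O) • μ (v₀ (show LatM N ∅ from x) + v₀ (show LatM N ∅ from y)) =
            (D : O) • μ (v₀ (show LatM N ∅ from x)) + (D : O) • μ (v₀ (show LatM N ∅ from y)) := by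
          rw [map_add, smul_add]
        exact h3.trans ((congrArg₂ (· + ·) (hw x).symm (hw y).symm).trans
          (map_add (algebraMap O F) (w x) (w y)).symm)) }
  have hv : ∀ x : LatM N (↑S : Set ℕ), algebraMap O F (v x) = f₀ (v₀ (show LatM N ∅ from x)) :=
    fun x => hw x
  have hchar : (AddMonoidHom.toMultiplicative (algebraMap O F).toAddMonoidHom).comp (oChar v) =
      (AddMonoidHom.toMultiplicative f₀).comp (vChar v₀) := by
    ext γ
    exact congrArg ofAdd (hv _)
  have hinj' : ∀ χ χ' : Gamma0 N →* Multiplicative O,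
      (AddMonoidHom.toMultiplicative (algebraMap O F).toAddMonoidHom).comp χ =
      (AddMonoidHom.toMultiplicative (algebraMap O F).toAddMonoidHom).comp χ' → χ = χ' := by
    intro χ χ' h
    ext γ
    exact hinj (DFunLike.congr_fun h γ)
  refine ⟨v, φ, v₀, f₀, ?_, ?_, hNC, hchar⟩
  · intro h0
    have h1 := hv (show LatM N (↑S : Set ℕ) from x₀)
    rw [h0, AddMonoidHom.zero_apply, map_zero] at h1
    have h2 : (D : O) • μ (v₀ x₀) = 0 := h1.symm
    rw [Algebra.smul_def] at h2
    rcases mul_eq_zero.mp h2 with h3 | h3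
    · exact nonZeroDivisors.ne_zero D.2 (hinj (by rw [h3, map_zero]))
    · exact hμ h3
  · intro t x
    apply hinj
    rw [hv, map_mul, hv]
    have ht' : t.1 ∈ CuspForm.heckeAlgebra N 2 ∅ :=
      Algebra.adjoin_mono (CuspForm.heckeGenerators_mono (Set.empty_subset _)) t.2
    have e1 := LatM_smul_mono t ⟨t.1, ht'⟩ rfl x
    have e2 : v₀ (show LatM N ∅ from t • x) = φ (eigenHom hg.1 ∅ ⟨t.1, ht'⟩) *
        v₀ (show LatM N ∅ from x) := by
      rw [← hv₀T]
      exact congrArg v₀ e1
    have e3 : eigenHom hg.1 ∅ ⟨t.1, ht'⟩ = eigenHom hg.1 (↑S : Set ℕ) t := Subtype.ext rfl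
    rw [e3, hφ, IsScalarTower.algebraMap_apply O F A, ← Algebra.smul_def] at e2
    refine (congrArg f₀ e2).trans ?_
    rw [hf₀, map_smul, hf₀, smul_eq_mul, mul_smul_comm]

/-- the trivial transfer of the characters attached to newforms -/
theorem trOne_oChar (hg : g.IsNewform) {S : Finset ℕ}
    {O : Type} [CommRing O] [IsDomain O] [CharZero O]
    {v : LatM N (↑S : Set ℕ) →+ O}
    {φ : integralClosure ℤ ℂ →+* AlgebraicClosure (FractionRing O)}
    {v₀ : LatM N ∅ →+ AlgebraicClosure (FractionRing O)}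
    {f₀ : AlgebraicClosure (FractionRing O) →+ FractionRing O}
    (hNC : NewChar g φ (vChar v₀))
    (hchar : (AddMonoidHom.toMultiplicative
        (algebraMap O (FractionRing O)).toAddMonoidHom).comp (oChar v) =
        (AddMonoidHom.toMultiplicative f₀).comp (vChar v₀))
    {q K M N' : ℕ} [NeZero q] [NeZero M] [NeZero N'] (hq : q.Prime) (hN : N = q ^ 2 * K)
    (hKM : K ∣ M) (hqM : ¬ q ∣ M) (hN' : N' = q ^ 2 * M) (hNN : N ∣ N')
    (ψ : Multiplicative O →* ℂˣ) : LG.TrOne q M (resC hNN (ψ.comp (oChar v))) := by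
  intro γ hγ γ' s hs
  have hinj : Function.Injective (algebraMap O (FractionRing O)) :=
    IsFractionRing.injective O (FractionRing O)
  have h1 : ∏ c, resC hNN (oChar v) (γ' c) = 1 := by
    have h2 := hNC.T1 hg hq hN hKM ((Nat.Prime.coprime_iff_not_dvd hq).mpr hqM) hN' hNN
      (AddMonoidHom.toMultiplicative f₀) (Fintype.card_fin q)
      (fun c : Fin q => LG.al q M ((c : ℕ) : ℤ)) (fun c => LG.al_mem q M _)
      (fun x y hxy => LG.al_inj (NeZero.ne M) (NeZero.ne q) (by rwa [hN'] at hxy)) hγ γ' s hs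
    rw [← hchar] at h2
    have h3 : (AddMonoidHom.toMultiplicative (algebraMap O (FractionRing O)).toAddMonoidHom)
        (∏ c, resC hNN (oChar v) (γ' c)) = 1 := by
      rw [map_prod]
      exact h2
    have h5 : (algebraMap O (FractionRing O)) (toAdd (∏ c, resC hNN (oChar v) (γ' c))) =
        algebraMap O (FractionRing O) 0 := Eq.trans h3 (map_zero (algebraMap O _)).symm
    exact hinj h5
  have h4 : ∀ c, resC hNN (ψ.comp (oChar v)) (γ' c) = ψ (resC hNN (oChar v) (γ' c)) :=
    fun _ => rfl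
  rw [Finset.prod_congr rfl fun c _ => h4 c, ← map_prod, h1, map_one]

/-- the trivial transfer of the transforms by `W` of the characters attached to newforms -/
theorem trOne_w_oChar (hg : g.IsNewform) {S : Finset ℕ}
    {O : Type} [CommRing O] [IsDomain O] [CharZero O]
    {v : LatM N (↑S : Set ℕ) →+ O}
    {φ : integralClosure ℤ ℂ →+* AlgebraicClosure (FractionRing O)}
    {v₀ : LatM N ∅ →+ AlgebraicClosure (FractionRing O)}
    {f₀ : AlgebraicClosure (FractionRing O) →+ FractionRing O}
    (hNC : NewChar g φ (vChar v₀))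
    (hchar : (AddMonoidHom.toMultiplicative
        (algebraMap O (FractionRing O)).toAddMonoidHom).comp (oChar v) =
        (AddMonoidHom.toMultiplicative f₀).comp (vChar v₀))
    {q K M N' : ℕ} [NeZero q] [NeZero M] [NeZero N'] (hq : q.Prime) (hN : N = q ^ 2 * K)
    (hKM : K ∣ M) (hqM : ¬ q ∣ M) (hN' : N' = q ^ 2 * M) (hNN : N ∣ N') (B : LG.Bez (q ^ 2) M)
    (ψ : Multiplicative O →* ℂˣ) :
    LG.TrOne q M (B.wChar dvd_rfl hN' (resC hNN (ψ.comp (oChar v)))) := by
  intro γ hγ γ' s hs
  have hinj : Function.Injective (algebraMap O (FractionRing O)) :=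
    IsFractionRing.injective O (FractionRing O)
  have hcomp : ∀ {B₁ B₂ : Type} [CommGroup B₁] [CommGroup B₂] (f : B₁ →* B₂)
      (χ : Gamma0 N →* B₁), B.wChar dvd_rfl hN' (resC hNN (f.comp χ)) =
        f.comp (B.wChar dvd_rfl hN' (resC hNN χ)) := by
    intro B₁ B₂ _ _ f χ
    rw [LG.Bez.wChar, LG.Bez.wChar, ← CosetSys.trans_comp]
    rfl
  have h1 : ∏ c, B.wChar dvd_rfl hN' (resC hNN (oChar v)) (γ' c) = 1 := by
    have h2 := hNC.T2 hg hq hN hKM ((Nat.Prime.coprime_iff_not_dvd hq).mpr hqM) hN' hNN B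
      (AddMonoidHom.toMultiplicative f₀) (Fintype.card_fin q)
      (fun c : Fin q => LG.al q M ((c : ℕ) : ℤ)) (fun c => LG.al_mem q M _)
      (fun x y hxy => LG.al_inj (NeZero.ne M) (NeZero.ne q) (by rwa [hN'] at hxy)) hγ γ' s hs
    rw [← hchar, hcomp] at h2
    have h3 : (AddMonoidHom.toMultiplicative (algebraMap O (FractionRing O)).toAddMonoidHom)
        (∏ c, B.wChar dvd_rfl hN' (resC hNN (oChar v)) (γ' c)) = 1 := by
      rw [map_prod]
      exact h2
    have h5 : (algebraMap O (FractionRing O))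
        (toAdd (∏ c, B.wChar dvd_rfl hN' (resC hNN (oChar v)) (γ' c))) =
        algebraMap O (FractionRing O) 0 := Eq.trans h3 (map_zero (algebraMap O _)).symm
    exact hinj h5
  rw [hcomp]
  have h4 : ∀ c, (ψ.comp (B.wChar dvd_rfl hN' (resC hNN (oChar v)))) (γ' c) =
      ψ (B.wChar dvd_rfl hN' (resC hNN (oChar v)) (γ' c)) := fun _ => rfl
  rw [Finset.prod_congr rfl fun c _ => h4 c, ← map_prod, h1, map_one]

end Fermat.Agent.NF
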